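import Mathlib

set_option autoImplicit false

universe u v w

noncomputable section

namespace Fermat.Agent.S25

/-- `u : M → N` is a base change along the ring homomorphism `φ : A → B`
(formulated by the universal property; everything in one universe). -/
structure IsBC {A B M N : Type u} [CommRing A] [CommRing B] [AddCommGroup M] [AddCommGroup N]
    [Module A M] [Module B N] (φ : A →+* B) (g : M →+ N) : Prop where
  smul : ∀ (a : A) (m : M), g (a • m) = φ a • g m
  exu : ∀ (Q : Type u) [AddCommGroup Q] [Module B Q] (h : M →+ Q)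
    (_ : ∀ (a : A) (m : M), h (a • m) = φ a • h m), ∃! h' : N →ₗ[B] Q, ∀ m, h' (g m) = h m

section

variable {A B C M N P : Type u} [CommRing A] [CommRing B] [CommRing C]
  [AddCommGroup M] [AddCommGroup N] [AddCommGroup P] [Module A M] [Module B N] [Module C P]

lemma IsBC.comp {φ : A →+* B} {ψ : B →+* C} {g : M →+ N} {h : N →+ P}
    (hg : IsBC φ g) (hh : IsBC ψ h) : IsBC (ψ.comp φ) (h.comp g) := by
  refine ⟨fun a m ↦ by simp [hg.smul, hh.smul], fun Q _ _ k hk ↦ ?_⟩
  let _ : Module B Q := Module.compHom Q ψ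
  obtain ⟨k₁, hk₁, hk₁'⟩ := hg.exu Q k (fun a m ↦ hk a m)
  obtain ⟨k₂, hk₂, hk₂'⟩ := hh.exu Q k₁.toAddMonoidHom (fun a m ↦ k₁.map_smul a m)
  refine ⟨k₂, fun m ↦ ?_, fun k₃ hk₃ ↦ ?_⟩
  · simpa [hk₁] using hk₂ (g m)
  · apply hk₂'
    let k₄ : N →ₗ[B] Q :=
      { toFun := fun n ↦ k₃ (h n)
        map_add' := fun x y ↦ by simp
        map_smul' := fun b n ↦ by rw [hh.smul, k₃.map_smul]; rfl }
    have : k₄ = k₁ := hk₁' _ (fun m ↦ hk₃ m)
    intro n
    exact congr($this n)

lemma IsBC.of_comp {φ : A →+* B} {ψ : B →+* C} {g : M →+ N} {h : N →+ P}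
    (hg : IsBC φ g) (hh : ∀ b n, h (b • n) = ψ b • h n)
    (hc : IsBC (ψ.comp φ) (h.comp g)) : IsBC ψ h := by
  refine ⟨hh, fun Q _ _ k hk ↦ ?_⟩
  let _ : Module B Q := Module.compHom Q ψ
  obtain ⟨k₁, hk₁, hk₁'⟩ := hc.exu Q (k.comp g) (fun a m ↦ by simp [hg.smul, hk])
  obtain ⟨k₂, hk₂, hk₂'⟩ := hg.exu Q (k.comp g) (fun a m ↦ by simp [hg.smul, hk]; rfl)
  refine ⟨k₁, fun n ↦ ?_, fun k₃ hk₃ ↦ hk₁' _ (fun m ↦ hk₃ _)⟩
  let l₁ : N →ₗ[B] Q :=
    { toFun := fun n ↦ k₁ (h n)
      map_add' := fun x y ↦ by simp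
      map_smul' := fun b n ↦ by rw [hh, k₁.map_smul]; rfl }
  let l₂ : N →ₗ[B] Q :=
    { toFun := fun n ↦ k n
      map_add' := fun x y ↦ by simp
      map_smul' := fun b n ↦ by rw [hk]; rfl }
  have h1 : l₁ = k₂ := hk₂' _ (fun m ↦ hk₁ m)
  have h2 : l₂ = k₂ := hk₂' _ (fun m ↦ rfl)
  exact congr($(h1.trans h2.symm) n)

lemma IsBC.of_bijective (φ : A →+* B) (g : M →+ N) (hφ : Function.Bijective φ)
    (hg : Function.Bijective g) (h : ∀ (a : A) (m : M), g (a • m) = φ a • g m) : IsBC φ g := by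
  refine ⟨h, fun Q _ _ k hk ↦ ?_⟩
  let e := AddEquiv.ofBijective g hg
  refine ⟨{ toFun := fun n ↦ k (e.symm n)
            map_add' := fun x y ↦ by simp
            map_smul' := fun b n ↦ ?_ }, fun m ↦ ?_, fun k' hk' ↦ ?_⟩
  · obtain ⟨a, rfl⟩ := hφ.2 b
    obtain ⟨m, rfl⟩ := hg.2 n
    have : e.symm (φ a • g m) = a • m := by
      rw [AddEquiv.symm_apply_eq]; exact (h a m).symm
    have h2 : e.symm (g m) = m := by
      rw [AddEquiv.symm_apply_eq]; rfl
    rw [this, h2, hk]; rfl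
  · show k (e.symm (e m)) = k m
    rw [e.symm_apply_apply]
  · ext n
    obtain ⟨m, rfl⟩ := hg.2 n
    rw [hk']
    show k m = k (e.symm (e m))
    rw [e.symm_apply_apply]

/-- transport along a commutative square of bijections -/
lemma IsBC.of_square {A' B' M' N' : Type u} [CommRing A'] [CommRing B'] [AddCommGroup M']
    [AddCommGroup N'] [Module A' M'] [Module B' N']
    {φ : A →+* B} {g : M →+ N} {φ' : A' →+* B'} {g' : M' →+ N'}
    (a : A →+* A') (b : B →+* B') (m : M →+ M') (n : N →+ N')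
    (ha : Function.Bijective a) (hb : Function.Bijective b) (hm : Function.Bijective m)
    (hn : Function.Bijective n) (hmS : ∀ r x, m (r • x) = a r • m x)
    (hnS : ∀ r x, n (r • x) = b r • n x)
    (h₁ : b.comp φ = φ'.comp a) (h₂ : n.comp g = g'.comp m)
    (h : IsBC φ' g') : IsBC φ g := by
  have hm' : IsBC a m := .of_bijective _ _ ha hm hmS
  have h3 : IsBC (φ'.comp a) (g'.comp m) := hm'.comp h
  rw [← h₁, ← h₂] at h3
  -- invert `b, n`
  let be := RingEquiv.ofBijective b hb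
  let ne := AddEquiv.ofBijective n hn
  have h4 : IsBC be.symm.toRingHom ne.symm.toAddMonoidHom := by
    refine .of_bijective _ _ be.symm.bijective ne.symm.bijective ?_
    intro r x
    obtain ⟨r, rfl⟩ := be.surjective r
    obtain ⟨x, rfl⟩ := ne.surjective x
    show ne.symm (be r • ne x) = be.symm (be r) • ne.symm (ne x)
    simp only [RingEquiv.symm_apply_apply, AddEquiv.symm_apply_apply]
    rw [AddEquiv.symm_apply_eq]
    exact (hnS r x).symm
  have h5 := h3.comp h4
  convert h5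
  · ext x
    exact (be.symm_apply_apply _).symm
  · ext x
    exact (ne.symm_apply_apply _).symm

/-- transport along a commutative square of bijections, in the other direction -/
lemma IsBC.of_square' {A' B' M' N' : Type u} [CommRing A'] [CommRing B'] [AddCommGroup M']
    [AddCommGroup N'] [Module A' M'] [Module B' N']
    {φ : A →+* B} {g : M →+ N} {φ' : A' →+* B'} {g' : M' →+ N'}
    (a : A' →+* A) (b : B' →+* B) (m : M' →+ M) (n : N' →+ N)
    (ha : Function.Bijective a) (hb : Function.Bijective b) (hm : Function.Bijective m)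
    (hn : Function.Bijective n) (hmS : ∀ r x, m (r • x) = a r • m x)
    (hnS : ∀ r x, n (r • x) = b r • n x)
    (h₁ : b.comp φ' = φ.comp a) (h₂ : n.comp g' = g.comp m)
    (h : IsBC φ' g') : IsBC φ g := by
  have hn' : IsBC b n := .of_bijective _ _ hb hn hnS
  have h3 : IsBC (b.comp φ') (n.comp g') := h.comp hn'
  rw [h₁, h₂] at h3
  have hm' : IsBC a m := .of_bijective _ _ ha hm hmS
  refine IsBC.of_comp hm' (fun r x ↦ ?_) h3
  obtain ⟨r, rfl⟩ := ha.2 r
  obtain ⟨x, rfl⟩ := hm.2 x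
  rw [← hmS]
  exact h3.smul r x

/-- a ring homomorphism is the base change of the unit module -/
lemma IsBC.self (φ : A →+* B) : IsBC φ φ.toAddMonoidHom := by
  refine ⟨fun a m ↦ by simp, fun Q _ _ h hh ↦ ?_⟩
  refine ⟨LinearMap.toSpanSingleton B Q (h 1), fun m ↦ ?_, fun k hk ↦ ?_⟩
  · have := hh m 1
    simp only [smul_eq_mul, mul_one] at this
    simp [this]
  · ext
    have := hk 1
    simpa using this

/-- unbundled comparison with Mathlib's `IsBaseChange`. -/
lemma IsBC.isBaseChange [Algebra A B] [Module A N] [IsScalarTower A B N]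
    (g : M →ₗ[A] N) (h : IsBC (algebraMap A B) g.toAddMonoidHom) : IsBaseChange B g := by
  refine IsBaseChange.of_lift_unique _ ?_
  intro Q _ _ _ _ k
  let _ : AddCommGroup Q := Module.addCommMonoidToAddCommGroup A
  obtain ⟨k₁, hk₁, hk₂⟩ := h.exu Q k.toAddMonoidHom (fun a m ↦ by simp)
  refine ⟨k₁, ?_, fun k₃ hk₃ ↦ hk₂ _ ?_⟩
  · ext m
    exact hk₁ m
  · intro m
    exact congr($hk₃ m)

lemma IsBaseChange.isBC [Algebra A B] [Module A N] [IsScalarTower A B N]
    (g : M →ₗ[A] N) (h : IsBaseChange B g) : IsBC (algebraMap A B) g.toAddMonoidHom := by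
  refine ⟨fun a m ↦ by simp, fun Q _ _ k hk ↦ ?_⟩
  let _ : Module A Q := Module.compHom Q (algebraMap A B)
  have : IsScalarTower A B Q := IsScalarTower.of_algebraMap_smul (fun _ _ ↦ rfl)
  let k' : M →ₗ[A] Q := { k with map_smul' := fun a m ↦ hk a m }
  refine ⟨h.lift k', fun m ↦ h.lift_eq k' m, fun k₂ hk₂ ↦ ?_⟩
  exact h.algHom_ext _ _ (fun m ↦ (hk₂ m).trans (h.lift_eq k' m).symm)

end

end Fermat.Agent.S25
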