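import Mathlib
import Fermat.Agent.S25.IsBC

/-!
# General facts on `IsBC`
-/

set_option autoImplicit false

universe u

open CategoryTheory
open scoped TensorProduct

noncomputable section

namespace Fermat.Agent.S25

section

variable {A B M N : Type u} [CommRing A] [CommRing B]
  [AddCommGroup M] [AddCommGroup N] [Module A M] [Module B N]
  {φ : A →+* B} {g : M →+ N}

/-- the linear extension along a base change -/
def IsBC.lift (h : IsBC φ g) {Q : Type u} [AddCommGroup Q] [Module B Q] (k : M →+ Q)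
    (hk : ∀ (a : A) (m : M), k (a • m) = φ a • k m) : N →ₗ[B] Q :=
  (h.exu Q k hk).choose

@[simp] lemma IsBC.lift_apply (h : IsBC φ g) {Q : Type u} [AddCommGroup Q] [Module B Q] (k : M →+ Q)
    (hk : ∀ (a : A) (m : M), k (a • m) = φ a • k m) (m : M) : h.lift k hk (g m) = k m :=
  (h.exu Q k hk).choose_spec.1 m

lemma IsBC.hom_ext (h : IsBC φ g) {Q : Type u} [AddCommGroup Q] [Module B Q]
    {k₁ k₂ : N →ₗ[B] Q} (e : ∀ m, k₁ (g m) = k₂ (g m)) : k₁ = k₂ :=
  (h.exu Q (k₂.toAddMonoidHom.comp g) (fun a m ↦ by simp [h.smul])).unique e (fun _ ↦ rfl)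

lemma IsBC.span (h : IsBC φ g) : Submodule.span B (Set.range g) = ⊤ := by
  set P := Submodule.span B (Set.range g) with hP
  have h2 : P.mkQ = 0 := h.hom_ext (fun m ↦ by
    simp only [Submodule.mkQ_apply, LinearMap.zero_apply, Submodule.Quotient.mk_eq_zero]
    exact Submodule.subset_span ⟨m, rfl⟩)
  rw [eq_top_iff]
  intro x _
  have := congr($h2 x)
  simpa using this

/-- induction on elements of a base change -/
lemma IsBC.induction (h : IsBC φ g) {p : N → Prop} (hg : ∀ m, p (g m)) (h0 : p 0)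
    (hadd : ∀ x y, p x → p y → p (x + y)) (hsmul : ∀ (b : B) x, p x → p (b • x)) (x : N) : p x := by
  have hx : x ∈ Submodule.span B (Set.range g) := by rw [h.span]; trivial
  induction hx using Submodule.span_induction with
  | mem y hy => obtain ⟨m, rfl⟩ := hy; exact hg m
  | zero => exact h0
  | add y z _ _ hy hz => exact hadd y z hy hz
  | smul b y _ hy => exact hsmul b y hy

/-- Mathlib's `IsBaseChange`, with the instances coming from `φ`. -/
lemma IsBC.isBaseChange' (h : IsBC φ g) :
    let _ := φ.toAlgebra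
    let _ := Module.compHom N φ
    let _ : IsScalarTower A B N := .of_algebraMap_smul fun _ _ ↦ rfl
    IsBaseChange B ({ g with map_smul' := h.smul } : M →ₗ[A] N) := by
  let _ := φ.toAlgebra
  let _ := Module.compHom N φ
  let _ : IsScalarTower A B N := .of_algebraMap_smul fun _ _ ↦ rfl
  exact IsBC.isBaseChange ({ g with map_smul' := h.smul } : M →ₗ[A] N) h

end

section slift

variable {A B C M N Q : Type u} [CommRing A] [CommRing B] [CommRing C]
  [AddCommGroup M] [AddCommGroup N] [AddCommGroup Q] [Module A M] [Module B N] [Module C Q]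
  {φ : A →+* B} {g : M →+ N}

/-- semilinear extension along a base change -/
def IsBC.slift (h : IsBC φ g) (θ : B →+* C) (k : M →+ Q)
    (hk : ∀ (a : A) (m : M), k (a • m) = θ (φ a) • k m) : N →+ Q :=
  letI := Module.compHom Q θ
  (h.lift k hk).toAddMonoidHom

@[simp] lemma IsBC.slift_apply (h : IsBC φ g) (θ : B →+* C) (k : M →+ Q)
    (hk : ∀ (a : A) (m : M), k (a • m) = θ (φ a) • k m) (m : M) :
    h.slift θ k hk (g m) = k m :=
  letI := Module.compHom Q θ
  h.lift_apply k hk m

lemma IsBC.slift_smul (h : IsBC φ g) (θ : B →+* C) (k : M →+ Q)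
    (hk : ∀ (a : A) (m : M), k (a • m) = θ (φ a) • k m) (b : B) (n : N) :
    h.slift θ k hk (b • n) = θ b • h.slift θ k hk n :=
  letI := Module.compHom Q θ
  (h.lift k hk).map_smul b n

lemma IsBC.slift_ext (h : IsBC φ g) (θ : B →+* C) {k₁ k₂ : N →+ Q}
    (hk₁ : ∀ (b : B) n, k₁ (b • n) = θ b • k₁ n) (hk₂ : ∀ (b : B) n, k₂ (b • n) = θ b • k₂ n)
    (e : ∀ m, k₁ (g m) = k₂ (g m)) : k₁ = k₂ := by
  ext x
  refine h.induction (p := fun x ↦ k₁ x = k₂ x) e ?_ ?_ ?_ x
  · simp
  · intro x y hx hy; rw [map_add, map_add, hx, hy]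
  · intro b x hx; rw [hk₁, hk₂, hx]

end slift

section equiv

variable {A B M N N' : Type u} [CommRing A] [CommRing B]
  [AddCommGroup M] [AddCommGroup N] [AddCommGroup N'] [Module A M] [Module B N] [Module B N']
  {φ : A →+* B} {g : M →+ N} {g' : M →+ N'}

/-- two base changes are isomorphic -/
def IsBC.equiv (h : IsBC φ g) (h' : IsBC φ g') : N ≃ₗ[B] N' :=
  LinearEquiv.ofLinearMap (h.lift g' h'.smul) (h'.lift g h.smul)
    (h'.hom_ext (fun m ↦ by simp)) (h.hom_ext (fun m ↦ by simp))

@[simp] lemma IsBC.equiv_apply (h : IsBC φ g) (h' : IsBC φ g') (m : M) :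
    h.equiv h' (g m) = g' m := by
  simp [IsBC.equiv]

@[simp] lemma IsBC.equiv_symm_apply (h : IsBC φ g) (h' : IsBC φ g') (m : M) :
    (h.equiv h').symm (g' m) = g m := by
  rw [LinearEquiv.symm_apply_eq, IsBC.equiv_apply]

end equiv

section exists'

variable {A B : Type u} [CommRing A] [CommRing B] (φ : A →+* B) (M : Type u) [AddCommGroup M]
  [Module A M]

/-- the extension of scalars along a ring homomorphism -/
def Ext : Type u := (ModuleCat.extendScalars φ).obj (ModuleCat.of A M)

instance : AddCommGroup (Ext φ M) :=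
  inferInstanceAs (AddCommGroup ((ModuleCat.extendScalars φ).obj (ModuleCat.of A M)))

instance : Module B (Ext φ M) :=
  inferInstanceAs (Module B ((ModuleCat.extendScalars φ).obj (ModuleCat.of A M)))

/-- the canonical map to the extension of scalars -/
def extMk : M →+ Ext φ M :=
  ((ModuleCat.extendRestrictScalarsAdj φ).unit.app (ModuleCat.of A M)).hom.toAddMonoidHom

lemma isBC_extMk : IsBC φ (extMk φ M) := by
  refine ⟨fun a m ↦ ?_, fun Q _ _ h hh ↦ ?_⟩
  · exact (((ModuleCat.extendRestrictScalarsAdj φ).unit.app (ModuleCat.of A M)).hom.map_smul a m)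
  · let adj := ModuleCat.extendRestrictScalarsAdj φ
    let h' : ModuleCat.of A M ⟶ (ModuleCat.restrictScalars φ).obj (ModuleCat.of B Q) :=
      ModuleCat.ofHom (Y := (ModuleCat.restrictScalars φ).obj (ModuleCat.of B Q))
        { toFun := h
          map_add' := h.map_add
          map_smul' := fun a m ↦ hh a m }
    refine ⟨((adj.homEquiv _ _).symm h').hom, fun m ↦ ?_, fun k hk ↦ ?_⟩
    · have : adj.unit.app (ModuleCat.of A M) ≫ (ModuleCat.restrictScalars φ).map
        ((adj.homEquiv _ _).symm h') = h' := by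
        exact (adj.homEquiv_unit _ _ _).symm.trans (Equiv.apply_symm_apply _ _)
      exact congr(($this).hom m)
    · let k₀ : (ModuleCat.extendScalars φ).obj (ModuleCat.of A M) ⟶ ModuleCat.of B Q :=
        ModuleCat.ofHom (X := (ModuleCat.extendScalars φ).obj (ModuleCat.of A M)) k
      have : k₀ = (adj.homEquiv _ _).symm h' := by
        rw [Equiv.eq_symm_apply]
        refine (adj.homEquiv_unit _ _ _).trans ?_
        ext m
        exact hk m
      rw [← this]
      rfl

end exists'

section map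

variable {A B M₁ N₁ M₂ N₂ : Type u} [CommRing A] [CommRing B]
  [AddCommGroup M₁] [AddCommGroup N₁] [Module A M₁] [Module B N₁]
  [AddCommGroup M₂] [AddCommGroup N₂] [Module A M₂] [Module B N₂]
  {φ : A →+* B} {g₁ : M₁ →+ N₁} {g₂ : M₂ →+ N₂}

/-- the base change of a linear map -/
def IsBC.map (h₁ : IsBC φ g₁) (h₂ : IsBC φ g₂) (f : M₁ →ₗ[A] M₂) : N₁ →ₗ[B] N₂ :=
  h₁.lift (g₂.comp f.toAddMonoidHom) (fun a m ↦ by simp [h₂.smul])

@[simp] lemma IsBC.map_apply (h₁ : IsBC φ g₁) (h₂ : IsBC φ g₂) (f : M₁ →ₗ[A] M₂) (m : M₁) :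
    h₁.map h₂ f (g₁ m) = g₂ (f m) := by
  simp [IsBC.map]

lemma IsBC.map_eq (h₁ : IsBC φ g₁) (h₂ : IsBC φ g₂) (f : M₁ →ₗ[A] M₂) (f' : N₁ →ₗ[B] N₂)
    (hf : ∀ m, f' (g₁ m) = g₂ (f m)) : f' = h₁.map h₂ f :=
  h₁.hom_ext (fun m ↦ by simp [hf])

/-- base change of a surjection is surjective -/
lemma IsBC.surjective (h₂ : IsBC φ g₂) {f : M₁ →ₗ[A] M₂} (f' : N₁ →ₗ[B] N₂)
    (hf : ∀ m, f' (g₁ m) = g₂ (f m)) (hs : Function.Surjective f) : Function.Surjective f' := by
  rw [← LinearMap.range_eq_top, eq_top_iff, ← h₂.span, Submodule.span_le]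
  rintro _ ⟨m, rfl⟩
  obtain ⟨m, rfl⟩ := hs m
  exact ⟨g₁ m, hf m⟩

/-- base change of a cokernel -/
lemma IsBC.coker (h₁ : IsBC φ g₁) (h₂ : IsBC φ g₂) {f : M₁ →ₗ[A] M₂} (f' : N₁ →ₗ[B] N₂)
    (hf : ∀ m, f' (g₁ m) = g₂ (f m)) {g : M₂ ⧸ LinearMap.range f →+ N₂ ⧸ LinearMap.range f'}
    (hg : ∀ m : M₂, g (Submodule.Quotient.mk m) = Submodule.Quotient.mk (g₂ m)) :
    IsBC φ g := by
  refine ⟨fun a m ↦ ?_, fun Q _ _ k hk ↦ ?_⟩
  · obtain ⟨m, rfl⟩ := Submodule.Quotient.mk_surjective _ m
    rw [← Submodule.Quotient.mk_smul, hg, hg, h₂.smul, Submodule.Quotient.mk_smul]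
  · let k₂ : M₂ →+ Q := k.comp (LinearMap.range f).mkQ.toAddMonoidHom
    have hk₂ : ∀ (a : A) m, k₂ (a • m) = φ a • k₂ m := fun a m ↦ by
      simp only [k₂, AddMonoidHom.comp_apply, LinearMap.toAddMonoidHom_coe, map_smul, hk]
    let l : N₂ →ₗ[B] Q := h₂.lift k₂ hk₂
    have hl : LinearMap.range f' ≤ LinearMap.ker l := by
      rw [LinearMap.range_le_ker_iff]
      apply h₁.hom_ext
      intro m
      simp only [LinearMap.comp_apply, hf, l, IsBC.lift_apply, LinearMap.zero_apply, k₂,
        AddMonoidHom.comp_apply, LinearMap.toAddMonoidHom_coe, Submodule.mkQ_apply]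
      rw [(Submodule.Quotient.mk_eq_zero (LinearMap.range f)).mpr (LinearMap.mem_range_self f m),
        map_zero]
    refine ⟨(LinearMap.range f').liftQ l hl, fun m ↦ ?_, fun l' hl' ↦ ?_⟩
    · obtain ⟨m, rfl⟩ := Submodule.Quotient.mk_surjective _ m
      rw [hg]
      show l (g₂ m) = _
      simp [l, k₂]
    · apply Submodule.linearMap_qext
      apply h₂.hom_ext
      intro m
      simp only [LinearMap.comp_apply, Submodule.mkQ_apply, Submodule.liftQ_apply]
      rw [← hg, hl']
      simp [l, k₂]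

/-- base change of a product -/
lemma IsBC.prod (h₁ : IsBC φ g₁) (h₂ : IsBC φ g₂) : IsBC φ (g₁.prodMap g₂) := by
  refine ⟨fun a m ↦ ?_, fun Q _ _ k hk ↦ ?_⟩
  · ext <;> simp [h₁.smul, h₂.smul]
  · let l₁ : N₁ →ₗ[B] Q := h₁.lift (k.comp (AddMonoidHom.inl _ _)) (fun a m ↦ by
      have := hk a (m, 0)
      simpa using this)
    let l₂ : N₂ →ₗ[B] Q := h₂.lift (k.comp (AddMonoidHom.inr _ _)) (fun a m ↦ by
      have := hk a (0, m)
      simpa using this)
    refine ⟨l₁.coprod l₂, fun m ↦ ?_, fun l hl ↦ ?_⟩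
    · obtain ⟨m₁, m₂⟩ := m
      simp only [AddMonoidHom.coe_prodMap, Prod.map_apply, LinearMap.coprod_apply, l₁, l₂,
        IsBC.lift_apply, AddMonoidHom.comp_apply, AddMonoidHom.inl_apply, AddMonoidHom.inr_apply]
      rw [← map_add]
      simp
    · apply LinearMap.prod_ext
      · apply h₁.hom_ext
        intro m
        have := hl (m, 0)
        simp only [AddMonoidHom.coe_prodMap, Prod.map_apply, map_zero] at this
        simp [l₁, this]
      · apply h₂.hom_ext
        intro m
        have := hl (0, m)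
        simp only [AddMonoidHom.coe_prodMap, Prod.map_apply, map_zero] at this
        simp [l₂, this]

end map

section finite

variable {A B M N : Type u} [CommRing A] [CommRing B]
  [AddCommGroup M] [AddCommGroup N] [Module A M] [Module B N]
  {φ : A →+* B} {g : M →+ N}

lemma IsBC.finite (h : IsBC φ g) [Module.Finite A M] : Module.Finite B N := by
  let _ := φ.toAlgebra
  let _ := Module.compHom N φ
  let _ : IsScalarTower A B N := .of_algebraMap_smul fun _ _ ↦ rfl
  exact Module.Finite.of_surjective _ (h.isBaseChange'.equiv.surjective)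

lemma IsBC.projective (h : IsBC φ g) [Module.Projective A M] : Module.Projective B N := by
  let _ := φ.toAlgebra
  let _ := Module.compHom N φ
  let _ : IsScalarTower A B N := .of_algebraMap_smul fun _ _ ↦ rfl
  exact Module.Projective.of_equiv (h.isBaseChange'.equiv)

lemma IsBC.invertible (h : IsBC φ g) [Module.Invertible A M] : Module.Invertible B N := by
  let _ := φ.toAlgebra
  let _ := Module.compHom N φ
  let _ : IsScalarTower A B N := .of_algebraMap_smul fun _ _ ↦ rfl
  exact Module.Invertible.congr (h.isBaseChange'.equiv)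

end finite

section kernel

variable {A B M₁ N₁ M₂ N₂ : Type u} [CommRing A] [CommRing B]
  [AddCommGroup M₁] [AddCommGroup N₁] [Module A M₁] [Module B N₁]
  [AddCommGroup M₂] [AddCommGroup N₂] [Module A M₂] [Module B N₂]
  {φ : A →+* B} {g₁ : M₁ →+ N₁} {g₂ : M₂ →+ N₂}

/-- base change of the kernel of a split surjection -/
lemma IsBC.ker (h₁ : IsBC φ g₁) (h₂ : IsBC φ g₂) {f : M₁ →ₗ[A] M₂} (f' : N₁ →ₗ[B] N₂)
    (hf : ∀ m, f' (g₁ m) = g₂ (f m)) (hs : Function.Surjective f) [Module.Projective A M₂]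
    {g : LinearMap.ker f →+ LinearMap.ker f'} (hg : ∀ m, (g m : N₁) = g₁ m) :
    IsBC φ g := by
  obtain ⟨s, hs⟩ := Module.projective_lifting_property f LinearMap.id hs
  have hs' : ∀ x, f (s x) = x := fun x ↦ congr($hs x)
  -- the projection onto the kernel
  let p : M₁ →ₗ[A] LinearMap.ker f := (LinearMap.id - s ∘ₗ f).codRestrict _ (fun x ↦ by
    simp [hs'])
  have hp : ∀ x : LinearMap.ker f, p x = x := fun x ↦ by
    ext
    simp [p, LinearMap.codRestrict_apply]
  let s' : N₂ →ₗ[B] N₁ := h₂.map h₁ s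
  have hs2 : ∀ x, f' (s' x) = x := by
    have : f' ∘ₗ s' = LinearMap.id := h₂.hom_ext (fun m ↦ by simp [s', hf, hs'])
    exact fun x ↦ congr($this x)
  refine ⟨fun a m ↦ Subtype.ext ?_, fun Q _ _ k hk ↦ ?_⟩
  · rw [hg, Submodule.coe_smul, Submodule.coe_smul, hg, h₁.smul]
  · let l : N₁ →ₗ[B] Q := h₁.lift (k.comp p.toAddMonoidHom) (fun a m ↦ by simp [hk])
    refine ⟨l ∘ₗ (LinearMap.ker f').subtype, fun m ↦ ?_, fun l' hl' ↦ ?_⟩
    · simp only [LinearMap.comp_apply, Submodule.subtype_apply, hg, l, IsBC.lift_apply,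
        AddMonoidHom.comp_apply, LinearMap.toAddMonoidHom_coe, hp]
    · let p' : N₁ →ₗ[B] LinearMap.ker f' := (LinearMap.id - s' ∘ₗ f').codRestrict _ (fun x ↦ by
        simp [hs2])
      have hp' : ∀ x : LinearMap.ker f', p' x = x := fun x ↦ by
        ext
        simp [p', LinearMap.codRestrict_apply]
      have hpp : ∀ m, p' (g₁ m) = g (p m) := by
        intro m
        ext
        rw [hg]
        simp [p, p', hf, s']
      have h3 : l' ∘ₗ p' = l := h₁.hom_ext (fun m ↦ by simp [hpp, hl', l])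
      ext x
      rw [← hp' x]
      have := congr($h3 (x : N₁))
      simp only [LinearMap.comp_apply] at this
      rw [this, hp']
      rfl

end kernel

section tower

variable {B B' R R' M M' : Type u} [CommRing B] [CommRing B'] [CommRing R] [CommRing R']
  [Algebra B R] [Algebra B' R'] [AddCommGroup M] [AddCommGroup M'] [Module R M] [Module R' M']
  [Module B M] [Module B' M'] [IsScalarTower B R M] [IsScalarTower B' R' M']
  {φ : B →+* B'} {ψ : R →+* R'} {u : M →+ M'}

/-- the `R'`-module structure on `R' →ₗ[B'] Q` through the source -/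
@[reducible] def coindModule (B' R' Q : Type u) [CommRing B'] [CommRing R'] [Algebra B' R']
    [AddCommGroup Q] [Module B' Q] : Module R' (R' →ₗ[B'] Q) where
  smul r p := p ∘ₗ (LinearMap.mulLeft B' r)
  one_smul p := by
    ext x
    show p (1 * x) = p x
    rw [one_mul]
  mul_smul r s p := by
    ext x
    show p (r * s * x) = p (s * (r * x))
    congr 1
    ring
  smul_zero r := rfl
  smul_add r p q := rfl
  add_smul r s p := by
    ext x
    show p ((r + s) * x) = p (r * x) + p (s * x)
    rw [add_mul, map_add]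
  zero_smul p := by
    ext x
    show p (0 * x) = 0
    rw [zero_mul, map_zero]

/-- If `R' = B' ⊗_B R` and `M' = R' ⊗_R M` then `M' = B' ⊗_B M`. -/
lemma IsBC.tower (hψ : IsBC φ ψ.toAddMonoidHom) (hu : IsBC ψ u) : IsBC φ u := by
  have hι : ∀ b : B, ψ (algebraMap B R b) = algebraMap B' R' (φ b) := by
    intro b
    have := hψ.smul b 1
    simpa [Algebra.smul_def] using this
  refine ⟨fun b m ↦ ?_, fun Q _ _ h hh ↦ ?_⟩
  · rw [← algebraMap_smul R b m, hu.smul, hι, algebraMap_smul]
  · let _ : Module R' (R' →ₗ[B'] Q) := coindModule B' R' Q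
    have hsm : ∀ (r x : R') (p : R' →ₗ[B'] Q), (r • p) x = p (r * x) := fun _ _ _ ↦ rfl
    have hk : ∀ (m : M) (b : B) (r : R), (h.comp (AddMonoidHom.mk' (fun r : R ↦ r • m)
        (fun r s ↦ add_smul r s m))) (b • r) = φ b • (h.comp (AddMonoidHom.mk'
        (fun r : R ↦ r • m) (fun r s ↦ add_smul r s m))) r := by
      intro m b r
      simp only [AddMonoidHom.comp_apply, AddMonoidHom.mk'_apply]
      rw [smul_assoc, hh]
    let H : M →+ (R' →ₗ[B'] Q) := AddMonoidHom.mk' (fun m ↦ hψ.lift _ (hk m)) (by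
      intro m m'
      apply hψ.hom_ext
      intro r
      simp only [IsBC.lift_apply, LinearMap.add_apply, AddMonoidHom.comp_apply,
        AddMonoidHom.mk'_apply]
      rw [smul_add, map_add])
    have hH : ∀ m (r : R), H m (ψ r) = h (r • m) := fun m r ↦ by
      show hψ.lift _ (hk m) (ψ.toAddMonoidHom r) = _
      rw [IsBC.lift_apply]
      rfl
    have hHs : ∀ (r : R) m, H (r • m) = ψ r • H m := by
      intro r m
      apply hψ.hom_ext
      intro s
      show H (r • m) (ψ s) = (ψ r • H m) (ψ s)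
      rw [hH, hsm, ← map_mul, hH, smul_smul, mul_comm]
    refine ⟨⟨⟨fun x ↦ hu.lift H hHs x 1, fun x y ↦ by simp⟩, fun b x ↦ ?_⟩, fun m ↦ ?_,
      fun k hk ↦ ?_⟩
    · simp only [RingHom.id_apply]
      rw [← algebraMap_smul R' b x, map_smul, hsm, ← Algebra.smul_def, map_smul]
    · show hu.lift H hHs (u m) 1 = h m
      rw [IsBC.lift_apply]
      have := hH m 1
      rwa [map_one, one_smul] at this
    · let K : M' →ₗ[R'] (R' →ₗ[B'] Q) :=
        { toFun := fun x ↦ k ∘ₗ (LinearMap.toSpanSingleton R' M' x).restrictScalars B'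
          map_add' := fun x y ↦ by ext r; simp
          map_smul' := fun r x ↦ by
            ext s
            show k (s • (r • x)) = k ((r * s) • x)
            rw [smul_smul, mul_comm] }
      have hK : K = hu.lift H hHs := by
        apply hu.hom_ext
        intro m
        rw [IsBC.lift_apply]
        apply hψ.hom_ext
        intro r
        show k (ψ r • u m) = H m (ψ r)
        rw [hH, ← hu.smul, hk]
      ext x
      show k x = hu.lift H hHs x 1
      rw [← hK]
      show k x = k ((1 : R') • x)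
      rw [one_smul]

lemma IsBC.of_tower (hψ : IsBC φ ψ.toAddMonoidHom) (hsm : ∀ (r : R) m, u (r • m) = ψ r • u m)
    (hu : IsBC φ u) : IsBC ψ u := by
  refine ⟨hsm, fun Q _ _ h hh ↦ ?_⟩
  have hι : ∀ b : B, ψ (algebraMap B R b) = algebraMap B' R' (φ b) := by
    intro b
    have := hψ.smul b 1
    simpa [Algebra.smul_def] using this
  let _ : Module B' Q := Module.compHom Q (algebraMap B' R')
  have : IsScalarTower B' R' Q := .of_algebraMap_smul fun _ _ ↦ rfl
  have hh' : ∀ (b : B) m, h (b • m) = φ b • h m := by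
    intro b m
    rw [← algebraMap_smul R b m, hh, hι, algebraMap_smul]
  refine ⟨{ hu.lift h hh' with map_smul' := ?_ }, fun m ↦ hu.lift_apply h hh' m, fun k hk ↦ ?_⟩
  · intro r x
    simp only [AddHom.toFun_eq_coe, LinearMap.coe_toAddHom, RingHom.id_apply]
    refine hψ.induction (p := fun r : R' ↦ ∀ x, (hu.lift h hh') (r • x) = r • (hu.lift h hh') x)
      ?_ ?_ ?_ ?_ r x
    · intro r x
      refine hu.induction (p := fun x ↦ (hu.lift h hh') (ψ.toAddMonoidHom r • x) =
        ψ.toAddMonoidHom r • (hu.lift h hh') x) ?_ ?_ ?_ ?_ x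
      · intro m
        show (hu.lift h hh') (ψ r • u m) = ψ r • (hu.lift h hh') (u m)
        rw [← hsm, IsBC.lift_apply, IsBC.lift_apply, hh]
      · simp
      · intro x y hx hy
        rw [smul_add, map_add, hx, hy, map_add, smul_add]
      · intro b x hx
        rw [smul_comm, map_smul, hx, map_smul, smul_comm]
    · intro x; simp
    · intro r s hr hs x
      rw [add_smul, map_add, hr, hs, add_smul]
    · intro b r hr x
      rw [smul_assoc, map_smul, hr, smul_assoc]
  · have h1 : k.restrictScalars B' = hu.lift h hh' := hu.hom_ext (fun m ↦ by simp [hk])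
    ext x
    exact congr($h1 x)

end tower

section prod'

variable {A B C M N P : Type u} [CommRing A] [CommRing B] [CommRing C]
  [AddCommGroup M] [AddCommGroup N] [AddCommGroup P] [Module A M] [Module B N] [Module C P]

/-- the base change map of rings `B ⊗ A₀ → B' ⊗ A₀` is a base change -/
lemma isBC_tensorMap {k B B' A₀ : Type u} [CommRing k] [CommRing B] [CommRing B'] [CommRing A₀]
    [Algebra k B] [Algebra k B'] [Algebra k A₀] (φ : B →ₐ[k] B') :
    IsBC φ.toRingHom (Algebra.TensorProduct.map φ (AlgHom.id k A₀)).toRingHom.toAddMonoidHom := by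
  refine ⟨fun b x ↦ ?_, fun Q _ _ h hh ↦ ?_⟩
  · induction x with
    | zero => simp
    | add x y hx hy => rw [smul_add, map_add, hx, hy, map_add, smul_add]
    | tmul c a => simp [TensorProduct.smul_tmul']
  · let _ : Module k Q := Module.compHom Q (algebraMap k B')
    have : IsScalarTower k B' Q := .of_algebraMap_smul fun _ _ ↦ rfl
    let h₀ : A₀ →ₗ[k] Q :=
      { toFun := fun a ↦ h (1 ⊗ₜ[k] a)
        map_add' := fun a b ↦ by rw [TensorProduct.tmul_add, map_add]
        map_smul' := fun c a ↦ by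
          have h1 := hh (algebraMap k B c) (1 ⊗ₜ[k] a)
          have h2 : (algebraMap k B c) • ((1 : B) ⊗ₜ[k] a) = 1 ⊗ₜ[k] (c • a) := by
            rw [TensorProduct.smul_tmul', smul_eq_mul, mul_one, Algebra.algebraMap_eq_smul_one,
              TensorProduct.smul_tmul]
          rw [h2] at h1
          rw [h1]
          have h3 : (φ.toRingHom (algebraMap k B c)) = algebraMap k B' c := φ.commutes c
          rw [h3, algebraMap_smul, RingHom.id_apply] }
    let k₁ : TensorProduct k B' A₀ →ₗ[B'] Q := TensorProduct.AlgebraTensorModule.lift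
      ((LinearMap.lsmul B' (A₀ →ₗ[k] Q)).flip h₀)
    have hk₁ : ∀ b a, k₁ (b ⊗ₜ[k] a) = b • h (1 ⊗ₜ[k] a) := fun b a ↦ by
      simp [k₁, h₀]
    refine ⟨k₁, fun m ↦ ?_, fun k' hk' ↦ ?_⟩
    · induction m with
      | zero => simp
      | add x y hx hy => rw [map_add, map_add, hx, hy, map_add]
      | tmul c a =>
        have h2 : (c ⊗ₜ[k] a : TensorProduct k B A₀) = c • (1 ⊗ₜ[k] a) := by
          rw [TensorProduct.smul_tmul', smul_eq_mul, mul_one]
        rw [h2, hh]
        show k₁ (Algebra.TensorProduct.map φ (AlgHom.id k A₀) (c • (1 ⊗ₜ[k] a))) = _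
        rw [← h2, Algebra.TensorProduct.map_tmul, hk₁]
        rfl
    · apply TensorProduct.AlgebraTensorModule.ext
      intro b a
      rw [hk₁, ← hk' (1 ⊗ₜ[k] a), ← map_smul]
      congr 1
      show _ = b • (Algebra.TensorProduct.map φ (AlgHom.id k A₀) (1 ⊗ₜ[k] a))
      rw [Algebra.TensorProduct.map_tmul, TensorProduct.smul_tmul', map_one, smul_eq_mul, mul_one]
      rfl

end prod'

end Fermat.Agent.S25
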