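import Mathlib

/-!
# Lattices at `0` and `∞` on the projective line over an arbitrary ring

`M` is a module over a commutative ring `B` with an automorphism `T` (multiplication by the
coordinate).  A submodule `N` is a *standard lattice* (`IsStd T N`) if `(M, N)` is a
`T`-equivariant retract of `(B[T,T⁻¹]^r, B[T]^r)`.  A vector bundle on `ℙ¹_B` is
a pair `M0, M1` with `IsStd T M0` and `IsStd T.symm M1`; its cohomology is `M0 ⊓ M1` and
`M ⧸ (M0 ⊔ M1)`.
-/

set_option autoImplicit false

namespace Fermat.Agent.S25.Alg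

open Submodule Module

/-- `B[T,T⁻¹]^r`. -/
abbrev StdMod (B : Type*) [CommRing B] (ι : Type) := (ι × ℤ) →₀ B

section

variable (B : Type*) [CommRing B]

/-- the shift by `n` on `B[T,T⁻¹]^r`. -/
noncomputable def shift (r : Type) (n : ℤ) : StdMod B r ≃ₗ[B] StdMod B r :=
  Finsupp.domLCongr ((Equiv.refl r).prodCongr (Equiv.addRight n))

variable {B}

@[simp] lemma shift_single (r : Type) (n : ℤ) (a : r) (z : ℤ) (b : B) :
    shift B r n (Finsupp.single (a, z) b) = Finsupp.single (a, z + n) b := by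
  simp [shift, Finsupp.domLCongr_single]

lemma shift_apply (r : Type) (n : ℤ) (x : StdMod B r) (a : r) (z : ℤ) :
    shift B r n x (a, z) = x (a, z - n) := by
  simp [shift, Finsupp.domLCongr_apply, Finsupp.domCongr_apply, Equiv.prodCongr_symm,
    Equiv.prodCongr_apply, sub_eq_add_neg]

@[simp] lemma shift_zero (r : Type) : shift B r 0 = 1 := by
  apply LinearEquiv.ext
  intro x
  ext ⟨a, z⟩
  simp [shift_apply]

lemma shift_add (r : Type) (m n : ℤ) : shift B r (m + n) = shift B r m * shift B r n := by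
  apply LinearEquiv.ext
  intro x
  ext ⟨a, z⟩
  rw [LinearEquiv.mul_apply, shift_apply, shift_apply, shift_apply]
  congr 2
  ring

lemma shift_one_zpow (r : Type) (n : ℤ) : (shift B r 1) ^ n = shift B r n := by
  have key : ∀ m : ℕ, (shift B r 1) ^ m = shift B r (m : ℤ) := by
    intro m
    induction m with
    | zero => simp
    | succ m ih => rw [pow_succ, ih, Nat.cast_succ, shift_add]
  obtain ⟨m, rfl | rfl⟩ := n.eq_nat_or_neg
  · simpa using key m
  · rw [zpow_neg, zpow_natCast, key m, inv_eq_iff_mul_eq_one, ← shift_add]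
    simp

variable (B)
/-- the non-negative part `B[T]^r`. -/
def StdNonneg (r : Type) : Submodule B (StdMod B r) :=
  Finsupp.supported B B {p | 0 ≤ p.2}
variable {B}

lemma mem_stdNonneg {r : Type} {x : StdMod B r} :
    x ∈ StdNonneg B r ↔ ∀ a z, z < 0 → x (a, z) = 0 := by
  rw [StdNonneg, Finsupp.mem_supported]
  constructor
  · intro h a z hz
    by_contra hne
    have := h (Finsupp.mem_support_iff.mpr hne)
    simp only [Set.mem_ofPred_eq] at this
    omega
  · intro h p hp
    obtain ⟨a, z⟩ := p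
    simp only [Set.mem_ofPred_eq]
    by_contra hlt
    exact (Finsupp.mem_support_iff.mp hp) (h a z (by omega))

/-- projection to the coordinates in a set -/
noncomputable def trunc (r : Type) (s : Set (r × ℤ)) : StdMod B r →ₗ[B] StdMod B r := by
  classical
  exact (Finsupp.supported B B s).subtype ∘ₗ Finsupp.restrictDom B B s

lemma trunc_apply_mem (r : Type) (s : Set (r × ℤ)) (x : StdMod B r) (p : r × ℤ)
    (hp : p ∈ s) : trunc r s x p = x p := by
  classical
  simp only [trunc, LinearMap.comp_apply, Submodule.subtype_apply, Finsupp.restrictDom_apply]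
  rw [Finsupp.filter_apply_pos _ _ hp]

lemma trunc_apply_notMem (r : Type) (s : Set (r × ℤ)) (x : StdMod B r) (p : r × ℤ)
    (hp : p ∉ s) : trunc r s x p = 0 := by
  classical
  simp only [trunc, LinearMap.comp_apply, Submodule.subtype_apply, Finsupp.restrictDom_apply]
  rw [Finsupp.filter_apply_neg _ _ hp]

lemma trunc_add_trunc_compl (r : Type) (s : Set (r × ℤ)) (x : StdMod B r) :
    trunc r s x + trunc r sᶜ x = x := by
  ext p
  by_cases hp : p ∈ s
  · rw [Finsupp.add_apply, trunc_apply_mem _ _ _ _ hp, trunc_apply_notMem _ _ _ _ (by simpa using hp),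
      add_zero]
  · rw [Finsupp.add_apply, trunc_apply_notMem _ _ _ _ hp, trunc_apply_mem _ _ _ _ (by simpa using hp),
      zero_add]

end

variable {B : Type*} [CommRing B] {M : Type*} [AddCommGroup M] [Module B M]

/-- data exhibiting `(M, N)` as a retract of `(B[T,T⁻¹]^r, B[T]^r)`. -/
structure StdData (T : M ≃ₗ[B] M) (N : Submodule B M) where
  r : Type
  [fin : Fintype r]
  i : M →ₗ[B] StdMod B r
  π : StdMod B r →ₗ[B] M
  πi : ∀ x, π (i x) = x
  iT : ∀ x, i (T x) = shift B r 1 (i x)
  πT : ∀ x, π (shift B r 1 x) = T (π x)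
  iN : ∀ x ∈ N, i x ∈ StdNonneg B r
  πN : ∀ y ∈ StdNonneg B r, π y ∈ N

/-- `N` is a standard lattice in `M`. -/
def IsStd (T : M ≃ₗ[B] M) (N : Submodule B M) : Prop := Nonempty (StdData T N)

attribute [instance] StdData.fin

namespace StdData

variable {T : M ≃ₗ[B] M} {N : Submodule B M} (D : StdData T N)
include D

lemma mem_iff (x : M) : x ∈ N ↔ D.i x ∈ StdNonneg B D.r :=
  ⟨D.iN x, fun h => by simpa [D.πi] using D.πN _ h⟩

lemma i_zpow (n : ℤ) (x : M) : D.i ((T ^ n) x) = shift B D.r n (D.i x) := by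
  have key : ∀ m : ℕ, ∀ x, D.i ((T ^ m) x) = ((shift B D.r 1) ^ m) (D.i x) := by
    intro m
    induction m with
    | zero => intro x; simp
    | succ m ih =>
      intro x
      rw [pow_succ', pow_succ', LinearEquiv.mul_apply, LinearEquiv.mul_apply, D.iT, ih]
  rw [← shift_one_zpow]
  obtain ⟨m, rfl | rfl⟩ := n.eq_nat_or_neg
  · simpa using key m x
  · rw [zpow_neg, zpow_neg, zpow_natCast, zpow_natCast]
    have h := key m ((T ^ m)⁻¹ x)
    rw [← LinearEquiv.mul_apply, mul_inv_cancel, LinearEquiv.coe_one, id_eq] at h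
    rw [h, ← LinearEquiv.mul_apply, inv_mul_cancel, LinearEquiv.coe_one, id_eq]

lemma π_zpow (n : ℤ) (x : StdMod B D.r) : D.π (shift B D.r n x) = (T ^ n) (D.π x) := by
  have key : ∀ m : ℕ, ∀ x, D.π (((shift B D.r 1) ^ m) x) = (T ^ m) (D.π x) := by
    intro m
    induction m with
    | zero => intro x; simp
    | succ m ih =>
      intro x
      rw [pow_succ', pow_succ', LinearEquiv.mul_apply, LinearEquiv.mul_apply, D.πT, ih]
  rw [← shift_one_zpow]
  obtain ⟨m, rfl | rfl⟩ := n.eq_nat_or_neg
  · simpa using key m x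
  · rw [zpow_neg, zpow_neg, zpow_natCast, zpow_natCast]
    have h := key m (((shift B D.r 1) ^ m)⁻¹ x)
    rw [← LinearEquiv.mul_apply, mul_inv_cancel, LinearEquiv.coe_one, id_eq] at h
    rw [h, ← LinearEquiv.mul_apply, inv_mul_cancel, LinearEquiv.coe_one, id_eq]

lemma zpow_mem {x : M} (hx : x ∈ N) {n : ℤ} (hn : 0 ≤ n) : (T ^ n) x ∈ N := by
  rw [D.mem_iff] at hx ⊢
  rw [D.i_zpow, mem_stdNonneg]
  rw [mem_stdNonneg] at hx
  intro a z hz
  rw [shift_apply]
  exact hx _ _ (by omega)

/-- the generators of `N` over `B[T]`. -/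
noncomputable def gen (a : D.r) : M := D.π (Finsupp.single (a, 0) 1)

lemma zpow_gen (n : ℤ) (a : D.r) :
    (T ^ n) (D.gen a) = D.π (Finsupp.single (a, n) 1) := by
  rw [gen, ← D.π_zpow, shift_single, zero_add]

lemma gen_mem (a : D.r) : D.gen a ∈ N := by
  classical
  apply D.πN
  rw [mem_stdNonneg]
  intro b z hz
  rw [Finsupp.single_apply, if_neg]
  intro h
  simp only [Prod.mk.injEq] at h
  omega

/-- every element of `M` is moved into `N` by high powers of `T`. -/
lemma exists_zpow_mem (x : M) : ∃ n : ℤ, ∀ m : ℤ, n ≤ m → (T ^ m) x ∈ N := by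
  classical
  obtain ⟨n, hn⟩ : ∃ n : ℤ, ∀ p ∈ (D.i x).support, -n ≤ p.2 := by
    refine ⟨∑ p ∈ (D.i x).support, |p.2|, fun p hp => ?_⟩
    have h1 : |p.2| ≤ ∑ p ∈ (D.i x).support, |p.2| :=
      Finset.single_le_sum (f := fun p : D.r × ℤ => |p.2|) (fun _ _ => abs_nonneg _) hp
    have h2 := neg_abs_le p.2
    omega
  refine ⟨n, fun m hm => ?_⟩
  rw [D.mem_iff, D.i_zpow, mem_stdNonneg]
  intro a z hz
  rw [shift_apply]
  by_contra hne
  have := hn _ (Finsupp.mem_support_iff.mpr hne)
  simp only at this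
  omega

lemma exists_zpow_mem_of_finite {ι : Type*} [Finite ι] (x : ι → M) :
    ∃ n : ℤ, ∀ m : ℤ, n ≤ m → ∀ a, (T ^ m) (x a) ∈ N := by
  classical
  have := Fintype.ofFinite ι
  choose n hn using fun a => D.exists_zpow_mem (x a)
  refine ⟨∑ a, |n a|, fun m hm a => hn a m ?_⟩
  have h1 : |n a| ≤ ∑ a, |n a| :=
    Finset.single_le_sum (f := fun a => |n a|) (fun _ _ => abs_nonneg _) (Finset.mem_univ a)
  have h2 := le_abs_self (n a)
  omega

lemma span_eq_top : span B (Set.range fun p : D.r × ℤ => (T ^ p.2) (D.gen p.1)) = ⊤ := by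
  rw [eq_top_iff]
  intro x _
  rw [← D.πi x]
  generalize D.i x = y
  induction y using Finsupp.induction_linear with
  | zero => simp
  | add f g hf hg => rw [map_add]; exact add_mem hf hg
  | single p b =>
    obtain ⟨a, z⟩ := p
    have : D.π (Finsupp.single (a, z) b) = b • (T ^ z) (D.gen a) := by
      rw [D.zpow_gen, ← map_smul, Finsupp.smul_single, smul_eq_mul, mul_one]
    rw [this]
    exact smul_mem _ _ (subset_span ⟨(a, z), rfl⟩)

lemma span_nonneg_eq :
    span B (Set.range fun p : D.r × ℕ => (T ^ (p.2 : ℤ)) (D.gen p.1)) = N := by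
  apply le_antisymm
  · rw [span_le]
    rintro _ ⟨⟨a, n⟩, rfl⟩
    exact D.zpow_mem (D.gen_mem a) (by positivity)
  · intro x hx
    rw [← D.πi x]
    have hx' := D.iN x hx
    rw [StdNonneg, Finsupp.supported_eq_span_single] at hx'
    generalize D.i x = y at hx'
    induction hx' using Submodule.span_induction with
    | mem y hy =>
      obtain ⟨⟨a, z⟩, hz, rfl⟩ := hy
      simp only [Set.mem_ofPred_eq] at hz
      obtain ⟨n, rfl⟩ := Int.eq_ofNat_of_zero_le hz
      rw [← D.zpow_gen]
      exact subset_span ⟨(a, n), rfl⟩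
    | zero => simp
    | add y z _ _ h1 h2 => rw [map_add]; exact add_mem h1 h2
    | smul b y _ h1 => rw [map_smul]; exact smul_mem _ _ h1

lemma projective_quotient : Module.Projective B (M ⧸ N) := by
  classical
  let s : Set (D.r × ℤ) := {p | 0 ≤ p.2}
  let f : M →ₗ[B] StdMod B D.r := trunc D.r sᶜ ∘ₗ D.i
  have hf : ∀ x ∈ N, f x = 0 := by
    intro x hx
    have h := D.iN x hx
    ext p
    by_cases hp : p ∈ sᶜ
    · rw [LinearMap.comp_apply, trunc_apply_mem _ _ _ _ hp]
      rw [mem_stdNonneg] at h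
      obtain ⟨a, z⟩ := p
      exact h a z (by simpa [s] using hp)
    · rw [LinearMap.comp_apply, trunc_apply_notMem _ _ _ _ hp]; rfl
  refine Module.Projective.of_split (N.liftQ f hf) (N.mkQ ∘ₗ D.π) ?_
  apply Submodule.linearMap_qext
  ext x
  simp only [LinearMap.comp_apply, Submodule.liftQ_apply, f, LinearMap.id_comp, LinearMap.id_coe,
    id_eq, Submodule.mkQ_apply]
  have h := trunc_add_trunc_compl D.r s (D.i x)
  have h1 : D.π (trunc D.r s (D.i x)) ∈ N := by
    apply D.πN
    rw [mem_stdNonneg]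
    intro a z hz
    exact trunc_apply_notMem _ _ _ _ (by simpa [s] using hz)
  rw [Submodule.Quotient.eq]
  have h2 : D.π (trunc D.r sᶜ (D.i x)) - x = - D.π (trunc D.r s (D.i x)) := by
    have h3 := congrArg D.π h
    rw [map_add, D.πi] at h3
    rw [sub_eq_iff_eq_add, ← sub_eq_neg_add, eq_sub_iff_add_eq', h3]
  rw [h2]
  exact neg_mem h1

lemma projective_self : Module.Projective B N := by
  classical
  let s : Set (D.r × ℤ) := {p | 0 ≤ p.2}
  have h1 : ∀ x, D.π (trunc D.r s x) ∈ N := by
    intro x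
    apply D.πN
    rw [mem_stdNonneg]
    intro a z hz
    exact trunc_apply_notMem _ _ _ _ (by simpa [s] using hz)
  refine Module.Projective.of_split (D.i ∘ₗ N.subtype) ((D.π ∘ₗ trunc D.r s).codRestrict N h1) ?_
  ext ⟨x, hx⟩
  simp only [LinearMap.comp_apply, LinearMap.codRestrict_apply, Submodule.subtype_apply,
    LinearMap.id_coe, id_eq]
  have h := trunc_add_trunc_compl D.r s (D.i x)
  have h2 : trunc D.r sᶜ (D.i x) = 0 := by
    have h := D.iN x hx
    ext p
    by_cases hp : p ∈ sᶜ
    · rw [trunc_apply_mem _ _ _ _ hp]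
      rw [mem_stdNonneg] at h
      obtain ⟨a, z⟩ := p
      exact h a z (by simpa [s] using hp)
    · rw [trunc_apply_notMem _ _ _ _ hp]; rfl
  rw [h2, add_zero] at h
  rw [h, D.πi]

lemma projective_top : Module.Projective B M :=
  Module.Projective.of_split D.i D.π (by ext x; exact D.πi x)

/-- transport along an automorphism commuting with `T` -/
noncomputable def map (e : M ≃ₗ[B] M) (he : ∀ x, e (T x) = T (e x)) : StdData T (N.map (e : M →ₗ[B] M)) where
  r := D.r
  i := D.i ∘ₗ e.symm
  π := e ∘ₗ D.π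
  πi x := by simp [D.πi]
  iT x := by
    simp only [LinearMap.comp_apply, LinearEquiv.coe_coe]
    have : e.symm (T x) = T (e.symm x) := by
      rw [LinearEquiv.symm_apply_eq, he, LinearEquiv.apply_symm_apply]
    rw [this, D.iT]
  πT x := by simp [D.πT, he]
  iN x hx := by
    obtain ⟨y, hy, rfl⟩ := hx
    simpa using D.iN y hy
  πN y hy := ⟨D.π y, D.πN y hy, rfl⟩

/-- a retract of a standard lattice is standard -/
noncomputable def retract {M' : Type*} [AddCommGroup M'] [Module B M'] {T' : M' ≃ₗ[B] M'}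
    {N' : Submodule B M'} (s : M' →ₗ[B] M) (p : M →ₗ[B] M') (hps : ∀ x, p (s x) = x)
    (hs : ∀ x, s (T' x) = T (s x)) (hp : ∀ x, p (T x) = T' (p x))
    (hsN : ∀ x ∈ N', s x ∈ N) (hpN : ∀ x ∈ N, p x ∈ N') : StdData T' N' where
  r := D.r
  i := D.i ∘ₗ s
  π := p ∘ₗ D.π
  πi x := by simp [D.πi, hps]
  iT x := by simp [hs, D.iT]
  πT x := by simp [D.πT, hp]
  iN x hx := D.iN _ (hsN x hx)
  πN y hy := hpN _ (D.πN y hy)

/-- finite direct sums of standard lattices are standard -/
noncomputable def pi (n : ℕ) (T' : (Fin n → M) ≃ₗ[B] (Fin n → M))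
    (hT' : ∀ x j, T' x j = T (x j)) (N' : Submodule B (Fin n → M))
    (hN' : ∀ x, x ∈ N' ↔ ∀ j, x j ∈ N) : StdData T' N' := by
  classical
  let emb : Fin n → D.r × ℤ → (Fin n × D.r) × ℤ := fun j p => ((j, p.1), p.2)
  have hemb : ∀ j, Function.Injective (emb j) := by
    rintro j ⟨a, z⟩ ⟨b, w⟩ h
    simp only [emb, Prod.mk.injEq] at h
    ext <;> simp [h]
  let i' : (Fin n → M) →ₗ[B] StdMod B (Fin n × D.r) :=
    ∑ j, (Finsupp.lmapDomain B B (emb j)) ∘ₗ D.i ∘ₗ LinearMap.proj j
  have hi' : ∀ x j a z, i' x ((j, a), z) = D.i (x j) (a, z) := by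
    intro x j a z
    simp only [i', LinearMap.sum_apply, LinearMap.comp_apply, LinearMap.proj_apply,
      Finsupp.lmapDomain_apply, Finsupp.finset_sum_apply]
    rw [Finset.sum_eq_single j]
    · exact Finsupp.mapDomain_apply (hemb j) _ (a, z)
    · intro l _ hl
      apply Finsupp.mapDomain_notin_range
      rintro ⟨⟨b, w⟩, hb⟩
      simp only [emb, Prod.mk.injEq] at hb
      exact hl hb.1.1
    · simp
  let c : Fin n → StdMod B (Fin n × D.r) →ₗ[B] StdMod B D.r := fun j =>
    Finsupp.lcomapDomain (emb j) (hemb j)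
  have hc : ∀ j y a z, c j y (a, z) = y ((j, a), z) := fun j y a z => by
    simp only [c, Finsupp.lcomapDomain_apply, Finsupp.comapDomain_apply, emb]
  refine
    { r := Fin n × D.r
      i := i'
      π := LinearMap.pi fun j => D.π ∘ₗ c j
      πi := fun x => ?_
      iT := fun x => ?_
      πT := fun y => ?_
      iN := fun x hx => ?_
      πN := fun y hy => ?_ }
  · ext j
    simp only [LinearMap.pi_apply, LinearMap.comp_apply]
    have : c j (i' x) = D.i (x j) := by
      ext ⟨a, z⟩
      rw [hc, hi']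
    rw [this, D.πi]
  · ext ⟨⟨j, a⟩, z⟩
    rw [hi', hT', D.iT, shift_apply, shift_apply, hi']
  · ext j
    rw [hT']
    simp only [LinearMap.pi_apply, LinearMap.comp_apply]
    rw [← D.πT]
    congr 1
    ext ⟨a, z⟩
    rw [hc, shift_apply, shift_apply, hc]
  · rw [mem_stdNonneg]
    rintro ⟨j, a⟩ z hz
    rw [hi']
    have := D.iN _ ((hN' x).mp hx j)
    rw [mem_stdNonneg] at this
    exact this a z hz
  · rw [hN']
    intro j
    simp only [LinearMap.pi_apply, LinearMap.comp_apply]
    apply D.πN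
    rw [mem_stdNonneg] at hy ⊢
    intro a z hz
    rw [hc]
    exact hy _ z hz

omit D in
/-- base change of a standard lattice -/
noncomputable def baseChange {k : Type*} [CommRing k] [Algebra k B] {M₀ : Type*}
    [AddCommGroup M₀] [Module k M₀] [Module k M] [IsScalarTower k B M] {T₀ : M₀ ≃ₗ[k] M₀}
    {N₀ : Submodule k M₀} (D : StdData T₀ N₀)
    (f : M₀ →ₗ[k] M) (hf : IsBaseChange B f) (hT : ∀ x, T (f x) = f (T₀ x))
    (hN : N = span B (f '' N₀)) : StdData T N := by
  classical
  let j : StdMod k D.r →ₗ[k] StdMod B D.r :=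
    Finsupp.mapRange.linearMap (Algebra.linearMap k B)
  have hj : ∀ x p, j x p = algebraMap k B (x p) := fun x p => by
    simp [j, Finsupp.mapRange.linearMap_apply]
  let i' : M →ₗ[B] StdMod B D.r := hf.lift (j ∘ₗ D.i)
  have hi' : ∀ x, i' (f x) = j (D.i x) := fun x => hf.lift_eq _ x
  let π' : StdMod B D.r →ₗ[B] M :=
    Finsupp.linearCombination B (fun p => f (D.π (Finsupp.single p 1)))
  have hπ' : ∀ y, π' (j y) = f (D.π y) := by
    intro y
    induction y using Finsupp.induction_linear with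
    | zero => simp
    | add y z hy hz => simp only [map_add, hy, hz]
    | single p b =>
      have h1 : j (Finsupp.single p b) = Finsupp.single p (algebraMap k B b) := by
        ext q
        rw [hj, Finsupp.single_apply, Finsupp.single_apply]
        split_ifs <;> simp
      have h2 : Finsupp.single p b = b • Finsupp.single p (1 : k) := by
        rw [Finsupp.smul_single, smul_eq_mul, mul_one]
      rw [h1, h2, map_smul, map_smul]
      simp only [π', Finsupp.linearCombination_single]
      rw [algebraMap_smul]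
  have hshift : ∀ y, shift B D.r 1 (j y) = j (shift k D.r 1 y) := by
    intro y
    ext ⟨a, z⟩
    rw [shift_apply, hj, hj, shift_apply]
  refine
    { r := D.r
      i := i'
      π := π'
      πi := fun x => ?_
      iT := fun x => ?_
      πT := fun y => ?_
      iN := fun x hx => ?_
      πN := fun y hy => ?_ }
  · have : π' ∘ₗ i' = LinearMap.id := hf.algHom_ext _ _ (fun x => by
      simp only [LinearMap.comp_apply, hi', hπ', D.πi, LinearMap.id_apply])
    exact congr($this x)
  · have : i' ∘ₗ T.toLinearMap = (shift B D.r 1).toLinearMap ∘ₗ i' :=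
      hf.algHom_ext _ _ (fun x => by
        simp only [LinearMap.comp_apply, LinearEquiv.coe_coe, hT, hi', D.iT, hshift])
    exact congr($this x)
  · have : π' ∘ₗ (shift B D.r 1).toLinearMap = T.toLinearMap ∘ₗ π' := by
      apply Finsupp.lhom_ext
      rintro ⟨a, z⟩ b
      simp only [LinearMap.comp_apply, LinearEquiv.coe_coe, shift_single]
      simp only [π', Finsupp.linearCombination_single, map_smul, hT]
      rw [← D.πT, shift_single]
    exact congr($this y)
  · rw [hN] at hx
    induction hx using Submodule.span_induction with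
    | mem y hy =>
      obtain ⟨y, hy, rfl⟩ := hy
      rw [hi', mem_stdNonneg]
      intro a z hz
      have := D.iN _ hy
      rw [mem_stdNonneg] at this
      rw [hj, this a z hz, map_zero]
    | zero => simp
    | add y z _ _ hy hz => rw [map_add]; exact add_mem hy hz
    | smul b y _ hy => rw [map_smul]; exact smul_mem _ _ hy
  · rw [hN]
    rw [StdNonneg, Finsupp.supported_eq_span_single] at hy
    induction hy using Submodule.span_induction with
    | mem y hy =>
      obtain ⟨⟨a, z⟩, hz, rfl⟩ := hy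
      simp only [π', Finsupp.linearCombination_single, one_smul]
      refine subset_span ⟨_, D.πN _ ?_, rfl⟩
      rw [mem_stdNonneg]
      intro b w hw
      rw [Finsupp.single_apply, if_neg]
      intro h
      simp only [Prod.mk.injEq] at h
      simp only [Set.mem_ofPred_eq] at hz
      omega
    | zero => simp
    | add y z _ _ hy hz => rw [map_add]; exact add_mem hy hz
    | smul b y _ hy => rw [map_smul]; exact smul_mem _ _ hy

end StdData

section cohomology

variable {T : M ≃ₗ[B] M} {N0 N1 : Submodule B M}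

lemma zpow_symm_apply (T : M ≃ₗ[B] M) (n : ℤ) (x : M) : (T.symm ^ n) x = (T ^ (-n)) x := by
  have : T.symm = T⁻¹ := rfl
  rw [this, inv_zpow, zpow_neg]

/-- finitely many elements generate `M` modulo `N0 ⊔ N1`, and enough twisting kills them. -/
lemma exists_twist (D0 : StdData T N0) (D1 : StdData T.symm N1) :
    ∃ n : ℤ, ∀ m : ℤ, n ≤ m → N0 ⊔ N1.map ((T ^ m : M ≃ₗ[B] M) : M →ₗ[B] M) = ⊤ := by
  obtain ⟨n, hn⟩ := D1.exists_zpow_mem_of_finite D0.gen
  refine ⟨n, fun m hm => ?_⟩
  rw [eq_top_iff, ← D0.span_eq_top, span_le]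
  rintro _ ⟨⟨a, z⟩, rfl⟩
  simp only
  by_cases hz : 0 ≤ z
  · exact mem_sup_left (D0.zpow_mem (D0.gen_mem a) hz)
  · refine mem_sup_right ⟨(T.symm ^ (m - z)) (D0.gen a), hn _ (by omega) a, ?_⟩
    rw [zpow_symm_apply, LinearEquiv.coe_coe, ← LinearEquiv.mul_apply, ← zpow_add]
    congr 2
    ring

lemma finite_quotient_sup (D0 : StdData T N0) (D1 : StdData T.symm N1) :
    Module.Finite B (M ⧸ (N0 ⊔ N1)) := by
  classical
  obtain ⟨n, hn⟩ := D1.exists_zpow_mem_of_finite D0.gen
  let S : Set M := Set.range fun p : D0.r × Fin (n.toNat) => (T ^ (-(p.2 : ℤ))) (D0.gen p.1)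
  have hS : N0 ⊔ N1 ⊔ span B S = ⊤ := by
    rw [eq_top_iff, ← D0.span_eq_top, span_le]
    rintro _ ⟨⟨a, z⟩, rfl⟩
    simp only
    by_cases hz : 0 ≤ z
    · exact mem_sup_left (mem_sup_left (D0.zpow_mem (D0.gen_mem a) hz))
    · by_cases hz' : -z < n
      · refine mem_sup_right (subset_span ⟨(a, ⟨(-z).toNat, by omega⟩), ?_⟩)
        simp only
        congr 2
        omega
      · refine mem_sup_left (mem_sup_right ?_)
        have := hn (-z) (by omega) a
        rwa [zpow_symm_apply, neg_neg] at this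
  have h2 : (span B S).map (N0 ⊔ N1).mkQ = ⊤ := by
    rw [eq_top_iff, ← Submodule.range_mkQ (N0 ⊔ N1), LinearMap.range_eq_map, ← hS,
      Submodule.map_sup, sup_le_iff]
    refine ⟨?_, le_rfl⟩
    rw [Submodule.map_le_iff_le_comap]
    intro x hx
    rw [Submodule.mem_comap, Submodule.mkQ_apply, (Submodule.Quotient.mk_eq_zero _).mpr hx]
    exact zero_mem _
  have hfin : S.Finite := Set.finite_range _
  exact ⟨h2 ▸ (Submodule.fg_span hfin).map _⟩

/-- `N0 ⊓ N1` is contained in a finitely generated submodule of `N0`. -/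
lemma exists_fg_le (D0 : StdData T N0) (D1 : StdData T.symm N1) :
    ∃ G : Submodule B M, G.FG ∧ G ≤ N0 ∧ N0 ⊓ N1 ≤ G := by
  classical
  -- all the generators of `N1` have bounded degree
  obtain ⟨n, hn⟩ : ∃ n : ℤ, ∀ a, ∀ p ∈ (D0.i (D1.gen a)).support, p.2 ≤ n := by
    refine ⟨∑ a, ∑ p ∈ (D0.i (D1.gen a)).support, |p.2|, fun a p hp => ?_⟩
    have h1 : |p.2| ≤ ∑ p ∈ (D0.i (D1.gen a)).support, |p.2| :=
      Finset.single_le_sum (f := fun p : D0.r × ℤ => |p.2|) (fun _ _ => abs_nonneg _) hp
    have h2 : ∑ p ∈ (D0.i (D1.gen a)).support, |p.2| ≤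
        ∑ a, ∑ p ∈ (D0.i (D1.gen a)).support, |p.2| :=
      Finset.single_le_sum (f := fun a => ∑ p ∈ (D0.i (D1.gen a)).support, |p.2|)
        (fun _ _ => Finset.sum_nonneg (fun _ _ => abs_nonneg _)) (Finset.mem_univ a)
    have h3 := le_abs_self p.2
    omega
  let s : Set (D0.r × ℤ) := {p | 0 ≤ p.2 ∧ p.2 ≤ n}
  have hs : s.Finite := by
    have : s = Set.univ ×ˢ Set.Icc 0 n := by
      ext ⟨a, z⟩
      simp [s]
    rw [this]
    exact (Set.finite_univ (α := D0.r)).prod (Set.finite_Icc 0 n)
  refine ⟨(Finsupp.supported B B s).map D0.π, ?_, ?_, ?_⟩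
  · rw [Finsupp.supported_eq_span_single]
    exact (Submodule.fg_span (hs.image _)).map _
  · rw [Submodule.map_le_iff_le_comap]
    intro y hy
    apply D0.πN
    rw [mem_stdNonneg]
    intro a z hz
    by_contra hne
    rw [Finsupp.mem_supported] at hy
    have := hy (Finsupp.mem_support_iff.mpr hne)
    simp only [s, Set.mem_ofPred_eq] at this
    omega
  · rintro x ⟨hx0, hx1⟩
    refine ⟨D0.i x, ?_, D0.πi x⟩
    rw [SetLike.mem_coe, Finsupp.mem_supported]
    have h1 : ∀ x ∈ N1, ∀ p ∈ (D0.i x).support, p.2 ≤ n := by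
      intro x hx
      rw [← D1.span_nonneg_eq] at hx
      induction hx using Submodule.span_induction with
      | mem y hy =>
        obtain ⟨⟨a, j⟩, rfl⟩ := hy
        simp only
        rw [zpow_symm_apply]
        rintro ⟨b, z⟩ hp
        rw [Finsupp.mem_support_iff, D0.i_zpow, shift_apply] at hp
        have := hn a _ (Finsupp.mem_support_iff.mpr hp)
        simp only at this ⊢
        omega
      | zero => simp
      | add y z _ _ hy hz =>
        intro p hp
        rw [map_add] at hp
        rcases Finset.mem_union.mp (Finsupp.support_add hp) with h | h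
        · exact hy p h
        · exact hz p h
      | smul b y _ hy =>
        intro p hp
        rw [map_smul] at hp
        exact hy p (Finsupp.support_smul hp)
    intro p hp
    refine ⟨?_, h1 x hx1 p hp⟩
    have := (D0.iN x hx0)
    rw [mem_stdNonneg] at this
    by_contra hlt
    exact (Finsupp.mem_support_iff.mp hp) (this p.1 p.2 (by omega))

/-- vanishing of `H¹` makes `H⁰` a finite projective module. -/
lemma projective_inf (D0 : StdData T N0) (D1 : StdData T.symm N1) (h : N0 ⊔ N1 = ⊤) :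
    Module.Projective B (N0 ⊓ N1 : Submodule B M) ∧
      Module.Finite B (N0 ⊓ N1 : Submodule B M) := by
  have hp0 := D0.projective_self
  have hq1 := D1.projective_quotient
  -- the projection `N0 → M/N1` is surjective with kernel `N0 ⊓ N1`
  let q : N0 →ₗ[B] M ⧸ N1 := N1.mkQ ∘ₗ N0.subtype
  have hq : Function.Surjective q := by
    intro y
    obtain ⟨x, rfl⟩ := Submodule.Quotient.mk_surjective _ y
    have hx : x ∈ N0 ⊔ N1 := by rw [h]; trivial
    obtain ⟨a, ha, b, hb, rfl⟩ := Submodule.mem_sup.mp hx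
    refine ⟨⟨a, ha⟩, ?_⟩
    show Submodule.Quotient.mk a = _
    rw [Submodule.Quotient.eq]
    simpa using hb
  obtain ⟨s, hs⟩ := Module.projective_lifting_property q LinearMap.id hq
  have hs' : ∀ x, q (s x) = x := fun x => congr($hs x)
  have hmem : ∀ x : N0, ((x - s (q x) : N0) : M) ∈ N0 ⊓ N1 := by
    intro x
    refine ⟨(x - s (q x)).2, ?_⟩
    have h1 : q (x - s (q x)) = 0 := by rw [map_sub, hs', sub_self]
    exact (Submodule.Quotient.mk_eq_zero _).mp h1
  let p : N0 →ₗ[B] (N0 ⊓ N1 : Submodule B M) :=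
    (N0.subtype ∘ₗ (LinearMap.id - s ∘ₗ q)).codRestrict _ hmem
  have hp : ∀ x : (N0 ⊓ N1 : Submodule B M), p ⟨x, x.2.1⟩ = x := by
    intro x
    apply Subtype.ext
    have h1 : q ⟨x, x.2.1⟩ = 0 := (Submodule.Quotient.mk_eq_zero _).mpr x.2.2
    simp [p, LinearMap.codRestrict_apply, h1]
  refine ⟨Module.Projective.of_split (Submodule.inclusion inf_le_left) p
    (LinearMap.ext fun x => hp x), ?_⟩
  obtain ⟨G, hG, hG0, hG1⟩ := exists_fg_le D0 D1
  have hG' : Module.Finite B G := ⟨(Submodule.fg_top _).mpr hG⟩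
  refine Module.Finite.of_surjective (p ∘ₗ Submodule.inclusion hG0) (fun x => ?_)
  exact ⟨⟨x, hG1 x.2⟩, hp x⟩

end cohomology

end Fermat.Agent.S25.Alg
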