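import Mathlib
import Fermat.Agent.S25.IsBC

/-!
# S25: algebraic interface

`TwoChart k`: a curve over `k` seen through two affine charts `U0 = Spec A0`, `U1 = Spec A1`,
`U0 ∩ U1 = Spec A01`, with a finite map to `P^1` (`f0` on `U0`, `f1 = 1/f0` on `U1`).

`CurveData k`: moreover `H⁰(O) = k` and `U0` is the complement of a `k`-point `ε ∈ U1`.

`LB 𝒞 B`: line bundles on `C_B` for a `k`-algebra `B`: modules over `B ⊗ A0`, `B ⊗ A1`, `B ⊗ A01`.
-/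

set_option autoImplicit false

universe u

open scoped TensorProduct Polynomial

noncomputable section

namespace Fermat.Agent.S25

/-- A curve over `k` through two affine charts. -/
structure TwoChart (k : Type u) [Field k] where
  A0 : Type u
  A1 : Type u
  A01 : Type u
  [cr0 : CommRing A0]
  [cr1 : CommRing A1]
  [cr01 : CommRing A01]
  [alg0 : Algebra k A0]
  [alg1 : Algebra k A1]
  [alg01 : Algebra k A01]
  ρ0 : A0 →ₐ[k] A01
  ρ1 : A1 →ₐ[k] A01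
  f0 : A0
  f1 : A1
  mul_eq_one : ρ0 f0 * ρ1 f1 = 1
  loc0 : @IsLocalization.Away A0 _ f0 A01 _ ρ0.toRingHom.toAlgebra
  loc1 : @IsLocalization.Away A1 _ f1 A01 _ ρ1.toRingHom.toAlgebra
  fin0 : (Polynomial.aeval f0 : k[X] →ₐ[k] A0).toRingHom.Finite
  fin1 : (Polynomial.aeval f1 : k[X] →ₐ[k] A1).toRingHom.Finite
  inj0 : Function.Injective (Polynomial.aeval f0 : k[X] →ₐ[k] A0)
  inj1 : Function.Injective (Polynomial.aeval f1 : k[X] →ₐ[k] A1)
  /-- geometric integrality -/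
  dom : ∀ (K : Type u) [Field K] [Algebra k K], IsDomain (K ⊗[k] A01)
  /-- geometric regularity -/
  ded0 : ∀ (K : Type u) [Field K] [Algebra k K], IsDedekindDomain (K ⊗[k] A0)
  ded1 : ∀ (K : Type u) [Field K] [Algebra k K], IsDedekindDomain (K ⊗[k] A1)

attribute [instance] TwoChart.cr0 TwoChart.cr1 TwoChart.cr01 TwoChart.alg0 TwoChart.alg1
  TwoChart.alg01

/-- A pointed curve over `k` through two affine charts. -/
structure CurveData (k : Type u) [Field k] extends TwoChart k where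
  /-- `H⁰(C, O) = k` -/
  inter : ∀ a0 a1, ρ0 a0 = ρ1 a1 → ∃ c : k, a0 = algebraMap k A0 c ∧ a1 = algebraMap k A1 c
  /-- the point `ε ∈ U1 ∖ U0` -/
  ε : A1 →ₐ[k] k
  /-- `V(f1) = {ε}` in `U1` -/
  ε_ker : ∀ P : Ideal A1, P.IsPrime → (f1 ∈ P ↔ P = RingHom.ker ε)

namespace TwoChart

variable {k : Type u} [Field k] (𝒞 : TwoChart k)

/-- exchanging the two charts -/
@[simps]
def swap : TwoChart k where
  A0 := 𝒞.A1
  A1 := 𝒞.A0
  A01 := 𝒞.A01
  ρ0 := 𝒞.ρ1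
  ρ1 := 𝒞.ρ0
  f0 := 𝒞.f1
  f1 := 𝒞.f0
  mul_eq_one := by rw [mul_comm]; exact 𝒞.mul_eq_one
  loc0 := 𝒞.loc1
  loc1 := 𝒞.loc0
  fin0 := 𝒞.fin1
  fin1 := 𝒞.fin0
  inj0 := 𝒞.inj1
  inj1 := 𝒞.inj0
  dom := 𝒞.dom
  ded0 := 𝒞.ded1
  ded1 := 𝒞.ded0

section

variable (B : Type u) [CommRing B] [Algebra k B]

/-- functions on `(U0)_B` -/
abbrev R0 : Type u := B ⊗[k] 𝒞.A0
/-- functions on `(U1)_B` -/
abbrev R1 : Type u := B ⊗[k] 𝒞.A1
/-- functions on `(U0 ∩ U1)_B` -/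
abbrev R01 : Type u := B ⊗[k] 𝒞.A01

/-- restriction `R0 → R01` -/
def ρ0B : 𝒞.R0 B →ₐ[B] 𝒞.R01 B := Algebra.TensorProduct.map (AlgHom.id B B) 𝒞.ρ0
/-- restriction `R1 → R01` -/
def ρ1B : 𝒞.R1 B →ₐ[B] 𝒞.R01 B := Algebra.TensorProduct.map (AlgHom.id B B) 𝒞.ρ1
/-- the function `f0` over `B` -/
def f0B : 𝒞.R0 B := 1 ⊗ₜ 𝒞.f0
/-- the function `f1` over `B` -/
def f1B : 𝒞.R1 B := 1 ⊗ₜ 𝒞.f1

end

section

variable {B B' : Type u} [CommRing B] [Algebra k B] [CommRing B'] [Algebra k B'] (φ : B →ₐ[k] B')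

/-- base change map `R0 B → R0 B'` -/
def bc0 : 𝒞.R0 B →+* 𝒞.R0 B' := (Algebra.TensorProduct.map φ (AlgHom.id k 𝒞.A0)).toRingHom
/-- base change map `R1 B → R1 B'` -/
def bc1 : 𝒞.R1 B →+* 𝒞.R1 B' := (Algebra.TensorProduct.map φ (AlgHom.id k 𝒞.A1)).toRingHom
/-- base change map `R01 B → R01 B'` -/
def bc01 : 𝒞.R01 B →+* 𝒞.R01 B' := (Algebra.TensorProduct.map φ (AlgHom.id k 𝒞.A01)).toRingHom

end

end TwoChart

namespace CurveData

variable {k : Type u} [Field k] (𝒞 : CurveData k) (B : Type u) [CommRing B] [Algebra k B]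

/-- evaluation at `ε` over `B` -/
def εB : 𝒞.R1 B →ₐ[B] B :=
  Algebra.TensorProduct.lift (AlgHom.id B B) ((Algebra.ofId k B).comp 𝒞.ε)
    (fun _ _ ↦ .all _ _)

end CurveData

variable {k : Type u} [Field k] (𝒞 : TwoChart k)

/-- Line bundles on `C_B`, given by their sections on the two charts. -/
structure LB (B : Type u) [CommRing B] [Algebra k B] where
  M0 : Type u
  M1 : Type u
  M01 : Type u
  [ag0 : AddCommGroup M0]
  [ag1 : AddCommGroup M1]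
  [ag01 : AddCommGroup M01]
  [mod0 : Module (𝒞.R0 B) M0]
  [mod1 : Module (𝒞.R1 B) M1]
  [mod01 : Module (𝒞.R01 B) M01]
  r0 : M0 →+ M01
  r1 : M1 →+ M01
  bc0 : IsBC (𝒞.ρ0B B).toRingHom r0
  bc1 : IsBC (𝒞.ρ1B B).toRingHom r1
  inv0 : Module.Invertible (𝒞.R0 B) M0
  inv1 : Module.Invertible (𝒞.R1 B) M1

attribute [instance] LB.ag0 LB.ag1 LB.ag01 LB.mod0 LB.mod1 LB.mod01 LB.inv0 LB.inv1

namespace LB

variable {𝒞}

section

variable {B : Type u} [CommRing B] [Algebra k B]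

/-- exchanging the two charts -/
@[simps]
def swap (D : LB 𝒞 B) : LB 𝒞.swap B where
  M0 := D.M1
  M1 := D.M0
  M01 := D.M01
  mod0 := D.mod1
  mod1 := D.mod0
  mod01 := D.mod01
  r0 := D.r1
  r1 := D.r0
  bc0 := D.bc1
  bc1 := D.bc0
  inv0 := D.inv1
  inv1 := D.inv0

/-- inverse of `swap` -/
@[simps]
def unswap (D : LB 𝒞.swap B) : LB 𝒞 B where
  M0 := D.M1
  M1 := D.M0
  M01 := D.M01
  mod0 := D.mod1
  mod1 := D.mod0
  mod01 := D.mod01
  r0 := D.r1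
  r1 := D.r0
  bc0 := D.bc1
  bc1 := D.bc0
  inv0 := D.inv1
  inv1 := D.inv0

/-- Isomorphisms of line bundles. -/
structure Iso (D D' : LB 𝒞 B) where
  e0 : D.M0 ≃ₗ[𝒞.R0 B] D'.M0
  e1 : D.M1 ≃ₗ[𝒞.R1 B] D'.M1
  e01 : D.M01 ≃ₗ[𝒞.R01 B] D'.M01
  h0 : ∀ x, D'.r0 (e0 x) = e01 (D.r0 x)
  h1 : ∀ x, D'.r1 (e1 x) = e01 (D.r1 x)

/-- `D` is trivial along `ε`: there is an evaluation map `M1 → B` identifying
`ε^* D = B ⊗_{R1} M1` with `B`. -/
def Rig {𝒞 : CurveData k} (D : LB 𝒞.toTwoChart B) : Prop :=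
  ∃ e : D.M1 →+ B, IsBC (𝒞.εB B).toRingHom e

section Bmodule

variable (D : LB 𝒞 B)

instance : Module B D.M0 := Module.compHom D.M0 (algebraMap B (𝒞.R0 B))
instance : Module B D.M1 := Module.compHom D.M1 (algebraMap B (𝒞.R1 B))
instance : Module B D.M01 := Module.compHom D.M01 (algebraMap B (𝒞.R01 B))
instance : IsScalarTower B (𝒞.R0 B) D.M0 := .of_algebraMap_smul fun _ _ ↦ rfl
instance : IsScalarTower B (𝒞.R1 B) D.M1 := .of_algebraMap_smul fun _ _ ↦ rfl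
instance : IsScalarTower B (𝒞.R01 B) D.M01 := .of_algebraMap_smul fun _ _ ↦ rfl

/-- `r0` as a `B`-linear map -/
def r0B : D.M0 →ₗ[B] D.M01 where
  toFun := D.r0
  map_add' := D.r0.map_add
  map_smul' b x := by
    have := D.bc0.smul (algebraMap B (𝒞.R0 B) b) x
    have h : (𝒞.ρ0B B).toRingHom (algebraMap B (𝒞.R0 B) b) = algebraMap B (𝒞.R01 B) b :=
      (𝒞.ρ0B B).commutes b
    rw [h] at this
    exact this

/-- `r1` as a `B`-linear map -/
def r1B : D.M1 →ₗ[B] D.M01 where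
  toFun := D.r1
  map_add' := D.r1.map_add
  map_smul' b x := by
    have := D.bc1.smul (algebraMap B (𝒞.R1 B) b) x
    have h : (𝒞.ρ1B B).toRingHom (algebraMap B (𝒞.R1 B) b) = algebraMap B (𝒞.R01 B) b :=
      (𝒞.ρ1B B).commutes b
    rw [h] at this
    exact this

/-- the Čech differential -/
def diff : D.M0 × D.M1 →ₗ[B] D.M01 := D.r0B.coprod (-D.r1B)

/-- `H⁰` -/
abbrev H0 : Submodule B (D.M0 × D.M1) := LinearMap.ker D.diff

/-- `H¹` -/
abbrev H1 : Type u := D.M01 ⧸ LinearMap.range D.diff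

/-- Euler characteristic (used over a field) -/
def chi : ℤ := (Module.finrank B D.H0 : ℤ) - Module.finrank B D.H1

end Bmodule

end

section

variable (𝒞) (B : Type u) [CommRing B] [Algebra k B]

/-- the trivial line bundle -/
def triv : LB 𝒞 B where
  M0 := 𝒞.R0 B
  M1 := 𝒞.R1 B
  M01 := 𝒞.R01 B
  r0 := (𝒞.ρ0B B).toRingHom.toAddMonoidHom
  r1 := (𝒞.ρ1B B).toRingHom.toAddMonoidHom
  bc0 := .self _
  bc1 := .self _
  inv0 := inferInstance
  inv1 := inferInstance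

variable {𝒞 B}

/-- the twist by `m` times the polar divisor of `f0` : `r1` is replaced by `f0 ^ m • r1`. -/
def tw (D : LB 𝒞 B) (m : ℕ) : LB 𝒞 B where
  M0 := D.M0
  M1 := D.M1
  M01 := D.M01
  r0 := D.r0
  r1 := (DistribSMul.toAddMonoidHom D.M01 ((𝒞.ρ0B B (𝒞.f0B B)) ^ m)).comp D.r1
  bc0 := D.bc0
  bc1 := by
    have hu : IsUnit (𝒞.ρ0B B (𝒞.f0B B)) := by
      refine IsUnit.of_mul_eq_one (𝒞.ρ1B B (𝒞.f1B B)) ?_
      simp [TwoChart.ρ0B, TwoChart.ρ1B, TwoChart.f0B, TwoChart.f1B, 𝒞.mul_eq_one,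
        Algebra.TensorProduct.one_def]
    have hb : Function.Bijective (DistribSMul.toAddMonoidHom D.M01
        ((𝒞.ρ0B B (𝒞.f0B B)) ^ m)) := (hu.pow m).smul_bijective
    refine IsBC.of_square' (RingHom.id _) (RingHom.id _) (AddMonoidHom.id _) _
      Function.bijective_id Function.bijective_id Function.bijective_id hb
      (fun _ _ ↦ rfl) (fun r x ↦ ?_) rfl rfl D.bc1
    simp [smul_smul, mul_comm]
  inv0 := D.inv0
  inv1 := D.inv1

end

/-- `D'` over `B'` is the base change of `D` over `B` along `φ`. -/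
structure BC {B B' : Type u} [CommRing B] [Algebra k B] [CommRing B'] [Algebra k B']
    (φ : B →ₐ[k] B') (D : LB 𝒞 B) (D' : LB 𝒞 B') where
  u0 : D.M0 →+ D'.M0
  u1 : D.M1 →+ D'.M1
  u01 : D.M01 →+ D'.M01
  bc0 : IsBC (𝒞.bc0 φ) u0
  bc1 : IsBC (𝒞.bc1 φ) u1
  bc01 : IsBC (𝒞.bc01 φ) u01
  h0 : ∀ x, D'.r0 (u0 x) = u01 (D.r0 x)
  h1 : ∀ x, D'.r1 (u1 x) = u01 (D.r1 x)

end LB

end Fermat.Agent.S25
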