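import Mathlib
import Fermat.Agent.S25.Defs
import Fermat.Agent.S25.AlgBC
import Fermat.Agent.S25.AlgLattice

/-!
# The modules of a line bundle are standard lattices
-/

set_option autoImplicit false

universe u

open scoped TensorProduct Polynomial

noncomputable section

namespace Fermat.Agent.S25

open Alg

section unitMul

variable {B R M : Type*} [CommRing B] [CommRing R] [Algebra B R] [AddCommGroup M] [Module R M]
  [Module B M] [IsScalarTower B R M]

variable (B M) in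
/-- multiplication by a unit, as a linear automorphism -/
def unitMul (v : Rˣ) : M ≃ₗ[B] M where
  toFun x := (v : R) • x
  invFun x := ((v⁻¹ : Rˣ) : R) • x
  map_add' x y := smul_add _ _ _
  map_smul' b x := by simp only [RingHom.id_apply]; rw [smul_comm]
  left_inv x := by simp [smul_smul]
  right_inv x := by simp [smul_smul]

@[simp] lemma unitMul_apply (v : Rˣ) (x : M) : unitMul B M v x = (v : R) • x := rfl

lemma unitMul_symm (v : Rˣ) : (unitMul B M v).symm = unitMul B M v⁻¹ := by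
  ext x
  rfl

lemma unitMul_mul (v w : Rˣ) : unitMul B M (v * w) = unitMul B M v * unitMul B M w := by
  ext x
  simp [mul_smul]

lemma unitMul_one : unitMul B M (1 : Rˣ) = 1 := by
  ext x
  simp

lemma unitMul_zpow (v : Rˣ) (n : ℤ) : (unitMul B M v) ^ n = unitMul B M (v ^ n) := by
  have key : ∀ m : ℕ, (unitMul B M v) ^ m = unitMul B M (v ^ m) := by
    intro m
    induction m with
    | zero => simp [unitMul_one]
    | succ m ih => rw [pow_succ, pow_succ, ih, unitMul_mul]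
  obtain ⟨m, rfl | rfl⟩ := n.eq_nat_or_neg
  · simpa using key m
  · rw [zpow_neg, zpow_neg, zpow_natCast, zpow_natCast, key m, inv_eq_iff_mul_eq_one,
      ← unitMul_mul]
    simp [unitMul_one]

end unitMul

namespace TwoChart

variable {k : Type u} [Field k] (𝒞 : TwoChart k)

lemma isDomain_A0 : IsDomain 𝒞.A0 := by
  have := 𝒞.ded0 k
  exact (Algebra.TensorProduct.lid k 𝒞.A0).symm.toMulEquiv.isDomain _

lemma f0_ne_zero : 𝒞.f0 ≠ 0 := by
  intro h
  have h1 : (Polynomial.aeval 𝒞.f0 : k[X] →ₐ[k] 𝒞.A0) Polynomial.X =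
    (Polynomial.aeval 𝒞.f0 : k[X] →ₐ[k] 𝒞.A0) 0 := by simp [h]
  exact Polynomial.X_ne_zero (𝒞.inj0 h1)

lemma ρ0_injective : Function.Injective 𝒞.ρ0 := by
  have := 𝒞.isDomain_A0
  let _ := 𝒞.ρ0.toRingHom.toAlgebra
  have := 𝒞.loc0
  exact IsLocalization.injective 𝒞.A01 (powers_le_nonZeroDivisors_of_noZeroDivisors 𝒞.f0_ne_zero)

/-- the coordinate as a unit of `A01` -/
def F : (𝒞.A01)ˣ where
  val := 𝒞.ρ0 𝒞.f0
  inv := 𝒞.ρ1 𝒞.f1
  val_inv := 𝒞.mul_eq_one
  inv_val := by rw [mul_comm]; exact 𝒞.mul_eq_one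

lemma exists_eq (x : 𝒞.A01) : ∃ (n : ℕ) (a : 𝒞.A0), (𝒞.F : 𝒞.A01) ^ n * x = 𝒞.ρ0 a := by
  let _ := 𝒞.ρ0.toRingHom.toAlgebra
  have := 𝒞.loc0
  obtain ⟨n, a, h⟩ := IsLocalization.Away.surj 𝒞.f0 x
  refine ⟨n, a, ?_⟩
  rw [mul_comm]
  exact h

/-- the standard lattice `ρ0 A0` in `A01` -/
lemma std0 : Nonempty (StdData (unitMul k 𝒞.A01 𝒞.F) (LinearMap.range 𝒞.ρ0.toLinearMap)) := by
  classical
  have := 𝒞.isDomain_A0
  let _ : Algebra k[X] 𝒞.A0 := (Polynomial.aeval 𝒞.f0).toRingHom.toAlgebra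
  have hsm : ∀ (P : k[X]) (x : 𝒞.A0), P • x = Polynomial.aeval 𝒞.f0 P * x := fun _ _ ↦ rfl
  have : IsScalarTower k k[X] 𝒞.A0 := .of_algebraMap_smul fun r x ↦ by
    rw [hsm]
    simp [Algebra.smul_def]
  have : Module.Finite k[X] 𝒞.A0 := 𝒞.fin0
  have : Module.IsTorsionFree k[X] 𝒞.A0 := by
    rw [Module.isTorsionFree_iff_algebraMap_injective]
    exact 𝒞.inj0
  have : Module.Free k[X] 𝒞.A0 := inferInstance
  let n := Module.finrank k[X] 𝒞.A0
  let b : Module.Basis (Fin n) k[X] 𝒞.A0 := Module.finBasis k[X] 𝒞.A0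
  let π : StdMod k (Fin n) →ₗ[k] 𝒞.A01 := Finsupp.linearCombination k
    (fun p ↦ ((𝒞.F ^ p.2 : (𝒞.A01)ˣ) : 𝒞.A01) * 𝒞.ρ0 (b p.1))
  let q : StdMod k (Fin n) →ₗ[k] 𝒞.A0 := Finsupp.linearCombination k
    (fun p ↦ (Polynomial.X ^ (p.2.toNat) : k[X]) • b p.1)
  have hπ : ∀ a z c, π (Finsupp.single (a, z) c) =
    c • (((𝒞.F ^ z : (𝒞.A01)ˣ) : 𝒞.A01) * 𝒞.ρ0 (b a)) := fun a z c ↦ by simp [π]
  have hq : ∀ a z c, q (Finsupp.single (a, z) c) =
    c • ((Polynomial.X ^ (z.toNat) : k[X]) • b a) := fun a z c ↦ by simp [q]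
  have hπs : ∀ m y, π (shift k (Fin n) m y) = unitMul k 𝒞.A01 (𝒞.F ^ m) (π y) := by
    intro m y
    induction y using Finsupp.induction_linear with
    | zero => simp
    | add y z hy hz => simp only [map_add, hy, hz]
    | single p c =>
      obtain ⟨a, z⟩ := p
      rw [shift_single, hπ, hπ, map_smul, unitMul_apply, smul_eq_mul, ← mul_assoc,
        ← Units.val_mul, ← zpow_add, add_comm]
  have hπq : ∀ y ∈ StdNonneg k (Fin n), π y = 𝒞.ρ0 (q y) := by
    intro y hy
    rw [StdNonneg, Finsupp.supported_eq_span_single] at hy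
    induction hy using Submodule.span_induction with
    | mem y hy =>
      obtain ⟨⟨a, z⟩, hz, rfl⟩ := hy
      simp only [Set.mem_ofPred_eq] at hz
      obtain ⟨j, rfl⟩ := Int.eq_ofNat_of_zero_le hz
      rw [hπ, hq, one_smul, one_smul, hsm, map_mul, map_pow, Polynomial.aeval_X, map_pow]
      simp [F]
    | zero => simp
    | add y z _ _ hy hz => simp only [map_add, hy, hz]
    | smul c y _ hy => rw [map_smul, map_smul, map_smul, hy]
  have hcoef : ∀ y ∈ StdNonneg k (Fin n), ∀ a (j : ℕ),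
      (b.repr (q y) a).coeff j = y (a, (j : ℤ)) := by
    intro y hy
    rw [StdNonneg, Finsupp.supported_eq_span_single] at hy
    induction hy using Submodule.span_induction with
    | mem y hy =>
      obtain ⟨⟨a, z⟩, hz, rfl⟩ := hy
      simp only [Set.mem_ofPred_eq] at hz
      obtain ⟨j, rfl⟩ := Int.eq_ofNat_of_zero_le hz
      intro a' j'
      rw [hq, one_smul, map_smul, Module.Basis.repr_self, Finsupp.smul_apply, smul_eq_mul,
        Finsupp.single_apply, Finsupp.single_apply]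
      by_cases h1 : a = a'
      · subst h1
        simp [Polynomial.coeff_X_pow, eq_comm]
      · simp [h1]
    | zero => simp
    | add y z _ _ hy hz =>
      intro a j
      rw [map_add, map_add, Finsupp.add_apply, Polynomial.coeff_add, hy, hz, Finsupp.add_apply]
    | smul c y _ hy =>
      intro a j
      have h1 : b.repr (c • q y) a = Polynomial.C c * b.repr (q y) a := by
        have h2 : c • q y = (Polynomial.C c : k[X]) • q y := by
          rw [hsm, Polynomial.aeval_C, Algebra.smul_def]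
        rw [h2, map_smul]
        rfl
      rw [map_smul, h1, Polynomial.coeff_C_mul, hy, Finsupp.smul_apply, smul_eq_mul]
  have hbd : ∀ y : StdMod k (Fin n), ∃ m : ℤ, shift k (Fin n) m y ∈ StdNonneg k (Fin n) := by
    intro y
    obtain ⟨m, hm⟩ : ∃ m : ℤ, ∀ p ∈ y.support, -m ≤ p.2 := by
      refine ⟨∑ p ∈ y.support, |p.2|, fun p hp => ?_⟩
      have h1 : |p.2| ≤ ∑ p ∈ y.support, |p.2| :=
        Finset.single_le_sum (f := fun p : Fin n × ℤ => |p.2|) (fun _ _ => abs_nonneg _) hp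
      have h2 := neg_abs_le p.2
      omega
    refine ⟨m, ?_⟩
    rw [mem_stdNonneg]
    intro a z hz
    rw [shift_apply]
    by_contra hne
    have := hm _ (Finsupp.mem_support_iff.mpr hne)
    simp only at this
    omega
  have hinj : Function.Injective π := by
    rw [injective_iff_map_eq_zero]
    intro y hy
    obtain ⟨m, hm⟩ := hbd y
    have h1 : π (shift k (Fin n) m y) = 0 := by rw [hπs, hy, map_zero]
    rw [hπq _ hm] at h1
    have h2 : q (shift k (Fin n) m y) = 0 := 𝒞.ρ0_injective (by rw [h1, map_zero])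
    have h3 : shift k (Fin n) m y = 0 := by
      ext ⟨a, z⟩
      by_cases hz : 0 ≤ z
      · obtain ⟨j, rfl⟩ := Int.eq_ofNat_of_zero_le hz
        rw [← hcoef _ hm, h2]
        simp
      · rw [mem_stdNonneg] at hm
        exact hm a z (by omega)
    exact (shift k (Fin n) m).injective (by rw [h3, map_zero])
  have hρ : ∀ x : 𝒞.A0, ∃ y ∈ StdNonneg k (Fin n), q y = x := by
    intro x
    have h1 : x ∈ (StdNonneg k (Fin n)).map q := by
      rw [← b.sum_repr x]
      refine Submodule.sum_mem _ (fun a _ ↦ ?_)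
      generalize b.repr x a = P
      induction P using Polynomial.induction_on' with
      | add P Q hP hQ => rw [add_smul]; exact add_mem hP hQ
      | monomial j c =>
        refine ⟨Finsupp.single (a, (j : ℤ)) c, ?_, ?_⟩
        · rw [SetLike.mem_coe, mem_stdNonneg]
          intro a' z hz
          rw [Finsupp.single_apply, if_neg]
          intro h
          simp only [Prod.mk.injEq] at h
          omega
        · rw [hq, ← Polynomial.C_mul_X_pow_eq_monomial, mul_smul, Int.toNat_natCast]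
          rw [hsm (Polynomial.C c), Polynomial.aeval_C, Algebra.smul_def]
    obtain ⟨y, hy, hy'⟩ := h1
    exact ⟨y, hy, hy'⟩
  have hsurj : Function.Surjective π := by
    intro x
    obtain ⟨m, a, h⟩ := 𝒞.exists_eq x
    obtain ⟨y, hy, hy'⟩ := hρ a
    refine ⟨shift k (Fin n) (-m) y, ?_⟩
    rw [hπs, hπq _ hy, hy', ← h, unitMul_apply, smul_eq_mul, ← mul_assoc]
    simp only [zpow_neg, zpow_natCast]
    rw [← Units.val_pow_eq_pow_val, ← Units.val_mul, inv_mul_cancel, Units.val_one, one_mul]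
  let e : StdMod k (Fin n) ≃ₗ[k] 𝒞.A01 := LinearEquiv.ofBijective π ⟨hinj, hsurj⟩
  have he : ∀ y, e y = π y := fun _ ↦ rfl
  refine ⟨
    { r := Fin n
      i := e.symm.toLinearMap
      π := π
      πi := fun x ↦ ?_
      iT := fun x ↦ ?_
      πT := fun y ↦ ?_
      iN := ?_
      πN := fun y hy ↦ ?_ }⟩
  · exact e.apply_symm_apply x
  · simp only [LinearEquiv.coe_coe]
    rw [LinearEquiv.symm_apply_eq, he, hπs, zpow_one, ← he, LinearEquiv.apply_symm_apply]
  · rw [hπs, zpow_one]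
  · rintro _ ⟨x, rfl⟩
    obtain ⟨y, hy, rfl⟩ := hρ x
    have : e.symm (𝒞.ρ0.toLinearMap (q y)) = y := by
      rw [LinearEquiv.symm_apply_eq, he, hπq _ hy]; rfl
    simp only [LinearEquiv.coe_coe]
    rw [this]
    exact hy
  · rw [hπq _ hy]
    exact ⟨q y, rfl⟩

section B

variable (B : Type u) [CommRing B] [Algebra k B]

/-- the coordinate as a unit of `R01 B` -/
def FB : (𝒞.R01 B)ˣ where
  val := 𝒞.ρ0B B (𝒞.f0B B)
  inv := 𝒞.ρ1B B (𝒞.f1B B)
  val_inv := by
    simp [TwoChart.ρ0B, TwoChart.ρ1B, TwoChart.f0B, TwoChart.f1B, 𝒞.mul_eq_one,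
        Algebra.TensorProduct.one_def]
  inv_val := by
    rw [mul_comm]
    simp [TwoChart.ρ0B, TwoChart.ρ1B, TwoChart.f0B, TwoChart.f1B, 𝒞.mul_eq_one,
        Algebra.TensorProduct.one_def]

lemma std0B : Nonempty (StdData (unitMul B (𝒞.R01 B) (𝒞.FB B))
    (LinearMap.range (𝒞.ρ0B B).toLinearMap)) := by
  obtain ⟨D⟩ := 𝒞.std0
  refine ⟨D.baseChange (TensorProduct.mk k B 𝒞.A01 1) (TensorProduct.isBaseChange k 𝒞.A01 B) ?_ ?_⟩
  · intro x
    simp [FB, F, ρ0B, f0B]
  · apply le_antisymm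
    · rintro _ ⟨x, rfl⟩
      induction x using TensorProduct.induction_on with
      | zero => simp
      | add x y hx hy => rw [map_add]; exact add_mem hx hy
      | tmul b a =>
        have : (𝒞.ρ0B B).toLinearMap (b ⊗ₜ[k] a) = b • (TensorProduct.mk k B 𝒞.A01 1 (𝒞.ρ0 a)) := by
          simp [ρ0B, TensorProduct.smul_tmul']
        rw [this]
        exact Submodule.smul_mem _ _ (Submodule.subset_span ⟨_, ⟨a, rfl⟩, rfl⟩)
    · rw [Submodule.span_le]
      rintro _ ⟨_, ⟨a, rfl⟩, rfl⟩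
      exact ⟨1 ⊗ₜ a, by simp [ρ0B]⟩

end B

end TwoChart

namespace LB

variable {k : Type u} [Field k] {𝒞 : TwoChart k} {B : Type u} [CommRing B] [Algebra k B]
  (D : LB 𝒞 B)

/-- multiplication by the coordinate on `M01` -/
def T : D.M01 ≃ₗ[B] D.M01 := unitMul B D.M01 (𝒞.FB B)

lemma std0 : Nonempty (StdData D.T (LinearMap.range D.r0B)) := by
  classical
  obtain ⟨S⟩ := 𝒞.std0B B
  obtain ⟨n, p0, s0, -, hs0, hps0⟩ :=
    Module.Finite.exists_comp_eq_id_of_projective (𝒞.R0 B) D.M0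
  -- the functionals on `M01`
  let s1 : Fin n → (D.M01 →ₗ[𝒞.R01 B] 𝒞.R01 B) := fun j ↦
    D.bc0.map (IsBC.self _) (LinearMap.proj j ∘ₗ s0)
  have hs1 : ∀ j x, s1 j (D.r0 x) = 𝒞.ρ0B B (s0 x j) := fun j x ↦ IsBC.map_apply _ _ _ _
  let s : D.M01 →ₗ[B] (Fin n → 𝒞.R01 B) := (LinearMap.pi s1).restrictScalars B
  let p' : (Fin n → 𝒞.R01 B) →ₗ[𝒞.R01 B] D.M01 :=
    ∑ j, (LinearMap.toSpanSingleton _ _ (D.r0 (p0 (Pi.single j 1)))) ∘ₗ LinearMap.proj j
  have hp' : ∀ x, p' x = ∑ j, x j • D.r0 (p0 (Pi.single j 1)) := fun x ↦ by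
    simp [p']
  have hp0 : ∀ y : Fin n → 𝒞.R0 B, p' (fun j ↦ 𝒞.ρ0B B (y j)) = D.r0 (p0 y) := by
    intro y
    rw [hp']
    have : y = ∑ j, y j • (Pi.single j 1 : Fin n → 𝒞.R0 B) := by
      ext l
      simp [Finset.sum_apply, Pi.single_apply]
    conv_rhs => rw [this]
    rw [map_sum, map_sum]
    refine Finset.sum_congr rfl (fun j _ ↦ ?_)
    rw [map_smul, D.bc0.smul]
    rfl
  have hps : ∀ x, p' (s x) = x := by
    have : p' ∘ₗ LinearMap.pi s1 = LinearMap.id := by
      apply D.bc0.hom_ext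
      intro m
      have h1 : LinearMap.pi s1 (D.r0 m) = fun j ↦ 𝒞.ρ0B B (s0 m j) := by
        ext j
        exact hs1 j m
      rw [LinearMap.comp_apply, h1, hp0, LinearMap.id_apply]
      congr 1
      exact congr($hps0 m)
    exact fun x ↦ congr($this x)
  let N' : Submodule B (Fin n → 𝒞.R01 B) :=
    Submodule.pi Set.univ (fun _ ↦ LinearMap.range (𝒞.ρ0B B).toLinearMap)
  have hN' : ∀ x, x ∈ N' ↔ ∀ j, x j ∈ LinearMap.range (𝒞.ρ0B B).toLinearMap := by
    intro x
    simp [N', Submodule.mem_pi]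
  let S' : StdData (unitMul B (Fin n → 𝒞.R01 B) (𝒞.FB B)) N' := S.pi n _ (fun x j ↦ rfl) N' hN'
  refine ⟨S'.retract s (p'.restrictScalars B) hps ?_ ?_ ?_ ?_⟩
  · intro x
    exact (LinearMap.pi s1).map_smul _ x
  · intro x
    exact p'.map_smul _ x
  · rintro _ ⟨x, rfl⟩
    rw [hN']
    intro j
    exact ⟨s0 x j, (hs1 j x).symm⟩
  · intro x hx
    rw [hN'] at hx
    choose y hy using hx
    refine ⟨p0 y, ?_⟩
    have : x = fun j ↦ 𝒞.ρ0B B (y j) := by
      ext j
      exact (hy j).symm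
    rw [this]
    exact (hp0 y).symm

lemma std1 : Nonempty (StdData D.T.symm (LinearMap.range D.r1B)) := D.swap.std0

end LB

end Fermat.Agent.S25
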