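import Mathlib
import Fermat.Agent.S25.AlgStd

/-!
# Cohomology of line bundles on `C_B`: finiteness, vanishing, base change
-/

set_option autoImplicit false

universe u

open scoped TensorProduct Polynomial

noncomputable section

namespace Fermat.Agent.S25

open Alg

namespace TwoChart

variable {k : Type u} [Field k] (𝒞 : TwoChart k) (B : Type u) [CommRing B] [Algebra k B]

lemma ρ0B_injective : Function.Injective (𝒞.ρ0B B) := by
  have h := Module.Flat.lTensor_preserves_injective_linearMap (M := B) 𝒞.ρ0.toLinearMap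
    𝒞.ρ0_injective
  exact h

lemma ρ1B_injective : Function.Injective (𝒞.ρ1B B) := 𝒞.swap.ρ0B_injective B

end TwoChart

namespace LB

variable {k : Type u} [Field k] {𝒞 : TwoChart k} {B : Type u} [CommRing B] [Algebra k B]
  (D : LB 𝒞 B)

lemma r0_injective : Function.Injective D.r0 := by
  classical
  obtain ⟨n, p0, s0, -, hs0, hps0⟩ :=
    Module.Finite.exists_comp_eq_id_of_projective (𝒞.R0 B) D.M0
  let s1 : Fin n → (D.M01 →ₗ[𝒞.R01 B] 𝒞.R01 B) := fun j ↦
    D.bc0.map (IsBC.self _) (LinearMap.proj j ∘ₗ s0)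
  have hs1 : ∀ j x, s1 j (D.r0 x) = 𝒞.ρ0B B (s0 x j) := fun j x ↦ IsBC.map_apply _ _ _ _
  rw [injective_iff_map_eq_zero]
  intro x hx
  have h1 : s0 x = 0 := by
    ext j
    apply 𝒞.ρ0B_injective B
    rw [← hs1, hx]
    simp
  have h2 : p0 (s0 x) = x := congr($hps0 x)
  rw [← h2, h1, map_zero]

lemma r1_injective : Function.Injective D.r1 := D.swap.r0_injective

@[simp] lemma r0B_apply (x : D.M0) : D.r0B x = D.r0 x := rfl
@[simp] lemma r1B_apply (x : D.M1) : D.r1B x = D.r1 x := rfl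

lemma diff_apply (x : D.M0 × D.M1) : D.diff x = D.r0 x.1 - D.r1 x.2 := by
  simp [diff, sub_eq_add_neg]

lemma mem_H0_iff {x : D.M0 × D.M1} : x ∈ D.H0 ↔ D.r0 x.1 = D.r1 x.2 := by
  rw [LinearMap.mem_ker, diff_apply, sub_eq_zero]

lemma range_diff : LinearMap.range D.diff = LinearMap.range D.r0B ⊔ LinearMap.range D.r1B := by
  rw [diff, LinearMap.range_coprod]
  congr 1
  exact LinearMap.range_neg _

/-- `H⁰` as an intersection of lattices -/
def H0equiv : D.H0 ≃ₗ[B] (LinearMap.range D.r0B ⊓ LinearMap.range D.r1B : Submodule B D.M01) :=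
  LinearEquiv.ofBijective
    ((D.r0B ∘ₗ LinearMap.fst B D.M0 D.M1 ∘ₗ D.H0.subtype).codRestrict
      (LinearMap.range D.r0B ⊓ LinearMap.range D.r1B : Submodule B D.M01) (fun x ↦
      Submodule.mem_inf.mpr ⟨⟨x.1.1, rfl⟩, ⟨x.1.2, (D.mem_H0_iff.mp x.2).symm⟩⟩))
    (by
      constructor
      · rw [injective_iff_map_eq_zero]
        rintro ⟨⟨x0, x1⟩, hx⟩ h
        have h0 : D.r0 x0 = 0 := congrArg Subtype.val h
        have h1 : D.r1 x1 = 0 := by rw [← (D.mem_H0_iff.mp hx), h0]
        have h2 : x0 = 0 := D.r0_injective (by rw [h0, map_zero])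
        have h3 : x1 = 0 := D.r1_injective (by rw [h1, map_zero])
        subst h2; subst h3; rfl
      · rintro ⟨_, ⟨x0, rfl⟩, ⟨x1, hx1⟩⟩
        exact ⟨⟨(x0, x1), D.mem_H0_iff.mpr hx1.symm⟩, rfl⟩)

instance finite_H1 : Module.Finite B D.H1 := by
  obtain ⟨S0⟩ := D.std0
  obtain ⟨S1⟩ := D.std1
  have := finite_quotient_sup S0 S1
  rw [← D.range_diff] at this
  exact this

lemma subsingleton_H1_iff : Subsingleton D.H1 ↔
    LinearMap.range D.r0B ⊔ LinearMap.range D.r1B = ⊤ := by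
  rw [← D.range_diff]
  exact Submodule.Quotient.subsingleton_iff

lemma projective_H0 (h : Subsingleton D.H1) : Module.Projective B D.H0 := by
  obtain ⟨S0⟩ := D.std0
  obtain ⟨S1⟩ := D.std1
  have := (projective_inf S0 S1 (D.subsingleton_H1_iff.mp h)).1
  exact Module.Projective.of_equiv D.H0equiv.symm

lemma finite_H0 (h : Subsingleton D.H1) : Module.Finite B D.H0 := by
  obtain ⟨S0⟩ := D.std0
  obtain ⟨S1⟩ := D.std1
  have := (projective_inf S0 S1 (D.subsingleton_H1_iff.mp h)).2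
  exact Module.Finite.equiv D.H0equiv.symm

instance projective_M01 : Module.Projective B D.M01 := by
  obtain ⟨S0⟩ := D.std0
  exact S0.projective_top

instance projective_M0 : Module.Projective B D.M0 := by
  obtain ⟨S0⟩ := D.std0
  have := S0.projective_self
  exact Module.Projective.of_equiv (LinearEquiv.ofInjective D.r0B D.r0_injective).symm

instance projective_M1 : Module.Projective B D.M1 := by
  obtain ⟨S0⟩ := D.std1
  have := S0.projective_self
  exact Module.Projective.of_equiv (LinearEquiv.ofInjective D.r1B D.r1_injective).symm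

/-! ### twisting -/

lemma range_tw_r1B (m : ℕ) : LinearMap.range (D.tw m).r1B =
    (LinearMap.range D.r1B).map ((D.T ^ (m : ℤ) : D.M01 ≃ₗ[B] D.M01) : D.M01 →ₗ[B] D.M01) := by
  rw [LinearMap.range_eq_map, LinearMap.range_eq_map, ← Submodule.map_comp]
  congr 1
  ext x
  show (𝒞.ρ0B B (𝒞.f0B B)) ^ m • D.r1 x = (D.T ^ (m : ℤ)) (D.r1 x)
  rw [T, unitMul_zpow, zpow_natCast]
  rfl

lemma exists_tw_H1 : ∃ m₀ : ℕ, ∀ m, m₀ ≤ m → Subsingleton (D.tw m).H1 := by
  obtain ⟨S0⟩ := D.std0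
  obtain ⟨S1⟩ := D.std1
  obtain ⟨n, hn⟩ := exists_twist S0 S1
  refine ⟨n.toNat, fun m hm ↦ ?_⟩
  rw [subsingleton_H1_iff, range_tw_r1B]
  exact hn m (by omega)

end LB

end Fermat.Agent.S25
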