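import Mathlib
import Fermat.Agent.S25.Defs
import Fermat.Agent.S25.AlgBC

/-!
# S25 / ALG2: duals of line bundles given by two charts
-/

set_option autoImplicit false

universe u

open scoped TensorProduct

noncomputable section

namespace Fermat.Agent.S25

section dual

variable {A B C M N P : Type u} [CommRing A] [CommRing B] [CommRing C]
  [AddCommGroup M] [AddCommGroup N] [AddCommGroup P] [Module A M] [Module B N] [Module C P]
  {φ : A →+* B} {g : M →+ N} {ψ : B →+* C} {h : N →+ P}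

/-- the base change map on duals -/
def IsBC.dualMap (hg : IsBC φ g) : Module.Dual A M →+ Module.Dual B N where
  toFun f := hg.lift (φ.toAddMonoidHom.comp f.toAddMonoidHom) (fun a m ↦ by simp)
  map_zero' := hg.hom_ext (fun m ↦ by simp)
  map_add' f f' := hg.hom_ext (fun m ↦ by simp)

@[simp]
lemma IsBC.dualMap_apply (hg : IsBC φ g) (f : Module.Dual A M) (m : M) :
    hg.dualMap f (g m) = φ (f m) := by
  simp [IsBC.dualMap]

lemma IsBC.eq_dualMap (hg : IsBC φ g) (f : Module.Dual A M) (F : Module.Dual B N)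
    (hF : ∀ m, F (g m) = φ (f m)) : F = hg.dualMap f :=
  hg.hom_ext (fun m ↦ by rw [hF, hg.dualMap_apply])

lemma IsBC.dualMap_comp (hg : IsBC φ g) (hh : IsBC ψ h) (hgh : IsBC (ψ.comp φ) (h.comp g))
    (f : Module.Dual A M) : hgh.dualMap f = hh.dualMap (hg.dualMap f) := by
  symm
  refine hgh.eq_dualMap _ _ (fun m ↦ ?_)
  show hh.dualMap (hg.dualMap f) (h (g m)) = _
  rw [hh.dualMap_apply, hg.dualMap_apply]
  rfl

/-- base change commutes with duals of finite projective modules -/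
theorem IsBC.dual [Module.Finite A M] [Module.Projective A M] (hg : IsBC φ g) :
    IsBC φ hg.dualMap := by
  obtain ⟨n, p, i, -, -, hpi⟩ := Module.Finite.exists_comp_eq_id_of_projective A M
  -- dual basis
  let e : Fin n → M := fun j ↦ p (Pi.single j 1)
  let f : Fin n → Module.Dual A M := fun j ↦ (LinearMap.proj j).comp i
  have he : ∀ m, ∑ j, f j m • e j = m := by
    intro m
    have h1 := congr($hpi m)
    simp only [LinearMap.comp_apply, LinearMap.id_apply] at h1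
    conv_rhs => rw [← h1]
    have h2 : i m = ∑ j, (i m j) • (Pi.single j (1 : A) : Fin n → A) := by
      ext l
      simp [Finset.sum_apply, Pi.single_apply]
    conv_rhs => rw [h2, map_sum]
    refine Finset.sum_congr rfl fun j _ ↦ ?_
    rw [map_smul]
    rfl
  have hf : ∀ F : Module.Dual A M, F = ∑ j, F (e j) • f j := by
    intro F
    ext m
    conv_lhs => rw [← he m, map_sum]
    simp only [map_smul, LinearMap.sum_apply, LinearMap.smul_apply, smul_eq_mul]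
    exact Finset.sum_congr rfl fun j _ ↦ mul_comm _ _
  have hN : ∀ F : Module.Dual B N, F = ∑ j, F (g (e j)) • hg.dualMap (f j) := by
    intro F
    refine hg.hom_ext (fun m ↦ ?_)
    conv_lhs => rw [← he m, map_sum, map_sum]
    simp only [hg.smul, map_smul, LinearMap.sum_apply, LinearMap.smul_apply, smul_eq_mul,
      hg.dualMap_apply]
    exact Finset.sum_congr rfl fun j _ ↦ mul_comm _ _
  refine ⟨fun a F ↦ hg.hom_ext (fun m ↦ by simp), fun Q _ _ k hk ↦ ?_⟩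
  refine ⟨{ toFun := fun F ↦ ∑ j, F (g (e j)) • k (f j)
            map_add' := fun F G ↦ by simp [add_smul, Finset.sum_add_distrib]
            map_smul' := fun b F ↦ by simp [Finset.smul_sum, mul_smul] }, fun F ↦ ?_, ?_⟩
  · show ∑ j, hg.dualMap F (g (e j)) • k (f j) = k F
    conv_rhs => rw [hf F, map_sum]
    refine Finset.sum_congr rfl fun j _ ↦ ?_
    rw [hk, hg.dualMap_apply]
  · intro k' hk'
    ext F
    show k' F = ∑ j, F (g (e j)) • k (f j)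
    conv_lhs => rw [hN F, map_sum]
    refine Finset.sum_congr rfl fun j _ ↦ ?_
    rw [map_smul, hk']

end dual

namespace LB

variable {k : Type u} [Field k] {𝒞 : TwoChart k} {B : Type u} [CommRing B] [Algebra k B]

/-- the dual line bundle -/
def dual (D : LB 𝒞 B) : LB 𝒞 B where
  M0 := Module.Dual (𝒞.R0 B) D.M0
  M1 := Module.Dual (𝒞.R1 B) D.M1
  M01 := Module.Dual (𝒞.R01 B) D.M01
  r0 := D.bc0.dualMap
  r1 := D.bc1.dualMap
  bc0 := D.bc0.dual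
  bc1 := D.bc1.dual
  inv0 := inferInstance
  inv1 := inferInstance

/-- the duality pairing on `U0` -/
def pair0 (D : LB 𝒞 B) : D.dual.M0 →ₗ[𝒞.R0 B] D.M0 →ₗ[𝒞.R0 B] 𝒞.R0 B :=
  (LinearMap.id : Module.Dual (𝒞.R0 B) D.M0 →ₗ[𝒞.R0 B] Module.Dual (𝒞.R0 B) D.M0)

/-- the duality pairing on `U1` -/
def pair1 (D : LB 𝒞 B) : D.dual.M1 →ₗ[𝒞.R1 B] D.M1 →ₗ[𝒞.R1 B] 𝒞.R1 B :=
  (LinearMap.id : Module.Dual (𝒞.R1 B) D.M1 →ₗ[𝒞.R1 B] Module.Dual (𝒞.R1 B) D.M1)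

/-- the duality pairing on `U01` -/
def pair01 (D : LB 𝒞 B) : D.dual.M01 →ₗ[𝒞.R01 B] D.M01 →ₗ[𝒞.R01 B] 𝒞.R01 B :=
  (LinearMap.id : Module.Dual (𝒞.R01 B) D.M01 →ₗ[𝒞.R01 B] Module.Dual (𝒞.R01 B) D.M01)

@[simp]
lemma pair01_r0 (D : LB 𝒞 B) (f : D.dual.M0) (x : D.M0) :
    D.pair01 (D.dual.r0 f) (D.r0 x) = 𝒞.ρ0B B (D.pair0 f x) :=
  D.bc0.dualMap_apply _ x

@[simp]
lemma pair01_r1 (D : LB 𝒞 B) (f : D.dual.M1) (x : D.M1) :
    D.pair01 (D.dual.r1 f) (D.r1 x) = 𝒞.ρ1B B (D.pair1 f x) :=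
  D.bc1.dualMap_apply _ x

lemma eq_dual_r0 (D : LB 𝒞 B) (f : D.dual.M0) (F : D.dual.M01)
    (hF : ∀ x, D.pair01 F (D.r0 x) = 𝒞.ρ0B B (D.pair0 f x)) : F = D.dual.r0 f :=
  D.bc0.eq_dualMap _ _ hF

lemma eq_dual_r1 (D : LB 𝒞 B) (f : D.dual.M1) (F : D.dual.M01)
    (hF : ∀ x, D.pair01 F (D.r1 x) = 𝒞.ρ1B B (D.pair1 f x)) : F = D.dual.r1 f :=
  D.bc1.eq_dualMap _ _ hF

lemma ext_pair0 (D : LB 𝒞 B) {f f' : D.dual.M0} (h : ∀ x, D.pair0 f x = D.pair0 f' x) : f = f' :=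
  LinearMap.ext h

lemma ext_pair1 (D : LB 𝒞 B) {f f' : D.dual.M1} (h : ∀ x, D.pair1 f x = D.pair1 f' x) : f = f' :=
  LinearMap.ext h

lemma ext_pair01 (D : LB 𝒞 B) {f f' : D.dual.M01} (h : ∀ x, D.pair01 f x = D.pair01 f' x) :
    f = f' :=
  LinearMap.ext h

namespace Iso

@[simps]
def refl (D : LB 𝒞 B) : Iso D D where
  e0 := .refl _ _
  e1 := .refl _ _
  e01 := .refl _ _
  h0 _ := rfl
  h1 _ := rfl

@[simps]
def symm {D D' : LB 𝒞 B} (e : Iso D D') : Iso D' D where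
  e0 := e.e0.symm
  e1 := e.e1.symm
  e01 := e.e01.symm
  h0 x := by
    rw [LinearEquiv.eq_symm_apply, ← e.h0, LinearEquiv.apply_symm_apply]
  h1 x := by
    rw [LinearEquiv.eq_symm_apply, ← e.h1, LinearEquiv.apply_symm_apply]

@[simps]
def trans {D D' D'' : LB 𝒞 B} (e : Iso D D') (e' : Iso D' D'') : Iso D D'' where
  e0 := e.e0.trans e'.e0
  e1 := e.e1.trans e'.e1
  e01 := e.e01.trans e'.e01
  h0 x := by simp [e.h0, e'.h0]
  h1 x := by simp [e.h1, e'.h1]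

/-- the dual of an isomorphism (covariantly, through the inverse) -/
def dual {D D' : LB 𝒞 B} (e : Iso D D') : Iso D.dual D'.dual where
  e0 := e.e0.symm.dualMap
  e1 := e.e1.symm.dualMap
  e01 := e.e01.symm.dualMap
  h0 f := by
    symm
    refine D'.eq_dual_r0 _ _ (fun x ↦ ?_)
    show D.pair01 (D.dual.r0 f) (e.e01.symm (D'.r0 x)) = 𝒞.ρ0B B (D.pair0 f (e.e0.symm x))
    have := e.symm.h0 x
    simp only [symm_e0, symm_e01] at this
    rw [← this, pair01_r0]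
  h1 f := by
    symm
    refine D'.eq_dual_r1 _ _ (fun x ↦ ?_)
    show D.pair01 (D.dual.r1 f) (e.e01.symm (D'.r1 x)) = 𝒞.ρ1B B (D.pair1 f (e.e1.symm x))
    have := e.symm.h1 x
    simp only [symm_e1, symm_e01] at this
    rw [← this, pair01_r1]

@[simp]
lemma dual_pair0 {D D' : LB 𝒞 B} (e : Iso D D') (f : D.dual.M0) (x : D'.M0) :
    D'.pair0 (e.dual.e0 f) x = D.pair0 f (e.e0.symm x) := rfl

@[simp]
lemma dual_pair1 {D D' : LB 𝒞 B} (e : Iso D D') (f : D.dual.M1) (x : D'.M1) :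
    D'.pair1 (e.dual.e1 f) x = D.pair1 f (e.e1.symm x) := rfl

@[simp]
lemma dual_pair01 {D D' : LB 𝒞 B} (e : Iso D D') (f : D.dual.M01) (x : D'.M01) :
    D'.pair01 (e.dual.e01 f) x = D.pair01 f (e.e01.symm x) := rfl

end Iso

instance invertible_M01 (D : LB 𝒞 B) : Module.Invertible (𝒞.R01 B) D.M01 :=
  D.bc0.invertible

/-- the double dual -/
def dualDual (D : LB 𝒞 B) : Iso D D.dual.dual where
  e0 := Module.evalEquiv (𝒞.R0 B) D.M0
  e1 := Module.evalEquiv (𝒞.R1 B) D.M1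
  e01 := Module.evalEquiv (𝒞.R01 B) D.M01
  h0 x := by
    symm
    refine D.dual.eq_dual_r0 _ _ (fun f ↦ ?_)
    show D.pair01 (D.dual.r0 f) (D.r0 x) = 𝒞.ρ0B B (D.pair0 f x)
    simp
  h1 x := by
    symm
    refine D.dual.eq_dual_r1 _ _ (fun f ↦ ?_)
    show D.pair01 (D.dual.r1 f) (D.r1 x) = 𝒞.ρ1B B (D.pair1 f x)
    simp

@[simp]
lemma dualDual_pair0 (D : LB 𝒞 B) (f : D.dual.M0) (x : D.M0) :
    D.dual.pair0 (D.dualDual.e0 x) f = D.pair0 f x := rfl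

@[simp]
lemma dualDual_pair1 (D : LB 𝒞 B) (f : D.dual.M1) (x : D.M1) :
    D.dual.pair1 (D.dualDual.e1 x) f = D.pair1 f x := rfl

@[simp]
lemma dualDual_pair01 (D : LB 𝒞 B) (f : D.dual.M01) (x : D.M01) :
    D.dual.pair01 (D.dualDual.e01 x) f = D.pair01 f x := rfl

/-- the dual of the trivial bundle -/
def dualTriv : Iso (triv 𝒞 B).dual (triv 𝒞 B) where
  e0 := LinearMap.ringLmapEquivSelf (𝒞.R0 B) (𝒞.R0 B) (𝒞.R0 B)
  e1 := LinearMap.ringLmapEquivSelf (𝒞.R1 B) (𝒞.R1 B) (𝒞.R1 B)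
  e01 := LinearMap.ringLmapEquivSelf (𝒞.R01 B) (𝒞.R01 B) (𝒞.R01 B)
  h0 f := by
    show 𝒞.ρ0B B ((triv 𝒞 B).pair0 f (1 : 𝒞.R0 B)) =
      (triv 𝒞 B).pair01 ((triv 𝒞 B).dual.r0 f) (1 : 𝒞.R01 B)
    rw [← pair01_r0]
    congr 1
    exact (map_one (𝒞.ρ0B B))
  h1 f := by
    show 𝒞.ρ1B B ((triv 𝒞 B).pair1 f (1 : 𝒞.R1 B)) =
      (triv 𝒞 B).pair01 ((triv 𝒞 B).dual.r1 f) (1 : 𝒞.R01 B)
    rw [← pair01_r1]
    congr 1
    exact (map_one (𝒞.ρ1B B))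

/-- twisting an isomorphism -/
@[simps]
def Iso.tw {D D' : LB 𝒞 B} (e : Iso D D') (m : ℕ) : Iso (D.tw m) (D'.tw m) where
  e0 := e.e0
  e1 := e.e1
  e01 := e.e01
  h0 x := e.h0 x
  h1 x := by
    show (𝒞.ρ0B B (𝒞.f0B B)) ^ m • D'.r1 (e.e1 x) = e.e01 ((𝒞.ρ0B B (𝒞.f0B B)) ^ m • D.r1 x)
    rw [e.h1, map_smul]

/-- twisting back the dual of a twist gives the dual. -/
def dualTw (D : LB 𝒞 B) (m : ℕ) : Iso ((D.tw m).dual.tw m) D.dual where
  e0 := LinearEquiv.refl _ _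
  e1 := LinearEquiv.refl _ _
  e01 := LinearEquiv.refl _ _
  h0 f := rfl
  h1 f := by
    symm
    refine D.eq_dual_r1 _ _ (fun x ↦ ?_)
    have h1 := (D.tw m).pair01_r1 f x
    have h2 : (D.tw m).r1 x = (𝒞.ρ0B B (𝒞.f0B B)) ^ m • D.r1 x := rfl
    rw [h2] at h1
    have h3 : ∀ (c : 𝒞.R01 B) (F : Module.Dual (𝒞.R01 B) D.M01) (y : D.M01),
        (c • F) y = F (c • y) := fun c F y ↦ by simp
    exact (h3 _ _ _).trans h1

lemma ρ0B_bc0 {B' : Type u} [CommRing B'] [Algebra k B'] (φ : B →ₐ[k] B') (x : 𝒞.R0 B) :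
    𝒞.ρ0B B' (𝒞.bc0 φ x) = 𝒞.bc01 φ (𝒞.ρ0B B x) := by
  induction x using TensorProduct.induction_on with
  | zero => simp
  | add x y hx hy => simp only [map_add, hx, hy]
  | tmul b a => rfl

lemma ρ1B_bc1 {B' : Type u} [CommRing B'] [Algebra k B'] (φ : B →ₐ[k] B') (x : 𝒞.R1 B) :
    𝒞.ρ1B B' (𝒞.bc1 φ x) = 𝒞.bc01 φ (𝒞.ρ1B B x) := by
  induction x using TensorProduct.induction_on with
  | zero => simp
  | add x y hx hy => simp only [map_add, hx, hy]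
  | tmul b a => rfl

/-- base change is compatible with duals -/
def BC.dual {B' : Type u} [CommRing B'] [Algebra k B'] {φ : B →ₐ[k] B'} {D : LB 𝒞 B}
    {D' : LB 𝒞 B'} (u : BC φ D D') : BC φ D.dual D'.dual where
  u0 := u.bc0.dualMap
  u1 := u.bc1.dualMap
  u01 := u.bc01.dualMap
  bc0 := u.bc0.dual
  bc1 := u.bc1.dual
  bc01 := u.bc01.dual
  h0 f := by
    refine (u.bc0.comp D'.bc0).hom_ext (fun x ↦ ?_)
    show D'.pair01 (D'.dual.r0 (u.bc0.dualMap f)) (D'.r0 (u.u0 x)) =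
      (u.bc01.dualMap (D.dual.r0 f)) (D'.r0 (u.u0 x))
    rw [pair01_r0, u.h0, u.bc01.dualMap_apply]
    show 𝒞.ρ0B B' ((u.bc0.dualMap f) (u.u0 x)) = 𝒞.bc01 φ (D.pair01 (D.dual.r0 f) (D.r0 x))
    rw [u.bc0.dualMap_apply, pair01_r0, ρ0B_bc0]
    rfl
  h1 f := by
    refine (u.bc1.comp D'.bc1).hom_ext (fun x ↦ ?_)
    show D'.pair01 (D'.dual.r1 (u.bc1.dualMap f)) (D'.r1 (u.u1 x)) =
      (u.bc01.dualMap (D.dual.r1 f)) (D'.r1 (u.u1 x))
    rw [pair01_r1, u.h1, u.bc01.dualMap_apply]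
    show 𝒞.ρ1B B' ((u.bc1.dualMap f) (u.u1 x)) = 𝒞.bc01 φ (D.pair01 (D.dual.r1 f) (D.r1 x))
    rw [u.bc1.dualMap_apply, pair01_r1, ρ1B_bc1]
    rfl

@[simp]
lemma BC.dual_pair0 {B' : Type u} [CommRing B'] [Algebra k B'] {φ : B →ₐ[k] B'} {D : LB 𝒞 B}
    {D' : LB 𝒞 B'} (u : BC φ D D') (f : D.dual.M0) (x : D.M0) :
    D'.pair0 (u.dual.u0 f) (u.u0 x) = 𝒞.bc0 φ (D.pair0 f x) :=
  u.bc0.dualMap_apply _ _

@[simp]
lemma BC.dual_pair1 {B' : Type u} [CommRing B'] [Algebra k B'] {φ : B →ₐ[k] B'} {D : LB 𝒞 B}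
    {D' : LB 𝒞 B'} (u : BC φ D D') (f : D.dual.M1) (x : D.M1) :
    D'.pair1 (u.dual.u1 f) (u.u1 x) = 𝒞.bc1 φ (D.pair1 f x) :=
  u.bc1.dualMap_apply _ _

@[simp]
lemma BC.dual_pair01 {B' : Type u} [CommRing B'] [Algebra k B'] {φ : B →ₐ[k] B'} {D : LB 𝒞 B}
    {D' : LB 𝒞 B'} (u : BC φ D D') (f : D.dual.M01) (x : D.M01) :
    D'.pair01 (u.dual.u01 f) (u.u01 x) = 𝒞.bc01 φ (D.pair01 f x) :=
  u.bc01.dualMap_apply _ _

end LB

end Fermat.Agent.S25
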