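import Mathlib
import Fermat.Agent.S25.AlgCoh
import Fermat.Agent.S25.Dual

/-!
# Base change of line bundles: existence, uniqueness, cohomology
-/

set_option autoImplicit false

universe u

open scoped TensorProduct Polynomial

noncomputable section

namespace Fermat.Agent.S25

open Alg

variable {k : Type u} [Field k] {𝒞 : TwoChart k}

namespace TwoChart

variable {B B' B'' : Type u} [CommRing B] [Algebra k B] [CommRing B'] [Algebra k B']
  [CommRing B''] [Algebra k B'']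

lemma bc01_ρ0B (φ : B →ₐ[k] B') (x : 𝒞.R0 B) :
    𝒞.bc01 φ (𝒞.ρ0B B x) = 𝒞.ρ0B B' (𝒞.bc0 φ x) := by
  induction x using TensorProduct.induction_on with
  | zero => simp
  | add x y hx hy => simp only [map_add, hx, hy]
  | tmul b a => simp [bc01, bc0, ρ0B]

lemma bc01_ρ1B (φ : B →ₐ[k] B') (x : 𝒞.R1 B) :
    𝒞.bc01 φ (𝒞.ρ1B B x) = 𝒞.ρ1B B' (𝒞.bc1 φ x) := bc01_ρ0B (𝒞 := 𝒞.swap) φ x

lemma bc01_comp_ρ0B (φ : B →ₐ[k] B') :
    (𝒞.bc01 φ).comp (𝒞.ρ0B B).toRingHom = (𝒞.ρ0B B').toRingHom.comp (𝒞.bc0 φ) :=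
  RingHom.ext fun x ↦ bc01_ρ0B φ x

lemma bc01_comp_ρ1B (φ : B →ₐ[k] B') :
    (𝒞.bc01 φ).comp (𝒞.ρ1B B).toRingHom = (𝒞.ρ1B B').toRingHom.comp (𝒞.bc1 φ) :=
  RingHom.ext fun x ↦ bc01_ρ1B φ x

@[simp] lemma bc0_f0B (φ : B →ₐ[k] B') : 𝒞.bc0 φ (𝒞.f0B B) = 𝒞.f0B B' := by
  simp [bc0, f0B]

@[simp] lemma bc1_f1B (φ : B →ₐ[k] B') : 𝒞.bc1 φ (𝒞.f1B B) = 𝒞.f1B B' := by
  simp [bc1, f1B]

lemma bc0_comp (φ : B →ₐ[k] B') (ψ : B' →ₐ[k] B'') :
    (𝒞.bc0 ψ).comp (𝒞.bc0 φ) = 𝒞.bc0 (ψ.comp φ) := by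
  refine RingHom.ext fun x ↦ ?_
  induction x using TensorProduct.induction_on with
  | zero => simp
  | add x y hx hy => simp only [map_add, hx, hy]
  | tmul b a => simp [bc0]

lemma bc1_comp (φ : B →ₐ[k] B') (ψ : B' →ₐ[k] B'') :
    (𝒞.bc1 ψ).comp (𝒞.bc1 φ) = 𝒞.bc1 (ψ.comp φ) := bc0_comp (𝒞 := 𝒞.swap) φ ψ

lemma bc01_comp (φ : B →ₐ[k] B') (ψ : B' →ₐ[k] B'') :
    (𝒞.bc01 ψ).comp (𝒞.bc01 φ) = 𝒞.bc01 (ψ.comp φ) := by
  refine RingHom.ext fun x ↦ ?_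
  induction x using TensorProduct.induction_on with
  | zero => simp
  | add x y hx hy => simp only [map_add, hx, hy]
  | tmul b a => simp [bc01]

lemma bc0_id : 𝒞.bc0 (AlgHom.id k B) = RingHom.id _ := by
  refine RingHom.ext fun x ↦ ?_
  induction x using TensorProduct.induction_on with
  | zero => simp
  | add x y hx hy => simp only [map_add, hx, hy]
  | tmul b a => simp [bc0]

lemma bc1_id : 𝒞.bc1 (AlgHom.id k B) = RingHom.id _ := bc0_id (𝒞 := 𝒞.swap)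

lemma bc01_id : 𝒞.bc01 (AlgHom.id k B) = RingHom.id _ := by
  refine RingHom.ext fun x ↦ ?_
  induction x using TensorProduct.induction_on with
  | zero => simp
  | add x y hx hy => simp only [map_add, hx, hy]
  | tmul b a => simp [bc01]

lemma isBC_bc0 (φ : B →ₐ[k] B') : IsBC φ.toRingHom (𝒞.bc0 φ).toAddMonoidHom := isBC_tensorMap φ
lemma isBC_bc1 (φ : B →ₐ[k] B') : IsBC φ.toRingHom (𝒞.bc1 φ).toAddMonoidHom := isBC_tensorMap φ
lemma isBC_bc01 (φ : B →ₐ[k] B') : IsBC φ.toRingHom (𝒞.bc01 φ).toAddMonoidHom :=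
  isBC_tensorMap φ

end TwoChart

namespace LB

section Iso

variable {B : Type u} [CommRing B] [Algebra k B] {D D' D'' : LB 𝒞 B}

/-- `tw` is additive -/
def twTw (D : LB 𝒞 B) (m n : ℕ) : Iso ((D.tw m).tw n) (D.tw (m + n)) where
  e0 := .refl _ _
  e1 := .refl _ _
  e01 := .refl _ _
  h0 _ := rfl
  h1 x := by
    show (𝒞.ρ0B B (𝒞.f0B B)) ^ (m + n) • D.r1 x =
      (𝒞.ρ0B B (𝒞.f0B B)) ^ n • (𝒞.ρ0B B (𝒞.f0B B)) ^ m • D.r1 x
    rw [smul_smul, ← pow_add, add_comm]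

/-- `tw 0` is the identity -/
def twZero (D : LB 𝒞 B) : Iso (D.tw 0) D where
  e0 := .refl _ _
  e1 := .refl _ _
  e01 := .refl _ _
  h0 _ := rfl
  h1 x := by
    show D.r1 x = (𝒞.ρ0B B (𝒞.f0B B)) ^ 0 • D.r1 x
    simp

lemma Iso.smul_e0 (e : Iso D D') (b : B) (x : D.M0) : e.e0 (b • x) = b • e.e0 x :=
  e.e0.map_smul (algebraMap B (𝒞.R0 B) b) x

lemma Iso.smul_e1 (e : Iso D D') (b : B) (x : D.M1) : e.e1 (b • x) = b • e.e1 x :=
  e.e1.map_smul (algebraMap B (𝒞.R1 B) b) x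

lemma Iso.smul_e01 (e : Iso D D') (b : B) (x : D.M01) : e.e01 (b • x) = b • e.e01 x :=
  e.e01.map_smul (algebraMap B (𝒞.R01 B) b) x

/-- the isomorphism on `M01` as a `B`-linear map -/
def Iso.e01B (e : Iso D D') : D.M01 ≃ₗ[B] D'.M01 := { e.e01 with map_smul' := e.smul_e01 }
/-- the isomorphism on `M0` as a `B`-linear map -/
def Iso.e0B (e : Iso D D') : D.M0 ≃ₗ[B] D'.M0 := { e.e0 with map_smul' := e.smul_e0 }
/-- the isomorphism on `M1` as a `B`-linear map -/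
def Iso.e1B (e : Iso D D') : D.M1 ≃ₗ[B] D'.M1 := { e.e1 with map_smul' := e.smul_e1 }

lemma Iso.diff_comm (e : Iso D D') (x : D.M0 × D.M1) :
    D'.diff (e.e0B x.1, e.e1B x.2) = e.e01B (D.diff x) := by
  rw [diff_apply, diff_apply, map_sub]
  exact congrArg₂ (· - ·) (e.h0 _) (e.h1 _)

/-- isomorphism on `H⁰` -/
def Iso.H0 (e : Iso D D') : D.H0 ≃ₗ[B] D'.H0 :=
  (e.e0B.prodCongr e.e1B).submoduleMap D.H0 ≪≫ₗ LinearEquiv.ofEq _ _ (by
    ext ⟨x0, x1⟩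
    constructor
    · rintro ⟨⟨y0, y1⟩, hy, h⟩
      simp only [LinearEquiv.prodCongr, LinearEquiv.coe_coe, Prod.mk.injEq] at h
      rw [← h, LinearMap.mem_ker]
      have := e.diff_comm (y0, y1)
      rw [LinearMap.mem_ker.mp hy, map_zero] at this
      exact this
    · intro h
      refine ⟨(e.e0B.symm x0, e.e1B.symm x1), ?_, by simp⟩
      have := e.diff_comm (e.e0B.symm x0, e.e1B.symm x1)
      simp only [LinearEquiv.apply_symm_apply] at this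
      rw [LinearMap.mem_ker.mp h] at this
      rw [SetLike.mem_coe, LinearMap.mem_ker]
      exact e.e01B.injective (by rw [map_zero]; exact this.symm))

/-- isomorphism on `H¹` -/
def Iso.H1 (e : Iso D D') : D.H1 ≃ₗ[B] D'.H1 :=
  Submodule.Quotient.equiv _ _ e.e01B (by
    ext x
    constructor
    · rintro ⟨_, ⟨y, rfl⟩, rfl⟩
      exact ⟨(e.e0B y.1, e.e1B y.2), e.diff_comm y⟩
    · rintro ⟨⟨x0, x1⟩, rfl⟩
      refine ⟨D.diff (e.e0B.symm x0, e.e1B.symm x1), ⟨_, rfl⟩, ?_⟩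
      have := e.diff_comm (e.e0B.symm x0, e.e1B.symm x1)
      simp only [LinearEquiv.apply_symm_apply] at this
      exact this.symm)

lemma Iso.chi (e : Iso D D') : D.chi = D'.chi := by
  rw [LB.chi, LB.chi, e.H0.finrank_eq, e.H1.finrank_eq]

end Iso

section BC

variable {B B' B'' : Type u} [CommRing B] [Algebra k B] [CommRing B'] [Algebra k B']
  [CommRing B''] [Algebra k B''] {φ : B →ₐ[k] B'} {ψ : B' →ₐ[k] B''}
  {D : LB 𝒞 B} {D' : LB 𝒞 B'} {D'' : LB 𝒞 B''}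

/-- base change along the identity -/
def BC.refl (D : LB 𝒞 B) : BC (AlgHom.id k B) D D where
  u0 := .id _
  u1 := .id _
  u01 := .id _
  bc0 := by
    rw [TwoChart.bc0_id]
    exact .of_bijective _ _ Function.bijective_id Function.bijective_id (fun _ _ ↦ rfl)
  bc1 := by
    rw [TwoChart.bc1_id]
    exact .of_bijective _ _ Function.bijective_id Function.bijective_id (fun _ _ ↦ rfl)
  bc01 := by
    rw [TwoChart.bc01_id]
    exact .of_bijective _ _ Function.bijective_id Function.bijective_id (fun _ _ ↦ rfl)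
  h0 _ := rfl
  h1 _ := rfl

/-- composition of base changes -/
def BC.comp (h : BC φ D D') (h' : BC ψ D' D'') : BC (ψ.comp φ) D D'' where
  u0 := h'.u0.comp h.u0
  u1 := h'.u1.comp h.u1
  u01 := h'.u01.comp h.u01
  bc0 := by rw [← TwoChart.bc0_comp]; exact h.bc0.comp h'.bc0
  bc1 := by rw [← TwoChart.bc1_comp]; exact h.bc1.comp h'.bc1
  bc01 := by rw [← TwoChart.bc01_comp]; exact h.bc01.comp h'.bc01
  h0 x := by simp [h.h0, h'.h0]
  h1 x := by simp [h.h1, h'.h1]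

/-- an isomorphism composed with a base change -/
def BC.ofIso {D₁ : LB 𝒞 B} (e : Iso D₁ D) (h : BC φ D D') : BC φ D₁ D' where
  u0 := h.u0.comp e.e0.toLinearMap.toAddMonoidHom
  u1 := h.u1.comp e.e1.toLinearMap.toAddMonoidHom
  u01 := h.u01.comp e.e01.toLinearMap.toAddMonoidHom
  bc0 := (IsBC.of_bijective (RingHom.id _) e.e0.toLinearMap.toAddMonoidHom Function.bijective_id
    e.e0.bijective (fun a m ↦ e.e0.map_smul a m)).comp h.bc0
  bc1 := (IsBC.of_bijective (RingHom.id _) e.e1.toLinearMap.toAddMonoidHom Function.bijective_id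
    e.e1.bijective (fun a m ↦ e.e1.map_smul a m)).comp h.bc1
  bc01 := (IsBC.of_bijective (RingHom.id _) e.e01.toLinearMap.toAddMonoidHom
    Function.bijective_id e.e01.bijective (fun a m ↦ e.e01.map_smul a m)).comp h.bc01
  h0 x := by
    show D'.r0 (h.u0 (e.e0 x)) = h.u01 (e.e01 (D₁.r0 x))
    rw [h.h0, e.h0]
  h1 x := by
    show D'.r1 (h.u1 (e.e1 x)) = h.u01 (e.e01 (D₁.r1 x))
    rw [h.h1, e.h1]

/-- a base change composed with an isomorphism -/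
def BC.trans_iso {D₁ : LB 𝒞 B'} (h : BC φ D D') (e : Iso D' D₁) : BC φ D D₁ where
  u0 := e.e0.toLinearMap.toAddMonoidHom.comp h.u0
  u1 := e.e1.toLinearMap.toAddMonoidHom.comp h.u1
  u01 := e.e01.toLinearMap.toAddMonoidHom.comp h.u01
  bc0 := h.bc0.comp (IsBC.of_bijective (RingHom.id _) e.e0.toLinearMap.toAddMonoidHom
    Function.bijective_id e.e0.bijective (fun a m ↦ e.e0.map_smul a m))
  bc1 := h.bc1.comp (IsBC.of_bijective (RingHom.id _) e.e1.toLinearMap.toAddMonoidHom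
    Function.bijective_id e.e1.bijective (fun a m ↦ e.e1.map_smul a m))
  bc01 := h.bc01.comp (IsBC.of_bijective (RingHom.id _) e.e01.toLinearMap.toAddMonoidHom
    Function.bijective_id e.e01.bijective (fun a m ↦ e.e01.map_smul a m))
  h0 x := by
    show D₁.r0 (e.e0 (h.u0 x)) = e.e01 (h.u01 (D.r0 x))
    rw [e.h0, h.h0]
  h1 x := by
    show D₁.r1 (e.e1 (h.u1 x)) = e.e01 (h.u01 (D.r1 x))
    rw [e.h1, h.h1]

/-- twisting commutes with base change -/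
def BC.tw (h : BC φ D D') (m : ℕ) : BC φ (D.tw m) (D'.tw m) where
  u0 := h.u0
  u1 := h.u1
  u01 := h.u01
  bc0 := h.bc0
  bc1 := h.bc1
  bc01 := h.bc01
  h0 := h.h0
  h1 x := by
    show (𝒞.ρ0B B' (𝒞.f0B B')) ^ m • D'.r1 (h.u1 x) =
      h.u01 ((𝒞.ρ0B B (𝒞.f0B B)) ^ m • D.r1 x)
    rw [h.h1, h.bc01.smul, map_pow, TwoChart.bc01_ρ0B, TwoChart.bc0_f0B]

/-- exchanging the charts -/
def BC.swap (h : BC φ D D') : BC φ D.swap D'.swap where
  u0 := h.u1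
  u1 := h.u0
  u01 := h.u01
  bc0 := h.bc1
  bc1 := h.bc0
  bc01 := h.bc01
  h0 := h.h1
  h1 := h.h0

/-- base changes of isomorphic line bundles are isomorphic -/
def BC.iso {D₁ : LB 𝒞 B} {D₁' : LB 𝒞 B'} (e : Iso D D₁) (h : BC φ D D') (h' : BC φ D₁ D₁') :
    Iso D' D₁' :=
  let g := BC.ofIso e h'
  { e0 := h.bc0.equiv g.bc0
    e1 := h.bc1.equiv g.bc1
    e01 := h.bc01.equiv g.bc01
    h0 := by
      intro x
      induction x using h.bc0.induction with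
      | hg m => rw [IsBC.equiv_apply, h.h0, IsBC.equiv_apply, g.h0]
      | h0 => simp
      | hadd x y hx hy => simp only [map_add, hx, hy]
      | hsmul b x hx =>
        rw [map_smul, D₁'.bc0.smul, hx, D'.bc0.smul, map_smul]
    h1 := by
      intro x
      induction x using h.bc1.induction with
      | hg m => rw [IsBC.equiv_apply, h.h1, IsBC.equiv_apply, g.h1]
      | h0 => simp
      | hadd x y hx hy => simp only [map_add, hx, hy]
      | hsmul b x hx =>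
        rw [map_smul, D₁'.bc1.smul, hx, D'.bc1.smul, map_smul] }

/-- uniqueness of base change -/
def BC.uniq {D₁' : LB 𝒞 B'} (h : BC φ D D') (h' : BC φ D D₁') : Iso D' D₁' :=
  BC.iso (Iso.refl D) h h'

variable (φ D) in
/-- `r0` after base change -/
def bcr0 : Ext (𝒞.bc0 φ) D.M0 →+ Ext (𝒞.bc01 φ) D.M01 :=
  (isBC_extMk (𝒞.bc0 φ) D.M0).slift (𝒞.ρ0B B').toRingHom
    ((extMk (𝒞.bc01 φ) D.M01).comp D.r0) (fun a m ↦ by
      simp only [AddMonoidHom.comp_apply]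
      rw [D.bc0.smul, (isBC_extMk (𝒞.bc01 φ) D.M01).smul]
      exact congrArg (· • _) (TwoChart.bc01_ρ0B φ a))

variable (φ D) in
/-- `r1` after base change -/
def bcr1 : Ext (𝒞.bc1 φ) D.M1 →+ Ext (𝒞.bc01 φ) D.M01 :=
  (isBC_extMk (𝒞.bc1 φ) D.M1).slift (𝒞.ρ1B B').toRingHom
    ((extMk (𝒞.bc01 φ) D.M01).comp D.r1) (fun a m ↦ by
      simp only [AddMonoidHom.comp_apply]
      rw [D.bc1.smul, (isBC_extMk (𝒞.bc01 φ) D.M01).smul]
      exact congrArg (· • _) (TwoChart.bc01_ρ1B φ a))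

variable (φ D) in
lemma bcr0_apply (x : D.M0) : bcr0 φ D (extMk (𝒞.bc0 φ) D.M0 x) =
    extMk (𝒞.bc01 φ) D.M01 (D.r0 x) := IsBC.slift_apply _ _ _ _ _

variable (φ D) in
lemma bcr1_apply (x : D.M1) : bcr1 φ D (extMk (𝒞.bc1 φ) D.M1 x) =
    extMk (𝒞.bc01 φ) D.M01 (D.r1 x) := IsBC.slift_apply _ _ _ _ _

variable (φ D) in
lemma isBC_bcr0 : IsBC (𝒞.ρ0B B').toRingHom (bcr0 φ D) := by
  refine IsBC.of_comp (isBC_extMk (𝒞.bc0 φ) D.M0) (fun b n ↦ IsBC.slift_smul _ _ _ _ b n) ?_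
  have h : IsBC ((𝒞.bc01 φ).comp (𝒞.ρ0B B).toRingHom) ((extMk (𝒞.bc01 φ) D.M01).comp D.r0) :=
    D.bc0.comp (isBC_extMk _ _)
  rw [TwoChart.bc01_comp_ρ0B] at h
  convert h using 1
  ext m
  exact IsBC.slift_apply _ _ _ _ _

variable (φ D) in
lemma isBC_bcr1 : IsBC (𝒞.ρ1B B').toRingHom (bcr1 φ D) := by
  refine IsBC.of_comp (isBC_extMk (𝒞.bc1 φ) D.M1) (fun b n ↦ IsBC.slift_smul _ _ _ _ b n) ?_
  have h : IsBC ((𝒞.bc01 φ).comp (𝒞.ρ1B B).toRingHom) ((extMk (𝒞.bc01 φ) D.M01).comp D.r1) :=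
    D.bc1.comp (isBC_extMk _ _)
  rw [TwoChart.bc01_comp_ρ1B] at h
  convert h using 1
  ext m
  exact IsBC.slift_apply _ _ _ _ _

variable (φ D) in
/-- existence of base change -/
def baseChange : LB 𝒞 B' where
  M0 := Ext (𝒞.bc0 φ) D.M0
  M1 := Ext (𝒞.bc1 φ) D.M1
  M01 := Ext (𝒞.bc01 φ) D.M01
  r0 := bcr0 φ D
  r1 := bcr1 φ D
  bc0 := isBC_bcr0 φ D
  bc1 := isBC_bcr1 φ D
  inv0 := (isBC_extMk (𝒞.bc0 φ) D.M0).invertible
  inv1 := (isBC_extMk (𝒞.bc1 φ) D.M1).invertible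

variable (φ D) in
/-- existence of base change -/
def bcBaseChange : BC φ D (D.baseChange φ) where
  u0 := extMk (𝒞.bc0 φ) D.M0
  u1 := extMk (𝒞.bc1 φ) D.M1
  u01 := extMk (𝒞.bc01 φ) D.M01
  bc0 := isBC_extMk (𝒞.bc0 φ) D.M0
  bc1 := isBC_extMk (𝒞.bc1 φ) D.M1
  bc01 := isBC_extMk (𝒞.bc01 φ) D.M01
  h0 x := bcr0_apply φ D x
  h1 x := bcr1_apply φ D x

/-! ### cohomology and base change -/

lemma BC.isBC_u0 (h : BC φ D D') : IsBC φ.toRingHom h.u0 := (TwoChart.isBC_bc0 φ).tower h.bc0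
lemma BC.isBC_u1 (h : BC φ D D') : IsBC φ.toRingHom h.u1 := (TwoChart.isBC_bc1 φ).tower h.bc1
lemma BC.isBC_u01 (h : BC φ D D') : IsBC φ.toRingHom h.u01 :=
  (TwoChart.isBC_bc01 φ).tower h.bc01

lemma BC.diff_comm (h : BC φ D D') (x : D.M0 × D.M1) :
    D'.diff (h.u0.prodMap h.u1 x) = h.u01 (D.diff x) := by
  rw [diff_apply, diff_apply, map_sub]
  exact congrArg₂ (· - ·) (h.h0 _) (h.h1 _)

/-- `u01` as a semilinear map -/
def BC.l01 (h : BC φ D D') : D.M01 →ₛₗ[φ.toRingHom] D'.M01 where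
  toFun := h.u01
  map_add' := h.u01.map_add
  map_smul' := h.isBC_u01.smul

/-- the map on `H¹` -/
def BC.mapH1 (h : BC φ D D') : D.H1 →+ D'.H1 :=
  (Submodule.mapQ (LinearMap.range D.diff) (LinearMap.range D'.diff) h.l01 (by
    rintro _ ⟨x, rfl⟩
    exact ⟨_, h.diff_comm x⟩)).toAddMonoidHom

lemma BC.mapH1_mk (h : BC φ D D') (x : D.M01) :
    h.mapH1 (Submodule.Quotient.mk x) = Submodule.Quotient.mk (h.u01 x) := rfl

lemma BC.isBC_mapH1 (h : BC φ D D') : IsBC φ.toRingHom h.mapH1 :=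
  (h.isBC_u0.prod h.isBC_u1).coker h.isBC_u01 D'.diff h.diff_comm h.mapH1_mk

/-- the map on `H⁰` -/
def BC.mapH0 (h : BC φ D D') : D.H0 →+ D'.H0 where
  toFun x := ⟨h.u0.prodMap h.u1 x, by
    rw [LinearMap.mem_ker, h.diff_comm, LinearMap.mem_ker.mp x.2, map_zero]⟩
  map_zero' := by ext <;> simp
  map_add' x y := by ext <;> simp

lemma BC.mapH0_coe (h : BC φ D D') (x : D.H0) : (h.mapH0 x : D'.M0 × D'.M1) =
    (h.u0 x.1.1, h.u1 x.1.2) := rfl

lemma BC.isBC_mapH0 (h : BC φ D D') (hH : Subsingleton D.H1) : IsBC φ.toRingHom h.mapH0 := by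
  have hs : Function.Surjective D.diff :=
    LinearMap.range_eq_top.mp (Submodule.Quotient.subsingleton_iff.mp hH)
  exact (h.isBC_u0.prod h.isBC_u1).ker h.isBC_u01 D'.diff h.diff_comm hs (fun _ ↦ rfl)

lemma BC.subsingleton_H1 (h : BC φ D D') (hH : Subsingleton D.H1) : Subsingleton D'.H1 := by
  have h1 := h.isBC_mapH1.span
  have h2 : Set.range h.mapH1 = {0} := by
    ext x
    constructor
    · rintro ⟨y, rfl⟩
      rw [Subsingleton.elim y 0, map_zero]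
      rfl
    · rintro rfl
      exact ⟨0, map_zero _⟩
  rw [h2, Submodule.span_zero_singleton] at h1
  exact (Submodule.subsingleton_iff B').mp (subsingleton_of_bot_eq_top h1)

end BC

end LB

end Fermat.Agent.S25
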