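import Mathlib
import Fermat.Agent.S25.AlgBCLB

/-!
# The locus where `H¹ = 0` is open; ranks under base change
-/

set_option autoImplicit false

universe u

open scoped TensorProduct Polynomial

noncomputable section

namespace Fermat.Agent.S25

section support

variable {A B M N : Type u} [CommRing A] [CommRing B]
  [AddCommGroup M] [AddCommGroup N] [Module A M] [Module B N]
  {φ : A →+* B} {g : M →+ N}

/-- The base change of a finite module along `φ` vanishes iff `Spec φ` avoids the support. -/
theorem IsBC.subsingleton_iff_notMem_support (h : IsBC φ g) [Module.Finite A M] :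
    Subsingleton N ↔ ∀ q : PrimeSpectrum B, PrimeSpectrum.comap φ q ∉ Module.support A M := by
  constructor
  · intro hN q hq
    rw [Module.mem_support_iff_nontrivial_residueField_tensorProduct] at hq
    set p := PrimeSpectrum.comap φ q with hp
    let κp := p.asIdeal.ResidueField
    let κq := q.asIdeal.ResidueField
    let θ : κp →+* κq := Ideal.ResidueField.map p.asIdeal q.asIdeal φ rfl
    obtain ⟨x, hx⟩ := exists_ne (0 : κp ⊗[A] M)
    obtain ⟨l, hl⟩ : ∃ l : κp ⊗[A] M →ₗ[κp] κp, l ≠ 0 := by
      by_contra hcon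
      push Not at hcon
      apply hx
      exact (Module.forall_dual_apply_eq_zero_iff κp x).mp (fun f ↦ by rw [hcon f]; rfl)
    let _ : Module B κq := Algebra.toModule
    have hb : ∀ (a : A), θ (algebraMap A κp a) = algebraMap B κq (φ a) :=
      fun a ↦ Ideal.ResidueField.map_algebraMap _ _ _ _ _
    let k : M →+ κq := (θ.toAddMonoidHom.comp l.toAddMonoidHom).comp
      (TensorProduct.mk A κp M 1).toAddMonoidHom
    have hk : ∀ (a : A) (m : M), k (a • m) = φ a • k m := by
      intro a m
      show θ (l (1 ⊗ₜ (a • m))) = φ a • θ (l (1 ⊗ₜ m))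
      have : (1 : κp) ⊗ₜ[A] (a • m) = algebraMap A κp a • ((1 : κp) ⊗ₜ[A] m) := by
        rw [TensorProduct.tmul_smul, algebraMap_smul]
      rw [this, map_smul, smul_eq_mul, map_mul, hb, Algebra.smul_def]
    have h0 : ∀ m, k m = 0 := by
      intro m
      rw [← h.lift_apply k hk m, Subsingleton.elim (g m) 0, map_zero]
    apply hl
    refine TensorProduct.AlgebraTensorModule.ext fun c m ↦ ?_
    have h1 : c ⊗ₜ[A] m = c • ((1 : κp) ⊗ₜ[A] m) := by
      rw [TensorProduct.smul_tmul', smul_eq_mul, mul_one]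
    have h2 : l ((1 : κp) ⊗ₜ[A] m) = 0 := θ.injective (by
      rw [map_zero]; exact h0 m)
    rw [h1, map_smul, h2]
    simp
  · intro hq
    have h1 : (Module.annihilator A M).map φ = ⊤ := by
      by_contra hne
      obtain ⟨P, hP, hle⟩ := Ideal.exists_le_maximal _ hne
      refine hq ⟨P, hP.isPrime⟩ ?_
      rw [Module.support_eq_zeroLocus, PrimeSpectrum.mem_zeroLocus]
      intro a ha
      exact hle (Ideal.mem_map_of_mem _ ha)
    have h2 : (Module.annihilator A M).map φ ≤ Module.annihilator B N := by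
      rw [Ideal.map_le_iff_le_comap]
      intro a ha
      rw [Ideal.mem_comap, Module.mem_annihilator]
      intro n
      induction n using h.induction with
      | hg m => rw [← h.smul, Module.mem_annihilator.mp ha, map_zero]
      | h0 => simp
      | hadd x y hx hy => rw [smul_add, hx, hy, add_zero]
      | hsmul b x hx => rw [smul_comm, hx, smul_zero]
    rw [h1] at h2
    refine ⟨fun x y ↦ ?_⟩
    have h3 : ∀ n : N, n = 0 := fun n ↦ by
      have := Module.mem_annihilator.mp (h2 (Submodule.mem_top : (1 : B) ∈ (⊤ : Ideal B))) n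
      rwa [one_smul] at this
    rw [h3 x, h3 y]

end support

namespace LB

variable {k : Type u} [Field k] {𝒞 : TwoChart k} {B : Type u} [CommRing B] [Algebra k B]
  (D : LB 𝒞 B)

/-- the locus in `Spec B` where `H¹` vanishes -/
def locus : TopologicalSpace.Opens (PrimeSpectrum B) :=
  ⟨(Module.support B D.H1)ᶜ, (Module.isClosed_support).isOpen_compl⟩

theorem subsingleton_H1_iff_range {D : LB 𝒞 B} {B' : Type u} [CommRing B'] [Algebra k B']
    {φ : B →ₐ[k] B'} {D' : LB 𝒞 B'} (h : BC φ D D') :
    Subsingleton D'.H1 ↔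
      Set.range (PrimeSpectrum.comap φ.toRingHom) ⊆ (D.locus : Set (PrimeSpectrum B)) := by
  rw [h.isBC_mapH1.subsingleton_iff_notMem_support]
  constructor
  · rintro hq _ ⟨q, rfl⟩
    exact hq q
  · intro hq q
    exact hq ⟨q, rfl⟩

theorem mem_locus_iff {D : LB 𝒞 B} {K : Type u} [Field K] [Algebra k K]
    {φ : B →ₐ[k] K} {D' : LB 𝒞 K} (h : BC φ D D') :
    PrimeSpectrum.comap φ.toRingHom ⊥ ∈ D.locus ↔ Subsingleton D'.H1 := by
  rw [subsingleton_H1_iff_range h]
  constructor
  · rintro hq _ ⟨q, rfl⟩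
    rwa [Subsingleton.elim q ⊥]
  · intro hq
    exact hq ⟨⊥, rfl⟩

theorem exists_open_H1 : ∃ W : TopologicalSpace.Opens (PrimeSpectrum B),
    ∀ (B' : Type u) [CommRing B'] [Algebra k B'] (φ : B →ₐ[k] B') (D' : LB 𝒞 B')
      (_ : BC φ D D'), Subsingleton D'.H1 ↔
        Set.range (PrimeSpectrum.comap φ.toRingHom) ⊆ (W : Set (PrimeSpectrum B)) :=
  ⟨D.locus, fun _ _ _ _ _ h ↦ subsingleton_H1_iff_range h⟩

end LB

end Fermat.Agent.S25
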