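import Mathlib
import Fermat.Agent.S25.Dual
import Fermat.Agent.S25.AlgCoh

/-!
# S25 / ALG2: homomorphisms of line bundles; sections of the dual
-/

set_option autoImplicit false

universe u

open scoped TensorProduct

noncomputable section

namespace Fermat.Agent.S25

namespace LB

variable {k : Type u} [Field k] {𝒞 : TwoChart k} {B : Type u} [CommRing B] [Algebra k B]

/-- Homomorphisms of line bundles. -/
@[ext]
structure Hom (D D' : LB 𝒞 B) where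
  l0 : D.M0 →ₗ[𝒞.R0 B] D'.M0
  l1 : D.M1 →ₗ[𝒞.R1 B] D'.M1
  l01 : D.M01 →ₗ[𝒞.R01 B] D'.M01
  h0 : ∀ x, D'.r0 (l0 x) = l01 (D.r0 x)
  h1 : ∀ x, D'.r1 (l1 x) = l01 (D.r1 x)

namespace Hom

variable {D D' D'' : LB 𝒞 B}

@[simps]
def id (D : LB 𝒞 B) : Hom D D where
  l0 := .id
  l1 := .id
  l01 := .id
  h0 _ := rfl
  h1 _ := rfl

@[simps]
def comp (f' : Hom D' D'') (f : Hom D D') : Hom D D'' where
  l0 := f'.l0.comp f.l0
  l1 := f'.l1.comp f.l1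
  l01 := f'.l01.comp f.l01
  h0 x := by simp [f'.h0, f.h0]
  h1 x := by simp [f'.h1, f.h1]

@[simps]
def ofIso (e : Iso D D') : Hom D D' where
  l0 := e.e0
  l1 := e.e1
  l01 := e.e01
  h0 := e.h0
  h1 := e.h1

/-- a homomorphism which is bijective on the two charts is an isomorphism -/
@[simps]
def toIso (f : Hom D D') (hf0 : Function.Bijective f.l0) (hf1 : Function.Bijective f.l1)
    (hf01 : Function.Bijective f.l01) : Iso D D' where
  e0 := LinearEquiv.ofBijective f.l0 hf0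
  e1 := LinearEquiv.ofBijective f.l1 hf1
  e01 := LinearEquiv.ofBijective f.l01 hf01
  h0 := f.h0
  h1 := f.h1

lemma l01_ext {f f' : Hom D D'} (h : f.l0 = f'.l0) : f.l01 = f'.l01 :=
  D.bc0.hom_ext (fun x ↦ by rw [← f.h0, ← f'.h0, h])

lemma l01_ext' {f f' : Hom D D'} (h : f.l1 = f'.l1) : f.l01 = f'.l01 :=
  D.bc1.hom_ext (fun x ↦ by rw [← f.h1, ← f'.h1, h])

/-- if `l0` is bijective then so is `l01` -/
lemma bijective_l01 (f : Hom D D') (hf0 : Function.Bijective f.l0) :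
    Function.Bijective f.l01 := by
  let e := LinearEquiv.ofBijective f.l0 hf0
  let g : D'.M01 →ₗ[𝒞.R01 B] D.M01 := D'.bc0.lift (D.r0.comp e.symm.toLinearMap.toAddMonoidHom)
    (fun a m ↦ by
      show D.r0 (e.symm (a • m)) = _ • D.r0 (e.symm m)
      rw [map_smul]; exact D.bc0.smul _ _)
  have hg : ∀ x, g (D'.r0 x) = D.r0 (e.symm x) := fun x ↦ D'.bc0.lift_apply _ _ _
  have h1 : g.comp f.l01 = .id := D.bc0.hom_ext (fun x ↦ by
    show g (f.l01 (D.r0 x)) = D.r0 x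
    rw [← f.h0, hg]
    congr 1
    exact e.symm_apply_apply x)
  have h2 : f.l01.comp g = .id := D'.bc0.hom_ext (fun x ↦ by
    show f.l01 (g (D'.r0 x)) = D'.r0 x
    rw [hg, ← f.h0]
    congr 1
    exact e.apply_symm_apply x)
  exact Function.bijective_iff_has_inverse.2 ⟨g, fun x ↦ congr($h1 x), fun x ↦ congr($h2 x)⟩

/-- the transposed homomorphism -/
def transpose (f : Hom D D') : Hom D'.dual D.dual where
  l0 := f.l0.dualMap
  l1 := f.l1.dualMap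
  l01 := f.l01.dualMap
  h0 F := by
    symm
    refine D.eq_dual_r0 _ _ (fun x ↦ ?_)
    show D'.pair01 (D'.dual.r0 F) (f.l01 (D.r0 x)) = 𝒞.ρ0B B (D'.pair0 F (f.l0 x))
    rw [← f.h0, pair01_r0]
  h1 F := by
    symm
    refine D.eq_dual_r1 _ _ (fun x ↦ ?_)
    show D'.pair01 (D'.dual.r1 F) (f.l01 (D.r1 x)) = 𝒞.ρ1B B (D'.pair1 F (f.l1 x))
    rw [← f.h1, pair01_r1]

@[simp]
lemma transpose_pair0 (f : Hom D D') (F : D'.dual.M0) (x : D.M0) :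
    D.pair0 (f.transpose.l0 F) x = D'.pair0 F (f.l0 x) := rfl

@[simp]
lemma transpose_pair1 (f : Hom D D') (F : D'.dual.M1) (x : D.M1) :
    D.pair1 (f.transpose.l1 F) x = D'.pair1 F (f.l1 x) := rfl

@[simp]
lemma transpose_pair01 (f : Hom D D') (F : D'.dual.M01) (x : D.M01) :
    D.pair01 (f.transpose.l01 F) x = D'.pair01 F (f.l01 x) := rfl

/-- twisting a homomorphism -/
@[simps]
def tw (f : Hom D D') (m : ℕ) : Hom (D.tw m) (D'.tw m) where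
  l0 := f.l0
  l1 := f.l1
  l01 := f.l01
  h0 x := f.h0 x
  h1 x := by
    show (𝒞.ρ0B B (𝒞.f0B B)) ^ m • D'.r1 (f.l1 x) = f.l01 ((𝒞.ρ0B B (𝒞.f0B B)) ^ m • D.r1 x)
    rw [f.h1, map_smul]

/-- induced map on `H⁰` -/
def mapH0 (f : Hom D D') : D.H0 →ₗ[B] D'.H0 :=
  ((f.l0.restrictScalars B).prodMap (f.l1.restrictScalars B)).restrict (fun x hx ↦ by
    rw [LinearMap.mem_ker] at hx ⊢
    have h : D.r0 x.1 + -D.r1 x.2 = 0 := hx
    show D'.r0 (f.l0 x.1) + -D'.r1 (f.l1 x.2) = 0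
    rw [f.h0, f.h1, ← map_neg, ← map_add, h, map_zero])

@[simp]
lemma mapH0_apply_fst (f : Hom D D') (s : D.H0) : (f.mapH0 s : D'.M0 × D'.M1).1 = f.l0 s.1.1 := rfl

@[simp]
lemma mapH0_apply_snd (f : Hom D D') (s : D.H0) : (f.mapH0 s : D'.M0 × D'.M1).2 = f.l1 s.1.2 := rfl

end Hom

lemma H0_eq {D : LB 𝒞 B} (s : D.H0) : D.r0 s.1.1 = D.r1 s.1.2 := D.mem_H0_iff.1 s.2

/-- a section of `D^∨(m)` gives a homomorphism `D → O(m)` -/
def homOfSection (D : LB 𝒞 B) (m : ℕ) (s : (D.dual.tw m).H0) : Hom D ((triv 𝒞 B).tw m) where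
  l0 := D.pair0 s.1.1
  l1 := D.pair1 s.1.2
  l01 := D.pair01 (D.dual.r0 s.1.1)
  h0 x := (pair01_r0 D _ _).symm
  h1 x := by
    have h : D.dual.r0 s.1.1 = (𝒞.ρ0B B (𝒞.f0B B)) ^ m • D.dual.r1 s.1.2 := H0_eq s
    have h2 : D.pair01 (D.dual.r0 s.1.1) (D.r1 x) =
        (𝒞.ρ0B B (𝒞.f0B B)) ^ m * 𝒞.ρ1B B (D.pair1 s.1.2 x) := by
      rw [h]
      exact (LinearMap.congr_fun (map_smul D.pair01 _ _) _).trans
        (congrArg _ (pair01_r1 D _ x))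
    exact h2.symm

/-- a homomorphism `D → O(m)` gives a section of `D^∨(m)` -/
def sectionOfHom (D : LB 𝒞 B) (m : ℕ) (f : Hom D ((triv 𝒞 B).tw m)) : (D.dual.tw m).H0 :=
  ⟨((f.l0 : Module.Dual (𝒞.R0 B) D.M0), (f.l1 : Module.Dual (𝒞.R1 B) D.M1)), by
    rw [LB.mem_H0_iff]
    have h0 : (f.l01 : Module.Dual (𝒞.R01 B) D.M01) = D.dual.r0 f.l0 :=
      D.eq_dual_r0 _ _ (fun x ↦ (f.h0 x).symm)
    show D.dual.r0 f.l0 = (𝒞.ρ0B B (𝒞.f0B B)) ^ m • D.dual.r1 f.l1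
    rw [← h0]
    refine D.bc1.hom_ext (k₁ := (f.l01 : Module.Dual (𝒞.R01 B) D.M01)) (fun x ↦ ?_)
    have h2 := f.h1 x
    have h3 : (𝒞.ρ0B B (𝒞.f0B B)) ^ m * 𝒞.ρ1B B (f.l1 x) = f.l01 (D.r1 x) := h2
    refine h3.symm.trans ?_
    show _ = (𝒞.ρ0B B (𝒞.f0B B)) ^ m • D.pair01 (D.dual.r1 f.l1) (D.r1 x)
    rw [pair01_r1]
    rfl⟩

/-- sections of `D^∨(m)` = homomorphisms `D → O(m)` -/
def sectionEquiv (D : LB 𝒞 B) (m : ℕ) : (D.dual.tw m).H0 ≃ Hom D ((triv 𝒞 B).tw m) where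
  toFun := D.homOfSection m
  invFun := D.sectionOfHom m
  left_inv _ := rfl
  right_inv f := by
    refine Hom.ext rfl rfl ?_
    exact Hom.l01_ext rfl

end LB

end Fermat.Agent.S25
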