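import Mathlib
import Fermat.Agent.S25.AlgOpen
import Fermat.Agent.S25.LBHom

/-!
# Euler characteristics of line bundles over fields
-/

set_option autoImplicit false

universe u

open scoped TensorProduct Polynomial

noncomputable section

namespace Fermat.Agent.S25

section linalg

variable {K V E : Type*} [Field K] [AddCommGroup V] [Module K V] [AddCommGroup E] [Module K E]

/-- Change of the Euler characteristic of a pair of subspaces `(P, Q)` when `P` grows. -/
theorem chi_pair {P P' Q : Submodule K V} (hP : P ≤ P') (π : P' →ₗ[K] E)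
    (hπ : Function.Surjective π) (hker : ∀ x, π x = 0 ↔ (x : V) ∈ P)
    [Module.Finite K E] [Module.Finite K (V ⧸ (P ⊔ Q))]
    [Module.Finite K (P' ⊓ Q : Submodule K V)] :
    (Module.finrank K (P' ⊓ Q : Submodule K V) : ℤ) - Module.finrank K (V ⧸ (P' ⊔ Q)) =
      (Module.finrank K (P ⊓ Q : Submodule K V) : ℤ) - Module.finrank K (V ⧸ (P ⊔ Q)) +
        Module.finrank K E := by
  obtain ⟨s, hs⟩ := π.exists_rightInverse_of_surjective (LinearMap.range_eq_top.mpr hπ)
  have hs' : ∀ x, π (s x) = x := fun x ↦ congr($hs x)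
  let δ : P' →ₗ[K] V ⧸ (P ⊔ Q) := (P ⊔ Q).mkQ ∘ₗ P'.subtype
  let δ' : E →ₗ[K] V ⧸ (P ⊔ Q) := δ ∘ₗ s
  have hδ : ∀ x, δ' (π x) = δ x := by
    intro x
    have h1 : ((s (π x) - x : P') : V) ∈ P := (hker _).mp (by rw [map_sub, hs', sub_self])
    have h2 : δ (s (π x) - x) = 0 :=
      (Submodule.Quotient.mk_eq_zero _).mpr (Submodule.mem_sup_left h1)
    rw [map_sub, sub_eq_zero] at h2
    exact h2
  let a : (P' ⊓ Q : Submodule K V) →ₗ[K] E := π ∘ₗ Submodule.inclusion inf_le_left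
  let b : (V ⧸ (P ⊔ Q)) →ₗ[K] (V ⧸ (P' ⊔ Q)) := Submodule.factor (sup_le_sup_right hP Q)
  have hb : Function.Surjective b := Submodule.factor_surjective _
  have ha : LinearMap.range a = LinearMap.ker δ' := by
    ext y
    constructor
    · rintro ⟨x, rfl⟩
      rw [LinearMap.mem_ker]
      show δ' (π _) = 0
      rw [hδ]
      exact (Submodule.Quotient.mk_eq_zero _).mpr (Submodule.mem_sup_right x.2.2)
    · intro hy
      obtain ⟨x, rfl⟩ := hπ y
      rw [LinearMap.mem_ker, hδ] at hy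
      have h1 : (x : V) ∈ P ⊔ Q := (Submodule.Quotient.mk_eq_zero _).mp hy
      obtain ⟨p, hp, q, hq, hpq⟩ := Submodule.mem_sup.mp h1
      have hq' : q ∈ P' := by
        have : q = x - p := by rw [← hpq]; abel
        rw [this]
        exact P'.sub_mem x.2 (hP hp)
      refine ⟨⟨q, hq', hq⟩, ?_⟩
      show π ⟨q, hq'⟩ = π x
      rw [← sub_eq_zero, ← map_sub, hker]
      show q - x ∈ P
      rw [← hpq]
      simpa using hp
  have hkb : LinearMap.ker b = LinearMap.range δ' := by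
    ext y
    constructor
    · intro hy
      obtain ⟨v, rfl⟩ := Submodule.Quotient.mk_surjective _ y
      rw [LinearMap.mem_ker] at hy
      have h1 : v ∈ P' ⊔ Q := (Submodule.Quotient.mk_eq_zero _).mp hy
      obtain ⟨p, hp, q, hq, rfl⟩ := Submodule.mem_sup.mp h1
      refine ⟨π ⟨p, hp⟩, ?_⟩
      rw [hδ]
      refine (Submodule.Quotient.eq _).mpr ?_
      have : p - (p + q) = -q := by abel
      rw [P'.subtype_apply, this]
      exact Submodule.mem_sup_right (Q.neg_mem hq)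
    · rintro ⟨x, rfl⟩
      obtain ⟨x, rfl⟩ := hπ x
      rw [hδ, LinearMap.mem_ker]
      exact (Submodule.Quotient.mk_eq_zero _).mpr (Submodule.mem_sup_left x.2)
  have hka : Module.finrank K (LinearMap.ker a) = Module.finrank K (P ⊓ Q : Submodule K V) := by
    have h1 : LinearMap.ker a = (P ⊓ Q).submoduleOf (P' ⊓ Q) := by
      ext x
      rw [LinearMap.mem_ker]
      show π _ = 0 ↔ (x : V) ∈ P ⊓ Q
      rw [hker]
      exact ⟨fun h ↦ ⟨h, x.2.2⟩, fun h ↦ h.1⟩
    rw [h1]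
    exact (Submodule.submoduleOfEquivOfLe (inf_le_inf_right Q hP)).finrank_eq
  have e1 := a.finrank_range_add_finrank_ker
  have e2 := b.finrank_range_add_finrank_ker
  have e3 := δ'.finrank_range_add_finrank_ker
  rw [LinearMap.range_eq_top.mpr hb, finrank_top] at e2
  rw [hka, ha] at e1
  rw [hkb] at e2
  omega

end linalg

section semilocal

variable {K R M : Type u} [Field K] [CommRing R] [Algebra K R] [AddCommGroup M] [Module R M]

/-- An invertible module is trivial modulo an ideal of finite colength. -/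
theorem exists_quotient_equiv (I : Ideal R) [Module.Finite K (R ⧸ I)] [Module.Invertible R M] :
    Nonempty ((M ⧸ (I • ⊤ : Submodule R M)) ≃ₗ[R] (R ⧸ I)) := by
  have : IsArtinianRing (R ⧸ I) := IsArtinianRing.of_finite K (R ⧸ I)
  have : Module.Invertible (R ⧸ I) ((R ⧸ I) ⊗[R] M) := inferInstance
  have hfree : Module.Free (R ⧸ I) ((R ⧸ I) ⊗[R] M) := inferInstance
  obtain ⟨e⟩ := Module.Invertible.free_iff_linearEquiv.mp hfree
  exact ⟨(TensorProduct.quotTensorEquivQuotSMul M I).symm ≪≫ₗ e.restrictScalars R⟩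

end semilocal


section field

variable {K L M N : Type u} [Field K] [Field L] [AddCommGroup M] [AddCommGroup N] [Module K M]
  [Module L N] {φ : K →+* L} {g : M →+ N}

/-- dimension is invariant under field extensions -/
theorem IsBC.finrank_eq (h : IsBC φ g) : Module.finrank L N = Module.finrank K M := by
  let _ := φ.toAlgebra
  let _ := Module.compHom N φ
  let _ : IsScalarTower K L N := .of_algebraMap_smul fun _ _ ↦ rfl
  rw [← h.isBaseChange'.equiv.finrank_eq, Module.finrank_baseChange]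

end field

namespace TwoChart

variable {k : Type u} [Field k] (𝒞 : TwoChart k)

/-- the degree of the polar divisor of `f0` -/
def degf : ℕ := Module.finrank k (𝒞.A1 ⧸ Ideal.span {𝒞.f1})

/-- `A1/f1` is finite over `k` -/
instance finite_quot_f1 : Module.Finite k (𝒞.A1 ⧸ Ideal.span {𝒞.f1}) := by
  classical
  let _ : Algebra k[X] 𝒞.A1 := (Polynomial.aeval 𝒞.f1 : k[X] →ₐ[k] 𝒞.A1).toRingHom.toAlgebra
  have hmap : ∀ p : k[X], algebraMap k[X] 𝒞.A1 p = Polynomial.aeval 𝒞.f1 p := fun p => rfl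
  have : Module.Finite k[X] 𝒞.A1 := 𝒞.fin1
  obtain ⟨s, hs⟩ := this.fg_top
  refine ⟨⟨s.image (Ideal.Quotient.mk (Ideal.span {𝒞.f1})), ?_⟩⟩
  rw [eq_top_iff]
  rintro x -
  obtain ⟨x, rfl⟩ := Ideal.Quotient.mk_surjective x
  have hx : x ∈ Submodule.span k[X] (s : Set 𝒞.A1) := by rw [hs]; trivial
  induction hx using Submodule.span_induction with
  | mem y hy => exact Submodule.subset_span (by simpa using ⟨y, hy, rfl⟩)
  | zero => simp
  | add y z _ _ hy hz => rw [map_add]; exact add_mem hy hz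
  | smul p y _ hy =>
    have h1 : p • y = (p.eval 0) • y + 𝒞.f1 * (Polynomial.aeval 𝒞.f1 p.divX * y) := by
      conv_lhs => rw [← p.divX_mul_X_add]
      rw [Algebra.smul_def, hmap]
      simp only [map_add, map_mul, Polynomial.aeval_X, Polynomial.aeval_C, Algebra.smul_def,
        Polynomial.coeff_zero_eq_eval_zero]
      ring
    rw [h1, map_add]
    have h2 : Ideal.Quotient.mk (Ideal.span {𝒞.f1}) (𝒞.f1 * (Polynomial.aeval 𝒞.f1 p.divX * y)) =
        0 := Ideal.Quotient.eq_zero_iff_mem.mpr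
          (Ideal.mul_mem_right _ _ (Ideal.mem_span_singleton_self _))
    rw [h2, add_zero]
    exact Submodule.smul_mem _ _ hy

end TwoChart

section quotSpan

variable {k : Type u} [Field k] {A K : Type u} [CommRing A] [Algebra k A] [Field K] [Algebra k K]

/-- `A/(a)` as the cokernel of multiplication by `a` -/
def quotSpanEquiv (k : Type u) [Field k] {A : Type u} [CommRing A] [Algebra k A] (a : A) :
    (A ⧸ LinearMap.range (LinearMap.mulLeft k a)) ≃ₗ[k] (A ⧸ Ideal.span {a}) :=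
  Submodule.quotEquivOfEq _ ((Ideal.span {a}).restrictScalars k) (by
    ext x
    rw [LinearMap.mem_range, Submodule.restrictScalars_mem, Ideal.mem_span_singleton]
    constructor
    · rintro ⟨y, rfl⟩; exact ⟨y, rfl⟩
    · rintro ⟨y, rfl⟩; exact ⟨y, rfl⟩) ≪≫ₗ
  Submodule.Quotient.restrictScalarsEquiv k (Ideal.span {a})

/-- the cokernel of `a` after base change -/
lemma isBC_quotSpan (a : A) : ∃ g : (A ⧸ LinearMap.range (LinearMap.mulLeft k a)) →+
    ((K ⊗[k] A) ⧸ LinearMap.range (LinearMap.mulLeft K ((1 : K) ⊗ₜ[k] a))),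
    IsBC (algebraMap k K) g := by
  have h : IsBC (algebraMap k K) (TensorProduct.mk k K A 1).toAddMonoidHom :=
    IsBaseChange.isBC _ (TensorProduct.isBaseChange k A K)
  let g₀ : A →ₗ[k] ((K ⊗[k] A) ⧸ LinearMap.range (LinearMap.mulLeft K ((1 : K) ⊗ₜ[k] a))) :=
    ((LinearMap.range (LinearMap.mulLeft K ((1 : K) ⊗ₜ[k] a))).mkQ.restrictScalars k) ∘ₗ
      TensorProduct.mk k K A 1
  refine ⟨((LinearMap.range (LinearMap.mulLeft k a)).liftQ g₀ ?_).toAddMonoidHom,
    h.coker h (LinearMap.mulLeft K ((1 : K) ⊗ₜ[k] a)) (f := LinearMap.mulLeft k a) ?_ ?_⟩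
  · rintro _ ⟨x, rfl⟩
    rw [LinearMap.mem_ker]
    refine (Submodule.Quotient.mk_eq_zero _).mpr ⟨1 ⊗ₜ x, ?_⟩
    simp
  · intro m
    simp
  · intro m
    rfl

lemma finrank_quotSpan (a : A) :
    Module.finrank K ((K ⊗[k] A) ⧸ Ideal.span {(1 : K) ⊗ₜ[k] a}) =
      Module.finrank k (A ⧸ Ideal.span {a}) := by
  obtain ⟨g, hg⟩ := isBC_quotSpan (k := k) (K := K) a
  rw [← (quotSpanEquiv k a).finrank_eq, ← (quotSpanEquiv K ((1 : K) ⊗ₜ[k] a)).finrank_eq,
    hg.finrank_eq]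

lemma finite_quotSpan (a : A) [Module.Finite k (A ⧸ Ideal.span {a})] :
    Module.Finite K ((K ⊗[k] A) ⧸ Ideal.span {(1 : K) ⊗ₜ[k] a}) := by
  obtain ⟨g, hg⟩ := isBC_quotSpan (k := k) (K := K) a
  have := Module.Finite.equiv (quotSpanEquiv k a).symm
  have := hg.finite
  exact Module.Finite.equiv (quotSpanEquiv K ((1 : K) ⊗ₜ[k] a))

end quotSpan

namespace LB

variable {k : Type u} [Field k] {𝒞 : TwoChart k}

section

variable {B : Type u} [CommRing B] [Algebra k B] (D : LB 𝒞 B)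

/-- the inclusion `D → D(m)` -/
@[simps] def toTw (m : ℕ) : Hom D (D.tw m) where
  l0 := .id
  l1 := LinearMap.lsmul (𝒞.R1 B) D.M1 (𝒞.f1B B ^ m)
  l01 := .id
  h0 _ := rfl
  h1 x := by
    show (𝒞.ρ0B B (𝒞.f0B B)) ^ m • D.r1 (𝒞.f1B B ^ m • x) = D.r1 x
    rw [D.bc1.smul, smul_smul]
    have : (𝒞.ρ0B B (𝒞.f0B B)) ^ m * (𝒞.ρ1B B).toRingHom (𝒞.f1B B ^ m) = 1 := by
      rw [map_pow, ← mul_pow]
      show (𝒞.ρ0B B (𝒞.f0B B) * 𝒞.ρ1B B (𝒞.f1B B)) ^ m = 1
      simp [TwoChart.ρ0B, TwoChart.ρ1B, TwoChart.f0B, TwoChart.f1B, 𝒞.mul_eq_one,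
        ← Algebra.TensorProduct.one_def]
    rw [this, one_smul]

lemma Hom.mapH0_injective {D D' : LB 𝒞 B} (f : Hom D D') (h : Function.Injective f.l0) :
    Function.Injective f.mapH0 := by
  rw [injective_iff_map_eq_zero]
  rintro ⟨⟨x0, x1⟩, hx⟩ h0
  have h1 : f.l0 x0 = 0 := congrArg (fun z : D'.H0 ↦ (z : D'.M0 × D'.M1).1) h0
  have h2 : x0 = 0 := h (by rw [h1, map_zero])
  have h3 : x1 = 0 := by
    apply D.r1_injective
    rw [← D.mem_H0_iff.mp hx, h2, map_zero, map_zero]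
  subst h2; subst h3; rfl

end

variable {K : Type u} [Field K] [Algebra k K]

instance finite_H0_field (D : LB 𝒞 K) : Module.Finite K D.H0 := by
  obtain ⟨m, hm⟩ := D.exists_tw_H1
  have := (D.tw m).finite_H0 (hm m le_rfl)
  exact Module.Finite.of_injective (D.toTw m).mapH0
    ((D.toTw m).mapH0_injective (fun _ _ h ↦ h))

lemma chi_eq (D : LB 𝒞 K) : D.chi =
    (Module.finrank K (LinearMap.range D.r0B ⊓ LinearMap.range D.r1B : Submodule K D.M01) : ℤ) -
      Module.finrank K (D.M01 ⧸ (LinearMap.range D.r0B ⊔ LinearMap.range D.r1B)) := by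
  rw [chi, D.H0equiv.finrank_eq,
    (Submodule.quotEquivOfEq _ _ D.range_diff).finrank_eq]

lemma chi_swap (D : LB 𝒞 K) : D.swap.chi = D.chi := by
  have h0 : D.swap.r0B = D.r1B := rfl
  have h1 : D.swap.r1B = D.r0B := rfl
  rw [chi_eq, chi_eq, h0, h1, inf_comm, sup_comm]
  rfl

/-- Change of the Euler characteristic under a modification `D → D'` whose cokernel is
"concentrated on chart 0". -/
theorem chi_add {D D' : LB 𝒞 K} (l0 : D.M0 →ₗ[K] D'.M0) (l1 : D.M1 →ₗ[K] D'.M1)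
    (l01 : D.M01 →ₗ[K] D'.M01) (h0 : ∀ x, D'.r0 (l0 x) = l01 (D.r0 x))
    (h1 : ∀ x, D'.r1 (l1 x) = l01 (D.r1 x)) (hinj : Function.Injective l01)
    (ha : ∀ v' : D'.M01, ∃ x v, v' = D'.r1 x + l01 v)
    (hb : ∀ x v, D'.r1 x = l01 v → ∃ y, x = l1 y)
    {E : Type*} [AddCommGroup E] [Module K E] (π : D'.M0 →ₗ[K] E) (hπ : Function.Surjective π)
    (hker : ∀ x, π x = 0 ↔ x ∈ LinearMap.range l0) [Module.Finite K E] :
    D'.chi = D.chi + Module.finrank K E := by
  set Q := LinearMap.range D'.r1B with hQ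
  set P := (LinearMap.range D.r0B).map l01 with hP
  have hPP : P ≤ LinearMap.range D'.r0B := by
    rintro _ ⟨_, ⟨x, rfl⟩, rfl⟩
    exact ⟨l0 x, h0 x⟩
  let e : D'.M0 ≃ₗ[K] LinearMap.range D'.r0B := LinearEquiv.ofInjective _ D'.r0_injective
  have he : ∀ x, ((e x : LinearMap.range D'.r0B) : D'.M01) = D'.r0 x := fun x ↦ rfl
  -- identification of the cohomology of `D`
  have hinf : P ⊓ Q = (LinearMap.range D.r0B ⊓ LinearMap.range D.r1B).map l01 := by
    ext v
    constructor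
    · rintro ⟨⟨_, ⟨x, rfl⟩, rfl⟩, ⟨y, hy⟩⟩
      obtain ⟨z, rfl⟩ := hb y _ hy
      refine ⟨D.r0B x, ⟨⟨x, rfl⟩, ⟨z, ?_⟩⟩, rfl⟩
      apply hinj
      rw [← hy]
      exact (h1 z).symm
    · rintro ⟨_, ⟨⟨x, rfl⟩, ⟨y, hy⟩⟩, rfl⟩
      refine ⟨⟨_, ⟨x, rfl⟩, rfl⟩, ⟨l1 y, ?_⟩⟩
      rw [← hy]
      exact h1 y
  have hcomap : (P ⊔ Q).comap l01 = LinearMap.range D.r0B ⊔ LinearMap.range D.r1B := by
    apply le_antisymm
    · intro v hv
      obtain ⟨_, ⟨_, ⟨x, rfl⟩, rfl⟩, _, ⟨y, rfl⟩, hxy⟩ := Submodule.mem_sup.mp hv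
      obtain ⟨z, rfl⟩ := hb y (v - D.r0B x) (by rw [map_sub, ← hxy]; simp)
      refine Submodule.mem_sup.mpr ⟨_, ⟨x, rfl⟩, _, ⟨z, rfl⟩, hinj ?_⟩
      rw [← hxy, map_add]
      exact congrArg _ (h1 z).symm
    · refine sup_le ?_ ?_
      · rintro _ ⟨x, rfl⟩
        exact Submodule.mem_sup_left ⟨_, ⟨x, rfl⟩, rfl⟩
      · rintro _ ⟨x, rfl⟩
        exact Submodule.mem_sup_right ⟨l1 x, h1 x⟩
  let q : (D.M01 ⧸ (LinearMap.range D.r0B ⊔ LinearMap.range D.r1B)) →ₗ[K] (D'.M01 ⧸ (P ⊔ Q)) :=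
    Submodule.mapQ _ _ l01 hcomap.ge
  have hq : Function.Bijective q := by
    constructor
    · rw [injective_iff_map_eq_zero]
      intro y hy
      obtain ⟨y, rfl⟩ := Submodule.Quotient.mk_surjective _ y
      refine (Submodule.Quotient.mk_eq_zero _).mpr ?_
      rw [← hcomap, Submodule.mem_comap]
      exact (Submodule.Quotient.mk_eq_zero _).mp hy
    · intro y
      obtain ⟨y, rfl⟩ := Submodule.Quotient.mk_surjective _ y
      obtain ⟨x, v, rfl⟩ := ha y
      refine ⟨Submodule.Quotient.mk v, ?_⟩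
      refine (Submodule.Quotient.eq _).mpr ?_
      have : l01 v - (D'.r1 x + l01 v) = - D'.r1B x := by simp
      rw [this]
      exact Submodule.mem_sup_right (Q.neg_mem ⟨x, rfl⟩)
  let eq := LinearEquiv.ofBijective q hq
  have hfin1 : Module.Finite K (D.M01 ⧸ (LinearMap.range D.r0B ⊔ LinearMap.range D.r1B)) :=
    Module.Finite.equiv (Submodule.quotEquivOfEq _ _ D.range_diff)
  have hfin2 : Module.Finite K (D'.M01 ⧸ (P ⊔ Q)) := Module.Finite.equiv eq
  have hfin3 : Module.Finite K (LinearMap.range D'.r0B ⊓ Q : Submodule K D'.M01) :=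
    Module.Finite.equiv D'.H0equiv
  have key := chi_pair (Q := Q) hPP (π ∘ₗ e.symm.toLinearMap) (hπ.comp e.symm.surjective) (by
    intro x
    obtain ⟨x, rfl⟩ := e.surjective x
    rw [LinearMap.comp_apply, LinearEquiv.coe_coe, e.symm_apply_apply, hker, he]
    constructor
    · rintro ⟨y, rfl⟩
      exact ⟨_, ⟨y, rfl⟩, (h0 y).symm⟩
    · rintro ⟨_, ⟨y, rfl⟩, hy⟩
      refine ⟨y, D'.r0_injective ?_⟩
      rw [← hy]
      exact h0 y)
  rw [chi_eq, chi_eq, key, ← eq.finrank_eq, hinf,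
    (Submodule.equivMapOfInjective l01 hinj _).symm.finrank_eq]

/-- Change of the Euler characteristic under a modification `D → D'` whose cokernel is
"concentrated on chart 1". -/
theorem chi_add' {D D' : LB 𝒞 K} (l0 : D.M0 →ₗ[K] D'.M0) (l1 : D.M1 →ₗ[K] D'.M1)
    (l01 : D.M01 →ₗ[K] D'.M01) (h0 : ∀ x, D'.r0 (l0 x) = l01 (D.r0 x))
    (h1 : ∀ x, D'.r1 (l1 x) = l01 (D.r1 x)) (hinj : Function.Injective l01)
    (ha : ∀ v' : D'.M01, ∃ x v, v' = D'.r0 x + l01 v)
    (hb : ∀ x v, D'.r0 x = l01 v → ∃ y, x = l0 y)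
    {E : Type*} [AddCommGroup E] [Module K E] (π : D'.M1 →ₗ[K] E) (hπ : Function.Surjective π)
    (hker : ∀ x, π x = 0 ↔ x ∈ LinearMap.range l1) [Module.Finite K E] :
    D'.chi = D.chi + Module.finrank K E := by
  rw [← D'.chi_swap, ← D.chi_swap]
  exact chi_add (D := D.swap) (D' := D'.swap) l1 l0 l01 h1 h0 hinj ha hb π hπ hker

theorem chi_tw_aux (D : LB 𝒞 K) (m : ℕ) {E : Type u} [AddCommGroup E] [Module K E]
    (π : D.M1 →ₗ[K] E) (hπ : Function.Surjective π)
    (hker : ∀ x, π x = 0 ↔ ∃ y, x = 𝒞.f1B K ^ m • y) [Module.Finite K E] :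
    (D.tw m).chi = D.chi + Module.finrank K E := by
  have h0 : ∀ x : D.M0, (D.tw m).r0 x = D.r0 x := fun _ ↦ rfl
  have h1 : ∀ x : D.M1, (D.tw m).r1 ((D.toTw m).l1.restrictScalars K x) = D.r1 x :=
    (D.toTw m).h1
  refine chi_add' (D := D) (D' := D.tw m) (E := E) (LinearMap.id : D.M0 →ₗ[K] D.M0)
    ((D.toTw m).l1.restrictScalars K) (LinearMap.id : D.M01 →ₗ[K] D.M01) ?_ ?_ ?_ ?_ ?_ π ?_ ?_
  · exact h0
  · exact h1
  · exact Function.injective_id
  · intro v
    refine ⟨0, v, ?_⟩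
    rw [map_zero, zero_add]
    rfl
  · exact fun x v _ ↦ ⟨x, rfl⟩
  · exact hπ
  · intro x
    refine (hker x).trans ?_
    constructor
    · rintro ⟨y, rfl⟩
      exact ⟨y, rfl⟩
    · rintro ⟨y, rfl⟩
      exact ⟨y, rfl⟩

theorem chi_tw_one (D : LB 𝒞 K) : (D.tw 1).chi = D.chi + 𝒞.degf := by
  have hfin : Module.Finite K (𝒞.R1 K ⧸ Ideal.span {𝒞.f1B K}) := finite_quotSpan 𝒞.f1
  obtain ⟨e⟩ := exists_quotient_equiv (K := K) (R := 𝒞.R1 K) (M := D.M1)
    (Ideal.span {𝒞.f1B K})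
  let π : D.M1 →ₗ[K] 𝒞.R1 K ⧸ Ideal.span {𝒞.f1B K} :=
    (e.toLinearMap ∘ₗ
      (Ideal.span {𝒞.f1B K} • ⊤ : Submodule (𝒞.R1 K) D.M1).mkQ).restrictScalars K
  have hπ : Function.Surjective π := e.surjective.comp (Submodule.mkQ_surjective _)
  have hker : ∀ x, π x = 0 ↔ ∃ y, x = 𝒞.f1B K ^ 1 • y := by
    intro x
    have h1 : π x = 0 ↔ x ∈ (Ideal.span {𝒞.f1B K} • ⊤ : Submodule (𝒞.R1 K) D.M1) :=
      (LinearEquiv.map_eq_zero_iff e).trans (Submodule.Quotient.mk_eq_zero _)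
    rw [h1, Submodule.ideal_span_singleton_smul, Submodule.mem_smul_pointwise_iff_exists]
    constructor
    · rintro ⟨y, -, rfl⟩
      exact ⟨y, by rw [pow_one]⟩
    · rintro ⟨y, rfl⟩
      exact ⟨y, trivial, by rw [pow_one]⟩
  rw [D.chi_tw_aux 1 π hπ hker]
  congr 2
  exact finrank_quotSpan 𝒞.f1

theorem chi_tw (D : LB 𝒞 K) (m : ℕ) : (D.tw m).chi = D.chi + m * 𝒞.degf := by
  induction m with
  | zero => rw [D.twZero.chi]; simp
  | succ m ih => rw [← (D.twTw m 1).chi, chi_tw_one, ih]; push_cast; ring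

theorem chi_tw_eq (D : LB 𝒞 K) (m : ℕ) (h : Subsingleton (D.tw m).H1) :
    D.chi = Module.finrank K (D.tw m).H0 - m * 𝒞.degf := by
  have h1 := D.chi_tw m
  rw [chi, Module.finrank_zero_of_subsingleton (M := (D.tw m).H1)] at h1
  rw [Nat.cast_zero, sub_zero] at h1
  rw [h1]
  ring

end LB

section rank

variable {A K M N : Type u} [CommRing A] [Field K] [AddCommGroup M] [AddCommGroup N]
  [Module A M] [Module K N] {φ : A →+* K} {g : M →+ N}

/-- the dimension of the fibre of a finite projective module is its rank at the point -/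
theorem IsBC.finrank_eq_rankAtStalk (h : IsBC φ g) [Module.Finite A M] [Module.Projective A M] :
    Module.finrank K N = Module.rankAtStalk (R := A) M (PrimeSpectrum.comap φ ⊥) := by
  let _ := φ.toAlgebra
  let _ := Module.compHom N φ
  let _ : IsScalarTower A K N := .of_algebraMap_smul fun _ _ ↦ rfl
  have h1 := Module.rankAtStalk_isBaseChange h.isBaseChange' (⊥ : PrimeSpectrum K)
  have := h.finite
  rw [Module.rankAtStalk_eq_finrank_of_free] at h1
  exact h1

end rank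

namespace LB

variable {k : Type u} [Field k] {𝒞 : TwoChart k} {B : Type u} [CommRing B] [Algebra k B]

/-- The Euler characteristic of the fibres is locally constant. -/
theorem exists_chi_function (D : LB 𝒞 B) : ∃ χ : PrimeSpectrum B → ℤ, IsLocallyConstant χ ∧
    ∀ (K : Type u) [Field K] [Algebra k K] (φ : B →ₐ[k] K) (D' : LB 𝒞 K) (_ : BC φ D D'),
      D'.chi = χ (PrimeSpectrum.comap φ.toRingHom ⊥) := by
  obtain ⟨m, hm⟩ := D.exists_tw_H1
  have hm := hm m le_rfl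
  have hfin := (D.tw m).finite_H0 hm
  have hproj := (D.tw m).projective_H0 hm
  have : Module.FinitePresentation B (D.tw m).H0 :=
    Module.finitePresentation_of_projective B _
  refine ⟨fun p ↦ (Module.rankAtStalk (R := B) (D.tw m).H0 p : ℤ) - m * 𝒞.degf,
    (Module.isLocallyConstant_rankAtStalk (R := B) (M := (D.tw m).H0)).comp
      (fun n : ℕ ↦ (n : ℤ) - m * 𝒞.degf), fun K _ _ φ D' h ↦ ?_⟩
  have h' := (h.tw m).isBC_mapH0 hm
  rw [D'.chi_tw_eq m ((h.tw m).subsingleton_H1 hm), h'.finrank_eq_rankAtStalk]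

/-- Over a connected base, the Euler characteristic of the fibres is constant. -/
theorem chi_eq_of_preconnectedSpace [PreconnectedSpace (PrimeSpectrum B)] {D : LB 𝒞 B}
    {K K' : Type u} [Field K] [Algebra k K] [Field K'] [Algebra k K'] {φ : B →ₐ[k] K}
    {φ' : B →ₐ[k] K'} {D₁ : LB 𝒞 K} {D₂ : LB 𝒞 K'} (h₁ : BC φ D D₁) (h₂ : BC φ' D D₂) :
    D₁.chi = D₂.chi := by
  obtain ⟨χ, hχ, h⟩ := D.exists_chi_function
  rw [h K φ D₁ h₁, h K' φ' D₂ h₂]
  exact hχ.apply_eq_of_preconnectedSpace _ _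

/-- The Euler characteristic is invariant under field extensions. -/
theorem BC.chi_eq {K L : Type u} [Field K] [Algebra k K] [Field L] [Algebra k L] {φ : K →ₐ[k] L}
    {D : LB 𝒞 K} {D' : LB 𝒞 L} (h : BC φ D D') : D'.chi = D.chi :=
  have : PreconnectedSpace (PrimeSpectrum K) := inferInstance
  chi_eq_of_preconnectedSpace h (BC.refl D)

end LB

end Fermat.Agent.S25
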