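import Mathlib
import Fermat.Agent.S25.Dual
import Fermat.Agent.S25.AlgOpen

/-!
# S25 / ALG4: commutative algebra for the chart theorem

* fibrewise injective maps of finite projective modules are split;
* nonzero maps between invertible modules over a domain are injective;
-/

set_option autoImplicit false
set_option linter.style.haveILetI false

universe u

open scoped TensorProduct

noncomputable section

namespace Fermat.Agent.S25

section inv

variable {R M N : Type u} [CommRing R] [AddCommGroup M] [AddCommGroup N] [Module R M] [Module R N]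

/-- rank one property of invertible modules -/
theorem inv_smul_comm [Module.Invertible R M] (F : Module.Dual R M) (x y : M) :
    F x • y = F y • x := by
  let f : M ⊗[R] M →ₗ[R] M := TensorProduct.lift ((LinearMap.lsmul R M).comp F)
  have h := congrArg f (Module.Invertible.tmul_comm (R := R) (M := M) (m₁ := x) (m₂ := y))
  exact h

theorem dual_separating [Module.Projective R M] {x : M} (h : ∀ F : Module.Dual R M, F x = 0) :
    x = 0 := (Module.forall_dual_apply_eq_zero_iff R x).mp h

/-- a nonzero map between invertible modules over a domain is injective -/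
theorem inv_injective_of_ne_zero [IsDomain R] [Module.Invertible R M] [Module.Invertible R N]
    {f : M →ₗ[R] N} (hf : f ≠ 0) : Function.Injective f := by
  rw [injective_iff_map_eq_zero]
  intro x hx
  obtain ⟨y, hy⟩ : ∃ y, f y ≠ 0 := by
    by_contra! hcon
    exact hf (LinearMap.ext hcon)
  refine dual_separating (R := R) fun F ↦ ?_
  have h1 : F x • f y = 0 := by
    rw [← map_smul, inv_smul_comm F x y, map_smul, hx, smul_zero]
  rcases smul_eq_zero.mp h1 with h | h
  · exact h
  · exact absurd h hy

end inv

section fibers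

variable {B P Q : Type u} [CommRing B] [AddCommGroup P] [AddCommGroup Q] [Module B P] [Module B Q]

/-- the hypothesis that `f` is injective on the fibre at `m` -/
def FibInj (f : P →ₗ[B] Q) (m : Ideal B) : Prop :=
  ∃ (Pm Qm : Type u) (_ : AddCommGroup Pm) (_ : AddCommGroup Qm) (_ : Module (B ⧸ m) Pm)
    (_ : Module (B ⧸ m) Qm) (gP : P →+ Pm) (gQ : Q →+ Qm) (fm : Pm →ₗ[B ⧸ m] Qm),
    IsBC (Ideal.Quotient.mk m) gP ∧ IsBC (Ideal.Quotient.mk m) gQ ∧
    (∀ x, fm (gP x) = gQ (f x)) ∧ Function.Injective fm

theorem subsingleton_of_fibers {C : Type u} [AddCommGroup C] [Module B C] [Module.Finite B C]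
    (h : ∀ (m : Ideal B), m.IsMaximal → ∃ (Cm : Type u) (_ : AddCommGroup Cm)
      (_ : Module (B ⧸ m) Cm) (g : C →+ Cm), IsBC (Ideal.Quotient.mk m) g ∧ Subsingleton Cm) :
    Subsingleton C := by
  by_contra hne
  rw [not_subsingleton_iff_nontrivial] at hne
  have hann : Module.annihilator B C ≠ ⊤ := by
    intro htop
    obtain ⟨x, hx⟩ := exists_ne (0 : C)
    apply hx
    have h1 := Module.mem_annihilator.mp
      (htop ▸ (Submodule.mem_top : (1 : B) ∈ (⊤ : Ideal B)) : (1 : B) ∈ Module.annihilator B C) x
    rwa [one_smul] at h1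
  obtain ⟨m, hm, hle⟩ := Ideal.exists_le_maximal _ hann
  obtain ⟨Cm, _, _, g, hg, hs⟩ := h m hm
  have hfield : IsField (B ⧸ m) := Ideal.Quotient.maximal_ideal_iff_isField_quotient m |>.mp hm
  have h2 := hg.subsingleton_iff_notMem_support.mp hs ⟨⊥, by
    haveI := hfield.toField
    haveI : IsDomain (B ⧸ m) := hfield.isDomain
    exact Ideal.isPrime_bot⟩
  apply h2
  rw [Module.support_eq_zeroLocus, PrimeSpectrum.mem_zeroLocus]
  intro a ha
  show Ideal.Quotient.mk m a = 0
  exact Ideal.Quotient.eq_zero_iff_mem.mpr (hle ha)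

/-- a map between finite projective modules which is injective on all fibres is split injective. -/
theorem exists_leftInverse_of_fibInj [Module.Finite B P] [Module.Projective B P]
    [Module.Finite B Q] [Module.Projective B Q] (f : P →ₗ[B] Q)
    (h : ∀ m : Ideal B, m.IsMaximal → FibInj f m) :
    ∃ g : Q →ₗ[B] P, g ∘ₗ f = LinearMap.id := by
  have hsub : Subsingleton (Module.Dual B P ⧸ LinearMap.range f.dualMap) := by
    refine subsingleton_of_fibers (B := B) fun m hm ↦ ?_
    obtain ⟨Pm, Qm, _, _, _, _, gP, gQ, fm, hP, hQ, hcomm, hinj⟩ := h m hm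
    have hcomm' : ∀ F : Module.Dual B Q, fm.dualMap (hQ.dualMap F) = hP.dualMap (f.dualMap F) := by
      intro F
      refine hP.eq_dualMap _ _ fun x ↦ ?_
      show hQ.dualMap F (fm (gP x)) = _
      rw [hcomm, hQ.dualMap_apply]
      rfl
    let l : Module.Dual B P →ₛₗ[Ideal.Quotient.mk m] Module.Dual (B ⧸ m) Pm :=
      { toFun := hP.dualMap
        map_add' := hP.dualMap.map_add
        map_smul' := hP.dual.smul }
    let g : (Module.Dual B P ⧸ LinearMap.range f.dualMap) →+
        (Module.Dual (B ⧸ m) Pm ⧸ LinearMap.range fm.dualMap) :=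
      (Submodule.mapQ (LinearMap.range f.dualMap) (LinearMap.range fm.dualMap) l (by
        rintro _ ⟨F, rfl⟩
        exact ⟨_, hcomm' F⟩)).toAddMonoidHom
    refine ⟨_, _, _, g, hQ.dual.coker hP.dual fm.dualMap hcomm' (fun _ ↦ rfl), ?_⟩
    have hsurj : Function.Surjective fm.dualMap := by
      let _ : Field (B ⧸ m) := Ideal.Quotient.field m
      exact LinearMap.dualMap_surjective_of_injective hinj
    rw [LinearMap.range_eq_top.mpr hsurj]
    exact Submodule.Quotient.subsingleton_iff.mpr rfl
  have hsurj : Function.Surjective f.dualMap :=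
    LinearMap.range_eq_top.mp (Submodule.Quotient.subsingleton_iff.mp hsub)
  obtain ⟨s, hs⟩ := Module.projective_lifting_property f.dualMap LinearMap.id hsurj
  refine ⟨(Module.evalEquiv B P).symm.toLinearMap ∘ₗ s.dualMap ∘ₗ Module.Dual.eval B Q, ?_⟩
  ext x
  simp only [LinearMap.comp_apply, LinearMap.id_apply]
  show (Module.evalEquiv B P).symm _ = x
  rw [LinearEquiv.symm_apply_eq]
  ext F
  show s F (f x) = F x
  have := LinearMap.congr_fun hs F
  simp only [LinearMap.comp_apply, LinearMap.id_apply] at this
  conv_rhs => rw [← this]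
  rfl

/-- the cokernel of a split injection is projective -/
theorem projective_coker_of_leftInverse [Module.Projective B Q] {f : P →ₗ[B] Q} {g : Q →ₗ[B] P}
    (h : g ∘ₗ f = LinearMap.id) : Module.Projective B (Q ⧸ LinearMap.range f) := by
  let s : (Q ⧸ LinearMap.range f) →ₗ[B] Q := (LinearMap.range f).liftQ (LinearMap.id - f ∘ₗ g) (by
    rintro _ ⟨x, rfl⟩
    rw [LinearMap.mem_ker, LinearMap.sub_apply, LinearMap.id_apply, LinearMap.comp_apply,
      show g (f x) = x from LinearMap.congr_fun h x, sub_self])
  refine Module.Projective.of_split s (LinearMap.range f).mkQ ?_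
  apply Submodule.linearMap_qext
  ext x
  simp only [LinearMap.comp_apply, Submodule.mkQ_apply, LinearMap.id_apply]
  show Submodule.Quotient.mk (x - f (g x)) = (Submodule.Quotient.mk x : Q ⧸ LinearMap.range f)
  rw [Submodule.Quotient.eq]
  rw [show x - f (g x) - x = - f (g x) by abel]
  exact Submodule.neg_mem _ ⟨_, rfl⟩

end fibers

end Fermat.Agent.S25
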