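import Mathlib
import Fermat.Agent.S25.ChartAlg
import Fermat.Agent.S25.LBHom

/-!
# S25 / ALG4: homomorphisms of line bundles which are isomorphisms along `ε`
-/

set_option autoImplicit false
set_option linter.style.haveILetI false

universe u

open scoped TensorProduct Pointwise

noncomputable section

namespace Fermat.Agent.S25

namespace LB

variable {k : Type u} [Field k]

section BChom

variable {𝒞 : TwoChart k} {B B' : Type u} [CommRing B] [Algebra k B] [CommRing B'] [Algebra k B']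
  {φ : B →ₐ[k] B'} {D D₁ : LB 𝒞 B} {D' D₁' : LB 𝒞 B'}

/-- base change of homomorphisms -/
def BC.hom (σ : Hom D D₁) (h : BC φ D D') (h' : BC φ D₁ D₁') : Hom D' D₁' where
  l0 := h.bc0.map h'.bc0 σ.l0
  l1 := h.bc1.map h'.bc1 σ.l1
  l01 := h.bc01.map h'.bc01 σ.l01
  h0 := by
    intro x
    induction x using h.bc0.induction with
    | hg m => rw [IsBC.map_apply, h.h0, IsBC.map_apply, h'.h0, σ.h0]
    | h0 => simp
    | hadd x y hx hy => simp only [map_add, hx, hy]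
    | hsmul b x hx =>
      rw [map_smul, D₁'.bc0.smul, hx, D'.bc0.smul, map_smul]
  h1 := by
    intro x
    induction x using h.bc1.induction with
    | hg m => rw [IsBC.map_apply, h.h1, IsBC.map_apply, h'.h1, σ.h1]
    | h0 => simp
    | hadd x y hx hy => simp only [map_add, hx, hy]
    | hsmul b x hx =>
      rw [map_smul, D₁'.bc1.smul, hx, D'.bc1.smul, map_smul]

@[simp] lemma BC.hom_l0 (σ : Hom D D₁) (h : BC φ D D') (h' : BC φ D₁ D₁') (x : D.M0) :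
    (BC.hom σ h h').l0 (h.u0 x) = h'.u0 (σ.l0 x) := IsBC.map_apply h.bc0 h'.bc0 σ.l0 x

@[simp] lemma BC.hom_l1 (σ : Hom D D₁) (h : BC φ D D') (h' : BC φ D₁ D₁') (x : D.M1) :
    (BC.hom σ h h').l1 (h.u1 x) = h'.u1 (σ.l1 x) := IsBC.map_apply h.bc1 h'.bc1 σ.l1 x

@[simp] lemma BC.hom_l01 (σ : Hom D D₁) (h : BC φ D D') (h' : BC φ D₁ D₁') (x : D.M01) :
    (BC.hom σ h h').l01 (h.u01 x) = h'.u01 (σ.l01 x) := IsBC.map_apply h.bc01 h'.bc01 σ.l01 x

end BChom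

section eps

variable (𝒞 : CurveData k) (B : Type u) [CommRing B] [Algebra k B]

@[simp] lemma εB_tmul (b : B) (a : 𝒞.A1) :
    𝒞.εB B (b ⊗ₜ a) = b * algebraMap k B (𝒞.ε a) := rfl

lemma ε_f1 : 𝒞.ε 𝒞.f1 = 0 := by
  have h := (𝒞.ε_ker (RingHom.ker 𝒞.ε) (RingHom.ker_isPrime _)).mpr rfl
  exact h

lemma f1B_mem_ker : 𝒞.f1B B ∈ RingHom.ker (𝒞.εB B) := by
  rw [RingHom.mem_ker]
  show 𝒞.εB B (1 ⊗ₜ 𝒞.f1) = 0
  rw [εB_tmul, ε_f1, map_zero, mul_zero]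

lemma ker_εB : RingHom.ker (𝒞.εB B) =
    (RingHom.ker 𝒞.ε).map (Algebra.TensorProduct.includeRight : 𝒞.A1 →ₐ[k] 𝒞.R1 B) := by
  apply le_antisymm
  · intro x hx
    have key : ∀ y : 𝒞.R1 B, y - algebraMap B (𝒞.R1 B) (𝒞.εB B y) ∈
        (RingHom.ker 𝒞.ε).map (Algebra.TensorProduct.includeRight : 𝒞.A1 →ₐ[k] 𝒞.R1 B) := by
      intro y
      induction y using TensorProduct.induction_on with
      | zero => simp
      | add y z hy hz =>
        rw [map_add, map_add, add_sub_add_comm]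
        exact add_mem hy hz
      | tmul b a =>
        have h1 : b ⊗ₜ[k] a - algebraMap B (𝒞.R1 B) (𝒞.εB B (b ⊗ₜ a)) =
            (b ⊗ₜ[k] (1 : 𝒞.A1)) * (Algebra.TensorProduct.includeRight
              (a - algebraMap k 𝒞.A1 (𝒞.ε a)) : 𝒞.R1 B) := by
          rw [εB_tmul, Algebra.TensorProduct.algebraMap_apply, Algebra.TensorProduct.includeRight_apply,
            Algebra.TensorProduct.tmul_mul_tmul, mul_one, one_mul, TensorProduct.tmul_sub]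
          congr 1
          rw [Algebra.algebraMap_self_apply, mul_comm, ← Algebra.smul_def,
            Algebra.algebraMap_eq_smul_one, TensorProduct.tmul_smul, TensorProduct.smul_tmul']
        rw [h1]
        refine Ideal.mul_mem_left _ _ (Ideal.mem_map_of_mem _ ?_)
        rw [RingHom.mem_ker, map_sub, AlgHom.commutes]
        simp
    have h2 := key x
    rw [RingHom.mem_ker.mp hx, map_zero, sub_zero] at h2
    exact h2
  · rw [Ideal.map_le_iff_le_comap]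
    intro a ha
    rw [Ideal.mem_comap, RingHom.mem_ker, Algebra.TensorProduct.includeRight_apply, εB_tmul,
      RingHom.mem_ker.mp ha, map_zero, mul_zero]

lemma exists_pow_ker_le : ∃ n : ℕ, (RingHom.ker (𝒞.εB B)) ^ n ≤ Ideal.span {𝒞.f1B B} := by
  haveI : IsNoetherianRing 𝒞.A1 := by
    have := 𝒞.ded1 k
    exact isNoetherianRing_of_ringEquiv (k ⊗[k] 𝒞.A1) (Algebra.TensorProduct.lid k 𝒞.A1).toRingEquiv
  have h1 : RingHom.ker 𝒞.ε ≤ (Ideal.span {𝒞.f1}).radical := by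
    rw [Ideal.radical_eq_sInf]
    refine le_sInf fun P hP ↦ ?_
    obtain ⟨hle, hprime⟩ := hP
    have := (𝒞.ε_ker P hprime).mp (hle (Ideal.mem_span_singleton_self _))
    rw [this]
  obtain ⟨n, hn⟩ := Ideal.exists_radical_pow_le_of_fg (Ideal.span {𝒞.f1})
    ((isNoetherianRing_iff_ideal_fg _).mp inferInstance _)
  refine ⟨n, ?_⟩
  rw [ker_εB, ← Ideal.map_pow, Ideal.map_le_iff_le_comap]
  refine (Ideal.pow_right_mono h1 n).trans (hn.trans ?_)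
  rw [Ideal.span_singleton_le_iff_mem, Ideal.mem_comap]
  exact Ideal.mem_span_singleton_self _

end eps

section surjAt

variable {𝒞 : CurveData k} {B : Type u} [CommRing B] [Algebra k B]
  {D D' : LB 𝒞.toTwoChart B}

/-- `σ` is surjective (hence an isomorphism) along the section `ε`. -/
def Hom.SurjAt (σ : Hom D D') : Prop :=
  LinearMap.range σ.l1 ⊔ RingHom.ker (𝒞.εB B) • (⊤ : Submodule (𝒞.R1 B) D'.M1) = ⊤

variable {σ : Hom D D'}

lemma Hom.SurjAt.sup_pow (h : σ.SurjAt) (n : ℕ) :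
    LinearMap.range σ.l1 ⊔ (RingHom.ker (𝒞.εB B)) ^ n • (⊤ : Submodule (𝒞.R1 B) D'.M1) = ⊤ := by
  induction n with
  | zero => rw [pow_zero, Ideal.one_eq_top, Submodule.top_smul, sup_top_eq]
  | succ n ih =>
    rw [eq_top_iff]
    conv_lhs => rw [← ih]
    refine sup_le le_sup_left ?_
    conv_lhs => rw [← (show _ = _ from h)]
    rw [Submodule.smul_sup, ← Submodule.mul_smul, ← pow_succ]
    exact sup_le_sup (Submodule.smul_le_right) le_rfl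

lemma Hom.SurjAt.exists_f1 (h : σ.SurjAt) (y : D'.M1) :
    ∃ (x : D.M1) (z : D'.M1), y = σ.l1 x + 𝒞.f1B B • z := by
  obtain ⟨n, hn⟩ := exists_pow_ker_le 𝒞 B
  have h1 : y ∈ LinearMap.range σ.l1 ⊔ (RingHom.ker (𝒞.εB B)) ^ n •
      (⊤ : Submodule (𝒞.R1 B) D'.M1) := by
    rw [h.sup_pow n]; exact Submodule.mem_top
  obtain ⟨_, ⟨x, rfl⟩, w, hw, hxw⟩ := Submodule.mem_sup.mp h1
  have h2 : w ∈ Ideal.span {𝒞.f1B B} • (⊤ : Submodule (𝒞.R1 B) D'.M1) :=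
    Submodule.smul_mono_left hn hw
  rw [Submodule.ideal_span_singleton_smul, Submodule.mem_smul_pointwise_iff_exists] at h2
  obtain ⟨z, -, rfl⟩ := h2
  exact ⟨x, z, hxw.symm⟩

lemma Hom.SurjAt.f1_injective (h : σ.SurjAt) :
    Function.Injective (LinearMap.lsmul (𝒞.R1 B) (D'.M1 ⧸ LinearMap.range σ.l1) (𝒞.f1B B)) := by
  apply OrzechProperty.injective_of_surjective_endomorphism
  intro q
  obtain ⟨y, rfl⟩ := Submodule.Quotient.mk_surjective _ q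
  obtain ⟨x, z, hy⟩ := h.exists_f1 y
  refine ⟨Submodule.Quotient.mk z, ?_⟩
  rw [LinearMap.lsmul_apply, ← Submodule.Quotient.mk_smul, Submodule.Quotient.eq, hy]
  rw [show 𝒞.f1B B • z - (σ.l1 x + 𝒞.f1B B • z) = - σ.l1 x by abel]
  exact Submodule.neg_mem _ ⟨x, rfl⟩

lemma Hom.SurjAt.mem_of_f1_pow (h : σ.SurjAt) (n : ℕ) (y : D'.M1)
    (hy : (𝒞.f1B B) ^ n • y ∈ LinearMap.range σ.l1) : y ∈ LinearMap.range σ.l1 := by
  induction n generalizing y with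
  | zero => rwa [pow_zero, one_smul] at hy
  | succ n ih =>
    apply ih
    rw [pow_succ', mul_smul] at hy
    rw [← Submodule.Quotient.mk_eq_zero]
    apply h.f1_injective
    rw [map_zero, LinearMap.lsmul_apply, ← Submodule.Quotient.mk_smul,
      Submodule.Quotient.mk_eq_zero]
    exact hy

lemma Hom.SurjAt.exists_f1_pow (h : σ.SurjAt) (n : ℕ) (y : D'.M1) :
    ∃ (x : D.M1) (z : D'.M1), y = σ.l1 x + (𝒞.f1B B) ^ n • z := by
  induction n generalizing y with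
  | zero => exact ⟨0, y, by simp⟩
  | succ n ih =>
    obtain ⟨x, z, hy⟩ := h.exists_f1 y
    obtain ⟨x', z', hz⟩ := ih z
    refine ⟨x + 𝒞.f1B B • x', z', ?_⟩
    rw [hy, hz, map_add, map_smul, smul_add, pow_succ', mul_smul]
    abel

end surjAt

section loc

variable {𝒞 : TwoChart k} {B : Type u} [CommRing B] [Algebra k B] (D D' : LB 𝒞 B)

lemma F_mul_G : 𝒞.ρ0B B (𝒞.f0B B) * 𝒞.ρ1B B (𝒞.f1B B) = 1 := (𝒞.FB B).val_inv
lemma G_mul_F : 𝒞.ρ1B B (𝒞.f1B B) * 𝒞.ρ0B B (𝒞.f0B B) = 1 := (𝒞.FB B).inv_val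

lemma F_pow_G_pow_smul (n : ℕ) (y : D.M01) :
    (𝒞.ρ0B B (𝒞.f0B B)) ^ n • (𝒞.ρ1B B (𝒞.f1B B)) ^ n • y = y := by
  rw [smul_smul, ← mul_pow, F_mul_G, one_pow, one_smul]

lemma G_pow_F_pow_smul (n : ℕ) (y : D.M01) :
    (𝒞.ρ1B B (𝒞.f1B B)) ^ n • (𝒞.ρ0B B (𝒞.f0B B)) ^ n • y = y := by
  rw [smul_smul, ← mul_pow, G_mul_F, one_pow, one_smul]

lemma exists_r1_eq (y : D.M01) :
    ∃ n₀ : ℕ, ∀ n, n₀ ≤ n → ∃ x : D.M1, D.r1 x = (𝒞.ρ1B B (𝒞.f1B B)) ^ n • y := by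
  obtain ⟨S⟩ := D.std1
  obtain ⟨n₀, hn₀⟩ := S.exists_zpow_mem y
  refine ⟨n₀.toNat, fun n hn ↦ ?_⟩
  obtain ⟨x, hx⟩ := hn₀ n (by omega)
  refine ⟨x, ?_⟩
  have h1 : (D.T.symm ^ (n : ℤ)) y = (𝒞.ρ1B B (𝒞.f1B B)) ^ n • y := by
    rw [T, unitMul_symm, unitMul_zpow, zpow_natCast]
    rfl
  rw [← h1]
  exact hx

lemma exists_r0_eq (y : D.M01) :
    ∃ n₀ : ℕ, ∀ n, n₀ ≤ n → ∃ x : D.M0, D.r0 x = (𝒞.ρ0B B (𝒞.f0B B)) ^ n • y := by
  obtain ⟨n₀, h⟩ := D.swap.exists_r1_eq y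
  exact ⟨n₀, h⟩

end loc

section surjAt2

variable {𝒞 : CurveData k} {B : Type u} [CommRing B] [Algebra k B]
  {D D' : LB 𝒞.toTwoChart B} {σ : Hom D D'}

/-- outside the zeroes of `σ` -/
lemma Hom.SurjAt.exists_r1 (h : σ.SurjAt) (y : D'.M01) :
    ∃ (w : D.M01) (z : D'.M1), y = σ.l01 w + D'.r1 z := by
  obtain ⟨n, hn⟩ := D'.exists_r1_eq y
  obtain ⟨z', hz'⟩ := hn n le_rfl
  obtain ⟨x, z, hxz⟩ := h.exists_f1_pow n z'
  refine ⟨(𝒞.ρ0B B (𝒞.f0B B)) ^ n • D.r1 x, z, ?_⟩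
  have h1 : (𝒞.ρ1B B (𝒞.f1B B)) ^ n • y = σ.l01 (D.r1 x) + (𝒞.ρ1B B (𝒞.f1B B)) ^ n • D'.r1 z := by
    rw [← hz', hxz, map_add, σ.h1, D'.bc1.smul]
    congr 2
    exact map_pow _ _ _
  rw [← F_pow_G_pow_smul D' n y, h1, smul_add, F_pow_G_pow_smul, map_smul]

lemma Hom.SurjAt.mem_range_l1 (h : σ.SurjAt) {z : D'.M1} {w : D.M01}
    (hzw : D'.r1 z = σ.l01 w) : ∃ x : D.M1, σ.l1 x = z ∧ σ.l01 (D.r1 x) = σ.l01 w := by
  obtain ⟨n, hn⟩ := D.exists_r1_eq w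
  obtain ⟨x, hx⟩ := hn n le_rfl
  have h1 : (𝒞.f1B B) ^ n • z = σ.l1 x := by
    apply D'.r1_injective
    rw [D'.bc1.smul, σ.h1, hx, map_smul, hzw]
    congr 1
    exact map_pow _ _ _
  obtain ⟨x', hx'⟩ := h.mem_of_f1_pow n z (h1 ▸ ⟨x, rfl⟩)
  exact ⟨x', hx', by rw [← σ.h1, hx', hzw]⟩

end surjAt2

section surjAtBC

variable {𝒞 : CurveData k} {B B' : Type u} [CommRing B] [Algebra k B] [CommRing B'] [Algebra k B']
  {φ : B →ₐ[k] B'} {D D₁ : LB 𝒞.toTwoChart B} {D' D₁' : LB 𝒞.toTwoChart B'}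

lemma εB_bc1 (φ : B →ₐ[k] B') (r : 𝒞.R1 B) : 𝒞.εB B' (𝒞.bc1 φ r) = φ (𝒞.εB B r) := by
  induction r using TensorProduct.induction_on with
  | zero => simp
  | add x y hx hy => simp only [map_add, hx, hy]
  | tmul b a =>
    show 𝒞.εB B' (φ b ⊗ₜ a) = _
    rw [εB_tmul, εB_tmul, map_mul, AlgHom.commutes]

lemma BC.u1_mem_ker_smul (h : BC φ D D') {y : D.M1}
    (hy : y ∈ RingHom.ker (𝒞.εB B) • (⊤ : Submodule (𝒞.R1 B) D.M1)) :
    h.u1 y ∈ RingHom.ker (𝒞.εB B') • (⊤ : Submodule (𝒞.R1 B') D'.M1) := by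
  refine Submodule.smul_induction_on hy (fun r hr m _ ↦ ?_) (fun x y hx hy ↦ ?_)
  · rw [h.bc1.smul]
    refine Submodule.smul_mem_smul ?_ Submodule.mem_top
    rw [RingHom.mem_ker, εB_bc1, RingHom.mem_ker.mp hr, map_zero]
  · rw [map_add]
    exact add_mem hx hy

lemma Hom.SurjAt.bc {σ : Hom D D₁} (hσ : σ.SurjAt) (h : BC φ D D') (h' : BC φ D₁ D₁') :
    (BC.hom σ h h').SurjAt := by
  unfold Hom.SurjAt
  rw [eq_top_iff]
  rintro x -
  induction x using h'.bc1.induction with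
  | hg m =>
    have hm : m ∈ LinearMap.range σ.l1 ⊔ RingHom.ker (𝒞.εB B) •
        (⊤ : Submodule (𝒞.R1 B) D₁.M1) := by
      rw [show _ = _ from hσ]; exact Submodule.mem_top
    obtain ⟨_, ⟨y, rfl⟩, z, hz, rfl⟩ := Submodule.mem_sup.mp hm
    rw [map_add]
    refine Submodule.add_mem_sup ⟨h.u1 y, BC.hom_l1 σ h h' y⟩ (h'.u1_mem_ker_smul hz)
  | h0 => exact zero_mem _
  | hadd x y hx hy => exact add_mem hx hy
  | hsmul b x hx => exact Submodule.smul_mem _ _ hx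

end surjAtBC

section field

variable {𝒞 : CurveData k}

lemma ker_smul_ne_top {B : Type u} [CommRing B] [Algebra k B] [Nontrivial B]
    (D : LB 𝒞.toTwoChart B) :
    RingHom.ker (𝒞.εB B) • (⊤ : Submodule (𝒞.R1 B) D.M1) ≠ ⊤ := by
  intro h
  obtain ⟨r, hr, hr'⟩ := Submodule.exists_sub_one_mem_and_smul_eq_zero_of_fg_of_le_smul
    (RingHom.ker (𝒞.εB B)) (⊤ : Submodule (𝒞.R1 B) D.M1) Module.Finite.fg_top h.ge
  have h0 : r = 0 := by
    apply FaithfulSMul.eq_of_smul_eq_smul (M := 𝒞.R1 B) (α := D.M1)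
    intro m
    rw [hr' m Submodule.mem_top, zero_smul]
  rw [h0, RingHom.mem_ker] at hr
  simp at hr

variable {K : Type u} [Field K] [Algebra k K] {D D' : LB 𝒞.toTwoChart K} {σ : Hom D D'}

lemma Hom.SurjAt.l1_ne_zero (h : σ.SurjAt) : σ.l1 ≠ 0 := by
  intro h0
  unfold Hom.SurjAt at h
  rw [h0, LinearMap.range_zero, bot_sup_eq] at h
  exact ker_smul_ne_top D' h

lemma Hom.SurjAt.field_l1 (h : σ.SurjAt) : Function.Injective σ.l1 := by
  have := 𝒞.ded1 K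
  exact inv_injective_of_ne_zero h.l1_ne_zero

lemma Hom.SurjAt.field_l01 (h : σ.SurjAt) : Function.Injective σ.l01 := by
  have := 𝒞.dom K
  refine inv_injective_of_ne_zero fun h0 ↦ h.l1_ne_zero ?_
  ext x
  apply D'.r1_injective
  rw [σ.h1, h0]
  simp

lemma Hom.SurjAt.field_l0 (h : σ.SurjAt) : Function.Injective σ.l0 := by
  intro x y hxy
  apply D.r0_injective
  apply h.field_l01
  rw [← σ.h0, ← σ.h0, hxy]

end field

end LB

end Fermat.Agent.S25
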