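import Mathlib
import Fermat.Agent.S25.ChartHom
import Fermat.Agent.S25.AlgChi

/-!
# S25 / ALG4: the zero divisor of a homomorphism which is an isomorphism along `ε`
-/

set_option autoImplicit false
set_option linter.style.haveILetI false

universe u

open scoped TensorProduct Pointwise

noncomputable section

namespace Fermat.Agent.S25

namespace LB

variable {k : Type u} [Field k] {𝒞 : CurveData k} {B : Type u} [CommRing B] [Algebra k B]
  {D D' : LB 𝒞.toTwoChart B} {σ : Hom D D'}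

lemma Hom.mapH0_injective' {𝒞 : TwoChart k} {D D' : LB 𝒞 B} {σ : Hom D D'}
    (h0 : Function.Injective σ.l0) (h1 : Function.Injective σ.l1) :
    Function.Injective σ.mapH0 := by
  rintro ⟨⟨x0, x1⟩, hx⟩ ⟨⟨y0, y1⟩, hy⟩ h
  have e0 : σ.l0 x0 = σ.l0 y0 := congrArg (fun z : D'.H0 ↦ (z : D'.M0 × D'.M1).1) h
  have e1 : σ.l1 x1 = σ.l1 y1 := congrArg (fun z : D'.H0 ↦ (z : D'.M0 × D'.M1).2) h
  have e0' := h0 e0
  have e1' := h1 e1
  subst e0' e1'
  rfl

lemma Hom.SurjAt.tw (h : σ.SurjAt) (n : ℕ) : (σ.tw n).SurjAt := h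

lemma BC.hom_tw {𝒞 : TwoChart k} {B' : Type u} [CommRing B'] [Algebra k B'] {φ : B →ₐ[k] B'}
    {D D₁ : LB 𝒞 B} {D' D₁' : LB 𝒞 B'} (σ : Hom D D₁) (h : BC φ D D') (h' : BC φ D₁ D₁') (n : ℕ) :
    BC.hom (σ.tw n) (h.tw n) (h'.tw n) = (BC.hom σ h h').tw n := rfl

lemma BC.hom_mapH0 {𝒞 : TwoChart k} {B' : Type u} [CommRing B'] [Algebra k B'] {φ : B →ₐ[k] B'}
    {D D₁ : LB 𝒞 B} {D' D₁' : LB 𝒞 B'} (σ : Hom D D₁) (h : BC φ D D') (h' : BC φ D₁ D₁')
    (x : D.H0) : (BC.hom σ h h').mapH0 (h.mapH0 x) = h'.mapH0 (σ.mapH0 x) := by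
  apply Subtype.ext
  apply Prod.ext
  · exact BC.hom_l0 σ h h' x.1.1
  · exact BC.hom_l1 σ h h' x.1.2

/-- for `D, D'` with vanishing `H¹`, `H⁰(D) → H⁰(D')` is split injective. -/
theorem Hom.SurjAt.exists_leftInverse_mapH0 (h : σ.SurjAt) (hD : Subsingleton D.H1)
    (hD' : Subsingleton D'.H1) : ∃ g : D'.H0 →ₗ[B] D.H0, g ∘ₗ σ.mapH0 = LinearMap.id := by
  haveI := D.projective_H0 hD
  haveI := D.finite_H0 hD
  haveI := D'.projective_H0 hD'
  haveI := D'.finite_H0 hD'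
  refine exists_leftInverse_of_fibInj _ fun m hm ↦ ?_
  let _ : Field (B ⧸ m) := Ideal.Quotient.field m
  let φ : B →ₐ[k] B ⧸ m := Ideal.Quotient.mkₐ k m
  let u := bcBaseChange φ D
  let u' := bcBaseChange φ D'
  have hσ := h.bc u u'
  refine ⟨_, _, _, _, _, _, u.mapH0, u'.mapH0, (BC.hom σ u u').mapH0, u.isBC_mapH0 hD,
    u'.isBC_mapH0 hD', fun x ↦ BC.hom_mapH0 σ u u' x, ?_⟩
  exact Hom.mapH0_injective' hσ.field_l0 hσ.field_l1

theorem Hom.SurjAt.mapH0_tw_injective (h : σ.SurjAt) : ∃ n₀, ∀ n, n₀ ≤ n →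
    Function.Injective (σ.tw n).mapH0 := by
  obtain ⟨n₁, hn₁⟩ := D.exists_tw_H1
  obtain ⟨n₂, hn₂⟩ := D'.exists_tw_H1
  refine ⟨max n₁ n₂, fun n hn ↦ ?_⟩
  obtain ⟨g, hg⟩ := (h.tw n).exists_leftInverse_mapH0 (hn₁ n (le_trans (le_max_left _ _) hn))
    (hn₂ n (le_trans (le_max_right _ _) hn))
  exact Function.HasLeftInverse.injective ⟨g, fun x ↦ LinearMap.congr_fun hg x⟩

theorem Hom.SurjAt.l0_injective (h : σ.SurjAt) : Function.Injective σ.l0 := by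
  rw [injective_iff_map_eq_zero]
  intro x hx
  obtain ⟨n₀, hn₀⟩ := h.mapH0_tw_injective
  obtain ⟨n₁, hn₁⟩ := D.exists_r1_eq (D.r0 x)
  set n := max n₀ n₁
  obtain ⟨y, hy⟩ := hn₁ n (le_max_right _ _)
  have hxy : (x, y) ∈ (D.tw n).H0 := by
    refine (D.tw n).mem_H0_iff.mpr ?_
    show D.r0 x = (𝒞.ρ0B B (𝒞.f0B B)) ^ n • D.r1 y
    rw [hy, F_pow_G_pow_smul]
  have hy0 : σ.l1 y = 0 := by
    apply D'.r1_injective
    rw [σ.h1, hy, map_smul, ← σ.h0, hx, map_zero, map_zero, smul_zero]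
  have h1 := hn₀ n (le_max_left _ _) (a₁ := ⟨(x, y), hxy⟩) (a₂ := 0) (by
    apply Subtype.ext
    apply Prod.ext
    · show σ.l0 x = _
      rw [hx, map_zero]; rfl
    · show σ.l1 y = _
      rw [hy0, map_zero]; rfl)
  exact congrArg (fun z : (D.tw n).H0 ↦ z.1.1) h1

theorem Hom.SurjAt.l01_injective (h : σ.SurjAt) : Function.Injective σ.l01 := by
  rw [injective_iff_map_eq_zero]
  intro w hw
  obtain ⟨n, hn⟩ := D.exists_r0_eq w
  obtain ⟨x, hx⟩ := hn n le_rfl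
  have h1 : σ.l0 x = 0 := by
    apply D'.r0_injective
    rw [σ.h0, hx, map_smul, hw, smul_zero, map_zero]
  have h2 : x = 0 := h.l0_injective (by rw [h1, map_zero])
  rw [← G_pow_F_pow_smul D n w, ← hx, h2, map_zero, smul_zero]

theorem Hom.SurjAt.l1_injective (h : σ.SurjAt) : Function.Injective σ.l1 := by
  intro x y hxy
  apply D.r1_injective
  apply h.l01_injective
  rw [← σ.h1, ← σ.h1, hxy]

/-- the restriction of sections to the zero divisor of `σ` -/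
def Hom.resZ (σ : Hom D D') : D'.H0 →ₗ[B] (D'.M0 ⧸ LinearMap.range σ.l0) :=
  ((LinearMap.range σ.l0).mkQ.restrictScalars B) ∘ₗ LinearMap.fst B D'.M0 D'.M1 ∘ₗ D'.H0.subtype

lemma Hom.resZ_apply (σ : Hom D D') (s : D'.H0) :
    σ.resZ s = Submodule.Quotient.mk s.1.1 := rfl

theorem Hom.SurjAt.ker_resZ (h : σ.SurjAt) : LinearMap.ker σ.resZ = LinearMap.range σ.mapH0 := by
  ext s
  constructor
  · intro hs
    rw [LinearMap.mem_ker, Hom.resZ_apply, Submodule.Quotient.mk_eq_zero] at hs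
    obtain ⟨x, hx⟩ := hs
    have h1 : D'.r1 s.1.2 = σ.l01 (D.r0 x) := by
      rw [← σ.h0, hx, D'.mem_H0_iff.mp s.2]
    obtain ⟨y, hy, hy'⟩ := h.mem_range_l1 h1
    have hxy : (x, y) ∈ D.H0 := by
      rw [mem_H0_iff]
      exact (h.l01_injective hy').symm
    exact ⟨⟨(x, y), hxy⟩, Subtype.ext (Prod.ext hx hy)⟩
  · rintro ⟨s, rfl⟩
    rw [LinearMap.mem_ker, Hom.resZ_apply, Submodule.Quotient.mk_eq_zero]
    exact ⟨s.1.1, rfl⟩

theorem Hom.SurjAt.resZ_surjective (h : σ.SurjAt) (hD : Subsingleton D.H1) :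
    Function.Surjective σ.resZ := by
  intro q
  obtain ⟨a, rfl⟩ := Submodule.Quotient.mk_surjective _ q
  obtain ⟨w, z, hwz⟩ := h.exists_r1 (D'.r0 a)
  have hs : Function.Surjective D.diff :=
    LinearMap.range_eq_top.mp (Submodule.Quotient.subsingleton_iff.mp hD)
  obtain ⟨⟨x, y⟩, hxy⟩ := hs w
  rw [diff_apply] at hxy
  have hmem : (a - σ.l0 x, z - σ.l1 y) ∈ D'.H0 := by
    rw [mem_H0_iff]
    show D'.r0 (a - σ.l0 x) = D'.r1 (z - σ.l1 y)
    rw [map_sub, map_sub, hwz, ← hxy, map_sub, σ.h0, σ.h1]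
    abel
  refine ⟨⟨_, hmem⟩, ?_⟩
  rw [Hom.resZ_apply, Submodule.Quotient.eq]
  show (a - σ.l0 x) - a ∈ _
  rw [show (a - σ.l0 x) - a = - σ.l0 x by abel]
  exact Submodule.neg_mem _ ⟨x, rfl⟩

/-- `H⁰(D')/H⁰(D) ≃ D'.M0 / σ D.M0`. -/
def Hom.SurjAt.quotEquiv (h : σ.SurjAt) (hD : Subsingleton D.H1) :
    (D'.H0 ⧸ LinearMap.range σ.mapH0) ≃ₗ[B] (D'.M0 ⧸ LinearMap.range σ.l0) :=
  (Submodule.quotEquivOfEq _ _ h.ker_resZ.symm).trans
    (σ.resZ.quotKerEquivOfSurjective (h.resZ_surjective hD))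

theorem Hom.SurjAt.finite_projective_coker (h : σ.SurjAt) :
    Module.Finite B (D'.M0 ⧸ LinearMap.range σ.l0) ∧
      Module.Projective B (D'.M0 ⧸ LinearMap.range σ.l0) := by
  obtain ⟨n₁, hn₁⟩ := D.exists_tw_H1
  obtain ⟨n₂, hn₂⟩ := D'.exists_tw_H1
  set n := max n₁ n₂
  have hD := hn₁ n (le_max_left _ _)
  have hD' := hn₂ n (le_max_right _ _)
  obtain ⟨g, hg⟩ := (h.tw n).exists_leftInverse_mapH0 hD hD'
  haveI := (D'.tw n).projective_H0 hD'
  haveI := (D'.tw n).finite_H0 hD'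
  haveI := projective_coker_of_leftInverse hg
  exact ⟨Module.Finite.equiv ((h.tw n).quotEquiv hD),
    Module.Projective.of_equiv ((h.tw n).quotEquiv hD)⟩

section chi

variable {K : Type u} [Field K] [Algebra k K] {D D' : LB 𝒞.toTwoChart K} {σ : Hom D D'}

/-- over a field, the degree of the zero divisor is the difference of Euler characteristics -/
theorem Hom.SurjAt.chi_of (h : σ.SurjAt) {E : Type u} [AddCommGroup E] [Module K E]
    [Module.Finite K E] (π : D'.M0 →ₗ[K] E) (hπ : Function.Surjective π)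
    (hker : ∀ x, π x = 0 ↔ ∃ y, σ.l0 y = x) :
    D'.chi = D.chi + Module.finrank K E := by
  have ha : ∀ v' : D'.M01, ∃ x v, v' = D'.r1 x + (σ.l01.restrictScalars K) v := by
    intro v'
    obtain ⟨w, z, hwz⟩ := h.exists_r1 v'
    exact ⟨z, w, by rw [hwz, add_comm]; rfl⟩
  have hb : ∀ x v, D'.r1 x = (σ.l01.restrictScalars K) v →
      ∃ y, x = (σ.l1.restrictScalars K) y := by
    intro x v hxv
    obtain ⟨y, hy, -⟩ := h.mem_range_l1 hxv
    exact ⟨y, hy.symm⟩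
  have hinj : Function.Injective (σ.l01.restrictScalars K) := h.l01_injective
  refine chi_add (D := D) (D' := D') (E := E) (σ.l0.restrictScalars K) (σ.l1.restrictScalars K)
    (σ.l01.restrictScalars K) ?_ ?_ ?_ ha hb π ?_ ?_
  · exact fun x ↦ σ.h0 x
  · exact fun x ↦ σ.h1 x
  · exact hinj
  · exact hπ
  · exact fun x ↦ hker x

end chi

end LB

end Fermat.Agent.S25
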