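import Mathlib
import Fermat.Agent.S25.ChartSL

/-!
# S25 / ALG4: rigidifications and evaluation of sections
-/

set_option autoImplicit false
set_option linter.style.haveILetI false

universe u

open scoped TensorProduct Pointwise

noncomputable section

namespace Fermat.Agent.S25

section surj

variable {A B M N : Type u} [CommRing A] [CommRing B] [AddCommGroup M] [AddCommGroup N]
  [Module A M] [Module B N] {φ : A →+* B} {g : M →+ N}

lemma IsBC.surjective_of_surjective (h : IsBC φ g) (hφ : Function.Surjective φ) :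
    Function.Surjective g := by
  intro n
  induction n using h.induction with
  | hg m => exact ⟨m, rfl⟩
  | h0 => exact ⟨0, map_zero g⟩
  | hadd x y hx hy =>
    obtain ⟨a, rfl⟩ := hx
    obtain ⟨b, rfl⟩ := hy
    exact ⟨a + b, map_add g a b⟩
  | hsmul b x hx =>
    obtain ⟨m, rfl⟩ := hx
    obtain ⟨a, rfl⟩ := hφ b
    exact ⟨a • m, h.smul a m⟩

lemma IsBC.mem_ker_smul (h : IsBC φ g) (hφ : Function.Surjective φ) {m : M} (hm : g m = 0) :
    m ∈ RingHom.ker φ • (⊤ : Submodule A M) := by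
  let e := RingHom.quotientKerEquivOfSurjective hφ
  let _ : Module B (M ⧸ (RingHom.ker φ • (⊤ : Submodule A M))) :=
    Module.compHom _ e.symm.toRingHom
  let q : M →+ M ⧸ (RingHom.ker φ • (⊤ : Submodule A M)) :=
    (RingHom.ker φ • (⊤ : Submodule A M)).mkQ.toAddMonoidHom
  have hq : ∀ (a : A) (x : M), q (a • x) = φ a • q x := by
    intro a x
    show q (a • x) = e.symm (φ a) • q x
    have : e.symm (φ a) = Ideal.Quotient.mk (RingHom.ker φ) a := by
      rw [RingEquiv.symm_apply_eq]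
      rfl
    rw [this]
    rfl
  have h1 := h.lift_apply q hq m
  rw [hm, map_zero] at h1
  exact (Submodule.Quotient.mk_eq_zero _).mp h1.symm

lemma IsBC.of_ker (hφ : Function.Surjective φ) (hs : ∀ (a : A) (m : M), g (a • m) = φ a • g m)
    (hg : Function.Surjective g) (hk : ∀ m, g m = 0 → m ∈ RingHom.ker φ • (⊤ : Submodule A M)) :
    IsBC φ g := by
  refine ⟨hs, fun Q _ _ h hh ↦ ?_⟩
  have hker : ∀ m, g m = 0 → h m = 0 := by
    intro m hm
    refine Submodule.smul_induction_on (hk m hm) (fun r hr x _ ↦ ?_) (fun x y hx hy ↦ ?_)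
    · rw [hh, RingHom.mem_ker.mp hr, zero_smul]
    · rw [map_add, hx, hy, add_zero]
  have hwd : ∀ x y, g x = g y → h x = h y := by
    intro x y hxy
    rw [← sub_eq_zero, ← map_sub]
    exact hker _ (by rw [map_sub, hxy, sub_self])
  let s := Function.surjInv hg
  have hs' : ∀ n, g (s n) = n := Function.surjInv_eq hg
  refine ⟨{ toFun := fun n ↦ h (s n)
            map_add' := fun x y ↦ ?_
            map_smul' := fun b x ↦ ?_ }, fun m ↦ hwd _ _ (hs' _), fun k hk ↦ ?_⟩
  · rw [← map_add]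
    exact hwd _ _ (by rw [hs', map_add, hs', hs'])
  · obtain ⟨a, rfl⟩ := hφ b
    show h (s (φ a • x)) = φ a • h (s x)
    rw [← hh]
    exact hwd _ _ (by rw [hs', hs, hs'])
  · ext n
    show k n = h (s n)
    rw [← hk, hs']

end surj

namespace LB

variable {k : Type u} [Field k]

section rig

variable {𝒞 : CurveData k} {B : Type u} [CommRing B] [Algebra k B] {D : LB 𝒞.toTwoChart B}

lemma εB_surjective (𝒞 : CurveData k) (B : Type u) [CommRing B] [Algebra k B] :
    Function.Surjective (𝒞.εB B) := fun b ↦ ⟨algebraMap B _ b, AlgHom.commutes _ _⟩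

lemma rig_triv : (triv 𝒞.toTwoChart B).Rig (𝒞 := 𝒞) :=
  ⟨(𝒞.εB B).toRingHom.toAddMonoidHom, IsBC.self _⟩

lemma Rig.tw (h : D.Rig) (m : ℕ) : (D.tw m).Rig := h

/-- rigidification of the dual, with its compatibility with the pairing -/
lemma exists_dual_rig {e : D.M1 →+ B} (h : IsBC (𝒞.εB B).toRingHom e) :
    ∃ e' : D.dual.M1 →+ B, IsBC (𝒞.εB B).toRingHom e' ∧
      ∀ (F : D.dual.M1) (x : D.M1), 𝒞.εB B (D.pair1 F x) = e' F * e x := by
  let l : Module.Dual B B ≃ₗ[B] B := LinearMap.ringLmapEquivSelf B B B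
  have h1 : IsBC (RingHom.id B) l.toLinearMap.toAddMonoidHom :=
    IsBC.of_bijective _ _ Function.bijective_id l.bijective (fun a m ↦ l.map_smul a m)
  refine ⟨l.toLinearMap.toAddMonoidHom.comp h.dualMap, h.dual.comp h1, fun F x ↦ ?_⟩
  have h2 := h.dualMap_apply F x
  have h3 : h.dualMap F (e x) = e x • h.dualMap F 1 := by
    rw [← map_smul, smul_eq_mul, mul_one]
  show 𝒞.εB B (D.pair1 F x) = h.dualMap F 1 * e x
  rw [mul_comm, ← smul_eq_mul (e x), ← h3]
  exact h2.symm

lemma Rig.dual (h : D.Rig) : D.dual.Rig := by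
  obtain ⟨e, he⟩ := h
  obtain ⟨e', he', -⟩ := exists_dual_rig he
  exact ⟨e', he'⟩

end rig

section eval

variable {𝒞 : TwoChart k} {B : Type u} [CommRing B] [Algebra k B] (D : LB 𝒞 B)

/-- evaluation at a section, as a homomorphism `D^∨ → O` -/
def evalHom (s : D.H0) : Hom D.dual (triv 𝒞 B) where
  l0 := D.pair0.flip s.1.1
  l1 := D.pair1.flip s.1.2
  l01 := D.pair01.flip (D.r0 s.1.1)
  h0 F := (pair01_r0 D F s.1.1).symm
  h1 F := by
    have h : D.r0 s.1.1 = D.r1 s.1.2 := D.mem_H0_iff.mp s.2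
    show 𝒞.ρ1B B (D.pair1 F s.1.2) = D.pair01 (D.dual.r1 F) (D.r0 s.1.1)
    rw [h, pair01_r1]

@[simp] lemma evalHom_l0 (s : D.H0) (F : D.dual.M0) : (D.evalHom s).l0 F = D.pair0 F s.1.1 := rfl
@[simp] lemma evalHom_l1 (s : D.H0) (F : D.dual.M1) : (D.evalHom s).l1 F = D.pair1 F s.1.2 := rfl

end eval

section eval2

variable {𝒞 : CurveData k} {B : Type u} [CommRing B] [Algebra k B] {D : LB 𝒞.toTwoChart B}

/-- `σ : D → D'` is surjective along `ε` if it hits an element of unit value. -/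
lemma Hom.surjAt_of_unit {D' : LB 𝒞.toTwoChart B} {e : D'.M1 →+ B}
    (he : IsBC (𝒞.εB B).toRingHom e) {σ : Hom D D'} {x : D.M1} (hx : IsUnit (e (σ.l1 x))) :
    σ.SurjAt := by
  unfold Hom.SurjAt
  rw [eq_top_iff]
  rintro y -
  obtain ⟨c, hc⟩ : ∃ c : B, c * e (σ.l1 x) = e y := by
    obtain ⟨v, hv⟩ := hx
    exact ⟨e y * (v⁻¹ : Bˣ), by rw [← hv, mul_assoc, Units.inv_mul, mul_one]⟩
  have h1 : y - σ.l1 (algebraMap B (𝒞.R1 B) c • x) ∈ RingHom.ker (𝒞.εB B) •
      (⊤ : Submodule (𝒞.R1 B) D'.M1) := by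
    refine he.mem_ker_smul (εB_surjective 𝒞 B) ?_
    rw [map_sub, map_smul, he.smul]
    have : (𝒞.εB B).toRingHom (algebraMap B (𝒞.R1 B) c) = c := (𝒞.εB B).commutes c
    rw [this, smul_eq_mul, hc, sub_self]
  have h2 : y = σ.l1 (algebraMap B (𝒞.R1 B) c • x) + (y - σ.l1 (algebraMap B (𝒞.R1 B) c • x)) := by
    abel
  rw [h2]
  exact Submodule.add_mem_sup ⟨_, rfl⟩ h1

/-- evaluation at a section with unit value at `ε` is surjective along `ε` -/
lemma evalHom_surjAt {e : D.M1 →+ B} (he : IsBC (𝒞.εB B).toRingHom e) {s : D.H0}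
    (hs : IsUnit (e s.1.2)) : (D.evalHom s).SurjAt := by
  obtain ⟨e', he', hee'⟩ := exists_dual_rig he
  obtain ⟨F, hF⟩ := he'.surjective_of_surjective (εB_surjective 𝒞 B) 1
  refine Hom.surjAt_of_unit (e := (𝒞.εB B).toRingHom.toAddMonoidHom) (IsBC.self _) (x := F) ?_
  show IsUnit (𝒞.εB B (D.pair1 F s.1.2))
  rw [hee', hF, one_mul]
  exact hs

end eval2

end LB

end Fermat.Agent.S25
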