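import Mathlib
import Fermat.Agent.S25.AlgChi

/-!
# S25: line bundles of fibrewise degree zero

`LB.FibDeg0 D`: all field-valued fibres of `D` have the Euler characteristic of the trivial
line bundle.
-/

set_option autoImplicit false

universe u

open scoped TensorProduct Polynomial

noncomputable section

namespace Fermat.Agent.S25.LB

variable {k : Type u} [Field k] {𝒞 : TwoChart k} {B B' : Type u} [CommRing B] [Algebra k B]
  [CommRing B'] [Algebra k B'] {φ : B →ₐ[k] B'}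

/-- all field-valued fibres of `D` have the Euler characteristic of the trivial line bundle -/
def FibDeg0 (D : LB 𝒞 B) : Prop :=
  ∀ (K : Type u) [Field K] [Algebra k K] (φ : B →ₐ[k] K) (E : LB 𝒞 K), BC φ D E →
    E.chi = (triv 𝒞 K).chi

variable (𝒞 φ) in
/-- base change of the trivial line bundle -/
def trivBC : BC φ (triv 𝒞 B) (triv 𝒞 B') where
  u0 := (𝒞.bc0 φ).toAddMonoidHom
  u1 := (𝒞.bc1 φ).toAddMonoidHom
  u01 := (𝒞.bc01 φ).toAddMonoidHom
  bc0 := .self _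
  bc1 := .self _
  bc01 := .self _
  h0 x := (TwoChart.bc01_ρ0B φ x).symm
  h1 x := (TwoChart.bc01_ρ1B φ x).symm

variable {D : LB 𝒞 B} {D' : LB 𝒞 B'}

lemma FibDeg0.iso (h : D.FibDeg0) {D₁ : LB 𝒞 B} (e : Iso D D₁) : D₁.FibDeg0 :=
  fun K _ _ φ E b ↦ h K φ E (b.ofIso e)

lemma FibDeg0.bc (h : D.FibDeg0) (b : BC φ D D') : D'.FibDeg0 :=
  fun K _ _ ψ E b' ↦ h K (ψ.comp φ) E (b.comp b')

lemma chi_eq_chi_of_bc {K : Type u} [Field K] [Algebra k K] {φ : B →ₐ[k] K} {E E' : LB 𝒞 K}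
    (b : BC φ D E) (b' : BC φ D E') : E.chi = E'.chi := (b.uniq b').chi

variable (𝒞 B) in
lemma fibDeg0_triv : (triv 𝒞 B).FibDeg0 := fun _ _ _ φ _ b ↦ chi_eq_chi_of_bc b (trivBC 𝒞 φ)

lemma fibDeg0_iff_field {K : Type u} [Field K] [Algebra k K] (D : LB 𝒞 K) :
    D.FibDeg0 ↔ D.chi = (triv 𝒞 K).chi := by
  refine ⟨fun h ↦ h K (AlgHom.id k K) D (BC.refl D), fun h L _ _ φ E b ↦ ?_⟩
  rw [b.chi_eq, h, (trivBC 𝒞 φ).chi_eq]

/-- the Euler characteristic of a fibre only depends on the point -/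
lemma chi_sub_eq_of_point {K L : Type u} [Field K] [Algebra k K] [Field L] [Algebra k L]
    {φ : B →ₐ[k] K} {ψ : B →ₐ[k] L} {E : LB 𝒞 K} {E' : LB 𝒞 L} (b : BC φ D E) (b' : BC ψ D E')
    (h : PrimeSpectrum.comap φ.toRingHom ⊥ = PrimeSpectrum.comap ψ.toRingHom ⊥) :
    E.chi = E'.chi := by
  obtain ⟨χ, -, hχ⟩ := D.exists_chi_function
  rw [hχ K φ E b, hχ L ψ E' b', h]

/-- `FibDeg0` can be checked at one field-valued point above each point of the base -/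
lemma fibDeg0_of_forall (h : ∀ p : PrimeSpectrum B, ∃ (K : Type u) (_ : Field K)
    (_ : Algebra k K) (φ : B →ₐ[k] K) (E : LB 𝒞 K) (_ : BC φ D E),
    PrimeSpectrum.comap φ.toRingHom ⊥ = p ∧ E.chi = (triv 𝒞 K).chi) : D.FibDeg0 := by
  intro L _ _ ψ E' b'
  obtain ⟨K, _, _, φ, E, b, hp, hE⟩ := h (PrimeSpectrum.comap ψ.toRingHom ⊥)
  rw [← chi_sub_eq_of_point b b' hp, hE, chi_sub_eq_of_point (trivBC 𝒞 φ) (trivBC 𝒞 ψ) hp]

/-- over a base with connected spectrum, `FibDeg0` can be checked at one point -/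
lemma fibDeg0_of_preconnected [PreconnectedSpace (PrimeSpectrum B)] {K : Type u} [Field K]
    [Algebra k K] {φ : B →ₐ[k] K} {E : LB 𝒞 K} (b : BC φ D E) (h : E.chi = (triv 𝒞 K).chi) :
    D.FibDeg0 := by
  intro L _ _ ψ E' b'
  rw [chi_eq_of_preconnectedSpace b' b, h, chi_eq_of_preconnectedSpace (trivBC 𝒞 φ) (trivBC 𝒞 ψ)]

/-- the locus where `D` has fibrewise degree zero is open and closed -/
theorem exists_isClopen_fibDeg0 (D : LB 𝒞 B) : ∃ W : Set (PrimeSpectrum B), IsClopen W ∧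
    ∀ (B' : Type u) [CommRing B'] [Algebra k B'] (φ : B →ₐ[k] B') (D' : LB 𝒞 B') (_ : BC φ D D'),
      D'.FibDeg0 ↔ Set.range (PrimeSpectrum.comap φ.toRingHom) ⊆ W := by
  obtain ⟨χ, hχ, h⟩ := D.exists_chi_function
  obtain ⟨χ₀, hχ₀, h₀⟩ := (triv 𝒞 B).exists_chi_function
  have hclopen : IsClopen {p | χ p - χ₀ p = 0} :=
    (hχ.comp₂ hχ₀ (· - ·)).isClopen_fiber 0
  refine ⟨{p | χ p - χ₀ p = 0}, hclopen, fun B' _ _ φ D' b ↦ ⟨?_, ?_⟩⟩
  · rintro hD _ ⟨p, rfl⟩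
    let K := p.asIdeal.ResidueField
    let ψ : B' →ₐ[k] K := IsScalarTower.toAlgHom k B' K
    have h1 := hD K ψ _ (D'.bcBaseChange ψ)
    rw [h K _ _ (b.comp (D'.bcBaseChange ψ)), h₀ K _ _ (trivBC 𝒞 (ψ.comp φ))] at h1
    have h2 : PrimeSpectrum.comap (ψ.comp φ).toRingHom ⊥ =
        PrimeSpectrum.comap φ.toRingHom p := by
      have h3 : PrimeSpectrum.comap ψ.toRingHom ⊥ = p := by
        ext x
        exact Ideal.algebraMap_residueField_eq_zero
      exact congrArg (PrimeSpectrum.comap φ.toRingHom) h3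
    rw [h2] at h1
    exact sub_eq_zero.mpr h1
  · intro hW K _ _ ψ E b'
    have h1 := hW ⟨PrimeSpectrum.comap ψ.toRingHom ⊥, rfl⟩
    rw [h K _ _ (b.comp b'), h₀ K _ _ (trivBC 𝒞 (ψ.comp φ))]
    exact sub_eq_zero.mp h1

end Fermat.Agent.S25.LB
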