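import Mathlib
import Fermat.Agent.S25.ChartRig
import Fermat.Agent.S25.FibDeg

/-!
# S25, package PROP: rigidifiability is local on the base; valuation ring extensions
-/

set_option autoImplicit false

universe u

open scoped TensorProduct Polynomial

noncomputable section

namespace Fermat.Agent.S25

/-- extension of valuation rings along a field extension -/
theorem exists_val_ext (R K K' : Type u) [CommRing R] [IsDomain R] [ValuationRing R] [Field K]
    [Algebra R K] [IsFractionRing R K] [Field K'] (β : K →+* K') :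
    ∃ (V' : ValuationSubring K') (α : R →+* V'), IsLocalHom α ∧
      β.comp (algebraMap R K) = (algebraMap V' K').comp α := by
  let f : R →+* K' := β.comp (algebraMap R K)
  obtain ⟨V', hV'⟩ := (LocalSubring.range f).exists_le_valuationSubring
  obtain ⟨h1, h2⟩ := LocalSubring.le_def.mp hV'
  let α : R →+* V' := (Subring.inclusion h1).comp f.rangeRestrict
  refine ⟨V', α, ⟨fun a ha => ?_⟩, rfl⟩
  have h3 : IsUnit (f.rangeRestrict a) := by
    have h4 : IsUnit (Subring.inclusion h1 (f.rangeRestrict a)) := ha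
    exact h2.map_nonunit _ h4
  -- `f` is injective
  have hinj : Function.Injective f := β.injective.comp (IsFractionRing.injective R K)
  obtain ⟨w, hw⟩ := h3
  obtain ⟨b, hb⟩ := f.rangeRestrict_surjective ((w⁻¹ : (f.range)ˣ) : f.range)
  refine IsUnit.of_mul_eq_one b (hinj ?_)
  have h5 : f.rangeRestrict a * f.rangeRestrict b = 1 := by
    rw [hb, ← hw, Units.mul_inv]
  have h6 := congrArg (Subtype.val) h5
  rw [map_one]
  exact (map_mul f a b).trans h6

namespace LB

variable {k : Type u} [Field k] {𝒞 : CurveData k} {B : Type u} [CommRing B] [Algebra k B]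

theorem rig_of_surjective {D : LB 𝒞.toTwoChart B} {N : Type u} [AddCommGroup N] [Module B N]
    [Module.Invertible B N] {e : D.M1 →+ N} (he : IsBC (𝒞.εB B).toRingHom e) (ψ : N →ₗ[B] B)
    (hψ : Function.Surjective ψ) : D.Rig := by
  have hb : Function.Bijective ψ := Module.Invertible.bijective_of_surjective hψ
  refine ⟨ψ.toAddMonoidHom.comp e, ?_⟩
  have h := he.comp (IsBC.of_bijective (RingHom.id B) ψ.toAddMonoidHom Function.bijective_id hb
    (fun b n => ψ.map_smul b n))
  exact h

/-- the fibre at `ε` is invertible -/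
theorem invertible_ext (D : LB 𝒞.toTwoChart B) :
    Module.Invertible B (Ext (𝒞.εB B).toRingHom D.M1) :=
  (isBC_extMk (𝒞.εB B).toRingHom D.M1).invertible

/-- over a local ring everything is rigidifiable -/
theorem rig_of_isLocalRing [IsLocalRing B] (D : LB 𝒞.toTwoChart B) : D.Rig := by
  have hN := D.invertible_ext
  set N := Ext (𝒞.εB B).toRingHom D.M1
  have h1 : LinearMap.range (contractLeft B N) = ⊤ :=
    LinearMap.range_eq_top.mpr (Module.Invertible.bijective (R := B) (M := N)).2
  obtain ⟨ψ, n, hψ⟩ : ∃ (ψ : Module.Dual B N) (n : N), IsUnit (ψ n) := by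
    by_contra hcon
    push Not at hcon
    have h2 : LinearMap.range (contractLeft B N) ≤ IsLocalRing.maximalIdeal B := by
      rintro _ ⟨z, rfl⟩
      induction z using TensorProduct.induction_on with
      | zero => rw [map_zero]; exact zero_mem _
      | tmul f x =>
        rw [contractLeft_apply]
        exact (IsLocalRing.mem_maximalIdeal _).mpr (hcon f x)
      | add x y hx hy => rw [map_add]; exact add_mem hx hy
    rw [h1, top_le_iff] at h2
    exact (IsLocalRing.maximalIdeal.isMaximal B).ne_top h2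
  refine rig_of_surjective (isBC_extMk (𝒞.εB B).toRingHom D.M1) ψ ?_
  intro b
  obtain ⟨w, hw⟩ := hψ
  refine ⟨(b * ((w⁻¹ : Bˣ) : B)) • n, ?_⟩
  rw [map_smul, ← hw, smul_eq_mul, mul_assoc, Units.inv_mul, mul_one]

/-- rigidifiability is local on the base -/
theorem exists_rig_cover (D : LB 𝒞.toTwoChart B) : ∃ S : Finset B, Ideal.span (S : Set B) = ⊤ ∧
    ∀ f ∈ S, ∀ (B' : Type u) [CommRing B'] [Algebra k B'] (φ : B →ₐ[k] B')
      (D' : LB 𝒞.toTwoChart B') (_ : BC φ D D'), IsUnit (φ f) → D'.Rig := by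
  classical
  have hN := D.invertible_ext
  set N := Ext (𝒞.εB B).toRingHom D.M1
  obtain ⟨z, hz⟩ := (Module.Invertible.bijective (R := B) (M := N)).2 1
  -- write `z` as a finite sum
  have key : ∀ z : Module.Dual B N ⊗[B] N, ∃ S : Finset B,
      contractLeft B N z ∈ Ideal.span (S : Set B) ∧ ∀ f ∈ S, ∃ (ψ : Module.Dual B N) (n : N),
        ψ n = f := by
    intro z
    induction z using TensorProduct.induction_on with
    | zero => exact ⟨∅, by simp, by simp⟩
    | tmul ψ n =>
      refine ⟨{ψ n}, ?_, ?_⟩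
      · rw [contractLeft_apply]
        exact Ideal.subset_span (by simp)
      · intro f hf
        rw [Finset.mem_singleton] at hf
        exact ⟨ψ, n, hf.symm⟩
    | add x y hx hy =>
      obtain ⟨S, hS, hS'⟩ := hx
      obtain ⟨T, hT, hT'⟩ := hy
      refine ⟨S ∪ T, ?_, ?_⟩
      · rw [map_add]
        exact add_mem (Ideal.span_mono (by simp) hS) (Ideal.span_mono (by simp) hT)
      · intro f hf
        rcases Finset.mem_union.mp hf with h | h
        · exact hS' f h
        · exact hT' f h
  obtain ⟨S, hS, hS'⟩ := key z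
  refine ⟨S, ?_, ?_⟩
  · rw [Ideal.eq_top_iff_one, ← hz]
    exact hS
  · intro f hf B' _ _ φ D' b hu
    obtain ⟨ψ, n, hψ⟩ := hS' f hf
    have hN' := D'.invertible_ext
    set N' := Ext (𝒞.εB B').toRingHom D'.M1
    have he := isBC_extMk (𝒞.εB B).toRingHom D.M1
    have he' := isBC_extMk (𝒞.εB B').toRingHom D'.M1
    -- the map `N → N'`
    have hs : ∀ (a : 𝒞.R1 B) (m : D.M1), ((extMk (𝒞.εB B').toRingHom D'.M1).comp b.u1) (a • m) =
        φ.toRingHom ((𝒞.εB B).toRingHom a) •
          ((extMk (𝒞.εB B').toRingHom D'.M1).comp b.u1) m := by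
      intro a m
      rw [AddMonoidHom.comp_apply, AddMonoidHom.comp_apply, b.bc1.smul, he'.smul]
      congr 1
      exact εB_bc1 φ a
    let v : N →+ N' := he.slift φ.toRingHom _ hs
    have hv : ∀ m, v (extMk (𝒞.εB B).toRingHom D.M1 m) =
        extMk (𝒞.εB B').toRingHom D'.M1 (b.u1 m) := fun m => he.slift_apply φ.toRingHom _ hs m
    have hvbc : IsBC φ.toRingHom v := by
      refine IsBC.of_comp he (fun c x => he.slift_smul φ.toRingHom _ hs c x) ?_
      have h1 : IsBC ((𝒞.εB B').toRingHom.comp (𝒞.bc1 φ))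
          ((extMk (𝒞.εB B').toRingHom D'.M1).comp b.u1) := b.bc1.comp he'
      have h2 : (𝒞.εB B').toRingHom.comp (𝒞.bc1 φ) = φ.toRingHom.comp (𝒞.εB B).toRingHom :=
        RingHom.ext fun x => εB_bc1 φ x
      rw [h2] at h1
      have h3 : (extMk (𝒞.εB B').toRingHom D'.M1).comp b.u1 =
          v.comp (extMk (𝒞.εB B).toRingHom D.M1) := by
        ext m
        exact (hv m).symm
      rw [← h3]
      exact h1
    let Ψ : N' →ₗ[B'] B' := hvbc.map (IsBC.self φ.toRingHom) ψ
    have hΨ : ∀ n, Ψ (v n) = φ (ψ n) := fun n =>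
      IsBC.map_apply hvbc (IsBC.self φ.toRingHom) ψ n
    refine rig_of_surjective he' Ψ fun c => ?_
    obtain ⟨w, hw⟩ := hu
    refine ⟨(c * ((w⁻¹ : B'ˣ) : B')) • v n, ?_⟩
    rw [map_smul, hΨ, hψ, ← hw, smul_eq_mul, mul_assoc, Units.inv_mul, mul_one]

end LB

end Fermat.Agent.S25
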