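import Mathlib
import Fermat.Agent.S25.Defs
import Fermat.Prelude.Def_AlgebraicGeometry_RelativePicardFunctor

/-!
# S25: the geometric interface `CurveGeom`

`CurveGeom c ε`: a pointed curve `c : C ⟶ Spec k`, `ε`, covered by two affine opens
`U0 = C ∖ {ε}` and `U1 ∋ ε`, whose rings of functions are the algebras of a `CurveData k`.
-/

set_option autoImplicit false

universe u

open CategoryTheory CategoryTheory.Limits AlgebraicGeometry TopologicalSpace Opposite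
open NeronModelInfra AlgebraicGeometry.RelPicard

noncomputable section

namespace Fermat.Agent.S25

variable {k : Type u} [Field k] {C : Scheme.{u}}

/-- The scalars `k → Γ(C, U)`. -/
def scal (c : C ⟶ Spec (CommRingCat.of k)) (U : C.Opens) : k →+* Γ(C, U) :=
  (c.appLE ⊤ U le_top).hom.comp (Scheme.ΓSpecIso (CommRingCat.of k)).inv.hom

/-- Algebraic model of a pointed curve by two affine charts. -/
structure CurveGeom (c : C ⟶ Spec (CommRingCat.of k))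
    (ε : SchemeHomOver (𝟙 (Spec (CommRingCat.of k))) c) where
  𝒟 : CurveData k
  U0 : C.Opens
  U1 : C.Opens
  aff0 : IsAffineOpen U0
  aff1 : IsAffineOpen U1
  aff01 : IsAffineOpen (U0 ⊓ U1)
  cover : U0 ⊔ U1 = ⊤
  α0 : 𝒟.A0 ≃+* Γ(C, U0)
  α1 : 𝒟.A1 ≃+* Γ(C, U1)
  α01 : 𝒟.A01 ≃+* Γ(C, U0 ⊓ U1)
  h0 : ∀ a, α01 (𝒟.ρ0 a) = C.presheaf.map (homOfLE inf_le_left).op (α0 a)
  h1 : ∀ a, α01 (𝒟.ρ1 a) = C.presheaf.map (homOfLE inf_le_right).op (α1 a)
  k0 : ∀ x : k, α0 (algebraMap k 𝒟.A0 x) = scal c U0 x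
  k1 : ∀ x : k, α1 (algebraMap k 𝒟.A1 x) = scal c U1 x
  /-- `ε` factors through `U1` -/
  hε1 : ε.1 ⁻¹ᵁ U1 = ⊤
  /-- `ε` is given by `𝒟.ε` on `U1` -/
  hε : ∀ a, (Scheme.ΓSpecIso (CommRingCat.of k)).hom.hom
    ((ε.1.appLE U1 ⊤ (le_of_eq hε1.symm)).hom (α1 a)) = 𝒟.ε a
  /-- `U0` is the complement of `ε` -/
  hε0 : ∀ x : C, x ∉ U0 ↔ x ∈ Set.range ε.1

end Fermat.Agent.S25
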