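import Mathlib
import Fermat.Agent.S25.Geom
import Fermat.Agent.AV.TensorDomain

/-!
# S25, GEO-a: smooth affine curves are Dedekind, geometrically
-/

set_option autoImplicit false

universe u

open scoped TensorProduct Polynomial
open CategoryTheory CategoryTheory.Limits AlgebraicGeometry TopologicalSpace Opposite
open NeronModelInfra AlgebraicGeometry.RelPicard

noncomputable section

namespace Fermat.Agent.S25.GeoA

/-- unramified over a PID implies DVR at non-zero primes -/
theorem dvr_of_unramified (R : Type*) {S : Type*} [CommRing R] [IsPrincipalIdealRing R]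
    [CommRing S] [IsDomain S] [IsNoetherianRing S] [Algebra R S] [Algebra.EssFiniteType R S]
    [Algebra.FormallyUnramified R S] (q : Ideal S) [q.IsPrime] (hq : q ≠ ⊥) :
    IsDiscreteValuationRing (Localization.AtPrime q) := by
  let q' := IsLocalRing.maximalIdeal (Localization.AtPrime q)
  suffices q'.IsPrincipal from ((IsDiscreteValuationRing.TFAE (Localization.AtPrime q)
      (IsLocalization.AtPrime.not_isField S hq (Localization.AtPrime q))).out 4 0).mp this
  let p := q.under R
  let := Localization.AtPrime.algebraOfLiesOver p q
  have h1 : p.map (algebraMap R (Localization.AtPrime q)) = q' :=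
    ((Algebra.isUnramifiedAt_iff_map_eq R p q).mp inferInstance).2
  rw [← h1]
  obtain ⟨x, hx⟩ := (IsPrincipalIdealRing.principal p).principal
  rw [hx]
  refine ⟨algebraMap R _ x, ?_⟩
  rw [Ideal.submodule_span_eq, Ideal.submodule_span_eq, Ideal.map_span, Set.image_singleton]

/-- the DVR property can be checked on a basic open -/
theorem dvr_of_away {S : Type*} [CommRing S] [IsDomain S] (P : Ideal S) [hP : P.IsPrime] (f : S)
    (hf : f ∉ P) [IsDomain (Localization.Away f)] (h : ∀ (Q : Ideal (Localization.Away f)) [Q.IsPrime], Q ≠ ⊥ →
      IsDiscreteValuationRing (Localization.AtPrime Q)) (hP0 : P ≠ ⊥) :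
    IsDiscreteValuationRing (Localization.AtPrime P) := by
  have hdisj : Disjoint (Submonoid.powers f : Set S) (P : Set S) := by
    rw [Set.disjoint_left]
    rintro _ ⟨n, rfl⟩ hn
    exact hf (hP.mem_of_pow_mem _ hn)
  let Q := P.map (algebraMap S (Localization.Away f))
  have hQ : Q.IsPrime := IsLocalization.isPrime_of_isPrime_disjoint (Submonoid.powers f) _ P hP hdisj
  have hQP : Q.comap (algebraMap S (Localization.Away f)) = P :=
    IsLocalization.under_map_of_isPrime_disjoint (Submonoid.powers f) _ hP hdisj
  have hf0 : f ≠ 0 := by rintro rfl; exact hf P.zero_mem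
  have hinj : Function.Injective (algebraMap S (Localization.Away f)) :=
    IsLocalization.injective _ (powers_le_nonZeroDivisors_of_noZeroDivisors hf0)
  have hQ0 : Q ≠ ⊥ := by
    intro h0
    apply hP0
    rw [← hQP, h0, ← RingHom.ker_eq_comap_bot]
    exact (RingHom.injective_iff_ker_eq_bot _).mp hinj
  have := h Q hQ0
  have hloc : IsLocalization.AtPrime (Localization.AtPrime Q)
      (Q.comap (algebraMap S (Localization.Away f))) :=
    IsLocalization.isLocalization_isLocalization_atPrime_isLocalization (Submonoid.powers f)
      (Localization.AtPrime Q) Q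
  have hloc' : IsLocalization P.primeCompl (Localization.AtPrime Q) := by
    have : (Q.comap (algebraMap S (Localization.Away f))).primeCompl = P.primeCompl := by
      ext x
      show x ∉ Q.comap (algebraMap S (Localization.Away f)) ↔ x ∉ P
      rw [hQP]
    rw [← this]
    exact hloc
  have e : Localization.AtPrime P ≃ₐ[S] Localization.AtPrime Q :=
    IsLocalization.algEquiv P.primeCompl _ _
  exact IsDiscreteValuationRing.RingEquivClass.isDiscreteValuationRing e.symm.toRingEquiv

/-- standard smooth of relative dimension one over a field implies DVR at nonzero primes. -/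
theorem dvr_of_standardSmooth (K : Type u) {S : Type u} [Field K] [CommRing S] [IsDomain S]
    [Algebra K S] [Algebra.IsStandardSmoothOfRelativeDimension 1 K S]
    (q : Ideal S) [q.IsPrime] (hq : q ≠ ⊥) :
    IsDiscreteValuationRing (Localization.AtPrime q) := by
  obtain ⟨g, hg⟩ := Algebra.IsStandardSmoothOfRelativeDimension.exists_etale_mvPolynomial 1 K S
  have h1 : Algebra.IsStandardSmooth K S :=
    Algebra.IsStandardSmoothOfRelativeDimension.isStandardSmooth 1
  have h2 : Algebra.FinitePresentation K S := inferInstance
  have h3 : Algebra.FiniteType K S := inferInstance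
  have h4 : IsNoetherianRing S := Algebra.FiniteType.isNoetherianRing K S
  let _ : Algebra (MvPolynomial (Fin 1) K) S := g.toRingHom.toAlgebra
  have h5 : Algebra.Etale (MvPolynomial (Fin 1) K) S := hg
  have h6 : IsPrincipalIdealRing (MvPolynomial (Fin 1) K) :=
    IsPrincipalIdealRing.of_surjective (MvPolynomial.uniqueAlgEquiv K (Fin 1)).symm.toRingHom
      (MvPolynomial.uniqueAlgEquiv K (Fin 1)).symm.surjective
  exact dvr_of_unramified (MvPolynomial (Fin 1) K) q hq

/-- **smooth curves are Dedekind.** -/
theorem isDedekindDomain_of_locally (K : Type u) {S : Type u} [Field K] [CommRing S] [IsDomain S]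
    [Algebra K S]
    (h : RingHom.Locally (RingHom.IsStandardSmoothOfRelativeDimension 1) (algebraMap K S)) :
    IsDedekindDomain S := by
  have h1 : RingHom.Locally RingHom.IsStandardSmooth (algebraMap K S) := by
    obtain ⟨s, hs, hs'⟩ := h
    exact ⟨s, hs, fun t ht => (hs' t ht).isStandardSmooth⟩
  have h2 : (algebraMap K S).Smooth := RingHom.smooth_iff_locally_isStandardSmooth.mpr h1
  have h3 : Algebra.Smooth K S := RingHom.smooth_algebraMap.mp h2
  have h4 : IsNoetherianRing S := Algebra.FiniteType.isNoetherianRing K S
  have h5 : IsDedekindDomainDvr S :=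
    { is_dvr_at_nonzero_prime := by
        intro P hP0 hP
        obtain ⟨s, hs, hs'⟩ := h
        obtain ⟨t, ht, htP⟩ : ∃ t ∈ s, t ∉ P := by
          by_contra hcon
          push Not at hcon
          apply hP.ne_top
          rw [← top_le_iff, ← hs, Ideal.span_le]
          exact hcon
        have ht0 : t ≠ 0 := by rintro rfl; exact htP P.zero_mem
        have hdom : IsDomain (Localization.Away t) :=
          IsLocalization.isDomain_localization (powers_le_nonZeroDivisors_of_noZeroDivisors ht0)
        have h6 : Algebra.IsStandardSmoothOfRelativeDimension 1 K (Localization.Away t) := by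
          have := hs' t ht
          rw [← IsScalarTower.algebraMap_eq K S (Localization.Away t)] at this
          exact (RingHom.isStandardSmoothOfRelativeDimension_algebraMap 1).mp this
        exact dvr_of_away P t htP (fun Q hQ hQ0 => dvr_of_standardSmooth K Q hQ0) hP0 }
  infer_instance

/-- **geometric version**: tensoring with a field extension of an algebraically closed field. -/
theorem isDedekindDomain_tensor {k : Type u} [Field k] [IsAlgClosed k] (A : Type u) [CommRing A]
    [IsDomain A] [Algebra k A]
    (h : RingHom.Locally (RingHom.IsStandardSmoothOfRelativeDimension 1) (algebraMap k A))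
    (K : Type u) [Field K] [Algebra k K] : IsDedekindDomain (K ⊗[k] A) := by
  have hdom : IsDomain (K ⊗[k] A) := Fermat.Agent.AV.isDomain_tensorProduct k K A
  apply isDedekindDomain_of_locally K
  have hst : RingHom.IsStableUnderBaseChange
      (RingHom.Locally (RingHom.IsStandardSmoothOfRelativeDimension 1)) :=
    RingHom.locally_isStableUnderBaseChange
      RingHom.isStandardSmoothOfRelativeDimension_respectsIso
      (RingHom.isStandardSmoothOfRelativeDimension_isStableUnderBaseChange 1)
  let _ : Algebra A (K ⊗[k] A) := Algebra.TensorProduct.rightAlgebra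
  exact hst k A K (K ⊗[k] A) h

/-- `A` itself is Dedekind -/
theorem isDedekindDomain_self {k : Type u} [Field k] (A : Type u) [CommRing A]
    [IsDomain A] [Algebra k A]
    (h : RingHom.Locally (RingHom.IsStandardSmoothOfRelativeDimension 1) (algebraMap k A)) :
    IsDedekindDomain A := isDedekindDomain_of_locally k h

/-- a smooth curve over an algebraically closed field is not a point -/
theorem not_isField_of_locally {k : Type u} [Field k] [IsAlgClosed k] (A : Type u) [CommRing A]
    [Algebra k A] [Algebra.FiniteType k A]
    (h : RingHom.Locally (RingHom.IsStandardSmoothOfRelativeDimension 1) (algebraMap k A)) :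
    ¬ IsField A := by
  intro hA
  let _ := hA.toField
  obtain ⟨s, hs, hs'⟩ := h
  obtain ⟨t, ht, ht0⟩ : ∃ t ∈ s, t ≠ 0 := by
    by_contra hcon
    push Not at hcon
    have : Ideal.span s ≤ (⊥ : Ideal A) := by
      rw [Ideal.span_le]
      intro x hx
      exact hcon x hx
    rw [hs, top_le_iff] at this
    exact bot_ne_top this
  have h6 : Algebra.IsStandardSmoothOfRelativeDimension 1 k (Localization.Away t) := by
    have := hs' t ht
    rw [← IsScalarTower.algebraMap_eq k A (Localization.Away t)] at this
    exact (RingHom.isStandardSmoothOfRelativeDimension_algebraMap 1).mp this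
  have : Module.Finite k A := finite_of_finite_type_of_isJacobsonRing k A
  have h7 : Function.Bijective (algebraMap k A) :=
    IsAlgClosed.algebraMap_bijective_of_isIntegral
  have h8 : Function.Bijective (algebraMap A (Localization.Away t)) :=
    (IsLocalization.atUnits A (Submonoid.powers t) (by
      rintro _ ⟨n, rfl⟩
      exact (isUnit_iff_ne_zero.mpr ht0).pow n)).bijective
  have h9 : Function.Surjective (algebraMap k (Localization.Away t)) := by
    rw [IsScalarTower.algebraMap_eq k A (Localization.Away t)]
    exact h8.2.comp h7.2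
  have : Nontrivial (Localization.Away t) := h8.1.nontrivial
  have h10 := Algebra.IsStandardSmoothOfRelativeDimension.rank_kaehlerDifferential
    (R := k) (S := Localization.Away t) 1
  have h11 : Subsingleton (Ω[Localization.Away t⁄k]) :=
    KaehlerDifferential.subsingleton_of_surjective k _ h9
  rw [rank_subsingleton'] at h10
  simp at h10

section Scheme

variable {k : Type u} [Field k] {C : Scheme.{u}} (c : C ⟶ Spec (CommRingCat.of k))

theorem locally_scal [SmoothOfRelativeDimension 1 c] {U : C.Opens} (hU : IsAffineOpen U) :
    RingHom.Locally (RingHom.IsStandardSmoothOfRelativeDimension 1) (scal c U) := by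
  have h1 : RingHom.Locally (RingHom.IsStandardSmoothOfRelativeDimension 1)
      (c.appLE ⊤ U le_top).hom :=
    HasRingHomProperty.appLE (@SmoothOfRelativeDimension 1) c inferInstance
      ⟨⊤, isAffineOpen_top _⟩ ⟨U, hU⟩ le_top
  exact (RingHom.locally_respectsIso
    RingHom.isStandardSmoothOfRelativeDimension_respectsIso).2 _
      (Scheme.ΓSpecIso (CommRingCat.of k)).symm.commRingCatIsoToRingEquiv h1

/-- **GEO-a.** The ring of an affine open of a smooth integral curve over an algebraically closed
field is geometrically Dedekind. -/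
theorem isDedekindDomain_tensor_Γ [IsAlgClosed k] [IsIntegral C] [SmoothOfRelativeDimension 1 c]
    {U : C.Opens} (hU : IsAffineOpen U) [Nonempty U] (K : Type u) [Field K] [Algebra k K] :
    letI := (scal c U).toAlgebra
    IsDedekindDomain (K ⊗[k] Γ(C, U)) := by
  let _ := (scal c U).toAlgebra
  exact isDedekindDomain_tensor Γ(C, U) (locally_scal c hU) K

theorem isDomain_tensor_Γ [IsAlgClosed k] [IsIntegral C]
    {U : C.Opens} [Nonempty U] (K : Type u) [Field K] [Algebra k K] :
    letI := (scal c U).toAlgebra
    IsDomain (K ⊗[k] Γ(C, U)) := by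
  let _ := (scal c U).toAlgebra
  exact Fermat.Agent.AV.isDomain_tensorProduct k K Γ(C, U)

theorem isDedekindDomain_Γ [IsIntegral C] [SmoothOfRelativeDimension 1 c]
    {U : C.Opens} (hU : IsAffineOpen U) [Nonempty U] :
    IsDedekindDomain Γ(C, U) := by
  let _ := (scal c U).toAlgebra
  exact isDedekindDomain_self (k := k) Γ(C, U) (locally_scal c hU)

theorem finiteType_Γ [LocallyOfFiniteType c] {U : C.Opens} (hU : IsAffineOpen U) :
    (scal c U).FiniteType := by
  have h1 : (c.appLE ⊤ U le_top).hom.FiniteType :=
    HasRingHomProperty.appLE (@LocallyOfFiniteType) c inferInstance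
      ⟨⊤, isAffineOpen_top _⟩ ⟨U, hU⟩ le_top
  exact RingHom.finiteType_respectsIso.2 _
      (Scheme.ΓSpecIso (CommRingCat.of k)).symm.commRingCatIsoToRingEquiv h1

theorem not_isField_Γ [IsAlgClosed k] [SmoothOfRelativeDimension 1 c]
    {U : C.Opens} (hU : IsAffineOpen U) : ¬ IsField Γ(C, U) := by
  let _ := (scal c U).toAlgebra
  have : Smooth c := SmoothOfRelativeDimension.smooth 1 c
  have : Algebra.FiniteType k Γ(C, U) := finiteType_Γ c hU
  exact not_isField_of_locally (k := k) Γ(C, U) (locally_scal c hU)

/-- the local rings of a smooth curve are valuation rings -/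
theorem valuationRing_stalk [IsIntegral C] [SmoothOfRelativeDimension 1 c] (x : C) :
    ValuationRing (C.presheaf.stalk x) := by
  obtain ⟨U, hU, hxU, -⟩ := exists_isAffineOpen_mem_and_subset (X := C) (U := ⊤) (x := x) trivial
  have : Nonempty U := ⟨⟨x, hxU⟩⟩
  have := isDedekindDomain_Γ c hU
  have h1 := hU.isLocalization_stalk ⟨x, hxU⟩
  let _ : Algebra Γ(C, U) (C.presheaf.stalk x) := (C.presheaf.germ U x hxU).hom.toAlgebra
  by_cases hbot : (hU.primeIdealOf ⟨x, hxU⟩).asIdeal = ⊥
  · have h2 : IsLocalization.AtPrime (C.presheaf.stalk x) (hU.primeIdealOf ⟨x, hxU⟩).asIdeal := h1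
    have h3 : IsFractionRing Γ(C, U) (C.presheaf.stalk x) := by
      have h4 : (hU.primeIdealOf ⟨x, hxU⟩).asIdeal.primeCompl = nonZeroDivisors Γ(C, U) := by
        ext y
        rw [mem_nonZeroDivisors_iff_ne_zero]
        show y ∉ (hU.primeIdealOf ⟨x, hxU⟩).asIdeal ↔ _
        rw [hbot, Ideal.mem_bot]
      have h5 : IsLocalization (hU.primeIdealOf ⟨x, hxU⟩).asIdeal.primeCompl
        (C.presheaf.stalk x) := h2
      rwa [h4] at h5
    have hfield : IsField (C.presheaf.stalk x) :=
      (IsFractionRing.toField Γ(C, U) (K := C.presheaf.stalk x)).toIsField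
    let _ := hfield.toField
    infer_instance
  · have h2 : IsLocalization.AtPrime (C.presheaf.stalk x) (hU.primeIdealOf ⟨x, hxU⟩).asIdeal := h1
    have : IsDiscreteValuationRing (C.presheaf.stalk x) :=
      IsLocalization.AtPrime.isDiscreteValuationRing_of_dedekind_domain Γ(C, U) hbot _
    infer_instance

end Scheme

end Fermat.Agent.S25.GeoA
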