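import Mathlib

/-!
# S25 / GEO: rational functions on an integral scheme
-/

set_option autoImplicit false

universe u

open CategoryTheory CategoryTheory.Limits AlgebraicGeometry TopologicalSpace Opposite

noncomputable section

namespace Fermat.Agent.S25.Geo

variable {C : Scheme.{u}} [IsIntegral C]

/-- the rational function `h` is regular at `x` -/
def Reg (h : C.functionField) (x : C) : Prop :=
  h ∈ Set.range (algebraMap (C.presheaf.stalk x) C.functionField)

lemma algebraMap_res {U V : C.Opens} [Nonempty U] [Nonempty V] (i : V ≤ U) (s : Γ(C, U)) :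
    algebraMap Γ(C, V) C.functionField (C.presheaf.map (homOfLE i).op s) =
      algebraMap Γ(C, U) C.functionField s :=
  C.presheaf.germ_res_apply (homOfLE i) (genericPoint C) _ s

lemma algebraMap_germ {U : C.Opens} [Nonempty U] {x : C} (hx : x ∈ U) (s : Γ(C, U)) :
    algebraMap (C.presheaf.stalk x) C.functionField (C.presheaf.germ U x hx s) =
      algebraMap Γ(C, U) C.functionField s :=
  Scheme.algebraMap_germ_eq_germToFunctionField C hx s

lemma algebraMap_inj {U : C.Opens} [Nonempty U] :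
    Function.Injective (algebraMap Γ(C, U) C.functionField) :=
  C.germToFunctionField_injective U

lemma reg_section {U : C.Opens} [Nonempty U] (s : Γ(C, U)) {x : C} (hx : x ∈ U) :
    Reg (algebraMap Γ(C, U) C.functionField s) x :=
  ⟨C.presheaf.germ U x hx s, algebraMap_germ hx s⟩

lemma Reg.exists_section {h : C.functionField} {x : C} (hx : Reg h x) :
    ∃ (U : C.Opens) (_ : Nonempty U), x ∈ U ∧ ∃ s : Γ(C, U),
      algebraMap Γ(C, U) C.functionField s = h := by
  obtain ⟨t, rfl⟩ := hx
  obtain ⟨U, hU, s, hs⟩ := C.presheaf.exists_germ_eq t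
  have : Nonempty U := ⟨⟨x, hU⟩⟩
  refine ⟨U, this, hU, s, ?_⟩
  rw [← algebraMap_germ hU s]
  exact congrArg _ hs

lemma Reg.add {h h' : C.functionField} {x : C} (hx : Reg h x) (hx' : Reg h' x) :
    Reg (h + h') x := by
  obtain ⟨s, rfl⟩ := hx
  obtain ⟨t, rfl⟩ := hx'
  exact ⟨s + t, map_add _ _ _⟩

lemma Reg.mul {h h' : C.functionField} {x : C} (hx : Reg h x) (hx' : Reg h' x) :
    Reg (h * h') x := by
  obtain ⟨s, rfl⟩ := hx
  obtain ⟨t, rfl⟩ := hx'
  exact ⟨s * t, map_mul _ _ _⟩

lemma Reg.neg {h : C.functionField} {x : C} (hx : Reg h x) : Reg (-h) x := by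
  obtain ⟨s, rfl⟩ := hx
  exact ⟨-s, map_neg _ _⟩

lemma Reg.sub {h h' : C.functionField} {x : C} (hx : Reg h x) (hx' : Reg h' x) :
    Reg (h - h') x := by
  obtain ⟨s, rfl⟩ := hx
  obtain ⟨t, rfl⟩ := hx'
  exact ⟨s - t, map_sub _ _ _⟩

/-- the domain of definition of a rational function -/
def dom (h : C.functionField) : C.Opens where
  carrier := {x | Reg h x}
  is_open' := by
    rw [isOpen_iff_forall_mem_open]
    intro x hx
    obtain ⟨U, _, hxU, s, rfl⟩ := Reg.exists_section hx
    exact ⟨U, fun y hy ↦ reg_section s hy, U.isOpen, hxU⟩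

@[simp] lemma mem_dom {h : C.functionField} {x : C} : x ∈ dom h ↔ Reg h x := Iff.rfl

lemma reg_genericPoint (h : C.functionField) : Reg h (genericPoint C) := by
  obtain ⟨U, hU, s, hs⟩ := C.presheaf.exists_germ_eq h
  have : Nonempty U := ⟨⟨_, hU⟩⟩
  have h1 : algebraMap Γ(C, U) C.functionField s = h := hs
  rw [← h1]
  exact reg_section s hU

instance (h : C.functionField) : Nonempty (dom h) := ⟨⟨genericPoint C, reg_genericPoint h⟩⟩

lemma genericPoint_mem {U : C.Opens} [h : Nonempty U] : genericPoint C ∈ U :=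
  ((genericPoint_spec C).mem_open_set_iff U.isOpen).mpr (by simpa using h)

lemma nonempty_of_mem {U : C.Opens} (h : genericPoint C ∈ U) : Nonempty U := ⟨⟨_, h⟩⟩

/-- A rational function regular at all points of `U` is a section over `U`. -/
theorem exists_section (U : C.Opens) [Nonempty U] (h : C.functionField)
    (hU : ∀ x ∈ U, Reg h x) : ∃ s : Γ(C, U), algebraMap Γ(C, U) C.functionField s = h := by
  have h1 : ∀ x : U, ∃ (V : C.Opens) (_ : Nonempty V) (_ : V ≤ U), x.1 ∈ V ∧ ∃ s : Γ(C, V),
      algebraMap Γ(C, V) C.functionField s = h := by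
    intro x
    obtain ⟨V, _, hxV, s, hs⟩ := (hU x x.2).exists_section
    have hne : Nonempty (V ⊓ U : C.Opens) := ⟨⟨x.1, hxV, x.2⟩⟩
    exact ⟨V ⊓ U, hne, inf_le_right, ⟨hxV, x.2⟩,
      C.presheaf.map (homOfLE inf_le_left).op s, by rw [algebraMap_res, hs]⟩
  choose V hV hVU hmem s hs using h1
  have hcover : U ≤ iSup V := by
    intro x hx
    simp only [Opens.mem_iSup]
    exact ⟨⟨x, hx⟩, hmem ⟨x, hx⟩⟩
  have ic : TopCat.Presheaf.IsCompatible C.presheaf V s := by
    intro x y
    have hne : Nonempty (V x ⊓ V y : C.Opens) :=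
      nonempty_of_mem ⟨genericPoint_mem, genericPoint_mem⟩
    apply algebraMap_inj
    have e1 := algebraMap_res (C := C) (inf_le_left : V x ⊓ V y ≤ V x) (s x)
    have e2 := algebraMap_res (C := C) (inf_le_right : V x ⊓ V y ≤ V y) (s y)
    rw [hs] at e1 e2
    exact e1.trans e2.symm
  obtain ⟨g, hg, -⟩ := C.sheaf.existsUnique_gluing' V U (fun x ↦ homOfLE (hVU x)) hcover s ic
  refine ⟨g, ?_⟩
  let x : U := ⟨genericPoint C, genericPoint_mem⟩
  rw [← algebraMap_res (hVU x) g, ← hs x]
  exact congrArg _ (hg x)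

/-- the section of `O_C` over `dom h` given by `h` -/
def sec (h : C.functionField) : Γ(C, dom h) := (exists_section (dom h) h (fun _ hx ↦ hx)).choose

@[simp] lemma algebraMap_sec (h : C.functionField) :
    algebraMap Γ(C, dom h) C.functionField (sec h) = h :=
  (exists_section (dom h) h (fun _ hx ↦ hx)).choose_spec

lemma mem_basicOpen_iff {U : C.Opens} [Nonempty U] (s : Γ(C, U)) {x : C} (hx : x ∈ U) :
    x ∈ C.basicOpen s ↔ algebraMap Γ(C, U) C.functionField s ≠ 0 ∧
      Reg (algebraMap Γ(C, U) C.functionField s)⁻¹ x := by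
  rw [Scheme.mem_basicOpen C s x hx]
  constructor
  · intro hu
    have h1 : algebraMap Γ(C, U) C.functionField s ≠ 0 := by
      rw [← algebraMap_germ hx]
      exact (hu.map (algebraMap (C.presheaf.stalk x) C.functionField)).ne_zero
    refine ⟨h1, ?_⟩
    obtain ⟨t, ht⟩ := hu.exists_right_inv
    refine ⟨t, ?_⟩
    apply mul_left_cancel₀ h1
    rw [mul_inv_cancel₀ h1, ← algebraMap_germ hx, ← map_mul, ht, map_one]
  · rintro ⟨h1, t, ht⟩
    refine IsUnit.of_mul_eq_one t ?_
    apply IsFractionRing.injective (C.presheaf.stalk x) C.functionField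
    rw [map_mul, algebraMap_germ, ht, map_one, mul_inv_cancel₀ h1]

end Fermat.Agent.S25.Geo
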