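import Mathlib
import Fermat.Agent.S25.Geom
import Fermat.Agent.S25.GeoFun

/-!
# S25 / GEO: the morphism `dom h ⟶ 𝔸¹` given by a rational function is finite
-/

set_option autoImplicit false

universe u

open CategoryTheory CategoryTheory.Limits AlgebraicGeometry TopologicalSpace Opposite
open scoped Polynomial

noncomputable section

namespace Fermat.Agent.S25.Geo

variable {k : Type u} [Field k] {C : Scheme.{u}}

/-- the function `s` on `U` as a morphism to the affine line -/
def toLine (c : C ⟶ Spec (CommRingCat.of k)) (U : C.Opens) (s : Γ(C, U)) :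
    U.toScheme ⟶ Spec (CommRingCat.of k[X]) :=
  U.toSpecΓ ≫ Spec.map (CommRingCat.ofHom (Polynomial.eval₂RingHom (scal c U) s))

/-- the structure map of the affine line -/
def lineToPt (k : Type u) [Field k] : Spec (CommRingCat.of k[X]) ⟶ Spec (CommRingCat.of k) :=
  Spec.map (CommRingCat.ofHom Polynomial.C)

lemma toSpecΓ_scal (c : C ⟶ Spec (CommRingCat.of k)) (U : C.Opens) :
    U.toSpecΓ ≫ Spec.map (CommRingCat.ofHom (scal c U)) = U.ι ≫ c := by
  have h1 : CommRingCat.ofHom (scal c U) =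
      (Scheme.ΓSpecIso (CommRingCat.of k)).inv ≫ c.appLE ⊤ U le_top := by
    ext x
    rfl
  rw [h1, Spec.map_comp, Scheme.Opens.toSpecΓ_SpecMap_appLE_assoc, Scheme.Opens.toSpecΓ_top]
  simp

@[reassoc]
lemma toLine_lineToPt (c : C ⟶ Spec (CommRingCat.of k)) (U : C.Opens) (s : Γ(C, U)) :
    toLine c U s ≫ lineToPt k = U.ι ≫ c := by
  rw [← toSpecΓ_scal, toLine, lineToPt, Category.assoc, ← Spec.map_comp]
  congr 2
  ext x
  simp

lemma topIso_inv_eq (U : C.Opens) : U.topIso.inv = U.ι.appLE U ⊤ (by simp) := by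
  rw [Scheme.Opens.ι_appLE, Scheme.Opens.topIso_inv]
  rfl

lemma le_preimage_ι {T : Scheme.{u}} {U : C.Opens} (i : T ⟶ U.toScheme) :
    ⊤ ≤ (i ≫ U.ι) ⁻¹ᵁ U := by
  rw [Scheme.Hom.comp_preimage]; simp

lemma appLE_of_toScheme {T : Scheme.{u}} {U : C.Opens} (i : T ⟶ U.toScheme) (s : Γ(C, U)) :
    i.appTop (U.topIso.inv s) = (i ≫ U.ι).appLE U ⊤ (le_preimage_ι i) s := by
  have h1 : i.appTop (U.topIso.inv s) = (U.topIso.inv ≫ i.appTop) s := rfl
  have h2 : U.topIso.inv ≫ i.appTop = (i ≫ U.ι).appLE U ⊤ (le_preimage_ι i) := by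
    rw [topIso_inv_eq]
    have h3 : i.appTop = i.appLE ⊤ ⊤ le_top := by
      simp [Scheme.Hom.appLE]
    rw [h3, Scheme.Hom.appLE_comp_appLE]
  rw [h1, h2]

lemma toLine_appTop {T : Scheme.{u}} (c : C ⟶ Spec (CommRingCat.of k)) {U : C.Opens}
    (s : Γ(C, U)) (i : T ⟶ U.toScheme) (p : k[X]) :
    (i ≫ toLine c U s).appTop ((Scheme.ΓSpecIso (CommRingCat.of k[X])).inv p) =
      (i ≫ U.ι).appLE U ⊤ (le_preimage_ι i) (Polynomial.eval₂ (scal c U) s p) := by
  rw [← appLE_of_toScheme, Scheme.Hom.comp_appTop, toLine, Scheme.Hom.comp_appTop,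
    Scheme.Opens.toSpecΓ_appTop]
  simp only [Category.assoc, CommRingCat.comp_apply]
  congr 2
  have h1 : (Scheme.ΓSpecIso (CommRingCat.of k[X])).inv ≫
      (Spec.map (CommRingCat.ofHom (Polynomial.eval₂RingHom (scal c U) s))).appTop ≫
      (Scheme.ΓSpecIso Γ(C, U)).hom =
      CommRingCat.ofHom (Polynomial.eval₂RingHom (scal c U) s) := by
    have h := Scheme.ΓSpecIso_naturality
      (CommRingCat.ofHom (Polynomial.eval₂RingHom (scal c U) s))
    rw [Iso.inv_comp_eq]
    exact h
  exact congr($h1 p)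

lemma appLE_congr_hom {X Y : Scheme.{u}} {f g : X ⟶ Y} (h : f = g) (V : Y.Opens) (U : X.Opens)
    (e : U ≤ f ⁻¹ᵁ V) : f.appLE V U e = g.appLE V U (h ▸ e) := by
  subst h; rfl

/-- existence part of the valuative criterion for `toLine` -/
theorem existence_toLine [IsIntegral C] (hv : ∀ x : C, ValuationRing (C.presheaf.stalk x))
    (c : C ⟶ Spec (CommRingCat.of k)) [UniversallyClosed c] (h : C.functionField) :
    ValuativeCriterion.Existence (toLine c (dom h) (sec h)) := by
  rintro ⟨R, L, i₁, i₂, ⟨w⟩⟩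
  have hc : ValuativeCriterion.Existence c := by
    have : UniversallyClosed c := inferInstance
    rw [UniversallyClosed.eq_valuativeCriterion] at this
    exact this.1
  have w' : (i₁ ≫ (dom h).ι) ≫ c =
      Spec.map (CommRingCat.ofHom (algebraMap R L)) ≫ (i₂ ≫ lineToPt k) := by
    rw [Category.assoc, ← toLine_lineToPt (s := sec h), reassoc_of% w]
  let S' : ValuativeCommSq c := ⟨R, L, i₁ ≫ (dom h).ι, i₂ ≫ lineToPt k, ⟨w'⟩⟩
  obtain ⟨l, hl₁, hl₂⟩ := (hc S').exists_lift
  change Spec (CommRingCat.of R) ⟶ C at l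
  change Spec.map (CommRingCat.ofHom (algebraMap R L)) ≫ l = i₁ ≫ (dom h).ι at hl₁
  change l ≫ c = i₂ ≫ lineToPt k at hl₂
  let x₀ : Spec (CommRingCat.of R) := IsLocalRing.closedPoint R
  -- the closed point lands in the domain
  have key : l x₀ ∈ dom h := by
    by_contra hx
    have hx' : ¬ Reg h (l x₀) := hx
    have h0 : h ≠ 0 := by
      rintro rfl
      exact hx' ⟨0, map_zero _⟩
    have hinv : Reg h⁻¹ (l x₀) := by
      have := hv (l x₀)
      rcases ValuationRing.isInteger_or_isInteger (C.presheaf.stalk (l x₀)) h with h1 | h1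
      · exact absurd h1 hx'
      · exact h1
    obtain ⟨V, _, hxV, g, hg⟩ := hinv.exists_section
    have hlV : ⊤ ≤ l ⁻¹ᵁ V := by
      intro y _
      exact (IsLocalRing.specializes_closedPoint y).mem_open (l ⁻¹ᵁ V).isOpen hxV
    -- the pullback of `g` and of `h` to `Spec R`
    let g' : Γ(Spec (CommRingCat.of R), ⊤) := l.appLE V ⊤ hlV g
    let h' : Γ(Spec (CommRingCat.of R), ⊤) := i₂.appTop
      ((Scheme.ΓSpecIso (CommRingCat.of k[X])).inv Polynomial.X)
    let j := Spec.map (CommRingCat.ofHom (algebraMap R L))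
    have hj : Function.Injective j.appTop := by
      have h1 := Scheme.ΓSpecIso_naturality (CommRingCat.ofHom (algebraMap R L))
      have h2 : Function.Injective ((Scheme.ΓSpecIso (CommRingCat.of R)).hom ≫
          CommRingCat.ofHom (algebraMap R L)) := by
        exact (IsFractionRing.injective R L).comp
          (ConcreteCategory.bijective_of_isIso (Scheme.ΓSpecIso (CommRingCat.of R)).hom).1
      rw [← h1] at h2
      exact Function.Injective.of_comp h2
    have hgh : g' * h' = 1 := by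
      apply hj
      rw [map_mul, map_one]
      have e1 : j.appTop g' = (i₁ ≫ (dom h).ι).appLE V ⊤
          (by rw [← hl₁, Scheme.Hom.comp_preimage, top_le_iff.mp hlV]; exact le_top) g := by
        have h3 : j.appTop = j.appLE ⊤ ⊤ le_top := by simp [Scheme.Hom.appLE]
        have h4 : j.appTop g' = (l.appLE V ⊤ hlV ≫ j.appLE ⊤ ⊤ le_top) g := by
          rw [h3]; rfl
        rw [h4, Scheme.Hom.appLE_comp_appLE]
        exact congr($(appLE_congr_hom hl₁ V ⊤ _) g)
      have e2 : j.appTop h' = (i₁ ≫ (dom h).ι).appLE (dom h) ⊤ (le_preimage_ι i₁) (sec h) := by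
        have h3 := toLine_appTop c (sec h) i₁ Polynomial.X
        rw [Polynomial.eval₂_X, w, Scheme.Hom.comp_appTop] at h3
        exact h3
      have hW : Nonempty (V ⊓ dom h : C.Opens) :=
        nonempty_of_mem ⟨genericPoint_mem, genericPoint_mem⟩
      have hW' : ⊤ ≤ (i₁ ≫ (dom h).ι) ⁻¹ᵁ (V ⊓ dom h) := by
        intro y hy
        refine ⟨?_, le_preimage_ι i₁ hy⟩
        change (i₁ ≫ (dom h).ι) y ∈ V
        rw [← hl₁]
        exact hlV (x := j y) trivial
      have e3 : C.presheaf.map (homOfLE (inf_le_left : V ⊓ dom h ≤ V)).op g *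
          C.presheaf.map (homOfLE (inf_le_right : V ⊓ dom h ≤ dom h)).op (sec h) = 1 := by
        apply algebraMap_inj
        rw [map_mul, algebraMap_res, algebraMap_res, hg, algebraMap_sec, map_one,
          inv_mul_cancel₀ h0]
      have e4 := congrArg ((i₁ ≫ (dom h).ι).appLE (V ⊓ dom h) ⊤ hW') e3
      rw [map_mul, map_one] at e4
      rw [e1, e2, ← e4]
      congr 1
      · rw [← CommRingCat.comp_apply, Scheme.Hom.map_appLE]
      · rw [← CommRingCat.comp_apply, Scheme.Hom.map_appLE]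
    have hu : IsUnit g' := IsUnit.of_mul_eq_one _ hgh
    have hx₀ : x₀ ∈ (Spec (CommRingCat.of R)).basicOpen g' := by
      rw [Scheme.mem_basicOpen _ _ _ (by trivial)]
      exact hu.map _
    rw [Scheme.basicOpen_appLE] at hx₀
    have hx₁ : l x₀ ∈ C.basicOpen g := hx₀.2
    rw [mem_basicOpen_iff g hxV, hg, inv_inv] at hx₁
    exact hx' hx₁.2
  -- hence `l` factors through the domain
  have hrange : Set.range l ⊆ Set.range (dom h).ι := by
    rintro _ ⟨y, rfl⟩
    rw [Scheme.Opens.range_ι]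
    exact (IsLocalRing.specializes_closedPoint y).mem_open (l ⁻¹ᵁ (dom h)).isOpen key
  let l' : Spec (CommRingCat.of R) ⟶ (dom h).toScheme := IsOpenImmersion.lift (dom h).ι l hrange
  have hl' : l' ≫ (dom h).ι = l := IsOpenImmersion.lift_fac _ _ _
  refine ⟨⟨⟨l', ?_, ?_⟩⟩⟩
  · rw [← cancel_mono (dom h).ι, Category.assoc, hl']
    exact hl₁
  · -- equality of morphisms to the affine line can be checked on `Spec L`
    change l' ≫ toLine c (dom h) (sec h) = i₂
    obtain ⟨φ, hφ⟩ := Spec.map_surjective i₂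
    obtain ⟨ψ, hψ⟩ := Spec.map_surjective (l' ≫ toLine c (dom h) (sec h))
    have e1 : Spec.map (CommRingCat.ofHom (algebraMap R L)) ≫ l' = i₁ := by
      rw [← cancel_mono (dom h).ι, Category.assoc, hl']
      exact hl₁
    have e2 : Spec.map (ψ ≫ CommRingCat.ofHom (algebraMap R L)) =
        Spec.map (φ ≫ CommRingCat.ofHom (algebraMap R L)) := by
      rw [Spec.map_comp, Spec.map_comp, hφ, hψ, reassoc_of% e1, w]
    have e3 := Spec.map_injective e2
    rw [← hφ, ← hψ]
    congr 1
    refine CommRingCat.hom_ext (RingHom.ext fun x ↦ ?_)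
    apply IsFractionRing.injective R L
    exact congr($e3 x)

end Fermat.Agent.S25.Geo
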