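import Mathlib
import Fermat.Agent.S25.GeoLine

/-!
# S25 / GEO: topology of a curve, finiteness of `toLine`
-/

set_option autoImplicit false

universe u

open CategoryTheory CategoryTheory.Limits AlgebraicGeometry TopologicalSpace Opposite
open scoped Polynomial

noncomputable section

namespace Fermat.Agent.S25.Geo

variable {k : Type u} [Field k] {C : Scheme.{u}} [IsIntegral C]

/-- all rings of functions on affine opens are Dedekind -/
def AllDedekind (C : Scheme.{u}) : Prop :=
  ∀ U : C.Opens, IsAffineOpen U → Nonempty U → IsDedekindDomain Γ(C, U)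

lemma AllDedekind.valuationRing_stalk (hD : AllDedekind C) (x : C) :
    ValuationRing (C.presheaf.stalk x) := by
  obtain ⟨_, ⟨W, hW, rfl⟩, hxW, -⟩ :=
    C.isBasis_affineOpens.exists_subset_of_mem_open (Set.mem_univ x) isOpen_univ
  have hW : IsAffineOpen W := hW
  have hne : Nonempty W := ⟨⟨x, hxW⟩⟩
  have hDW := hD W hW hne
  let P := hW.primeIdealOf ⟨x, hxW⟩
  let _ : Algebra Γ(C, W) (C.presheaf.stalk x) := (C.presheaf.germ W x hxW).hom.toAlgebra
  have hloc : IsLocalization.AtPrime (C.presheaf.stalk x) P.asIdeal :=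
    hW.isLocalization_stalk ⟨x, hxW⟩
  by_cases hP : P.asIdeal = ⊥
  · have : IsFractionRing Γ(C, W) (C.presheaf.stalk x) := by
      have h2 : P.asIdeal.primeCompl = nonZeroDivisors Γ(C, W) := by
        ext y
        rw [Ideal.mem_primeCompl_iff, hP, Ideal.mem_bot, mem_nonZeroDivisors_iff_ne_zero]
      have h3 := hloc
      unfold IsLocalization.AtPrime at h3
      rw [h2] at h3
      exact h3
    let _ : Field (C.presheaf.stalk x) := IsFractionRing.toField Γ(C, W)
    exact inferInstance
  · have := IsLocalization.AtPrime.isDiscreteValuationRing_of_dedekind_domain Γ(C, W) hP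
      (C.presheaf.stalk x)
    infer_instance

lemma finite_zeroLocus {A : Type*} [CommRing A] [IsDedekindDomain A] {Z : Set (PrimeSpectrum A)}
    (hZ : IsClosed Z) (h : ⊥ ∉ Z) : Z.Finite := by
  obtain ⟨I, rfl⟩ := (PrimeSpectrum.isClosed_iff_zeroLocus_ideal Z).mp hZ
  have hI : I ≠ ⊥ := by
    rintro rfl
    apply h
    simp
  have hfin := I.finite_minimalPrimes_of_isNoetherianRing
  refine Set.Finite.of_finite_image (f := PrimeSpectrum.asIdeal) (hfin.subset ?_)
    (fun _ _ _ _ h ↦ PrimeSpectrum.ext h)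
  rintro _ ⟨P, hP, rfl⟩
  refine ⟨⟨P.isPrime, hP⟩, fun Q hQ hQP ↦ ?_⟩
  have hQ0 : Q ≠ ⊥ := by
    rintro rfl
    exact hI (le_bot_iff.mp hQ.2)
  have hQm : Q.IsMaximal := hQ.1.isMaximal hQ0
  exact (hQm.eq_of_le P.isPrime.ne_top hQP).ge

/-- proper closed subsets of a curve are finite -/
theorem AllDedekind.finite_compl (hD : AllDedekind C) [CompactSpace C] (U : C.Opens)
    [Nonempty U] : ((U : Set C)ᶜ).Finite := by
  have h1 : ∀ x : C, ∃ W : C.Opens, x ∈ W ∧ ((U : Set C)ᶜ ∩ W).Finite := by
    intro x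
    obtain ⟨_, ⟨W, hW, rfl⟩, hxW, -⟩ :=
      C.isBasis_affineOpens.exists_subset_of_mem_open (Set.mem_univ x) isOpen_univ
    have hW : IsAffineOpen W := hW
    have hne : Nonempty W := ⟨⟨x, hxW⟩⟩
    have hDW := hD W hW hne
    refine ⟨W, hxW, ?_⟩
    have h2 : (hW.fromSpec ⁻¹' (U : Set C)ᶜ).Finite := by
      have hcl : IsClosed (hW.fromSpec ⁻¹' (U : Set C)ᶜ) :=
        U.isOpen.isClosed_compl.preimage hW.fromSpec.continuous
      refine finite_zeroLocus (A := Γ(C, W)) hcl ?_
      intro hbot
      apply hbot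
      have h3 : hW.fromSpec (genericPoint (Spec Γ(C, W))) = genericPoint C :=
        genericPoint_eq_of_isOpenImmersion hW.fromSpec
      rw [genericPoint_eq_bot_of_affine] at h3
      change hW.fromSpec (⊥ : PrimeSpectrum Γ(C, W)) ∈ U
      rw [h3]
      exact genericPoint_mem
    refine (h2.image hW.fromSpec).subset ?_
    rintro y ⟨hyU, hyW⟩
    have : y ∈ Set.range hW.fromSpec := by
      rw [hW.range_fromSpec]; exact hyW
    obtain ⟨z, rfl⟩ := this
    exact ⟨z, hyU, rfl⟩
  choose W hxW hW using h1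
  obtain ⟨t, ht⟩ := isCompact_univ.elim_finite_subcover (fun x ↦ (W x : Set C))
    (fun x ↦ (W x).isOpen) (fun x _ ↦ Set.mem_iUnion.mpr ⟨x, hxW x⟩)
  refine (t.finite_toSet.biUnion (fun x _ ↦ hW x)).subset ?_
  intro y hy
  obtain ⟨x, hx⟩ := Set.mem_iUnion.mp (ht (Set.mem_univ y))
  obtain ⟨hxt, hyx⟩ := Set.mem_iUnion.mp hx
  exact Set.mem_biUnion hxt ⟨hy, hyx⟩

/-- points of a curve other than the generic point are closed -/
theorem AllDedekind.isClosed_singleton (hD : AllDedekind C) [CompactSpace C] [JacobsonSpace C]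
    {x : C} (hx : x ≠ genericPoint C) : IsClosed {x} := by
  have hη : genericPoint C ∉ closure {x} := by
    intro h
    apply hx
    have h1 : genericPoint C ⤳ x := (genericPoint_spec C).specializes trivial
    have h2 : x ⤳ genericPoint C := specializes_iff_mem_closure.mpr h
    exact (h2.antisymm h1).eq
  let U : C.Opens := ⟨(closure {x})ᶜ, isClosed_closure.isOpen_compl⟩
  have : Nonempty U := nonempty_of_mem hη
  have hfin : (closure {x} : Set C).Finite := by
    have := hD.finite_compl U
    rwa [show ((U : Set C)ᶜ) = closure {x} from compl_compl _] at this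
  apply isClosed_singleton_of_isLocallyClosed_singleton
  have h3 : IsClosed (⋃ y ∈ closure {x} \ {x}, closure {y} : Set C) :=
    (hfin.subset Set.diff_subset).isClosed_biUnion (fun y _ ↦ isClosed_closure)
  have h4 : ({x} : Set C) = closure {x} ∩ (⋃ y ∈ closure {x} \ {x}, closure {y} : Set C)ᶜ := by
    ext z
    constructor
    · rintro rfl
      refine ⟨subset_closure rfl, ?_⟩
      simp only [Set.mem_compl_iff, Set.mem_iUnion, not_exists]
      rintro y ⟨hy, hyz⟩ hz
      have h1 : z ⤳ y := specializes_iff_mem_closure.mpr hy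
      have h2 : y ⤳ z := specializes_iff_mem_closure.mpr hz
      exact hyz (h2.antisymm h1).eq
    · rintro ⟨hz, hz'⟩
      by_contra hne
      apply hz'
      simp only [Set.mem_iUnion]
      exact ⟨z, ⟨hz, hne⟩, subset_closure rfl⟩
  rw [h4]
  exact isClosed_closure.isLocallyClosed.inter h3.isOpen_compl.isLocallyClosed

omit [IsIntegral C] in
/-- values of functions at a `k`-point -/
lemma appLE_scal (c : C ⟶ Spec (CommRingCat.of k)) (U : C.Opens)
    (pt : Spec (CommRingCat.of k) ⟶ C) (hpt : pt ≫ c = 𝟙 _) (hU : ⊤ ≤ pt ⁻¹ᵁ U) (a : k) :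
    pt.appLE U ⊤ hU (scal c U a) = (Scheme.ΓSpecIso (CommRingCat.of k)).inv a := by
  have h1 : pt.appLE U ⊤ hU (scal c U a) =
      (c.appLE ⊤ U le_top ≫ pt.appLE U ⊤ hU) ((Scheme.ΓSpecIso (CommRingCat.of k)).inv a) := rfl
  rw [h1, Scheme.Hom.appLE_comp_appLE, appLE_congr_hom hpt]
  have h2 : (𝟙 (Spec (CommRingCat.of k)) : _ ⟶ _).appLE ⊤ ⊤ le_top = 𝟙 _ := by
    simp [Scheme.Hom.appLE]
  exact congr($h2 _)

omit [IsIntegral C] in
lemma exists_value [IsAlgClosed k] (c : C ⟶ Spec (CommRingCat.of k)) [LocallyOfFiniteType c]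
    {U : C.Opens} (s : Γ(C, U)) {x : C} (hx : IsClosed {x}) (hxU : x ∈ U) :
    ∃ a : k, x ∉ C.basicOpen (s - scal c U a) := by
  let pt := pointOfClosedPoint c x hx
  have hptx : ∀ y, pt y = x := fun y ↦ pointOfClosedPoint_apply c x hx y
  have hU : ⊤ ≤ pt ⁻¹ᵁ U := by
    intro y _
    change pt y ∈ U
    rw [hptx]
    exact hxU
  let a : k := (Scheme.ΓSpecIso (CommRingCat.of k)).hom (pt.appLE U ⊤ hU s)
  refine ⟨a, fun hmem ↦ ?_⟩
  have h1 : pt.appLE U ⊤ hU (s - scal c U a) = 0 := by
    rw [map_sub, appLE_scal c U pt (pointOfClosedPoint_comp c x hx) hU, sub_eq_zero]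
    exact ((Scheme.ΓSpecIso (CommRingCat.of k)).hom_inv_id_apply _).symm
  have h2 := Scheme.basicOpen_appLE pt ⊤ U hU (s - scal c U a)
  rw [h1, Scheme.basicOpen_zero] at h2
  have h3 : (IsLocalRing.closedPoint k : Spec (CommRingCat.of k)) ∈
      (⊥ : (Spec (CommRingCat.of k)).Opens) := by
    rw [h2]
    refine ⟨trivial, ?_⟩
    change pt (IsLocalRing.closedPoint k) ∈ C.basicOpen (s - scal c U a)
    rw [hptx]
    exact hmem
  exact h3

omit [IsIntegral C] in
lemma mem_toLine_asIdeal (c : C ⟶ Spec (CommRingCat.of k)) {U : C.Opens} (s : Γ(C, U))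
    (x : U.toScheme) (p : k[X]) : p ∈ (toLine c U s x : PrimeSpectrum k[X]).asIdeal ↔
      x.1 ∉ C.basicOpen (Polynomial.eval₂ (scal c U) s p) := by
  have h1 := Scheme.Opens.toSpecΓ_preimage_basicOpen U (Polynomial.eval₂ (scal c U) s p)
  have h2 : x.1 ∈ C.basicOpen (Polynomial.eval₂ (scal c U) s p) ↔
      x ∈ U.toSpecΓ ⁻¹ᵁ PrimeSpectrum.basicOpen (Polynomial.eval₂ (scal c U) s p) := by
    rw [h1]; rfl
  rw [h2]
  exact not_not.symm

variable [IsAlgClosed k] (c : C ⟶ Spec (CommRingCat.of k)) [IsProper c]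

/-- the fibres of a nonconstant function on a curve are finite -/
theorem finite_fiber_toLine (hD : AllDedekind C) {U : C.Opens} [Nonempty U] (s : Γ(C, U))
    (ht : Function.Injective (Polynomial.eval₂RingHom (scal c U) s))
    (t : Spec (CommRingCat.of k[X])) : ((toLine c U s) ⁻¹' {t}).Finite := by
  have : CompactSpace C := QuasiCompact.compactSpace_of_compactSpace c
  have : JacobsonSpace C := LocallyOfFiniteType.jacobsonSpace c
  refine Set.Finite.of_finite_image (f := Subtype.val) ?_ (Subtype.val_injective.injOn)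
  by_cases h0 : (t : PrimeSpectrum k[X]).asIdeal = ⊥
  · refine (Set.finite_singleton (genericPoint C)).subset ?_
    rintro _ ⟨x, hx, rfl⟩
    by_contra hne
    obtain ⟨a, ha⟩ := exists_value c s (hD.isClosed_singleton (x := x.1) hne) x.2
    have h1 : (Polynomial.X - Polynomial.C a : k[X]) ∈
        (toLine c U s x : PrimeSpectrum k[X]).asIdeal := by
      rw [mem_toLine_asIdeal]
      simpa using ha
    have hx' : toLine c U s x = t := hx
    rw [hx', h0, Ideal.mem_bot] at h1
    exact Polynomial.X_sub_C_ne_zero a h1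
  · obtain ⟨p, hp, hp0⟩ := Submodule.exists_mem_ne_zero_of_ne_bot h0
    have hq : Polynomial.eval₂ (scal c U) s p ≠ 0 := by
      intro h
      apply hp0
      apply ht
      rw [map_zero]
      exact h
    have hne : Nonempty (C.basicOpen (Polynomial.eval₂ (scal c U) s p)) := by
      by_contra hemp
      apply hq
      have : C.basicOpen (Polynomial.eval₂ (scal c U) s p) = ⊥ := by
        ext x
        simp only [Opens.coe_bot, Set.mem_empty_iff_false, iff_false]
        exact fun hx ↦ hemp ⟨⟨x, hx⟩⟩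
      exact (basicOpen_eq_bot_iff _).mp this
    refine (hD.finite_compl (C.basicOpen (Polynomial.eval₂ (scal c U) s p))).subset ?_
    rintro _ ⟨x, hx, rfl⟩
    have hx' : toLine c U s x = t := hx
    rw [← hx', mem_toLine_asIdeal] at hp
    exact hp

/-- The morphism to the affine line given by a nonconstant rational function is finite on the
domain of definition of the function. -/
theorem isFinite_toLine (hD : AllDedekind C) (h : C.functionField)
    (ht : Function.Injective (Polynomial.eval₂RingHom (scal c (dom h)) (sec h))) :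
    IsFinite (toLine c (dom h) (sec h)) := by
  have hN : IsLocallyNoetherian C := LocallyOfFiniteType.isLocallyNoetherian c
  have : CompactSpace C := QuasiCompact.compactSpace_of_compactSpace c
  have : CompactSpace (dom h).toScheme :=
    QuasiCompact.compactSpace_of_compactSpace (dom h).ι
  have hlft : LocallyOfFiniteType (toLine c (dom h) (sec h) ≫ lineToPt k) := by
    rw [toLine_lineToPt]; infer_instance
  have hsep : IsSeparated (toLine c (dom h) (sec h) ≫ lineToPt k) := by
    rw [toLine_lineToPt]; infer_instance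
  have h1 : LocallyOfFiniteType (toLine c (dom h) (sec h)) :=
    locallyOfFiniteType_of_comp _ (lineToPt k)
  have h2 : IsSeparated (toLine c (dom h) (sec h)) := IsSeparated.of_comp _ (lineToPt k)
  have h3 : QuasiCompact (toLine c (dom h) (sec h)) := inferInstance
  have h4 : UniversallyClosed (toLine c (dom h) (sec h)) :=
    UniversallyClosed.of_valuativeCriterion _
      (existence_toLine (fun x ↦ hD.valuationRing_stalk x) c h)
  have h5 : IsProper (toLine c (dom h) (sec h)) := ⟨⟩
  have h6 : LocallyQuasiFinite (toLine c (dom h) (sec h)) :=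
    LocallyQuasiFinite.of_finite_preimage_singleton _ (finite_fiber_toLine c hD _ ht)
  exact IsFinite.of_isProper_of_locallyQuasiFinite _

theorem isAffineOpen_dom (hD : AllDedekind C) (h : C.functionField)
    (ht : Function.Injective (Polynomial.eval₂RingHom (scal c (dom h)) (sec h))) :
    IsAffineOpen (dom h) := by
  have := isFinite_toLine c hD h ht
  exact isAffine_of_isAffineHom (toLine c (dom h) (sec h))

theorem finite_eval₂ (hD : AllDedekind C) (h : C.functionField)
    (ht : Function.Injective (Polynomial.eval₂RingHom (scal c (dom h)) (sec h))) :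
    (Polynomial.eval₂RingHom (scal c (dom h)) (sec h)).Finite := by
  have h1 := isFinite_toLine c hD h ht
  have hU := isAffineOpen_dom c hD h ht
  have h2 : toLine c (dom h) (sec h) = hU.isoSpec.hom ≫
      Spec.map (CommRingCat.ofHom (Polynomial.eval₂RingHom (scal c (dom h)) (sec h))) := rfl
  rw [h2, MorphismProperty.cancel_left_of_respectsIso @IsFinite, IsFinite.SpecMap_iff] at h1
  exact h1

end Fermat.Agent.S25.Geo
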