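import Mathlib
import Fermat.Agent.S25.GeoFin

/-!
# S25 / GEO: the two charts attached to a nonconstant rational function
-/

set_option autoImplicit false

universe u

open CategoryTheory CategoryTheory.Limits AlgebraicGeometry TopologicalSpace Opposite
open scoped Polynomial TensorProduct

noncomputable section

namespace Fermat.Agent.S25.Geo

variable {k : Type u} [Field k] {C : Scheme.{u}}

/-- the `k`-algebra of functions on `U` -/
@[reducible] def algU (c : C ⟶ Spec (CommRingCat.of k)) (U : C.Opens) : Algebra k Γ(C, U) :=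
  (scal c U).toAlgebra

/-- Output of GEO-a: functions on affine opens form geometrically Dedekind rings. -/
def GeoDed (c : C ⟶ Spec (CommRingCat.of k)) : Prop :=
  ∀ U : C.Opens, IsAffineOpen U → Nonempty U → ∀ (K : Type u) [Field K] [Algebra k K],
    letI := algU c U
    IsDedekindDomain (K ⊗[k] Γ(C, U))

lemma scal_res (c : C ⟶ Spec (CommRingCat.of k)) {U V : C.Opens} (i : V ≤ U) (a : k) :
    C.presheaf.map (homOfLE i).op (scal c U a) = scal c V a := by
  have h1 : C.presheaf.map (homOfLE i).op (scal c U a) =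
      (c.appLE ⊤ U le_top ≫ C.presheaf.map (homOfLE i).op)
        ((Scheme.ΓSpecIso (CommRingCat.of k)).inv a) := rfl
  rw [h1, Scheme.Hom.appLE_map]
  rfl

lemma isDedekindDomain_of_ringEquiv {A B : Type*} [CommRing A] [CommRing B] (e : A ≃+* B)
    [IsDedekindDomain A] : IsDedekindDomain B := by
  have : IsDomain B := MulEquiv.isDomain A e.symm.toMulEquiv
  have : IsNoetherianRing B := isNoetherianRing_of_ringEquiv A e
  have : Ring.DimensionLEOne B := by
    refine ⟨fun {p} hp hp' ↦ ?_⟩
    have h0 : (p.comap e).IsPrime := inferInstance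
    have h1 : (p.comap e).IsMaximal := by
      refine h0.isMaximal ?_
      intro h
      apply hp
      rw [eq_bot_iff]
      intro x hx
      obtain ⟨y, rfl⟩ := e.surjective x
      have : y ∈ p.comap e := hx
      rw [h, Ideal.mem_bot] at this
      rw [this, map_zero]
      exact Ideal.zero_mem _
    have h2 : ((p.comap e).comap e.symm).IsMaximal := Ideal.comap_isMaximal_of_equiv e.symm
    have h3 : (p.comap e).comap e.symm = p := by
      ext x
      rw [Ideal.mem_comap, Ideal.mem_comap, e.apply_symm_apply]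
    rwa [h3] at h2
  have : IsIntegrallyClosed B := IsIntegrallyClosed.of_equiv e
  exact { }

lemma GeoDed.allDedekind {c : C ⟶ Spec (CommRingCat.of k)} (h : GeoDed c) : AllDedekind C := by
  intro U hU hne
  let _ := algU c U
  have := h U hU hne k
  exact isDedekindDomain_of_ringEquiv (Algebra.TensorProduct.lid k Γ(C, U)).toRingEquiv

variable [IsIntegral C]

instance nonempty_top : Nonempty (⊤ : C.Opens) := ⟨⟨genericPoint C, trivial⟩⟩

/-- scalars in the function field -/
def scalF (c : C ⟶ Spec (CommRingCat.of k)) : k →+* C.functionField :=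
  (algebraMap Γ(C, (⊤ : C.Opens)) C.functionField).comp (scal c ⊤)

lemma algebraMap_scal (c : C ⟶ Spec (CommRingCat.of k)) {U : C.Opens} [Nonempty U] (a : k) :
    algebraMap Γ(C, U) C.functionField (scal c U a) = scalF c a := by
  rw [← scal_res c (le_top : U ≤ ⊤), algebraMap_res]
  rfl

lemma algebraMap_eval₂ (c : C ⟶ Spec (CommRingCat.of k)) {U : C.Opens} [Nonempty U]
    (s : Γ(C, U)) (p : k[X]) :
    algebraMap Γ(C, U) C.functionField (Polynomial.eval₂ (scal c U) s p) =
      Polynomial.eval₂ (scalF c) (algebraMap Γ(C, U) C.functionField s) p := by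
  rw [Polynomial.hom_eval₂]
  congr 1
  ext a
  exact algebraMap_scal c a

/-- `h` is transcendental over `k` -/
def Transc (c : C ⟶ Spec (CommRingCat.of k)) (h : C.functionField) : Prop :=
  ∀ p : k[X], Polynomial.eval₂ (scalF c) h p = 0 → p = 0

lemma Transc.injective {c : C ⟶ Spec (CommRingCat.of k)} {h : C.functionField}
    (ht : Transc c h) {U : C.Opens} [Nonempty U] (s : Γ(C, U))
    (hs : algebraMap Γ(C, U) C.functionField s = h) :
    Function.Injective (Polynomial.eval₂RingHom (scal c U) s) := by
  rw [injective_iff_map_eq_zero]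
  intro p hp
  apply ht
  rw [← hs, ← algebraMap_eval₂]
  have : Polynomial.eval₂ (scal c U) s p = 0 := hp
  rw [this, map_zero]

lemma reg_scalF (c : C ⟶ Spec (CommRingCat.of k)) (a : k) (x : C) : Reg (scalF c a) x :=
  reg_section (U := ⊤) (scal c ⊤ a) trivial

lemma mem_range_or_transc [IsAlgClosed k] (c : C ⟶ Spec (CommRingCat.of k))
    (h : C.functionField) : (∃ a, h = scalF c a) ∨ Transc c h := by
  by_cases ht : Transc c h
  · exact Or.inr ht
  · left
    unfold Transc at ht
    push Not at ht
    obtain ⟨p, hp, hp0⟩ := ht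
    have hs : p.Splits := IsAlgClosed.splits p
    rw [hs.eq_prod_roots, Polynomial.eval₂_mul, mul_eq_zero] at hp
    rcases hp with hp | hp
    · rw [Polynomial.eval₂_C] at hp
      exact absurd ((map_eq_zero (scalF c)).mp hp) (Polynomial.leadingCoeff_ne_zero.mpr hp0)
    · rw [Polynomial.eval₂_multiset_prod, Multiset.prod_eq_zero_iff] at hp
      simp only [Multiset.mem_map] at hp
      obtain ⟨_, ⟨a, _, rfl⟩, ha⟩ := hp
      refine ⟨a, ?_⟩
      rw [Polynomial.eval₂_sub, Polynomial.eval₂_X, Polynomial.eval₂_C, sub_eq_zero] at ha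
      exact ha

lemma transc_of_not_reg [IsAlgClosed k] (c : C ⟶ Spec (CommRingCat.of k))
    {h : C.functionField} {x : C} (hx : ¬ Reg h x) : Transc c h := by
  rcases mem_range_or_transc c h with ⟨a, rfl⟩ | ht
  · exact absurd (reg_scalF c a x) hx
  · exact ht

lemma Transc.ne_zero {c : C ⟶ Spec (CommRingCat.of k)} {h : C.functionField}
    (ht : Transc c h) : h ≠ 0 := by
  rintro rfl
  have := ht Polynomial.X (by simp)
  exact Polynomial.X_ne_zero this

lemma Transc.inv [IsAlgClosed k] {c : C ⟶ Spec (CommRingCat.of k)} {h : C.functionField}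
    (ht : Transc c h) : Transc c h⁻¹ := by
  rcases mem_range_or_transc c h⁻¹ with ⟨a, ha⟩ | ht'
  · exfalso
    have h1 : h = scalF c a⁻¹ := by rw [map_inv₀, ← ha, inv_inv]
    have h2 := ht (Polynomial.X - Polynomial.C a⁻¹) (by simp [h1])
    exact Polynomial.X_sub_C_ne_zero _ h2
  · exact ht'

/-- the restriction as a `k`-algebra map -/
def resAlg (c : C ⟶ Spec (CommRingCat.of k)) {U V : C.Opens} (i : V ≤ U) :
    letI := algU c U
    letI := algU c V
    Γ(C, U) →ₐ[k] Γ(C, V) :=
  letI := algU c U
  letI := algU c V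
  { (C.presheaf.map (homOfLE i).op).hom with commutes' := fun a ↦ scal_res c i a }

lemma inf_eq_basicOpen {h : C.functionField} (h0 : h ≠ 0) :
    dom h ⊓ dom h⁻¹ = C.basicOpen (sec h) := by
  ext x
  constructor
  · rintro ⟨hx, hx'⟩
    change x ∈ C.basicOpen (sec h)
    rw [mem_basicOpen_iff (sec h) hx, algebraMap_sec]
    exact ⟨h0, hx'⟩
  · intro hx
    have hx0 : x ∈ dom h := C.basicOpen_le _ hx
    have hx1 : x ∈ C.basicOpen (sec h) := hx
    rw [mem_basicOpen_iff (sec h) hx0, algebraMap_sec] at hx1
    exact ⟨hx0, hx1.2⟩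

lemma inf_eq_basicOpen' {h : C.functionField} (h0 : h ≠ 0) :
    dom h ⊓ dom h⁻¹ = C.basicOpen (sec h⁻¹) := by
  rw [← inf_eq_basicOpen (inv_ne_zero h0), inv_inv, inf_comm]

omit [IsIntegral C] in
lemma aeval_eq_eval₂ (c : C ⟶ Spec (CommRingCat.of k)) {U : C.Opens} (s : Γ(C, U)) :
    letI := algU c U
    (Polynomial.aeval s : k[X] →ₐ[k] Γ(C, U)).toRingHom =
      Polynomial.eval₂RingHom (scal c U) s := by
  let _ := algU c U
  ext x
  · simp; rfl
  · simp

variable [IsAlgClosed k]

/-- the two charts given by a nonconstant rational function -/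
def chart (c : C ⟶ Spec (CommRingCat.of k)) [IsProper c] (hG : GeoDed c)
    (h : C.functionField) (ht : Transc c h) : TwoChart k :=
  letI := algU c (dom h)
  letI := algU c (dom h⁻¹)
  letI := algU c (dom h ⊓ dom h⁻¹)
  { A0 := Γ(C, dom h)
    A1 := Γ(C, dom h⁻¹)
    A01 := Γ(C, dom h ⊓ dom h⁻¹)
    ρ0 := resAlg c inf_le_left
    ρ1 := resAlg c inf_le_right
    f0 := sec h
    f1 := sec h⁻¹
    mul_eq_one := by
      have : Nonempty (dom h ⊓ dom h⁻¹ : C.Opens) :=
        nonempty_of_mem ⟨genericPoint_mem, genericPoint_mem⟩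
      apply algebraMap_inj
      change algebraMap _ _ (C.presheaf.map (homOfLE _).op (sec h) *
        C.presheaf.map (homOfLE _).op (sec h⁻¹)) = _
      rw [map_mul, algebraMap_res, algebraMap_res, algebraMap_sec, algebraMap_sec, map_one,
        mul_inv_cancel₀ ht.ne_zero]
    loc0 := (isAffineOpen_dom c hG.allDedekind h
      (ht.injective _ (algebraMap_sec h))).isLocalization_of_eq_basicOpen _ _
        (inf_eq_basicOpen ht.ne_zero)
    loc1 := (isAffineOpen_dom c hG.allDedekind h⁻¹
      (ht.inv.injective _ (algebraMap_sec h⁻¹))).isLocalization_of_eq_basicOpen _ _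
        (inf_eq_basicOpen' ht.ne_zero)
    fin0 := by
      rw [aeval_eq_eval₂]
      exact finite_eval₂ c hG.allDedekind h (ht.injective _ (algebraMap_sec h))
    fin1 := by
      rw [aeval_eq_eval₂]
      exact finite_eval₂ c hG.allDedekind h⁻¹ (ht.inv.injective _ (algebraMap_sec h⁻¹))
    inj0 := by
      have h1 := ht.injective _ (algebraMap_sec h)
      rw [← aeval_eq_eval₂] at h1
      exact h1
    inj1 := by
      have h1 := ht.inv.injective _ (algebraMap_sec h⁻¹)
      rw [← aeval_eq_eval₂] at h1
      exact h1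
    dom := by
      intro K _ _
      have hne : Nonempty (dom h ⊓ dom h⁻¹ : C.Opens) :=
        nonempty_of_mem ⟨genericPoint_mem, genericPoint_mem⟩
      have haff : IsAffineOpen (dom h ⊓ dom h⁻¹ : C.Opens) := by
        rw [inf_eq_basicOpen ht.ne_zero]
        exact (isAffineOpen_dom c hG.allDedekind h
          (ht.injective _ (algebraMap_sec h))).basicOpen _
      exact (hG _ haff hne K).toIsDomain
    ded0 := by
      intro K _ _
      exact hG _ (isAffineOpen_dom c hG.allDedekind h
        (ht.injective _ (algebraMap_sec h))) inferInstance K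
    ded1 := by
      intro K _ _
      exact hG _ (isAffineOpen_dom c hG.allDedekind h⁻¹
        (ht.inv.injective _ (algebraMap_sec h⁻¹))) inferInstance K }

end Fermat.Agent.S25.Geo
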