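import Mathlib
import Fermat.Agent.S25.GeoChart
import Fermat.Agent.S25.AlgCoh

/-!
# S25 / GEO: a rational function with a single pole
-/

set_option autoImplicit false

universe u

open CategoryTheory CategoryTheory.Limits AlgebraicGeometry TopologicalSpace Opposite
open scoped Polynomial TensorProduct nonZeroDivisors

noncomputable section

namespace Fermat.Agent.S25.Geo

/-! ### algebra -/

section alg

variable {k : Type u} [Field k] (𝒞 : TwoChart k)

/-- the map `p ↦ [X p (y)]` to `H¹(O)` -/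
def polyToH1 (y : 𝒞.A01) : k[X] →ₗ[k] (LB.triv 𝒞 k).H1 :=
  (LinearMap.range (LB.triv 𝒞 k).diff).mkQ ∘ₗ
    ({ toFun := fun p ↦ ((1 : k) ⊗ₜ[k] Polynomial.aeval y (Polynomial.X * p) : k ⊗[k] 𝒞.A01)
       map_add' := fun p q ↦ by rw [mul_add, map_add, TensorProduct.tmul_add]; rfl
       map_smul' := fun a p ↦ by
        rw [mul_smul_comm, map_smul, TensorProduct.tmul_smul]
        change _ = (algebraMap k (k ⊗[k] 𝒞.A01) a) * _
        rw [← Algebra.smul_def] } : k[X] →ₗ[k] (LB.triv 𝒞 k).M01)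

lemma exists_poly_split (y : 𝒞.A01) : ∃ p : k[X], 1 ≤ p.natDegree ∧
    ∃ a0 a1, Polynomial.aeval y p = 𝒞.ρ0 a0 - 𝒞.ρ1 a1 := by
  have hinj : ¬ Function.Injective (polyToH1 𝒞 y) := by
    intro h
    exact Polynomial.not_finite (Module.Finite.of_injective (polyToH1 𝒞 y) h)
  rw [injective_iff_map_eq_zero] at hinj
  push Not at hinj
  obtain ⟨p, hp, hp0⟩ := hinj
  refine ⟨Polynomial.X * p, ?_, ?_⟩
  · rw [Polynomial.natDegree_X_mul hp0]
    omega
  have h1 := (Submodule.Quotient.mk_eq_zero (LinearMap.range (LB.triv 𝒞 k).diff)).mp hp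
  obtain ⟨⟨z0, z1⟩, hz⟩ := h1
  rw [LB.diff_apply] at hz
  change 𝒞.ρ0B k z0 - 𝒞.ρ1B k z1 =
    ((1 : k) ⊗ₜ[k] Polynomial.aeval y (Polynomial.X * p) : k ⊗[k] 𝒞.A01) at hz
  refine ⟨Algebra.TensorProduct.lid k 𝒞.A0 z0, Algebra.TensorProduct.lid k 𝒞.A1 z1, ?_⟩
  have e0 : ∀ z : k ⊗[k] 𝒞.A0, 𝒞.ρ0 (Algebra.TensorProduct.lid k 𝒞.A0 z) =
      Algebra.TensorProduct.lid k 𝒞.A01 (𝒞.ρ0B k z) := by
    intro z
    induction z using TensorProduct.induction_on with
    | zero => simp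
    | add x y hx hy => simp only [map_add, hx, hy]
    | tmul b a => simp [TwoChart.ρ0B]
  have e1 : ∀ z : k ⊗[k] 𝒞.A1, 𝒞.ρ1 (Algebra.TensorProduct.lid k 𝒞.A1 z) =
      Algebra.TensorProduct.lid k 𝒞.A01 (𝒞.ρ1B k z) := by
    intro z
    induction z using TensorProduct.induction_on with
    | zero => simp
    | add x y hx hy => simp only [map_add, hx, hy]
    | tmul b a => simp [TwoChart.ρ1B]
  have h2 := congrArg (Algebra.TensorProduct.lid k 𝒞.A01) hz
  rw [Algebra.TensorProduct.lid_tmul, one_smul] at h2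
  rw [e0, e1, ← map_sub]
  exact h2.symm

end alg

variable {k : Type u} [Field k] {C : Scheme.{u}} [IsIntegral C]

omit [IsIntegral C] in
lemma mem_primeIdealOf {U : C.Opens} (hU : IsAffineOpen U) {x : C} (hx : x ∈ U) (a : Γ(C, U)) :
    a ∈ (hU.primeIdealOf ⟨x, hx⟩).asIdeal ↔ x ∉ C.basicOpen a := by
  have h1 := hU.fromSpec_preimage_basicOpen a
  have h2 := hU.fromSpec_primeIdealOf ⟨x, hx⟩
  have h3 : x ∈ C.basicOpen a ↔ hU.primeIdealOf ⟨x, hx⟩ ∈ PrimeSpectrum.basicOpen a := by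
    rw [← h1]
    change _ ↔ hU.fromSpec (hU.primeIdealOf ⟨x, hx⟩) ∈ C.basicOpen a
    rw [h2]
  rw [h3]
  exact not_not.symm

lemma Reg.of_eval₂ (hD : AllDedekind C) (c : C ⟶ Spec (CommRingCat.of k))
    {y : C.functionField} {x : C} {p : k[X]} (hp : 1 ≤ p.natDegree)
    (h : Reg (Polynomial.eval₂ (scalF c) y p) x) : Reg y x := by
  have := hD.valuationRing_stalk x
  let κ : k →+* C.presheaf.stalk x := (C.presheaf.germ ⊤ x trivial).hom.comp (scal c ⊤)
  have hκ : ∀ a, algebraMap (C.presheaf.stalk x) C.functionField (κ a) = scalF c a :=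
    fun a ↦ algebraMap_germ (U := ⊤) trivial (scal c ⊤ a)
  obtain ⟨t, ht⟩ := h
  have hinj : Function.Injective κ := κ.injective
  have hdeg : (Polynomial.C t).degree < (p.map κ).degree := by
    refine Polynomial.degree_C_le.trans_lt ?_
    rw [Polynomial.degree_map_eq_of_injective hinj]
    exact Polynomial.natDegree_pos_iff_degree_pos.mp hp
  have hlc : (p.map κ - Polynomial.C t).leadingCoeff = κ p.leadingCoeff := by
    rw [Polynomial.leadingCoeff_sub_of_degree_lt hdeg,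
      Polynomial.leadingCoeff_map_of_injective hinj]
  have hroot : Polynomial.aeval y (p.map κ - Polynomial.C t) = 0 := by
    rw [map_sub, Polynomial.aeval_C, Polynomial.aeval_def, Polynomial.eval₂_map, ht, sub_eq_zero]
    congr 1
    ext a
    exact hκ a
  have hint := isIntegral_leadingCoeff_smul _ _ hroot
  rw [hlc] at hint
  have hlc0 : p.leadingCoeff ≠ 0 := by
    intro h0
    rw [Polynomial.leadingCoeff_eq_zero] at h0
    rw [h0] at hp
    simp at hp
  have hint2 : IsIntegral (C.presheaf.stalk x) y := by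
    have h1 := hint.smul (κ p.leadingCoeff⁻¹)
    rwa [smul_smul, ← map_mul, inv_mul_cancel₀ hlc0, map_one, one_smul] at h1
  exact IsIntegrallyClosed.algebraMap_eq_of_integral hint2

lemma exists_not_reg [IsAlgClosed k] (c : C ⟶ Spec (CommRingCat.of k)) [LocallyOfFiniteType c]
    (hns : ¬ Function.Surjective (scalF c)) {x : C} (hx : IsClosed {x}) :
    ∃ h : C.functionField, ¬ Reg h x := by
  by_contra hcon
  push Not at hcon
  apply hns
  intro h
  obtain ⟨U, _, hxU, s, hs⟩ := (hcon h).exists_section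
  obtain ⟨a, ha⟩ := exists_value c s hx hxU
  refine ⟨a, ?_⟩
  by_contra hne
  apply ha
  rw [mem_basicOpen_iff _ hxU, map_sub, hs, algebraMap_scal]
  exact ⟨sub_ne_zero.mpr (Ne.symm hne), hcon _⟩

/-- a function on `U ∖ {x₀}` with a pole at `x₀` -/
lemma exists_local_pole (hD : AllDedekind C) {U : C.Opens} (hU : IsAffineOpen U) {x₀ : C}
    (hx₀ : x₀ ∈ U) (hn : ∃ h : C.functionField, ¬ Reg h x₀) :
    ∃ y : C.functionField, (∀ x ∈ U, x ≠ x₀ → Reg y x) ∧ ¬ Reg y x₀ := by
  have hne : Nonempty U := ⟨⟨x₀, hx₀⟩⟩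
  have := hD U hU hne
  have := hD.valuationRing_stalk x₀
  have := functionField_isFractionRing_of_isAffineOpen C U hU
  set P := (hU.primeIdealOf ⟨x₀, hx₀⟩).asIdeal with hP
  have hPp : P.IsPrime := (hU.primeIdealOf ⟨x₀, hx₀⟩).isPrime
  have hP0 : P ≠ ⊥ := by
    intro h0
    obtain ⟨h, hh⟩ := hn
    apply hh
    obtain ⟨a, b, hb, rfl⟩ := IsFractionRing.div_surjective (A := Γ(C, U)) h
    have hb0 : b ≠ 0 := nonZeroDivisors.ne_zero hb
    have hbP : b ∉ P := by rw [h0, Ideal.mem_bot]; exact hb0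
    rw [hP, mem_primeIdealOf, not_not, mem_basicOpen_iff _ hx₀] at hbP
    rw [div_eq_mul_inv]
    exact (reg_section a hx₀).mul hbP.2
  have hPm : P.IsMaximal := hPp.isMaximal hP0
  obtain ⟨y, hy, hy1⟩ := FractionalIdeal.exists_notMem_one_of_ne_bot (K := C.functionField)
    hP0 hPp.ne_top
  have hy' : ∀ a ∈ P, ∃ b : Γ(C, U), y * algebraMap Γ(C, U) C.functionField a =
      algebraMap Γ(C, U) C.functionField b := by
    intro a ha
    rw [FractionalIdeal.mem_inv_iff (by simpa using hP0)] at hy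
    obtain ⟨b, hb⟩ := (FractionalIdeal.mem_one_iff _).mp
      (hy (algebraMap _ _ a) (FractionalIdeal.mem_coeIdeal_of_mem _ ha))
    exact ⟨b, hb.symm⟩
  have hreg : ∀ x ∈ U, x ≠ x₀ → Reg y x := by
    intro x hx hne'
    have h1 : ∃ a ∈ P, a ∉ (hU.primeIdealOf ⟨x, hx⟩).asIdeal := by
      by_contra hcon
      push Not at hcon
      have h2 : P = (hU.primeIdealOf ⟨x, hx⟩).asIdeal :=
        hPm.eq_of_le (hU.primeIdealOf ⟨x, hx⟩).isPrime.ne_top hcon
      have h3 : hU.primeIdealOf ⟨x₀, hx₀⟩ = hU.primeIdealOf ⟨x, hx⟩ := PrimeSpectrum.ext h2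
      have h4 := hU.fromSpec_primeIdealOf ⟨x₀, hx₀⟩
      have h5 := hU.fromSpec_primeIdealOf ⟨x, hx⟩
      rw [h3, h5] at h4
      exact hne' h4
    obtain ⟨a, haP, hax⟩ := h1
    rw [mem_primeIdealOf, not_not, mem_basicOpen_iff _ hx] at hax
    obtain ⟨b, hb⟩ := hy' a haP
    have : y = algebraMap Γ(C, U) C.functionField b *
        (algebraMap Γ(C, U) C.functionField a)⁻¹ := by
      rw [← hb, mul_assoc, mul_inv_cancel₀ hax.1, mul_one]
    rw [this]
    exact (reg_section b hx).mul hax.2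
  refine ⟨y, hreg, fun h ↦ hy1 ?_⟩
  obtain ⟨s, hs⟩ := exists_section U y (fun x hx ↦ by
    by_cases hxx : x = x₀
    · rw [hxx]; exact h
    · exact hreg x hx hxx)
  exact (FractionalIdeal.mem_one_iff _).mpr ⟨s, hs⟩

lemma reg_or_reg_inv (hD : AllDedekind C) (h : C.functionField) (x : C) :
    Reg h x ∨ Reg h⁻¹ x := by
  have := hD.valuationRing_stalk x
  exact ValuationRing.isInteger_or_isInteger (C.presheaf.stalk x) h

/-- There is a rational function whose only pole is at `x₀`. -/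
theorem exists_single_pole [IsAlgClosed k] (c : C ⟶ Spec (CommRingCat.of k)) [IsProper c]
    (hG : GeoDed c) (hns : ¬ Function.Surjective (scalF c)) {x₀ : C} (hx₀ : IsClosed {x₀}) :
    ∃ f : C.functionField, ∀ x, Reg f x ↔ x ≠ x₀ := by
  have hD := hG.allDedekind
  obtain ⟨h, hh⟩ := exists_not_reg c hns hx₀
  have ht : Transc c h := transc_of_not_reg c hh
  have hU1 : IsAffineOpen (dom h⁻¹) :=
    isAffineOpen_dom c hD h⁻¹ (ht.inv.injective _ (algebraMap_sec h⁻¹))
  have hx1 : x₀ ∈ dom h⁻¹ := (reg_or_reg_inv hD h x₀).resolve_left hh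
  obtain ⟨y, hy, hy0⟩ := exists_local_pole hD hU1 hx1 ⟨h, hh⟩
  have hV : Nonempty (dom h ⊓ dom h⁻¹ : C.Opens) :=
    nonempty_of_mem ⟨genericPoint_mem, genericPoint_mem⟩
  obtain ⟨y', hy'⟩ := exists_section (dom h ⊓ dom h⁻¹) y (by
    rintro x ⟨hx0, hx1⟩
    refine hy x hx1 ?_
    rintro rfl
    exact hh hx0)
  obtain ⟨p, hp, a0, a1, hpa⟩ := exists_poly_split (chart c hG h ht) y'
  let a0' : Γ(C, dom h) := a0
  let a1' : Γ(C, dom h⁻¹) := a1
  have key : Polynomial.eval₂ (scalF c) y p =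
      algebraMap Γ(C, dom h) C.functionField a0' -
        algebraMap Γ(C, dom h⁻¹) C.functionField a1' := by
    rw [← hy', ← algebraMap_eval₂, ← algebraMap_res (inf_le_left : dom h ⊓ dom h⁻¹ ≤ dom h) a0',
      ← algebraMap_res (inf_le_right : dom h ⊓ dom h⁻¹ ≤ dom h⁻¹) a1', ← map_sub]
    congr 1
  refine ⟨algebraMap Γ(C, dom h) C.functionField a0', fun x ↦ ⟨?_, ?_⟩⟩
  · rintro hx rfl
    apply hy0
    refine Reg.of_eval₂ hD c hp ?_
    rw [key]
    exact hx.sub (reg_section a1' hx1)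
  · intro hx
    by_cases hx0 : x ∈ dom h
    · exact reg_section a0' hx0
    · have hx1 : x ∈ dom h⁻¹ := (reg_or_reg_inv hD h x).resolve_left hx0
      have h1 : algebraMap Γ(C, dom h) C.functionField a0' =
          Polynomial.eval₂ (scalF c) y p + algebraMap Γ(C, dom h⁻¹) C.functionField a1' := by
        rw [key]; ring
      rw [h1]
      refine Reg.add ?_ (reg_section a1' hx1)
      obtain ⟨t, ht'⟩ := hy x hx1 hx
      rw [← ht']
      let κ : k →+* C.presheaf.stalk x := (C.presheaf.germ ⊤ x trivial).hom.comp (scal c ⊤)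
      have hκ : ∀ a, algebraMap (C.presheaf.stalk x) C.functionField (κ a) = scalF c a :=
        fun a ↦ algebraMap_germ (U := ⊤) trivial (scal c ⊤ a)
      refine ⟨Polynomial.eval₂ κ t p, ?_⟩
      rw [Polynomial.hom_eval₂]
      congr 1
      ext a
      exact hκ a

end Fermat.Agent.S25.Geo
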