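import Mathlib
import Fermat.Agent.S25.GeoPole

/-!
# S25 / GEO: existence of `CurveGeom`
-/

set_option autoImplicit false

universe u

open CategoryTheory CategoryTheory.Limits AlgebraicGeometry TopologicalSpace Opposite
open NeronModelInfra AlgebraicGeometry.RelPicard
open scoped Polynomial TensorProduct nonZeroDivisors

noncomputable section

namespace Fermat.Agent.S25.Geo

variable {k : Type u} [Field k] {C : Scheme.{u}}

section point

variable (c : C ⟶ Spec (CommRingCat.of k)) (pt : Spec (CommRingCat.of k) ⟶ C)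
  (hpt : pt ≫ c = 𝟙 _)

/-- the image of a `k`-point -/
def imgPt : C := pt (IsLocalRing.closedPoint k)

lemma range_pt : Set.range pt = {imgPt pt} := by
  rw [Set.range_eq_singleton]
  exact fun x ↦ congr(pt $(Subsingleton.elim _ _))

include hpt in
lemma isClosed_imgPt [IsSeparated c] : IsClosed {imgPt pt} := by
  have := isClosedImmersion_of_comp_eq_id c pt hpt
  rw [← range_pt]
  exact pt.isClosedEmbedding.isClosed_range

lemma top_le_preimage {U : C.Opens} (hU : imgPt pt ∈ U) : ⊤ ≤ pt ⁻¹ᵁ U := by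
  intro y _
  have : pt y = imgPt pt := congr(pt $(Subsingleton.elim _ _))
  change pt y ∈ U
  rw [this]
  exact hU

/-- evaluation at a `k`-point -/
def evPt {U : C.Opens} (hU : imgPt pt ∈ U) : Γ(C, U) →+* k :=
  (Scheme.ΓSpecIso (CommRingCat.of k)).hom.hom.comp (pt.appLE U ⊤ (top_le_preimage pt hU)).hom

include hpt in
lemma evPt_scal {U : C.Opens} (hU : imgPt pt ∈ U) (a : k) : evPt pt hU (scal c U a) = a := by
  change (Scheme.ΓSpecIso (CommRingCat.of k)).hom (pt.appLE U ⊤ _ (scal c U a)) = a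
  rw [appLE_scal c U pt hpt]
  exact (Scheme.ΓSpecIso (CommRingCat.of k)).inv_hom_id_apply a

lemma evPt_eq_zero_iff {U : C.Opens} (hU : imgPt pt ∈ U) (a : Γ(C, U)) :
    evPt pt hU a = 0 ↔ imgPt pt ∉ C.basicOpen a := by
  have h2 := Scheme.basicOpen_appLE pt ⊤ U (top_le_preimage pt hU) a
  have hinj : Function.Injective (Scheme.ΓSpecIso (CommRingCat.of k)).hom :=
    (ConcreteCategory.bijective_of_isIso (Scheme.ΓSpecIso (CommRingCat.of k)).hom).1
  constructor
  · intro h hmem
    have h0 : pt.appLE U ⊤ (top_le_preimage pt hU) a = 0 := by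
      apply hinj
      rw [map_zero]
      exact h
    rw [h0, Scheme.basicOpen_zero] at h2
    have h3 : (IsLocalRing.closedPoint k : Spec (CommRingCat.of k)) ∈
        (⊥ : (Spec (CommRingCat.of k)).Opens) := by
      rw [h2]
      exact ⟨trivial, hmem⟩
    exact h3
  · intro hmem
    by_contra hne
    apply hmem
    have hu : IsUnit (evPt pt hU a) := isUnit_iff_ne_zero.mpr hne
    have hu' : IsUnit (pt.appLE U ⊤ (top_le_preimage pt hU) a) := by
      have h4 := hu.map (Scheme.ΓSpecIso (CommRingCat.of k)).inv.hom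
      have h5 : (Scheme.ΓSpecIso (CommRingCat.of k)).inv.hom (evPt pt hU a) =
          pt.appLE U ⊤ (top_le_preimage pt hU) a :=
        (Scheme.ΓSpecIso (CommRingCat.of k)).hom_inv_id_apply _
      rwa [h5] at h4
    rw [Scheme.basicOpen_of_isUnit _ hu'] at h2
    have h3 : (IsLocalRing.closedPoint k : Spec (CommRingCat.of k)) ∈
        (⊤ : (Spec (CommRingCat.of k)).Opens) := trivial
    rw [h2] at h3
    exact h3.2

end point

variable [IsIntegral C] [IsAlgClosed k] (c : C ⟶ Spec (CommRingCat.of k)) [IsProper c]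

/-- global functions are constant -/
lemma exists_const {g : C.functionField} (hg : ∀ x, Reg g x) : ∃ a, g = scalF c a := by
  rcases mem_range_or_transc c g with h | ht
  · exact h
  · exfalso
    obtain ⟨s, hs⟩ := exists_section (⊤ : C.Opens) g (fun x _ ↦ hg x)
    have hint : (scal c ⊤).IsIntegral := by
      have h1 := isIntegral_appTop_of_universallyClosed c
      have h2 : (Scheme.ΓSpecIso (CommRingCat.of k)).inv.hom.IsIntegral :=
        RingHom.isIntegral_of_surjective _
          (ConcreteCategory.bijective_of_isIso (Scheme.ΓSpecIso (CommRingCat.of k)).inv).2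
      have h3 := h2.trans _ _ h1
      convert h3 using 1
      simp [scal, Scheme.Hom.appLE]
    obtain ⟨p, hp, hp0⟩ := hint s
    have h1 : Polynomial.eval₂ (scalF c) g p = 0 := by
      rw [← hs, ← algebraMap_eval₂, hp0, map_zero]
    exact hp.ne_zero (ht p h1)

omit [IsIntegral C] in
lemma fromSpec_eq_iff {U : C.Opens} (hU : IsAffineOpen U) (P : PrimeSpectrum Γ(C, U))
    {x : C} (hx : x ∈ U) : hU.fromSpec P = x ↔ P = hU.primeIdealOf ⟨x, hx⟩ := by
  constructor
  · intro h
    apply hU.fromSpec.isOpenEmbedding.injective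
    rw [h, hU.fromSpec_primeIdealOf]
  · rintro rfl
    rw [hU.fromSpec_primeIdealOf]

omit [IsIntegral C] [IsAlgClosed k] in
lemma ker_evPt (pt : Spec (CommRingCat.of k) ⟶ C) {U : C.Opens} (hU : IsAffineOpen U)
    (hx : imgPt pt ∈ U) :
    RingHom.ker (evPt pt hx) = (hU.primeIdealOf ⟨imgPt pt, hx⟩).asIdeal := by
  ext a
  rw [RingHom.mem_ker, evPt_eq_zero_iff, mem_primeIdealOf]

omit [IsAlgClosed k] in
lemma mem_iff_eq_ker (pt : Spec (CommRingCat.of k) ⟶ C) (f : C.functionField) (hf0 : f ≠ 0)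
    (hf : ∀ x, Reg f x ↔ x ≠ imgPt pt) (hU : IsAffineOpen (dom f⁻¹))
    (hx1 : imgPt pt ∈ dom f⁻¹) (P : Ideal Γ(C, dom f⁻¹)) (hP : P.IsPrime) :
    sec f⁻¹ ∈ P ↔ P = RingHom.ker (evPt pt hx1) := by
  let Q : PrimeSpectrum Γ(C, dom f⁻¹) := ⟨P, hP⟩
  have hx : hU.fromSpec Q ∈ dom f⁻¹ := by
    have : hU.fromSpec Q ∈ Set.range hU.fromSpec := ⟨Q, rfl⟩
    rw [hU.range_fromSpec] at this
    exact this
  have h1 : Q = hU.primeIdealOf ⟨_, hx⟩ := (fromSpec_eq_iff hU Q hx).mp rfl
  have h2 : P = (hU.primeIdealOf ⟨_, hx⟩).asIdeal := congrArg PrimeSpectrum.asIdeal h1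
  have h3 : sec f⁻¹ ∈ P ↔ hU.fromSpec Q = imgPt pt := by
    rw [h2, mem_primeIdealOf, mem_basicOpen_iff _ hx, algebraMap_sec, inv_inv, hf]
    simp [hf0]
  rw [h3, fromSpec_eq_iff hU Q hx1, ker_evPt pt hU hx1]
  exact ⟨fun h ↦ congrArg PrimeSpectrum.asIdeal h, fun h ↦ PrimeSpectrum.ext h⟩

/-- the pointed two-chart curve given by a function whose only pole is the image of `pt` -/
def curve (hG : GeoDed c) (pt : Spec (CommRingCat.of k) ⟶ C) (hpt : pt ≫ c = 𝟙 _)
    (f : C.functionField) (hf : ∀ x, Reg f x ↔ x ≠ imgPt pt) : CurveData k :=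
  have hnr : ¬ Reg f (imgPt pt) := fun h ↦ (hf _).mp h rfl
  have ht : Transc c f := transc_of_not_reg c hnr
  have hx1 : imgPt pt ∈ dom f⁻¹ :=
    (reg_or_reg_inv hG.allDedekind f (imgPt pt)).resolve_left hnr
  letI := algU c (dom f)
  letI := algU c (dom f⁻¹)
  letI := algU c (dom f ⊓ dom f⁻¹)
  { toTwoChart := chart c hG f ht
    inter := by
      intro a0 a1 h
      let a0' : Γ(C, dom f) := a0
      let a1' : Γ(C, dom f⁻¹) := a1
      have hV : Nonempty (dom f ⊓ dom f⁻¹ : C.Opens) :=
        nonempty_of_mem ⟨genericPoint_mem, genericPoint_mem⟩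
      have key : algebraMap Γ(C, dom f) C.functionField a0' =
          algebraMap Γ(C, dom f⁻¹) C.functionField a1' := by
        rw [← algebraMap_res (inf_le_left : dom f ⊓ dom f⁻¹ ≤ dom f) a0',
          ← algebraMap_res (inf_le_right : dom f ⊓ dom f⁻¹ ≤ dom f⁻¹) a1']
        congr 1
      obtain ⟨a, ha⟩ := exists_const c (g := algebraMap Γ(C, dom f) C.functionField a0') (by
        intro x
        rcases reg_or_reg_inv hG.allDedekind f x with hx | hx
        · exact reg_section a0' hx
        · rw [key]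
          exact reg_section a1' hx)
      refine ⟨a, ?_, ?_⟩
      · apply algebraMap_inj (U := dom f)
        rw [ha]
        exact (algebraMap_scal c (U := dom f) a).symm
      · apply algebraMap_inj (U := dom f⁻¹)
        rw [← key, ha]
        exact (algebraMap_scal c (U := dom f⁻¹) a).symm
    ε := { evPt pt hx1 with commutes' := fun a ↦ evPt_scal c pt hpt hx1 a }
    ε_ker := fun P hP ↦ mem_iff_eq_ker pt f ht.ne_zero hf
      (isAffineOpen_dom c hG.allDedekind f⁻¹ (ht.inv.injective _ (algebraMap_sec f⁻¹)))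
      hx1 P hP }

/-- existence of the algebraic model of a pointed curve -/
theorem nonempty_curveGeom (hG : GeoDed c) (hns : ¬ Function.Surjective (scalF c))
    (ε : SchemeHomOver (𝟙 (Spec (CommRingCat.of k))) c) : Nonempty (CurveGeom c ε) := by
  obtain ⟨f, hf⟩ := exists_single_pole c hG hns (isClosed_imgPt c ε.1 ε.2)
  have hnr : ¬ Reg f (imgPt ε.1) := fun h ↦ (hf _).mp h rfl
  have ht : Transc c f := transc_of_not_reg c hnr
  have hx1 : imgPt ε.1 ∈ dom f⁻¹ :=
    (reg_or_reg_inv hG.allDedekind f (imgPt ε.1)).resolve_left hnr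
  have haff0 : IsAffineOpen (dom f) :=
    isAffineOpen_dom c hG.allDedekind f (ht.injective _ (algebraMap_sec f))
  have haff1 : IsAffineOpen (dom f⁻¹) :=
    isAffineOpen_dom c hG.allDedekind f⁻¹ (ht.inv.injective _ (algebraMap_sec f⁻¹))
  exact ⟨
    { 𝒟 := curve c hG ε.1 ε.2 f hf
      U0 := dom f
      U1 := dom f⁻¹
      aff0 := haff0
      aff1 := haff1
      aff01 := by
        rw [inf_eq_basicOpen ht.ne_zero]
        exact haff0.basicOpen _
      cover := by
        rw [eq_top_iff]
        intro x _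
        exact reg_or_reg_inv hG.allDedekind f x
      α0 := RingEquiv.refl _
      α1 := RingEquiv.refl _
      α01 := RingEquiv.refl _
      h0 := fun _ ↦ rfl
      h1 := fun _ ↦ rfl
      k0 := fun _ ↦ rfl
      k1 := fun _ ↦ rfl
      hε1 := top_le_iff.mp (top_le_preimage ε.1 hx1)
      hε := fun _ ↦ rfl
      hε0 := by
        intro x
        rw [range_pt ε.1, Set.mem_singleton_iff]
        exact (not_congr (hf x)).trans not_not }⟩

end Fermat.Agent.S25.Geo
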