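import Mathlib
import Fermat.Agent.S25.GeoA
import Fermat.Agent.S25.GeoCurve

/-!
# S25 / GEO: existence of `CurveGeom` for smooth proper curves
-/

set_option autoImplicit false

universe u

open CategoryTheory CategoryTheory.Limits AlgebraicGeometry TopologicalSpace Opposite
open NeronModelInfra AlgebraicGeometry.RelPicard

noncomputable section

namespace Fermat.Agent.S25

variable {k : Type u} [Field k] [IsAlgClosed k] {C : Scheme.{u}} [IsIntegral C]
  (c : C ⟶ Spec (CommRingCat.of k)) [SmoothOfRelativeDimension 1 c]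

theorem geoDed : Geo.GeoDed c := fun _ hU hne K _ _ ↦
  have := hne
  GeoA.isDedekindDomain_tensor_Γ c hU K

theorem not_surjective_scalF : ¬ Function.Surjective (Geo.scalF c) := by
  intro hs
  obtain ⟨U, hU, hxU, -⟩ :=
    exists_isAffineOpen_mem_and_subset (X := C) (U := ⊤) (x := genericPoint C) trivial
  have : Nonempty U := ⟨⟨_, hxU⟩⟩
  refine GeoA.not_isField_Γ c hU ⟨⟨0, 1, zero_ne_one⟩, mul_comm, fun {a} ha ↦ ?_⟩
  obtain ⟨b, hb⟩ := hs (algebraMap Γ(C, U) C.functionField a)
  rw [← Geo.algebraMap_scal c (U := U)] at hb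
  have hb' := Geo.algebraMap_inj hb
  have hb0 : b ≠ 0 := by
    rintro rfl
    rw [map_zero] at hb'
    exact ha hb'.symm
  exact ⟨scal c U b⁻¹, by rw [← hb', ← map_mul, mul_inv_cancel₀ hb0, map_one]⟩

/-- every pointed smooth proper curve over an algebraically closed field has an algebraic model -/
theorem exists_curveGeom [IsProper c] (ε : SchemeHomOver (𝟙 (Spec (CommRingCat.of k))) c) :
    Nonempty (CurveGeom c ε) :=
  Geo.nonempty_curveGeom c (geoDed c) (not_surjective_scalF c) ε

end Fermat.Agent.S25
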