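import Mathlib
import Fermat.Agent.S25.Defs
import Fermat.Agent.S25.AlgStd
import Fermat.Agent.AV.TensorDomain

/-!
# S25, package PROP: points of the curve with values in algebras

* `Pt 𝒞 B` : `B`-valued points of the curve which factor through one of the two charts;
* `exists_lift_pt` : `C(K) = C(V)` for valuation rings;
* `PtFam` : finitely many universal families of `N` points.
-/

set_option autoImplicit false

universe u

open scoped TensorProduct Polynomial

noncomputable section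

namespace Fermat.Agent.S25

namespace TwoChart

variable {k : Type u} [Field k] (𝒞 : TwoChart k)

/-- the two chart rings -/
def AA : Bool → Type u
  | false => 𝒞.A0
  | true => 𝒞.A1

instance instCommRingAA : ∀ b : Bool, CommRing (𝒞.AA b)
  | false => 𝒞.cr0
  | true => 𝒞.cr1

instance instAlgebraAA : ∀ b : Bool, Algebra k (𝒞.AA b)
  | false => 𝒞.alg0
  | true => 𝒞.alg1

/-- the restriction maps -/
def ρb : ∀ b : Bool, 𝒞.AA b →ₐ[k] 𝒞.A01
  | false => 𝒞.ρ0
  | true => 𝒞.ρ1

theorem isDomain_AA : ∀ b : Bool, IsDomain (𝒞.AA b)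
  | false => 𝒞.isDomain_A0
  | true => 𝒞.swap.isDomain_A0

theorem ρb_injective : ∀ b : Bool, Function.Injective (𝒞.ρb b)
  | false => 𝒞.ρ0_injective
  | true => 𝒞.swap.ρ0_injective

theorem isDomain_A01 : IsDomain 𝒞.A01 := by
  have := 𝒞.dom k
  exact (Algebra.TensorProduct.lid k 𝒞.A01).symm.toMulEquiv.isDomain _

end TwoChart

/-- `B`-valued points of the curve factoring through a chart -/
structure Pt {k : Type u} [Field k] (𝒞 : TwoChart k) (B : Type u) [CommRing B] [Algebra k B] :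
    Type u where
  /-- the chart -/
  b : Bool
  /-- the evaluation map -/
  q : 𝒞.AA b →ₐ[k] B

namespace Pt

variable {k : Type u} [Field k] {𝒞 : TwoChart k} {B B' B'' : Type u} [CommRing B] [Algebra k B]
  [CommRing B'] [Algebra k B'] [CommRing B''] [Algebra k B'']

/-- base change of points -/
def map (φ : B →ₐ[k] B') (x : Pt 𝒞 B) : Pt 𝒞 B' := ⟨x.b, φ.comp x.q⟩

theorem map_map (φ : B →ₐ[k] B') (ψ : B' →ₐ[k] B'') (x : Pt 𝒞 B) :
    (x.map φ).map ψ = x.map (ψ.comp φ) := rfl

theorem map_id (x : Pt 𝒞 B) : x.map (AlgHom.id k B) = x := rfl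

/-- two points coming from the same point of `U0 ∩ U1` -/
inductive Rel : Pt 𝒞 B → Pt 𝒞 B → Prop
  | glue (q : 𝒞.A01 →ₐ[k] B) (b b' : Bool) :
      Rel ⟨b, q.comp (𝒞.ρb b)⟩ ⟨b', q.comp (𝒞.ρb b')⟩

theorem Rel.map {x y : Pt 𝒞 B} (h : Rel x y) (φ : B →ₐ[k] B') : Rel (x.map φ) (y.map φ) := by
  obtain ⟨q, b, b'⟩ := h
  exact Rel.glue (φ.comp q) b b'

theorem Rel.symm {x y : Pt 𝒞 B} (h : Rel x y) : Rel y x := by
  obtain ⟨q, b, b'⟩ := h
  exact Rel.glue q b' b

end Pt

section Val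

variable {k : Type u} [Field k] {R K : Type u} [CommRing R] [IsDomain R] [ValuationRing R]
  [Field K] [Algebra R K] [IsFractionRing R K] [Algebra k R] [Algebra k K] [IsScalarTower k R K]

/-- integrality -/
theorem exists_lift_of_integral {A : Type u} [CommRing A] [Algebra k A] (f : A)
    (hf : (Polynomial.aeval f : k[X] →ₐ[k] A).toRingHom.Finite) (q : A →ₐ[k] K) (r : R)
    (hr : algebraMap R K r = q f) :
    ∃ q' : A →ₐ[k] R, (IsScalarTower.toAlgHom k R K).comp q' = q := by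
  have h1 : ∀ a : A, ∃ y : R, algebraMap R K y = q a := by
    intro a
    rw [← IsIntegrallyClosed.isIntegral_iff]
    obtain ⟨p, hp, hpa⟩ := hf.to_isIntegral a
    refine ⟨p.map (Polynomial.aeval r : k[X] →ₐ[k] R).toRingHom, hp.map _, ?_⟩
    rw [Polynomial.eval₂_map]
    have h2 := congrArg q hpa
    have h3 : q (Polynomial.eval₂ (Polynomial.aeval f : k[X] →ₐ[k] A).toRingHom a p) =
        Polynomial.eval₂ ((q : A →+* K).comp (Polynomial.aeval f : k[X] →ₐ[k] A).toRingHom)
          (q a) p := Polynomial.hom_eval₂ p _ (q : A →+* K) a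
    rw [map_zero] at h2
    rw [← h2]
    refine Eq.trans ?_ h3.symm
    congr 1
    apply Polynomial.ringHom_ext
    · intro c
      simp [IsScalarTower.algebraMap_apply k R K]
    · simp [hr]
  choose y hy using h1
  have hinj := IsFractionRing.injective R K
  refine ⟨{ toFun := y, map_one' := hinj (by rw [hy, map_one, map_one]),
            map_mul' := fun a b => hinj (by rw [hy, map_mul, map_mul, hy, hy]),
            map_zero' := hinj (by rw [hy, map_zero, map_zero]),
            map_add' := fun a b => hinj (by rw [hy, map_add, map_add, hy, hy]),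
            commutes' := fun c => hinj (by
              rw [hy, AlgHom.commutes, ← IsScalarTower.algebraMap_apply]) }, ?_⟩
  ext a
  exact hy a

/-- **the valuative criterion for the curve** -/
theorem exists_lift_pt0 (𝒞 : TwoChart k) (q : 𝒞.A0 →ₐ[k] K) :
    (∃ q' : 𝒞.A0 →ₐ[k] R, (IsScalarTower.toAlgHom k R K).comp q' = q) ∨
    ∃ (q01 : 𝒞.A01 →ₐ[k] K) (q' : 𝒞.A1 →ₐ[k] R), q01.comp 𝒞.ρ0 = q ∧
      q01.comp 𝒞.ρ1 = (IsScalarTower.toAlgHom k R K).comp q' := by
  rcases ValuationRing.isInteger_or_isInteger R (K := K) (q 𝒞.f0) with ⟨r, hr⟩ | ⟨r, hr⟩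
  · exact Or.inl (exists_lift_of_integral 𝒞.f0 𝒞.fin0 q r hr)
  · by_cases h0 : q 𝒞.f0 = 0
    · exact Or.inl (exists_lift_of_integral 𝒞.f0 𝒞.fin0 q 0 (by rw [h0, map_zero]))
    right
    let _ : Algebra 𝒞.A0 𝒞.A01 := 𝒞.ρ0.toRingHom.toAlgebra
    have hloc : IsLocalization.Away 𝒞.f0 𝒞.A01 := 𝒞.loc0
    let l : 𝒞.A01 →+* K := IsLocalization.Away.lift 𝒞.f0 (g := (q : 𝒞.A0 →+* K))
      (isUnit_iff_ne_zero.mpr h0)
    have hl : ∀ a, l (𝒞.ρ0 a) = q a := fun a => IsLocalization.Away.lift_eq 𝒞.f0 _ a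
    let q01 : 𝒞.A01 →ₐ[k] K :=
      { l with
        commutes' := fun c => by
          show l (algebraMap k 𝒞.A01 c) = _
          rw [← 𝒞.ρ0.commutes, hl, q.commutes] }
    have h1 : q01 (𝒞.ρ1 𝒞.f1) = (q 𝒞.f0)⁻¹ := by
      have h2 := congrArg q01 𝒞.mul_eq_one
      rw [map_mul, map_one] at h2
      have h3 : q01 (𝒞.ρ0 𝒞.f0) = q 𝒞.f0 := hl _
      rw [h3] at h2
      exact eq_inv_of_mul_eq_one_right h2
    obtain ⟨q', hq'⟩ := exists_lift_of_integral 𝒞.f1 𝒞.fin1 (q01.comp 𝒞.ρ1) r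
      (by rw [hr, AlgHom.comp_apply, h1])
    refine ⟨q01, q', ?_, hq'.symm⟩
    ext a
    exact hl a

/-- **the valuative criterion for the curve** : every `K`-valued point is related to one which
comes from an `R`-valued point. -/
theorem exists_lift_pt {𝒞 : TwoChart k} (x : Pt 𝒞 K) : ∃ y : Pt 𝒞 R,
    y.map (IsScalarTower.toAlgHom k R K) = x ∨
      Pt.Rel x (y.map (IsScalarTower.toAlgHom k R K)) := by
  obtain ⟨b, q⟩ := x
  cases b with
  | false =>
    rcases exists_lift_pt0 (R := R) 𝒞 q with ⟨q', hq'⟩ | ⟨q01, q', h1, h2⟩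
    · exact ⟨⟨false, q'⟩, Or.inl (congrArg (Pt.mk false) hq')⟩
    · refine ⟨⟨true, q'⟩, Or.inr ?_⟩
      have := Pt.Rel.glue q01 false true
      have e1 : (⟨false, q⟩ : Pt 𝒞 K) = ⟨false, q01.comp (𝒞.ρb false)⟩ :=
        congrArg (Pt.mk false) h1.symm
      have e2 : (Pt.map (IsScalarTower.toAlgHom k R K) ⟨true, q'⟩ : Pt 𝒞 K) =
          ⟨true, q01.comp (𝒞.ρb true)⟩ := congrArg (Pt.mk true) h2.symm
      rw [e1, e2]
      exact this
  | true =>
    rcases exists_lift_pt0 (R := R) 𝒞.swap q with ⟨q', hq'⟩ | ⟨q01, q', h1, h2⟩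
    · exact ⟨⟨true, q'⟩, Or.inl (congrArg (Pt.mk true) hq')⟩
    · refine ⟨⟨false, q'⟩, Or.inr ?_⟩
      have := Pt.Rel.glue (𝒞 := 𝒞) q01 true false
      have e1 : (⟨true, q⟩ : Pt 𝒞 K) = ⟨true, q01.comp (𝒞.ρb true)⟩ :=
        congrArg (Pt.mk true) h1.symm
      have e2 : (Pt.map (IsScalarTower.toAlgHom k R K) ⟨false, q'⟩ : Pt 𝒞 K) =
          ⟨false, q01.comp (𝒞.ρb false)⟩ := congrArg (Pt.mk false) h2.symm
      rw [e1, e2]
      exact this

end Val

section Fam

variable {k : Type u} [Field k]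

/-- Finitely many universal families of `N` points on the curve. -/
structure PtFam (𝒞 : TwoChart k) (N : ℕ) where
  ι : Type
  [fin : Finite ι]
  [nonempty : Nonempty ι]
  B : ι → Type u
  [cr : ∀ i, CommRing (B i)]
  [dom : ∀ i, IsDomain (B i)]
  [alg : ∀ i, Algebra k (B i)]
  qs : ∀ i, List (Pt 𝒞 (B i))
  length : ∀ i, (qs i).length = N
  Ω : Type u
  [field : Field Ω]
  [algΩ : Algebra k Ω]
  ω : ∀ i, B i →ₐ[k] Ω
  ω_inj : ∀ i, Function.Injective (ω i)
  rs : List (Pt 𝒞 Ω)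
  rel : ∀ i, List.Forall₂ Pt.Rel ((qs i).map (Pt.map (ω i))) rs
  univ : ∀ (R : Type u) [CommRing R] [Algebra k R] (ps : List (Pt 𝒞 R)), ps.length = N →
    ∃ (i : ι) (φ : B i →ₐ[k] R), (qs i).map (Pt.map φ) = ps

attribute [instance] PtFam.fin PtFam.nonempty PtFam.cr PtFam.dom PtFam.alg PtFam.field PtFam.algΩ

variable (𝒞 : TwoChart k)

/-- the family of zero points -/
def PtFam.zero : PtFam 𝒞 0 where
  ι := Unit
  B _ := k
  qs _ := []
  length _ := rfl
  Ω := k
  ω _ := AlgHom.id k k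
  ω_inj _ := Function.injective_id
  rs := []
  rel _ := List.Forall₂.nil
  univ R _ _ ps hps := ⟨(), Algebra.ofId k R, by
    rw [List.length_eq_zero_iff.mp hps]; rfl⟩

variable {𝒞}

/-- adding one point -/
def PtFam.succ [IsAlgClosed k] {N : ℕ} (F : PtFam 𝒞 N) : PtFam 𝒞 (N + 1) :=
  have hdom : ∀ i : F.ι × Bool, IsDomain (F.B i.1 ⊗[k] 𝒞.AA i.2) := fun i =>
    have := 𝒞.isDomain_AA i.2
    Fermat.Agent.AV.isDomain_tensorProduct k (F.B i.1) (𝒞.AA i.2)
  have hdomΩ : IsDomain (F.Ω ⊗[k] 𝒞.A01) :=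
    have := 𝒞.isDomain_A01
    Fermat.Agent.AV.isDomain_tensorProduct k F.Ω 𝒞.A01
  { ι := F.ι × Bool
    B := fun i => F.B i.1 ⊗[k] 𝒞.AA i.2
    qs := fun i => Pt.mk i.2 Algebra.TensorProduct.includeRight ::
      (F.qs i.1).map (Pt.map Algebra.TensorProduct.includeLeft)
    length := fun i => by
      rw [List.length_cons, List.length_map, F.length]
    Ω := FractionRing (F.Ω ⊗[k] 𝒞.A01)
    ω := fun i => (IsScalarTower.toAlgHom k (F.Ω ⊗[k] 𝒞.A01) _).comp
      (Algebra.TensorProduct.map (F.ω i.1) (𝒞.ρb i.2))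
    ω_inj := fun i => by
      refine (IsFractionRing.injective (F.Ω ⊗[k] 𝒞.A01) _).comp ?_
      exact TensorProduct.map_injective_of_flat_flat (F.ω i.1).toLinearMap (𝒞.ρb i.2).toLinearMap
        (F.ω_inj i.1) (𝒞.ρb_injective i.2)
    rs := Pt.mk false (((IsScalarTower.toAlgHom k (F.Ω ⊗[k] 𝒞.A01) _).comp
        Algebra.TensorProduct.includeRight).comp (𝒞.ρb false)) ::
      F.rs.map (Pt.map ((IsScalarTower.toAlgHom k (F.Ω ⊗[k] 𝒞.A01) _).comp
        Algebra.TensorProduct.includeLeft))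
    rel := fun i => by
      refine List.Forall₂.cons ?_ ?_
      · have hh : ((IsScalarTower.toAlgHom k (F.Ω ⊗[k] 𝒞.A01)
            (FractionRing (F.Ω ⊗[k] 𝒞.A01))).comp
            (Algebra.TensorProduct.map (F.ω i.1) (𝒞.ρb i.2))).comp
            Algebra.TensorProduct.includeRight =
            ((IsScalarTower.toAlgHom k (F.Ω ⊗[k] 𝒞.A01)
            (FractionRing (F.Ω ⊗[k] 𝒞.A01))).comp
            Algebra.TensorProduct.includeRight).comp (𝒞.ρb i.2) := by
          ext x
          simp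
        have h1 := Pt.Rel.glue ((IsScalarTower.toAlgHom k (F.Ω ⊗[k] 𝒞.A01)
          (FractionRing (F.Ω ⊗[k] 𝒞.A01))).comp Algebra.TensorProduct.includeRight) i.2 false
        rw [← hh] at h1
        exact h1
      · rw [List.forall₂_map_left_iff, List.forall₂_map_left_iff, List.forall₂_map_right_iff]
        have h := F.rel i.1
        rw [List.forall₂_map_left_iff] at h
        refine h.imp fun x y hxy => ?_
        have h2 := hxy.map ((IsScalarTower.toAlgHom k (F.Ω ⊗[k] 𝒞.A01)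
          (FractionRing (F.Ω ⊗[k] 𝒞.A01))).comp Algebra.TensorProduct.includeLeft)
        convert! h2 using 1
        rw [Pt.map_map, Pt.map_map]
        congr 1
        ext b
        simp
    univ := fun R _ _ ps hps => by
      cases ps with
      | nil => simp at hps
      | cons p ps =>
        obtain ⟨i, φ, hφ⟩ := F.univ R ps (by simpa using hps)
        refine ⟨(i, p.b), Algebra.TensorProduct.lift φ p.q (fun _ _ => .all _ _), ?_⟩
        rw [List.map_cons, List.map_map]
        congr 1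
        · obtain ⟨b, q⟩ := p
          show Pt.mk b _ = Pt.mk b q
          congr 1
          ext x
          simp
        · rw [← hφ]
          apply List.map_congr_left
          intro x _
          show (x.map _).map _ = _
          rw [Pt.map_map]
          congr 1
          ext b
          simp }

/-- `N` points -/
def PtFam.mk' [IsAlgClosed k] (𝒞 : TwoChart k) : ∀ N : ℕ, PtFam 𝒞 N
  | 0 => PtFam.zero 𝒞
  | N + 1 => (PtFam.mk' 𝒞 N).succ

end Fam

end Fermat.Agent.S25
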