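import Mathlib
import Fermat.Agent.AV.TensorDomain

/-!
# S25, package PROP: pure scheme theory

* `exists_lift_of_ext`: lifts in the valuative criterion can be found after an extension of the
  valuation ring;
* `IrrCover`: a finite family of affine irreducible schemes covering `J` with a common point,
  giving quasi-compactness and geometric connectedness;
* separatedness, smoothness.
-/

set_option autoImplicit false

universe u

open CategoryTheory CategoryTheory.Limits AlgebraicGeometry TopologicalSpace Opposite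
open scoped TensorProduct

noncomputable section

namespace Fermat.Agent.S25.PropS

/-- the closed point of the spectrum of a local ring -/
def cpt (V : Type u) [CommRing V] [IsLocalRing V] : Spec (CommRingCat.of V) :=
  IsLocalRing.closedPoint V

section Ext

variable {X : Scheme.{u}} {R K V' K' : Type u} [CommRing R] [IsDomain R] [ValuationRing R]
  [Field K] [Algebra R K] [IsFractionRing R K] [CommRing V'] [IsLocalRing V']
  [Field K'] [Algebra V' K']

/-- lifting a morphism from a local scheme to an affine open containing the image of the closed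
point -/
theorem exists_factor_of_closedPoint {V : Type u} [CommRing V] [IsLocalRing V]
    (l : Spec (.of V) ⟶ X) (U : X.Opens) (hU : l (cpt V) ∈ U) :
    ∃ l₀ : Spec (.of V) ⟶ U.toScheme, l₀ ≫ U.ι = l := by
  have htop : l ⁻¹ᵁ U = ⊤ := (IsLocalRing.closedPoint_mem_iff (R := V) (l ⁻¹ᵁ U)).mp hU
  have hrange : Set.range l ⊆ Set.range U.ι := by
    rw [Scheme.Opens.range_ι]
    rintro _ ⟨y, rfl⟩
    have : y ∈ l ⁻¹ᵁ U := by rw [htop]; trivial
    exact this
  exact ⟨IsOpenImmersion.lift U.ι l hrange, IsOpenImmersion.lift_fac _ _ _⟩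

/-- **Valuative lifts can be found after an extension of valuation rings.** -/
theorem exists_lift_of_ext (α : R →+* V') [IsLocalHom α] (β : K →+* K')
    (hinj : Function.Injective (algebraMap V' K'))
    (hαβ : β.comp (algebraMap R K) = (algebraMap V' K').comp α)
    (i : Spec (.of K) ⟶ X) (l : Spec (.of V') ⟶ X)
    (h : Spec.map (CommRingCat.ofHom (algebraMap V' K')) ≫ l =
      Spec.map (CommRingCat.ofHom β) ≫ i) :
    ∃ l' : Spec (.of R) ⟶ X, Spec.map (CommRingCat.ofHom (algebraMap R K)) ≫ l' = i := by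
  obtain ⟨U, hU, hxU, -⟩ := exists_isAffineOpen_mem_and_subset (X := X) (U := ⊤)
    (x := l (cpt V')) trivial
  obtain ⟨l₀, hl₀⟩ := exists_factor_of_closedPoint l U hxU
  have hi : i (cpt K) ∈ U := by
    have hpt : ∀ y : Spec (.of K), y = cpt K := fun y => by
      apply Subsingleton.elim
    have h1 : i (Spec.map (CommRingCat.ofHom β) (cpt K')) =
        l (Spec.map (CommRingCat.ofHom (algebraMap V' K')) (cpt K')) := by
      rw [← Scheme.Hom.comp_apply, ← Scheme.Hom.comp_apply, h]
    rw [← hpt (Spec.map (CommRingCat.ofHom β) (cpt K')), h1, ← hl₀,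
      Scheme.Hom.comp_apply]
    exact (Scheme.Opens.range_ι U).le ⟨_, rfl⟩
  obtain ⟨i₀, hi₀⟩ := exists_factor_of_closedPoint i U hi
  -- pass to rings
  let e := hU.isoSpec
  let a₁ := Spec.preimage (l₀ ≫ e.hom)
  let b₁ := Spec.preimage (i₀ ≫ e.hom)
  have ha₁ : Spec.map a₁ = l₀ ≫ e.hom := Spec.map_preimage _
  have hb₁ : Spec.map b₁ = i₀ ≫ e.hom := Spec.map_preimage _
  have h2 : Spec.map (CommRingCat.ofHom (algebraMap V' K')) ≫ l₀ =
      Spec.map (CommRingCat.ofHom β) ≫ i₀ := by
    rw [← cancel_mono U.ι, Category.assoc, Category.assoc, hl₀, hi₀, h]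
  have h3 : a₁ ≫ CommRingCat.ofHom (algebraMap V' K') = b₁ ≫ CommRingCat.ofHom β := by
    apply Spec.map_injective
    rw [Spec.map_comp, Spec.map_comp, ha₁, hb₁, ← Category.assoc, h2, Category.assoc]
  have h3' : ∀ x, algebraMap V' K' (a₁.hom x) = β (b₁.hom x) := fun x =>
    congr($(congrArg CommRingCat.Hom.hom h3) x)
  have h4 : ∀ x : Γ(X, U), ∃ r : R, algebraMap R K r = b₁.hom x := by
    intro x
    rcases ValuationRing.isInteger_or_isInteger R (K := K) (b₁.hom x) with ⟨r, hr⟩ | ⟨r, hr⟩
    · exact ⟨r, hr⟩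
    · by_cases hx : b₁.hom x = 0
      · exact ⟨0, by rw [hx, map_zero]⟩
      have h5 : α r * a₁.hom x = 1 := by
        apply hinj
        have h6 : algebraMap V' K' (α r) = β (algebraMap R K r) := congr($(hαβ.symm) r)
        rw [map_mul, h3', h6, hr, ← map_mul, inv_mul_cancel₀ hx, map_one, map_one]
      have h7 : IsUnit r := isUnit_of_map_unit α r (IsUnit.of_mul_eq_one _ h5)
      obtain ⟨w, rfl⟩ := h7
      refine ⟨((w⁻¹ : Rˣ) : R), ?_⟩
      have h8 : algebraMap R K (w : R) * algebraMap R K ((w⁻¹ : Rˣ) : R) = 1 := by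
        rw [← map_mul, Units.mul_inv, map_one]
      rw [hr] at h8
      have := congrArg (fun z => b₁.hom x * z) h8
      simp only [mul_one] at this
      rwa [mul_inv_cancel_left₀ hx] at this
  choose c hc using h4
  have hRK := IsFractionRing.injective R K
  let c' : Γ(X, U) →+* R :=
    { toFun := c
      map_one' := hRK (by rw [hc, map_one, map_one])
      map_mul' := fun x y => hRK (by rw [hc, map_mul, map_mul, hc, hc])
      map_zero' := hRK (by rw [hc, map_zero, map_zero])
      map_add' := fun x y => hRK (by rw [hc, map_add, map_add, hc, hc]) }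
  refine ⟨Spec.map (CommRingCat.ofHom c') ≫ e.inv ≫ U.ι, ?_⟩
  have h9 : CommRingCat.ofHom c' ≫ CommRingCat.ofHom (algebraMap R K) = b₁ := by
    ext x
    exact hc x
  rw [← Category.assoc, ← Spec.map_comp, h9, hb₁, Category.assoc, e.hom_inv_id_assoc, hi₀]

end Ext

section Over

variable {k : Type u} [Field k] {J : Scheme.{u}} (j : J ⟶ Spec (CommRingCat.of k))

/-- morphisms over `Spec k` from spectra of `k`-algebras -/
def IsOver {B : Type u} [CommRing B] [Algebra k B] (s : Spec (CommRingCat.of B) ⟶ J) : Prop :=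
  s ≫ j = Spec.map (CommRingCat.ofHom (algebraMap k B))

/-- **existence part of the valuative criterion**, up to extension of the valuation ring -/
theorem existence_of_ext
    (H : ∀ (R K : Type u) [CommRing R] [IsDomain R] [ValuationRing R] [Field K] [Algebra R K]
      [IsFractionRing R K] [Algebra k R] [Algebra k K] [IsScalarTower k R K]
      (i : Spec (CommRingCat.of K) ⟶ J), IsOver j i →
      ∃ (V' K' : Type u) (_ : CommRing V') (_ : IsLocalRing V') (_ : Field K')
        (_ : Algebra V' K') (α : R →+* V') (_ : IsLocalHom α) (β : K →+* K')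
        (l : Spec (CommRingCat.of V') ⟶ J), Function.Injective (algebraMap V' K') ∧
        β.comp (algebraMap R K) = (algebraMap V' K').comp α ∧
        Spec.map (CommRingCat.ofHom (algebraMap V' K')) ≫ l =
          Spec.map (CommRingCat.ofHom β) ≫ i) :
    ValuativeCriterion.Existence j := by
  intro S
  let φ : k →+* S.R := (Spec.preimage S.i₂).hom
  have hφ : Spec.map (CommRingCat.ofHom φ) = S.i₂ := by
    have : CommRingCat.ofHom φ = Spec.preimage S.i₂ := rfl
    rw [this, Spec.map_preimage]
  let _ : Algebra k S.R := φ.toAlgebra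
  let _ : Algebra k S.K := ((algebraMap S.R S.K).comp φ).toAlgebra
  have : IsScalarTower k S.R S.K := .of_algebraMap_eq fun _ => rfl
  have hover : IsOver j S.i₁ := by
    rw [IsOver, S.commSq.w, ← hφ, ← Spec.map_comp]
    rfl
  obtain ⟨V', K', _, _, _, _, α, _, β, l, h1, h2, h3⟩ := H S.R S.K S.i₁ hover
  obtain ⟨l', hl'⟩ := exists_lift_of_ext α β h1 h2 S.i₁ l h3
  refine ⟨⟨⟨l', hl', ?_⟩⟩⟩
  -- compatibility over `Spec k`
  have h4 : Spec.map (CommRingCat.ofHom (algebraMap S.R S.K)) ≫ (l' ≫ j) =
      Spec.map (CommRingCat.ofHom (algebraMap S.R S.K)) ≫ S.i₂ := by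
    rw [← Category.assoc, hl', S.commSq.w]
  obtain ⟨a, ha⟩ := Spec.map_surjective (l' ≫ j)
  rw [← ha, ← hφ, ← Spec.map_comp, ← Spec.map_comp] at h4
  have h5 := Spec.map_injective h4
  rw [← ha, ← hφ]
  congr 1
  ext x
  exact IsFractionRing.injective S.R S.K congr($(congrArg CommRingCat.Hom.hom h5) x)

/-- **uniqueness part of the valuative criterion** -/
theorem uniqueness_of
    (H : ∀ (R K : Type u) [CommRing R] [IsDomain R] [ValuationRing R] [Field K] [Algebra R K]
      [IsFractionRing R K] [Algebra k R] [Algebra k K] [IsScalarTower k R K]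
      (l l' : Spec (CommRingCat.of R) ⟶ J), IsOver j l → IsOver j l' →
      Spec.map (CommRingCat.ofHom (algebraMap R K)) ≫ l =
        Spec.map (CommRingCat.ofHom (algebraMap R K)) ≫ l' → l = l') :
    ValuativeCriterion.Uniqueness j := by
  intro S
  let φ : k →+* S.R := (Spec.preimage S.i₂).hom
  have hφ : Spec.map (CommRingCat.ofHom φ) = S.i₂ := by
    have : CommRingCat.ofHom φ = Spec.preimage S.i₂ := rfl
    rw [this, Spec.map_preimage]
  let _ : Algebra k S.R := φ.toAlgebra
  let _ : Algebra k S.K := ((algebraMap S.R S.K).comp φ).toAlgebra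
  have : IsScalarTower k S.R S.K := .of_algebraMap_eq fun _ => rfl
  refine ⟨fun l l' => CommSq.LiftStruct.ext (H S.R S.K l.l l'.l ?_ ?_ ?_)⟩
  · exact l.fac_right.trans hφ.symm
  · exact l'.fac_right.trans hφ.symm
  · rw [l.fac_left, l'.fac_left]

/-- A finite family of irreducible affine schemes covering `J` with a common point. -/
structure IrrCover where
  ι : Type u
  [fin : Finite ι]
  [nonempty : Nonempty ι]
  B : ι → Type u
  [cr : ∀ i, CommRing (B i)]
  [dom : ∀ i, IsDomain (B i)]
  [alg : ∀ i, Algebra k (B i)]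
  y : ∀ i, Spec (CommRingCat.of (B i)) ⟶ J
  isOver : ∀ i, IsOver j (y i)
  surj : ∀ (L : Type u) [Field L] [IsAlgClosed L] [Algebra k L] (s : Spec (CommRingCat.of L) ⟶ J),
    IsOver j s → ∃ (i : ι) (φ : B i →ₐ[k] L),
      Spec.map (CommRingCat.ofHom φ.toRingHom) ≫ y i = s
  Ω : Type u
  [field : Field Ω]
  [algΩ : Algebra k Ω]
  w : Spec (CommRingCat.of Ω) ⟶ J
  common : ∀ i, ∃ ψ : B i →ₐ[k] Ω, Spec.map (CommRingCat.ofHom ψ.toRingHom) ≫ y i = w

attribute [instance] IrrCover.fin IrrCover.nonempty IrrCover.cr IrrCover.dom IrrCover.alg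
  IrrCover.field IrrCover.algΩ

variable {j}

/-- every point comes from an algebraically closed field -/
theorem exists_geometric_point {X : Scheme.{u}} (x : X) : ∃ (L : Type u) (_ : Field L)
    (_ : IsAlgClosed L) (s : Spec (CommRingCat.of L) ⟶ X),
      s (cpt L) = x := by
  let κ := X.residueField x
  refine ⟨AlgebraicClosure κ, inferInstance, inferInstance,
    Spec.map (CommRingCat.ofHom (algebraMap κ (AlgebraicClosure κ))) ≫ X.fromSpecResidueField x, ?_⟩
  rw [Scheme.Hom.comp_apply]
  exact Scheme.fromSpecResidueField_apply x _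

theorem IrrCover.exists_mem (F : IrrCover j) (x : J) : ∃ i, x ∈ Set.range (F.y i) := by
  obtain ⟨L, _, _, s, hs⟩ := exists_geometric_point x
  let φ : k →+* L := (Spec.preimage (s ≫ j)).hom
  let _ : Algebra k L := φ.toAlgebra
  have hover : IsOver j s := by
    rw [IsOver]
    have : CommRingCat.ofHom (algebraMap k L) = Spec.preimage (s ≫ j) := rfl
    rw [this, Spec.map_preimage]
  obtain ⟨i, ψ, h⟩ := F.surj L s hover
  refine ⟨i, Spec.map (CommRingCat.ofHom ψ.toRingHom) (cpt L), ?_⟩
  rw [← Scheme.Hom.comp_apply, h, hs]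

theorem IrrCover.compactSpace (F : IrrCover j) : CompactSpace J := by
  rw [← isCompact_univ_iff]
  have : (Set.univ : Set J) = ⋃ i, Set.range (F.y i) := by
    symm
    rw [Set.eq_univ_iff_forall]
    intro x
    obtain ⟨i, hi⟩ := F.exists_mem x
    exact Set.mem_iUnion.mpr ⟨i, hi⟩
  rw [this]
  exact isCompact_iUnion fun i => isCompact_range (F.y i).continuous

theorem IrrCover.quasiCompact (F : IrrCover j) : QuasiCompact j := by
  have := F.compactSpace
  rw [quasiCompact_iff_compactSpace]
  infer_instance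

/-- **geometric connectedness** -/
theorem IrrCover.geometricallyConnected [IsAlgClosed k] (F : IrrCover j) :
    GeometricallyConnected j := by
  refine ⟨geometrically_iff_of_isClosedUnderIsomorphisms.mpr fun K _ y => ?_⟩
  let φ : k →+* K := (Spec.preimage y).hom
  have hφ : Spec.map (CommRingCat.ofHom φ) = y := by
    have : CommRingCat.ofHom φ = Spec.preimage y := rfl
    rw [this, Spec.map_preimage]
  let _ : Algebra k K := φ.toAlgebra
  have hcond : ∀ i, (Spec.map (CommRingCat.ofHom
      (Algebra.TensorProduct.includeRight : F.B i →ₐ[k] K ⊗[k] F.B i).toRingHom) ≫ F.y i) ≫ j =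
      Spec.map (CommRingCat.ofHom (algebraMap K (K ⊗[k] F.B i))) ≫ y := by
    intro i
    rw [Category.assoc, F.isOver i, ← hφ, ← Spec.map_comp, ← Spec.map_comp]
    congr 1
    ext x
    exact (Algebra.TensorProduct.includeRight : F.B i →ₐ[k] K ⊗[k] F.B i).commutes x
  let z : ∀ i, Spec (CommRingCat.of (K ⊗[k] F.B i)) ⟶ pullback j y := fun i =>
    pullback.lift _ _ (hcond i)
  have hz1 : ∀ i, z i ≫ pullback.fst j y = _ := fun i => pullback.lift_fst _ _ (hcond i)
  have hz2 : ∀ i, z i ≫ pullback.snd j y = _ := fun i => pullback.lift_snd _ _ (hcond i)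
  have hcover : ∀ x : (pullback j y : Scheme), ∃ i, x ∈ Set.range (z i) := by
    intro x
    obtain ⟨L, _, _, s, hs⟩ := exists_geometric_point x
    let β : K →+* L := (Spec.preimage (s ≫ pullback.snd j y)).hom
    have hβ : Spec.map (CommRingCat.ofHom β) = s ≫ pullback.snd j y := by
      have : CommRingCat.ofHom β = Spec.preimage (s ≫ pullback.snd j y) := rfl
      rw [this, Spec.map_preimage]
    let _ : Algebra k L := (β.comp φ).toAlgebra
    let β' : K →ₐ[k] L := { β with commutes' := fun _ => rfl }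
    have hover : IsOver j (s ≫ pullback.fst j y) := by
      rw [IsOver, Category.assoc, pullback.condition, ← Category.assoc, ← hβ, ← hφ,
        ← Spec.map_comp]
      rfl
    obtain ⟨i, ψ, h⟩ := F.surj L _ hover
    let θ : K ⊗[k] F.B i →ₐ[k] L := Algebra.TensorProduct.lift β' ψ (fun _ _ => .all _ _)
    have hθ : Spec.map (CommRingCat.ofHom θ.toRingHom) ≫ z i = s := by
      apply pullback.hom_ext
      · rw [Category.assoc, hz1, ← h, ← Category.assoc, ← Spec.map_comp]
        congr 2
        ext x
        show θ (1 ⊗ₜ x) = ψ x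
        simp [θ]
      · rw [Category.assoc, hz2, ← hβ, ← Spec.map_comp]
        congr 1
        ext x
        show θ (x ⊗ₜ 1) = β x
        simp [θ, β']
    refine ⟨i, Spec.map (CommRingCat.ofHom θ.toRingHom) (cpt L), ?_⟩
    rw [← Scheme.Hom.comp_apply, hθ, hs]
  -- the common point
  have hdom : ∀ i, IsDomain (K ⊗[k] F.B i) := fun i =>
    Fermat.Agent.AV.isDomain_tensorProduct k K (F.B i)
  have hdomΩ : IsDomain (K ⊗[k] F.Ω) := Fermat.Agent.AV.isDomain_tensorProduct k K F.Ω
  obtain ⟨p⟩ : Nonempty (Spec (CommRingCat.of (K ⊗[k] F.Ω))) :=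
    inferInstanceAs (Nonempty (PrimeSpectrum (K ⊗[k] F.Ω)))
  choose ψ hψ using F.common
  let Ψ : ∀ i, K ⊗[k] F.B i →ₐ[k] K ⊗[k] F.Ω := fun i =>
    Algebra.TensorProduct.map (AlgHom.id k K) (ψ i)
  have hΨ : ∀ i i', Spec.map (CommRingCat.ofHom (Ψ i).toRingHom) ≫ z i =
      Spec.map (CommRingCat.ofHom (Ψ i').toRingHom) ≫ z i' := by
    have h1 : ∀ i, (Spec.map (CommRingCat.ofHom (Ψ i).toRingHom) ≫ z i) ≫ pullback.fst j y =
        Spec.map (CommRingCat.ofHom
          (Algebra.TensorProduct.includeRight : F.Ω →ₐ[k] K ⊗[k] F.Ω).toRingHom) ≫ F.w := by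
      intro i
      rw [Category.assoc, hz1, ← hψ i, ← Category.assoc, ← Category.assoc, ← Spec.map_comp,
        ← Spec.map_comp]
      congr 2
    have h2 : ∀ i, (Spec.map (CommRingCat.ofHom (Ψ i).toRingHom) ≫ z i) ≫ pullback.snd j y =
        Spec.map (CommRingCat.ofHom (algebraMap K (K ⊗[k] F.Ω))) := by
      intro i
      rw [Category.assoc, hz2, ← Spec.map_comp]
      congr 1
      ext x
      show Ψ i (x ⊗ₜ 1) = x ⊗ₜ 1
      simp [Ψ]
    intro i i'
    apply pullback.hom_ext
    · rw [h1, h1]
    · rw [h2, h2]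
  let i₀ : F.ι := Classical.arbitrary _
  let q : (pullback j y : Scheme) := (Spec.map (CommRingCat.ofHom (Ψ i₀).toRingHom) ≫ z i₀) p
  have hq : ∀ i, q ∈ Set.range (z i) := by
    intro i
    refine ⟨Spec.map (CommRingCat.ofHom (Ψ i).toRingHom) p, ?_⟩
    rw [← Scheme.Hom.comp_apply, hΨ i i₀]
  have hpre : ∀ i, _root_.IsPreconnected (Set.range (z i)) := by
    intro i
    have := hdom i
    have h4 : IrreducibleSpace (PrimeSpectrum (K ⊗[k] F.B i)) := PrimeSpectrum.irreducibleSpace
    have h5 : PreconnectedSpace (PrimeSpectrum (K ⊗[k] F.B i)) :=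
      PreirreducibleSpace.preconnectedSpace _
    have : PreconnectedSpace (Spec (CommRingCat.of (K ⊗[k] F.B i))) := h5
    exact isPreconnected_range (z i).continuous
  have huniv : (Set.univ : Set (pullback j y : Scheme)) = ⋃ i, Set.range (z i) := by
    symm
    rw [Set.eq_univ_iff_forall]
    intro x
    obtain ⟨i, hi⟩ := hcover x
    exact Set.mem_iUnion.mpr ⟨i, hi⟩
  have h3 : _root_.IsPreconnected (Set.univ : Set (pullback j y : Scheme)) := by
    rw [huniv]
    exact isPreconnected_iUnion ⟨q, Set.mem_iInter.mpr hq⟩ hpre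
  exact { isPreconnected_univ := h3, toNonempty := ⟨q⟩ }

/-- **Properness criterion** -/
theorem isProper_of [LocallyOfFiniteType j] (F : IrrCover j)
    (hE : ValuativeCriterion.Existence j) (hU : ValuativeCriterion.Uniqueness j) : IsProper j := by
  have := F.quasiCompact
  have : IsLocallyNoetherian J := LocallyOfFiniteType.isLocallyNoetherian j
  have : QuasiSeparated j := inferInstance
  have := UniversallyClosed.of_valuativeCriterion j hE
  have := IsSeparated.of_valuativeCriterion j hU
  exact { }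

/-- smoothness from an open cover -/
theorem smooth_of_cover {ι : Type u} (X : ι → Scheme.{u}) (f : ∀ i, X i ⟶ J)
    [∀ i, IsOpenImmersion (f i)] (hf : ∀ x : J, ∃ i, x ∈ Set.range (f i))
    (hs : ∀ i, Smooth (f i ≫ j)) : Smooth j := by
  let 𝒰 : J.OpenCover :=
    { I₀ := ι
      X := X
      f := f
      mem₀ := by
        rw [Scheme.ofArrows_mem_precoverage_iff]
        exact ⟨fun x => hf x, inferInstance⟩ }
  have : IsZariskiLocalAtSource @Smooth.{u} :=
    HasRingHomProperty.instIsZariskiLocalAtSource (P := @Smooth.{u}) (Q := RingHom.Smooth)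
  exact (IsZariskiLocalAtSource.iff_of_openCover (P := @Smooth) 𝒰).mpr hs

end Over

end Fermat.Agent.S25.PropS
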