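import Mathlib
import Fermat.Agent.S25.AlgBCLB
import Fermat.Agent.S25.LBHom

/-!
# S25 / SEP: homomorphisms of line bundles over a field

A nonzero homomorphism between line bundles of the same Euler characteristic over a field is an
isomorphism.
-/

set_option autoImplicit false

universe u

open scoped TensorProduct Polynomial

noncomputable section

namespace Fermat.Agent.S25.Sep

section inv

variable {R M N : Type*} [CommRing R] [AddCommGroup M] [Module R M] [AddCommGroup N] [Module R N]
  [Module.Invertible R M]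

lemma dual_smul_comm (φ : Module.Dual R M) (x y : M) : φ x • y = φ y • x := by
  have h := Module.Invertible.tmul_comm (R := R) (m₁ := x) (m₂ := y)
  have := congrArg (TensorProduct.lid R M ∘ (φ.rTensor M)) h
  simpa using this

lemma exists_dual_ne_zero [Module.Projective R N] {y : N} (hy : y ≠ 0) :
    ∃ φ : Module.Dual R N, φ y ≠ 0 := by
  by_contra! h
  exact hy ((Module.forall_dual_apply_eq_zero_iff R y).mp h)

lemma injective_of_ne_zero [IsDomain R] [Module.Invertible R N] (f : M →ₗ[R] N) (hf : f ≠ 0) :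
    Function.Injective f := by
  obtain ⟨x, hx⟩ : ∃ x, f x ≠ 0 := by
    by_contra! h
    exact hf (LinearMap.ext h)
  rw [injective_iff_map_eq_zero]
  intro y hy
  by_contra hy0
  obtain ⟨φ, hφ⟩ := exists_dual_ne_zero (R := R) hy0
  have h1 : φ y • f x = 0 := by rw [← map_smul, ← dual_smul_comm, map_smul, hy, smul_zero]
  rcases smul_eq_zero.mp h1 with h | h
  · exact hφ h
  · exact hx h

/-- the cokernel of a nonzero map of invertible modules is killed by a nonzero element -/
lemma exists_smul_mem_range [IsDomain R] [Module.Invertible R N] (f : M →ₗ[R] N) (hf : f ≠ 0) :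
    ∃ a : R, a ≠ 0 ∧ ∀ y, a • y ∈ LinearMap.range f := by
  obtain ⟨x, hx⟩ : ∃ x, f x ≠ 0 := by
    by_contra! h
    exact hf (LinearMap.ext h)
  obtain ⟨φ, hφ⟩ := exists_dual_ne_zero (R := R) hx
  refine ⟨φ (f x), hφ, fun y ↦ ⟨φ y • x, ?_⟩⟩
  rw [map_smul, dual_smul_comm]

end inv

lemma finite_quotient_span {K R : Type*} [Field K] [CommRing R] [IsDomain R] [Algebra K R]
    (g : K[X] →ₐ[K] R) (hg : g.toRingHom.Finite) {a : R} (ha : a ≠ 0) :
    Module.Finite K (R ⧸ Ideal.span {a}) := by
  have hint : g.toRingHom.IsIntegralElem a := RingHom.IsIntegral.of_finite hg a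
  obtain ⟨p, hp0, hp⟩ : ∃ p : K[X], p ≠ 0 ∧ g p ∈ Ideal.span {a} := by
    let _ : Algebra K[X] R := g.toRingHom.toAlgebra
    have h := Ideal.comap_ne_bot_of_integral_mem (R := K[X]) (I := Ideal.span {a}) ha
      (Ideal.mem_span_singleton_self a) hint
    obtain ⟨p, hp, hp0⟩ := Submodule.exists_mem_ne_zero_of_ne_bot h
    exact ⟨p, hp0, hp⟩
  have hfS : (algebraMap K (K[X] ⧸ Ideal.span {p})).Finite := by
    rw [RingHom.finite_algebraMap]
    exact (AdjoinRoot.powerBasis hp0).finite
  let h : K[X] ⧸ Ideal.span {p} →+* R ⧸ Ideal.span {a} :=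
    Ideal.quotientMap (Ideal.span {a}) g.toRingHom (by
      rw [Ideal.span_singleton_le_iff_mem]; exact hp)
  have hfh : h.Finite := by
    refine RingHom.Finite.of_comp_finite (f := Ideal.Quotient.mk (Ideal.span {p})) ?_
    rw [Ideal.quotientMap_comp_mk]
    exact RingHom.Finite.comp (.of_surjective _ Ideal.Quotient.mk_surjective) hg
  have := hfh.comp hfS
  have h2 : h.comp (algebraMap K (K[X] ⧸ Ideal.span {p})) = algebraMap K (R ⧸ Ideal.span {a}) := by
    ext c
    show Ideal.Quotient.mk _ (g (algebraMap K _ c)) = _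
    rw [AlgHom.commutes]
    rfl
  rw [h2, RingHom.finite_algebraMap] at this
  exact this

variable {k : Type u} [Field k] (𝒞 : TwoChart k) (B : Type u) [CommRing B] [Algebra k B]

/-- `B[X] → R0 B`, `X ↦ f0` -/
def g0 : B[X] →ₐ[B] 𝒞.R0 B := Polynomial.aeval (𝒞.f0B B)

lemma g0_finite : (g0 𝒞 B).toRingHom.Finite := by
  classical
  let e : B ⊗[k] k[X] →ₐ[B] 𝒞.R0 B :=
    Algebra.TensorProduct.map (AlgHom.id B B) (Polynomial.aeval 𝒞.f0 : k[X] →ₐ[k] 𝒞.A0)
  have he : e.toRingHom.Finite := by
    let _ : Algebra k[X] 𝒞.A0 := (Polynomial.aeval 𝒞.f0 : k[X] →ₐ[k] 𝒞.A0).toRingHom.toAlgebra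
    have h1 : Module.Finite k[X] 𝒞.A0 := 𝒞.fin0
    obtain ⟨s, hs⟩ := h1
    let _ : Algebra (B ⊗[k] k[X]) (𝒞.R0 B) := e.toRingHom.toAlgebra
    refine ⟨⟨s.image (fun x ↦ (1 : B) ⊗ₜ[k] x), ?_⟩⟩
    rw [Submodule.eq_top_iff']
    intro x
    induction x using TensorProduct.induction_on with
    | zero => exact Submodule.zero_mem _
    | add x y hx hy => exact Submodule.add_mem _ hx hy
    | tmul b a =>
      have ha : a ∈ Submodule.span k[X] (s : Set 𝒞.A0) := by rw [hs]; trivial
      induction ha using Submodule.span_induction with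
      | zero => rw [TensorProduct.tmul_zero]; exact Submodule.zero_mem _
      | add x y _ _ hx hy => rw [TensorProduct.tmul_add]; exact Submodule.add_mem _ hx hy
      | mem x hx =>
        have h : b ⊗ₜ[k] x = (b ⊗ₜ[k] (1 : k[X]) : B ⊗[k] k[X]) • ((1 : B) ⊗ₜ[k] x : 𝒞.R0 B) := by
          show _ = e (b ⊗ₜ[k] 1) * _
          simp [e]
        rw [h]
        refine Submodule.smul_mem _ _ (Submodule.subset_span ?_)
        simp only [Finset.coe_image]
        exact ⟨x, hx, rfl⟩
      | smul c x _ hx =>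
        have h : b ⊗ₜ[k] (c • x) = (1 ⊗ₜ[k] c : B ⊗[k] k[X]) • (b ⊗ₜ[k] x : 𝒞.R0 B) := by
          show _ = e (1 ⊗ₜ[k] c) * _
          have h2 : c • x = Polynomial.aeval 𝒞.f0 c * x := rfl
          simp [e, h2]
        rw [h]
        exact Submodule.smul_mem _ _ hx
  let j : B[X] →ₐ[B] B ⊗[k] k[X] := Polynomial.aeval (1 ⊗ₜ[k] Polynomial.X)
  have hj : Function.Surjective j := by
    intro x
    induction x using TensorProduct.induction_on with
    | zero => exact ⟨0, map_zero _⟩
    | add x y hx hy =>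
      obtain ⟨x, rfl⟩ := hx
      obtain ⟨y, rfl⟩ := hy
      exact ⟨x + y, map_add _ _ _⟩
    | tmul b a =>
      induction a using Polynomial.induction_on' with
      | add p q hp hq =>
        obtain ⟨p', hp⟩ := hp
        obtain ⟨q', hq⟩ := hq
        exact ⟨p' + q', by rw [map_add, hp, hq, TensorProduct.tmul_add]⟩
      | monomial n c =>
        refine ⟨Polynomial.monomial n (c • b), ?_⟩
        simp only [j, Polynomial.aeval_monomial, Algebra.TensorProduct.tmul_pow, one_pow]
        rw [Algebra.TensorProduct.algebraMap_apply, Algebra.TensorProduct.tmul_mul_tmul]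
        rw [← Polynomial.C_mul_X_pow_eq_monomial, ← Polynomial.smul_eq_C_mul,
          TensorProduct.tmul_smul, TensorProduct.smul_tmul']
        simp
  have h : (g0 𝒞 B) = e.comp j := by
    refine Polynomial.algHom_ext ?_
    simp [g0, e, j, TwoChart.f0B]
  rw [h]
  exact he.comp (.of_surjective _ hj)

lemma finite_of_torsion {K R Q : Type*} [Field K] [CommRing R] [Algebra K R] [AddCommGroup Q]
    [Module R Q] [Module K Q] [IsScalarTower K R Q] [Module.Finite R Q] (a : R)
    (ha : ∀ x : Q, a • x = 0) [Module.Finite K (R ⧸ Ideal.span {a})] : Module.Finite K Q := by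
  obtain ⟨n, s, hs⟩ := Module.Finite.exists_fin (R := R) (M := Q)
  let l : Fin n → ((R ⧸ Ideal.span {a}) →ₗ[R] Q) := fun i ↦
    Submodule.liftQ (Ideal.span {a}) (LinearMap.toSpanSingleton R Q (s i)) (by
      rw [Ideal.span, Submodule.span_le]
      rintro _ rfl
      exact ha _)
  let π : (Fin n → (R ⧸ Ideal.span {a})) →ₗ[R] Q := LinearMap.lsum R _ R l
  have hπ : Function.Surjective π := by
    rw [← LinearMap.range_eq_top, eq_top_iff, ← hs, Submodule.span_le]
    rintro _ ⟨i, rfl⟩
    refine ⟨Pi.single i 1, ?_⟩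
    simp only [π, LinearMap.lsum_apply, LinearMap.sum_apply, LinearMap.comp_apply,
      LinearMap.proj_apply]
    rw [Finset.sum_eq_single i]
    · rw [Pi.single_eq_same]
      show (1 : R) • s i = s i
      simp
    · intro j _ hj
      rw [Pi.single_eq_of_ne hj, map_zero]
    · simp
  exact Module.Finite.of_surjective (π.restrictScalars K) hπ

lemma finite_of_smul_mem {K R N : Type*} [Field K] [CommRing R] [Algebra K R] [AddCommGroup N]
    [Module R N] [Module K N] [IsScalarTower K R N] [Module.Finite R N] (P : Submodule R N) (a : R)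
    (ha : ∀ x : N, a • x ∈ P) [Module.Finite K (R ⧸ Ideal.span {a})] :
    Module.Finite K (N ⧸ P.restrictScalars K) := by
  have : Module.Finite K (N ⧸ P) := by
    refine finite_of_torsion a (fun x ↦ ?_)
    obtain ⟨x, rfl⟩ := P.mkQ_surjective x
    rw [← map_smul]
    exact (Submodule.Quotient.mk_eq_zero P).mpr (ha x)
  exact Module.Finite.equiv (Submodule.Quotient.restrictScalarsEquiv K P).symm

section lin

variable {K : Type*} [Field K] {M N M' N' : Type*} [AddCommGroup M] [Module K M] [AddCommGroup N]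
  [Module K N] [AddCommGroup M'] [Module K M'] [AddCommGroup N'] [Module K N']

/-- a localization of a finite-dimensional space is surjective -/
lemma surjective_of_loc [FiniteDimensional K M] (g : M →ₗ[K] N) (S : M →ₗ[K] M)
    (T : N →ₗ[K] N) (hT : Function.Injective T) (hc : ∀ x, g (S x) = T (g x))
    (hex : ∀ z, ∃ n : ℕ, (T ^ n) z ∈ LinearMap.range g) : Function.Surjective g := by
  let T' : LinearMap.range g →ₗ[K] LinearMap.range g := T.restrict (by
    rintro _ ⟨x, rfl⟩
    exact ⟨S x, hc x⟩)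
  have hT' : Function.Injective T' := fun x y h ↦ Subtype.ext (hT congr(($h).1))
  have hs : Function.Surjective T' := LinearMap.surjective_of_injective hT'
  have key : ∀ n : ℕ, ∀ z, (T ^ n) z ∈ LinearMap.range g → z ∈ LinearMap.range g := by
    intro n
    induction n with
    | zero => intro z hz; exact hz
    | succ n ih =>
      intro z hz
      refine ih z ?_
      obtain ⟨y, hy⟩ := hs ⟨_, hz⟩
      have h1 : T y.1 = (T ^ (n + 1)) z := congr(($hy).1)
      rw [pow_succ', Module.End.mul_apply] at h1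
      rw [← hT h1]
      exact y.2
  intro z
  obtain ⟨n, hn⟩ := hex z
  exact key n z hn

/-- the quotient of a product -/
def quotProd (p : Submodule K M) (q : Submodule K N) :
    ((M × N) ⧸ p.prod q) ≃ₗ[K] (M ⧸ p) × (N ⧸ q) :=
  (Submodule.quotEquivOfEq _ _ (by
      ext ⟨x, y⟩
      simp [LinearMap.mem_ker, Submodule.mem_prod])) ≪≫ₗ
    (p.mkQ.prodMap q.mkQ).quotKerEquivOfSurjective (by
      rintro ⟨x, y⟩
      obtain ⟨x, rfl⟩ := p.mkQ_surjective x
      obtain ⟨y, rfl⟩ := q.mkQ_surjective y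
      exact ⟨(x, y), rfl⟩)

end lin

section

variable {k : Type u} [Field k] {𝒞 : TwoChart k} {B : Type u} [CommRing B] [Algebra k B]

lemma f0B_mul_f1B : 𝒞.ρ0B B (𝒞.f0B B) * 𝒞.ρ1B B (𝒞.f1B B) = 1 := by
  simp [TwoChart.ρ0B, TwoChart.ρ1B, TwoChart.f0B, TwoChart.f1B, 𝒞.mul_eq_one,
    Algebra.TensorProduct.one_def]

/-- the inclusion `D → D(m)` -/
def twHom (D : LB 𝒞 B) (m : ℕ) : LB.Hom D (D.tw m) where
  l0 := .id
  l1 := (𝒞.f1B B) ^ m • .id
  l01 := .id
  h0 _ := rfl
  h1 x := by
    show (𝒞.ρ0B B (𝒞.f0B B)) ^ m • D.r1 ((𝒞.f1B B) ^ m • x) = D.r1 x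
    rw [D.bc1.smul, smul_smul, map_pow]
    erw [← mul_pow, f0B_mul_f1B]
    simp

lemma mapH0_injective {D D' : LB 𝒞 B} (f : LB.Hom D D') (hf : Function.Injective f.l01) :
    Function.Injective f.mapH0 := by
  rw [injective_iff_map_eq_zero]
  rintro ⟨⟨x0, x1⟩, hx⟩ h
  have hx' : D.r0 x0 = D.r1 x1 := D.mem_H0_iff.mp hx
  have h0 : f.l0 x0 = 0 := congr(($h).1.1)
  have h1 : f.l01 (D.r0 x0) = 0 := by rw [← f.h0, h0, map_zero]
  have h2 : D.r0 x0 = 0 := hf (by rw [h1, map_zero])
  have h3 : x0 = 0 := D.r0_injective (by rw [h2, map_zero])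
  have h4 : x1 = 0 := D.r1_injective (by rw [← hx', h2, map_zero])
  subst h3; subst h4; rfl

lemma l0_injective {D D' : LB 𝒞 B} (f : LB.Hom D D') (hf : Function.Injective f.l01) :
    Function.Injective f.l0 := by
  rw [injective_iff_map_eq_zero]
  intro x h
  exact D.r0_injective (hf (by rw [← f.h0, h, map_zero, map_zero, map_zero]))

lemma l1_injective {D D' : LB 𝒞 B} (f : LB.Hom D D') (hf : Function.Injective f.l01) :
    Function.Injective f.l1 := by
  rw [injective_iff_map_eq_zero]
  intro x h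
  exact D.r1_injective (hf (by rw [← f.h1, h, map_zero, map_zero, map_zero]))

/-- `H⁰` is finitely generated over a noetherian base -/
lemma finite_H0_noeth [IsNoetherianRing B] (D : LB 𝒞 B) : Module.Finite B D.H0 := by
  obtain ⟨m, hm⟩ := D.exists_tw_H1
  have := (D.tw m).finite_H0 (hm m le_rfl)
  exact Module.Finite.of_injective _ (mapH0_injective (twHom D m) Function.injective_id)

end

section field

variable {k : Type u} [Field k] {𝒞 : TwoChart k} {K : Type u} [Field K] [Algebra k K]

variable (𝒞 K) in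
lemma isDomain_R01 : IsDomain (𝒞.R01 K) := 𝒞.dom K

variable (𝒞 K) in
lemma isDomain_R0 : IsDomain (𝒞.R0 K) := by
  have := 𝒞.dom K
  exact (𝒞.ρ0B_injective K).isDomain (𝒞.ρ0B K).toRingHom

variable (𝒞 K) in
lemma isDomain_R1 : IsDomain (𝒞.R1 K) := isDomain_R0 𝒞.swap K

end field

end Fermat.Agent.S25.Sep
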