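import Mathlib
import Fermat.Agent.S25.SepAux

/-!
# S25 / SEP: homomorphisms of line bundles over a field

Over a field `K`, a nonzero homomorphism `f : D → D'` of line bundles is injective with
finite-dimensional cokernels, `chi D ≤ chi D'`, and `f` is an isomorphism iff `chi D = chi D'`.
-/

set_option autoImplicit false

universe u

open scoped TensorProduct Polynomial

noncomputable section

namespace Fermat.Agent.S25.Sep

variable {k : Type u} [Field k] {𝒞 : TwoChart k} {K : Type u} [Field K] [Algebra k K]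
  {D D' : LB 𝒞 K} (f : LB.Hom D D')

/-- exchanging the charts -/
def swapHom {B : Type u} [CommRing B] [Algebra k B] {D D' : LB 𝒞 B} (f : LB.Hom D D') :
    LB.Hom D.swap D'.swap where
  l0 := f.l1
  l1 := f.l0
  l01 := f.l01
  h0 := f.h1
  h1 := f.h0

lemma l01_ne_zero_of_l0 {B : Type u} [CommRing B] [Algebra k B] {D D' : LB 𝒞 B}
    (f : LB.Hom D D') (h : f.l0 ≠ 0) : f.l01 ≠ 0 := by
  intro h1
  apply h
  ext x
  exact D'.r0_injective (by rw [f.h0, h1]; simp)

lemma l0_ne_zero_of_l01 {B : Type u} [CommRing B] [Algebra k B] {D D' : LB 𝒞 B}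
    (f : LB.Hom D D') (h : f.l01 ≠ 0) : f.l0 ≠ 0 := by
  intro h1
  exact h (D.bc0.hom_ext fun x ↦ by rw [← f.h0, h1]; simp)

lemma l01_injective (hf : f.l01 ≠ 0) : Function.Injective f.l01 := by
  have := isDomain_R01 𝒞 K
  have : Module.Invertible (𝒞.R01 K) D.M01 := D.bc0.invertible
  have : Module.Invertible (𝒞.R01 K) D'.M01 := D'.bc0.invertible
  exact injective_of_ne_zero _ hf

lemma finite_coker0 (hf : f.l01 ≠ 0) :
    Module.Finite K (D'.M0 ⧸ LinearMap.range (f.l0.restrictScalars K)) := by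
  have := isDomain_R0 𝒞 K
  obtain ⟨a, ha, h⟩ := exists_smul_mem_range f.l0 (l0_ne_zero_of_l01 f hf)
  have h1 : Module.Finite K (𝒞.R0 K ⧸ Ideal.span {a}) :=
    finite_quotient_span (g0 𝒞 K) (g0_finite 𝒞 K) ha
  exact finite_of_smul_mem (LinearMap.range f.l0) a h

lemma finite_coker1 (hf : f.l01 ≠ 0) :
    Module.Finite K (D'.M1 ⧸ LinearMap.range (f.l1.restrictScalars K)) :=
  finite_coker0 (swapHom f) hf

/-- the map on cokernels -/
def cokerMap0 : (D'.M0 ⧸ LinearMap.range (f.l0.restrictScalars K)) →ₗ[K]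
    (D'.M01 ⧸ LinearMap.range (f.l01.restrictScalars K)) :=
  Submodule.mapQ _ _ D'.r0B (by
    rintro _ ⟨x, rfl⟩
    exact ⟨D.r0 x, (f.h0 x).symm⟩)

/-- the map on cokernels -/
def cokerMap1 : (D'.M1 ⧸ LinearMap.range (f.l1.restrictScalars K)) →ₗ[K]
    (D'.M01 ⧸ LinearMap.range (f.l01.restrictScalars K)) :=
  Submodule.mapQ _ _ D'.r1B (by
    rintro _ ⟨x, rfl⟩
    exact ⟨D.r1 x, (f.h1 x).symm⟩)

lemma cokerMap0_surjective (hf : f.l01 ≠ 0) : Function.Surjective (cokerMap0 f) := by
  have := finite_coker0 f hf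
  let S : (D'.M0 ⧸ LinearMap.range (f.l0.restrictScalars K)) →ₗ[K]
      (D'.M0 ⧸ LinearMap.range (f.l0.restrictScalars K)) :=
    Submodule.mapQ _ _ ((LinearMap.lsmul (𝒞.R0 K) D'.M0 (𝒞.f0B K)).restrictScalars K) (by
      rintro _ ⟨x, rfl⟩
      exact ⟨𝒞.f0B K • x, f.l0.map_smul _ _⟩)
  let F : 𝒞.R01 K := 𝒞.ρ0B K (𝒞.f0B K)
  let G : 𝒞.R01 K := 𝒞.ρ1B K (𝒞.f1B K)
  have hFG : G * F = 1 := by rw [mul_comm]; exact f0B_mul_f1B
  let T : (D'.M01 ⧸ LinearMap.range (f.l01.restrictScalars K)) →ₗ[K]
      (D'.M01 ⧸ LinearMap.range (f.l01.restrictScalars K)) :=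
    Submodule.mapQ _ _ ((LinearMap.lsmul (𝒞.R01 K) D'.M01 F).restrictScalars K) (by
      rintro _ ⟨x, rfl⟩
      exact ⟨F • x, f.l01.map_smul _ _⟩)
  have hT : Function.Injective T := by
    rw [injective_iff_map_eq_zero]
    intro x hx
    obtain ⟨x, rfl⟩ := Submodule.mkQ_surjective _ x
    have h1 : F • x ∈ LinearMap.range (f.l01.restrictScalars K) :=
      (Submodule.Quotient.mk_eq_zero _).mp hx
    obtain ⟨y, hy⟩ := h1
    refine (Submodule.Quotient.mk_eq_zero _).mpr ⟨G • y, ?_⟩
    have h2 : f.l01 (G • y) = G • f.l01 y := f.l01.map_smul _ _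
    have h3 : f.l01 y = F • x := hy
    show f.l01 (G • y) = x
    rw [h2, h3, smul_smul, hFG, one_smul]
  refine surjective_of_loc (cokerMap0 f) S T hT (fun x ↦ ?_) (fun z ↦ ?_)
  · obtain ⟨x, rfl⟩ := Submodule.mkQ_surjective _ x
    show Submodule.Quotient.mk (D'.r0 (𝒞.f0B K • x)) = Submodule.Quotient.mk (F • D'.r0 x)
    rw [D'.bc0.smul]
    rfl
  · obtain ⟨z, rfl⟩ := Submodule.mkQ_surjective _ z
    obtain ⟨S0⟩ := D'.std0
    obtain ⟨n, hn⟩ := S0.exists_zpow_mem z
    refine ⟨n.toNat, ?_⟩
    obtain ⟨y, hy⟩ := hn (n.toNat : ℤ) (by omega)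
    refine ⟨Submodule.Quotient.mk y, ?_⟩
    have h1 : ∀ m : ℕ, (T ^ m) (Submodule.Quotient.mk z) = Submodule.Quotient.mk (F ^ m • z) := by
      intro m
      induction m with
      | zero => simp
      | succ m ih =>
        rw [pow_succ', Module.End.mul_apply, ih]
        show Submodule.Quotient.mk (F • F ^ m • z) = _
        rw [smul_smul, ← pow_succ']
    refine Eq.trans ?_ (h1 n.toNat).symm
    show Submodule.Quotient.mk (D'.r0 y) = _
    congr 1
    have h2 : (D'.T ^ (n.toNat : ℤ)) z = F ^ n.toNat • z := by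
      rw [LB.T, unitMul_zpow, zpow_natCast]
      rfl
    exact hy.trans h2

lemma cokerMap1_surjective (hf : f.l01 ≠ 0) : Function.Surjective (cokerMap1 f) :=
  cokerMap0_surjective (swapHom f) hf

lemma finite_coker01 (hf : f.l01 ≠ 0) :
    Module.Finite K (D'.M01 ⧸ LinearMap.range (f.l01.restrictScalars K)) := by
  have := finite_coker0 f hf
  exact Module.Finite.of_surjective _ (cokerMap0_surjective f hf)

lemma chi_eq_index (D : LB 𝒞 K) : D.chi = D.diff.index := rfl

/-- how the Euler characteristic changes -/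
theorem chi_eq (hf : f.l01 ≠ 0) : D'.chi + Module.finrank K
      (D'.M01 ⧸ LinearMap.range (f.l01.restrictScalars K)) =
    D.chi + Module.finrank K (D'.M0 ⧸ LinearMap.range (f.l0.restrictScalars K)) +
      Module.finrank K (D'.M1 ⧸ LinearMap.range (f.l1.restrictScalars K)) := by
  have c0 := finite_coker0 f hf
  have c1 := finite_coker1 f hf
  have c01 := finite_coker01 f hf
  have hinj := l01_injective f hf
  let l : D.M0 × D.M1 →ₗ[K] D'.M0 × D'.M1 :=
    (f.l0.restrictScalars K).prodMap (f.l1.restrictScalars K)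
  have hl : Function.Injective l := by
    rintro ⟨x0, x1⟩ ⟨y0, y1⟩ h
    simp only [l, LinearMap.prodMap_apply, Prod.mk.injEq] at h
    exact Prod.ext (l0_injective f hinj h.1) (l1_injective f hinj h.2)
  have hsq : D'.diff ∘ₗ l = (f.l01.restrictScalars K) ∘ₗ D.diff := by
    refine LinearMap.ext fun x ↦ ?_
    show D'.diff (f.l0 x.1, f.l1 x.2) = f.l01 (D.diff x)
    rw [LB.diff_apply, LB.diff_apply, map_sub, f.h0, f.h1]
  have hrange : LinearMap.range l = (LinearMap.range (f.l0.restrictScalars K)).prod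
      (LinearMap.range (f.l1.restrictScalars K)) := LinearMap.range_prodMap _ _
  let e := (Submodule.quotEquivOfEq _ _ hrange) ≪≫ₗ
    quotProd (LinearMap.range (f.l0.restrictScalars K)) (LinearMap.range (f.l1.restrictScalars K))
  have i1 : FiniteDimensional K (LinearMap.ker D.diff) := finite_H0_noeth D
  have i2 : FiniteDimensional K (D.M01 ⧸ LinearMap.range D.diff) := D.finite_H1
  have i3 : FiniteDimensional K (LinearMap.ker D'.diff) := finite_H0_noeth D'
  have i4 : FiniteDimensional K (D'.M01 ⧸ LinearMap.range D'.diff) := D'.finite_H1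
  have i5 : FiniteDimensional K (LinearMap.ker l) := by
    rw [LinearMap.ker_eq_bot.mpr hl]; infer_instance
  have i6 : FiniteDimensional K ((D'.M0 × D'.M1) ⧸ LinearMap.range l) :=
    Module.Finite.equiv e.symm
  have i7 : FiniteDimensional K (LinearMap.ker (f.l01.restrictScalars K)) := by
    have hk : LinearMap.ker (f.l01.restrictScalars K) = ⊥ := LinearMap.ker_eq_bot.mpr hinj
    rw [hk]; infer_instance
  have h1 := LinearMap.index_comp (f := l) D'.diff
  have h2 := LinearMap.index_comp (f := D.diff) (f.l01.restrictScalars K)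
  rw [hsq, h2, LinearMap.index_of_injective hl, LinearMap.index_of_injective
    (f := f.l01.restrictScalars K) hinj, e.finrank_eq, Module.finrank_prod] at h1
  rw [chi_eq_index, chi_eq_index]
  push_cast at h1
  linarith

theorem chi_le (hf : f.l01 ≠ 0) : D.chi ≤ D'.chi := by
  have h := chi_eq f hf
  have c0 := finite_coker0 f hf
  have h1 := LinearMap.finrank_le_finrank_of_surjective (cokerMap0_surjective f hf)
  linarith [Int.natCast_nonneg (Module.finrank K
    (D'.M1 ⧸ LinearMap.range (f.l1.restrictScalars K))), Int.ofNat_le.mpr h1]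

/-- over a field, a nonzero homomorphism between line bundles of the same Euler characteristic is
an isomorphism -/
theorem bijective_of_chi_eq (hf : f.l01 ≠ 0) (hchi : D'.chi ≤ D.chi) :
    Function.Bijective f.l0 ∧ Function.Bijective f.l1 ∧ Function.Bijective f.l01 := by
  have h := chi_eq f hf
  have c0 := finite_coker0 f hf
  have c1 := finite_coker1 f hf
  have c01 := finite_coker01 f hf
  have hinj := l01_injective f hf
  have h0 := LinearMap.finrank_le_finrank_of_surjective (cokerMap0_surjective f hf)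
  have h1 := LinearMap.finrank_le_finrank_of_surjective (cokerMap1_surjective f hf)
  have d0 : Module.finrank K (D'.M0 ⧸ LinearMap.range (f.l0.restrictScalars K)) = 0 := by omega
  have d1 : Module.finrank K (D'.M1 ⧸ LinearMap.range (f.l1.restrictScalars K)) = 0 := by omega
  have d01 : Module.finrank K (D'.M01 ⧸ LinearMap.range (f.l01.restrictScalars K)) = 0 := by omega
  refine ⟨⟨l0_injective f hinj, ?_⟩, ⟨l1_injective f hinj, ?_⟩, ⟨hinj, ?_⟩⟩
  · have h2 := Module.finrank_zero_iff.mp d0
    exact (LinearMap.range_eq_top (f := f.l0.restrictScalars K)).mp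
      (Submodule.Quotient.subsingleton_iff.mp h2)
  · have h2 := Module.finrank_zero_iff.mp d1
    exact (LinearMap.range_eq_top (f := f.l1.restrictScalars K)).mp
      (Submodule.Quotient.subsingleton_iff.mp h2)
  · have h2 := Module.finrank_zero_iff.mp d01
    exact (LinearMap.range_eq_top (f := f.l01.restrictScalars K)).mp
      (Submodule.Quotient.subsingleton_iff.mp h2)

/-- over a field, a nonzero homomorphism between line bundles of the same Euler characteristic is
an isomorphism -/
def isoOfChiEq (hf : f.l01 ≠ 0) (hchi : D'.chi ≤ D.chi) : LB.Iso D D' :=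
  f.toIso (bijective_of_chi_eq f hf hchi).1 (bijective_of_chi_eq f hf hchi).2.1
    (bijective_of_chi_eq f hf hchi).2.2

end Fermat.Agent.S25.Sep
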