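import Mathlib
import Fermat.Agent.S25.SepField

/-!
# S25 / SEP: base change of homomorphisms, and the fibrewise criterion for isomorphisms
-/

set_option autoImplicit false

universe u

open scoped TensorProduct Polynomial

noncomputable section

namespace Fermat.Agent.S25.Sep

variable {k : Type u} [Field k] {𝒞 : TwoChart k}

section bcHom

variable {B B' : Type u} [CommRing B] [Algebra k B] [CommRing B'] [Algebra k B']
  {φ : B →ₐ[k] B'} {D D' : LB 𝒞 B} {E E' : LB 𝒞 B'}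

/-- base change of a homomorphism -/
def bcHom (f : LB.Hom D D') (b : LB.BC φ D E) (b' : LB.BC φ D' E') : LB.Hom E E' where
  l0 := b.bc0.map b'.bc0 f.l0
  l1 := b.bc1.map b'.bc1 f.l1
  l01 := b.bc01.map b'.bc01 f.l01
  h0 x := by
    induction x using b.bc0.induction with
    | hg m => rw [IsBC.map_apply, b'.h0, b.h0, IsBC.map_apply, f.h0]
    | h0 => simp
    | hadd x y hx hy => simp only [map_add, hx, hy]
    | hsmul c x hx => rw [map_smul, E'.bc0.smul, hx, E.bc0.smul, map_smul]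
  h1 x := by
    induction x using b.bc1.induction with
    | hg m => rw [IsBC.map_apply, b'.h1, b.h1, IsBC.map_apply, f.h1]
    | h0 => simp
    | hadd x y hx hy => simp only [map_add, hx, hy]
    | hsmul c x hx => rw [map_smul, E'.bc1.smul, hx, E.bc1.smul, map_smul]

variable (f : LB.Hom D D') (b : LB.BC φ D E) (b' : LB.BC φ D' E')

@[simp] lemma bcHom_l0 (x : D.M0) : (bcHom f b b').l0 (b.u0 x) = b'.u0 (f.l0 x) :=
  b.bc0.map_apply b'.bc0 f.l0 x

@[simp] lemma bcHom_l1 (x : D.M1) : (bcHom f b b').l1 (b.u1 x) = b'.u1 (f.l1 x) :=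
  b.bc1.map_apply b'.bc1 f.l1 x

@[simp] lemma bcHom_l01 (x : D.M01) : (bcHom f b b').l01 (b.u01 x) = b'.u01 (f.l01 x) :=
  b.bc01.map_apply b'.bc01 f.l01 x

end bcHom

section fib

variable {B : Type u} [CommRing B] [Algebra k B] {D D' : LB 𝒞 B}

/-- a proper submodule of a finite module is killed by a nonzero map to a residue field -/
lemma exists_quot_maximal {R M : Type*} [CommRing R] [AddCommGroup M] [Module R M]
    [Module.Finite R M] (P : Submodule R M) (hP : P ≠ ⊤) :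
    ∃ (n : Ideal R) (_ : n.IsMaximal) (q : M →ₗ[R] R ⧸ n), Function.Surjective q ∧
      ∀ x ∈ P, q x = 0 := by
  obtain ⟨P', hP', hle⟩ := (eq_top_or_exists_le_coatom P).resolve_left hP
  have hs : IsSimpleModule R (M ⧸ P') := isSimpleModule_iff_isCoatom.mpr hP'
  obtain ⟨n, hn, ⟨e⟩⟩ := isSimpleModule_iff_quot_maximal.mp hs
  refine ⟨n, hn, e.toLinearMap ∘ₗ P'.mkQ, e.surjective.comp P'.mkQ_surjective, fun x hx ↦ ?_⟩
  show e (P'.mkQ x) = 0
  rw [Submodule.mkQ_apply, (Submodule.Quotient.mk_eq_zero P').mpr (hle hx), map_zero]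

lemma eq_zero_of_fiber (f : LB.Hom D D') {F : Type u} [Field F] [Algebra k F]
    (π : 𝒞.R0 B →ₐ[k] F) (q : D'.M0 →+ F) (hq : ∀ a m, q (a • m) = π a * q m)
    (hq0 : ∀ x, q (f.l0 x) = 0) {E E' : LB 𝒞 F}
    (b : LB.BC (π.comp (Algebra.TensorProduct.includeLeft : B →ₐ[k] 𝒞.R0 B)) D E)
    (b' : LB.BC (π.comp (Algebra.TensorProduct.includeLeft : B →ₐ[k] 𝒞.R0 B)) D' E')
    (hs : Function.Surjective (bcHom f b b').l0) : q = 0 := by
  let μ : 𝒞.R0 F →ₐ[k] F := Algebra.TensorProduct.lift (AlgHom.id k F)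
    (π.comp (Algebra.TensorProduct.includeRight : 𝒞.A0 →ₐ[k] 𝒞.R0 B))
    (fun _ _ ↦ .all _ _)
  have hμ : ∀ a : 𝒞.R0 B, μ (𝒞.bc0 (π.comp
      (Algebra.TensorProduct.includeLeft : B →ₐ[k] 𝒞.R0 B)) a) = π a := by
    intro a
    induction a using TensorProduct.induction_on with
    | zero => simp
    | add x y hx hy => simp only [map_add, hx, hy]
    | tmul x y =>
      have h1 : 𝒞.bc0 (π.comp (Algebra.TensorProduct.includeLeft : B →ₐ[k] 𝒞.R0 B)) (x ⊗ₜ y) =
        π (x ⊗ₜ 1) ⊗ₜ y := rfl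
      have h2 : μ (π (x ⊗ₜ 1) ⊗ₜ y) = π (x ⊗ₜ 1) * π (1 ⊗ₜ y) := by
        simp only [μ, Algebra.TensorProduct.lift_tmul]
        rfl
      rw [h1, h2, ← map_mul, Algebra.TensorProduct.tmul_mul_tmul, one_mul, mul_one]
  let Q : E'.M0 →+ F := b'.bc0.slift (μ : 𝒞.R0 F →+* F) q (fun a m ↦ by
    rw [hq, smul_eq_mul]
    congr 1
    exact (hμ a).symm)
  have hQ : ∀ m, Q (b'.u0 m) = q m := fun m ↦ b'.bc0.slift_apply _ _ _ _
  have hQs : ∀ (c : 𝒞.R0 F) m, Q (c • m) = (μ : 𝒞.R0 F →+* F) c • Q m := fun c m ↦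
    b'.bc0.slift_smul _ _ _ _ _
  have h0 : Q.comp (bcHom f b b').l0.toAddMonoidHom = 0 := by
    refine b.bc0.slift_ext (μ : 𝒞.R0 F →+* F) (fun c m ↦ ?_) (fun c m ↦ ?_) (fun m ↦ ?_)
    · have h1 : (bcHom f b b').l0.toAddMonoidHom (c • m) = c • (bcHom f b b').l0.toAddMonoidHom m :=
        (bcHom f b b').l0.map_smul c m
      rw [AddMonoidHom.comp_apply, h1, hQs]
      rfl
    · rw [AddMonoidHom.zero_apply, AddMonoidHom.zero_apply, smul_zero]
    · have h1 : (bcHom f b b').l0.toAddMonoidHom (b.u0 m) = b'.u0 (f.l0 m) := bcHom_l0 f b b' m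
      rw [AddMonoidHom.comp_apply, h1, hQ, hq0, AddMonoidHom.zero_apply]
  ext m
  obtain ⟨y, hy⟩ := hs (b'.u0 m)
  rw [← hQ, ← hy]
  exact DFunLike.congr_fun h0 y

/-- surjectivity of `l0` can be checked on fibres -/
theorem surjective_l0_of_fibers (f : LB.Hom D D')
    (H : ∀ (F : Type u) [Field F] [Algebra k F] (ψ : B →ₐ[k] F), ∃ (E E' : LB 𝒞 F)
      (b : LB.BC ψ D E) (b' : LB.BC ψ D' E'), Function.Surjective (bcHom f b b').l0) :
    Function.Surjective f.l0 := by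
  rw [← LinearMap.range_eq_top]
  by_contra hne
  obtain ⟨n, hn, q, hq, hq0⟩ := exists_quot_maximal _ hne
  let _ : Field (𝒞.R0 B ⧸ n) := Ideal.Quotient.field n
  obtain ⟨E, E', b, b', hs⟩ := H (𝒞.R0 B ⧸ n) ((Ideal.Quotient.mkₐ k n).comp
    (Algebra.TensorProduct.includeLeft : B →ₐ[k] 𝒞.R0 B))
  have h1 : q.toAddMonoidHom = 0 := by
    refine eq_zero_of_fiber f (Ideal.Quotient.mkₐ k n) q.toAddMonoidHom (fun a m ↦ ?_)
      (fun x ↦ ?_) b b' hs
    · exact (q.map_smul a m).trans (Algebra.smul_def a (q m))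
    · exact hq0 _ ⟨x, rfl⟩
  obtain ⟨m, hm⟩ := hq 1
  have h2 : q m = 0 := DFunLike.congr_fun h1 m
  rw [h2] at hm
  exact zero_ne_one hm

/-- bijectivity of `l0` can be checked on fibres -/
theorem bijective_l0_of_fibers (f : LB.Hom D D')
    (H : ∀ (F : Type u) [Field F] [Algebra k F] (ψ : B →ₐ[k] F), ∃ (E E' : LB 𝒞 F)
      (b : LB.BC ψ D E) (b' : LB.BC ψ D' E'), Function.Surjective (bcHom f b b').l0) :
    Function.Bijective f.l0 :=
  Module.Invertible.bijective_of_surjective (surjective_l0_of_fibers f H)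

lemma bcHom_swap {B' : Type u} [CommRing B'] [Algebra k B'] {φ : B →ₐ[k] B'} {E E' : LB 𝒞 B'}
    (f : LB.Hom D D') (b : LB.BC φ D E) (b' : LB.BC φ D' E') :
    bcHom (swapHom f) b.swap b'.swap = swapHom (bcHom f b b') := rfl

/-- bijectivity of `l1` can be checked on fibres -/
theorem bijective_l1_of_fibers (f : LB.Hom D D')
    (H : ∀ (F : Type u) [Field F] [Algebra k F] (ψ : B →ₐ[k] F), ∃ (E E' : LB 𝒞 F)
      (b : LB.BC ψ D E) (b' : LB.BC ψ D' E'), Function.Surjective (bcHom f b b').l1) :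
    Function.Bijective f.l1 := by
  refine bijective_l0_of_fibers (swapHom f) fun F _ _ ψ ↦ ?_
  obtain ⟨E, E', b, b', h⟩ := H F ψ
  exact ⟨E.swap, E'.swap, b.swap, b'.swap, h⟩

/-- a homomorphism `f : D → D'` over any base which is nonzero on all fibres, where moreover
`chi D' ≤ chi D` on all fibres, is an isomorphism -/
theorem nonempty_iso_of_fibers (f : LB.Hom D D')
    (H : ∀ (F : Type u) [Field F] [Algebra k F] (ψ : B →ₐ[k] F), ∃ (E E' : LB 𝒞 F)
      (b : LB.BC ψ D E) (b' : LB.BC ψ D' E'), (bcHom f b b').l01 ≠ 0 ∧ E'.chi ≤ E.chi) :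
    Nonempty (LB.Iso D D') := by
  have h0 : Function.Bijective f.l0 := by
    refine bijective_l0_of_fibers f fun F _ _ ψ ↦ ?_
    obtain ⟨E, E', b, b', h1, h2⟩ := H F ψ
    exact ⟨E, E', b, b', (bijective_of_chi_eq _ h1 h2).1.2⟩
  have h1 : Function.Bijective f.l1 := by
    refine bijective_l1_of_fibers f fun F _ _ ψ ↦ ?_
    obtain ⟨E, E', b, b', h1, h2⟩ := H F ψ
    exact ⟨E, E', b, b', (bijective_of_chi_eq _ h1 h2).2.1.2⟩
  exact ⟨f.toIso h0 h1 (f.bijective_l01 h0)⟩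

end fib

end Fermat.Agent.S25.Sep
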