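import Mathlib
import Fermat.Agent.S25.SepBC
import Fermat.Agent.S25.FibDeg

/-!
# S25 / SEP: separatedness

Line bundles over a valuation ring `V`, of the same fibrewise Euler characteristic, which are
isomorphic over the fraction field are isomorphic.
-/

set_option autoImplicit false

universe u

open scoped TensorProduct Polynomial

noncomputable section

namespace Fermat.Agent.S25.Sep

section scaling

variable {V K M N : Type u} [CommRing V] [Field K] {φ : V →+* K}
  [AddCommGroup M] [Module V M] [AddCommGroup N] [Module K N] {u : M →+ N}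

/-- a base change of a projective module along an injective ring homomorphism is injective -/
lemma isBC_injective [Module.Projective V M] (hφ : Function.Injective φ) (hu : IsBC φ u) :
    Function.Injective u := by
  rw [injective_iff_map_eq_zero]
  intro m hm
  by_contra hm0
  obtain ⟨l, hl⟩ := exists_dual_ne_zero (R := V) hm0
  apply hl
  apply hφ
  have h1 : hu.map (IsBC.self φ) l (u m) = φ (l m) := hu.map_apply (IsBC.self φ) l m
  rw [← h1, hm, map_zero, map_zero]

/-- clearing denominators -/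
lemma isBC_exists_smul [IsDomain V] (_hφ : Function.Injective φ)
    (hK : ∀ x : K, ∃ v : V, v ≠ 0 ∧ ∃ w, φ v * x = φ w) (hu : IsBC φ u) (y : N) :
    ∃ v : V, v ≠ 0 ∧ ∃ m, φ v • y = u m := by
  induction y using hu.induction with
  | hg m => exact ⟨1, one_ne_zero, m, by simp⟩
  | h0 => exact ⟨1, one_ne_zero, 0, by simp⟩
  | hadd x y hx hy =>
    obtain ⟨v, hv, m, hm⟩ := hx
    obtain ⟨v', hv', m', hm'⟩ := hy
    refine ⟨v * v', mul_ne_zero hv hv', v' • m + v • m', ?_⟩
    rw [map_add, hu.smul, hu.smul, ← hm, ← hm', smul_smul, smul_smul, smul_add, map_mul,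
      mul_comm (φ v') (φ v)]
  | hsmul b x hx =>
    obtain ⟨v, hv, m, hm⟩ := hx
    obtain ⟨v', hv', w, hw⟩ := hK b
    refine ⟨v' * v, mul_ne_zero hv' hv, w • m, ?_⟩
    rw [hu.smul, ← hm, ← hw, smul_smul, smul_smul, map_mul]
    ring_nf

lemma linComb_mapRange (hu : IsBC φ u) (t : M →₀ V) :
    Finsupp.linearCombination K u (t.mapRange φ (map_zero φ)) =
      u (Finsupp.linearCombination V id t) := by
  classical
  induction t using Finsupp.induction_linear with
  | zero => simp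
  | add a b ha hb => rw [Finsupp.mapRange_add (map_add φ), map_add, ha, hb, map_add, map_add]
  | single p a => simp [hu.smul]

/-- scaling finitely many vectors so that they become integral, with a unit coordinate -/
lemma exists_scaling [IsDomain V] [ValuationRing V] [Module.Projective V M]
    (hφ : Function.Injective φ)
    (hK : ∀ x : K, ∃ v : V, v ≠ 0 ∧ ∃ w, φ v * x = φ w) (hu : IsBC φ u)
    {n : ℕ} (z : Fin n → N) (hz : ∃ j, z j ≠ 0) :
    ∃ (c : K) (y : Fin n → M), c ≠ 0 ∧ (∀ j, u (y j) = c • z j) ∧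
      ∃ (l : M →ₗ[V] V) (j : Fin n), l (y j) = 1 := by
  classical
  let _ : Algebra V K := φ.toAlgebra
  have hfr : IsFractionRing V K := by
    have : FaithfulSMul V K := (faithfulSMul_iff_algebraMap_injective V K).mpr hφ
    refine IsFractionRing.of_field V K (fun x ↦ ?_)
    obtain ⟨v, hv, w, hw⟩ := hK x
    refine ⟨w, v, ?_⟩
    have : φ v ≠ 0 := fun h ↦ hv (hφ (by rw [h, map_zero]))
    show x = φ w / φ v
    rw [← hw]
    field_simp
  obtain ⟨s, hs⟩ := Module.projective_def'.mp ‹Module.Projective V M›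
  -- the coordinates over `K`
  let sK : N →ₗ[K] (M →₀ K) := hu.lift
    ((Finsupp.mapRange.addMonoidHom φ.toAddMonoidHom).comp s.toAddMonoidHom) (fun a m ↦ by
      ext p
      simp)
  have hsK' : ∀ m, sK (u m) = (s m).mapRange φ (map_zero φ) := fun m ↦ hu.lift_apply _ _ m
  have hsK : ∀ m p, sK (u m) p = φ (s m p) := fun m p ↦ by
    rw [hsK']
    rfl
  have hpK : ∀ x : N, Finsupp.linearCombination K u (sK x) = x := by
    have h1 : (Finsupp.linearCombination K u) ∘ₗ sK = LinearMap.id := hu.hom_ext (fun m ↦ by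
      rw [LinearMap.comp_apply, hsK', linComb_mapRange hu]
      exact congrArg u congr($hs m))
    exact fun x ↦ congr($h1 x)
  -- the set of all coordinates
  let S : Finset K := Finset.univ.biUnion fun j : Fin n ↦ (sK (z j)).support.image (sK (z j))
  have hS : ∀ j p, sK (z j) p ≠ 0 → sK (z j) p ∈ S := fun j p h ↦ by
    simp only [S, Finset.mem_biUnion, Finset.mem_univ, true_and, Finset.mem_image,
      Finsupp.mem_support_iff]
    exact ⟨j, p, h, rfl⟩
  have hSne : S.Nonempty := by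
    obtain ⟨j, hj⟩ := hz
    have h1 : sK (z j) ≠ 0 := fun h ↦ hj (by rw [← hpK (z j), h, map_zero])
    obtain ⟨p, hp⟩ := Finsupp.ne_iff.mp h1
    exact ⟨_, hS j p hp⟩
  obtain ⟨c₀, hc₀, hmax⟩ := Finset.exists_max_image S (ValuationRing.valuation V K) hSne
  obtain ⟨j₀, p₀, hne, hj₀⟩ : ∃ j₀ p₀, sK (z j₀) p₀ ≠ 0 ∧ sK (z j₀) p₀ = c₀ := by
    simp only [S, Finset.mem_biUnion, Finset.mem_univ, true_and, Finset.mem_image,
      Finsupp.mem_support_iff] at hc₀
    exact hc₀
  have hc0 : c₀ ≠ 0 := hj₀ ▸ hne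
  have hint : ∀ j p, ∃ v : V, φ v = c₀⁻¹ * sK (z j) p := by
    intro j p
    by_cases h : sK (z j) p = 0
    · exact ⟨0, by rw [h, mul_zero, map_zero]⟩
    · have h1 := hmax _ (hS j p h)
      refine (ValuationRing.mem_integer_iff V K _).mp ?_
      rw [Valuation.mem_integer_iff, map_mul, map_inv₀, mul_comm]
      exact (div_le_one₀ (by rw [zero_lt_iff]; exact (Valuation.ne_zero_iff _).mpr hc0)).mpr h1
  choose v hv using hint
  have hy : ∀ j, u (∑ p ∈ (sK (z j)).support, v j p • p) = c₀⁻¹ • z j := fun j ↦ by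
    rw [map_sum]
    conv_rhs => rw [← hpK (z j), Finsupp.linearCombination_apply, Finsupp.sum, Finset.smul_sum]
    refine Finset.sum_congr rfl fun p _ ↦ ?_
    rw [hu.smul, hv, mul_smul]
  refine ⟨c₀⁻¹, fun j ↦ ∑ p ∈ (sK (z j)).support, v j p • p, inv_ne_zero hc0, hy,
    (Finsupp.lapply p₀) ∘ₗ s, j₀, ?_⟩
  apply hφ
  show φ (s (∑ p ∈ (sK (z j₀)).support, v j₀ p • p) p₀) = φ 1
  rw [← hsK, hy, map_smul, Finsupp.smul_apply, hj₀, smul_eq_mul, inv_mul_cancel₀ hc0, map_one]

end scaling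

section main

variable {k : Type u} [Field k] {𝒞 : TwoChart k}

section

variable {V : Type u} [CommRing V] [IsDomain V] [Algebra k V]

/-- `M01 / M0` has no torsion -/
lemma mem_range_r0_of_smul (D : LB 𝒞 V) {v : V} (hv : v ≠ 0) {y : D.M01}
    (hy : v • y ∈ LinearMap.range D.r0B) : y ∈ LinearMap.range D.r0B := by
  obtain ⟨S0⟩ := D.std0
  have := S0.projective_quotient
  by_contra hne
  have h1 : (Submodule.Quotient.mk y : D.M01 ⧸ LinearMap.range D.r0B) ≠ 0 := fun h ↦
    hne ((Submodule.Quotient.mk_eq_zero _).mp h)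
  obtain ⟨l, hl⟩ := exists_dual_ne_zero (R := V) h1
  have h2 : v * l (Submodule.Quotient.mk y) = 0 := by
    rw [← smul_eq_mul, ← map_smul, ← Submodule.Quotient.mk_smul,
      (Submodule.Quotient.mk_eq_zero _).mpr hy, map_zero]
  rcases mul_eq_zero.mp h2 with h | h
  · exact hv h
  · exact hl h

end

variable {V K : Type u} [CommRing V] [IsDomain V] [Algebra k V]
  [Field K] [Algebra k K] {φ : V →ₐ[k] K} {D D' : LB 𝒞 V} {DK DK' : LB 𝒞 K}

lemma exists_l0 (hφ : Function.Injective φ)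
    (hK : ∀ x : K, ∃ v : V, v ≠ 0 ∧ ∃ w, φ v * x = φ w)
    (b : LB.BC φ D DK) (b' : LB.BC φ D' DK') (e : LB.Iso DK DK') (c : K)
    (l01 : D.M01 →ₗ[𝒞.R01 V] D'.M01)
    (hl : ∀ x, b'.u01 (l01 x) = c • e.e01 (b.u01 x)) :
    ∃ l0 : D.M0 →ₗ[𝒞.R0 V] D'.M0, ∀ x, D'.r0 (l0 x) = l01 (D.r0 x) := by
  have hinj : Function.Injective b'.u01 := isBC_injective (φ := φ.toRingHom) hφ b'.isBC_u01
  have hex : ∀ x : D.M0, ∃ w : D'.M0, D'.r0 w = l01 (D.r0 x) := by
    intro x
    obtain ⟨v, hv, m, hm⟩ := isBC_exists_smul (φ := φ.toRingHom) hφ hK b'.isBC_u0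
      (c • e.e0 (b.u0 x))
    refine mem_range_r0_of_smul D' hv ⟨m, hinj ?_⟩
    show b'.u01 (D'.r0 m) = b'.u01 (v • l01 (D.r0 x))
    have h1 : b'.u01 (v • l01 (D.r0 x)) = φ v • b'.u01 (l01 (D.r0 x)) := b'.isBC_u01.smul _ _
    have h2 : DK'.r0 (φ v • c • e.e0 (b.u0 x)) = φ v • c • DK'.r0 (e.e0 (b.u0 x)) := by
      have h3 := DK'.r0B.map_smul (φ v) (c • e.e0 (b.u0 x))
      have h4 := DK'.r0B.map_smul c (e.e0 (b.u0 x))
      exact h3.trans (congrArg (φ v • ·) h4)
    have h5 : φ v • c • e.e0 (b.u0 x) = b'.u0 m := hm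
    rw [h1, hl, ← b'.h0, ← h5, h2, e.h0, b.h0]
  choose w hw using hex
  refine ⟨{ toFun := w, map_add' := fun x y ↦ D'.r0_injective ?_,
            map_smul' := fun a x ↦ D'.r0_injective ?_ }, hw⟩
  · rw [hw, map_add, map_add, map_add, hw, hw]
  · rw [hw, D.bc0.smul, map_smul, RingHom.id_apply, D'.bc0.smul, hw]

/-- an isomorphism over the fraction field extends to a homomorphism over the valuation ring
which is nonzero on all fibres -/
theorem exists_hom [ValuationRing V] (hφ : Function.Injective φ)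
    (hK : ∀ x : K, ∃ v : V, v ≠ 0 ∧ ∃ w, φ v * x = φ w)
    (b : LB.BC φ D DK) (b' : LB.BC φ D' DK') (e : LB.Iso DK DK') :
    ∃ (f : LB.Hom D D') (x : D.M01) (l : D'.M01 →ₗ[V] V), l (f.l01 x) = 1 := by
  have hinj : Function.Injective b'.u01 := isBC_injective (φ := φ.toRingHom) hφ b'.isBC_u01
  have hfin : Module.Finite (𝒞.R01 V) D.M01 := D.bc0.finite
  obtain ⟨n, x, hx⟩ := Module.Finite.exists_fin (R := 𝒞.R01 V) (M := D.M01)
  have hnz : ∃ j, e.e01 (b.u01 (x j)) ≠ 0 := by
    by_contra! h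
    have h1 : ∀ j, b.u01 (x j) = 0 := fun j ↦ e.e01.injective (by rw [h, map_zero])
    have h2 : ∀ m, b.u01 m = 0 := by
      intro m
      have hm : m ∈ Submodule.span (𝒞.R01 V) (Set.range x) := by rw [hx]; trivial
      induction hm using Submodule.span_induction with
      | mem y hy => obtain ⟨j, rfl⟩ := hy; exact h1 j
      | zero => exact map_zero _
      | add y z _ _ hy hz => rw [map_add, hy, hz, add_zero]
      | smul a y _ hy => rw [b.bc01.smul, hy, smul_zero]
    have h3 : ∀ m : DK.M01, m = 0 := by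
      intro m
      induction m using b.bc01.induction with
      | hg m => exact h2 m
      | h0 => rfl
      | hadd x y hx hy => rw [hx, hy, add_zero]
      | hsmul c x hx => rw [hx, smul_zero]
    have h4 := isDomain_R01 𝒞 K
    have h5 : Module.Invertible (𝒞.R01 K) DK.M01 := DK.bc0.invertible
    have h6 : (1 : 𝒞.R01 K) = 0 := by
      apply FaithfulSMul.eq_of_smul_eq_smul (M := 𝒞.R01 K) (α := DK.M01)
      intro m
      rw [h3 m, smul_zero, smul_zero]
    exact one_ne_zero h6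
  obtain ⟨c, y, hc, hy, l, j, hlj⟩ := exists_scaling (φ := φ.toRingHom) hφ hK b'.isBC_u01
    (fun j ↦ e.e01 (b.u01 (x j))) hnz
  have hex : ∀ m : D.M01, ∃ w : D'.M01, b'.u01 w = c • e.e01 (b.u01 m) := by
    intro m
    have hm : m ∈ Submodule.span (𝒞.R01 V) (Set.range x) := by rw [hx]; trivial
    induction hm using Submodule.span_induction with
    | mem z hz => obtain ⟨j, rfl⟩ := hz; exact ⟨y j, hy j⟩
    | zero => exact ⟨0, by simp⟩
    | add z z' _ _ hz hz' =>
      obtain ⟨w, hw⟩ := hz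
      obtain ⟨w', hw'⟩ := hz'
      exact ⟨w + w', by rw [map_add, map_add, map_add, smul_add, hw, hw']⟩
    | smul a z _ hz =>
      obtain ⟨w, hw⟩ := hz
      refine ⟨a • w, ?_⟩
      rw [b'.bc01.smul, hw, b.bc01.smul, map_smul, smul_comm]
  choose w hw using hex
  let l01 : D.M01 →ₗ[𝒞.R01 V] D'.M01 :=
    { toFun := w
      map_add' := fun x y ↦ hinj (by rw [hw, map_add, map_add, map_add, smul_add, hw, hw])
      map_smul' := fun a x ↦ hinj (by
        rw [hw, RingHom.id_apply, b'.bc01.smul, hw, b.bc01.smul, map_smul, smul_comm]) }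
  obtain ⟨l0, hl0⟩ := exists_l0 hφ hK b b' e c l01 hw
  obtain ⟨l1, hl1⟩ := exists_l0 hφ hK b.swap b'.swap
    (D := D.swap) (D' := D'.swap) ⟨e.e1, e.e0, e.e01, e.h1, e.h0⟩ c l01 hw
  refine ⟨⟨l0, l1, l01, hl0, hl1⟩, x j, l, ?_⟩
  have h1 : l01 (x j) = y j := hinj ((hw _).trans (hy j).symm)
  show l (l01 (x j)) = 1
  rw [h1, hlj]

/-- **Separatedness**: line bundles over a valuation ring with the same fibrewise Euler
characteristic, which become isomorphic over the fraction field, are isomorphic. -/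
theorem sep [ValuationRing V] (hφ : Function.Injective φ)
    (hK : ∀ x : K, ∃ v : V, v ≠ 0 ∧ ∃ w, φ v * x = φ w)
    (b : LB.BC φ D DK) (b' : LB.BC φ D' DK') (e : LB.Iso DK DK')
    (h : ∀ (F : Type u) [Field F] [Algebra k F] (ψ : V →ₐ[k] F), ∃ (E E' : LB 𝒞 F)
      (_ : LB.BC ψ D E) (_ : LB.BC ψ D' E'), E'.chi ≤ E.chi) :
    Nonempty (LB.Iso D D') := by
  obtain ⟨f, x, l, hl⟩ := exists_hom hφ hK b b' e
  refine nonempty_iso_of_fibers f fun F _ _ ψ ↦ ?_
  obtain ⟨E, E', b, b', hchi⟩ := h F ψ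
  refine ⟨E, E', b, b', fun h0 ↦ ?_, hchi⟩
  have h1 : b'.u01 (f.l01 x) = 0 := by
    rw [← bcHom_l01 f b b', h0]
    rfl
  have h2 : b'.isBC_u01.map (IsBC.self ψ.toRingHom) l (b'.u01 (f.l01 x)) =
      ψ.toRingHom (l (f.l01 x)) := b'.isBC_u01.map_apply (IsBC.self ψ.toRingHom) l (f.l01 x)
  rw [h1, map_zero, hl, map_one] at h2
  exact zero_ne_one h2

/-- **Separatedness**: line bundles of fibrewise degree zero over a valuation ring, which become
isomorphic over the fraction field, are isomorphic. -/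
theorem sep_fibDeg0 [ValuationRing V] [Algebra V K] [IsFractionRing V K] [IsScalarTower k V K]
    (b : LB.BC (IsScalarTower.toAlgHom k V K) D DK)
    (b' : LB.BC (IsScalarTower.toAlgHom k V K) D' DK') (e : LB.Iso DK DK')
    (h : D.FibDeg0) (h' : D'.FibDeg0) : Nonempty (LB.Iso D D') := by
  refine sep (φ := IsScalarTower.toAlgHom k V K) (IsFractionRing.injective V K) (fun x ↦ ?_) b b' e
    (fun F _ _ ψ ↦ ⟨_, _, D.bcBaseChange ψ, D'.bcBaseChange ψ, ?_⟩)
  · obtain ⟨w, v, hv, rfl⟩ := IsFractionRing.div_surjective (A := V) x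
    have hv0 : v ≠ 0 := nonZeroDivisors.ne_zero hv
    have h1 : algebraMap V K v ≠ 0 := fun h ↦ hv0 (IsFractionRing.injective V K
      (by rw [h, map_zero]))
    exact ⟨v, hv0, w, by show algebraMap V K v * _ = algebraMap V K w; field_simp⟩
  · rw [h F ψ _ (D.bcBaseChange ψ), h' F ψ _ (D'.bcBaseChange ψ)]

end main

end Fermat.Agent.S25.Sep
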