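import Mathlib
import Fermat.Agent.S25.PropScheme
import Fermat.Agent.S25.PropPt
import Fermat.Agent.S25.PropRig
import Fermat.Agent.S25.SepVal

/-!
# S25, package PROP: properness and geometric connectedness from the functor on affine schemes
-/

set_option autoImplicit false

universe u

open CategoryTheory CategoryTheory.Limits AlgebraicGeometry TopologicalSpace Opposite
open scoped TensorProduct Polynomial

noncomputable section

namespace Fermat.Agent.S25

open PropS

/-- `J` represents the functor `B ↦ {rigidifiable line bundles of fibrewise degree 0 on C_B}` on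
affine schemes over `k`. -/
structure AffRep {k : Type u} [Field k] (𝒞 : CurveData k) {J : Scheme.{u}}
    (j : J ⟶ Spec (CommRingCat.of k)) where
  /-- the classifying morphism -/
  cls : ∀ {B : Type u} [CommRing B] [Algebra k B] (D : LB 𝒞.toTwoChart B),
    D.Rig (𝒞 := 𝒞) → D.FibDeg0 → (Spec (CommRingCat.of B) ⟶ J)
  cls_over : ∀ {B : Type u} [CommRing B] [Algebra k B] (D : LB 𝒞.toTwoChart B)
    (h : D.Rig (𝒞 := 𝒞)) (h' : D.FibDeg0), IsOver j (cls D h h')
  cls_eq_iff : ∀ {B : Type u} [CommRing B] [Algebra k B] (D E : LB 𝒞.toTwoChart B)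
    (h : D.Rig (𝒞 := 𝒞)) (h' : D.FibDeg0) (i : E.Rig (𝒞 := 𝒞)) (i' : E.FibDeg0),
    cls D h h' = cls E i i' ↔ Nonempty (LB.Iso D E)
  exists_cls : ∀ {B : Type u} [CommRing B] [Algebra k B] (s : Spec (CommRingCat.of B) ⟶ J),
    IsOver j s → ∃ (D : LB 𝒞.toTwoChart B) (h : D.Rig (𝒞 := 𝒞)) (h' : D.FibDeg0), cls D h h' = s
  cls_bc : ∀ {B B' : Type u} [CommRing B] [Algebra k B] [CommRing B'] [Algebra k B']
    (φ : B →ₐ[k] B') (D : LB 𝒞.toTwoChart B) (D' : LB 𝒞.toTwoChart B') (_ : LB.BC φ D D')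
    (h : D.Rig (𝒞 := 𝒞)) (h' : D.FibDeg0) (i : D'.Rig (𝒞 := 𝒞)) (i' : D'.FibDeg0),
    cls D' i i' = Spec.map (CommRingCat.ofHom φ.toRingHom) ≫ cls D h h'

/-- the family of line bundles attached to `N` points -/
structure PtSheaf {k : Type u} [Field k] (𝒞 : TwoChart k) (N : ℕ) where
  /-- the line bundle attached to a family of points -/
  E : ∀ {B : Type u} [CommRing B] [Algebra k B], List (Pt 𝒞 B) → LB 𝒞 B
  bc : ∀ {B B' : Type u} [CommRing B] [Algebra k B] [CommRing B'] [Algebra k B']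
    (φ : B →ₐ[k] B') (ps : List (Pt 𝒞 B)), Nonempty (LB.BC φ (E ps) (E (ps.map (Pt.map φ))))
  rel : ∀ {B : Type u} [CommRing B] [Algebra k B] (ps ps' : List (Pt 𝒞 B)),
    List.Forall₂ (fun x y => x = y ∨ Pt.Rel x y) ps ps' → Nonempty (LB.Iso (E ps) (E ps'))
  deg : ∀ {B : Type u} [CommRing B] [Algebra k B] (ps : List (Pt 𝒞 B)), ps.length = N →
    (E ps).FibDeg0
  surj : ∀ (K : Type u) [Field K] [Algebra k K] [IsAlgClosed K] (D : LB 𝒞 K), D.FibDeg0 →
    ∃ ps : List (Pt 𝒞 K), ps.length = N ∧ Nonempty (LB.Iso D (E ps))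

namespace AffRep

variable {k : Type u} [Field k] {𝒞 : CurveData k} {J : Scheme.{u}}
  {j : J ⟶ Spec (CommRingCat.of k)} (A : AffRep 𝒞 j)

include A in
/-- **separatedness** -/
theorem uniqueness : ValuativeCriterion.Uniqueness j := by
  refine uniqueness_of j fun R K _ _ _ _ _ _ _ _ _ l l' hl hl' h => ?_
  obtain ⟨D, h1, h2, rfl⟩ := A.exists_cls l hl
  obtain ⟨D', h1', h2', rfl⟩ := A.exists_cls l' hl'
  rw [A.cls_eq_iff]
  let φ : R →ₐ[k] K := IsScalarTower.toAlgHom k R K
  have b := D.bcBaseChange φ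
  have b' := D'.bcBaseChange φ
  have r : (D.baseChange φ).Rig (𝒞 := 𝒞) := LB.rig_of_isLocalRing _
  have r' : (D'.baseChange φ).Rig (𝒞 := 𝒞) := LB.rig_of_isLocalRing _
  have e1 := A.cls_bc φ D (D.baseChange φ) b h1 h2 r (h2.bc b)
  have e2 := A.cls_bc φ D' (D'.baseChange φ) b' h1' h2' r' (h2'.bc b')
  have e3 : A.cls (D.baseChange φ) r (h2.bc b) = A.cls (D'.baseChange φ) r' (h2'.bc b') := by
    rw [e1, e2]
    exact h
  obtain ⟨e⟩ := (A.cls_eq_iff _ _ _ _ _ _).mp e3
  exact Sep.sep_fibDeg0 b b' e h2 h2'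

/-- lifting lists of points to valuation rings -/
theorem exists_lift_pts {C : TwoChart k} {R K : Type u} [CommRing R] [IsDomain R]
    [ValuationRing R] [Field K] [Algebra R K] [IsFractionRing R K] [Algebra k R] [Algebra k K]
    [IsScalarTower k R K] (ps : List (Pt C K)) : ∃ ps' : List (Pt C R),
      ps'.length = ps.length ∧ List.Forall₂ (fun x y => x = y ∨ Pt.Rel x y) ps
        (ps'.map (Pt.map (IsScalarTower.toAlgHom k R K))) := by
  induction ps with
  | nil => exact ⟨[], rfl, .nil⟩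
  | cons p ps ih =>
    obtain ⟨ps', h1, h2⟩ := ih
    obtain ⟨y, hy⟩ := exists_lift_pt (R := R) p
    refine ⟨y :: ps', by rw [List.length_cons, List.length_cons, h1], ?_⟩
    rw [List.map_cons]
    refine .cons ?_ h2
    rcases hy with hy | hy
    · exact Or.inl hy.symm
    · exact Or.inr hy

include A in
/-- **existence part of the valuative criterion** -/
theorem existence {N : ℕ} (S : PtSheaf 𝒞.toTwoChart N) : ValuativeCriterion.Existence j := by
  refine existence_of_ext j fun R K _ _ _ _ _ _ _ _ _ i hi => ?_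
  let K' := AlgebraicClosure K
  obtain ⟨V', α, hα, hαβ⟩ := exists_val_ext R K K' (algebraMap K K')
  let _ : Algebra k V' := (α.comp (algebraMap k R)).toAlgebra
  have : IsScalarTower k V' K' := by
    refine .of_algebraMap_eq fun c => ?_
    have h1 : algebraMap V' K' (α (algebraMap k R c)) =
        algebraMap K K' (algebraMap R K (algebraMap k R c)) := congr($(hαβ.symm) _)
    refine Eq.trans ?_ h1.symm
    rw [← IsScalarTower.algebraMap_apply k R K, ← IsScalarTower.algebraMap_apply k K K']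
  obtain ⟨D, h1, h2, rfl⟩ := A.exists_cls i hi
  let β : K →ₐ[k] K' := IsScalarTower.toAlgHom k K K'
  have b := D.bcBaseChange β
  obtain ⟨ps, hps, ⟨e⟩⟩ := S.surj K' (D.baseChange β) (h2.bc b)
  obtain ⟨ps', hps', hrel⟩ := exists_lift_pts (R := V') ps
  obtain ⟨e'⟩ := S.rel _ _ hrel
  obtain ⟨b'⟩ := S.bc (IsScalarTower.toAlgHom k V' K') ps'
  have r : (D.baseChange β).Rig (𝒞 := 𝒞) := LB.rig_of_isLocalRing _
  have r' : (S.E ps').Rig (𝒞 := 𝒞) := LB.rig_of_isLocalRing _
  have r'' : (S.E (ps'.map (Pt.map (IsScalarTower.toAlgHom k V' K')))).Rig (𝒞 := 𝒞) :=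
    LB.rig_of_isLocalRing _
  have d' : (S.E ps').FibDeg0 := S.deg ps' (by rw [hps', hps])
  refine ⟨V', K', inferInstance, inferInstance, inferInstance, inferInstance, α, hα,
    algebraMap K K', A.cls (S.E ps') r' d', IsFractionRing.injective V' K', hαβ, ?_⟩
  have e1 := A.cls_bc β D (D.baseChange β) b h1 h2 r (h2.bc b)
  have e2 := A.cls_bc (IsScalarTower.toAlgHom k V' K') (S.E ps') _ b' r' d' r'' (d'.bc b')
  have e3 : A.cls (D.baseChange β) r (h2.bc b) = A.cls _ r'' (d'.bc b') :=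
    (A.cls_eq_iff _ _ _ _ _ _).mpr ⟨e.trans e'⟩
  rw [e1, e2] at e3
  exact e3.symm

/-- the index set of the cover -/
structure Idx {N : ℕ} (F : PtFam 𝒞.toTwoChart N) (T : ∀ i, Finset (F.B i)) : Type u where
  i : F.ι
  f : F.B i
  mem : f ∈ T i
  ne : f ≠ 0

instance {N : ℕ} (F : PtFam 𝒞.toTwoChart N) (T : ∀ i, Finset (F.B i)) : Finite (Idx F T) := by
  refine Finite.of_injective (β := Σ i : F.ι, T i) (fun x => ⟨x.i, ⟨x.f, x.mem⟩⟩) ?_
  rintro ⟨i, f, h, h'⟩ ⟨i', f', g, g'⟩ hh
  simp only [Sigma.mk.injEq] at hh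
  obtain ⟨rfl, hh⟩ := hh
  simp only [heq_eq_eq, Subtype.mk.injEq] at hh
  subst hh
  rfl

theorem nonempty_idx {N : ℕ} (F : PtFam 𝒞.toTwoChart N) (T : ∀ i, Finset (F.B i))
    (hT : ∀ i, Ideal.span (T i : Set (F.B i)) = ⊤) : Nonempty (Idx F T) := by
  let i : F.ι := Classical.arbitrary _
  have h1 := hT i
  by_contra hcon
  have h2 : ∀ f ∈ T i, f = 0 := by
    intro f hf
    by_contra h0
    exact hcon ⟨⟨i, f, hf, h0⟩⟩
  have h3 : Ideal.span (T i : Set (F.B i)) ≤ ⊥ := by
    rw [Ideal.span_le]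
    intro f hf
    exact h2 f hf
  rw [h1, top_le_iff] at h3
  exact bot_ne_top h3

/-- the map to the localization -/
abbrev loc {B : Type u} [CommRing B] [Algebra k B] (f : B) : B →ₐ[k] Localization.Away f :=
  IsScalarTower.toAlgHom k B (Localization.Away f)

/-- extension to the localization -/
def awayLift {B L : Type u} [CommRing B] [Algebra k B] [CommRing L] [Algebra k L] (f : B)
    (φ : B →ₐ[k] L) (hf : IsUnit (φ f)) : Localization.Away f →ₐ[k] L :=
  { IsLocalization.Away.lift (S := Localization.Away f) f (g := (φ : B →+* L)) hf with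
    commutes' := fun c => by
      show IsLocalization.Away.lift (S := Localization.Away f) f (g := (φ : B →+* L)) hf
        (algebraMap k (Localization.Away f) c) = algebraMap k L c
      rw [IsScalarTower.algebraMap_apply k B (Localization.Away f)]
      exact (IsLocalization.Away.lift_eq f hf _).trans (φ.commutes c) }

theorem awayLift_comp {B L : Type u} [CommRing B] [Algebra k B] [CommRing L] [Algebra k L]
    (f : B) (φ : B →ₐ[k] L) (hf : IsUnit (φ f)) : (awayLift f φ hf).comp (loc f) = φ := by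
  ext x
  exact IsLocalization.Away.lift_eq f hf x

include A in
/-- **the cover of `J`** -/
theorem nonempty_irrCover {N : ℕ} (F : PtFam 𝒞.toTwoChart N) (S : PtSheaf 𝒞.toTwoChart N) :
    Nonempty (IrrCover j) := by
  classical
  choose T hT hrig using fun i => LB.exists_rig_cover (S.E (F.qs i))
  have := nonempty_idx F T hT
  let qs : ∀ x : Idx F T, List (Pt 𝒞.toTwoChart (Localization.Away x.f)) := fun x =>
    (F.qs x.i).map (Pt.map (loc x.f))
  have hqs : ∀ x, (qs x).length = N := fun x => by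
    rw [List.length_map, F.length]
  have hr : ∀ x : Idx F T, (S.E (qs x)).Rig (𝒞 := 𝒞) := fun x => by
    obtain ⟨b⟩ := S.bc (loc x.f) (F.qs x.i)
    exact hrig x.i x.f x.mem _ (loc x.f) _ b (IsLocalization.Away.algebraMap_isUnit x.f)
  have hd : ∀ x, (S.E (qs x)).FibDeg0 := fun x => S.deg _ (hqs x)
  have hrs : F.rs.length = N := by
    have h1 := (F.rel (Classical.arbitrary _)).length_eq
    rw [← h1, List.length_map, F.length]
  have hw : (S.E F.rs).Rig (𝒞 := 𝒞) := LB.rig_of_isLocalRing _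
  have hwd : (S.E F.rs).FibDeg0 := S.deg _ hrs
  -- compatibility
  have key : ∀ (x : Idx F T) (L : Type u) [Field L] [Algebra k L]
      (ψ : Localization.Away x.f →ₐ[k] L) (φ : F.B x.i →ₐ[k] L) (_ : ψ.comp (loc x.f) = φ)
      (D : LB 𝒞.toTwoChart L) (h : D.Rig (𝒞 := 𝒞)) (h' : D.FibDeg0)
      (_ : Nonempty (LB.Iso (S.E ((F.qs x.i).map (Pt.map φ))) D)),
      Spec.map (CommRingCat.ofHom ψ.toRingHom) ≫ A.cls (S.E (qs x)) (hr x) (hd x) =
        A.cls D h h' := by
    intro x L _ _ ψ φ hψ D h h' he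
    obtain ⟨b⟩ := S.bc ψ (qs x)
    have h1 : (qs x).map (Pt.map ψ) = (F.qs x.i).map (Pt.map φ) := by
      rw [List.map_map]
      apply List.map_congr_left
      intro p _
      rw [Function.comp_apply, Pt.map_map, hψ]
    rw [h1] at b
    obtain ⟨e⟩ := he
    have r : (S.E ((F.qs x.i).map (Pt.map φ))).Rig (𝒞 := 𝒞) := LB.rig_of_isLocalRing _
    rw [← A.cls_bc ψ _ _ b (hr x) (hd x) r ((hd x).bc b), A.cls_eq_iff]
    exact ⟨e⟩
  have hdom : ∀ x : Idx F T, IsDomain (Localization.Away x.f) := fun x =>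
    IsLocalization.isDomain_localization (powers_le_nonZeroDivisors_of_noZeroDivisors x.ne)
  refine ⟨{ ι := Idx F T
            B := fun x => Localization.Away x.f
            y := fun x => A.cls (S.E (qs x)) (hr x) (hd x)
            isOver := fun x => A.cls_over _ _ _
            surj := ?_
            Ω := F.Ω
            w := A.cls (S.E F.rs) hw hwd
            common := ?_ }⟩
  · intro L _ _ _ s hs
    obtain ⟨D, h1, h2, rfl⟩ := A.exists_cls s hs
    obtain ⟨ps, hps, ⟨e⟩⟩ := S.surj L D h2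
    obtain ⟨i, φ, hφ⟩ := F.univ L ps hps
    -- some `f` is nonzero at `φ`
    obtain ⟨f, hf, hf0⟩ : ∃ f ∈ T i, φ f ≠ 0 := by
      by_contra hcon
      push Not at hcon
      have h3 : Ideal.span (T i : Set (F.B i)) ≤ RingHom.ker φ := by
        rw [Ideal.span_le]
        intro f hf
        exact hcon f hf
      rw [hT i, top_le_iff] at h3
      exact RingHom.ker_ne_top (φ : F.B i →+* L) h3
    let x : Idx F T := ⟨i, f, hf, fun h0 => hf0 (by rw [h0, map_zero])⟩
    refine ⟨x, awayLift f φ (isUnit_iff_ne_zero.mpr hf0), ?_⟩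
    refine key x L _ φ (awayLift_comp f φ _) D h1 h2 ?_
    have h4 : (F.qs x.i).map (Pt.map φ) = ps := hφ
    rw [h4]
    exact ⟨e.symm⟩
  · intro x
    have hf0 : F.ω x.i x.f ≠ 0 := fun h0 => x.ne (F.ω_inj x.i (by rw [h0, map_zero]))
    refine ⟨awayLift x.f (F.ω x.i) (isUnit_iff_ne_zero.mpr hf0), ?_⟩
    refine key x F.Ω _ (F.ω x.i) (awayLift_comp x.f _ _) _ hw hwd ?_
    exact S.rel _ _ ((F.rel x.i).imp fun _ _ h => Or.inr h)

/-- **properness** -/
theorem isProper_of_ptSheaf [IsAlgClosed k] [LocallyOfFiniteType j] (A : AffRep 𝒞 j) {N : ℕ}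
    (S : PtSheaf 𝒞.toTwoChart N) : IsProper j := by
  obtain ⟨F⟩ := A.nonempty_irrCover (PtFam.mk' 𝒞.toTwoChart N) S
  exact isProper_of F (A.existence S) A.uniqueness

/-- **geometric connectedness** -/
theorem geometricallyConnected_of_ptSheaf [IsAlgClosed k] (A : AffRep 𝒞 j) {N : ℕ}
    (S : PtSheaf 𝒞.toTwoChart N) : GeometricallyConnected j := by
  obtain ⟨F⟩ := A.nonempty_irrCover (PtFam.mk' 𝒞.toTwoChart N) S
  exact F.geometricallyConnected

end AffRep

end Fermat.Agent.S25
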