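import Fermat.Agent.S25.Asm
import Fermat.Agent.S25.PropAff
import Fermat.Agent.S25.GeoMain
import Fermat.Prelude.Def_JacJ1Iface
import Fermat.Prelude.Def_AlgebraicGeometry_NeronModelPropertyBundleCarrier

/-!
# S25: the Jacobian from representability
-/

set_option autoImplicit false
set_option linter.unusedVariables false

universe u

open CategoryTheory CategoryTheory.Limits AlgebraicGeometry TopologicalSpace Opposite
open AlgebraicGeometry.RelPicard NeronModelInfra GoodReductionJacobian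

noncomputable section

namespace Fermat.Agent.S25

variable {k : Type u} [Field k] {C : Scheme.{u}} {c : C ⟶ Spec (CommRingCat.of k)}
  {ε : SchemeHomOver (𝟙 (Spec (CommRingCat.of k))) c} {G : CurveGeom c ε}

namespace CurveGeom

section

variable {J : Scheme.{u}} {ξ : PicObj (algEquivZeroCut c ε) J}
  (hξ : ∀ T, Function.Bijective fun g : T ⟶ J => PicObj.map g ξ)

include hξ in
lemma exists_unique_cls (hdeg : G.DegHyp) {B : Type u} [CommRing B] [Algebra k B]
    (D : LB G.𝒟.toTwoChart B) (h : D.Rig (𝒞 := G.𝒟)) (h' : D.FibDeg0) :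
    ∃ s : Spec (CommRingCat.of B) ⟶ J, G.IsCl (PicObj.map s ξ) D := by
  obtain ⟨x, hx⟩ := IsCl.exists_of_LB hdeg h h'
  obtain ⟨s, hs⟩ := (hξ _).2 x
  refine ⟨s, ?_⟩
  have hs' : PicObj.map s ξ = x := hs
  rwa [hs']

include hξ in
/-- `J` represents the functor of line bundles on affine schemes. -/
theorem exists_affRep (hdeg : G.DegHyp) : Nonempty (AffRep G.𝒟 ξ.1) := by
  have key := fun (B : Type u) (_ : CommRing B) (_ : Algebra k B) (D : LB G.𝒟.toTwoChart B)
    (h : D.Rig (𝒞 := G.𝒟)) (h' : D.FibDeg0) ↦ exists_unique_cls hξ hdeg D h h'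
  choose cls hcls using key
  refine ⟨⟨fun {B} _ _ D h h' ↦ cls B _ _ D h h', ?_, ?_, ?_, ?_⟩⟩
  · intro B _ _ D h h'
    exact (hcls B _ _ D h h').fst
  · intro B _ _ D E h h' i i'
    constructor
    · intro e
      have h1 := hcls B _ _ D h h'
      rw [e] at h1
      exact h1.unique (hcls B _ _ E i i')
    · intro e
      exact (hξ _).1 ((hcls B _ _ D h h').eq_of_iso (hcls B _ _ E i i') e)
  · intro B _ _ s hs
    obtain ⟨D, hD⟩ := IsCl.exists_LB (G := G) (x := PicObj.map s ξ) hs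
    exact ⟨D, hD.rig, hD.fibDeg0 hdeg, (hξ _).1 ((hcls B _ _ D _ _).eq hD)⟩
  · intro B B' _ _ _ _ φ D D' b h h' i i'
    refine (hξ _).1 ?_
    have h1 := (hcls B _ _ D h h').map b
    rw [PicObj.map_map] at h1
    exact (hcls B' _ _ D' i i').eq h1

end

/-- a smooth algebra gives a smooth morphism -/
lemma smooth_tB {A : Type u} [CommRing A] [Algebra k A] (hA : Algebra.Smooth k A) :
    Smooth (tB k A) := by
  rw [HasRingHomProperty.Spec_iff (P := @Smooth)]
  exact (RingHom.smooth_algebraMap).mpr hA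

lemma clZ_fst (X : ChartData G.𝒟) (hdeg : G.DegHyp) (i : X.ι) :
    (clZ X hdeg i).1 = zι X i ≫ tB k (X.A i) := by
  rw [clZ, PicObj.map_fst, (isCl_clA X hdeg i).fst]

/-- **The Jacobian**, given charts, the comparison of degree zero with algebraic equivalence, and
the sheaves attached to points. -/
theorem exists_jacobian [IsAlgClosed k] (G : CurveGeom c ε) (hdeg : G.DegHyp)
    (X : ChartData G.𝒟) {N : ℕ} (S : PtSheaf G.𝒟.toTwoChart N) :
    ∃ D : RelativePic0Designation k c,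
      Nonempty (RepresentsRelSubPic c ε (algEquivZeroCut c ε) D) ∧
        Smooth D.toBase ∧ IsProper D.toBase ∧ GeometricallyConnected D.toBase := by
  obtain ⟨J, ξ, hξ, f, hf, hfξ, hcov⟩ := exists_rep X hdeg
  obtain ⟨A⟩ := exists_affRep hξ hdeg
  have hsm : Smooth ξ.1 := by
    refine PropS.smooth_of_cover (Z X) f hcov fun i ↦ ?_
    have h1 : f i ≫ ξ.1 = zι X i ≫ tB k (X.A i) := by
      rw [← clZ_fst X hdeg i, ← hfξ i]
      rfl
    rw [h1]
    have := smooth_tB (k := k) (X.smooth i)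
    infer_instance
  -- the Poincaré bundle
  obtain ⟨t, M, hM, rfl⟩ := ξ.exists_mk
  -- the zero section
  obtain ⟨z, hz⟩ := (hξ (Spec (CommRingCat.of k))).2 (PicObj.mk (𝟙 _)
    (RigidifiedLineBundle.unit (𝟙 _)) ((algEquivZeroCut c ε).unit_mem _))
  have hz' : PicObj.map z (PicObj.mk t M hM) = _ := hz
  have hzt : z ≫ t = 𝟙 _ := congrArg Sigma.fst hz'
  refine ⟨⟨J, t, z, hzt⟩, ⟨⟨M, hM, ?_, ?_⟩⟩, hsm, ?_, ?_⟩
  · intro T t' M' hM'
    obtain ⟨g, hg⟩ := (hξ T).2 (PicObj.mk t' M' hM')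
    have hg' : PicObj.map g (PicObj.mk t M hM) = _ := hg
    have hgt : g ≫ t = t' := congrArg Sigma.fst hg'
    rw [PicObj.map_mk' _ _ _ _ hgt, PicObj.mk_eq_mk_iff] at hg'
    refine ⟨⟨g, hgt⟩, hg', ?_⟩
    rintro ⟨g', hg't⟩ h
    apply Subtype.ext
    refine (hξ T).1 (Eq.trans ?_ hg.symm)
    change PicObj.map g' (PicObj.mk t M hM) = _
    rw [PicObj.map_mk' _ _ _ _ hg't, PicObj.mk_eq_mk_iff]
    exact h
  · rw [PicObj.map_mk' _ _ _ _ hzt, PicObj.mk_eq_mk_iff] at hz'
    exact hz'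
  · have hsm' : Smooth t := hsm
    have : LocallyOfFiniteType t := inferInstance
    exact AffRep.isProper_of_ptSheaf (j := t) A S
  · exact AffRep.geometricallyConnected_of_ptSheaf (j := t) A S

end CurveGeom

end Fermat.Agent.S25
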