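import Mathlib
import Fermat.Agent.S25.ChartRig

/-!
# S25 / ALG4: contents of sections, cancellation, and `k`-points
-/

set_option autoImplicit false
set_option linter.style.haveILetI false

universe u

open scoped TensorProduct Pointwise Polynomial

noncomputable section

namespace Fermat.Agent.S25

section content

variable {R P : Type u} [CommRing R] [AddCommGroup P] [Module R P]

/-- the content of an element of a module -/
def content (s : P) : Ideal R := LinearMap.range ((LinearMap.id : Module.Dual R P →ₗ[R] _).flip s)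

lemma mem_content {s : P} {r : R} : r ∈ content (R := R) s ↔ ∃ F : Module.Dual R P, F s = r :=
  Iff.rfl

/-- the content in a submodule `e P` -/
theorem content_mul (e : Ideal R)
    [Module.Finite R (e • ⊤ : Submodule R P)] [Module.Projective R (e • ⊤ : Submodule R P)]
    (s : (e • ⊤ : Submodule R P)) :
    content (R := R) (s : P) = content (R := R) s * e := by
  apply le_antisymm
  · rintro _ ⟨G, rfl⟩
    obtain ⟨n, p, i, -, -, hpi⟩ :=
      Module.Finite.exists_comp_eq_id_of_projective R (e • ⊤ : Submodule R P)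
    let y : Fin n → (e • ⊤ : Submodule R P) := fun j ↦ p (Pi.single j 1)
    let F : Fin n → Module.Dual R (e • ⊤ : Submodule R P) := fun j ↦ (LinearMap.proj j).comp i
    have hs : ∑ j, F j s • y j = s := by
      have h1 := congr($hpi s)
      simp only [LinearMap.comp_apply, LinearMap.id_apply] at h1
      conv_rhs => rw [← h1]
      have h2 : i s = ∑ j, (i s j) • (Pi.single j (1 : R) : Fin n → R) := by
        ext l
        simp [Finset.sum_apply, Pi.single_apply]
      conv_rhs => rw [h2, map_sum]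
      refine Finset.sum_congr rfl fun j _ ↦ ?_
      rw [map_smul]
      rfl
    show G (s : P) ∈ _
    have h3 : (s : P) = ∑ j, F j s • (y j : P) := by
      conv_lhs => rw [← hs]
      push_cast
      rfl
    rw [h3, map_sum]
    refine sum_mem fun j _ ↦ ?_
    rw [map_smul, smul_eq_mul]
    refine Ideal.mul_mem_mul ⟨F j, rfl⟩ ?_
    have h4 : ∀ z ∈ (e • ⊤ : Submodule R P), G z ∈ e := by
      intro z hz
      refine Submodule.smul_induction_on hz (fun r hr x _ ↦ ?_) (fun x y hx hy ↦ ?_)
      · rw [map_smul, smul_eq_mul]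
        exact e.mul_mem_right _ hr
      · rw [map_add]
        exact add_mem hx hy
    exact h4 _ (y j).2
  · rw [Ideal.mul_le]
    rintro _ ⟨F, rfl⟩ a ha
    show F s * a ∈ _
    let m : P →ₗ[R] (e • ⊤ : Submodule R P) :=
      (LinearMap.lsmul R P a).codRestrict _ (fun x ↦ Submodule.smul_mem_smul ha Submodule.mem_top)
    refine ⟨F.comp m, ?_⟩
    show F (m s) = F s * a
    have : m s = a • s := Subtype.ext rfl
    rw [this, map_smul, smul_eq_mul, mul_comm]

/-- invertible ideals can be cancelled -/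
theorem ideal_cancel {J : Ideal R} [Module.Invertible R J] {I I' : Ideal R}
    (h : I * J = I' * J) : I = I' := by
  have key : ∀ {I I' : Ideal R}, I * J ≤ I' * J → I ≤ I' := by
    intro I I' hle x hx
    obtain ⟨t, ht⟩ := (Module.Invertible.bijective (R := R) (M := J)).2 1
    have h1 : ∀ t : Module.Dual R J ⊗[R] J, x * contractLeft R J t ∈ I' := by
      intro t
      induction t using TensorProduct.induction_on with
      | zero => simp
      | add a b ha hb => rw [map_add, mul_add]; exact add_mem ha hb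
      | tmul F y =>
        rw [contractLeft_apply, ← smul_eq_mul, ← map_smul]
        have h2 : ((x • y : J) : R) ∈ I' * J := hle (Ideal.mul_mem_mul hx y.2)
        have h3 : ∀ z ∈ I' * J, ∃ hz : z ∈ J, F ⟨z, hz⟩ ∈ I' := by
          intro z hz
          refine Submodule.mul_induction_on hz (fun a ha b hb ↦ ?_) (fun a b ha hb ↦ ?_)
          · refine ⟨J.mul_mem_left _ hb, ?_⟩
            have : (⟨a * b, J.mul_mem_left _ hb⟩ : J) = a • ⟨b, hb⟩ := rfl
            rw [this, map_smul, smul_eq_mul]
            exact I'.mul_mem_right _ ha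
          · obtain ⟨ha1, ha2⟩ := ha
            obtain ⟨hb1, hb2⟩ := hb
            refine ⟨add_mem ha1 hb1, ?_⟩
            have : (⟨a + b, add_mem ha1 hb1⟩ : J) = ⟨a, ha1⟩ + ⟨b, hb1⟩ := rfl
            rw [this, map_add]
            exact add_mem ha2 hb2
        exact (h3 _ h2).2
    have h2 := h1 t
    rw [ht, mul_one] at h2
    exact h2
  exact le_antisymm (key h.le) (key h.ge)

end content

namespace LB

variable {k : Type u} [Field k]

section kpoints

variable (𝒞 : TwoChart k)

lemma finiteType_A0 : Algebra.FiniteType k 𝒞.A0 := by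
  have h1 : (Polynomial.aeval 𝒞.f0 : k[X] →ₐ[k] 𝒞.A0).toRingHom.FiniteType := 𝒞.fin0.finiteType
  have h2 : (algebraMap k k[X]).FiniteType := by
    have : Algebra.FiniteType k k[X] := inferInstance
    rwa [RingHom.finiteType_algebraMap]
  have h3 := h1.comp h2
  have h4 : (Polynomial.aeval 𝒞.f0 : k[X] →ₐ[k] 𝒞.A0).toRingHom.comp (algebraMap k k[X]) =
      algebraMap k 𝒞.A0 := (Polynomial.aeval 𝒞.f0).comp_algebraMap
  rw [h4, RingHom.finiteType_algebraMap] at h3
  exact h3

/-- over an algebraically closed field there are enough `k`-points in `U0` -/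
theorem exists_point [IsAlgClosed k] {a : 𝒞.A0} (ha : a ≠ 0) : ∃ q : 𝒞.A0 →ₐ[k] k, q a ≠ 0 := by
  haveI := finiteType_A0 𝒞
  haveI := 𝒞.isDomain_A0
  haveI : IsJacobsonRing 𝒞.A0 := isJacobsonRing_of_finiteType (A := k)
  have hjac : (⊥ : Ideal 𝒞.A0).jacobson = ⊥ :=
    IsJacobsonRing.out' ⊥ (Ideal.isPrime_bot.isRadical)
  have hex : ∃ m : Ideal 𝒞.A0, m.IsMaximal ∧ a ∉ m := by
    by_contra! hcon
    apply ha
    rw [← Ideal.mem_bot, ← hjac, Ideal.jacobson, Submodule.mem_sInf]
    rintro m ⟨-, hm⟩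
    exact hcon m hm
  obtain ⟨m, hm, ham⟩ := hex
  let _ : Field (𝒞.A0 ⧸ m) := Ideal.Quotient.field m
  haveI : Algebra.FiniteType k (𝒞.A0 ⧸ m) := inferInstance
  haveI : Module.Finite k (𝒞.A0 ⧸ m) := finite_of_finite_type_of_isJacobsonRing k (𝒞.A0 ⧸ m)
  have hbij : Function.Bijective (algebraMap k (𝒞.A0 ⧸ m)) :=
    IsAlgClosed.algebraMap_bijective_of_isIntegral
  let e : k ≃ₐ[k] (𝒞.A0 ⧸ m) := AlgEquiv.ofBijective (Algebra.ofId _ _) hbij
  refine ⟨e.symm.toAlgHom.comp (Ideal.Quotient.mkₐ k m), ?_⟩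
  intro h
  apply ham
  have h1 : e.symm (Ideal.Quotient.mk m a) = 0 := h
  rw [← Ideal.Quotient.eq_zero_iff_mem]
  exact (EmbeddingLike.map_eq_zero_iff (f := e.symm)).mp h1

variable {𝒞} (K : Type u) [Field K] [Algebra k K]

/-- the `K`-point of `C_K` given by a `k`-point of `C`. -/
def ptK (q : 𝒞.A0 →ₐ[k] k) : 𝒞.R0 K →ₐ[K] K :=
  Algebra.TensorProduct.lift (AlgHom.id K K) ((Algebra.ofId k K).comp q) (fun _ _ ↦ .all _ _)

@[simp] lemma ptK_tmul (q : 𝒞.A0 →ₐ[k] k) (c : K) (a : 𝒞.A0) :
    ptK K q (c ⊗ₜ a) = c * algebraMap k K (q a) := rfl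

/-- a nonzero function on `(U0)_K` does not vanish at some `k`-point -/
theorem exists_ptK_ne_zero [IsAlgClosed k] {x : 𝒞.R0 K} (hx : x ≠ 0) :
    ∃ q : 𝒞.A0 →ₐ[k] k, ptK K q x ≠ 0 := by
  classical
  let b := Module.Basis.ofVectorSpace k K
  let E := TensorProduct.equivFinsuppOfBasisLeft (N := 𝒞.A0) b
  have key : ∀ (q : 𝒞.A0 →ₐ[k] k) (y : 𝒞.R0 K) i, b.repr (ptK K q y) i = q (E y i) := by
    intro q y i
    induction y using TensorProduct.induction_on with
    | zero => simp
    | add y z hy hz => rw [map_add, map_add, map_add, Finsupp.add_apply, Finsupp.add_apply, hy, hz,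
        map_add]
    | tmul c a =>
      have h1 : E (c ⊗ₜ a) i = b.repr c i • a :=
        TensorProduct.equivFinsuppOfBasisLeft_apply_tmul_apply b c a i
      rw [h1, map_smul, ptK_tmul, mul_comm, ← Algebra.smul_def, map_smul, Finsupp.smul_apply,
        smul_eq_mul, smul_eq_mul, mul_comm]
  obtain ⟨i, hi⟩ : ∃ i, E x i ≠ 0 := by
    by_contra! hcon
    apply hx
    rw [← E.map_eq_zero_iff]
    exact Finsupp.ext hcon
  obtain ⟨q, hq⟩ := exists_point 𝒞 hi
  refine ⟨q, fun h ↦ hq ?_⟩
  rw [← key, h, map_zero, Finsupp.zero_apply]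

end kpoints

end LB

end Fermat.Agent.S25
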