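import Mathlib
import Fermat.Agent.S25.ChartIdeal
import Fermat.Agent.S25.FibDeg

/-!
# S25 / ALG4: the Euler characteristic of the structure sheaf
-/

set_option autoImplicit false
set_option linter.style.haveILetI false

universe u

open scoped TensorProduct Pointwise Polynomial

noncomputable section

namespace Fermat.Agent.S25

namespace LB

variable {k : Type u} [Field k]

section

variable {𝒞 : CurveData k}

lemma finrank_H0_triv : Module.finrank k (triv 𝒞.toTwoChart k).H0 = 1 := by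
  -- `H⁰ = k`
  have e0 : k ⊗[k] 𝒞.A0 ≃ₐ[k] 𝒞.A0 := Algebra.TensorProduct.lid k 𝒞.A0
  let l : k →ₗ[k] (triv 𝒞.toTwoChart k).H0 :=
    { toFun := fun c ↦ ⟨(algebraMap k (𝒞.R0 k) c, algebraMap k (𝒞.R1 k) c), by
        refine (mem_H0_iff _).mpr ?_
        show 𝒞.ρ0B k (algebraMap k (𝒞.R0 k) c) = 𝒞.ρ1B k (algebraMap k (𝒞.R1 k) c)
        rw [AlgHom.commutes, AlgHom.commutes]⟩
      map_add' := fun x y ↦ by
        apply Subtype.ext
        apply Prod.ext
        · exact map_add _ x y
        · exact map_add _ x y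
      map_smul' := fun c x ↦ by
        apply Subtype.ext
        apply Prod.ext
        · exact map_mul (algebraMap k (𝒞.R0 k)) c x
        · exact map_mul (algebraMap k (𝒞.R1 k)) c x }
  have hl : Function.Bijective l := by
    constructor
    · intro c c' h
      have h1 : algebraMap k (𝒞.R1 k) c = algebraMap k (𝒞.R1 k) c' :=
        congrArg (fun z : (triv 𝒞.toTwoChart k).H0 ↦ z.1.2) h
      have h2 := congrArg (𝒞.εB k) h1
      rwa [AlgHom.commutes, AlgHom.commutes] at h2
    · rintro ⟨⟨x, y⟩, hxy⟩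
      have h1 : 𝒞.ρ0B k x = 𝒞.ρ1B k y := (mem_H0_iff _).mp hxy
      obtain ⟨a, ha⟩ : ∃ a : 𝒞.A0, (1 : k) ⊗ₜ a = x :=
        ⟨Algebra.TensorProduct.lid k 𝒞.A0 x, by
          rw [← (Algebra.TensorProduct.lid k 𝒞.A0).symm_apply_apply x,
            AlgEquiv.apply_symm_apply]; rfl⟩
      obtain ⟨b, hb⟩ : ∃ b : 𝒞.A1, (1 : k) ⊗ₜ b = y :=
        ⟨Algebra.TensorProduct.lid k 𝒞.A1 y, by
          rw [← (Algebra.TensorProduct.lid k 𝒞.A1).symm_apply_apply y,
            AlgEquiv.apply_symm_apply]; rfl⟩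
      have h2 : 𝒞.ρ0 a = 𝒞.ρ1 b := by
        rw [← ha, ← hb] at h1
        have h3 : (1 : k) ⊗ₜ[k] 𝒞.ρ0 a = (1 : k) ⊗ₜ[k] 𝒞.ρ1 b := h1
        have h4 := congrArg (Algebra.TensorProduct.lid k 𝒞.A01) h3
        simpa using h4
      obtain ⟨c, hc0, hc1⟩ := 𝒞.inter a b h2
      refine ⟨c, ?_⟩
      apply Subtype.ext
      apply Prod.ext
      · show algebraMap k (𝒞.R0 k) c = x
        rw [← ha, hc0, Algebra.TensorProduct.algebraMap_apply, Algebra.algebraMap_self_apply,
          Algebra.algebraMap_eq_smul_one, TensorProduct.tmul_smul, TensorProduct.smul_tmul',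
          smul_eq_mul, mul_one]
      · show algebraMap k (𝒞.R1 k) c = y
        rw [← hb, hc1, Algebra.TensorProduct.algebraMap_apply, Algebra.algebraMap_self_apply,
          Algebra.algebraMap_eq_smul_one, TensorProduct.tmul_smul, TensorProduct.smul_tmul',
          smul_eq_mul, mul_one]
  rw [← (LinearEquiv.ofBijective l hl).finrank_eq, Module.finrank_self]

variable (𝒞) in
/-- the genus -/
def genus : ℕ := Module.finrank k (triv 𝒞.toTwoChart k).H1

theorem chi_triv (K : Type u) [Field K] [Algebra k K] :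
    (triv 𝒞.toTwoChart K).chi = 1 - (genus 𝒞 : ℤ) := by
  rw [(trivBC 𝒞.toTwoChart (Algebra.ofId k K)).chi_eq, LB.chi, finrank_H0_triv]
  rfl

end

end LB

end Fermat.Agent.S25
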