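import Mathlib
import Fermat.Agent.S25.Defs

/-!
# S25, package HILB: the ring representing ideals `I ⊂ B ⊗ A` such that given elements
`a : Fin g → A` form a basis of the quotient.
-/

set_option autoImplicit false

universe u

open scoped TensorProduct

noncomputable section

namespace Fermat.Agent.S25.Hilb

variable {k : Type u} [Field k] {A : Type u} [CommRing A] [Algebra k A] {g : ℕ} (a : Fin g → A)

/-- the images of `1 ⊗ a i` form a `B`-basis of the quotient by `I`. -/
def HasBasis {B : Type u} [CommRing B] [Algebra k B] (I : Ideal (B ⊗[k] A)) : Prop :=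
  ∃ b : Module.Basis (Fin g) B ((B ⊗[k] A) ⧸ I), ∀ i, b i = Ideal.Quotient.mk I (1 ⊗ₜ a i)

variable (k) in
/-- Coordinates -/
@[ext]
structure Coord (B : Type u) [CommRing B] [Algebra k B] where
  π : A →ₗ[k] (Fin g → B)
  basis : ∀ i, π (a i) = Pi.single i 1
  mul : ∀ x y, π (x * y) = ∑ l, π y l • π (x * a l)

namespace Coord

variable {a} {B B' : Type u} [CommRing B] [Algebra k B] [CommRing B'] [Algebra k B']
  (c : Coord k a B)

/-- extension of the coordinates to `B ⊗ A` -/
def πB : B ⊗[k] A →ₗ[B] (Fin g → B) := LinearMap.liftBaseChange B c.π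

@[simp]
theorem πB_tmul (b : B) (x : A) : c.πB (b ⊗ₜ x) = b • c.π x :=
  LinearMap.liftBaseChange_tmul _ _ _ _

theorem πB_mul (x : A) (y : B ⊗[k] A) :
    c.πB (((1 : B) ⊗ₜ[k] x) * y) = ∑ l, c.πB y l • c.π (x * a l) := by
  induction y using TensorProduct.induction_on with
  | zero => simp
  | tmul b y =>
    rw [Algebra.TensorProduct.tmul_mul_tmul, one_mul, πB_tmul, πB_tmul, c.mul, Finset.smul_sum]
    refine Finset.sum_congr rfl fun l _ => ?_
    rw [Pi.smul_apply, smul_smul, smul_eq_mul]
  | add y z hy hz =>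
    rw [mul_add, map_add, hy, hz, map_add, ← Finset.sum_add_distrib]
    refine Finset.sum_congr rfl fun l _ => ?_
    rw [Pi.add_apply, add_smul]

/-- the ideal attached to coordinates -/
def ideal : Ideal (B ⊗[k] A) where
  carrier := {y | c.πB y = 0}
  add_mem' {x y} hx hy := by
    simp only [Set.mem_ofPred_eq] at hx hy ⊢
    rw [map_add, hx, hy, add_zero]
  zero_mem' := map_zero _
  smul_mem' z y hy := by
    simp only [Set.mem_ofPred_eq, smul_eq_mul] at hy ⊢
    induction z using TensorProduct.induction_on with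
    | zero => simp
    | tmul b x =>
      have : (b ⊗ₜ[k] x : B ⊗[k] A) * y = b • (((1 : B) ⊗ₜ[k] x) * y) := by
        rw [← smul_mul_assoc, TensorProduct.smul_tmul', smul_eq_mul, mul_one]
      rw [this, map_smul, c.πB_mul, hy]
      simp
    | add z w hz hw => rw [add_mul, map_add, hz, hw, add_zero]

theorem mem_ideal {y : B ⊗[k] A} : y ∈ c.ideal ↔ c.πB y = 0 := Iff.rfl

theorem πB_sum (v : Fin g → B) : c.πB (∑ i, v i • ((1 : B) ⊗ₜ[k] a i)) = v := by
  rw [map_sum]
  simp only [map_smul, πB_tmul, one_smul, c.basis]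
  ext j
  simp [Finset.sum_apply, Pi.single_apply]

theorem sub_mem_ideal (y : B ⊗[k] A) :
    y - ∑ i, c.πB y i • ((1 : B) ⊗ₜ[k] a i) ∈ c.ideal := by
  rw [mem_ideal, map_sub, πB_sum, sub_self]

/-- the quotient by the ideal of a coordinate system has basis `a`. -/
theorem hasBasis : HasBasis a c.ideal := by
  let s : (Fin g → B) →ₗ[B] ((B ⊗[k] A) ⧸ c.ideal) :=
    Fintype.linearCombination B (fun i => Ideal.Quotient.mk c.ideal (1 ⊗ₜ a i))
  have hs : ∀ v, s v = Ideal.Quotient.mk c.ideal (∑ i, v i • ((1 : B) ⊗ₜ[k] a i)) := by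
    intro v
    rw [Fintype.linearCombination_apply, map_sum]
    rfl
  have hbij : Function.Bijective s := by
    constructor
    · rw [injective_iff_map_eq_zero]
      intro v hv
      rw [hs, Ideal.Quotient.eq_zero_iff_mem, mem_ideal, πB_sum] at hv
      exact hv
    · intro y
      obtain ⟨y, rfl⟩ := Ideal.Quotient.mk_surjective y
      refine ⟨c.πB y, ?_⟩
      rw [hs, Ideal.Quotient.eq]
      have := neg_mem (c.sub_mem_ideal y)
      rwa [neg_sub] at this
  refine ⟨Module.Basis.ofEquivFun (LinearEquiv.ofBijective s hbij).symm, fun i => ?_⟩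
  rw [Module.Basis.coe_ofEquivFun, LinearEquiv.symm_symm]
  show s (Pi.single i 1) = _
  rw [hs]
  congr 1
  simp [Pi.single_apply, Finset.sum_ite_eq']

/-- base change of coordinates -/
def map (φ : B →ₐ[k] B') : Coord k a B' where
  π := (φ.toLinearMap.compLeft (Fin g)).comp c.π
  basis i := by
    ext j
    simp only [LinearMap.comp_apply, c.basis, LinearMap.compLeft_apply, Function.comp_apply,
      AlgHom.toLinearMap_apply, Pi.single_apply]
    split_ifs <;> simp
  mul x y := by
    ext j
    show φ (c.π (x * y) j) = _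
    rw [c.mul]
    simp only [Finset.sum_apply, Pi.smul_apply, smul_eq_mul, map_sum, map_mul]
    rfl

@[simp]
theorem map_π (φ : B →ₐ[k] B') (x : A) (i : Fin g) : (c.map φ).π x i = φ (c.π x i) := rfl

end Coord

section

variable {a} {B B' : Type u} [CommRing B] [Algebra k B] [CommRing B'] [Algebra k B']

/-- base change map -/
abbrev bcR (φ : B →ₐ[k] B') : B ⊗[k] A →+* B' ⊗[k] A :=
  (Algebra.TensorProduct.map φ (AlgHom.id k A)).toRingHom

theorem bcR_tmul (φ : B →ₐ[k] B') (b : B) (x : A) : bcR φ (b ⊗ₜ[k] x) = φ b ⊗ₜ x := rfl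

theorem Coord.map_πB (c : Coord k a B) (φ : B →ₐ[k] B') (y : B ⊗[k] A) (i : Fin g) :
    (c.map φ).πB (bcR φ y) i = φ (c.πB y i) := by
  induction y using TensorProduct.induction_on with
  | zero => simp
  | tmul b y => rw [bcR_tmul]; simp
  | add y z hy hz => rw [map_add, map_add, map_add, Pi.add_apply, hy, hz, Pi.add_apply, map_add]

theorem Coord.map_ideal (c : Coord k a B) (φ : B →ₐ[k] B') :
    c.ideal.map (bcR φ) = (c.map φ).ideal := by
  apply le_antisymm
  · rw [Ideal.map_le_iff_le_comap]
    intro y hy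
    rw [Ideal.mem_comap, Coord.mem_ideal]
    ext i
    rw [c.map_πB, (c.mem_ideal.mp hy)]
    simp
  · intro y hy
    -- generic element
    have key : ∀ z : B' ⊗[k] A, z - ∑ i, (c.map φ).πB z i • ((1 : B') ⊗ₜ[k] a i) ∈
        c.ideal.map (bcR φ) := by
      intro z
      induction z using TensorProduct.induction_on with
      | zero => simp
      | tmul b x =>
        have h1 := Ideal.mem_map_of_mem (bcR φ) (c.sub_mem_ideal (1 ⊗ₜ x))
        have h2 : (b ⊗ₜ[k] x : B' ⊗[k] A) - ∑ i, (c.map φ).πB (b ⊗ₜ[k] x) i •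
            ((1 : B') ⊗ₜ[k] a i) = (b ⊗ₜ[k] (1 : A) : B' ⊗[k] A) *
            bcR φ ((1 : B) ⊗ₜ x - ∑ i, c.πB (1 ⊗ₜ x) i • ((1 : B) ⊗ₜ[k] a i)) := by
          rw [map_sub, map_sum, mul_sub, Finset.mul_sum]
          congr 1
          · rw [bcR_tmul, map_one, Algebra.TensorProduct.tmul_mul_tmul, mul_one, one_mul]
          · refine Finset.sum_congr rfl fun i _ => ?_
            rw [TensorProduct.smul_tmul', TensorProduct.smul_tmul', bcR_tmul,
              Algebra.TensorProduct.tmul_mul_tmul]
            simp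
        rw [h2]
        exact Ideal.mul_mem_left _ _ h1
      | add z w hz hw =>
        have : z + w - ∑ i, (c.map φ).πB (z + w) i • ((1 : B') ⊗ₜ[k] a i) =
            (z - ∑ i, (c.map φ).πB z i • ((1 : B') ⊗ₜ[k] a i)) +
            (w - ∑ i, (c.map φ).πB w i • ((1 : B') ⊗ₜ[k] a i)) := by
          rw [map_add]
          simp only [Pi.add_apply, add_smul, Finset.sum_add_distrib]
          abel
        rw [this]
        exact add_mem hz hw
    have := key y
    rw [(c.map φ).mem_ideal.mp hy] at this
    simpa using this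

/-- the coordinates of an ideal with basis `a` -/
theorem HasBasis.exists_coord {I : Ideal (B ⊗[k] A)} (h : HasBasis a I) :
    ∃ c : Coord k a B, c.ideal = I := by
  obtain ⟨b, hb⟩ := h
  let π : A →ₗ[k] (Fin g → B) :=
    { toFun := fun x => b.equivFun (Ideal.Quotient.mk I (1 ⊗ₜ x))
      map_add' := fun x y => by rw [TensorProduct.tmul_add, map_add, map_add]
      map_smul' := fun r x => by
        rw [TensorProduct.tmul_smul, RingHom.id_apply]
        have h1 : Ideal.Quotient.mk I (r • ((1 : B) ⊗ₜ[k] x)) =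
            (algebraMap k B r) • Ideal.Quotient.mk I ((1 : B) ⊗ₜ[k] x) := by
          rw [← algebraMap_smul B r ((1 : B) ⊗ₜ[k] x)]
          rfl
        rw [h1, map_smul, algebraMap_smul] }
  have hπ : ∀ x, Ideal.Quotient.mk I ((1 : B) ⊗ₜ[k] x) =
      Ideal.Quotient.mk I (∑ i, π x i • ((1 : B) ⊗ₜ[k] a i)) := by
    intro x
    have h1 := b.sum_equivFun (Ideal.Quotient.mk I ((1 : B) ⊗ₜ[k] x))
    rw [← h1, map_sum]
    refine Finset.sum_congr rfl fun i _ => ?_
    rw [hb]
    rfl
  have hinj : ∀ v w : Fin g → B, Ideal.Quotient.mk I (∑ i, v i • ((1 : B) ⊗ₜ[k] a i)) =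
      Ideal.Quotient.mk I (∑ i, w i • ((1 : B) ⊗ₜ[k] a i)) → v = w := by
    intro v w hvw
    have h1 : ∀ v : Fin g → B, Ideal.Quotient.mk I (∑ i, v i • ((1 : B) ⊗ₜ[k] a i)) =
        b.equivFun.symm v := by
      intro v
      rw [Module.Basis.equivFun_symm_apply, map_sum]
      refine Finset.sum_congr rfl fun i _ => ?_
      rw [hb]
      rfl
    rw [h1, h1] at hvw
    exact b.equivFun.symm.injective hvw
  let c : Coord k a B :=
    { π := π
      basis := fun i => by
        apply hinj
        rw [← hπ]
        congr 1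
        simp [Pi.single_apply, Finset.sum_ite_eq']
      mul := fun x y => by
        apply hinj
        rw [← hπ]
        have h1 : (1 : B) ⊗ₜ[k] (x * y) = ((1 : B) ⊗ₜ[k] x) * ((1 : B) ⊗ₜ[k] y) := by
          rw [Algebra.TensorProduct.tmul_mul_tmul, one_mul]
        have h2 : (∑ i, (∑ l, π y l • π (x * a l)) i • ((1 : B) ⊗ₜ[k] a i) : B ⊗[k] A) =
            ∑ l, π y l • ∑ i, π (x * a l) i • ((1 : B) ⊗ₜ[k] a i) := by
          simp only [Finset.sum_apply, Pi.smul_apply, smul_eq_mul, Finset.sum_smul,
            Finset.smul_sum, mul_smul]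
          rw [Finset.sum_comm]
        rw [h1, map_mul, hπ y, h2, map_sum, map_sum, Finset.mul_sum]
        refine Finset.sum_congr rfl fun l _ => ?_
        have h3 : Ideal.Quotient.mk I (π y l • ((1 : B) ⊗ₜ[k] a l)) =
            π y l • Ideal.Quotient.mk I ((1 : B) ⊗ₜ[k] a l) := rfl
        have h4 : Ideal.Quotient.mk I (π y l • ∑ i, π (x * a l) i • ((1 : B) ⊗ₜ[k] a i)) =
            π y l • Ideal.Quotient.mk I (∑ i, π (x * a l) i • ((1 : B) ⊗ₜ[k] a i)) := rfl
        rw [h3, h4, ← hπ, mul_smul_comm, ← map_mul, Algebra.TensorProduct.tmul_mul_tmul,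
          one_mul] }
  refine ⟨c, ?_⟩
  have hall : ∀ y : B ⊗[k] A, Ideal.Quotient.mk I y =
      Ideal.Quotient.mk I (∑ i, c.πB y i • ((1 : B) ⊗ₜ[k] a i)) := by
    intro y
    induction y using TensorProduct.induction_on with
    | zero => simp
    | tmul b x =>
      have h1 : (b ⊗ₜ[k] x : B ⊗[k] A) = b • ((1 : B) ⊗ₜ[k] x) := by
        rw [TensorProduct.smul_tmul', smul_eq_mul, mul_one]
      have h2 : ∀ z : B ⊗[k] A, Ideal.Quotient.mk I (b • z) = b • Ideal.Quotient.mk I z :=
        fun z => rfl
      have h3 : (∑ i, (b • c.πB ((1 : B) ⊗ₜ[k] x)) i • ((1 : B) ⊗ₜ[k] a i) : B ⊗[k] A) =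
          b • ∑ i, c.πB ((1 : B) ⊗ₜ[k] x) i • ((1 : B) ⊗ₜ[k] a i) := by
        simp only [Pi.smul_apply, smul_eq_mul, mul_smul, Finset.smul_sum]
      rw [h1, LinearMap.map_smul c.πB, h3, h2, h2, hπ x, c.πB_tmul, one_smul]
    | add y z hy hz =>
      rw [map_add, map_add, hy, hz, ← map_add]
      congr 1
      simp only [Pi.add_apply, add_smul, Finset.sum_add_distrib]
  ext y
  rw [c.mem_ideal, ← Ideal.Quotient.eq_zero_iff_mem, hall y]
  constructor
  · intro h; rw [h]; simp
  · intro h
    apply hinj
    rw [h]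
    simp

theorem HasBasis.map {I : Ideal (B ⊗[k] A)} (h : HasBasis a I) (φ : B →ₐ[k] B') :
    HasBasis a (I.map (bcR φ)) := by
  obtain ⟨c, rfl⟩ := h.exists_coord
  rw [c.map_ideal]
  exact (c.map φ).hasBasis

theorem Coord.ideal_injective {c c' : Coord k a B} (h : c.ideal = c'.ideal) : c = c' := by
  ext x i
  have h1 := c.sub_mem_ideal (1 ⊗ₜ x)
  rw [h, c'.mem_ideal, map_sub, c'.πB_sum, sub_eq_zero] at h1
  rw [Coord.πB_tmul, one_smul, Coord.πB_tmul, one_smul] at h1
  rw [h1]

end

/-! ### The representing ring -/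

section Ring

open MvPolynomial

variable (k)

/-- variables `z x i` -/
abbrev Pz (A : Type u) (g : ℕ) : Type u := MvPolynomial (A × Fin g) k

/-- relations -/
inductive Rel : Pz k A g → Prop
  | add (x y : A) (i : Fin g) : Rel (X (x + y, i) - X (x, i) - X (y, i))
  | smul (c : k) (x : A) (i : Fin g) : Rel (X (c • x, i) - C c * X (x, i))
  | basis (j i : Fin g) : Rel (X (a j, i) - C (Pi.single (M := fun _ => k) j 1 i))
  | mul (x y : A) (i : Fin g) : Rel (X (x * y, i) - ∑ l, X (y, l) * X (x * a l, i))

/-- ideal of relations -/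
def relIdeal : Ideal (Pz k A g) := Ideal.span {P | Rel k a P}

/-- **The ring representing ideals with basis `a` of the quotient.** -/
def HilbRing : Type u := Pz k A g ⧸ relIdeal k a

instance : CommRing (HilbRing k a) := inferInstanceAs (CommRing (Pz k A g ⧸ relIdeal k a))
instance : Algebra k (HilbRing k a) := inferInstanceAs (Algebra k (Pz k A g ⧸ relIdeal k a))

/-- projection from the polynomial ring -/
def proj : Pz k A g →ₐ[k] HilbRing k a := Ideal.Quotient.mkₐ k (relIdeal k a)

theorem proj_surjective : Function.Surjective (proj k a) := Ideal.Quotient.mkₐ_surjective _ _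

variable {k a}

theorem proj_rel {P : Pz k A g} (h : Rel k a P) : proj k a P = 0 :=
  Ideal.Quotient.eq_zero_iff_mem.mpr (Ideal.subset_span h)

variable (k a)

/-- the universal coordinates -/
def ucoord : Coord k a (HilbRing k a) where
  π :=
    { toFun := fun x i => proj k a (X (x, i))
      map_add' := fun x y => by
        ext i
        have := proj_rel (Rel.add (k := k) (a := a) x y i)
        rw [map_sub, map_sub] at this
        rw [Pi.add_apply]
        linear_combination this
      map_smul' := fun c x => by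
        ext i
        have := proj_rel (Rel.smul (k := k) (a := a) c x i)
        rw [map_sub, map_mul, sub_eq_zero] at this
        rw [this, RingHom.id_apply, Pi.smul_apply, Algebra.smul_def,
          ← MvPolynomial.algebraMap_eq, (proj k a).commutes] }
  basis j := by
    ext i
    have := proj_rel (Rel.basis (k := k) (a := a) j i)
    rw [map_sub, sub_eq_zero, ← MvPolynomial.algebraMap_eq, (proj k a).commutes] at this
    show proj k a (X (a j, i)) = _
    rw [this, Pi.single_apply, Pi.single_apply]
    split_ifs <;> simp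
  mul x y := by
    ext i
    have := proj_rel (Rel.mul (k := k) (a := a) x y i)
    rw [map_sub, sub_eq_zero, map_sum] at this
    show proj k a (X (x * y, i)) = _
    rw [this, Finset.sum_apply]
    refine Finset.sum_congr rfl fun l _ => ?_
    rw [map_mul]
    rfl

/-- the universal ideal -/
def univIdeal : Ideal ((HilbRing k a) ⊗[k] A) := (ucoord k a).ideal

theorem hasBasis_univIdeal : HasBasis a (univIdeal k a) := (ucoord k a).hasBasis

variable {k a}

variable {B : Type u} [CommRing B] [Algebra k B]

/-- the homomorphism attached to coordinates -/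
def Coord.toHom (c : Coord k a B) : HilbRing k a →ₐ[k] B :=
  Ideal.Quotient.liftₐ (relIdeal k a) (aeval fun xi : A × Fin g => c.π xi.1 xi.2) (by
    have : relIdeal k a ≤ RingHom.ker (aeval (R := k) fun xi : A × Fin g => c.π xi.1 xi.2) := by
      rw [relIdeal, Ideal.span_le]
      rintro P hP
      rw [SetLike.mem_coe, RingHom.mem_ker]
      cases hP with
      | add x y i => simp
      | smul r x i =>
        rw [map_sub, map_mul, aeval_X, aeval_X, aeval_C]
        simp only
        rw [map_smul, Pi.smul_apply, Algebra.smul_def, sub_self]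
      | basis j i =>
        simp only [map_sub, aeval_X, c.basis, aeval_C, Pi.single_apply]
        split_ifs <;> simp
      | mul x y i =>
        rw [map_sub, map_sum, aeval_X]
        simp only
        rw [c.mul, sub_eq_zero, Finset.sum_apply]
        refine Finset.sum_congr rfl fun l _ => ?_
        rw [map_mul (aeval fun xi : A × Fin g => c.π xi.1 xi.2), aeval_X, aeval_X]
        rfl
    exact this)

theorem Coord.toHom_proj (c : Coord k a B) (x : A) (i : Fin g) :
    c.toHom (proj k a (X (x, i))) = c.π x i := by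
  have : c.toHom (proj k a (X (x, i))) =
      aeval (R := k) (fun xi : A × Fin g => c.π xi.1 xi.2) (X (x, i)) := rfl
  rw [this, aeval_X]

theorem Coord.map_toHom (c : Coord k a B) : (ucoord k a).map c.toHom = c := by
  ext x i
  exact c.toHom_proj x i

theorem hom_ext {φ ψ : HilbRing k a →ₐ[k] B}
    (h : (ucoord k a).map φ = (ucoord k a).map ψ) : φ = ψ := by
  have h1 : φ.comp (proj k a) = ψ.comp (proj k a) := by
    apply MvPolynomial.algHom_ext
    rintro ⟨x, i⟩
    have := congrArg (fun c : Coord k a B => c.π x i) h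
    exact this
  ext y
  obtain ⟨y, rfl⟩ := proj_surjective k a y
  exact congrArg (fun f : Pz k A g →ₐ[k] B => f y) h1

/-- **Universal property.** -/
theorem existsUnique_hom {I : Ideal (B ⊗[k] A)} (h : HasBasis a I) :
    ∃! φ : HilbRing k a →ₐ[k] B, (univIdeal k a).map (bcR φ) = I := by
  obtain ⟨c, rfl⟩ := h.exists_coord
  refine ⟨c.toHom, ?_, fun ψ hψ => ?_⟩
  · show (univIdeal k a).map (bcR c.toHom) = c.ideal
    rw [univIdeal, Coord.map_ideal, c.map_toHom]
  · rw [univIdeal, Coord.map_ideal] at hψ
    apply hom_ext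
    rw [c.map_toHom]
    exact Coord.ideal_injective hψ

/-- finite type -/
instance finiteType [Algebra.FiniteType k A] : Algebra.FiniteType k (HilbRing k a) := by
  classical
  obtain ⟨S, hS⟩ := (inferInstance : Algebra.FiniteType k A).out
  -- generators
  let T : Finset (HilbRing k a) :=
    ((S ×ˢ (Finset.univ : Finset (Fin g × Fin g))).image
      fun t => proj k a (X (t.1 * a t.2.1, t.2.2))) ∪
    ((Finset.univ : Finset (Fin g)).image fun i => proj k a (X (1, i)))
  refine ⟨⟨T, ?_⟩⟩
  set R' : Subalgebra k (HilbRing k a) := Algebra.adjoin k (T : Set (HilbRing k a)) with hR'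
  have hT1 : ∀ s ∈ S, ∀ l i, proj k a (X (s * a l, i)) ∈ R' := fun s hs l i =>
    Algebra.subset_adjoin (by
      rw [Finset.mem_coe, Finset.mem_union]
      left
      rw [Finset.mem_image]
      exact ⟨(s, (l, i)), by simp [hs], rfl⟩)
  have hT2 : ∀ i, proj k a (X (1, i)) ∈ R' := fun i =>
    Algebra.subset_adjoin (by
      rw [Finset.mem_coe, Finset.mem_union]
      right
      rw [Finset.mem_image]
      exact ⟨i, by simp, rfl⟩)
  -- all coordinates are in `R'`
  have key : ∀ y : A, ∀ i, (ucoord k a).π y i ∈ R' := by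
    intro y
    have hy : y ∈ Algebra.adjoin k (S : Set A) := by rw [hS]; trivial
    -- the `k`-submodule of good elements is stable under multiplication by `S`
    have hy' : ∀ z : A, (∀ i, (ucoord k a).π z i ∈ R') → ∀ i, (ucoord k a).π (y * z) i ∈ R' := by
      induction hy using Algebra.adjoin_induction with
      | mem x hx =>
        intro z hz i
        rw [(ucoord k a).mul, Finset.sum_apply]
        refine Subalgebra.sum_mem _ fun l _ => ?_
        rw [Pi.smul_apply, smul_eq_mul]
        exact mul_mem (hz l) (hT1 x hx l i)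
      | algebraMap r =>
        intro z hz i
        rw [← Algebra.smul_def, map_smul, Pi.smul_apply]
        exact Subalgebra.smul_mem _ (hz i) r
      | add x y _ _ hx hy =>
        intro z hz i
        rw [add_mul, map_add, Pi.add_apply]
        exact add_mem (hx z hz i) (hy z hz i)
      | mul x y _ _ hx hy =>
        intro z hz i
        rw [mul_assoc]
        exact hx _ (hy z hz) i
    intro i
    have := hy' 1 hT2 i
    rwa [mul_one] at this
  rw [eq_top_iff]
  rintro y -
  obtain ⟨y, rfl⟩ := proj_surjective k a y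
  induction y using MvPolynomial.induction_on with
  | C r =>
    rw [← MvPolynomial.algebraMap_eq, (proj k a).commutes]
    exact Subalgebra.algebraMap_mem _ r
  | add p q hp hq => rw [map_add]; exact add_mem hp hq
  | mul_X p xi hp => rw [map_mul]; exact mul_mem hp (key xi.1 xi.2)

end Ring

end Fermat.Agent.S25.Hilb
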