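import Mathlib
import Fermat.Agent.S25.Hilb

/-!
# S25, package ALG3 (1): the McCoy / norm lemma

`A` is a `k`-algebra which is finite free over `k[t]`.  For a `k`-algebra `B` we attach to
`x ∈ B ⊗ A` a matrix with entries in `B[X]` and use its determinant (the norm of `x`).
-/

set_option autoImplicit false

universe u

open scoped TensorProduct
open Polynomial

noncomputable section

namespace Fermat.Agent.S25.Nrm

open Fermat.Agent.S25.Hilb

variable {k : Type u} [Field k] {A : Type u} [CommRing A] [Algebra k A]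

/-- A `k[X]`-basis of `A` (with `X` acting as `t`). -/
structure PBasis (k : Type u) [Field k] {A : Type u} [CommRing A] [Algebra k A] (t : A)
    (n : ℕ) where
  ε : Fin n → A
  coord : A →ₗ[k] (Fin n → k[X])
  sum_coord : ∀ x, ∑ i, aeval t (coord x i) * ε i = x
  coord_sum : ∀ q : Fin n → k[X], coord (∑ i, aeval t (q i) * ε i) = q

theorem exists_pbasis [IsDomain A] (t : A) (hfin : (aeval t : k[X] →ₐ[k] A).toRingHom.Finite)
    (hinj : Function.Injective (aeval t : k[X] →ₐ[k] A)) : ∃ n, Nonempty (PBasis k t n) := by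
  let _ : Algebra k[X] A := (aeval t : k[X] →ₐ[k] A).toRingHom.toAlgebra
  have hmap : ∀ p : k[X], algebraMap k[X] A p = aeval t p := fun p => rfl
  have : IsScalarTower k k[X] A := IsScalarTower.of_algebraMap_eq fun c => by
    rw [hmap, ← Polynomial.C_eq_algebraMap, aeval_C]
  have : Module.Finite k[X] A := hfin
  have : Module.IsTorsionFree k[X] A := by
    refine ⟨fun r hr => ?_⟩
    intro x y hxy
    simp only [Algebra.smul_def, hmap] at hxy
    have hr0 : aeval t r ≠ 0 := by
      intro h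
      have := hinj (h.trans (map_zero _).symm)
      exact hr.ne_zero this
    exact mul_left_cancel₀ hr0 hxy
  have : Module.Free k[X] A := Module.free_of_finite_type_torsion_free'
  let b := Module.finBasis k[X] A
  refine ⟨Module.finrank k[X] A, ⟨⟨b, b.equivFun.toLinearMap.restrictScalars k, ?_, ?_⟩⟩⟩
  · intro x
    have := b.sum_equivFun x
    conv_rhs => rw [← this]
    rfl
  · intro q
    have h := b.equivFun.apply_symm_apply q
    rw [Module.Basis.equivFun_symm_apply] at h
    exact h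

namespace PBasis

variable {t : A} {n : ℕ} (P : PBasis k t n)

/-- multiplication matrices -/
def μ : A →ₗ[k] Matrix (Fin n) (Fin n) k[X] where
  toFun x := Matrix.of fun j i => P.coord (x * P.ε i) j
  map_add' x y := by
    ext j i : 2
    simp [add_mul]
  map_smul' c x := by
    ext j i : 2
    simp

theorem sum_μ (x : A) (i : Fin n) : ∑ j, aeval t (P.μ x j i) * P.ε j = x * P.ε i :=
  P.sum_coord (x * P.ε i)

variable {B B' : Type u} [CommRing B] [Algebra k B] [CommRing B'] [Algebra k B']

variable (B) in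
/-- coordinates over `B` -/
def vB : B ⊗[k] A →ₗ[B] (Fin n → B[X]) :=
  LinearMap.liftBaseChange B
    (((Polynomial.mapAlgHom (Algebra.ofId k B)).toLinearMap.compLeft (Fin n)).comp P.coord)

theorem vB_tmul (b : B) (x : A) (i : Fin n) :
    P.vB B (b ⊗ₜ x) i = b • (P.coord x i).map (algebraMap k B) := by
  rw [vB, LinearMap.liftBaseChange_tmul]
  rfl

variable (B) in
/-- from coordinates to elements -/
def uB : (Fin n → B[X]) →ₗ[B] B ⊗[k] A where
  toFun q := ∑ i, aeval ((1 : B) ⊗ₜ[k] t) (q i) * ((1 : B) ⊗ₜ[k] P.ε i)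
  map_add' q r := by
    rw [← Finset.sum_add_distrib]
    refine Finset.sum_congr rfl fun i _ => ?_
    rw [Pi.add_apply, map_add, add_mul]
  map_smul' b q := by
    rw [RingHom.id_apply, Finset.smul_sum]
    refine Finset.sum_congr rfl fun i _ => ?_
    rw [Pi.smul_apply, map_smul, smul_mul_assoc]

theorem uB_apply (q : Fin n → B[X]) :
    P.uB B q = ∑ i, aeval ((1 : B) ⊗ₜ[k] t) (q i) * ((1 : B) ⊗ₜ[k] P.ε i) := rfl

theorem aeval_map (p : k[X]) :
    aeval ((1 : B) ⊗ₜ[k] t) (p.map (algebraMap k B)) = (1 : B) ⊗ₜ[k] aeval t p := by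
  rw [Polynomial.aeval_map_algebraMap]
  exact Polynomial.aeval_algHom_apply (Algebra.TensorProduct.includeRight : A →ₐ[k] B ⊗[k] A) t p

theorem uB_vB (y : B ⊗[k] A) : P.uB B (P.vB B y) = y := by
  induction y using TensorProduct.induction_on with
  | zero => simp
  | tmul b x =>
    rw [uB_apply]
    simp only [vB_tmul, map_smul, aeval_map, smul_mul_assoc,
      Algebra.TensorProduct.tmul_mul_tmul, one_mul]
    rw [← Finset.smul_sum, ← TensorProduct.tmul_sum, P.sum_coord, TensorProduct.smul_tmul',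
      smul_eq_mul, mul_one]
  | add y z hy hz => rw [map_add, map_add, hy, hz]

theorem coord_pow (m : ℕ) (i : Fin n) :
    P.coord (t ^ m * P.ε i) = Pi.single i (X ^ m) := by
  have := P.coord_sum (Pi.single i (X ^ m))
  rw [← this]
  congr 1
  rw [Finset.sum_eq_single i]
  · simp
  · intro j _ hj
    simp [Pi.single_eq_of_ne hj]
  · simp

theorem vB_uB (q : Fin n → B[X]) : P.vB B (P.uB B q) = q := by
  have : (P.vB B).comp (P.uB B) = LinearMap.id := by
    apply LinearMap.pi_ext'
    intro i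
    apply Polynomial.lhom_ext'
    intro m
    ext j : 2
    simp only [LinearMap.comp_apply, LinearMap.coe_single, LinearMap.id_apply]
    have h1 : P.uB B (Pi.single i (monomial m 1)) = (1 : B) ⊗ₜ[k] (t ^ m * P.ε i) := by
      rw [uB_apply, Finset.sum_eq_single i]
      · rw [Pi.single_eq_same, aeval_monomial, map_one, one_mul,
          Algebra.TensorProduct.tmul_pow, one_pow, Algebra.TensorProduct.tmul_mul_tmul, one_mul]
      · intro j _ hj
        rw [Pi.single_eq_of_ne hj, map_zero, zero_mul]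
      · simp
    rw [h1, vB_tmul, coord_pow, one_smul]
    by_cases hj : j = i
    · subst hj
      simp [Polynomial.monomial_one_right_eq_X_pow]
    · rw [Pi.single_eq_of_ne hj, Pi.single_eq_of_ne hj, Polynomial.map_zero]
  exact congrArg (fun f : (Fin n → B[X]) →ₗ[B] (Fin n → B[X]) => f q) this

variable (B) in
/-- multiplication matrices over `B` -/
def μB : B ⊗[k] A →ₗ[B] Matrix (Fin n) (Fin n) B[X] :=
  LinearMap.liftBaseChange B
    ((Polynomial.mapAlgHom (Algebra.ofId k B)).toLinearMap.mapMatrix.comp P.μ)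

theorem μB_tmul (b : B) (x : A) (i j : Fin n) :
    P.μB B (b ⊗ₜ x) i j = b • (P.μ x i j).map (algebraMap k B) := by
  rw [μB, LinearMap.liftBaseChange_tmul]
  rfl

theorem uB_mulVec (x : B ⊗[k] A) (q : Fin n → B[X]) :
    P.uB B ((P.μB B x).mulVec q) = x * P.uB B q := by
  induction x using TensorProduct.induction_on with
  | zero => simp
  | tmul b y =>
    have h1 : ∀ i, ∑ j, aeval ((1 : B) ⊗ₜ[k] t) (P.μB B (b ⊗ₜ[k] y) j i) *
        ((1 : B) ⊗ₜ[k] P.ε j) = (b ⊗ₜ[k] y) * ((1 : B) ⊗ₜ[k] P.ε i) := by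
      intro i
      simp only [μB_tmul, map_smul, aeval_map, smul_mul_assoc,
        Algebra.TensorProduct.tmul_mul_tmul, one_mul, mul_one]
      rw [← Finset.smul_sum, ← TensorProduct.tmul_sum, P.sum_μ, TensorProduct.smul_tmul',
        smul_eq_mul, mul_one]
    rw [uB_apply, uB_apply, Finset.mul_sum]
    simp only [Matrix.mulVec, dotProduct, map_sum, map_mul, Finset.sum_mul]
    rw [Finset.sum_comm]
    refine Finset.sum_congr rfl fun i _ => ?_
    rw [mul_left_comm, ← h1 i, Finset.mul_sum]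
    refine Finset.sum_congr rfl fun j _ => ?_
    ring
  | add y z hy hz => rw [map_add, Matrix.add_mulVec, map_add, hy, hz, add_mul]

/-- the norm -/
def nrm (x : B ⊗[k] A) : B[X] := (P.μB B x).det

/-- `x w = 0` implies `N(x) • v(w) = 0` -/
theorem nrm_smul_eq_zero {x w : B ⊗[k] A} (h : x * w = 0) : P.nrm x • P.vB B w = 0 := by
  have h1 : (P.μB B x).mulVec (P.vB B w) = 0 := by
    have h2 := P.uB_mulVec x (P.vB B w)
    rw [P.uB_vB, h] at h2
    have h3 := congrArg (P.vB B) h2
    rwa [P.vB_uB, map_zero] at h3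
  have h4 : ((P.μB B x).adjugate * P.μB B x).mulVec (P.vB B w) = 0 := by
    rw [← Matrix.mulVec_mulVec, h1, Matrix.mulVec_zero]
  rw [Matrix.adjugate_mul, Matrix.smul_mulVec, Matrix.one_mulVec] at h4
  exact h4

/-- if the norm is a nonzerodivisor, so is `x` -/
theorem mem_nonZeroDivisors_of_nrm {x : B ⊗[k] A} (h : P.nrm x ∈ nonZeroDivisors B[X]) :
    x ∈ nonZeroDivisors (B ⊗[k] A) := by
  rw [mem_nonZeroDivisors_iff_right]
  intro w hw
  have h1 := P.nrm_smul_eq_zero (x := x) (w := w) (by rw [mul_comm]; exact hw)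
  have h2 : P.vB B w = 0 := by
    ext i : 1
    have h3 := congrFun h1 i
    rw [Pi.smul_apply, smul_eq_mul, Pi.zero_apply] at h3
    exact (mem_nonZeroDivisors_iff.mp h).1 _ h3
  rw [← P.uB_vB w, h2, map_zero]

theorem μB_map (φ : B →ₐ[k] B') (x : B ⊗[k] A) :
    P.μB B' (bcR φ x) = (P.μB B x).map (Polynomial.mapRingHom φ.toRingHom) := by
  induction x using TensorProduct.induction_on with
  | zero => ext i j : 2; simp
  | tmul b y =>
    ext i j : 2
    rw [bcR_tmul, μB_tmul, Matrix.map_apply, μB_tmul]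
    rw [Polynomial.coe_mapRingHom, Polynomial.map_smul, Polynomial.map_map]
    congr 2
    exact (congrArg (fun f => Polynomial.map f (P.μ y i j)) (φ.comp_algebraMap)).symm
  | add y z hy hz =>
    ext i j : 2
    rw [map_add, map_add, hy, hz, map_add]
    simp [Matrix.add_apply]

theorem nrm_map (φ : B →ₐ[k] B') (x : B ⊗[k] A) :
    P.nrm (bcR φ x) = (P.nrm x).map φ.toRingHom := by
  rw [nrm, μB_map, nrm, ← Polynomial.coe_mapRingHom, RingHom.map_det]
  rfl

/-- in the fibre, the norm of a nonzero element is nonzero -/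
theorem nrm_ne_zero {K : Type u} [Field K] [Algebra k K] [IsDomain (K ⊗[k] A)]
    {x : K ⊗[k] A} (hx : x ≠ 0) : P.nrm x ≠ 0 := by
  intro h
  obtain ⟨q, hq, hq'⟩ := (Matrix.exists_mulVec_eq_zero_iff).mpr h
  have h1 := P.uB_mulVec x q
  rw [hq', map_zero] at h1
  have h2 : P.uB K q = 0 := (mul_eq_zero.mp h1.symm).resolve_left hx
  apply hq
  rw [← P.vB_uB q, h2, map_zero]

include P in
/-- **McCoy/norm lemma.** -/
theorem mem_nonZeroDivisors (hdom : ∀ (K : Type u) [Field K] [Algebra k K], IsDomain (K ⊗[k] A))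
    {x : B ⊗[k] A} (hx : ∀ (K : Type u) [Field K] [Algebra k K] (φ : B →ₐ[k] K), bcR φ x ≠ 0) :
    x ∈ nonZeroDivisors (B ⊗[k] A) := by
  apply P.mem_nonZeroDivisors_of_nrm
  by_contra hcon
  obtain ⟨a, ha, ha'⟩ := Polynomial.notMem_nonZeroDivisors_iff.mp hcon
  -- annihilator of `a`
  have hne : (Submodule.span B {a}).annihilator ≠ ⊤ := by
    intro htop
    apply ha
    have h1 : (1 : B) ∈ (Submodule.span B {a}).annihilator := by rw [htop]; trivial
    rw [Submodule.mem_annihilator_span_singleton] at h1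
    simpa using h1
  obtain ⟨𝔫, hn, hle⟩ := Ideal.exists_le_maximal _ hne
  let _ : Field (B ⧸ 𝔫) := Ideal.Quotient.field 𝔫
  have := hdom (B ⧸ 𝔫)
  let φ : B →ₐ[k] B ⧸ 𝔫 := Ideal.Quotient.mkₐ k 𝔫
  apply P.nrm_ne_zero (hx (B ⧸ 𝔫) φ)
  rw [nrm_map]
  ext m
  rw [Polynomial.coeff_map, Polynomial.coeff_zero]
  have h2 : (P.nrm x).coeff m ∈ (Submodule.span B {a}).annihilator := by
    rw [Submodule.mem_annihilator_span_singleton]
    have := congrArg (fun p => p.coeff m) ha'
    simp only [Polynomial.coeff_smul, Polynomial.coeff_zero, smul_eq_mul] at this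
    rw [smul_eq_mul, mul_comm]; exact this
  exact Ideal.Quotient.eq_zero_iff_mem.mpr (hle h2)

/-- `d u = 0` and `b` a coefficient of `d` imply that a power of `b` kills `u` -/
theorem exists_pow_smul_eq_zero {d u : B[X]} (h : d * u = 0) (m : ℕ) :
    ∃ N : ℕ, (d.coeff m) ^ N • u = 0 := by
  set b := d.coeff m with hb
  have h1 : u.map (algebraMap B (Localization.Away b)) = 0 := by
    have h2 : d.map (algebraMap B (Localization.Away b)) ∈
        nonZeroDivisors (Localization.Away b)[X] := by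
      apply Polynomial.mem_nonzeroDivisors_of_coeff_mem m
      rw [Polynomial.coeff_map, ← hb]
      exact (IsLocalization.Away.algebraMap_isUnit b).mem_nonZeroDivisors
    have h3 := congrArg (Polynomial.map (algebraMap B (Localization.Away b))) h
    rw [Polynomial.map_mul, Polynomial.map_zero] at h3
    exact (mem_nonZeroDivisors_iff.mp h2).1 _ h3
  have h4 : ∀ i, ∃ N, b ^ N * u.coeff i = 0 := by
    intro i
    have h5 := congrArg (fun p => p.coeff i) h1
    simp only [Polynomial.coeff_map, Polynomial.coeff_zero] at h5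
    rw [IsLocalization.map_eq_zero_iff (Submonoid.powers b)] at h5
    obtain ⟨⟨_, N, rfl⟩, hN⟩ := h5
    exact ⟨N, hN⟩
  choose N hN using h4
  refine ⟨u.support.sup N, ?_⟩
  ext i
  rw [Polynomial.coeff_smul, Polynomial.coeff_zero, smul_eq_mul]
  by_cases hi : i ∈ u.support
  · have h6 : N i ≤ u.support.sup N := Finset.le_sup hi
    obtain ⟨c, hc⟩ := Nat.exists_eq_add_of_le h6
    rw [hc, pow_add, mul_right_comm, hN, zero_mul]
  · rw [Polynomial.notMem_support_iff.mp hi, mul_zero]

theorem exists_pow_smul_eq_zero' {x w : B ⊗[k] A} (h : x * w = 0) (m : ℕ) :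
    ∃ N : ℕ, ((P.nrm x).coeff m) ^ N • w = 0 := by
  have h1 := P.nrm_smul_eq_zero h
  have h2 : ∀ i, ∃ N : ℕ, ((P.nrm x).coeff m) ^ N • (P.vB B w i) = 0 := fun i =>
    exists_pow_smul_eq_zero (by
      have := congrFun h1 i
      rwa [Pi.smul_apply, smul_eq_mul, Pi.zero_apply] at this) m
  choose N hN using h2
  refine ⟨Finset.univ.sup N, ?_⟩
  rw [← P.uB_vB w, ← map_smul]
  have h3 : ((P.nrm x).coeff m) ^ Finset.univ.sup N • P.vB B w = 0 := by
    ext i : 1
    rw [Pi.smul_apply, Pi.zero_apply]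
    have h6 : N i ≤ Finset.univ.sup N := Finset.le_sup (Finset.mem_univ i)
    obtain ⟨c, hc⟩ := Nat.exists_eq_add_of_le h6
    rw [hc, pow_add, mul_comm, mul_smul, hN, smul_zero]
  rw [h3, map_zero]

end PBasis

end Fermat.Agent.S25.Nrm
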