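import Mathlib
import Fermat.Agent.S25.Norm

/-!
# S25, package ALG3 (2): ideals `I ⊂ B ⊗ A` with nice quotient are invertible
-/

set_option autoImplicit false

universe u

open scoped TensorProduct
open Polynomial

noncomputable section

namespace Fermat.Agent.S25.Invert

open Fermat.Agent.S25.Hilb Fermat.Agent.S25.Nrm

section Ideal

variable {R : Type*} [CommRing R] (I : Ideal R)

theorem smul_comm_ideal (ψ : Module.Dual R I) (x y : I) : ψ x • y = ψ y • x := by
  apply Subtype.ext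
  show ψ x * (y : R) = ψ y * (x : R)
  have h1 : (y : R) • x = (x : R) • y := Subtype.ext (mul_comm _ _)
  have h2 := congrArg ψ h1
  rw [map_smul, map_smul, smul_eq_mul, smul_eq_mul] at h2
  rw [mul_comm, h2, mul_comm]

theorem contract_comm (w z : Module.Dual R I ⊗[R] I) :
    contractLeft R I w • z = contractLeft R I z • w := by
  induction w using TensorProduct.induction_on with
  | zero => simp
  | add w₁ w₂ h₁ h₂ => rw [map_add, add_smul, h₁, h₂, smul_add]
  | tmul ψ x =>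
    induction z using TensorProduct.induction_on with
    | zero => simp
    | add z₁ z₂ h₁ h₂ => rw [map_add, add_smul, smul_add, h₁, h₂]
    | tmul f y =>
      rw [contractLeft_apply, contractLeft_apply]
      have e₁ : ψ x • (f ⊗ₜ[R] y) = f ⊗ₜ[R] (ψ y • x) := by
        rw [← TensorProduct.tmul_smul, smul_comm_ideal]
      have e₂ : f y • (ψ ⊗ₜ[R] x) = (f y • ψ) ⊗ₜ[R] x := by
        rw [TensorProduct.smul_tmul']
      have e₃ : (ψ y • f : Module.Dual R I) = f y • ψ := by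
        ext z
        rw [LinearMap.smul_apply, LinearMap.smul_apply, ← map_smul, smul_comm_ideal, map_smul,
          smul_eq_mul, smul_eq_mul, mul_comm]
      rw [e₁, e₂, TensorProduct.tmul_smul, TensorProduct.smul_tmul', e₃]

/-- An ideal is invertible as soon as its trace ideal is everything. -/
theorem invertible_of_range (h : LinearMap.range (contractLeft R I) = ⊤) :
    Module.Invertible R I := by
  refine ⟨⟨?_, LinearMap.range_eq_top.mp h⟩⟩
  rw [injective_iff_map_eq_zero]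
  intro z hz
  obtain ⟨w, hw⟩ := LinearMap.range_eq_top.mp h 1
  have := contract_comm I w z
  rw [hw, hz, one_smul, zero_smul] at this
  exact this

/-- local criterion -/
theorem invertible_of_local (h : ∀ 𝔪 : Ideal R, 𝔪.IsMaximal →
    ∃ (ψ : Module.Dual R I) (x : I), ψ x ∉ 𝔪) : Module.Invertible R I := by
  apply invertible_of_range
  by_contra hne
  obtain ⟨𝔪, hm, hle⟩ := Ideal.exists_le_maximal _ hne
  obtain ⟨ψ, x, hψ⟩ := h 𝔪 hm
  exact hψ (hle ⟨ψ ⊗ₜ x, contractLeft_apply ψ x⟩)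

/-- a local generator gives a functional -/
theorem exists_dual (x : I) (h : R) (h1 : ∀ y ∈ I, h * y ∈ Ideal.span {(x : R)})
    (h2 : ∀ w, (x : R) * w = 0 → h * w = 0) : ∃ ψ : Module.Dual R I, ψ x = h * h := by
  have h3 : ∀ y : I, ∃ r, h * (y : R) = x * r := by
    intro y
    obtain ⟨r, hr⟩ := Ideal.mem_span_singleton'.mp (h1 y y.2)
    exact ⟨r, by rw [← hr, mul_comm]⟩
  choose r hr using h3
  refine ⟨{ toFun := fun y => h * r y, map_add' := fun y z => ?_, map_smul' := fun c y => ?_ }, ?_⟩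
  · have := h2 (r (y + z) - (r y + r z)) (by
      rw [mul_sub, mul_add, ← hr, ← hr, ← hr]; push_cast; ring)
    linear_combination this
  · have := h2 (r (c • y) - c * r y) (by
      rw [mul_sub, ← hr, mul_left_comm, ← hr]
      show h * (c * (y : R)) - c * (h * y) = 0
      ring)
    rw [RingHom.id_apply, smul_eq_mul]
    linear_combination this
  · have := h2 (r x - h) (by
      rw [mul_sub, ← hr]; ring)
    show h * r x = h * h
    linear_combination this

end Ideal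

section Dedekind

variable {D : Type*} [CommRing D] [IsDedekindDomain D]

/-- comparability at a prime of a Dedekind domain -/
theorem exists_comparable (𝔔 : Ideal D) [h𝔔 : 𝔔.IsPrime] (z₁ z₂ : D) :
    ∃ s, s ∉ 𝔔 ∧ ((∃ d, s * z₁ = d * z₂) ∨ ∃ d, s * z₂ = d * z₁) := by
  by_cases hbot : 𝔔 = ⊥
  · by_cases h2 : z₂ = 0
    · exact ⟨1, fun h => h𝔔.ne_top ((Ideal.eq_top_iff_one _).mpr h),
        Or.inr ⟨0, by rw [h2]; simp⟩⟩
    · exact ⟨z₂, by rw [hbot, Ideal.mem_bot]; exact h2, Or.inl ⟨z₁, mul_comm _ _⟩⟩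
  · have : IsDiscreteValuationRing (Localization.AtPrime 𝔔) :=
      IsLocalization.AtPrime.isDiscreteValuationRing_of_dedekind_domain D hbot _
    have hinj : Function.Injective (algebraMap D (Localization.AtPrime 𝔔)) :=
      IsLocalization.injective _ 𝔔.primeCompl_le_nonZeroDivisors
    have main : ∀ z₁ z₂ : D, algebraMap D (Localization.AtPrime 𝔔) z₁ ∣
        algebraMap D (Localization.AtPrime 𝔔) z₂ → ∃ s, s ∉ 𝔔 ∧ ∃ d, s * z₂ = d * z₁ := by
      rintro z₁ z₂ ⟨c, hc⟩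
      obtain ⟨⟨d, s⟩, hds⟩ := IsLocalization.surj 𝔔.primeCompl c
      refine ⟨s, s.2, d, hinj ?_⟩
      rw [map_mul, map_mul, hc, ← hds]
      ring
    rcases ValuationRing.dvd_total (algebraMap D (Localization.AtPrime 𝔔) z₁)
      (algebraMap D (Localization.AtPrime 𝔔) z₂) with h | h
    · obtain ⟨s, hs, h⟩ := main _ _ h
      exact ⟨s, hs, Or.inr h⟩
    · obtain ⟨s, hs, h⟩ := main _ _ h
      exact ⟨s, hs, Or.inl h⟩

/-- a finite set of elements has a `𝔔`-locally largest element -/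
theorem exists_best {R : Type*} [CommRing R] (τ : R →+* D) (𝔔 : Ideal D) [h𝔔 : 𝔔.IsPrime]
    (I : Ideal R) (hI : I.FG) : ∃ x ∈ I, ∀ y ∈ I, ∃ s, s ∉ 𝔔 ∧ ∃ d, s * τ y = d * τ x := by
  classical
  have h1 : (1 : D) ∉ 𝔔 := fun h => h𝔔.ne_top ((Ideal.eq_top_iff_one _).mpr h)
  have key : ∀ S : Finset R, (∀ y ∈ S, y ∈ I) →
      ∃ x ∈ I, ∀ y ∈ S, ∃ s, s ∉ 𝔔 ∧ ∃ d, s * τ y = d * τ x := by
    intro S
    induction S using Finset.induction_on with
    | empty => intro _; exact ⟨0, I.zero_mem, by simp⟩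
    | insert a S _ ih =>
      intro hS
      obtain ⟨x, hxI, hx⟩ := ih fun y hy => hS y (Finset.mem_insert_of_mem hy)
      obtain ⟨s, hs, hd⟩ := exists_comparable 𝔔 (τ a) (τ x)
      rcases hd with ⟨d, hd⟩ | ⟨d, hd⟩
      · refine ⟨x, hxI, fun y hy => ?_⟩
        rcases Finset.mem_insert.mp hy with rfl | hy
        · exact ⟨s, hs, d, hd⟩
        · exact hx y hy
      · refine ⟨a, hS a (Finset.mem_insert_self _ _), fun y hy => ?_⟩
        rcases Finset.mem_insert.mp hy with rfl | hy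
        · exact ⟨1, h1, 1, rfl⟩
        · obtain ⟨s', hs', d', hd'⟩ := hx y hy
          refine ⟨s * s', fun h => (h𝔔.mem_or_mem h).elim hs hs', d' * d, ?_⟩
          linear_combination s * hd' + d' * hd
  obtain ⟨S, hS⟩ := hI
  obtain ⟨x, hxI, hx⟩ := key S fun y hy => hS ▸ Ideal.subset_span hy
  refine ⟨x, hxI, fun y hy => ?_⟩
  rw [← hS] at hy
  induction hy using Submodule.span_induction with
  | mem y hy => exact hx y hy
  | zero => exact ⟨1, h1, 0, by simp⟩
  | add y z _ _ hy hz =>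
    obtain ⟨s, hs, d, hd⟩ := hy
    obtain ⟨s', hs', d', hd'⟩ := hz
    refine ⟨s * s', fun h => (h𝔔.mem_or_mem h).elim hs hs', s' * d + s * d', ?_⟩
    rw [map_add]
    linear_combination s' * hd + s * hd'
  | smul r y _ hy =>
    obtain ⟨s, hs, d, hd⟩ := hy
    refine ⟨s, hs, τ r * d, ?_⟩
    rw [smul_eq_mul, map_mul]
    linear_combination τ r * hd

end Dedekind

section Fibre0

variable {k : Type u} [Field k] {A : Type u} [CommRing A] [Algebra k A]
  {B : Type u} [CommRing B] [Algebra k B] {K : Type u} [CommRing K] [Algebra k K] (φ : B →ₐ[k] K)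

theorem repr_bcR {ι : Type*} (e : Module.Basis ι k A) (r : B ⊗[k] A) (i : ι) :
    (Algebra.TensorProduct.basis K e).repr (bcR φ r) i =
      φ ((Algebra.TensorProduct.basis B e).repr r i) := by
  induction r using TensorProduct.induction_on with
  | zero => simp
  | tmul b x =>
    rw [bcR_tmul, Algebra.TensorProduct.basis_repr_tmul, Algebra.TensorProduct.basis_repr_tmul]
    simp
  | add y z hy hz => rw [map_add, map_add, map_add, Finsupp.add_apply, hy, hz, Finsupp.add_apply,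
      map_add]

/-- the kernel of `B ⊗ A → K ⊗ A` -/
theorem mem_map_ker {r : B ⊗[k] A} (h : bcR φ r = 0) :
    r ∈ (RingHom.ker φ).map (algebraMap B (B ⊗[k] A)) := by
  let e := Module.Free.chooseBasis k A
  rw [← (Algebra.TensorProduct.basis B e).linearCombination_repr r,
    Finsupp.linearCombination_apply, Finsupp.sum]
  refine Ideal.sum_mem _ fun i _ => ?_
  rw [Algebra.smul_def]
  refine Ideal.mul_mem_right _ _ (Ideal.mem_map_of_mem _ ?_)
  rw [RingHom.mem_ker, ← repr_bcR φ e r i, h, map_zero, Finsupp.zero_apply]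

theorem bcR_smul (c : B) (r : B ⊗[k] A) : bcR φ (c • r) = φ c • bcR φ r := by
  rw [Algebra.smul_def, map_mul, Algebra.smul_def]
  congr 1

end Fibre0

section Fibre

variable {k : Type u} [Field k] {A : Type u} [CommRing A] [Algebra k A]
  {B : Type u} [CommRing B] [Algebra k B] {K : Type u} [Field K] [Algebra k K] (φ : B →ₐ[k] K)

/-- denominators -/
theorem exists_denom (hfrac : ∀ z : K, ∃ b c, φ c ≠ 0 ∧ φ c * z = φ b) (z : K ⊗[k] A) :
    ∃ c, φ c ≠ 0 ∧ ∃ r, bcR φ r = φ c • z := by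
  induction z using TensorProduct.induction_on with
  | zero => exact ⟨1, by simp, 0, by simp⟩
  | tmul b x =>
    obtain ⟨b', c, hc, h⟩ := hfrac b
    exact ⟨c, hc, b' ⊗ₜ x, by rw [bcR_tmul, TensorProduct.smul_tmul', smul_eq_mul, h]⟩
  | add y z hy hz =>
    obtain ⟨c, hc, r, hr⟩ := hy
    obtain ⟨c', hc', r', hr'⟩ := hz
    refine ⟨c * c', by rw [map_mul]; exact mul_ne_zero hc hc', c' • r + c • r', ?_⟩
    rw [map_add, bcR_smul, bcR_smul, hr, hr', map_mul, smul_add, smul_smul, smul_smul,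
      mul_comm (φ c')]

variable {φ}

theorem mem_map_prime (hfrac : ∀ z : K, ∃ b c, φ c ≠ 0 ∧ φ c * z = φ b)
    (𝔪 : Ideal (B ⊗[k] A)) {z : K ⊗[k] A} (hz : z ∈ 𝔪.map (bcR φ)) :
    ∃ c, φ c ≠ 0 ∧ ∃ m ∈ 𝔪, bcR φ m = φ c • z := by
  induction hz using Submodule.span_induction with
  | mem z hz =>
    obtain ⟨m, hm, rfl⟩ := hz
    exact ⟨1, by simp, m, hm, by simp⟩
  | zero => exact ⟨1, by simp, 0, 𝔪.zero_mem, by simp⟩
  | add y z _ _ hy hz =>
    obtain ⟨c, hc, r, hrm, hr⟩ := hy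
    obtain ⟨c', hc', r', hrm', hr'⟩ := hz
    refine ⟨c * c', by rw [map_mul]; exact mul_ne_zero hc hc', c' • r + c • r', ?_, ?_⟩
    · refine add_mem ?_ ?_
      · rw [Algebra.smul_def]; exact 𝔪.mul_mem_left _ hrm
      · rw [Algebra.smul_def]; exact 𝔪.mul_mem_left _ hrm'
    · rw [map_add, bcR_smul, bcR_smul, hr, hr', map_mul, smul_add, smul_smul, smul_smul,
        mul_comm (φ c')]
  | smul w z _ hz =>
    obtain ⟨c, hc, r, hrm, hr⟩ := hz
    obtain ⟨c', hc', w', hw'⟩ := exists_denom φ hfrac w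
    refine ⟨c' * c, by rw [map_mul]; exact mul_ne_zero hc' hc, w' * r, 𝔪.mul_mem_left _ hrm, ?_⟩
    rw [map_mul, hr, hw', smul_eq_mul, smul_mul_smul_comm, map_mul]

theorem mem_of_bcR_mem (hfrac : ∀ z : K, ∃ b c, φ c ≠ 0 ∧ φ c * z = φ b)
    (𝔪 : Ideal (B ⊗[k] A)) [h𝔪 : 𝔪.IsPrime]
    (hcomap : 𝔪.comap (algebraMap B (B ⊗[k] A)) = RingHom.ker φ) {r : B ⊗[k] A}
    (hr : bcR φ r ∈ 𝔪.map (bcR φ)) : r ∈ 𝔪 := by
  obtain ⟨c, hc, m, hm, h⟩ := mem_map_prime hfrac 𝔪 hr
  rw [← bcR_smul, ← sub_eq_zero, ← map_sub] at h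
  have h1 : m - c • r ∈ 𝔪 := by
    have h2 := mem_map_ker φ h
    rw [← hcomap] at h2
    exact Ideal.map_comap_le h2
  have h3 : c • r ∈ 𝔪 := by
    have := sub_mem hm h1
    rwa [sub_sub_cancel] at this
  rw [Algebra.smul_def] at h3
  refine (h𝔪.mem_or_mem h3).resolve_left fun h4 => hc ?_
  have h5 : c ∈ 𝔪.comap (algebraMap B (B ⊗[k] A)) := h4
  rwa [hcomap] at h5

theorem isPrime_map (hfrac : ∀ z : K, ∃ b c, φ c ≠ 0 ∧ φ c * z = φ b)
    (𝔪 : Ideal (B ⊗[k] A)) [h𝔪 : 𝔪.IsPrime]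
    (hcomap : 𝔪.comap (algebraMap B (B ⊗[k] A)) = RingHom.ker φ) :
    (𝔪.map (bcR φ)).IsPrime := by
  refine ⟨?_, ?_⟩
  · intro h
    have h1 : bcR φ 1 ∈ 𝔪.map (bcR φ) := by rw [h]; trivial
    exact h𝔪.ne_top ((Ideal.eq_top_iff_one _).mpr (mem_of_bcR_mem hfrac 𝔪 hcomap h1))
  · intro z w hzw
    obtain ⟨c, hc, r, hr⟩ := exists_denom φ hfrac z
    obtain ⟨c', hc', r', hr'⟩ := exists_denom φ hfrac w
    have h1 : bcR φ (r * r') ∈ 𝔪.map (bcR φ) := by
      rw [map_mul, hr, hr', smul_mul_smul_comm, Algebra.smul_def]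
      exact Ideal.mul_mem_left _ _ hzw
    have h2 : ∀ (c : B) (hc : φ c ≠ 0) (r : B ⊗[k] A) (z : K ⊗[k] A), bcR φ r = φ c • z →
        r ∈ 𝔪 → z ∈ 𝔪.map (bcR φ) := by
      intro c hc r z h hr
      have h3 : z = (φ c)⁻¹ • bcR φ r := by
        rw [h, smul_smul, inv_mul_cancel₀ hc, one_smul]
      rw [h3, Algebra.smul_def]
      exact Ideal.mul_mem_left _ _ (Ideal.mem_map_of_mem _ hr)
    exact (h𝔪.mem_or_mem (mem_of_bcR_mem hfrac 𝔪 hcomap h1)).imp (h2 c hc r z hr)
      (h2 c' hc' r' w hr')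

end Fibre

section Main

variable {k : Type u} [Field k] {A : Type u} [CommRing A] [Algebra k A]
  {B : Type u} [CommRing B] [Algebra k B]

/-- the `B`-linear projection onto `I` -/
theorem exists_prI (I : Ideal (B ⊗[k] A)) [Module.Projective B ((B ⊗[k] A) ⧸ I)] :
    ∃ p : B ⊗[k] A →ₗ[B] B ⊗[k] A, (∀ y, p y ∈ I) ∧ ∀ y ∈ I, p y = y := by
  obtain ⟨s, hs⟩ := Module.projective_lifting_property (Ideal.Quotient.mkₐ B I).toLinearMap
    LinearMap.id (Ideal.Quotient.mkₐ_surjective B I)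
  refine ⟨LinearMap.id - s ∘ₗ (Ideal.Quotient.mkₐ B I).toLinearMap, fun y => ?_, fun y hy => ?_⟩
  · have h1 : Ideal.Quotient.mk I (s (Ideal.Quotient.mk I y)) = Ideal.Quotient.mk I y :=
      congr($hs (Ideal.Quotient.mk I y))
    rw [← Ideal.Quotient.eq_zero_iff_mem]
    show Ideal.Quotient.mk I (y - s (Ideal.Quotient.mk I y)) = 0
    rw [map_sub, h1, sub_self]
  · show y - s (Ideal.Quotient.mk I y) = y
    rw [Ideal.Quotient.eq_zero_iff_mem.mpr hy, map_zero, sub_zero]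

/-- `I ∩ 𝔟 R = 𝔟 I` for an ideal `𝔟` of `B` -/
theorem mem_mul_of_mem_map (I : Ideal (B ⊗[k] A)) [Module.Projective B ((B ⊗[k] A) ⧸ I)]
    (𝔟 : Ideal B) {y : B ⊗[k] A} (hy : y ∈ I)
    (hy' : y ∈ 𝔟.map (algebraMap B (B ⊗[k] A))) :
    y ∈ 𝔟.map (algebraMap B (B ⊗[k] A)) * I := by
  obtain ⟨p, hp, hp'⟩ := exists_prI I
  have key : ∀ z ∈ 𝔟.map (algebraMap B (B ⊗[k] A)),
      p z ∈ 𝔟.map (algebraMap B (B ⊗[k] A)) * I := by
    intro z hz
    have hz' : z ∈ (𝔟 • ⊤ : Submodule B (B ⊗[k] A)) := by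
      rw [Ideal.smul_top_eq_map]; exact hz
    refine Submodule.smul_induction_on (p := fun z => p z ∈
      𝔟.map (algebraMap B (B ⊗[k] A)) * I) hz' ?_ ?_
    · intro b hb y _
      rw [map_smul, Algebra.smul_def]
      exact Ideal.mul_mem_mul (Ideal.mem_map_of_mem _ hb) (hp y)
    · intro y z hy hz
      rw [map_add]
      exact add_mem hy hz
  have := key y hy'
  rwa [hp' y hy] at this

/-- not finite-dimensional -/
theorem not_finite {t : A} (hinj : Function.Injective (aeval t : k[X] →ₐ[k] A)) {K : Type u}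
    [Field K] [Algebra k K] : ¬ Module.Finite K (K ⊗[k] A) := by
  intro hfin
  have h1 : Module.rank K (K ⊗[k] A) < Cardinal.aleph0 := Module.rank_lt_aleph0 K (K ⊗[k] A)
  rw [Module.rank_baseChange, Cardinal.lift_id] at h1
  have h2 : Module.Finite k A := Module.rank_lt_aleph0_iff.mp h1
  have h3 : Module.Finite k k[X] :=
    Module.Finite.of_injective (aeval t : k[X] →ₐ[k] A).toLinearMap hinj
  exact Polynomial.not_finite h3

/-- the image of `I` in a fibre is non-zero -/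
theorem map_ne_bot {t : A} (hinj : Function.Injective (aeval t : k[X] →ₐ[k] A)) {K : Type u}
    [Field K] [Algebra k K] (φ : B →ₐ[k] K) (I : Ideal (B ⊗[k] A))
    [Module.Finite B ((B ⊗[k] A) ⧸ I)] : I.map (bcR φ) ≠ ⊥ := by
  intro h
  apply not_finite (K := K) hinj
  obtain ⟨S, hS⟩ := Module.Finite.fg_top (R := B) (M := (B ⊗[k] A) ⧸ I)
  classical
  choose f hf using Ideal.Quotient.mk_surjective (I := I)
  refine ⟨⟨S.image fun s => bcR φ (f s), ?_⟩⟩
  rw [eq_top_iff]
  have key : ∀ r : B ⊗[k] A, ∀ y, Ideal.Quotient.mk I r = y →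
      bcR φ r ∈ Submodule.span K (Set.range fun s : S => bcR φ (f s)) := by
    intro r y hr
    have hy : y ∈ Submodule.span B (S : Set ((B ⊗[k] A) ⧸ I)) := by rw [hS]; trivial
    have hwd : ∀ r r' : B ⊗[k] A, Ideal.Quotient.mk I r = Ideal.Quotient.mk I r' →
        bcR φ r = bcR φ r' := by
      intro r r' hrr
      rw [Ideal.Quotient.eq] at hrr
      have := Ideal.mem_map_of_mem (bcR φ) hrr
      rw [h, Ideal.mem_bot, map_sub, sub_eq_zero] at this
      exact this
    induction hy using Submodule.span_induction generalizing r with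
    | mem y hy =>
      rw [hwd r (f y) (hr.trans (hf y).symm)]
      exact Submodule.subset_span ⟨⟨y, hy⟩, rfl⟩
    | zero =>
      rw [hwd r 0 (by rw [hr, map_zero]), map_zero]
      exact zero_mem _
    | add y z _ _ hy hz =>
      rw [hwd r (f y + f z) (by rw [hr, map_add, hf, hf]), map_add]
      exact add_mem (hy _ (hf y)) (hz _ (hf z))
    | smul b y _ hy =>
      rw [hwd r (b • f y) (by
        rw [hr, ← Ideal.Quotient.mkₐ_eq_mk B, map_smul, Ideal.Quotient.mkₐ_eq_mk, hf]), bcR_smul]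
      exact Submodule.smul_mem _ _ (hy _ (hf y))
  intro z _
  have hz : z ∈ Submodule.span K (Set.range fun r : B ⊗[k] A => bcR φ r) := by
    induction z using TensorProduct.induction_on with
    | zero => exact zero_mem _
    | tmul c x =>
      have : c ⊗ₜ[k] x = c • bcR φ (1 ⊗ₜ x) := by
        rw [bcR_tmul, map_one, TensorProduct.smul_tmul', smul_eq_mul, mul_one]
      rw [this]
      exact Submodule.smul_mem _ _ (Submodule.subset_span ⟨_, rfl⟩)
    | add y z hy hz => exact add_mem (hy trivial) (hz trivial)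
  have hle : Submodule.span K (Set.range fun r : B ⊗[k] A => bcR φ r) ≤
      Submodule.span K (Set.range fun s : S => bcR φ (f s)) := by
    rw [Submodule.span_le]
    rintro _ ⟨r, rfl⟩
    exact key r _ rfl
  have hz' := hle hz
  convert hz' using 2
  ext y
  simp

/-- **local structure of ideals with nice quotients (noetherian case).** -/
theorem exists_local [IsNoetherianRing (B ⊗[k] A)] {t : A} {n : ℕ} (P : PBasis k t n)
    (hinj : Function.Injective (aeval t : k[X] →ₐ[k] A))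
    (hded : ∀ (K : Type u) [Field K] [Algebra k K], IsDedekindDomain (K ⊗[k] A))
    (I : Ideal (B ⊗[k] A)) [Module.Projective B ((B ⊗[k] A) ⧸ I)]
    [Module.Finite B ((B ⊗[k] A) ⧸ I)] (𝔪 : Ideal (B ⊗[k] A)) [h𝔪 : 𝔪.IsMaximal] :
    ∃ x ∈ I, ∃ h, h ∉ 𝔪 ∧ (∀ y ∈ I, h * y ∈ Ideal.span {x}) ∧
      ∀ w, x * w = 0 → h * w = 0 := by
  set p : Ideal B := 𝔪.comap (algebraMap B (B ⊗[k] A)) with hp
  have hpp : p.IsPrime := inferInstance
  let K : Type u := FractionRing (B ⧸ p)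
  let φ : B →ₐ[k] K := (IsScalarTower.toAlgHom k (B ⧸ p) K).comp (Ideal.Quotient.mkₐ k p)
  have hφ : ∀ b, φ b = algebraMap (B ⧸ p) K (Ideal.Quotient.mk p b) := fun b => rfl
  have hker : RingHom.ker φ = p := by
    ext b
    rw [RingHom.mem_ker, hφ, map_eq_zero_iff _ (IsFractionRing.injective (B ⧸ p) K),
      Ideal.Quotient.eq_zero_iff_mem]
  have hcomap : 𝔪.comap (algebraMap B (B ⊗[k] A)) = RingHom.ker φ := hker.symm
  have hfrac : ∀ z : K, ∃ b c, φ c ≠ 0 ∧ φ c * z = φ b := by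
    intro z
    obtain ⟨u, v, hv, huv⟩ := IsFractionRing.div_surjective (A := B ⧸ p) z
    obtain ⟨b, rfl⟩ := Ideal.Quotient.mk_surjective u
    obtain ⟨c, rfl⟩ := Ideal.Quotient.mk_surjective v
    have hc : φ c ≠ 0 :=
      IsFractionRing.to_map_ne_zero_of_mem_nonZeroDivisors (R := B ⧸ p) (K := K) hv
    refine ⟨b, c, hc, ?_⟩
    rw [← huv, hφ, hφ]
    exact mul_div_cancel₀ _ hc
  have hD := hded K
  have h𝔔 := isPrime_map hfrac 𝔪 hcomap
  obtain ⟨x, hxI, hx⟩ := exists_best (bcR φ) (𝔪.map (bcR φ)) I (IsNoetherian.noetherian _)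
  refine ⟨x, hxI, ?_⟩
  -- the image of `x` is non-zero
  have hx0 : bcR φ x ≠ 0 := by
    intro h0
    have h1 : I.map (bcR φ) = ⊥ := by
      rw [eq_bot_iff, Ideal.map_le_iff_le_comap]
      intro y hy
      obtain ⟨s, hs, d, hd⟩ := hx y hy
      rw [h0, mul_zero] at hd
      rw [Ideal.mem_comap, Ideal.mem_bot]
      refine (mul_eq_zero.mp hd).resolve_left fun h => hs ?_
      rw [h]; exact Ideal.zero_mem _
    exact map_ne_bot hinj φ I h1
  -- `I ⊆ x R + 𝔪 I`
  have hN : I ≤ Ideal.span {x} ⊔ 𝔪 * I := by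
    intro y hy
    obtain ⟨s, hs, d, hd⟩ := hx y hy
    obtain ⟨c₁, hc₁, s₁, hs₁⟩ := exists_denom φ hfrac s
    obtain ⟨c₂, hc₂, d₁, hd₁⟩ := exists_denom φ hfrac d
    -- common denominators
    have h1 : bcR φ ((c₂ • s₁) * y - (c₁ • d₁) * x) = 0 := by
      rw [map_sub, map_mul, map_mul, bcR_smul, bcR_smul, hs₁, hd₁, smul_smul, smul_smul,
        smul_mul_assoc, smul_mul_assoc, hd, mul_comm (φ c₁), sub_self]
    have h2 := mem_map_ker φ h1
    have h3 : (c₂ • s₁) * y - (c₁ • d₁) * x ∈ I :=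
      sub_mem (Ideal.mul_mem_left _ _ hy) (Ideal.mul_mem_left _ _ hxI)
    have h4 := mem_mul_of_mem_map I _ h3 h2
    have h5 : (c₂ • s₁) * y - (c₁ • d₁) * x ∈ 𝔪 * I := by
      refine Ideal.mul_mono_left ?_ h4
      rw [hker, Ideal.map_le_iff_le_comap]
    have hs' : c₂ • s₁ ∉ 𝔪 := by
      intro h
      have h6 := Ideal.mem_map_of_mem (bcR φ) h
      rw [bcR_smul, hs₁, smul_smul, Algebra.smul_def] at h6
      rcases h𝔔.mem_or_mem h6 with h7 | h7
      · apply h𝔔.ne_top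
        apply Ideal.eq_top_of_isUnit_mem _ h7
        exact (IsUnit.mk0 _ (mul_ne_zero hc₂ hc₁)).map (algebraMap K (K ⊗[k] A))
      · exact hs h7
    -- invert `s'` modulo `𝔪`
    obtain ⟨u, m, hm, hum⟩ := h𝔪.exists_inv hs'
    have h8 : y = (u * ((c₂ • s₁) * y - (c₁ • d₁) * x) + m * y) + (u * (c₁ • d₁)) * x := by
      linear_combination (-y) * hum
    rw [h8]
    refine add_mem (Ideal.mem_sup_right (add_mem (Ideal.mul_mem_left _ _ h5)
      (Ideal.mul_mem_mul hm hy))) (Ideal.mem_sup_left (Ideal.mem_span_singleton'.mpr ⟨_, rfl⟩))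
  -- Nakayama
  obtain ⟨h₁, hh₁, hh₁'⟩ : ∃ h, h ∉ 𝔪 ∧ ∀ y ∈ I, h * y ∈ Ideal.span {x} := by
    obtain ⟨r, hr, hr'⟩ := Submodule.exists_sub_one_mem_and_smul_le_of_fg_of_le_sup
      (I := 𝔪) (N := Ideal.span {x}) (N' := I) (P := I)
      (IsNoetherian.noetherian _) le_rfl hN
    refine ⟨r, fun h => ?_, fun y hy => ?_⟩
    · apply h𝔪.ne_top
      rw [Ideal.eq_top_iff_one]
      have := sub_mem h hr
      rwa [sub_sub_cancel] at this
    · exact hr' (Submodule.smul_mem_pointwise_smul y r I hy)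
  -- annihilator
  obtain ⟨m, hm⟩ : ∃ m, φ ((P.nrm x).coeff m) ≠ 0 := by
    by_contra hcon
    push Not at hcon
    apply P.nrm_ne_zero hx0
    rw [P.nrm_map]
    ext m
    rw [Polynomial.coeff_map, Polynomial.coeff_zero]
    exact hcon m
  set b := (P.nrm x).coeff m with hb
  obtain ⟨N, hN'⟩ : ∃ N : ℕ, ∀ w, x * w = 0 → b ^ N • w = 0 := by
    let J : Ideal (B ⊗[k] A) := LinearMap.ker (LinearMap.mulLeft (B ⊗[k] A) x)
    have hJ : ∀ w, w ∈ J ↔ x * w = 0 := fun w => Iff.rfl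
    obtain ⟨S, hS⟩ : J.FG := IsNoetherian.noetherian _
    have h9 : ∀ w, x * w = 0 → ∃ N : ℕ, b ^ N • w = 0 := fun w hw =>
      P.exists_pow_smul_eq_zero' hw m
    classical
    choose! N hN using h9
    refine ⟨S.sup N, fun w hw => ?_⟩
    have hw' : w ∈ Ideal.span (S : Set (B ⊗[k] A)) := by
      have : w ∈ J := hw
      rwa [← hS] at this
    clear hw
    induction hw' using Submodule.span_induction with
    | mem w hwS =>
      have hwJ : x * w = 0 := by
        rw [← hJ, ← hS]; exact Ideal.subset_span hwS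
      obtain ⟨d, hd⟩ := Nat.exists_eq_add_of_le (Finset.le_sup (f := N) hwS)
      rw [hd, pow_add, mul_comm, mul_smul, hN w hwJ, smul_zero]
    | zero => simp
    | add y z hy hz hy' hz' => rw [smul_add, hy', hz', add_zero]
    | smul r y _ hy => rw [smul_comm, hy, smul_zero]
  refine ⟨h₁ * algebraMap B (B ⊗[k] A) (b ^ N), ?_, ?_, ?_⟩
  · intro h
    rcases h𝔪.isPrime.mem_or_mem h with h | h
    · exact hh₁ h
    · have h2 : b ^ N ∈ 𝔪.comap (algebraMap B (B ⊗[k] A)) := h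
      rw [hcomap, RingHom.mem_ker, map_pow] at h2
      exact pow_ne_zero N hm h2
  · intro y hy
    rw [mul_right_comm]
    exact Ideal.mul_mem_right _ _ (hh₁' y hy)
  · intro w hw
    rw [mul_assoc, ← Algebra.smul_def, hN' w hw, mul_zero]

/-- **noetherian case**: ideals with finite projective quotient are invertible. -/
theorem invertible_of_noeth [IsNoetherianRing (B ⊗[k] A)] {t : A} {n : ℕ} (P : PBasis k t n)
    (hinj : Function.Injective (aeval t : k[X] →ₐ[k] A))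
    (hded : ∀ (K : Type u) [Field K] [Algebra k K], IsDedekindDomain (K ⊗[k] A))
    (I : Ideal (B ⊗[k] A)) [Module.Projective B ((B ⊗[k] A) ⧸ I)]
    [Module.Finite B ((B ⊗[k] A) ⧸ I)] : Module.Invertible (B ⊗[k] A) I := by
  apply invertible_of_local
  intro 𝔪 h𝔪
  obtain ⟨x, hx, h, hh, h1, h2⟩ := exists_local P hinj hded I 𝔪
  obtain ⟨ψ, hψ⟩ := exists_dual I ⟨x, hx⟩ h h1 h2
  refine ⟨ψ, ⟨x, hx⟩, ?_⟩
  rw [hψ]
  exact fun h3 => (h𝔪.isPrime.mem_or_mem h3).elim hh hh

end Main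

end Fermat.Agent.S25.Invert
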