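import Mathlib
import Fermat.Agent.S25.Invert
import Fermat.Agent.S25.AlgBC

/-!
# S25: base change of ideals with finite projective quotient; invertibility in general
-/

set_option autoImplicit false

universe u

open scoped TensorProduct
open Polynomial

noncomputable section

namespace Fermat.Agent.S25.IdealBC

open Fermat.Agent.S25.Hilb Fermat.Agent.S25.Nrm Fermat.Agent.S25.Invert

section Quot

variable {R R' : Type u} [CommRing R] [CommRing R'] (ψ : R →+* R') (I : Ideal R)

/-- `R ⧸ I → R' ⧸ I R'` -/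
def quotMap : R ⧸ I →+* R' ⧸ I.map ψ := Ideal.quotientMap _ ψ Ideal.le_comap_map

@[simp]
theorem quotMap_mk (x : R) :
    quotMap ψ I (Ideal.Quotient.mk I x) = Ideal.Quotient.mk (I.map ψ) (ψ x) := rfl

theorem isBC_quot : IsBC ψ (quotMap ψ I).toAddMonoidHom := by
  refine ⟨fun r m => ?_, fun Q _ _ h hh => ?_⟩
  · obtain ⟨m, rfl⟩ := Ideal.Quotient.mk_surjective m
    show quotMap ψ I (Ideal.Quotient.mk I (r * m)) = _
    rw [quotMap_mk, map_mul]
    rfl
  · let l : R' →ₗ[R'] Q := LinearMap.toSpanSingleton R' Q (h 1)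
    have hl : ∀ r, l (ψ r) = h (Ideal.Quotient.mk I r) := by
      intro r
      show ψ r • h 1 = _
      rw [← hh]
      congr 1
      show Ideal.Quotient.mk I (r * 1) = _
      rw [mul_one]
    have hker : (I.map ψ) ≤ LinearMap.ker l := by
      rw [Ideal.map, Ideal.span, Submodule.span_le]
      rintro _ ⟨x, hx, rfl⟩
      show l (ψ x) = 0
      rw [hl, Ideal.Quotient.eq_zero_iff_mem.mpr hx, map_zero]
    refine ⟨Submodule.liftQ _ l hker, fun m => ?_, fun k hk => ?_⟩
    · obtain ⟨m, rfl⟩ := Ideal.Quotient.mk_surjective m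
      exact hl m
    · apply Submodule.linearMap_qext
      apply LinearMap.ext_ring
      show k (Ideal.Quotient.mk (I.map ψ) 1) = l 1
      have hk1 : k (quotMap ψ I 1) = h 1 := hk 1
      have h1 : l (ψ 1) = h (Ideal.Quotient.mk I 1) := hl 1
      rw [map_one] at hk1
      rw [map_one ψ, map_one (Ideal.Quotient.mk I)] at h1
      exact hk1.trans h1.symm

/-- `I → I R'` -/
def idealMap : I →+ (I.map ψ : Ideal R') where
  toFun x := ⟨ψ x, Ideal.mem_map_of_mem ψ x.2⟩
  map_zero' := Subtype.ext (by simp)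
  map_add' x y := Subtype.ext (by simp)

@[simp]
theorem idealMap_coe (x : I) : (idealMap ψ I x : R') = ψ x := rfl

end Quot

section

variable {k : Type u} [Field k] {A : Type u} [CommRing A] [Algebra k A]
  {B B' : Type u} [CommRing B] [Algebra k B] [CommRing B'] [Algebra k B'] (φ : B →ₐ[k] B')

theorem isBC_bcR : IsBC φ.toRingHom (bcR (A := A) φ).toAddMonoidHom := isBC_tensorMap φ

/-- base change of the quotient, over the base -/
theorem isBC_quotB (I : Ideal (B ⊗[k] A)) :
    IsBC φ.toRingHom (quotMap (bcR φ) I).toAddMonoidHom :=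
  IsBC.tower (isBC_bcR φ) (isBC_quot (bcR φ) I)

theorem projective_map (I : Ideal (B ⊗[k] A)) [Module.Projective B ((B ⊗[k] A) ⧸ I)] :
    Module.Projective B' ((B' ⊗[k] A) ⧸ I.map (bcR φ)) :=
  (isBC_quotB φ I).projective

theorem finite_map (I : Ideal (B ⊗[k] A)) [Module.Finite B ((B ⊗[k] A) ⧸ I)] :
    Module.Finite B' ((B' ⊗[k] A) ⧸ I.map (bcR φ)) :=
  (isBC_quotB φ I).finite

/-- base change of the ideal -/
theorem isBC_ideal (I : Ideal (B ⊗[k] A)) [Module.Projective B ((B ⊗[k] A) ⧸ I)] :
    IsBC (bcR (A := A) φ) (idealMap (bcR φ) I) := by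
  refine IsBC.of_tower (φ := φ.toRingHom) (ψ := bcR (A := A) φ) (isBC_bcR φ) (fun r m => ?_) ?_
  · exact Subtype.ext (map_mul (bcR φ) r m)
  · let f := (Ideal.Quotient.mkₐ B I).toLinearMap
    let f' := (Ideal.Quotient.mkₐ B' (I.map (bcR φ))).toLinearMap
    have hf : ∀ x, f x = Ideal.Quotient.mk I x := fun _ => rfl
    have hf' : ∀ x, f' x = Ideal.Quotient.mk _ x := fun _ => rfl
    let g : LinearMap.ker f →+ LinearMap.ker f' :=
      { toFun := fun x => ⟨bcR φ x, by
          have hx : (x : B ⊗[k] A) ∈ I := by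
            have := x.2
            rwa [LinearMap.mem_ker, hf, Ideal.Quotient.eq_zero_iff_mem] at this
          rw [LinearMap.mem_ker, hf', Ideal.Quotient.eq_zero_iff_mem]
          exact Ideal.mem_map_of_mem _ hx⟩
        map_zero' := Subtype.ext (map_zero (bcR φ))
        map_add' := fun x y => Subtype.ext (map_add (bcR φ) (x : B ⊗[k] A) y) }
    have hg := IsBC.ker (isBC_bcR φ) (isBC_quotB φ I) (f := f) f'
      (fun m => rfl) (Ideal.Quotient.mkₐ_surjective B I) (g := g) (fun m => rfl)
    let m : I →+ LinearMap.ker f :=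
      { toFun := fun x => ⟨x, Ideal.Quotient.eq_zero_iff_mem.mpr x.2⟩
        map_zero' := rfl
        map_add' := fun x y => rfl }
    let n : (I.map (bcR φ) : Ideal (B' ⊗[k] A)) →+ LinearMap.ker f' :=
      { toFun := fun x => ⟨x, Ideal.Quotient.eq_zero_iff_mem.mpr x.2⟩
        map_zero' := rfl
        map_add' := fun x y => rfl }
    refine IsBC.of_square (RingHom.id _) (RingHom.id _) m n Function.bijective_id
      Function.bijective_id ?_ ?_ (fun r x => rfl) (fun r x => rfl) rfl rfl hg
    · exact ⟨fun x y h => Subtype.ext congr(($h).val),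
        fun x => ⟨⟨x, Ideal.Quotient.eq_zero_iff_mem.mp x.2⟩, rfl⟩⟩
    · exact ⟨fun x y h => Subtype.ext congr(($h).val),
        fun x => ⟨⟨x, Ideal.Quotient.eq_zero_iff_mem.mp x.2⟩, rfl⟩⟩

end

section PCoord

variable {k : Type u} [Field k] {A : Type u} [CommRing A] [Algebra k A] {g : ℕ} (a : Fin g → A)

variable (k) in
/-- coordinates with respect to generators -/
structure PCoord (B : Type u) [CommRing B] [Algebra k B] where
  π : A →ₗ[k] (Fin g → B)
  proj : ∀ x, ∑ l, π x l • π (a l) = π x
  mul : ∀ x y, π (x * y) = ∑ l, π y l • π (x * a l)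

namespace PCoord

variable {a} {B B' : Type u} [CommRing B] [Algebra k B] [CommRing B'] [Algebra k B']
  (c : PCoord k a B)

@[ext]
theorem ext {c c' : PCoord k a B} (h : ∀ x, c.π x = c'.π x) : c = c' := by
  obtain ⟨π, _, _⟩ := c
  obtain ⟨π', _, _⟩ := c'
  obtain rfl : π = π' := LinearMap.ext h
  rfl

/-- extension of the coordinates to `B ⊗ A` -/
def πB : B ⊗[k] A →ₗ[B] (Fin g → B) := LinearMap.liftBaseChange B c.π

@[simp]
theorem πB_tmul (b : B) (x : A) : c.πB (b ⊗ₜ x) = b • c.π x :=
  LinearMap.liftBaseChange_tmul _ _ _ _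

theorem πB_mul (x : A) (y : B ⊗[k] A) :
    c.πB (((1 : B) ⊗ₜ[k] x) * y) = ∑ l, c.πB y l • c.π (x * a l) := by
  induction y using TensorProduct.induction_on with
  | zero => simp
  | tmul b y =>
    rw [Algebra.TensorProduct.tmul_mul_tmul, one_mul, πB_tmul, πB_tmul, c.mul, Finset.smul_sum]
    refine Finset.sum_congr rfl fun l _ => ?_
    rw [Pi.smul_apply, smul_smul, smul_eq_mul]
  | add y z hy hz =>
    rw [mul_add, map_add, hy, hz, map_add, ← Finset.sum_add_distrib]
    refine Finset.sum_congr rfl fun l _ => ?_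
    rw [Pi.add_apply, add_smul]

theorem πB_proj (y : B ⊗[k] A) : ∑ l, c.πB y l • c.π (a l) = c.πB y := by
  induction y using TensorProduct.induction_on with
  | zero => simp
  | tmul b y =>
    rw [πB_tmul]
    conv_rhs => rw [← c.proj y, Finset.smul_sum]
    refine Finset.sum_congr rfl fun l _ => ?_
    rw [Pi.smul_apply, smul_smul, smul_eq_mul]
  | add y z hy hz =>
    rw [map_add]
    conv_rhs => rw [← hy, ← hz, ← Finset.sum_add_distrib]
    refine Finset.sum_congr rfl fun l _ => ?_
    rw [Pi.add_apply, add_smul]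

/-- the ideal attached to coordinates -/
def ideal : Ideal (B ⊗[k] A) where
  carrier := {y | c.πB y = 0}
  add_mem' {x y} hx hy := by
    simp only [Set.mem_ofPred_eq] at hx hy ⊢
    rw [map_add, hx, hy, add_zero]
  zero_mem' := map_zero _
  smul_mem' z y hy := by
    simp only [Set.mem_ofPred_eq, smul_eq_mul] at hy ⊢
    induction z using TensorProduct.induction_on with
    | zero => simp
    | tmul b x =>
      have : (b ⊗ₜ[k] x : B ⊗[k] A) * y = b • (((1 : B) ⊗ₜ[k] x) * y) := by
        rw [← smul_mul_assoc, TensorProduct.smul_tmul', smul_eq_mul, mul_one]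
      rw [this, map_smul, c.πB_mul, hy]
      simp
    | add z w hz hw => rw [add_mul, map_add, hz, hw, add_zero]

theorem mem_ideal {y : B ⊗[k] A} : y ∈ c.ideal ↔ c.πB y = 0 := Iff.rfl

theorem πB_sum (v : Fin g → B) :
    c.πB (∑ i, v i • ((1 : B) ⊗ₜ[k] a i)) = ∑ i, v i • c.π (a i) := by
  rw [map_sum]
  simp only [map_smul, πB_tmul, one_smul]

theorem sub_mem_ideal (y : B ⊗[k] A) :
    y - ∑ i, c.πB y i • ((1 : B) ⊗ₜ[k] a i) ∈ c.ideal := by
  rw [mem_ideal, map_sub, πB_sum, πB_proj, sub_self]

/-- the quotient embeds into `B ^ g` -/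
def incl : ((B ⊗[k] A) ⧸ c.ideal) →ₗ[B] (Fin g → B) :=
  Submodule.liftQ (c.ideal.restrictScalars B) c.πB (fun _ hy => hy)

theorem incl_mk (y : B ⊗[k] A) : c.incl (Ideal.Quotient.mk c.ideal y) = c.πB y := rfl

/-- retraction of `incl` -/
def retr : (Fin g → B) →ₗ[B] ((B ⊗[k] A) ⧸ c.ideal) :=
  Fintype.linearCombination B (fun i => Ideal.Quotient.mk c.ideal (1 ⊗ₜ a i))

theorem retr_apply (v : Fin g → B) :
    c.retr v = Ideal.Quotient.mk c.ideal (∑ i, v i • ((1 : B) ⊗ₜ[k] a i)) := by
  rw [retr, Fintype.linearCombination_apply, map_sum]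
  rfl

theorem retr_incl (y : (B ⊗[k] A) ⧸ c.ideal) : c.retr (c.incl y) = y := by
  obtain ⟨y, rfl⟩ := Ideal.Quotient.mk_surjective y
  rw [incl_mk, retr_apply, Ideal.Quotient.eq]
  have := neg_mem (c.sub_mem_ideal y)
  rwa [neg_sub] at this

theorem projective : Module.Projective B ((B ⊗[k] A) ⧸ c.ideal) :=
  Module.Projective.of_split c.incl c.retr (LinearMap.ext c.retr_incl)

theorem finite : Module.Finite B ((B ⊗[k] A) ⧸ c.ideal) :=
  Module.Finite.of_surjective c.retr (fun y => ⟨c.incl y, c.retr_incl y⟩)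

/-- base change of coordinates -/
def map (φ : B →ₐ[k] B') : PCoord k a B' where
  π := (φ.toLinearMap.compLeft (Fin g)).comp c.π
  proj x := by
    ext j
    have := congr(φ ($(c.proj x) j))
    simp only [Finset.sum_apply, Pi.smul_apply, smul_eq_mul, map_sum, map_mul] at this ⊢
    exact this
  mul x y := by
    ext j
    show φ (c.π (x * y) j) = _
    rw [c.mul]
    simp only [Finset.sum_apply, Pi.smul_apply, smul_eq_mul, map_sum, map_mul]
    rfl

@[simp]
theorem map_π (φ : B →ₐ[k] B') (x : A) (i : Fin g) : (c.map φ).π x i = φ (c.π x i) := rfl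

theorem map_πB (φ : B →ₐ[k] B') (y : B ⊗[k] A) (i : Fin g) :
    (c.map φ).πB (bcR φ y) i = φ (c.πB y i) := by
  induction y using TensorProduct.induction_on with
  | zero => simp
  | tmul b y => rw [bcR_tmul]; simp
  | add y z hy hz => rw [map_add, map_add, map_add, Pi.add_apply, hy, hz, Pi.add_apply, map_add]

theorem map_ideal (φ : B →ₐ[k] B') :
    c.ideal.map (bcR φ) = (c.map φ).ideal := by
  apply le_antisymm
  · rw [Ideal.map_le_iff_le_comap]
    intro y hy
    rw [Ideal.mem_comap, mem_ideal]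
    ext i
    rw [c.map_πB, (c.mem_ideal.mp hy)]
    simp
  · intro y hy
    have key : ∀ z : B' ⊗[k] A, z - ∑ i, (c.map φ).πB z i • ((1 : B') ⊗ₜ[k] a i) ∈
        c.ideal.map (bcR φ) := by
      intro z
      induction z using TensorProduct.induction_on with
      | zero => simp
      | tmul b x =>
        have h1 := Ideal.mem_map_of_mem (bcR φ) (c.sub_mem_ideal (1 ⊗ₜ x))
        have h2 : (b ⊗ₜ[k] x : B' ⊗[k] A) - ∑ i, (c.map φ).πB (b ⊗ₜ[k] x) i •
            ((1 : B') ⊗ₜ[k] a i) = (b ⊗ₜ[k] (1 : A) : B' ⊗[k] A) *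
            bcR φ ((1 : B) ⊗ₜ x - ∑ i, c.πB (1 ⊗ₜ x) i • ((1 : B) ⊗ₜ[k] a i)) := by
          rw [map_sub, map_sum, mul_sub, Finset.mul_sum]
          congr 1
          · rw [bcR_tmul, map_one, Algebra.TensorProduct.tmul_mul_tmul, mul_one, one_mul]
          · refine Finset.sum_congr rfl fun i _ => ?_
            rw [TensorProduct.smul_tmul', TensorProduct.smul_tmul', bcR_tmul,
              Algebra.TensorProduct.tmul_mul_tmul]
            simp
        rw [h2]
        exact Ideal.mul_mem_left _ _ h1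
      | add z w hz hw =>
        have : z + w - ∑ i, (c.map φ).πB (z + w) i • ((1 : B') ⊗ₜ[k] a i) =
            (z - ∑ i, (c.map φ).πB z i • ((1 : B') ⊗ₜ[k] a i)) +
            (w - ∑ i, (c.map φ).πB w i • ((1 : B') ⊗ₜ[k] a i)) := by
          rw [map_add]
          simp only [Pi.add_apply, add_smul, Finset.sum_add_distrib]
          abel
        rw [this]
        exact add_mem hz hw
    have := key y
    rw [(c.map φ).mem_ideal.mp hy] at this
    simpa using this

end PCoord

/-- every ideal with finite projective quotient comes from coordinates -/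
theorem exists_pcoord {B : Type u} [CommRing B] [Algebra k B] (I : Ideal (B ⊗[k] A))
    [Module.Projective B ((B ⊗[k] A) ⧸ I)] [Module.Finite B ((B ⊗[k] A) ⧸ I)] :
    ∃ (g : ℕ) (a : Fin g → A) (c : PCoord k a B), c.ideal = I := by
  classical
  let q : B ⊗[k] A →ₗ[B] (B ⊗[k] A) ⧸ I := (Ideal.Quotient.mkₐ B I).toLinearMap
  have hq : ∀ x, q x = Ideal.Quotient.mk I x := fun _ => rfl
  have hqs : Function.Surjective q := Ideal.Quotient.mk_surjective
  -- generators
  have hspan : Submodule.span B (Set.range fun x : A => q ((1 : B) ⊗ₜ[k] x)) = ⊤ := by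
    rw [eq_top_iff]
    intro y _
    obtain ⟨y, rfl⟩ := hqs y
    induction y using TensorProduct.induction_on with
    | zero => rw [map_zero]; exact zero_mem _
    | tmul b x =>
      have : (b ⊗ₜ[k] x : B ⊗[k] A) = b • ((1 : B) ⊗ₜ[k] x) := by
        rw [TensorProduct.smul_tmul', smul_eq_mul, mul_one]
      rw [this, map_smul]
      exact Submodule.smul_mem _ _ (Submodule.subset_span ⟨x, rfl⟩)
    | add y z hy hz => rw [map_add]; exact add_mem (hy trivial) (hz trivial)
  have hfg : (Submodule.span B (Set.range fun x : A => q ((1 : B) ⊗ₜ[k] x))).FG := by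
    rw [hspan]; exact Module.Finite.fg_top
  rw [Submodule.fg_span_iff_fg_span_finset_subset] at hfg
  obtain ⟨S, hS, hS'⟩ := hfg
  choose f hf using fun s : S => hS s.2
  let g := S.card
  let e : Fin g ≃ S := S.equivFin.symm
  let a : Fin g → A := fun i => f (e i)
  have ha : ∀ i, q ((1 : B) ⊗ₜ[k] a i) = e i := fun i => hf (e i)
  let p : (Fin g → B) →ₗ[B] ((B ⊗[k] A) ⧸ I) :=
    Fintype.linearCombination B (fun i => q ((1 : B) ⊗ₜ[k] a i))
  have hp : Function.Surjective p := by
    rw [← LinearMap.range_eq_top, eq_top_iff, ← hspan, hS', Submodule.span_le]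
    intro s hs
    refine ⟨Pi.single (e.symm ⟨s, hs⟩) 1, ?_⟩
    simp [p, Fintype.linearCombination_apply_single, ha]
  obtain ⟨s, hs⟩ := Module.projective_lifting_property p LinearMap.id hp
  have hs' : ∀ y, p (s y) = y := fun y => congr($hs y)
  have hpa : ∀ v, p v = q (∑ i, v i • ((1 : B) ⊗ₜ[k] a i)) := by
    intro v
    rw [map_sum]
    simp only [map_smul]
    rfl
  let π : A →ₗ[k] (Fin g → B) := (s.restrictScalars k) ∘ₗ (q.restrictScalars k) ∘ₗ
    (Algebra.TensorProduct.includeRight : A →ₐ[k] B ⊗[k] A).toLinearMap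
  have hπ : ∀ x, π x = s (q ((1 : B) ⊗ₜ[k] x)) := fun _ => rfl
  have hsp : ∀ v, s (p v) = ∑ l, v l • π (a l) := by
    intro v
    rw [hpa, map_sum, map_sum]
    simp only [map_smul, hπ]
  let c : PCoord k a B :=
    { π := π
      proj := fun x => by
        rw [← hsp, hπ, hs']
      mul := fun x y => by
        have h1 : Ideal.Quotient.mk I ((1 : B) ⊗ₜ[k] y) =
            Ideal.Quotient.mk I (∑ l, π y l • ((1 : B) ⊗ₜ[k] a l)) := by
          have := hs' (q ((1 : B) ⊗ₜ[k] y))
          rw [← hπ, hpa] at this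
          exact this.symm
        have h2 : q ((1 : B) ⊗ₜ[k] (x * y)) = ∑ l, π y l • q ((1 : B) ⊗ₜ[k] (x * a l)) := by
          have h3 : ((1 : B) ⊗ₜ[k] (x * y)) = ((1 : B) ⊗ₜ[k] x) * ((1 : B) ⊗ₜ[k] y) := by
            rw [Algebra.TensorProduct.tmul_mul_tmul, one_mul]
          rw [hq, h3, map_mul, h1, ← map_mul, Finset.mul_sum, map_sum]
          refine Finset.sum_congr rfl fun l _ => ?_
          rw [mul_smul_comm, Algebra.TensorProduct.tmul_mul_tmul, one_mul, ← hq, map_smul]
        rw [hπ, h2, map_sum]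
        simp only [map_smul, hπ] }
  refine ⟨g, a, c, ?_⟩
  have hπB : ∀ y, c.πB y = s (q y) := by
    intro y
    induction y using TensorProduct.induction_on with
    | zero => simp
    | tmul b x =>
      have : (b ⊗ₜ[k] x : B ⊗[k] A) = b • ((1 : B) ⊗ₜ[k] x) := by
        rw [TensorProduct.smul_tmul', smul_eq_mul, mul_one]
      rw [PCoord.πB_tmul, this, map_smul, map_smul]
      rfl
    | add y z hy hz => rw [map_add, map_add, map_add, hy, hz]
  ext y
  rw [PCoord.mem_ideal, hπB]
  constructor
  · intro h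
    have := congrArg p h
    rw [hs', map_zero] at this
    exact Ideal.Quotient.eq_zero_iff_mem.mp this
  · intro h
    rw [hq, Ideal.Quotient.eq_zero_iff_mem.mpr h, map_zero]

/-- descent to a finitely generated subalgebra -/
theorem PCoord.descend [Algebra.FiniteType k A] {B : Type u} [CommRing B] [Algebra k B]
    {a : Fin g → A} (c : PCoord k a B) :
    ∃ (B₀ : Subalgebra k B) (c₀ : PCoord k a B₀), B₀.FG ∧ c₀.map B₀.val = c := by
  classical
  obtain ⟨T, hT⟩ := Algebra.FiniteType.out (R := k) (A := A)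
  let G : Finset B := (insert 1 T).biUnion fun t => Finset.univ.biUnion fun l : Fin g =>
    Finset.univ.biUnion fun i : Fin g => {c.π (t * a l) i, c.π 1 i}
  let B₀ : Subalgebra k B := Algebra.adjoin k (G : Set B)
  have hG : ∀ t ∈ insert 1 T, ∀ l i, c.π (t * a l) i ∈ B₀ := by
    intro t ht l i
    apply Algebra.subset_adjoin
    simp only [G, Finset.coe_biUnion, Set.mem_iUnion]
    exact ⟨t, ht, l, Finset.mem_univ _, i, Finset.mem_univ _, by simp⟩
  have hG1 : ∀ i, c.π 1 i ∈ B₀ := by
    intro i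
    apply Algebra.subset_adjoin
    simp only [G, Finset.coe_biUnion, Set.mem_iUnion]
    exact ⟨1, Finset.mem_insert_self _ _, i, Finset.mem_univ _, i, Finset.mem_univ _, by simp⟩
  have key : ∀ x : A, ∀ l i, c.π (x * a l) i ∈ B₀ := by
    intro x
    have hx : x ∈ Algebra.adjoin k (T : Set A) := by rw [hT]; trivial
    induction hx using Algebra.adjoin_induction with
    | mem x hx => exact hG x (Finset.mem_insert_of_mem hx)
    | algebraMap r =>
      intro l i
      rw [← Algebra.smul_def, map_smul, Pi.smul_apply]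
      refine Subalgebra.smul_mem _ ?_ r
      simpa using hG 1 (Finset.mem_insert_self _ _) l i
    | add x y _ _ hx hy =>
      intro l i
      rw [add_mul, map_add, Pi.add_apply]
      exact add_mem (hx l i) (hy l i)
    | mul x y _ _ hx hy =>
      intro l i
      rw [mul_assoc, c.mul, Finset.sum_apply]
      refine sum_mem fun m _ => ?_
      rw [Pi.smul_apply, smul_eq_mul]
      exact mul_mem (hy l m) (hx m i)
  have key' : ∀ x : A, ∀ i, c.π x i ∈ B₀ := by
    intro x i
    have := c.mul x 1
    rw [mul_one] at this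
    rw [this, Finset.sum_apply]
    refine sum_mem fun m _ => ?_
    rw [Pi.smul_apply, smul_eq_mul]
    exact mul_mem (hG1 m) (key x m i)
  let c₀ : PCoord k a B₀ :=
    { π :=
        { toFun := fun x i => ⟨c.π x i, key' x i⟩
          map_add' := fun x y => by ext i; simp
          map_smul' := fun r x => by ext i; simp }
      proj := fun x => by
        ext i
        have := congr($(c.proj x) i)
        simp only [Finset.sum_apply, Pi.smul_apply, smul_eq_mul] at this
        simp [this]
      mul := fun x y => by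
        ext i
        have := congr($(c.mul x y) i)
        simp only [Finset.sum_apply, Pi.smul_apply, smul_eq_mul] at this
        simp [this] }
  refine ⟨B₀, c₀, ⟨G, rfl⟩, ?_⟩
  ext x i
  rfl

end PCoord

section General

variable {k : Type u} [Field k] {A : Type u} [CommRing A] [Algebra k A]
  {B : Type u} [CommRing B] [Algebra k B]

/-- **Ideals of `B ⊗ A` with `B`-finite projective quotient are invertible.** -/
theorem invertible [Algebra.FiniteType k A] {t : A} {n : ℕ} (P : PBasis k t n)
    (hinj : Function.Injective (aeval t : k[X] →ₐ[k] A))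
    (hded : ∀ (K : Type u) [Field K] [Algebra k K], IsDedekindDomain (K ⊗[k] A))
    (I : Ideal (B ⊗[k] A)) [Module.Projective B ((B ⊗[k] A) ⧸ I)]
    [Module.Finite B ((B ⊗[k] A) ⧸ I)] : Module.Invertible (B ⊗[k] A) I := by
  obtain ⟨g, a, c, rfl⟩ := exists_pcoord I
  obtain ⟨B₀, c₀, hB₀, rfl⟩ := c.descend
  have : Algebra.FiniteType k B₀ := B₀.fg_iff_finiteType.mp hB₀
  have : Algebra.FiniteType k (B₀ ⊗[k] A) :=
    Algebra.FiniteType.trans (inferInstance : Algebra.FiniteType k B₀) inferInstance
  have : IsNoetherianRing (B₀ ⊗[k] A) := Algebra.FiniteType.isNoetherianRing k _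
  have := c₀.projective
  have := c₀.finite
  have := invertible_of_noeth P hinj hded c₀.ideal
  rw [← c₀.map_ideal]
  exact (isBC_ideal B₀.val c₀.ideal).invertible

end General

end Fermat.Agent.S25.IdealBC
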