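import Mathlib
import Fermat.Agent.S25.IdealBC
import Fermat.Agent.S25.AlgStd

/-!
# S25: ideals of `R0 B` with `B`-finite projective quotient (`TwoChart` form)
-/

set_option autoImplicit false

universe u

open scoped TensorProduct Polynomial

noncomputable section

namespace Fermat.Agent.S25.TwoChart

open Fermat.Agent.S25.Hilb Fermat.Agent.S25.Nrm Fermat.Agent.S25.Invert Fermat.Agent.S25.IdealBC

variable {k : Type u} [Field k] (𝒞 : TwoChart k)

theorem bc0_eq {B B' : Type u} [CommRing B] [Algebra k B] [CommRing B'] [Algebra k B']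
    (φ : B →ₐ[k] B') : 𝒞.bc0 φ = bcR φ := rfl

instance finiteType_A0 : Algebra.FiniteType k 𝒞.A0 := by
  let _ : Algebra k[X] 𝒞.A0 := (Polynomial.aeval 𝒞.f0 : k[X] →ₐ[k] 𝒞.A0).toRingHom.toAlgebra
  have hmap : ∀ p : k[X], algebraMap k[X] 𝒞.A0 p = Polynomial.aeval 𝒞.f0 p := fun p => rfl
  have : IsScalarTower k k[X] 𝒞.A0 := IsScalarTower.of_algebraMap_eq fun c => by
    rw [hmap, ← Polynomial.C_eq_algebraMap, Polynomial.aeval_C]
  have : Module.Finite k[X] 𝒞.A0 := 𝒞.fin0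
  exact Algebra.FiniteType.trans (inferInstance : Algebra.FiniteType k k[X]) inferInstance

instance finiteType_A1 : Algebra.FiniteType k 𝒞.A1 := 𝒞.swap.finiteType_A0

theorem exists_pbasis0 : ∃ n, Nonempty (PBasis k 𝒞.f0 n) := by
  have := 𝒞.isDomain_A0
  exact exists_pbasis 𝒞.f0 𝒞.fin0 𝒞.inj0

variable {B B' : Type u} [CommRing B] [Algebra k B] [CommRing B'] [Algebra k B']
  (φ : B →ₐ[k] B')

/-- **McCoy/norm lemma**: an element non-zero on each fibre is a nonzerodivisor. -/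
theorem mem_nonZeroDivisors0 {x : 𝒞.R0 B}
    (hx : ∀ (K : Type u) [Field K] [Algebra k K] (φ : B →ₐ[k] K), 𝒞.bc0 φ x ≠ 0) :
    x ∈ nonZeroDivisors (𝒞.R0 B) := by
  obtain ⟨n, ⟨P⟩⟩ := 𝒞.exists_pbasis0
  exact P.mem_nonZeroDivisors (fun K _ _ => by have := 𝒞.ded0 K; infer_instance) hx

/-- ideals with `B`-finite projective quotients are invertible -/
theorem invertible_ideal0 (I : Ideal (𝒞.R0 B)) [Module.Finite B (𝒞.R0 B ⧸ I)]
    [Module.Projective B (𝒞.R0 B ⧸ I)] : Module.Invertible (𝒞.R0 B) I := by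
  obtain ⟨n, ⟨P⟩⟩ := 𝒞.exists_pbasis0
  exact IdealBC.invertible P 𝒞.inj0 𝒞.ded0 I

theorem fg_ideal0 (I : Ideal (𝒞.R0 B)) [Module.Finite B (𝒞.R0 B ⧸ I)]
    [Module.Projective B (𝒞.R0 B ⧸ I)] : I.FG := by
  have := 𝒞.invertible_ideal0 I
  exact Module.Finite.iff_fg.mp inferInstance

theorem fg_and_invertible_ideal0 (I : Ideal (𝒞.R0 B)) [Module.Finite B (𝒞.R0 B ⧸ I)]
    [Module.Projective B (𝒞.R0 B ⧸ I)] : I.FG ∧ Module.Invertible (𝒞.R0 B) I :=
  ⟨𝒞.fg_ideal0 I, 𝒞.invertible_ideal0 I⟩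

/-- base change of the ideal -/
theorem isBC_ideal0 (I : Ideal (𝒞.R0 B)) [Module.Projective B (𝒞.R0 B ⧸ I)] :
    IsBC (𝒞.bc0 φ) (idealMap (𝒞.bc0 φ) I) := isBC_ideal φ I

/-- base change of the quotient -/
theorem isBC_quot0 (I : Ideal (𝒞.R0 B)) :
    IsBC (𝒞.bc0 φ) (quotMap (𝒞.bc0 φ) I).toAddMonoidHom := isBC_quot _ I

/-- base change of the quotient, over the base -/
theorem isBC_quotB0 (I : Ideal (𝒞.R0 B)) :
    IsBC φ.toRingHom (quotMap (𝒞.bc0 φ) I).toAddMonoidHom := isBC_quotB φ I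

theorem projective_map0 (I : Ideal (𝒞.R0 B)) [Module.Projective B (𝒞.R0 B ⧸ I)] :
    Module.Projective B' (𝒞.R0 B' ⧸ I.map (𝒞.bc0 φ)) := projective_map φ I

theorem finite_map0 (I : Ideal (𝒞.R0 B)) [Module.Finite B (𝒞.R0 B ⧸ I)] :
    Module.Finite B' (𝒞.R0 B' ⧸ I.map (𝒞.bc0 φ)) := finite_map φ I

end Fermat.Agent.S25.TwoChart
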