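import Mathlib
import Fermat.Agent.S25.ChartDeg
import Fermat.Agent.S25.TCIdeal

/-!
# S25 / ALG4: the predicate `ι.IsSub J` : `ι : D' → D` identifies `D'` with `J D`
-/

set_option autoImplicit false
set_option linter.style.haveILetI false

universe u

open scoped TensorProduct Pointwise Polynomial

noncomputable section

namespace Fermat.Agent.S25

namespace LB

variable {k : Type u} [Field k]

section general

variable {𝒞 : TwoChart k} {B : Type u} [CommRing B] [Algebra k B] {D D' D'' X : LB 𝒞 B}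

/-- `ι : D' → D` identifies `D'` with `J D` (`J` an ideal of `R0 B`, with zeroes away from the
complement of `U0`). -/
structure Hom.IsSub (ι : Hom D' D) (J : Ideal (𝒞.R0 B)) : Prop where
  inj0 : Function.Injective ι.l0
  inj1 : Function.Injective ι.l1
  inj01 : Function.Injective ι.l01
  range0 : LinearMap.range ι.l0 = J • ⊤
  range1 : ∀ (y : D.M1) (w : D'.M01), D.r1 y = ι.l01 w → ∃ x, ι.l1 x = y

variable {ι : Hom D' D} {J : Ideal (𝒞.R0 B)}

lemma Hom.IsSub.mem0 (h : ι.IsSub J) (x : D'.M0) : ι.l0 x ∈ (J • ⊤ : Submodule (𝒞.R0 B) D.M0) := by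
  rw [← h.range0]; exact ⟨x, rfl⟩

lemma Hom.IsSub.exists0 (h : ι.IsSub J) {x : D.M0} (hx : x ∈ (J • ⊤ : Submodule (𝒞.R0 B) D.M0)) :
    ∃ y, ι.l0 y = x := by
  rw [← h.range0] at hx; exact hx

lemma Hom.IsSub.exists01 (h : ι.IsSub J) {w : D.M01} {n : ℕ} {x : D.M0}
    (hx : x ∈ (J • ⊤ : Submodule (𝒞.R0 B) D.M0)) (hw : (𝒞.ρ0B B (𝒞.f0B B)) ^ n • w = D.r0 x) :
    ∃ y, ι.l01 y = w := by
  obtain ⟨y, rfl⟩ := h.exists0 hx
  refine ⟨(𝒞.ρ1B B (𝒞.f1B B)) ^ n • D'.r0 y, ?_⟩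
  rw [map_smul, ← ι.h0, ← hw, G_pow_F_pow_smul]

lemma Hom.IsSub.lift_mem01 (h : ι.IsSub J) (g : Hom X D)
    (hg : ∀ x, g.l0 x ∈ (J • ⊤ : Submodule (𝒞.R0 B) D.M0)) (w : X.M01) :
    g.l01 w ∈ LinearMap.range ι.l01 := by
  obtain ⟨n, hn⟩ := X.exists_r0_eq w
  obtain ⟨x, hx⟩ := hn n le_rfl
  refine h.exists01 (n := n) (hg x) ?_
  rw [g.h0, hx, map_smul]

lemma Hom.IsSub.lift_mem1 (h : ι.IsSub J) (g : Hom X D)
    (hg : ∀ x, g.l0 x ∈ (J • ⊤ : Submodule (𝒞.R0 B) D.M0)) (y : X.M1) :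
    g.l1 y ∈ LinearMap.range ι.l1 := by
  obtain ⟨w, hw⟩ := h.lift_mem01 g hg (X.r1 y)
  exact h.range1 _ w (by rw [g.h1, hw])

/-- lifting a homomorphism to the subbundle -/
def Hom.IsSub.lift (h : ι.IsSub J) (g : Hom X D)
    (hg : ∀ x, g.l0 x ∈ (J • ⊤ : Submodule (𝒞.R0 B) D.M0)) : Hom X D' where
  l0 := g.l0.codRestrictOfInjective ι.l0 h.inj0 (fun x ↦ by rw [h.range0]; exact hg x)
  l1 := g.l1.codRestrictOfInjective ι.l1 h.inj1 (h.lift_mem1 g hg)
  l01 := g.l01.codRestrictOfInjective ι.l01 h.inj01 (h.lift_mem01 g hg)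
  h0 x := by
    apply h.inj01
    rw [← ι.h0, LinearMap.codRestrictOfInjective_comp_apply,
      LinearMap.codRestrictOfInjective_comp_apply, g.h0]
  h1 x := by
    apply h.inj01
    rw [← ι.h1, LinearMap.codRestrictOfInjective_comp_apply,
      LinearMap.codRestrictOfInjective_comp_apply, g.h1]

@[simp] lemma Hom.IsSub.lift_l0 (h : ι.IsSub J) (g : Hom X D)
    (hg : ∀ x, g.l0 x ∈ (J • ⊤ : Submodule (𝒞.R0 B) D.M0)) (x : X.M0) :
    ι.l0 ((h.lift g hg).l0 x) = g.l0 x := LinearMap.codRestrictOfInjective_comp_apply ..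

@[simp] lemma Hom.IsSub.lift_l1 (h : ι.IsSub J) (g : Hom X D)
    (hg : ∀ x, g.l0 x ∈ (J • ⊤ : Submodule (𝒞.R0 B) D.M0)) (x : X.M1) :
    ι.l1 ((h.lift g hg).l1 x) = g.l1 x := LinearMap.codRestrictOfInjective_comp_apply ..

@[simp] lemma Hom.IsSub.lift_l01 (h : ι.IsSub J) (g : Hom X D)
    (hg : ∀ x, g.l0 x ∈ (J • ⊤ : Submodule (𝒞.R0 B) D.M0)) (x : X.M01) :
    ι.l01 ((h.lift g hg).l01 x) = g.l01 x := LinearMap.codRestrictOfInjective_comp_apply ..

/-- uniqueness, with an isomorphism in the middle -/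
def Hom.IsSub.isoOfIso {D₁ D₁' : LB 𝒞 B} {ι₁ : Hom D₁' D₁} (h : ι.IsSub J) (h₁ : ι₁.IsSub J)
    (e : Iso D D₁) : Iso D' D₁' :=
  have hf : ∀ x, ((Hom.ofIso e).comp ι).l0 x ∈ (J • ⊤ : Submodule (𝒞.R0 B) D₁.M0) := fun x ↦ by
    have h1 := Submodule.mem_map_of_mem (f := e.e0.toLinearMap) (h.mem0 x)
    rw [Submodule.map_smul''] at h1
    exact Submodule.smul_mono le_rfl le_top h1
  have hg : ∀ x, ((Hom.ofIso e.symm).comp ι₁).l0 x ∈ (J • ⊤ : Submodule (𝒞.R0 B) D.M0) := fun x ↦ by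
    have h1 := Submodule.mem_map_of_mem (f := e.symm.e0.toLinearMap) (h₁.mem0 x)
    rw [Submodule.map_smul''] at h1
    exact Submodule.smul_mono le_rfl le_top h1
  let f := h₁.lift ((Hom.ofIso e).comp ι) hf
  let g := h.lift ((Hom.ofIso e.symm).comp ι₁) hg
  f.toIso
    (Function.bijective_iff_has_inverse.mpr ⟨g.l0, fun x ↦ h.inj0 (by simp [f, g]),
      fun x ↦ h₁.inj0 (by simp [f, g])⟩)
    (Function.bijective_iff_has_inverse.mpr ⟨g.l1, fun x ↦ h.inj1 (by simp [f, g]),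
      fun x ↦ h₁.inj1 (by simp [f, g])⟩)
    (Function.bijective_iff_has_inverse.mpr ⟨g.l01, fun x ↦ h.inj01 (by simp [f, g]),
      fun x ↦ h₁.inj01 (by simp [f, g])⟩)

/-- uniqueness -/
def Hom.IsSub.uniq {ι' : Hom D'' D} (h : ι.IsSub J) (h' : ι'.IsSub J) : Iso D' D'' :=
  h.isoOfIso h' (.refl D)

lemma Hom.IsSub.comp {ι' : Hom D'' D'} {J' : Ideal (𝒞.R0 B)} (h : ι.IsSub J)
    (h' : ι'.IsSub J') : (ι.comp ι').IsSub (J' * J) where
  inj0 := h.inj0.comp h'.inj0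
  inj1 := h.inj1.comp h'.inj1
  inj01 := h.inj01.comp h'.inj01
  range0 := by
    rw [Hom.comp_l0, LinearMap.range_comp, h'.range0, Submodule.map_smul'', Submodule.map_top,
      h.range0, Submodule.mul_smul]
  range1 := by
    intro y w hw
    obtain ⟨x, rfl⟩ := h.range1 y (ι'.l01 w) hw
    rw [ι.h1] at hw
    obtain ⟨z, rfl⟩ := h'.range1 x w (h.inj01 hw)
    exact ⟨z, rfl⟩

lemma Hom.IsSub.tw (h : ι.IsSub J) (n : ℕ) : (ι.tw n).IsSub J where
  inj0 := h.inj0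
  inj1 := h.inj1
  inj01 := h.inj01
  range0 := h.range0
  range1 := by
    intro (y : D.M1) (w : D'.M01) hw
    have hw' : (𝒞.ρ0B B (𝒞.f0B B)) ^ n • D.r1 y = ι.l01 w := hw
    refine h.range1 y ((𝒞.ρ1B B (𝒞.f1B B)) ^ n • w) ?_
    have h1 : ι.l01 ((𝒞.ρ1B B (𝒞.f1B B)) ^ n • w) = (𝒞.ρ1B B (𝒞.f1B B)) ^ n • ι.l01 w :=
      map_smul _ _ _
    rw [h1, ← hw', G_pow_F_pow_smul]

lemma Hom.IsSub.id (D : LB 𝒞 B) : (Hom.id D).IsSub ⊤ where
  inj0 := Function.injective_id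
  inj1 := Function.injective_id
  inj01 := Function.injective_id
  range0 := by
    rw [Hom.id_l0, LinearMap.range_id, Submodule.top_smul]
  range1 := fun y _ _ ↦ ⟨y, rfl⟩

/-- transporting along an isomorphism of the target -/
lemma Hom.IsSub.ofIso_comp {D₁ : LB 𝒞 B} (h : ι.IsSub J) (e : Iso D D₁) :
    ((Hom.ofIso e).comp ι).IsSub J where
  inj0 := e.e0.injective.comp h.inj0
  inj1 := e.e1.injective.comp h.inj1
  inj01 := e.e01.injective.comp h.inj01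
  range0 := by
    rw [Hom.comp_l0, LinearMap.range_comp, h.range0, Submodule.map_smul'', Submodule.map_top,
      Hom.ofIso_l0, LinearEquiv.range]
  range1 := by
    intro y w hw
    have hw' : D₁.r1 y = e.e01 (ι.l01 w) := hw
    obtain ⟨y', rfl⟩ := e.e1.surjective y
    rw [e.h1] at hw'
    obtain ⟨x, rfl⟩ := h.range1 y' w (e.e01.injective hw')
    exact ⟨x, rfl⟩

/-- transporting along an isomorphism of the source -/
lemma Hom.IsSub.comp_ofIso {D₁ : LB 𝒞 B} (h : ι.IsSub J) (e : Iso D₁ D') :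
    (ι.comp (Hom.ofIso e)).IsSub J where
  inj0 := h.inj0.comp e.e0.injective
  inj1 := h.inj1.comp e.e1.injective
  inj01 := h.inj01.comp e.e01.injective
  range0 := by
    rw [Hom.comp_l0, LinearMap.range_comp, Hom.ofIso_l0, LinearEquiv.range, Submodule.map_top,
      h.range0]
  range1 := by
    intro y w hw
    obtain ⟨x, rfl⟩ := h.range1 y (e.e01 w) hw
    exact ⟨e.e1.symm x, by simp⟩

end general

section curve

variable {𝒞 : CurveData k} {B : Type u} [CommRing B] [Algebra k B]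
  {D D' : LB 𝒞.toTwoChart B} {ι : Hom D' D} {J : Ideal (𝒞.R0 B)}

theorem Hom.SurjAt.isSub (h : ι.SurjAt) (hr : LinearMap.range ι.l0 = J • ⊤) : ι.IsSub J where
  inj0 := h.l0_injective
  inj1 := h.l1_injective
  inj01 := h.l01_injective
  range0 := hr
  range1 := fun y w hw ↦ by obtain ⟨x, hx, -⟩ := h.mem_range_l1 hw; exact ⟨x, hx⟩

theorem Hom.IsSub.exists_u (h : ι.IsSub J) [Module.Finite B (𝒞.R0 B ⧸ J)] :
    ∃ u : 𝒞.R1 B, 𝒞.εB B u = 1 ∧ ∀ y : D.M1, ∃ x, ι.l1 x = u • y := by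
  obtain ⟨p, hp, hp0⟩ := IsIntegral.of_finite B (Ideal.Quotient.mk J (𝒞.f0B B))
  have hpJ : Polynomial.aeval (𝒞.f0B B) p ∈ J := by
    rw [← Ideal.Quotient.eq_zero_iff_mem]
    have h1 : Polynomial.aeval (Ideal.Quotient.mkₐ B J (𝒞.f0B B)) p =
      Ideal.Quotient.mkₐ B J (Polynomial.aeval (𝒞.f0B B) p) := Polynomial.aeval_algHom_apply _ _ _
    exact h1.symm.trans hp0
  let i : Invertible (𝒞.ρ0B B (𝒞.f0B B)) := ⟨𝒞.ρ1B B (𝒞.f1B B), G_mul_F, F_mul_G⟩
  refine ⟨Polynomial.aeval (𝒞.f1B B) p.reverse, ?_, fun y ↦ ?_⟩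
  · rw [← Polynomial.aeval_algHom_apply, RingHom.mem_ker.mp (f1B_mem_ker 𝒞 B),
      ← Polynomial.coeff_zero_eq_aeval_zero', Polynomial.coeff_zero_reverse, hp.leadingCoeff,
      map_one]
  · obtain ⟨m, hm⟩ := D.exists_r0_eq (D.r1 y)
    obtain ⟨x, hx⟩ := hm m le_rfl
    have h2 : (𝒞.ρ0B B (𝒞.f0B B)) ^ p.natDegree *
        𝒞.ρ1B B (Polynomial.aeval (𝒞.f1B B) p.reverse) =
        𝒞.ρ0B B (Polynomial.aeval (𝒞.f0B B) p) := by
      have h3 := Polynomial.eval₂_reverse_mul_pow (algebraMap B (𝒞.R01 B)) (𝒞.ρ0B B (𝒞.f0B B)) p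
      rw [mul_comm, ← Polynomial.aeval_algHom_apply, ← Polynomial.aeval_algHom_apply]
      exact h3
    obtain ⟨w, hw⟩ := h.exists01 (w := D.r1 (Polynomial.aeval (𝒞.f1B B) p.reverse • y))
      (n := p.natDegree + m) (x := Polynomial.aeval (𝒞.f0B B) p • x)
      (Submodule.smul_mem_smul hpJ Submodule.mem_top) (by
        rw [D.bc1.smul, D.bc0.smul, hx]
        show _ • (𝒞.ρ1B B (Polynomial.aeval (𝒞.f1B B) p.reverse)) • _ =
          (𝒞.ρ0B B (Polynomial.aeval (𝒞.f0B B) p)) • _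
        rw [← h2, smul_smul, smul_smul]
        congr 1
        ring)
    exact h.range1 _ w hw.symm

theorem Hom.IsSub.surjAt (h : ι.IsSub J) [Module.Finite B (𝒞.R0 B ⧸ J)] : ι.SurjAt := by
  obtain ⟨u, hu, h1⟩ := h.exists_u
  unfold Hom.SurjAt
  rw [eq_top_iff]
  rintro y -
  obtain ⟨x, hx⟩ := h1 y
  have h2 : y = ι.l1 x + (1 - u) • y := by
    rw [hx, sub_smul, one_smul]
    abel
  rw [h2]
  refine Submodule.add_mem_sup ⟨x, rfl⟩ (Submodule.smul_mem_smul ?_ Submodule.mem_top)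
  rw [RingHom.mem_ker, map_sub, hu, map_one, sub_self]

/-- the rigidification of a subbundle -/
theorem Hom.IsSub.isBC_comp (h : ι.IsSub J) [Module.Finite B (𝒞.R0 B ⧸ J)] {e : D.M1 →+ B}
    (he : IsBC (𝒞.εB B).toRingHom e) :
    IsBC (𝒞.εB B).toRingHom (e.comp ι.l1.toAddMonoidHom) := by
  obtain ⟨u, hu, h1⟩ := h.exists_u
  refine IsBC.of_ker (εB_surjective 𝒞 B) ?_ ?_ ?_
  · intro a m
    show e (ι.l1 (a • m)) = _
    rw [map_smul, he.smul]
    rfl
  · intro b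
    obtain ⟨y, hy⟩ := he.surjective_of_surjective (εB_surjective 𝒞 B) b
    obtain ⟨x, hx⟩ := h1 y
    refine ⟨x, ?_⟩
    show e (ι.l1 x) = b
    rw [hx, he.smul, hy]
    show 𝒞.εB B u • b = b
    rw [hu, one_smul]
  · intro x hx
    have h2 := he.mem_ker_smul (εB_surjective 𝒞 B) (m := ι.l1 x) hx
    have h3 : ∀ y ∈ (RingHom.ker (𝒞.εB B).toRingHom • ⊤ : Submodule (𝒞.R1 B) D.M1),
        ∃ z ∈ (RingHom.ker (𝒞.εB B).toRingHom • ⊤ : Submodule (𝒞.R1 B) D'.M1),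
          ι.l1 z = u • y := by
      intro y hy
      refine Submodule.smul_induction_on hy (fun r hr m _ ↦ ?_) (fun a b ha hb ↦ ?_)
      · obtain ⟨z, hz⟩ := h1 m
        exact ⟨r • z, Submodule.smul_mem_smul hr Submodule.mem_top, by
          rw [map_smul, hz, smul_comm]⟩
      · obtain ⟨z, hz, hz'⟩ := ha
        obtain ⟨w, hw, hw'⟩ := hb
        exact ⟨z + w, add_mem hz hw, by rw [map_add, hz', hw', smul_add]⟩
    obtain ⟨z, hz, hz'⟩ := h3 _ h2
    rw [← map_smul] at hz'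
    have h4 : z = u • x := h.inj1 hz'
    have h5 : x = u • x + (1 - u) • x := by
      rw [sub_smul, one_smul]
      abel
    rw [h5, ← h4]
    refine add_mem hz (Submodule.smul_mem_smul ?_ Submodule.mem_top)
    rw [RingHom.mem_ker]
    show 𝒞.εB B (1 - u) = 0
    rw [map_sub, hu, map_one, sub_self]

theorem Hom.IsSub.rig (h : ι.IsSub J) [Module.Finite B (𝒞.R0 B ⧸ J)] (hD : D.Rig (𝒞 := 𝒞)) :
    D'.Rig (𝒞 := 𝒞) := by
  obtain ⟨e, he⟩ := hD
  exact ⟨_, h.isBC_comp he⟩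

section bc

variable {B₁ : Type u} [CommRing B₁] [Algebra k B₁] {φ : B →ₐ[k] B₁}
  {D₁ D₁' : LB 𝒞.toTwoChart B₁}

lemma BC.u0_mem_map_smul (v : BC φ D D₁) {x : D.M0}
    (hx : x ∈ (J • ⊤ : Submodule (𝒞.R0 B) D.M0)) :
    v.u0 x ∈ (J.map (𝒞.bc0 φ) • ⊤ : Submodule (𝒞.R0 B₁) D₁.M0) := by
  refine Submodule.smul_induction_on hx (fun r hr m _ ↦ ?_) (fun x y hx hy ↦ ?_)
  · rw [v.bc0.smul]
    exact Submodule.smul_mem_smul (Ideal.mem_map_of_mem _ hr) Submodule.mem_top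
  · rw [map_add]
    exact add_mem hx hy

theorem Hom.IsSub.bc (h : ι.IsSub J) [Module.Finite B (𝒞.R0 B ⧸ J)] (v' : BC φ D' D₁')
    (v : BC φ D D₁) : (BC.hom ι v' v).IsSub (J.map (𝒞.bc0 φ)) := by
  refine (h.surjAt.bc v' v).isSub (le_antisymm ?_ ?_)
  · rintro _ ⟨x, rfl⟩
    induction x using v'.bc0.induction with
    | hg m =>
      rw [BC.hom_l0]
      exact v.u0_mem_map_smul (h.mem0 m)
    | h0 => rw [map_zero]; exact zero_mem _
    | hadd x y hx hy => rw [map_add]; exact add_mem hx hy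
    | hsmul b x hx => rw [map_smul]; exact Submodule.smul_mem _ _ hx
  · rw [Submodule.smul_le]
    intro r hr n _
    induction hr using Submodule.span_induction with
    | mem r hr =>
      obtain ⟨j, hj, rfl⟩ := hr
      induction n using v.bc0.induction with
      | hg m =>
        obtain ⟨x, hx⟩ := h.exists0 (Submodule.smul_mem_smul hj (Submodule.mem_top (x := m)))
        refine ⟨v'.u0 x, ?_⟩
        rw [BC.hom_l0, hx, v.bc0.smul]
      | h0 => rw [smul_zero]; exact zero_mem _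
      | hadd x y hx hy => rw [smul_add]; exact add_mem (hx trivial) (hy trivial)
      | hsmul b x hx =>
        rw [smul_comm]
        exact Submodule.smul_mem _ _ (hx trivial)
    | zero => rw [zero_smul]; exact zero_mem _
    | add r s _ _ hr hs => rw [add_smul]; exact add_mem hr hs
    | smul a r _ hr => rw [smul_assoc]; exact Submodule.smul_mem _ _ hr

end bc

end curve

section field

variable {𝒞 : CurveData k} {K : Type u} [Field K] [Algebra k K]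
  {D D' : LB 𝒞.toTwoChart K} {ι : Hom D' D} {J : Ideal (𝒞.R0 K)}

theorem Hom.IsSub.chi (h : ι.IsSub J) [Module.Finite K (𝒞.R0 K ⧸ J)] :
    D.chi = D'.chi + Module.finrank K (𝒞.R0 K ⧸ J) := by
  obtain ⟨e⟩ := exists_quotient_equiv (K := K) (M := D.M0) J
  let π : D.M0 →ₗ[K] (𝒞.R0 K ⧸ J) :=
    (e.toLinearMap.comp (J • ⊤ : Submodule (𝒞.R0 K) D.M0).mkQ).restrictScalars K
  have hπ : Function.Surjective π := e.surjective.comp (Submodule.mkQ_surjective _)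
  refine h.surjAt.chi_of π hπ fun x ↦ ?_
  have h1 : π x = e (Submodule.Quotient.mk x) := rfl
  rw [h1, e.map_eq_zero_iff, Submodule.Quotient.mk_eq_zero, ← h.range0]
  rfl

end field

end LB

end Fermat.Agent.S25
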