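import Mathlib
import Fermat.Agent.S25.ChartSub

/-!
# S25 / ALG4: chi duality; the open condition `Good`
-/

set_option autoImplicit false
set_option linter.style.haveILetI false

universe u

open scoped TensorProduct Pointwise Polynomial

noncomputable section

namespace Fermat.Agent.S25

section algebra

variable {R P : Type u} [CommRing R] [AddCommGroup P] [Module R P]

/-- an element of a finite projective module on which all functionals take values in `J`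
lies in `J P`. -/
theorem mem_smul_top_of_dual [Module.Finite R P] [Module.Projective R P] {J : Ideal R} {s : P}
    (h : ∀ F : Module.Dual R P, F s ∈ J) : s ∈ (J • ⊤ : Submodule R P) := by
  obtain ⟨n, p, i, -, -, hpi⟩ := Module.Finite.exists_comp_eq_id_of_projective R P
  have hs : ∑ j, (LinearMap.proj j).comp i s • p (Pi.single j 1) = s := by
    have h1 := congr($hpi s)
    simp only [LinearMap.comp_apply, LinearMap.id_apply] at h1
    conv_rhs => rw [← h1]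
    have h2 : i s = ∑ j, (i s j) • (Pi.single j (1 : R) : Fin n → R) := by
      ext l
      simp [Finset.sum_apply, Pi.single_apply]
    conv_rhs => rw [h2, map_sum]
    refine Finset.sum_congr rfl fun j _ ↦ ?_
    rw [map_smul]
    rfl
  rw [← hs]
  refine sum_mem fun j _ ↦ Submodule.smul_mem_smul (h _) Submodule.mem_top

theorem dual_mem_of_mem_smul_top {J : Ideal R} {s : P} (h : s ∈ (J • ⊤ : Submodule R P))
    (F : Module.Dual R P) : F s ∈ J := by
  refine Submodule.smul_induction_on h (fun r hr x _ ↦ ?_) (fun x y hx hy ↦ ?_)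
  · rw [map_smul, smul_eq_mul]
    exact J.mul_mem_right _ hr
  · rw [map_add]
    exact add_mem hx hy

/-- in an invertible module, `R s = content s • P`. -/
theorem range_toSpanSingleton_eq [Module.Invertible R P] (s : P) :
    LinearMap.range (LinearMap.toSpanSingleton R P s) = content (R := R) s • ⊤ := by
  apply le_antisymm
  · rintro _ ⟨r, rfl⟩
    rw [LinearMap.toSpanSingleton_apply]
    exact Submodule.smul_mem _ _ (mem_smul_top_of_dual fun F ↦ ⟨F, rfl⟩)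
  · rw [Submodule.smul_le]
    rintro _ ⟨F, rfl⟩ y -
    refine ⟨F y, ?_⟩
    rw [LinearMap.toSpanSingleton_apply]
    exact (inv_smul_comm F s y).symm

/-- the content of a linear form -/
theorem content_dual [Module.Finite R P] [Module.Projective R P] (s : Module.Dual R P) :
    content (R := R) s = LinearMap.range s := by
  apply le_antisymm
  · rintro _ ⟨F, rfl⟩
    obtain ⟨x, rfl⟩ := (Module.evalEquiv R P).surjective F
    exact ⟨x, rfl⟩
  · rintro _ ⟨x, rfl⟩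
    exact ⟨Module.evalEquiv R P x, rfl⟩

end algebra

namespace LB

variable {k : Type u} [Field k]

section secHom

variable {𝒞 : TwoChart k} {B : Type u} [CommRing B] [Algebra k B] {P : LB 𝒞 B}

/-- multiplication by a section, `O → P`. -/
def secHom (s : P.H0) : Hom (triv 𝒞 B) P where
  l0 := LinearMap.toSpanSingleton (𝒞.R0 B) P.M0 s.1.1
  l1 := LinearMap.toSpanSingleton (𝒞.R1 B) P.M1 s.1.2
  l01 := LinearMap.toSpanSingleton (𝒞.R01 B) P.M01 (P.r0 s.1.1)
  h0 x := P.bc0.smul x _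
  h1 x := by
    have h : P.r0 s.1.1 = P.r1 s.1.2 := H0_eq s
    refine (P.bc1.smul (x : 𝒞.R1 B) _).trans ?_
    rw [← h]
    rfl

end secHom

section curve

variable {𝒞 : CurveData k} {B : Type u} [CommRing B] [Algebra k B] {D : LB 𝒞.toTwoChart B}

lemma rig_ker {e : D.M1 →+ B} (he : IsBC (𝒞.εB B).toRingHom e) {y : D.M1} :
    e y = 0 ↔ y ∈ RingHom.ker (𝒞.εB B) • (⊤ : Submodule (𝒞.R1 B) D.M1) := by
  refine ⟨fun h ↦ he.mem_ker_smul (εB_surjective 𝒞 B) h, fun h ↦ ?_⟩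
  refine Submodule.smul_induction_on h (fun r hr x _ ↦ ?_) (fun x y hx hy ↦ ?_)
  · rw [he.smul]
    show 𝒞.εB B r • e x = 0
    rw [RingHom.mem_ker.mp hr, zero_smul]
  · rw [map_add, hx, hy, add_zero]

lemma rig_smul {e : D.M1 →+ B} (he : IsBC (𝒞.εB B).toRingHom e) (b : B) (y : D.M1) :
    e (b • y) = b * e y := by
  have h1 : e (b • y) = (𝒞.εB B).toRingHom (algebraMap B (𝒞.R1 B) b) • e y := he.smul _ _
  rw [h1]
  have : (𝒞.εB B).toRingHom (algebraMap B (𝒞.R1 B) b) = b := (𝒞.εB B).commutes b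
  rw [this, smul_eq_mul]

/-- there are many sections in `D(m)` for large `m`. -/
lemma exists_section {e : D.M1 →+ B} (he : IsBC (𝒞.εB B).toRingHom e) :
    ∃ m₀, ∀ m, m₀ ≤ m → ∃ s : (D.tw m).H0, e s.1.2 = 1 := by
  obtain ⟨y, hy⟩ := he.surjective_of_surjective (εB_surjective 𝒞 B) 1
  obtain ⟨m₀, h⟩ := D.exists_r0_eq (D.r1 y)
  refine ⟨m₀, fun m hm ↦ ?_⟩
  obtain ⟨x, hx⟩ := h m hm
  exact ⟨⟨(x, y), (D.tw m).mem_H0_iff.mpr hx⟩, hy⟩

lemma secHom_surjAt {e : D.M1 →+ B} (he : IsBC (𝒞.εB B).toRingHom e) {s : D.H0}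
    (hs : IsUnit (e s.1.2)) : (secHom s).SurjAt := by
  refine Hom.surjAt_of_unit he (x := (1 : 𝒞.R1 B)) ?_
  show IsUnit (e ((1 : 𝒞.R1 B) • s.1.2))
  rwa [one_smul]

/-- two rigidifications differ by a unit -/
lemma rig_unique {e e' : D.M1 →+ B} (he : IsBC (𝒞.εB B).toRingHom e)
    (he' : IsBC (𝒞.εB B).toRingHom e') : ∃ c : Bˣ, ∀ y, e' y = c * e y := by
  have key : ∀ {e e' : D.M1 →+ B}, IsBC (𝒞.εB B).toRingHom e → IsBC (𝒞.εB B).toRingHom e' →
      ∀ y₀, e y₀ = 1 → ∀ y, e' y = e' y₀ * e y := by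
    intro e e' he he' y₀ hy₀ y
    have h1 : e (y - e y • y₀) = 0 := by rw [map_sub, rig_smul he, hy₀, mul_one, sub_self]
    have h2 := (rig_ker he').mpr ((rig_ker he).mp h1)
    rw [map_sub, rig_smul he', sub_eq_zero] at h2
    rw [h2, mul_comm]
  obtain ⟨y, hy⟩ := he.surjective_of_surjective (εB_surjective 𝒞 B) 1
  obtain ⟨y', hy'⟩ := he'.surjective_of_surjective (εB_surjective 𝒞 B) 1
  have h1 := key he he' y hy
  have h2 := key he' he y' hy' y
  rw [hy] at h2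
  exact ⟨⟨e' y, e y', by rw [mul_comm]; exact h2.symm, h2.symm⟩, h1⟩

lemma rig_isUnit_iff {e e' : D.M1 →+ B} (he : IsBC (𝒞.εB B).toRingHom e)
    (he' : IsBC (𝒞.εB B).toRingHom e') {y : D.M1} : IsUnit (e' y) ↔ IsUnit (e y) := by
  obtain ⟨c, hc⟩ := rig_unique he he'
  rw [hc, Units.isUnit_units_mul]

lemma homOfSection_surjAt {m : ℕ} {e : D.dual.M1 →+ B} (he : IsBC (𝒞.εB B).toRingHom e)
    (hD : D.Rig (𝒞 := 𝒞)) {s : (D.dual.tw m).H0} (hs : IsUnit (e s.1.2)) :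
    (D.homOfSection m s).SurjAt := by
  obtain ⟨eD, heD⟩ := hD
  obtain ⟨e', he', hee'⟩ := exists_dual_rig heD
  obtain ⟨x, hx⟩ := heD.surjective_of_surjective (εB_surjective 𝒞 B) 1
  refine Hom.surjAt_of_unit (e := (𝒞.εB B).toRingHom.toAddMonoidHom) (IsBC.self _) (x := x) ?_
  have h1 : 𝒞.εB B (D.pair1 s.1.2 x) = e' s.1.2 * eD x := hee' s.1.2 x
  rw [hx, mul_one] at h1
  have h2 : IsUnit (e' s.1.2) := (rig_isUnit_iff he he').mpr hs
  rw [← h1] at h2
  exact h2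

/-- conversely -/
lemma isUnit_of_surjAt {m : ℕ} {e : D.dual.M1 →+ B} (he : IsBC (𝒞.εB B).toRingHom e)
    (hD : D.Rig (𝒞 := 𝒞)) {s : (D.dual.tw m).H0} (hs : (D.homOfSection m s).SurjAt) :
    IsUnit (e s.1.2) := by
  obtain ⟨eD, heD⟩ := hD
  obtain ⟨e', he', hee'⟩ := exists_dual_rig heD
  refine (rig_isUnit_iff (y := s.1.2) he he').mp ?_
  have h1 : ∀ z : ((triv 𝒞.toTwoChart B).tw m).M1, z ∈ LinearMap.range (D.homOfSection m s).l1 ⊔
      RingHom.ker (𝒞.εB B) • (⊤ : Submodule (𝒞.R1 B) ((triv 𝒞.toTwoChart B).tw m).M1) := by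
    intro z
    rw [show _ = _ from hs]
    trivial
  obtain ⟨_, ⟨x, rfl⟩, z, hz, hxz⟩ := Submodule.mem_sup.mp (h1 (1 : 𝒞.R1 B))
  have hz' : 𝒞.εB B (show 𝒞.R1 B from z) = 0 :=
    (rig_ker (D := triv 𝒞.toTwoChart B) (e := (𝒞.εB B).toRingHom.toAddMonoidHom)
      (IsBC.self _)).mpr hz
  have h2 : 𝒞.εB B (D.pair1 s.1.2 x) = e' s.1.2 * eD x := hee' s.1.2 x
  have h3 : (D.pair1 s.1.2 x : 𝒞.R1 B) + (show 𝒞.R1 B from z) = 1 := hxz
  have h4 := congrArg (𝒞.εB B) h3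
  rw [map_add, hz', add_zero, map_one, h2] at h4
  exact IsUnit.of_mul_eq_one _ h4

/-- a homomorphism to `O(m)` -/
theorem Hom.SurjAt.finite_projective_quot {m : ℕ} {σ : Hom D ((triv 𝒞.toTwoChart B).tw m)}
    (h : σ.SurjAt) {J : Ideal (𝒞.R0 B)} (hJ : LinearMap.range σ.l0 = J) :
    Module.Finite B (𝒞.R0 B ⧸ J) ∧ Module.Projective B (𝒞.R0 B ⧸ J) := by
  obtain ⟨h1, h2⟩ := h.finite_projective_coker
  let e : (((triv 𝒞.toTwoChart B).tw m).M0 ⧸ LinearMap.range σ.l0) ≃ₗ[𝒞.R0 B] (𝒞.R0 B ⧸ J) :=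
    Submodule.quotEquivOfEq _ _ hJ
  exact ⟨Module.Finite.equiv (e.restrictScalars B), Module.Projective.of_equiv (e.restrictScalars B)⟩

lemma smul_top_tw_triv {m : ℕ} (J : Ideal (𝒞.R0 B)) :
    (J • ⊤ : Submodule (𝒞.R0 B) ((triv 𝒞.toTwoChart B).tw m).M0) = J := by
  show (J • ⊤ : Submodule (𝒞.R0 B) (𝒞.R0 B)) = J
  rw [smul_eq_mul, Ideal.mul_top]

/-- the content of a section of `D^∨(m)` is the image of `D → O(m)` -/
lemma range_homOfSection {m : ℕ} (s : (D.dual.tw m).H0) :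
    LinearMap.range (D.homOfSection m s).l0 =
      content (R := 𝒞.R0 B) (P := D.dual.M0) s.1.1 :=
  (content_dual (R := 𝒞.R0 B) (P := D.M0) s.1.1).symm

/-- base change of rigidifications -/
lemma BC.exists_rig {B₁ : Type u} [CommRing B₁] [Algebra k B₁] {φ : B →ₐ[k] B₁}
    {D₁ : LB 𝒞.toTwoChart B₁} (v : BC φ D D₁) {e : D.M1 →+ B}
    (he : IsBC (𝒞.εB B).toRingHom e) : ∃ e₁ : D₁.M1 →+ B₁, IsBC (𝒞.εB B₁).toRingHom e₁ ∧
      ∀ y, e₁ (v.u1 y) = φ (e y) := by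
  have hcomm : (𝒞.εB B₁).toRingHom.comp (𝒞.bc1 φ) = φ.toRingHom.comp (𝒞.εB B).toRingHom :=
    RingHom.ext fun r ↦ εB_bc1 φ r
  have h1 : IsBC (φ.toRingHom.comp (𝒞.εB B).toRingHom)
      (φ.toRingHom.toAddMonoidHom.comp e) := he.comp (IsBC.self φ.toRingHom)
  let e₁ : D₁.M1 →+ B₁ := v.bc1.slift (𝒞.εB B₁).toRingHom (φ.toRingHom.toAddMonoidHom.comp e)
    (fun a m ↦ by
      have h2 : (𝒞.εB B₁).toRingHom (𝒞.bc1 φ a) = φ ((𝒞.εB B).toRingHom a) :=
        congr($hcomm a)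
      rw [h1.smul, h2]
      rfl)
  have h2 : ∀ y, e₁ (v.u1 y) = φ (e y) := fun y ↦ v.bc1.slift_apply ..
  refine ⟨e₁, IsBC.of_comp v.bc1 (fun b n ↦ v.bc1.slift_smul ..) ?_, h2⟩
  rw [hcomm]
  have h3 : e₁.comp v.u1 = φ.toRingHom.toAddMonoidHom.comp e := AddMonoidHom.ext h2
  rw [h3]
  exact h1

lemma Rig.bc {B₁ : Type u} [CommRing B₁] [Algebra k B₁] {φ : B →ₐ[k] B₁}
    {D₁ : LB 𝒞.toTwoChart B₁} (h : D.Rig (𝒞 := 𝒞)) (v : BC φ D D₁) : D₁.Rig (𝒞 := 𝒞) := by
  obtain ⟨e, he⟩ := h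
  obtain ⟨e₁, he₁, -⟩ := v.exists_rig he
  exact ⟨e₁, he₁⟩

lemma Rig.iso {D₁ : LB 𝒞.toTwoChart B} (h : D.Rig (𝒞 := 𝒞)) (e : Iso D D₁) :
    D₁.Rig (𝒞 := 𝒞) := h.bc ((BC.refl D).trans_iso e)

/-- `H¹(E) = 0` and the global sections generate `E` along `ε`. -/
def Good (E : LB 𝒞.toTwoChart B) : Prop :=
  Subsingleton E.H1 ∧ ∀ y : E.M1, ∃ s : E.H0,
    y - s.1.2 ∈ RingHom.ker (𝒞.εB B) • (⊤ : Submodule (𝒞.R1 B) E.M1)

/-- the complex `M0 × M1 → M01 × B` computing the cohomology of `E(-ε)` -/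
def del (E : LB 𝒞.toTwoChart B) {e : E.M1 →+ B} (he : IsBC (𝒞.εB B).toRingHom e) :
    E.M0 × E.M1 →ₗ[B] E.M01 × B :=
  E.diff.prod ({ e with map_smul' := rig_smul he } ∘ₗ LinearMap.snd B E.M0 E.M1)

lemma del_apply {E : LB 𝒞.toTwoChart B} {e : E.M1 →+ B} (he : IsBC (𝒞.εB B).toRingHom e)
    (x : E.M0 × E.M1) : E.del he x = (E.diff x, e x.2) := rfl

lemma good_iff {E : LB 𝒞.toTwoChart B} {e : E.M1 →+ B} (he : IsBC (𝒞.εB B).toRingHom e) :
    E.Good (𝒞 := 𝒞) ↔ Function.Surjective (E.del he) := by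
  constructor
  · rintro ⟨h1, h2⟩ ⟨w, b⟩
    have hs : Function.Surjective E.diff :=
      LinearMap.range_eq_top.mp (Submodule.Quotient.subsingleton_iff.mp h1)
    obtain ⟨x, hx⟩ := hs w
    obtain ⟨y, hy⟩ := he.surjective_of_surjective (εB_surjective 𝒞 B) (b - e x.2)
    obtain ⟨s, hs⟩ := h2 y
    refine ⟨x + s.1, ?_⟩
    rw [del_apply, map_add, LinearMap.mem_ker.mp s.2, add_zero, hx, Prod.snd_add, map_add]
    have h3 := (rig_ker he).mpr hs
    rw [map_sub, sub_eq_zero] at h3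
    rw [← h3, hy]
    congr 1
    abel
  · intro h
    constructor
    · rw [Submodule.Quotient.subsingleton_iff, LinearMap.range_eq_top]
      intro w
      obtain ⟨x, hx⟩ := h (w, 0)
      exact ⟨x, congrArg Prod.fst hx⟩
    · intro y
      obtain ⟨x, hx⟩ := h (0, e y)
      refine ⟨⟨x, congrArg Prod.fst hx⟩, ?_⟩
      refine (rig_ker he).mp ?_
      rw [map_sub, sub_eq_zero]
      exact (congrArg Prod.snd hx).symm

lemma finite_coker_del {E : LB 𝒞.toTwoChart B} {e : E.M1 →+ B}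
    (he : IsBC (𝒞.εB B).toRingHom e) :
    Module.Finite B ((E.M01 × B) ⧸ LinearMap.range (E.del he)) := by
  let C := (E.M01 × B) ⧸ LinearMap.range (E.del he)
  let q := (LinearMap.range (E.del he)).mkQ
  let i : B →ₗ[B] C := q ∘ₗ LinearMap.inr B E.M01 B
  haveI : Module.Finite B (LinearMap.range i) := inferInstance
  have h1 : LinearMap.range E.diff ≤
      LinearMap.ker ((LinearMap.range i).mkQ ∘ₗ q ∘ₗ LinearMap.inl B E.M01 B) := by
    rintro _ ⟨x, rfl⟩
    rw [LinearMap.mem_ker, LinearMap.comp_apply, Submodule.mkQ_apply,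
      Submodule.Quotient.mk_eq_zero]
    refine ⟨- e x.2, ?_⟩
    show q (0, - e x.2) = q (E.diff x, 0)
    rw [← sub_eq_zero, ← map_sub]
    refine (Submodule.Quotient.mk_eq_zero _).mpr ⟨-x, ?_⟩
    rw [map_neg, del_apply]
    ext
    · simp
    · simp
  let f := (LinearMap.range E.diff).liftQ _ h1
  have hf : Function.Surjective f := by
    intro c
    obtain ⟨c, rfl⟩ := Submodule.Quotient.mk_surjective _ c
    obtain ⟨⟨w, b⟩, rfl⟩ := Submodule.Quotient.mk_surjective _ c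
    refine ⟨Submodule.Quotient.mk w, ?_⟩
    show (Submodule.Quotient.mk (q (w, 0)) : C ⧸ LinearMap.range i) = Submodule.Quotient.mk (q (w, b))
    rw [Submodule.Quotient.eq, ← map_sub]
    exact ⟨-b, by simp [i]⟩
  haveI : Module.Finite B (C ⧸ LinearMap.range i) := Module.Finite.of_surjective f hf
  exact Module.Finite.of_submodule_quotient (LinearMap.range i)

/-- the locus where `E` is good is open. -/
theorem exists_open_good {E : LB 𝒞.toTwoChart B} (hE : E.Rig (𝒞 := 𝒞)) :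
    ∃ W : TopologicalSpace.Opens (PrimeSpectrum B),
      ∀ (B' : Type u) [CommRing B'] [Algebra k B'] (φ : B →ₐ[k] B') (E' : LB 𝒞.toTwoChart B')
        (_ : BC φ E E'), E'.Good (𝒞 := 𝒞) ↔
          Set.range (PrimeSpectrum.comap φ.toRingHom) ⊆ (W : Set (PrimeSpectrum B)) := by
  obtain ⟨e, he⟩ := hE
  haveI := finite_coker_del he
  refine ⟨⟨(Module.support B ((E.M01 × B) ⧸ LinearMap.range (E.del he)))ᶜ,
    (Module.isClosed_support).isOpen_compl⟩, fun B' _ _ φ E' v ↦ ?_⟩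
  obtain ⟨e', he', hee'⟩ := v.exists_rig he
  rw [good_iff he']
  have hc : ∀ x, E'.del he' ((v.u0.prodMap v.u1) x) =
      (v.u01.prodMap φ.toRingHom.toAddMonoidHom) (E.del he x) := by
    intro x
    rw [del_apply, del_apply]
    ext
    · exact v.diff_comm x
    · exact hee' x.2
  let l : (E.M01 × B) →ₛₗ[φ.toRingHom] (E'.M01 × B') :=
    { (v.u01.prodMap φ.toRingHom.toAddMonoidHom) with
      map_smul' := (v.isBC_u01.prod (IsBC.self φ.toRingHom)).smul }
  let g : ((E.M01 × B) ⧸ LinearMap.range (E.del he)) →+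
      ((E'.M01 × B') ⧸ LinearMap.range (E'.del he')) :=
    (Submodule.mapQ (LinearMap.range (E.del he)) (LinearMap.range (E'.del he')) l (by
      rintro _ ⟨x, rfl⟩
      exact ⟨_, hc x⟩)).toAddMonoidHom
  have hg : IsBC φ.toRingHom g :=
    (v.isBC_u0.prod v.isBC_u1).coker (v.isBC_u01.prod (IsBC.self φ.toRingHom)) (E'.del he') hc
      (fun _ ↦ rfl)
  rw [← LinearMap.range_eq_top, ← Submodule.Quotient.subsingleton_iff,
    hg.subsingleton_iff_notMem_support]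
  constructor
  · rintro hq _ ⟨q, rfl⟩
    exact hq q
  · intro hq q
    exact hq ⟨q, rfl⟩

lemma Good.bc {E : LB 𝒞.toTwoChart B} (h : E.Good (𝒞 := 𝒞)) (hE : E.Rig (𝒞 := 𝒞))
    {B' : Type u} [CommRing B'] [Algebra k B'] {φ : B →ₐ[k] B'} {E' : LB 𝒞.toTwoChart B'}
    (v : BC φ E E') : E'.Good (𝒞 := 𝒞) := by
  obtain ⟨W, hW⟩ := exists_open_good hE
  rw [hW B' φ E' v]
  have h1 := (hW B (AlgHom.id k B) E (BC.refl E)).mp h
  rintro _ ⟨q, rfl⟩
  exact h1 ⟨PrimeSpectrum.comap φ.toRingHom q, rfl⟩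

end curve

section field

variable {𝒞 : CurveData k} {K : Type u} [Field K] [Algebra k K] (D : LB 𝒞.toTwoChart K)

/-- over a field all line bundles are rigidified -/
lemma rig_field : D.Rig (𝒞 := 𝒞) := by
  let eK : (𝒞.R1 K ⧸ RingHom.ker (𝒞.εB K)) ≃ₐ[K] K :=
    Ideal.quotientKerAlgEquivOfSurjective (εB_surjective 𝒞 K)
  haveI : Module.Finite K (𝒞.R1 K ⧸ RingHom.ker (𝒞.εB K)) :=
    Module.Finite.equiv eK.symm.toLinearEquiv
  obtain ⟨f⟩ := exists_quotient_equiv (K := K) (M := D.M1) (RingHom.ker (𝒞.εB K))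
  let e : D.M1 →+ K := eK.toLinearMap.toAddMonoidHom.comp
    (f.toLinearMap.toAddMonoidHom.comp
      (RingHom.ker (𝒞.εB K) • ⊤ : Submodule (𝒞.R1 K) D.M1).mkQ.toAddMonoidHom)
  have he : ∀ x, e x = eK (f (Submodule.Quotient.mk x)) := fun _ ↦ rfl
  refine ⟨e, IsBC.of_ker (εB_surjective 𝒞 K) ?_ ?_ ?_⟩
  · intro a m
    rw [he, he, Submodule.Quotient.mk_smul, map_smul, Algebra.smul_def, map_mul]
    rfl
  · exact eK.surjective.comp (f.surjective.comp (Submodule.mkQ_surjective _))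
  · intro m hm
    rw [he, EmbeddingLike.map_eq_zero_iff, EmbeddingLike.map_eq_zero_iff,
      Submodule.Quotient.mk_eq_zero] at hm
    exact hm

theorem chi_dual : D.dual.chi = 2 * (triv 𝒞.toTwoChart K).chi - D.chi := by
  obtain ⟨e, he⟩ := rig_field D.dual
  obtain ⟨m, hm⟩ := exists_section he
  obtain ⟨s, hs⟩ := hm m le_rfl
  have hu : IsUnit (e s.1.2) := by rw [hs]; exact isUnit_one
  have h1 := homOfSection_surjAt he (rig_field D) hu
  have h2 : (secHom s).SurjAt := secHom_surjAt (D := D.dual.tw m) he hu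
  -- the ideal
  let J : Ideal (𝒞.R0 K) := content (R := 𝒞.R0 K) (P := D.dual.M0) s.1.1
  have hr1 : LinearMap.range (D.homOfSection m s).l0 = J • ⊤ := by
    rw [smul_top_tw_triv, range_homOfSection]
  have hr2 : LinearMap.range (secHom s).l0 = J • ⊤ :=
    range_toSpanSingleton_eq (R := 𝒞.R0 K) (P := D.dual.M0) s.1.1
  haveI : Module.Finite K (𝒞.R0 K ⧸ J) := (h1.finite_projective_quot (range_homOfSection s)).1
  have e1 := (h1.isSub hr1).chi
  have e2 := (h2.isSub hr2).chi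
  rw [chi_tw] at e1 e2
  omega

end field

end LB

end Fermat.Agent.S25
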