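import Mathlib
import Fermat.Agent.S25.ChartGood

/-!
# S25 / ALG4: the ideal attached to a good line bundle
-/

set_option autoImplicit false
set_option linter.style.haveILetI false

universe u

open scoped TensorProduct Pointwise Polynomial

noncomputable section

namespace Fermat.Agent.S25

section content

variable {R P N : Type u} [CommRing R] [AddCommGroup P] [Module R P] [AddCommGroup N] [Module R N]

lemma content_equiv (e : N ≃ₗ[R] P) (x : N) : content (R := R) (e x) = content (R := R) x := by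
  apply le_antisymm
  · rintro _ ⟨F, rfl⟩
    exact ⟨F.comp e.toLinearMap, rfl⟩
  · rintro _ ⟨F, rfl⟩
    refine ⟨F.comp e.symm.toLinearMap, ?_⟩
    show F (e.symm (e x)) = F x
    rw [e.symm_apply_apply]

lemma content_of_range {J : Ideal R} [Module.Finite R N] [Module.Projective R N] {i : N →ₗ[R] P}
    (hi : Function.Injective i) (hr : LinearMap.range i = J • ⊤) (x : N) :
    content (R := R) (i x) = content (R := R) x * J := by
  let e : N ≃ₗ[R] (J • ⊤ : Submodule R P) :=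
    (LinearEquiv.ofInjective i hi).trans (LinearEquiv.ofEq _ _ hr)
  haveI : Module.Finite R (J • ⊤ : Submodule R P) := Module.Finite.equiv e
  haveI : Module.Projective R (J • ⊤ : Submodule R P) := Module.Projective.of_equiv e
  have h1 : ((e x : (J • ⊤ : Submodule R P)) : P) = i x := rfl
  rw [← h1, content_mul, content_equiv]

lemma content_units_smul (c : Rˣ) (x : P) : content (R := R) (c • x) = content (R := R) x := by
  apply le_antisymm
  · rintro _ ⟨F, rfl⟩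
    refine ⟨(c : R) • F, ?_⟩
    show (c : R) • F x = F (c • x)
    rw [Units.smul_def, map_smul]
  · rintro _ ⟨F, rfl⟩
    refine ⟨((c⁻¹ : Rˣ) : R) • F, ?_⟩
    show ((c⁻¹ : Rˣ) : R) • F (c • x) = F x
    rw [Units.smul_def, map_smul, smul_smul, Units.inv_mul, one_smul]

end content

namespace LB

variable {k : Type u} [Field k]

section exB

variable {𝒞 : TwoChart k} (𝔢 𝔣 : Ideal (𝒞.R0 k)) (B : Type u) [CommRing B] [Algebra k B]

/-- base change of an ideal of `R0 k` -/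
def exB : Ideal (𝒞.R0 B) := 𝔢.map (𝒞.bc0 (Algebra.ofId k B))

variable {B} in
lemma exB_map {B' : Type u} [CommRing B'] [Algebra k B'] (φ : B →ₐ[k] B') :
    (exB 𝔢 B).map (𝒞.bc0 φ) = exB 𝔢 B' := by
  have h1 : (𝒞.bc0 φ).comp (𝒞.bc0 (Algebra.ofId k B)) = 𝒞.bc0 (Algebra.ofId k B') := by
    rw [TwoChart.bc0_comp (𝒞 := 𝒞) (Algebra.ofId k B) φ]
    congr 1
    exact Subsingleton.elim _ _
  rw [exB, exB, Ideal.map_map, h1]

lemma exB_mul : exB (𝔢 * 𝔣) B = exB 𝔢 B * exB 𝔣 B := Ideal.map_mul _ _ _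

lemma exB_top : exB (⊤ : Ideal (𝒞.R0 k)) B = ⊤ := Ideal.map_top _

instance finite_exB [Module.Finite k (𝒞.R0 k ⧸ 𝔢)] : Module.Finite B (𝒞.R0 B ⧸ exB 𝔢 B) :=
  𝒞.finite_map0 (Algebra.ofId k B) 𝔢

instance projective_exB : Module.Projective B (𝒞.R0 B ⧸ exB 𝔢 B) :=
  𝒞.projective_map0 (Algebra.ofId k B) 𝔢

lemma finrank_exB (K : Type u) [Field K] [Algebra k K] :
    Module.finrank K (𝒞.R0 K ⧸ exB 𝔢 K) = Module.finrank k (𝒞.R0 k ⧸ 𝔢) :=
  (𝒞.isBC_quotB0 (Algebra.ofId k K) 𝔢).finrank_eq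

end exB

section ev

variable {𝒞 : CurveData k} {B : Type u} [CommRing B] [Algebra k B] {D E : LB 𝒞.toTwoChart B}

/-- all fibres have Euler characteristic `c` -/
def FibChi (E : LB 𝒞.toTwoChart B) (c : ℤ) : Prop :=
  ∀ (K : Type u) [Field K] [Algebra k K] (φ : B →ₐ[k] K) (E' : LB 𝒞.toTwoChart K), BC φ E E' →
    E'.chi = c

lemma H0_finrank_of_good {K : Type u} [Field K] [Algebra k K] {E : LB 𝒞.toTwoChart K}
    (hE : E.Good (𝒞 := 𝒞)) (hchi : E.chi = 1) : Module.finrank K E.H0 = 1 := by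
  haveI := hE.1
  have h1 : Module.finrank K E.H1 = 0 := Module.finrank_zero_of_subsingleton
  rw [LB.chi, h1] at hchi
  omega

theorem ev_injective (hE : E.Good (𝒞 := 𝒞)) (hchi : E.FibChi (𝒞 := 𝒞) 1) {e : E.M1 →+ B}
    (he : IsBC (𝒞.εB B).toRingHom e) {s s' : E.H0} (h : e s.1.2 = e s'.1.2) : s = s' := by
  let f : E.H0 →ₗ[B] B :=
    { toFun := fun s ↦ e s.1.2
      map_add' := fun s s' ↦ by
        rw [← map_add]; rfl
      map_smul' := fun b s ↦ rig_smul he b s.1.2 }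
  haveI := E.projective_H0 hE.1
  haveI := E.finite_H0 hE.1
  obtain ⟨g, hg⟩ := exists_leftInverse_of_fibInj f (fun m hm ↦ by
    let _ : Field (B ⧸ m) := Ideal.Quotient.field m
    let φ : B →ₐ[k] B ⧸ m := Ideal.Quotient.mkₐ k m
    let v := bcBaseChange φ E
    obtain ⟨e', he', hee'⟩ := v.exists_rig he
    have hg' : (E.baseChange φ).Good (𝒞 := 𝒞) := hE.bc ⟨e, he⟩ v
    have hdim := H0_finrank_of_good hg' (hchi _ φ _ v)
    let f' : (E.baseChange φ).H0 →ₗ[B ⧸ m] (B ⧸ m) :=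
      { toFun := fun s ↦ e' s.1.2
        map_add' := fun s s' ↦ by
          rw [← map_add]; rfl
        map_smul' := fun b s ↦ rig_smul he' b s.1.2 }
    have hsurj : Function.Surjective f' := by
      intro b
      obtain ⟨x, hx⟩ := (good_iff he').mp hg' (0, b)
      exact ⟨⟨x, congrArg Prod.fst hx⟩, congrArg Prod.snd hx⟩
    refine ⟨_, _, _, _, _, _, v.mapH0, (Ideal.Quotient.mk m).toAddMonoidHom, f',
      v.isBC_mapH0 hE.1, IsBC.self _, fun x ↦ hee' x.1.2, ?_⟩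
    refine (LinearMap.injective_iff_surjective_of_finrank_eq_finrank ?_).mpr hsurj
    rw [hdim, Module.finrank_self])
  have h1 : g (f s) = s := congr($hg s)
  have h2 : g (f s') = s' := congr($hg s')
  rw [← h1, ← h2]
  exact congrArg g h

lemma exists_ev (hE : E.Good (𝒞 := 𝒞)) {e : E.M1 →+ B} (he : IsBC (𝒞.εB B).toRingHom e) (b : B) :
    ∃ s : E.H0, e s.1.2 = b := by
  obtain ⟨x, hx⟩ := (good_iff he).mp hE (0, b)
  exact ⟨⟨x, congrArg Prod.fst hx⟩, congrArg Prod.snd hx⟩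

end ev

section ideal

variable {𝒞 : CurveData k} {B : Type u} [CommRing B] [Algebra k B] {D E : LB 𝒞.toTwoChart B}
  {m : ℕ} {J : Ideal (𝒞.R0 B)} {ι : Hom E (D.dual.tw m)}

/-- **existence of the ideal** -/
theorem exists_ideal [Module.Finite B (𝒞.R0 B ⧸ J)] (hD : D.Rig (𝒞 := 𝒞)) (hι : ι.IsSub J) (hE : E.Good (𝒞 := 𝒞)) :
    ∃ (I : Ideal (𝒞.R0 B)) (σ : Hom D ((triv 𝒞.toTwoChart B).tw m)),
      Module.Finite B (𝒞.R0 B ⧸ I) ∧ Module.Projective B (𝒞.R0 B ⧸ I) ∧ σ.SurjAt ∧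
      LinearMap.range σ.l0 = (I * J : Ideal (𝒞.R0 B)) := by
  obtain ⟨e, he⟩ := hD.dual
  have heE := hι.isBC_comp (D := D.dual.tw m) he
  obtain ⟨t, ht⟩ := exists_ev hE heE 1
  let s : (D.dual.tw m).H0 := ι.mapH0 t
  have hs : e s.1.2 = 1 := ht
  have hσ := homOfSection_surjAt (m := m) he hD (s := s) (by rw [hs]; exact isUnit_one)
  let τ := E.evalHom t
  have hτ : τ.SurjAt := evalHom_surjAt heE (by rw [ht]; exact isUnit_one)
  let I : Ideal (𝒞.R0 B) := content (R := 𝒞.R0 B) (P := E.M0) t.1.1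
  have hfp : Module.Finite B (𝒞.R0 B ⧸ I) ∧ Module.Projective B (𝒞.R0 B ⧸ I) := by
    obtain ⟨h1, h2⟩ := hτ.finite_projective_coker
    let e : ((triv 𝒞.toTwoChart B).M0 ⧸ LinearMap.range τ.l0) ≃ₗ[𝒞.R0 B] (𝒞.R0 B ⧸ I) :=
      Submodule.quotEquivOfEq _ _ rfl
    exact ⟨Module.Finite.equiv (e.restrictScalars B),
      Module.Projective.of_equiv (e.restrictScalars B)⟩
  refine ⟨I, D.homOfSection m s, hfp.1, hfp.2, hσ, ?_⟩
  rw [range_homOfSection]
  exact content_of_range (R := 𝒞.R0 B) (N := E.M0) (P := D.dual.M0) hι.inj0 hι.range0 t.1.1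

variable (𝒞 B) in
/-- the section `1` of `O` -/
def oneSec : (triv 𝒞.toTwoChart B).H0 :=
  ⟨((1 : 𝒞.R0 B), (1 : 𝒞.R1 B)), (mem_H0_iff _).mpr ((map_one (𝒞.ρ0B B)).trans
    (map_one (𝒞.ρ1B B)).symm)⟩

/-- the section of `E` corresponding to a homomorphism with image in `J` -/
theorem exists_lift_section (hι : ι.IsSub J) {σ : Hom D ((triv 𝒞.toTwoChart B).tw m)}
    (hσ : ∀ x, (σ.l0 x : 𝒞.R0 B) ∈ J) : ∃ t : E.H0, ι.mapH0 t = D.sectionOfHom m σ := by
  let s := D.sectionOfHom m σ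
  have h1 : s.1.1 ∈ (J • ⊤ : Submodule (𝒞.R0 B) D.dual.M0) := by
    refine mem_smul_top_of_dual (R := 𝒞.R0 B) (P := D.dual.M0) fun F ↦ ?_
    obtain ⟨x, rfl⟩ := (Module.evalEquiv (𝒞.R0 B) D.M0).surjective F
    exact hσ x
  have h2 : ∀ x, (secHom s).l0 x ∈ (J • ⊤ : Submodule (𝒞.R0 B) (D.dual.tw m).M0) :=
    fun x ↦ Submodule.smul_mem (J • ⊤ : Submodule (𝒞.R0 B) D.dual.M0) (show 𝒞.R0 B from x) h1
  let g := hι.lift (secHom s) h2
  refine ⟨g.mapH0 (oneSec 𝒞 B), ?_⟩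
  apply Subtype.ext
  apply Prod.ext
  · refine (hι.lift_l0 _ h2 _).trans ?_
    exact one_smul (𝒞.R0 B) s.1.1
  · refine (hι.lift_l1 _ h2 _).trans ?_
    exact one_smul (𝒞.R1 B) s.1.2

lemma exists_lift_unit [Module.Finite B (𝒞.R0 B ⧸ J)] [Module.Projective B (𝒞.R0 B ⧸ J)]
    (hD : D.Rig (𝒞 := 𝒞)) {e : D.dual.M1 →+ B} (he : IsBC (𝒞.εB B).toRingHom e)
    (hι : ι.IsSub J) {I : Ideal (𝒞.R0 B)} {σ : Hom D ((triv 𝒞.toTwoChart B).tw m)}
    (hσ : σ.SurjAt) (hI : LinearMap.range σ.l0 = (I * J : Ideal (𝒞.R0 B))) :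
    ∃ t : E.H0, IsUnit (e (ι.l1 t.1.2)) ∧ content (R := 𝒞.R0 B) (P := E.M0) t.1.1 = I := by
  haveI := 𝒞.invertible_ideal0 J
  have hle : (I * J : Ideal (𝒞.R0 B)) ≤ J := Ideal.mul_le_right
  have hσJ : ∀ x, (σ.l0 x : 𝒞.R0 B) ∈ J := fun x ↦ by
    have h1 : σ.l0 x ∈ LinearMap.range σ.l0 := LinearMap.mem_range_self σ.l0 x
    rw [hI] at h1
    exact hle h1
  obtain ⟨t, ht⟩ := exists_lift_section hι (σ := σ) hσJ
  refine ⟨t, ?_, ideal_cancel (J := J) ?_⟩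
  · have h1 : σ = D.homOfSection m (D.sectionOfHom m σ) :=
      ((D.sectionEquiv m).apply_symm_apply σ).symm
    rw [h1] at hσ
    have h2 := isUnit_of_surjAt he hD hσ
    rw [← ht] at h2
    exact h2
  · rw [← hI]
    have h1 := content_of_range (R := 𝒞.R0 B) (N := E.M0) (P := D.dual.M0) hι.inj0 hι.range0
      t.1.1
    rw [← h1]
    have h2 : ι.l0 t.1.1 = (D.sectionOfHom m σ).1.1 :=
      congrArg (fun z : (D.dual.tw m).H0 ↦ z.1.1) ht
    have h3 := range_homOfSection (D.sectionOfHom m σ)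
    rw [← h2] at h3
    exact h3.symm

/-- **uniqueness of the ideal** -/
theorem ideal_unique [Module.Finite B (𝒞.R0 B ⧸ J)] [Module.Projective B (𝒞.R0 B ⧸ J)]
    (hD : D.Rig (𝒞 := 𝒞)) (hι : ι.IsSub J) (hE : E.Good (𝒞 := 𝒞))
    (hchi : E.FibChi (𝒞 := 𝒞) 1) {I I' : Ideal (𝒞.R0 B)}
    {σ σ' : Hom D ((triv 𝒞.toTwoChart B).tw m)} (hσ : σ.SurjAt)
    (hI : LinearMap.range σ.l0 = (I * J : Ideal (𝒞.R0 B))) (hσ' : σ'.SurjAt)
    (hI' : LinearMap.range σ'.l0 = (I' * J : Ideal (𝒞.R0 B))) : I = I' := by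
  obtain ⟨e, he⟩ := hD.dual
  have heE := hι.isBC_comp (D := D.dual.tw m) he
  obtain ⟨t, ⟨c, hc1⟩, hc⟩ := exists_lift_unit hD he hι hσ hI
  obtain ⟨t', ⟨c', hc1'⟩, hc'⟩ := exists_lift_unit hD he hι hσ' hI'
  have h1 : t' = ((c' * c⁻¹ : Bˣ) : B) • t := by
    refine ev_injective hE hchi heE ?_
    have h3 : (e.comp ι.l1.toAddMonoidHom) (((c' * c⁻¹ : Bˣ) : B) • t.1.2) =
        ((c' * c⁻¹ : Bˣ) : B) * (e.comp ι.l1.toAddMonoidHom) t.1.2 := rig_smul heE _ _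
    refine Eq.trans ?_ h3.symm
    show e (ι.l1 t'.1.2) = ((c' * c⁻¹ : Bˣ) : B) * e (ι.l1 t.1.2)
    rw [← hc1, ← hc1', ← Units.val_mul, inv_mul_cancel_right]
  have h2 : t'.1.1 = (Units.map (algebraMap B (𝒞.R0 B)).toMonoidHom (c' * c⁻¹)) • t.1.1 := by
    rw [h1]; rfl
  rw [← hc, ← hc', h2, content_units_smul]

end ideal

end LB

end Fermat.Agent.S25
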