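import Mathlib
import Fermat.Agent.S25.AlgBC
import Fermat.Agent.S25.Invert

/-!
# S25, package ALG3 (3), general algebra: submodules `I • ⊤` of invertible modules

`I * I' = (a)` with `a` regular.
-/

set_option autoImplicit false

universe u

open scoped TensorProduct

noncomputable section

namespace Fermat.Agent.S25.Cut

section General

variable {R : Type u} [CommRing R]

/-- division by a regular element -/
lemma exists_div {M : Type u} [AddCommGroup M] [Module R M] (N : Submodule R M) (a b : R)
    (ha : ∀ x : M, a • x = 0 → x = 0) (h : ∀ x ∈ N, ∃ y : M, a • y = b • x) :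
    ∃ δ : N →ₗ[R] M, ∀ x : N, a • δ x = b • (x : M) := by
  have h' : ∀ x : N, ∃ y : M, a • y = b • (x : M) := fun x ↦ h x x.2
  choose f hf using h'
  have hinj : ∀ x y : M, a • x = a • y → x = y := fun x y hxy ↦ by
    have := ha (x - y) (by rw [smul_sub, hxy, sub_self])
    exact sub_eq_zero.mp this
  refine ⟨{ toFun := f, map_add' := fun x y ↦ ?_, map_smul' := fun r x ↦ ?_ }, hf⟩
  · apply hinj
    rw [smul_add, hf, hf, hf, Submodule.coe_add, smul_add]
  · apply hinj
    rw [RingHom.id_apply, smul_comm a r, hf, hf, Submodule.coe_smul, smul_comm b r]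

lemma exists_of_mem_mul {I I' : Ideal R} {a : R} (h : I * I' = Ideal.span {a}) {b : R}
    (hb : b ∈ I') {x : R} (hx : x ∈ I) : ∃ c, a * c = b * x := by
  have h1 : x * b ∈ Ideal.span {a} := h ▸ Ideal.mul_mem_mul hx hb
  obtain ⟨c, hc⟩ := Ideal.mem_span_singleton'.mp h1
  exact ⟨c, by rw [mul_comm a, hc, mul_comm]⟩

lemma exists_of_mem_smul {I I' : Ideal R} {a : R} (h : I * I' = Ideal.span {a})
    {M : Type u} [AddCommGroup M] [Module R M] {b : R} (hb : b ∈ I') {x : M}
    (hx : x ∈ (I • ⊤ : Submodule R M)) : ∃ y : M, a • y = b • x := by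
  induction hx using Submodule.smul_induction_on' with
  | smul r hr n hn =>
    obtain ⟨c, hc⟩ := exists_of_mem_mul h hb hr
    exact ⟨c • n, by rw [smul_smul, hc, smul_smul]⟩
  | add x _ y _ hx hy =>
    obtain ⟨x', hx'⟩ := hx
    obtain ⟨y', hy'⟩ := hy
    exact ⟨x' + y', by rw [smul_add, smul_add, hx', hy']⟩

lemma regular_of_nzd {M : Type u} [AddCommGroup M] [Module R M] [Module.Flat R M] {a : R}
    (ha : a ∈ nonZeroDivisors R) (x : M) (hx : a • x = 0) : x = 0 :=
  (Module.Flat.isSMulRegular_of_nonZeroDivisors (M := M) ha) (by simpa using hx)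

lemma mem_left_of_mul_eq {I I' : Ideal R} {a : R} (h : I * I' = Ideal.span {a}) : a ∈ I := by
  have h1 : a ∈ I * I' := by rw [h]; exact Ideal.mem_span_singleton_self a
  exact Ideal.mul_le_left (I := I) (J := I') h1

lemma mem_right_of_mul_eq {I I' : Ideal R} {a : R} (h : I * I' = Ideal.span {a}) : a ∈ I' := by
  have h1 : a ∈ I * I' := by rw [h]; exact Ideal.mem_span_singleton_self a
  exact Ideal.mul_le_right (I := I) (J := I') h1

/-- ideals dividing a principal ideal generated by a nonzerodivisor are invertible modules -/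
lemma invertible_of_mul_eq {I I' : Ideal R} {a : R} (ha : a ∈ nonZeroDivisors R)
    (h : I * I' = Ideal.span {a}) : Module.Invertible R I := by
  apply Invert.invertible_of_range
  have ha0 : ∀ x : R, a • x = 0 → x = 0 := fun x hx ↦
    (mem_nonZeroDivisors_iff.mp ha).1 x (by simpa using hx)
  have key : ∀ z ∈ I * I', ∃ r ∈ LinearMap.range (contractLeft R I), a * r = z := by
    intro z hz
    induction hz using Submodule.mul_induction_on' with
    | mem_mul_mem i hi b hb =>
      obtain ⟨ψ, hψ⟩ := exists_div I a b ha0 (fun x hx ↦ by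
        obtain ⟨c, hc⟩ := exists_of_mem_mul h hb hx
        exact ⟨c, by simpa using hc⟩)
      refine ⟨ψ ⟨i, hi⟩, ⟨ψ ⊗ₜ ⟨i, hi⟩, contractLeft_apply _ _⟩, ?_⟩
      have := hψ ⟨i, hi⟩
      simp only [smul_eq_mul] at this
      rw [this, mul_comm]
    | add x _ y _ hx hy =>
      obtain ⟨r, hr, hr'⟩ := hx
      obtain ⟨s, hs, hs'⟩ := hy
      exact ⟨r + s, add_mem hr hs, by rw [mul_add, hr', hs']⟩
  obtain ⟨r, hr, hr'⟩ := key a (h ▸ Ideal.mem_span_singleton_self a)
  have hr1 : r = 1 := by
    have : (r - 1) = 0 := ha0 _ (by rw [smul_eq_mul, mul_sub, hr', mul_one, sub_self])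
    exact sub_eq_zero.mp this
  rw [hr1] at hr
  rw [Submodule.eq_top_iff']
  intro x
  have := (LinearMap.range (contractLeft R I)).smul_mem x hr
  simpa using this

/-- `I ⊗ M ≃ I • M` -/
lemma invertible_smul_top {I : Ideal R} [hI : Module.Invertible R I]
    (M : Type u) [AddCommGroup M] [Module R M] [Module.Invertible R M] :
    Module.Invertible R (I • ⊤ : Submodule R M) := by
  let f : I ⊗[R] M →ₗ[R] M := TensorProduct.lift ((LinearMap.lsmul R M).comp I.subtype)
  have hf : Function.Injective f := by
    have h1 : f = (TensorProduct.lid R M).toLinearMap ∘ₗ I.subtype.rTensor M := by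
      ext x y
      simp [f]
    rw [h1]
    have h2 : Function.Injective (I.subtype.rTensor M) :=
      Module.Flat.rTensor_preserves_injective_linearMap _ I.subtype_injective
    exact (TensorProduct.lid R M).injective.comp h2
  have hr : LinearMap.range f = (I • ⊤ : Submodule R M) := by
    apply le_antisymm
    · rintro _ ⟨x, rfl⟩
      induction x using TensorProduct.induction_on with
      | zero => simp
      | tmul x y =>
        simp only [f, TensorProduct.lift.tmul]
        exact Submodule.smul_mem_smul x.2 trivial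
      | add x y hx hy => rw [map_add]; exact add_mem hx hy
    · rw [Submodule.smul_le]
      intro r hr n _
      exact ⟨⟨r, hr⟩ ⊗ₜ n, by simp [f]⟩
  have e : (I ⊗[R] M) ≃ₗ[R] (I • ⊤ : Submodule R M) :=
    (LinearEquiv.ofInjective f hf).trans (LinearEquiv.ofEq _ _ hr)
  exact Module.Invertible.congr e

end General

section BC

variable {R R' M M' : Type u} [CommRing R] [CommRing R'] [AddCommGroup M] [AddCommGroup M']
  [Module R M] [Module R' M'] {φ : R →+* R'} {g : M →+ M'}

lemma map_mem_smul (hg : ∀ (a : R) (m : M), g (a • m) = φ a • g m) {I : Ideal R} {x : M}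
    (hx : x ∈ (I • ⊤ : Submodule R M)) : g x ∈ (I.map φ • ⊤ : Submodule R' M') := by
  induction hx using Submodule.smul_induction_on' with
  | smul r hr n hn =>
    rw [hg]
    exact Submodule.smul_mem_smul (Ideal.mem_map_of_mem _ hr) trivial
  | add x _ y _ hx hy => rw [map_add]; exact add_mem hx hy

lemma span_image_smul (hg : IsBC φ g) (I : Ideal R) :
    Submodule.span R' (g '' (I • ⊤ : Submodule R M)) = (I.map φ • ⊤ : Submodule R' M') := by
  apply le_antisymm
  · rw [Submodule.span_le]
    rintro _ ⟨x, hx, rfl⟩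
    exact map_mem_smul hg.smul hx
  · rw [Submodule.smul_le]
    intro r hr n hn0
    clear hn0
    have hn : n ∈ Submodule.span R' (Set.range g) := by rw [hg.span]; trivial
    induction hn using Submodule.span_induction with
    | zero => simp
    | add x y _ _ hx hy => rw [smul_add]; exact add_mem hx hy
    | smul s x _ hx => rw [smul_comm]; exact Submodule.smul_mem _ _ hx
    | mem x hx =>
      obtain ⟨m, rfl⟩ := hx
      induction hr using Submodule.span_induction with
      | zero => simp
      | add x y _ _ hx hy => rw [add_smul]; exact add_mem hx hy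
      | smul s x _ hx => rw [smul_assoc]; exact Submodule.smul_mem _ _ hx
      | mem x hx =>
        obtain ⟨i, hi, rfl⟩ := hx
        rw [← hg.smul]
        exact Submodule.subset_span ⟨_, Submodule.smul_mem_smul hi trivial, rfl⟩

/-- **base change of `I • M`**, when `I * I' = (a)` with `a` regular before and after. -/
theorem isBC_restrict (hg : IsBC φ g) {I I' : Ideal R} {a : R} (h : I * I' = Ideal.span {a})
    (ha : ∀ x : M, a • x = 0 → x = 0) (ha' : ∀ x : M', φ a • x = 0 → x = 0)
    {N : Submodule R M} {N' : Submodule R' M'} (hN : N = I • ⊤) (hN' : N' = I.map φ • ⊤)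
    (g' : N →+ N') (hg' : ∀ x, (g' x : M') = g x) : IsBC φ g' := by
  subst hN
  subst hN'
  have hsm : ∀ (r : R) (x : (I • ⊤ : Submodule R M)), g' (r • x) = φ r • g' x := fun r x ↦ by
    apply Subtype.ext
    rw [hg', Submodule.coe_smul, Submodule.coe_smul, hg.smul, hg']
  have hinj : ∀ x y : M, a • x = a • y → x = y := fun x y hxy ↦ by
    have := ha (x - y) (by rw [smul_sub, hxy, sub_self])
    exact sub_eq_zero.mp this
  have hinj' : ∀ x y : M', φ a • x = φ a • y → x = y := fun x y hxy ↦ by
    have := ha' (x - y) (by rw [smul_sub, hxy, sub_self])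
    exact sub_eq_zero.mp this
  refine ⟨hsm, fun Q _ _ k hk ↦ existsUnique_of_exists_of_unique ?_ ?_⟩
  · have key : ∀ z ∈ I * I', ∃ H : (I.map φ • ⊤ : Submodule R' M') →ₗ[R'] Q,
        ∀ x w : (I • ⊤ : Submodule R M), a • w = z • x → H (g' x) = k w := by
      intro z hz
      induction hz using Submodule.mul_induction_on' with
      | mem_mul_mem i hi b hb =>
        obtain ⟨Hi, hHi, -⟩ := hg.exu Q
          { toFun := fun m ↦ k ⟨i • m, Submodule.smul_mem_smul hi trivial⟩
            map_zero' := by
              have : (⟨i • (0 : M), Submodule.smul_mem_smul hi trivial⟩ :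
                (I • ⊤ : Submodule R M)) = 0 := Subtype.ext (smul_zero _)
              rw [this, map_zero]
            map_add' := fun x y ↦ by
              rw [← map_add]
              congr 1
              exact Subtype.ext (smul_add _ _ _) }
          (fun r m ↦ by
            simp only [AddMonoidHom.coe_mk, ZeroHom.coe_mk]
            rw [← hk]
            congr 1
            exact Subtype.ext (smul_comm _ _ _))
        obtain ⟨δ, hδ⟩ := exists_div (I.map φ • ⊤ : Submodule R' M') (φ a) (φ b) ha'
          (fun x hx ↦ exists_of_mem_smul (I := I.map φ) (I' := I'.map φ)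
            (by rw [← Ideal.map_mul, h, Ideal.map_span, Set.image_singleton])
            (Ideal.mem_map_of_mem _ hb) hx)
        refine ⟨Hi ∘ₗ δ, fun x w hw ↦ ?_⟩
        obtain ⟨w', hw'⟩ := exists_of_mem_smul h hb x.2
        have h1 : δ (g' x) = g w' := by
          apply hinj'
          rw [hδ, hg', ← hg.smul, ← hg.smul, hw']
        rw [LinearMap.comp_apply, h1, hHi]
        simp only [AddMonoidHom.coe_mk, ZeroHom.coe_mk]
        congr 1
        apply Subtype.ext
        apply hinj
        have h2 := congrArg Subtype.val hw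
        simp only [Submodule.coe_smul] at h2
        rw [h2]
        show a • i • w' = _
        rw [smul_comm a i, hw', smul_smul]
      | add z₁ hz₁ z₂ hz₂ h₁ h₂ =>
        obtain ⟨H₁, hH₁⟩ := h₁
        obtain ⟨H₂, hH₂⟩ := h₂
        refine ⟨H₁ + H₂, fun x w hw ↦ ?_⟩
        rw [h] at hz₁ hz₂
        obtain ⟨c₁, hc₁⟩ := Ideal.mem_span_singleton'.mp hz₁
        obtain ⟨c₂, hc₂⟩ := Ideal.mem_span_singleton'.mp hz₂
        rw [LinearMap.add_apply, hH₁ x (c₁ • x) (by rw [smul_smul, mul_comm, hc₁]),
          hH₂ x (c₂ • x) (by rw [smul_smul, mul_comm, hc₂]), ← map_add]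
        congr 1
        apply Subtype.ext
        apply hinj
        have h2 := congrArg Subtype.val hw
        simp only [Submodule.coe_smul] at h2
        rw [h2, ← hc₁, ← hc₂]
        simp only [Submodule.coe_add, Submodule.coe_smul]
        rw [add_smul, smul_add, smul_smul, smul_smul, mul_comm a, mul_comm a]
    obtain ⟨H, hH⟩ := key a (h ▸ Ideal.mem_span_singleton_self a)
    exact ⟨H, fun x ↦ hH x x rfl⟩
  · intro k₁ k₂ h₁ h₂
    have hspan : Submodule.span R' (Set.range g') = ⊤ := by
      have h3 := span_image_smul hg I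
      have h4 : (Submodule.span R' (Set.range g')).map
          (I.map φ • ⊤ : Submodule R' M').subtype = I.map φ • ⊤ := by
        rw [Submodule.map_span]
        refine Eq.trans ?_ h3
        congr 1
        ext y
        constructor
        · rintro ⟨_, ⟨x, rfl⟩, rfl⟩
          exact ⟨x, x.2, (hg' x).symm⟩
        · rintro ⟨x, hx, rfl⟩
          exact ⟨_, ⟨⟨x, hx⟩, rfl⟩, hg' ⟨x, hx⟩⟩
      apply Submodule.map_injective_of_injective
        (Submodule.subtype_injective (I.map φ • ⊤ : Submodule R' M'))
      rw [h4, Submodule.map_top, Submodule.range_subtype]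
    apply LinearMap.ext_on hspan
    rintro _ ⟨x, rfl⟩
    rw [h₁, h₂]

/-- restriction to `I • ⊤` -/
def restr (hg : ∀ (a : R) (m : M), g (a • m) = φ a • g m) (I : Ideal R)
    {I₁ : Ideal R'} (hI₁ : I.map φ ≤ I₁) :
    (I • ⊤ : Submodule R M) →+ (I₁ • ⊤ : Submodule R' M') where
  toFun x := ⟨g x, Submodule.smul_mono_left hI₁ (map_mem_smul hg x.2)⟩
  map_zero' := Subtype.ext (map_zero g)
  map_add' x y := Subtype.ext (map_add g _ _)

@[simp] lemma restr_coe (hg : ∀ (a : R) (m : M), g (a • m) = φ a • g m) (I : Ideal R)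
    {I₁ : Ideal R'} (hI₁ : I.map φ ≤ I₁) (x : (I • ⊤ : Submodule R M)) :
    (restr hg I hI₁ x : M') = g x := rfl

end BC

end Fermat.Agent.S25.Cut
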