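import Mathlib
import Fermat.Agent.S25.SubIdeal
import Fermat.Agent.S25.LBHom
import Fermat.Agent.S25.AlgBCLB

/-!
# S25, package ALG3 (3): relative effective Cartier divisors and the twists `D(-E)`
-/

set_option autoImplicit false

universe u

open scoped TensorProduct Polynomial

noncomputable section

namespace Fermat.Agent.S25

namespace TwoChart

variable {k : Type u} [Field k] (𝒞 : TwoChart k) (B : Type u) [CommRing B] [Algebra k B]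

/-- `R01` is the localization of `R0` at `f0` -/
theorem loc0B : @IsLocalization.Away (𝒞.R0 B) _ (𝒞.f0B B) (𝒞.R01 B) _
    (𝒞.ρ0B B).toRingHom.toAlgebra := by
  letI : Algebra 𝒞.A0 𝒞.A01 := 𝒞.ρ0.toRingHom.toAlgebra
  haveI : IsScalarTower k 𝒞.A0 𝒞.A01 :=
    IsScalarTower.of_algebraMap_eq (fun c ↦ (𝒞.ρ0.commutes c).symm)
  haveI := 𝒞.loc0
  letI : Algebra (𝒞.R0 B) (𝒞.R01 B) := (𝒞.ρ0B B).toRingHom.toAlgebra
  haveI : IsScalarTower B (𝒞.R0 B) (𝒞.R01 B) :=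
    IsScalarTower.of_algebraMap_eq (fun c ↦ ((𝒞.ρ0B B).commutes c).symm)
  have h := IsLocalization.tensorProduct_tensorProduct_right k B (Submonoid.powers 𝒞.f0) 𝒞.A01
    (by
      ext x
      show (𝒞.ρ0B B) (1 ⊗ₜ x) = 1 ⊗ₜ 𝒞.ρ0 x
      simp [ρ0B])
  rw [Submonoid.map_powers] at h
  exact h

lemma exists_pow_mul_eq0 (x : 𝒞.R01 B) :
    ∃ (n : ℕ) (a : 𝒞.R0 B), (𝒞.ρ0B B (𝒞.f0B B)) ^ n * x = 𝒞.ρ0B B a := by
  letI : Algebra (𝒞.R0 B) (𝒞.R01 B) := (𝒞.ρ0B B).toRingHom.toAlgebra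
  haveI := 𝒞.loc0B B
  obtain ⟨n, a, h⟩ := IsLocalization.Away.surj (𝒞.f0B B) x
  refine ⟨n, a, ?_⟩
  rw [mul_comm]
  exact h

lemma map_comap0 (L : Ideal (𝒞.R01 B)) :
    (L.comap (𝒞.ρ0B B).toRingHom).map (𝒞.ρ0B B).toRingHom = L := by
  letI : Algebra (𝒞.R0 B) (𝒞.R01 B) := (𝒞.ρ0B B).toRingHom.toAlgebra
  haveI := 𝒞.loc0B B
  exact IsLocalization.map_comap (Submonoid.powers (𝒞.f0B B)) (𝒞.R01 B) L

variable {B} in
lemma nzd_ρ0B {a : 𝒞.R0 B} (ha : a ∈ nonZeroDivisors (𝒞.R0 B)) :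
    𝒞.ρ0B B a ∈ nonZeroDivisors (𝒞.R01 B) := by
  letI : Algebra (𝒞.R0 B) (𝒞.R01 B) := (𝒞.ρ0B B).toRingHom.toAlgebra
  haveI := 𝒞.loc0B B
  have h1 : IsSMulRegular (𝒞.R0 B) a := fun x y hxy ↦ by
    have h2 : a * (x - y) = 0 := by
      rw [mul_sub, sub_eq_zero]; exact hxy
    exact sub_eq_zero.mp ((mem_nonZeroDivisors_iff.mp ha).1 _ h2)
  have h3 : IsSMulRegular (𝒞.R01 B) (𝒞.ρ0B B a) :=
    IsSMulRegular.of_isLocalization (𝒞.R01 B) (Submonoid.powers (𝒞.f0B B)) h1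
  rw [mem_nonZeroDivisors_iff]
  have h4 : ∀ x, 𝒞.ρ0B B a * x = 0 → x = 0 := fun x hx ↦ h3 (by simpa using hx)
  exact ⟨h4, fun x hx ↦ h4 x (by rwa [mul_comm])⟩

/-- monic polynomials in `f0` are regular -/
lemma nzd_aeval {P : B[X]} (hP : P.Monic) :
    Polynomial.aeval (𝒞.f0B B) P ∈ nonZeroDivisors (𝒞.R0 B) := by
  haveI := 𝒞.isDomain_A0
  obtain ⟨n, ⟨E⟩⟩ := Nrm.exists_pbasis 𝒞.f0 𝒞.fin0 𝒞.inj0
  have key : ∀ y : 𝒞.R0 B, Polynomial.aeval (𝒞.f0B B) P * y = 0 → y = 0 := by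
    intro y hy
    have h1 : E.uB B (P • E.vB B y) = 0 := by
      rw [E.uB_apply]
      have h2 := E.uB_vB y
      rw [E.uB_apply] at h2
      rw [← hy]
      conv_rhs => rw [← h2]
      rw [Finset.mul_sum]
      refine Finset.sum_congr rfl fun i _ ↦ ?_
      rw [Pi.smul_apply, smul_eq_mul, map_mul, mul_assoc]
      rfl
    have h3 : P • E.vB B y = 0 := by
      rw [← E.vB_uB (P • E.vB B y), h1, map_zero]
    have h4 : E.vB B y = 0 := by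
      ext i : 1
      have h5 := congrFun h3 i
      simp only [Pi.smul_apply, smul_eq_mul, Pi.zero_apply] at h5
      rw [Pi.zero_apply]
      exact (mem_nonZeroDivisors_iff.mp hP.mem_nonZeroDivisors).1 _ h5
    rw [← E.uB_vB y, h4, map_zero]
  rw [mem_nonZeroDivisors_iff]
  exact ⟨key, fun x hx ↦ key x (by rwa [mul_comm])⟩

variable {B} {B' : Type u} [CommRing B'] [Algebra k B']

/-- universally regular functions -/
def UReg (a : 𝒞.R0 B) : Prop :=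
  ∀ (B' : Type u) [CommRing B'] [Algebra k B'] (φ : B →ₐ[k] B'),
    𝒞.bc0 φ a ∈ nonZeroDivisors (𝒞.R0 B')

variable {𝒞}

lemma UReg.nzd {a : 𝒞.R0 B} (ha : 𝒞.UReg a) : a ∈ nonZeroDivisors (𝒞.R0 B) := by
  have := ha B (AlgHom.id k B)
  rwa [bc0_id] at this

lemma UReg.mul {a b : 𝒞.R0 B} (ha : 𝒞.UReg a) (hb : 𝒞.UReg b) : 𝒞.UReg (a * b) :=
  fun B' _ _ φ ↦ by rw [map_mul]; exact mul_mem (ha B' φ) (hb B' φ)

lemma UReg.one : 𝒞.UReg (1 : 𝒞.R0 B) :=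
  fun B' _ _ φ ↦ by rw [map_one]; exact one_mem _

lemma UReg.bc {a : 𝒞.R0 B} (ha : 𝒞.UReg a) (φ : B →ₐ[k] B') : 𝒞.UReg (𝒞.bc0 φ a) :=
  fun B'' _ _ ψ ↦ by
    have := ha B'' (ψ.comp φ)
    rwa [← bc0_comp] at this

variable (𝒞) in
lemma bc0_aeval (φ : B →ₐ[k] B') (P : B[X]) :
    𝒞.bc0 φ (Polynomial.aeval (𝒞.f0B B) P) =
      Polynomial.aeval (𝒞.f0B B') (P.map φ.toRingHom) := by
  induction P using Polynomial.induction_on' with
  | add p q hp hq => simp only [map_add, hp, hq, Polynomial.map_add]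
  | monomial n b =>
    rw [Polynomial.aeval_monomial, map_mul, map_pow, bc0_f0B, Polynomial.map_monomial,
      Polynomial.aeval_monomial]
    congr 1

variable (𝒞) in
lemma uReg_aeval {P : B[X]} (hP : P.Monic) : 𝒞.UReg (Polynomial.aeval (𝒞.f0B B) P) :=
  fun B' _ _ φ ↦ by
    rw [bc0_aeval]
    exact 𝒞.nzd_aeval B' (hP.map _)

/-- relative effective Cartier divisors on the chart `0` -/
def IsCart (I : Ideal (𝒞.R0 B)) : Prop :=
  ∃ (I' : Ideal (𝒞.R0 B)) (a : 𝒞.R0 B), 𝒞.UReg a ∧ I * I' = Ideal.span {a}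

lemma IsCart.mul {I J : Ideal (𝒞.R0 B)} (hI : IsCart I) (hJ : IsCart J) : IsCart (I * J) := by
  obtain ⟨I', a, ha, h⟩ := hI
  obtain ⟨J', b, hb, h'⟩ := hJ
  exact ⟨I' * J', a * b, ha.mul hb, by
    rw [mul_mul_mul_comm, h, h', Ideal.span_singleton_mul_span_singleton]⟩

lemma IsCart.top : IsCart (⊤ : Ideal (𝒞.R0 B)) :=
  ⟨⊤, 1, UReg.one, by rw [Ideal.span_singleton_one, Ideal.mul_top]⟩

lemma IsCart.map {I : Ideal (𝒞.R0 B)} (hI : IsCart I) (φ : B →ₐ[k] B') :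
    IsCart (I.map (𝒞.bc0 φ)) := by
  obtain ⟨I', a, ha, h⟩ := hI
  exact ⟨I'.map (𝒞.bc0 φ), 𝒞.bc0 φ a, ha.bc φ, by
    rw [← Ideal.map_mul, h, Ideal.map_span, Set.image_singleton]⟩

lemma IsCart.invertible {I : Ideal (𝒞.R0 B)} (hI : IsCart I) :
    Module.Invertible (𝒞.R0 B) I := by
  obtain ⟨I', a, ha, h⟩ := hI
  exact Cut.invertible_of_mul_eq ha.nzd h

end TwoChart

open TwoChart

/-- relative effective Cartier divisors on `C_B` -/
@[ext]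
structure Div {k : Type u} [Field k] (𝒞 : TwoChart k) (B : Type u) [CommRing B]
    [Algebra k B] where
  I0 : Ideal (𝒞.R0 B)
  I1 : Ideal (𝒞.R1 B)
  map_eq : I0.map (𝒞.ρ0B B).toRingHom = I1.map (𝒞.ρ1B B).toRingHom
  cart0 : IsCart I0
  cart1 : IsCart (𝒞 := 𝒞.swap) I1

namespace Div

variable {k : Type u} [Field k] {𝒞 : TwoChart k} {B B' B'' : Type u} [CommRing B]
  [Algebra k B] [CommRing B'] [Algebra k B'] [CommRing B''] [Algebra k B'']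

/-- sum of divisors (product of ideals) -/
@[simps]
def add (E F : Div 𝒞 B) : Div 𝒞 B where
  I0 := E.I0 * F.I0
  I1 := E.I1 * F.I1
  map_eq := by rw [Ideal.map_mul, Ideal.map_mul, E.map_eq, F.map_eq]
  cart0 := E.cart0.mul F.cart0
  cart1 := E.cart1.mul F.cart1

lemma add_comm (E F : Div 𝒞 B) : E.add F = F.add E :=
  Div.ext (mul_comm _ _) (mul_comm _ _)

lemma add_assoc (E F G : Div 𝒞 B) : (E.add F).add G = E.add (F.add G) :=
  Div.ext (mul_assoc _ _ _) (mul_assoc _ _ _)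

/-- the zero divisor -/
@[simps]
def zero : Div 𝒞 B where
  I0 := ⊤
  I1 := ⊤
  map_eq := by rw [Ideal.map_top, Ideal.map_top]
  cart0 := IsCart.top
  cart1 := IsCart.top

/-- base change of divisors -/
@[simps]
def bc (E : Div 𝒞 B) (φ : B →ₐ[k] B') : Div 𝒞 B' where
  I0 := E.I0.map (𝒞.bc0 φ)
  I1 := E.I1.map (𝒞.bc1 φ)
  map_eq := by
    rw [Ideal.map_map, Ideal.map_map, ← bc01_comp_ρ0B, ← bc01_comp_ρ1B, ← Ideal.map_map,
      ← Ideal.map_map, E.map_eq]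
  cart0 := E.cart0.map φ
  cart1 := E.cart1.map φ

lemma bc_add (E F : Div 𝒞 B) (φ : B →ₐ[k] B') : (E.add F).bc φ = (E.bc φ).add (F.bc φ) :=
  Div.ext (Ideal.map_mul _ _ _) (Ideal.map_mul _ _ _)

lemma bc_comp (E : Div 𝒞 B) (φ : B →ₐ[k] B') (ψ : B' →ₐ[k] B'') :
    (E.bc φ).bc ψ = E.bc (ψ.comp φ) := by
  refine Div.ext ?_ ?_
  · rw [bc_I0, bc_I0, bc_I0, Ideal.map_map, bc0_comp]
  · rw [bc_I1, bc_I1, bc_I1, Ideal.map_map, bc1_comp]

/-- exchanging the two charts -/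
@[simps]
def swap (E : Div 𝒞 B) : Div 𝒞.swap B where
  I0 := E.I1
  I1 := E.I0
  map_eq := E.map_eq.symm
  cart0 := E.cart1
  cart1 := E.cart0

/-- exchanging the two charts -/
@[simps]
def unswap (E : Div 𝒞.swap B) : Div 𝒞 B where
  I0 := E.I1
  I1 := E.I0
  map_eq := E.map_eq.symm
  cart0 := E.cart1
  cart1 := E.cart0

end Div

end Fermat.Agent.S25
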