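import Mathlib
import Fermat.Agent.S25.SubDiv

/-!
# S25, package ALG3 (3): the twists `D(-E)` of a line bundle by a divisor
-/

set_option autoImplicit false

universe u

open scoped TensorProduct Polynomial

noncomputable section

namespace Fermat.Agent.S25

open TwoChart

namespace LB

section Range

variable {R : Type u} [CommRing R] {M N P : Type u} [AddCommGroup M] [AddCommGroup N]
  [AddCommGroup P] [Module R M] [Module R N] [Module R P]

/-- two embeddings with the same image -/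
def equivOfRange (f : M →ₗ[R] P) (g : N →ₗ[R] P) (hf : Function.Injective f)
    (hg : Function.Injective g) (h : LinearMap.range f = LinearMap.range g) : M ≃ₗ[R] N :=
  (LinearEquiv.ofInjective f hf).trans
    ((LinearEquiv.ofEq _ _ h).trans (LinearEquiv.ofInjective g hg).symm)

lemma equivOfRange_spec (f : M →ₗ[R] P) (g : N →ₗ[R] P) (hf : Function.Injective f)
    (hg : Function.Injective g) (h : LinearMap.range f = LinearMap.range g) (x : M) :
    g (equivOfRange f g hf hg h x) = f x := by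
  have h1 : LinearEquiv.ofInjective g hg (equivOfRange f g hf hg h x) =
      LinearEquiv.ofEq _ _ h (LinearEquiv.ofInjective f hf x) := by
    rw [equivOfRange, LinearEquiv.trans_apply, LinearEquiv.trans_apply,
      LinearEquiv.apply_symm_apply]
  have h2 := congrArg Subtype.val h1
  rwa [LinearEquiv.ofInjective_apply, LinearEquiv.coe_ofEq_apply,
    LinearEquiv.ofInjective_apply] at h2

end Range

variable {k : Type u} [Field k] {𝒞 : TwoChart k} {B B' : Type u} [CommRing B] [Algebra k B]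
  [CommRing B'] [Algebra k B']

lemma exists_pow_smul_eq0 (D : LB 𝒞 B) (x : D.M01) :
    ∃ (n : ℕ) (y : D.M0), (𝒞.ρ0B B (𝒞.f0B B)) ^ n • x = D.r0 y := by
  have hsm : ∀ (a : 𝒞.R0 B) (m : D.M0), D.r0 (a • m) = 𝒞.ρ0B B a • D.r0 m := D.bc0.smul
  refine D.bc0.induction (p := fun x ↦ ∃ (n : ℕ) (y : D.M0),
    (𝒞.ρ0B B (𝒞.f0B B)) ^ n • x = D.r0 y) ?_ ?_ ?_ ?_ x
  · intro m
    exact ⟨0, m, by rw [pow_zero, one_smul]⟩
  · exact ⟨0, 0, by rw [smul_zero, map_zero]⟩
  · rintro x x' ⟨n, y, h⟩ ⟨n', y', h'⟩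
    refine ⟨n + n', (𝒞.f0B B) ^ n' • y + (𝒞.f0B B) ^ n • y', ?_⟩
    rw [map_add, hsm, hsm, map_pow, map_pow, ← h, ← h', smul_add, smul_smul, smul_smul,
      ← pow_add, ← pow_add, add_comm n' n]
  · rintro s x ⟨n, y, h⟩
    obtain ⟨n', a, h'⟩ := 𝒞.exists_pow_mul_eq0 B s
    refine ⟨n + n', a • y, ?_⟩
    rw [hsm, ← h, ← h', smul_smul, smul_smul]
    congr 1
    ring

lemma exists_pow_smul_eq1 (D : LB 𝒞 B) (x : D.M01) :
    ∃ (n : ℕ) (y : D.M1), (𝒞.ρ1B B (𝒞.f1B B)) ^ n • x = D.r1 y :=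
  D.swap.exists_pow_smul_eq0 x

namespace Hom

variable {D D' D'' : LB 𝒞 B}

/-- exchanging the two charts -/
@[simps]
def swap (j : Hom D D') : Hom D.swap D'.swap where
  l0 := j.l1
  l1 := j.l0
  l01 := j.l01
  h0 := j.h1
  h1 := j.h0

/-- exchanging the two charts -/
@[simps]
def unswap {D D' : LB 𝒞.swap B} (j : Hom D D') : Hom D.unswap D'.unswap where
  l0 := j.l1
  l1 := j.l0
  l01 := j.l01
  h0 := j.h1
  h1 := j.h0

lemma injective_l01 (j : Hom D D') (h : Function.Injective j.l0) :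
    Function.Injective j.l01 := by
  rw [injective_iff_map_eq_zero]
  intro x hx
  obtain ⟨n, y, hy⟩ := D.exists_pow_smul_eq0 x
  have h1 : D'.r0 (j.l0 y) = 0 := by rw [j.h0, ← hy, map_smul, hx, smul_zero]
  have h2 : y = 0 := by
    apply h
    rw [map_zero]
    exact D'.r0_injective (by rw [h1, map_zero])
  rw [h2, map_zero] at hy
  have hu : IsUnit ((𝒞.ρ0B B (𝒞.f0B B)) ^ n) := (𝒞.FB B).isUnit.pow n
  exact (hu.smul_eq_zero).mp hy

lemma range_l01 (j : Hom D D') :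
    LinearMap.range j.l01 = Submodule.span (𝒞.R01 B) (D'.r0 '' (LinearMap.range j.l0)) := by
  rw [LinearMap.range_eq_map, ← D.bc0.span, Submodule.map_span]
  congr 1
  ext y
  constructor
  · rintro ⟨_, ⟨x, rfl⟩, rfl⟩
    exact ⟨j.l0 x, ⟨x, rfl⟩, j.h0 x⟩
  · rintro ⟨_, ⟨x, rfl⟩, rfl⟩
    exact ⟨D.r0 x, ⟨x, rfl⟩, (j.h0 x).symm⟩

/-- two embeddings with the same images -/
def isoOfRange (j : Hom D D'') (j' : Hom D' D'') (hj0 : Function.Injective j.l0)
    (hj1 : Function.Injective j.l1) (hj0' : Function.Injective j'.l0)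
    (hj1' : Function.Injective j'.l1) (h0 : LinearMap.range j.l0 = LinearMap.range j'.l0)
    (h1 : LinearMap.range j.l1 = LinearMap.range j'.l1) : Iso D D' where
  e0 := equivOfRange j.l0 j'.l0 hj0 hj0' h0
  e1 := equivOfRange j.l1 j'.l1 hj1 hj1' h1
  e01 := equivOfRange j.l01 j'.l01 (j.injective_l01 hj0) (j'.injective_l01 hj0')
    (by rw [j.range_l01, j'.range_l01, h0])
  h0 x := by
    apply j'.injective_l01 hj0'
    rw [equivOfRange_spec, ← j'.h0, equivOfRange_spec, j.h0]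
  h1 x := by
    apply j'.injective_l01 hj0'
    rw [equivOfRange_spec, ← j'.h1, equivOfRange_spec, j.h1]

section

variable (j : Hom D D'') (j' : Hom D' D'') (hj0 : Function.Injective j.l0)
    (hj1 : Function.Injective j.l1) (hj0' : Function.Injective j'.l0)
    (hj1' : Function.Injective j'.l1) (h0 : LinearMap.range j.l0 = LinearMap.range j'.l0)
    (h1 : LinearMap.range j.l1 = LinearMap.range j'.l1)

@[simp]
lemma isoOfRange_e0 (x : D.M0) :
    j'.l0 ((isoOfRange j j' hj0 hj1 hj0' hj1' h0 h1).e0 x) = j.l0 x :=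
  equivOfRange_spec _ _ _ _ _ _

@[simp]
lemma isoOfRange_e1 (x : D.M1) :
    j'.l1 ((isoOfRange j j' hj0 hj1 hj0' hj1' h0 h1).e1 x) = j.l1 x :=
  equivOfRange_spec _ _ _ _ _ _

@[simp]
lemma isoOfRange_e01 (x : D.M01) :
    j'.l01 ((isoOfRange j j' hj0 hj1 hj0' hj1' h0 h1).e01 x) = j.l01 x :=
  equivOfRange_spec _ _ _ _ _ _

end

end Hom

section subD

/-- the twist `D(-E)` -/
def subD (D : LB 𝒞 B) (E : Div 𝒞 B) : LB 𝒞 B where
  M0 := (E.I0 • ⊤ : Submodule (𝒞.R0 B) D.M0)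
  M1 := (E.I1 • ⊤ : Submodule (𝒞.R1 B) D.M1)
  M01 := (E.I0.map (𝒞.ρ0B B).toRingHom • ⊤ : Submodule (𝒞.R01 B) D.M01)
  r0 := Cut.restr D.bc0.smul E.I0 le_rfl
  r1 := Cut.restr D.bc1.smul E.I1 E.map_eq.ge
  bc0 := by
    obtain ⟨I', a, ha, h⟩ := E.cart0
    exact Cut.isBC_restrict D.bc0 h (Cut.regular_of_nzd ha.nzd)
      (Cut.regular_of_nzd (nzd_ρ0B 𝒞 ha.nzd)) rfl rfl _ (fun _ ↦ rfl)
  bc1 := by
    obtain ⟨I', a, ha, h⟩ := E.cart1
    exact Cut.isBC_restrict D.bc1 h (Cut.regular_of_nzd ha.nzd)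
      (Cut.regular_of_nzd (nzd_ρ0B 𝒞.swap ha.nzd)) rfl (by rw [E.map_eq]) _ (fun _ ↦ rfl)
  inv0 := by
    haveI := E.cart0.invertible
    exact Cut.invertible_smul_top _
  inv1 := by
    haveI : Module.Invertible (𝒞.R1 B) E.I1 := E.cart1.invertible
    exact Cut.invertible_smul_top _

/-- the inclusion `D(-E) → D` -/
def subHom (D : LB 𝒞 B) (E : Div 𝒞 B) : Hom (D.subD E) D where
  l0 := Submodule.subtype _
  l1 := Submodule.subtype _
  l01 := Submodule.subtype _
  h0 _ := rfl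
  h1 _ := rfl

variable (D : LB 𝒞 B) (E F : Div 𝒞 B)

lemma subHom_inj0 : Function.Injective (D.subHom E).l0 := Submodule.subtype_injective _
lemma subHom_inj1 : Function.Injective (D.subHom E).l1 := Submodule.subtype_injective _
lemma subHom_inj01 : Function.Injective (D.subHom E).l01 := Submodule.subtype_injective _

lemma subHom_range0 : LinearMap.range (D.subHom E).l0 = E.I0 • ⊤ := Submodule.range_subtype _
lemma subHom_range1 : LinearMap.range (D.subHom E).l1 = E.I1 • ⊤ := Submodule.range_subtype _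
lemma subHom_range01 : LinearMap.range (D.subHom E).l01 =
    E.I0.map (𝒞.ρ0B B).toRingHom • ⊤ := Submodule.range_subtype _
lemma subHom_range01' : LinearMap.range (D.subHom E).l01 =
    E.I1.map (𝒞.ρ1B B).toRingHom • ⊤ := by rw [subHom_range01, E.map_eq]

/-- `D(-E)(-F) ≃ D(-E-F)` -/
def subSub : Iso ((D.subD E).subD F) (D.subD (E.add F)) :=
  Hom.isoOfRange ((D.subHom E).comp ((D.subD E).subHom F)) (D.subHom (E.add F))
    ((D.subHom_inj0 E).comp ((D.subD E).subHom_inj0 F))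
    ((D.subHom_inj1 E).comp ((D.subD E).subHom_inj1 F))
    (D.subHom_inj0 _) (D.subHom_inj1 _)
    (by
      rw [subHom_range0, Hom.comp_l0, LinearMap.range_comp, subHom_range0, Submodule.map_smul'',
        Submodule.map_top, subHom_range0, ← Submodule.mul_smul, Div.add_I0, mul_comm])
    (by
      rw [subHom_range1, Hom.comp_l1, LinearMap.range_comp, subHom_range1, Submodule.map_smul'',
        Submodule.map_top, subHom_range1, ← Submodule.mul_smul, Div.add_I1, mul_comm])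

/-- `D(-E)(m) ≃ D(m)(-E)` -/
def subTw (m : ℕ) : Iso ((D.subD E).tw m) ((D.tw m).subD E) :=
  Hom.isoOfRange ((D.subHom E).tw m) ((D.tw m).subHom E)
    (D.subHom_inj0 _) (D.subHom_inj1 _) (subHom_inj0 _ _) (subHom_inj1 _ _)
    ((D.subHom_range0 E).trans ((D.tw m).subHom_range0 E).symm)
    ((D.subHom_range1 E).trans ((D.tw m).subHom_range1 E).symm)

/-- `D(-E)` and the exchange of charts -/
def subSwap : Iso (D.subD E).swap (D.swap.subD E.swap) :=
  Hom.isoOfRange ((D.subHom E).swap) (D.swap.subHom E.swap)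
    (D.subHom_inj1 _) (D.subHom_inj0 _) (subHom_inj0 _ _) (subHom_inj1 _ _)
    ((D.subHom_range1 E).trans (D.swap.subHom_range0 E.swap).symm)
    ((D.subHom_range0 E).trans (D.swap.subHom_range1 E.swap).symm)

/-- functoriality of `D(-E)` -/
def Hom.subD {D D' : LB 𝒞 B} (f : Hom D D') (E : Div 𝒞 B) : Hom (D.subD E) (D'.subD E) where
  l0 := f.l0.restrict (fun x hx ↦ by
    have : (E.I0 • ⊤ : Submodule (𝒞.R0 B) D.M0).map f.l0 ≤ E.I0 • ⊤ := by
      rw [Submodule.map_smul'']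
      exact Submodule.smul_mono le_rfl le_top
    exact this ⟨x, hx, rfl⟩)
  l1 := f.l1.restrict (fun x hx ↦ by
    have : (E.I1 • ⊤ : Submodule (𝒞.R1 B) D.M1).map f.l1 ≤ E.I1 • ⊤ := by
      rw [Submodule.map_smul'']
      exact Submodule.smul_mono le_rfl le_top
    exact this ⟨x, hx, rfl⟩)
  l01 := f.l01.restrict (fun x hx ↦ by
    have : (E.I0.map (𝒞.ρ0B B).toRingHom • ⊤ : Submodule (𝒞.R01 B) D.M01).map f.l01 ≤
        E.I0.map (𝒞.ρ0B B).toRingHom • ⊤ := by
      rw [Submodule.map_smul'']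
      exact Submodule.smul_mono le_rfl le_top
    exact this ⟨x, hx, rfl⟩)
  h0 x := Subtype.ext (f.h0 x.1)
  h1 x := Subtype.ext (f.h1 x.1)

/-- functoriality of `D(-E)` -/
def Iso.subD {D D' : LB 𝒞 B} (e : Iso D D') (E : Div 𝒞 B) : Iso (D.subD E) (D'.subD E) :=
  Hom.isoOfRange ((Hom.ofIso e).comp (D.subHom E)) (D'.subHom E)
    (e.e0.injective.comp (D.subHom_inj0 _)) (e.e1.injective.comp (D.subHom_inj1 _))
    (subHom_inj0 _ _) (subHom_inj1 _ _)
    (by
      rw [subHom_range0, Hom.comp_l0, LinearMap.range_comp, subHom_range0, Submodule.map_smul'',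
        Submodule.map_top]
      congr 1
      exact LinearEquiv.range e.e0)
    (by
      rw [subHom_range1, Hom.comp_l1, LinearMap.range_comp, subHom_range1, Submodule.map_smul'',
        Submodule.map_top]
      congr 1
      exact LinearEquiv.range e.e1)

@[simp]
lemma Iso.subD_e0 {D D' : LB 𝒞 B} (e : Iso D D') (E : Div 𝒞 B) (x : (D.subD E).M0) :
    (D'.subHom E).l0 ((e.subD E).e0 x) = e.e0 ((D.subHom E).l0 x) :=
  Hom.isoOfRange_e0 _ _ _ _ _ _ _ _ x

/-- `D(0) ≃ D` -/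
def subZero : Iso (D.subD Div.zero) D :=
  (D.subHom Div.zero).toIso
    ⟨D.subHom_inj0 _, LinearMap.range_eq_top.mp (by
      rw [subHom_range0, Div.zero_I0, Submodule.top_smul])⟩
    ⟨D.subHom_inj1 _, LinearMap.range_eq_top.mp (by
      rw [subHom_range1, Div.zero_I1, Submodule.top_smul])⟩
    (Hom.bijective_l01 _ ⟨D.subHom_inj0 _, LinearMap.range_eq_top.mp (by
      rw [subHom_range0, Div.zero_I0, Submodule.top_smul])⟩)

variable {D E}

/-- equal divisors -/
def subOfEq (D : LB 𝒞 B) {E F : Div 𝒞 B} (h : E = F) : Iso (D.subD E) (D.subD F) :=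
  h ▸ Iso.refl _

/-- base change of `D(-E)` -/
def BC.subD {φ : B →ₐ[k] B'} {D : LB 𝒞 B} {D' : LB 𝒞 B'} (h : BC φ D D') (E : Div 𝒞 B) :
    BC φ (D.subD E) (D'.subD (E.bc φ)) where
  u0 := Cut.restr h.bc0.smul E.I0 le_rfl
  u1 := Cut.restr h.bc1.smul E.I1 le_rfl
  u01 := Cut.restr h.bc01.smul (E.I0.map (𝒞.ρ0B B).toRingHom) (by
    rw [Ideal.map_map, Div.bc_I0, Ideal.map_map, bc01_comp_ρ0B])
  bc0 := by
    obtain ⟨I', a, ha, hI⟩ := E.cart0
    exact Cut.isBC_restrict h.bc0 hI (Cut.regular_of_nzd ha.nzd)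
      (Cut.regular_of_nzd (ha B' φ)) rfl rfl _ (fun _ ↦ rfl)
  bc1 := by
    obtain ⟨I', a, ha, hI⟩ := E.cart1
    exact Cut.isBC_restrict h.bc1 hI (Cut.regular_of_nzd ha.nzd)
      (Cut.regular_of_nzd (ha B' φ)) rfl rfl _ (fun _ ↦ rfl)
  bc01 := by
    obtain ⟨I', a, ha, hI⟩ := E.cart0
    refine Cut.isBC_restrict (I := E.I0.map (𝒞.ρ0B B).toRingHom)
      (I' := I'.map (𝒞.ρ0B B).toRingHom) (a := 𝒞.ρ0B B a) h.bc01 ?_
      (Cut.regular_of_nzd (nzd_ρ0B 𝒞 ha.nzd)) ?_ rfl ?_ _ (fun _ ↦ rfl)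
    · rw [← Ideal.map_mul, hI, Ideal.map_span, Set.image_singleton]
      rfl
    · rw [bc01_ρ0B]
      exact Cut.regular_of_nzd (nzd_ρ0B 𝒞 (ha B' φ))
    · rw [Ideal.map_map, Div.bc_I0, Ideal.map_map, bc01_comp_ρ0B]
  h0 x := Subtype.ext (h.h0 x.1)
  h1 x := Subtype.ext (h.h1 x.1)

end subD

end LB

end Fermat.Agent.S25
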