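import Mathlib
import Fermat.Agent.S25.SubLB
import Fermat.Agent.S25.TCIdeal

/-!
# S25, package ALG3 (3): the divisor of an ideal `I ⊂ R0 B` with finite projective quotient
-/

set_option autoImplicit false

universe u

open scoped TensorProduct Polynomial

noncomputable section

namespace Fermat.Agent.S25

namespace Cut

section

variable {R : Type u} [CommRing R]

/-- cancellation -/
lemma eq_of_mul_eq {K K' L L' : Ideal R} {u : R} (hu : u ∈ nonZeroDivisors R)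
    (h : K * K' = Ideal.span {u}) (h' : L * L' = Ideal.span {u}) (hK : K ≤ L) (hK' : K' ≤ L') :
    K = L := by
  refine le_antisymm hK fun x hx ↦ ?_
  have h1 : x * u ∈ K * Ideal.span {u} := by
    have h2 : x * u ∈ L * (K * K') := by
      rw [h]; exact Ideal.mul_mem_mul hx (Ideal.mem_span_singleton_self u)
    have h3 : L * (K * K') ≤ K * Ideal.span {u} := by
      rw [← h', mul_left_comm]
      exact Ideal.mul_mono le_rfl (Ideal.mul_mono le_rfl hK')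
    exact h3 h2
  obtain ⟨y, hy, hxy⟩ := Ideal.mem_mul_span_singleton.mp h1
  have h4 : x = y := by
    have h5 : (y - x) * u = 0 := by rw [sub_mul, hxy, sub_self]
    have h6 := (mem_nonZeroDivisors_iff.mp hu).2 _ h5
    exact (sub_eq_zero.mp h6).symm
  rwa [h4]

/-- elements of a submodule from two comaximal multiples -/
lemma mem_of_smul_mem {M : Type u} [AddCommGroup M] [Module R M] (N : Submodule R M)
    {f u v : R} (huv : u = 1 + f * v) {n : ℕ} {x : M} (h1 : u • x ∈ N) (h2 : f ^ n • x ∈ N) :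
    x ∈ N := by
  have hc : IsCoprime u (f ^ n) := by
    apply IsCoprime.pow_right
    exact ⟨1, -v, by rw [huv]; ring⟩
  obtain ⟨a, b, hab⟩ := hc
  have h3 : x = a • (u • x) + b • (f ^ n • x) := by
    rw [smul_smul, smul_smul, ← add_smul, hab, one_smul]
  rw [h3]
  exact add_mem (N.smul_mem _ h1) (N.smul_mem _ h2)

/-- an invertible ideal containing `a` divides `(a)` -/
lemma exists_mul_eq_span (I : Ideal R) [hI : Module.Invertible R I] {a : R} (ha : a ∈ I) :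
    ∃ I' : Ideal R, I * I' = Ideal.span {a} := by
  let I' : Ideal R :=
    { carrier := {y | ∀ x ∈ I, y * x ∈ Ideal.span {a}}
      add_mem' := fun {y z} hy hz x hx ↦ by
        rw [add_mul]; exact add_mem (hy x hx) (hz x hx)
      zero_mem' := fun x _ ↦ by rw [zero_mul]; exact zero_mem _
      smul_mem' := fun c y hy x hx ↦ by
        rw [smul_eq_mul, mul_assoc]; exact Ideal.mul_mem_left _ _ (hy x hx) }
  refine ⟨I', le_antisymm ?_ ?_⟩
  · rw [Ideal.mul_le]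
    intro r hr s hs
    rw [mul_comm]
    exact hs r hr
  · rw [Ideal.span_singleton_le_iff_mem]
    have key : ∀ t : Module.Dual R I ⊗[R] I, contractLeft R I t * a ∈ I * I' := by
      intro t
      induction t using TensorProduct.induction_on with
      | zero => rw [map_zero, zero_mul]; exact zero_mem _
      | add s t hs ht => rw [map_add, add_mul]; exact add_mem hs ht
      | tmul ψ i =>
        rw [contractLeft_apply]
        have h1 : ψ i * a = (i : R) * ψ ⟨a, ha⟩ := by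
          have h2 := congrArg Subtype.val (Invert.smul_comm_ideal I ψ i ⟨a, ha⟩)
          have h3 : ψ i * a = ψ ⟨a, ha⟩ * i := h2
          rw [h3, mul_comm]
        rw [h1]
        refine Ideal.mul_mem_mul i.2 fun x hx ↦ ?_
        have h2 := congrArg Subtype.val (Invert.smul_comm_ideal I ψ ⟨a, ha⟩ ⟨x, hx⟩)
        have h3 : ψ ⟨a, ha⟩ * x = ψ ⟨x, hx⟩ * a := h2
        rw [h3]
        exact Ideal.mul_mem_left _ _ (Ideal.mem_span_singleton_self a)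
    obtain ⟨t, ht⟩ := hI.bijective.2 1
    have := key t
    rwa [ht, one_mul] at this

end

end Cut

namespace TwoChart

variable {k : Type u} [Field k] (𝒞 : TwoChart k) {B B' : Type u} [CommRing B] [Algebra k B]
  [CommRing B'] [Algebra k B']

lemma exists_pow_mul_eq1 (x : 𝒞.R01 B) :
    ∃ (n : ℕ) (a : 𝒞.R1 B), (𝒞.ρ1B B (𝒞.f1B B)) ^ n * x = 𝒞.ρ1B B a :=
  𝒞.swap.exists_pow_mul_eq0 B x

/-- ideals dividing a monic polynomial in `f0` -/
def IsCut (I : Ideal (𝒞.R0 B)) : Prop :=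
  ∃ (P : B[X]) (I' : Ideal (𝒞.R0 B)), P.Monic ∧
    I * I' = Ideal.span {Polynomial.aeval (𝒞.f0B B) P}

/-- **Cayley-Hamilton**: ideals with finite projective quotient divide a monic polynomial -/
theorem isCut (I : Ideal (𝒞.R0 B)) [Module.Finite B (𝒞.R0 B ⧸ I)]
    [Module.Projective B (𝒞.R0 B ⧸ I)] : 𝒞.IsCut I := by
  haveI := 𝒞.invertible_ideal0 I
  obtain ⟨P, hP, hP'⟩ := IsIntegral.of_finite B (Ideal.Quotient.mk I (𝒞.f0B B))
  have ha : Polynomial.aeval (𝒞.f0B B) P ∈ I := by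
    rw [← Ideal.Quotient.eq_zero_iff_mem]
    have h1 : Polynomial.aeval (Ideal.Quotient.mkₐ B I (𝒞.f0B B)) P = 0 := hP'
    rwa [Polynomial.aeval_algHom_apply] at h1
  obtain ⟨I', hI'⟩ := Cut.exists_mul_eq_span I ha
  exact ⟨P, I', hP, hI'⟩

variable {𝒞}

lemma IsCut.isCart {I : Ideal (𝒞.R0 B)} (h : 𝒞.IsCut I) : IsCart I := by
  obtain ⟨P, I', hP, hI⟩ := h
  exact ⟨I', _, 𝒞.uReg_aeval hP, hI⟩

lemma IsCut.mul {I J : Ideal (𝒞.R0 B)} (hI : 𝒞.IsCut I) (hJ : 𝒞.IsCut J) :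
    𝒞.IsCut (I * J) := by
  obtain ⟨P, I', hP, hI⟩ := hI
  obtain ⟨Q, J', hQ, hJ⟩ := hJ
  exact ⟨P * Q, I' * J', hP.mul hQ, by
    rw [mul_mul_mul_comm, hI, hJ, Ideal.span_singleton_mul_span_singleton, map_mul]⟩

lemma IsCut.top : 𝒞.IsCut (⊤ : Ideal (𝒞.R0 B)) :=
  ⟨1, ⊤, Polynomial.monic_one, by rw [map_one, Ideal.span_singleton_one, Ideal.mul_top]⟩

lemma IsCut.map {I : Ideal (𝒞.R0 B)} (hI : 𝒞.IsCut I) (φ : B →ₐ[k] B') :
    𝒞.IsCut (I.map (𝒞.bc0 φ)) := by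
  obtain ⟨P, I', hP, hI⟩ := hI
  exact ⟨P.map φ.toRingHom, I'.map (𝒞.bc0 φ), hP.map _, by
    rw [← Ideal.map_mul, hI, Ideal.map_span, Set.image_singleton, bc0_aeval]⟩

variable (𝒞) in
/-- the ideal of the same divisor on the other chart -/
def other (I : Ideal (𝒞.R0 B)) : Ideal (𝒞.R1 B) :=
  (I.map (𝒞.ρ0B B).toRingHom).comap (𝒞.ρ1B B).toRingHom

lemma mem_other {I : Ideal (𝒞.R0 B)} {x : 𝒞.R1 B} :
    x ∈ 𝒞.other I ↔ 𝒞.ρ1B B x ∈ I.map (𝒞.ρ0B B).toRingHom := Iff.rfl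

variable (𝒞) in
lemma other_mono {I J : Ideal (𝒞.R0 B)} (h : I ≤ J) : 𝒞.other I ≤ 𝒞.other J :=
  Ideal.comap_mono (Ideal.map_mono h)

variable (𝒞) in
lemma map_other (I : Ideal (𝒞.R0 B)) :
    (𝒞.other I).map (𝒞.ρ1B B).toRingHom = I.map (𝒞.ρ0B B).toRingHom :=
  𝒞.swap.map_comap0 B (I.map (𝒞.ρ0B B).toRingHom)

variable (𝒞) in
/-- the reversed polynomial in `f1` -/
lemma exists_rev {P : B[X]} (hP : P.Monic) : ∃ (u v : 𝒞.R1 B), u = 1 + 𝒞.f1B B * v ∧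
    𝒞.ρ1B B u = (𝒞.ρ1B B (𝒞.f1B B)) ^ P.natDegree *
      𝒞.ρ0B B (Polynomial.aeval (𝒞.f0B B) P) := by
  have hFG : 𝒞.ρ0B B (𝒞.f0B B) * 𝒞.ρ1B B (𝒞.f1B B) = 1 := (𝒞.FB B).val_inv
  refine ⟨Polynomial.aeval (𝒞.f1B B) P.reverse, Polynomial.aeval (𝒞.f1B B) P.reverse.divX,
    ?_, ?_⟩
  · conv_lhs => rw [← Polynomial.divX_mul_X_add P.reverse]
    rw [Polynomial.coeff_zero_reverse, hP.leadingCoeff, map_add, map_mul, Polynomial.aeval_X,
      map_one, map_one, add_comm, mul_comm]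
  · rw [← Polynomial.aeval_algHom_apply, ← Polynomial.aeval_algHom_apply]
    letI : Invertible (𝒞.ρ0B B (𝒞.f0B B)) := ⟨𝒞.ρ1B B (𝒞.f1B B), by rw [mul_comm]; exact hFG, hFG⟩
    have h1 := Polynomial.eval₂_reverse_mul_pow (algebraMap B (𝒞.R01 B)) (𝒞.ρ0B B (𝒞.f0B B)) P
    have h2 : ⅟ (𝒞.ρ0B B (𝒞.f0B B)) = 𝒞.ρ1B B (𝒞.f1B B) := rfl
    rw [h2, ← Polynomial.aeval_def, ← Polynomial.aeval_def] at h1
    rw [← h1, mul_comm, mul_assoc, ← mul_pow, hFG, one_pow, mul_one]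

lemma map_eq_span {I I' : Ideal (𝒞.R0 B)} {a : 𝒞.R0 B} (hI : I * I' = Ideal.span {a}) :
    I.map (𝒞.ρ0B B).toRingHom * I'.map (𝒞.ρ0B B).toRingHom = Ideal.span {𝒞.ρ0B B a} := by
  rw [← Ideal.map_mul, hI, Ideal.map_span, Set.image_singleton]
  rfl

lemma isUnit_G : IsUnit (𝒞.ρ1B B (𝒞.f1B B)) := by
  have hFG : 𝒞.ρ1B B (𝒞.f1B B) * 𝒞.ρ0B B (𝒞.f0B B) = 1 := (𝒞.FB B).inv_val
  exact IsUnit.of_mul_eq_one _ hFG

/-- the ideal on the other chart divides `u` -/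
lemma other_mul_other {I I' : Ideal (𝒞.R0 B)} {a : 𝒞.R0 B} (hI : I * I' = Ideal.span {a})
    {u v : 𝒞.R1 B} {d : ℕ} (huv : u = 1 + 𝒞.f1B B * v)
    (hu : 𝒞.ρ1B B u = (𝒞.ρ1B B (𝒞.f1B B)) ^ d * 𝒞.ρ0B B a) :
    𝒞.other I * 𝒞.other I' = Ideal.span {u} := by
  have hspan : I.map (𝒞.ρ0B B).toRingHom * I'.map (𝒞.ρ0B B).toRingHom =
      Ideal.span {𝒞.ρ1B B u} := by
    rw [map_eq_span hI, hu]
    exact (Ideal.span_singleton_mul_left_unit (isUnit_G.pow d) _).symm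
  have huI : u ∈ 𝒞.other I := by
    rw [mem_other]
    exact Cut.mem_left_of_mul_eq hspan
  have huI' : u ∈ 𝒞.other I' := by
    rw [mem_other]
    exact Cut.mem_right_of_mul_eq hspan
  have hinj := 𝒞.ρ1B_injective B
  apply le_antisymm
  · rw [Ideal.mul_le]
    intro r hr s hs
    have h1 : 𝒞.ρ1B B (r * s) ∈ Ideal.span {𝒞.ρ1B B u} := by
      rw [← hspan, map_mul]
      exact Ideal.mul_mem_mul hr hs
    obtain ⟨y, hy⟩ := Ideal.mem_span_singleton'.mp h1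
    obtain ⟨n, z, hz'⟩ := 𝒞.exists_pow_mul_eq1 y
    refine Cut.mem_of_smul_mem (Ideal.span {u}) huv (n := n) (x := r * s) ?_ ?_
    · exact Ideal.mul_mem_right _ _ (Ideal.mem_span_singleton_self u)
    · have h2 : 𝒞.f1B B ^ n • (r * s) = z * u := by
        apply hinj
        rw [smul_eq_mul, map_mul, map_pow, ← hy, map_mul, ← hz']
        ring
      rw [h2]
      exact Ideal.mul_mem_left _ _ (Ideal.mem_span_singleton_self u)
  · rw [Ideal.span_singleton_le_iff_mem]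
    -- `f1 ^ n * u ∈ J * J'`
    have key : ∀ z ∈ I.map (𝒞.ρ0B B).toRingHom * I'.map (𝒞.ρ0B B).toRingHom,
        ∃ (n : ℕ) (w : 𝒞.R1 B), w ∈ 𝒞.other I * 𝒞.other I' ∧
          (𝒞.ρ1B B (𝒞.f1B B)) ^ n * z = 𝒞.ρ1B B w := by
      intro z hz
      induction hz using Submodule.mul_induction_on' with
      | mem_mul_mem i hi j hj =>
        obtain ⟨n, x, hx'⟩ := 𝒞.exists_pow_mul_eq1 i
        obtain ⟨m, y, hy'⟩ := 𝒞.exists_pow_mul_eq1 j
        refine ⟨n + m, x * y, Ideal.mul_mem_mul ?_ ?_, ?_⟩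
        · rw [mem_other, ← hx']
          exact Ideal.mul_mem_left _ _ hi
        · rw [mem_other, ← hy']
          exact Ideal.mul_mem_left _ _ hj
        · rw [map_mul, ← hx', ← hy']
          ring
      | add z₁ _ z₂ _ h₁ h₂ =>
        obtain ⟨n, x, hx, hx'⟩ := h₁
        obtain ⟨m, y, hy, hy'⟩ := h₂
        refine ⟨n + m, 𝒞.f1B B ^ m * x + 𝒞.f1B B ^ n * y,
          add_mem (Ideal.mul_mem_left _ _ hx) (Ideal.mul_mem_left _ _ hy), ?_⟩
        rw [map_add, map_mul, map_mul, map_pow, map_pow, ← hx', ← hy']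
        ring
    obtain ⟨n, w, hw, hw'⟩ := key (𝒞.ρ1B B u) (hspan ▸ Ideal.mem_span_singleton_self _)
    refine Cut.mem_of_smul_mem (𝒞.other I * 𝒞.other I') huv (n := n) (x := u) ?_ ?_
    · exact Ideal.mul_mem_mul huI huI'
    · have h2 : 𝒞.f1B B ^ n • u = w := by
        apply hinj
        rw [smul_eq_mul, map_mul, map_pow, hw']
      rw [h2]
      exact hw

/-- `u` is universally regular -/
lemma uReg_rev {a : 𝒞.R0 B} (ha : 𝒞.UReg a) {u : 𝒞.R1 B} {d : ℕ}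
    (hu : 𝒞.ρ1B B u = (𝒞.ρ1B B (𝒞.f1B B)) ^ d * 𝒞.ρ0B B a) :
    UReg 𝒞.swap (B := B) u := by
  intro B' _ _ φ
  have h1 : 𝒞.ρ1B B' (𝒞.bc1 φ u) = (𝒞.ρ1B B' (𝒞.f1B B')) ^ d * 𝒞.ρ0B B' (𝒞.bc0 φ a) := by
    rw [← bc01_ρ1B, hu, map_mul, map_pow, bc01_ρ1B, bc1_f1B, bc01_ρ0B]
  have h2 : 𝒞.ρ1B B' (𝒞.bc1 φ u) ∈ nonZeroDivisors (𝒞.R01 B') := by
    rw [h1]
    exact mul_mem (isUnit_G.pow d).mem_nonZeroDivisors (𝒞.nzd_ρ0B (ha B' φ))
  have h3 : ∀ x : 𝒞.R1 B', 𝒞.bc1 φ u * x = 0 → x = 0 := by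
    intro x hx
    apply 𝒞.ρ1B_injective B'
    rw [map_zero]
    apply (mem_nonZeroDivisors_iff.mp h2).1
    rw [← map_mul, hx, map_zero]
  show 𝒞.bc1 φ u ∈ nonZeroDivisors (𝒞.R1 B')
  rw [mem_nonZeroDivisors_iff]
  exact ⟨h3, fun x hx ↦ h3 x (by rwa [mul_comm])⟩

lemma IsCut.other {I : Ideal (𝒞.R0 B)} (h : 𝒞.IsCut I) :
    IsCart (𝒞 := 𝒞.swap) (B := B) (𝒞.other I) := by
  obtain ⟨P, I', hP, hI⟩ := h
  obtain ⟨u, v, huv, hu⟩ := 𝒞.exists_rev hP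
  exact ⟨𝒞.other I', u, uReg_rev (𝒞.uReg_aeval hP) hu, other_mul_other hI huv hu⟩

variable (𝒞) in
lemma map_other_le (I : Ideal (𝒞.R0 B)) (φ : B →ₐ[k] B') :
    (𝒞.other I).map (𝒞.bc1 φ) ≤ 𝒞.other (I.map (𝒞.bc0 φ)) := by
  rw [Ideal.map_le_iff_le_comap]
  intro x hx
  rw [Ideal.mem_comap, mem_other, ← bc01_ρ1B]
  have h1 := Ideal.mem_map_of_mem (𝒞.bc01 φ) (mem_other.mp hx)
  rw [Ideal.map_map, bc01_comp_ρ0B, ← Ideal.map_map] at h1
  exact h1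

lemma IsCut.other_map {I : Ideal (𝒞.R0 B)} (h : 𝒞.IsCut I) (φ : B →ₐ[k] B') :
    (𝒞.other I).map (𝒞.bc1 φ) = 𝒞.other (I.map (𝒞.bc0 φ)) := by
  obtain ⟨P, I', hP, hI⟩ := h
  obtain ⟨u, v, huv, hu⟩ := 𝒞.exists_rev hP
  have h1 : (𝒞.other I).map (𝒞.bc1 φ) * (𝒞.other I').map (𝒞.bc1 φ) =
      Ideal.span {𝒞.bc1 φ u} := by
    rw [← Ideal.map_mul, other_mul_other hI huv hu, Ideal.map_span, Set.image_singleton]
  have hI2 : I.map (𝒞.bc0 φ) * I'.map (𝒞.bc0 φ) =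
      Ideal.span {𝒞.bc0 φ (Polynomial.aeval (𝒞.f0B B) P)} := by
    rw [← Ideal.map_mul, hI, Ideal.map_span, Set.image_singleton]
  have h2 : 𝒞.other (I.map (𝒞.bc0 φ)) * 𝒞.other (I'.map (𝒞.bc0 φ)) =
      Ideal.span {𝒞.bc1 φ u} := by
    refine other_mul_other hI2 (v := 𝒞.bc1 φ v) (d := P.natDegree) ?_ ?_
    · rw [huv, map_add, map_one, map_mul, bc1_f1B]
    · rw [← bc01_ρ1B, hu, map_mul, map_pow, bc01_ρ1B, bc1_f1B, bc01_ρ0B]
  exact Cut.eq_of_mul_eq (uReg_rev (𝒞.uReg_aeval hP) hu B' φ) h1 h2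
    (𝒞.map_other_le I φ) (𝒞.map_other_le I' φ)

variable (𝒞) in
lemma other_mul_le (I J : Ideal (𝒞.R0 B)) : 𝒞.other I * 𝒞.other J ≤ 𝒞.other (I * J) := by
  rw [Ideal.mul_le]
  intro r hr s hs
  rw [mem_other, map_mul, Ideal.map_mul]
  exact Ideal.mul_mem_mul hr hs

lemma IsCut.other_mul {I J : Ideal (𝒞.R0 B)} (hI : 𝒞.IsCut I) (hJ : 𝒞.IsCut J) :
    𝒞.other I * 𝒞.other J = 𝒞.other (I * J) := by
  obtain ⟨P, I', hP, hI⟩ := hI
  obtain ⟨Q, J', hQ, hJ⟩ := hJ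
  obtain ⟨u, v, huv, hu⟩ := 𝒞.exists_rev hP
  obtain ⟨u', v', huv', hu'⟩ := 𝒞.exists_rev hQ
  have h1 : (𝒞.other I * 𝒞.other J) * (𝒞.other I' * 𝒞.other J') = Ideal.span {u * u'} := by
    rw [mul_mul_mul_comm, other_mul_other hI huv hu, other_mul_other hJ huv' hu',
      Ideal.span_singleton_mul_span_singleton]
  have hIJ : (I * J) * (I' * J') = Ideal.span {Polynomial.aeval (𝒞.f0B B) (P * Q)} := by
    rw [mul_mul_mul_comm, hI, hJ, Ideal.span_singleton_mul_span_singleton, map_mul]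
  have hw : 𝒞.ρ1B B (u * u') = (𝒞.ρ1B B (𝒞.f1B B)) ^ (P.natDegree + Q.natDegree) *
      𝒞.ρ0B B (Polynomial.aeval (𝒞.f0B B) (P * Q)) := by
    rw [map_mul, hu, hu', map_mul, map_mul]
    ring
  have h2 : 𝒞.other (I * J) * 𝒞.other (I' * J') = Ideal.span {u * u'} := by
    refine other_mul_other hIJ (v := v + v' + 𝒞.f1B B * v * v')
      (d := P.natDegree + Q.natDegree) ?_ hw
    rw [huv, huv']
    ring
  have hreg : UReg 𝒞.swap (B := B) (u * u') := uReg_rev (𝒞.uReg_aeval (hP.mul hQ)) hw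
  exact Cut.eq_of_mul_eq hreg.nzd h1 h2 (𝒞.other_mul_le I J) (𝒞.other_mul_le I' J')

/-- equation on the other chart -/
lemma IsCut.exists_u {I : Ideal (𝒞.R0 B)} (h : 𝒞.IsCut I) :
    ∃ u v : 𝒞.R1 B, u = 1 + 𝒞.f1B B * v ∧ u ∈ 𝒞.other I := by
  obtain ⟨P, I', hP, hI⟩ := h
  obtain ⟨u, v, huv, hu⟩ := 𝒞.exists_rev hP
  refine ⟨u, v, huv, ?_⟩
  rw [mem_other, hu]
  exact Ideal.mul_mem_left _ _ (Ideal.mem_map_of_mem _ (Cut.mem_left_of_mul_eq hI))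

end TwoChart

open TwoChart

namespace Div

variable {k : Type u} [Field k] {𝒞 : TwoChart k} {B B' : Type u} [CommRing B] [Algebra k B]
  [CommRing B'] [Algebra k B']

/-- the divisor of an ideal on the chart `0`, closed in `C_B` -/
@[simps]
def ofCut (I : Ideal (𝒞.R0 B)) (h : 𝒞.IsCut I) : Div 𝒞 B where
  I0 := I
  I1 := 𝒞.other I
  map_eq := (𝒞.map_other I).symm
  cart0 := h.isCart
  cart1 := h.other

lemma ofCut_bc (I : Ideal (𝒞.R0 B)) (h : 𝒞.IsCut I) (φ : B →ₐ[k] B') :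
    (ofCut I h).bc φ = ofCut (I.map (𝒞.bc0 φ)) (h.map φ) :=
  Div.ext rfl (h.other_map φ)

lemma ofCut_mul {I J : Ideal (𝒞.R0 B)} (hI : 𝒞.IsCut I) (hJ : 𝒞.IsCut J) :
    (ofCut I hI).add (ofCut J hJ) = ofCut (I * J) (hI.mul hJ) :=
  Div.ext rfl (hI.other_mul hJ)

lemma ofCut_congr {I J : Ideal (𝒞.R0 B)} (hI : 𝒞.IsCut I) (h : I = J) :
    ofCut I hI = ofCut J (h ▸ hI) := by
  subst h; rfl

/-- a divisor concentrated on the chart `0` -/
lemma eq_ofCut (E : Div 𝒞 B) (h : 𝒞.IsCut E.I0) (h' : E.I1 = 𝒞.other E.I0) :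
    E = ofCut E.I0 h := Div.ext rfl h'

end Div

end Fermat.Agent.S25
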