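import Mathlib
import Fermat.Agent.S25.SubCut
import Fermat.Agent.S25.AlgChi

/-!
# S25, package ALG3 (3): `LB.sub D I`, `LB.sub1 D J`
-/

set_option autoImplicit false

universe u

open scoped TensorProduct Polynomial

noncomputable section

namespace Fermat.Agent.S25

open TwoChart

attribute [instance] TwoChart.finite_map0 TwoChart.projective_map0

namespace TwoChart

variable {k : Type u} [Field k] {𝒞 : TwoChart k} {B : Type u} [CommRing B] [Algebra k B]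

/-- the chart `1` part of `D(-I)` -/
theorem IsCut.mem_other_smul {I : Ideal (𝒞.R0 B)} (h : 𝒞.IsCut I) (D : LB 𝒞 B) {x : D.M1} :
    x ∈ (𝒞.other I • ⊤ : Submodule (𝒞.R1 B) D.M1) ↔
      D.r1 x ∈ (I.map (𝒞.ρ0B B).toRingHom • ⊤ : Submodule (𝒞.R01 B) D.M01) := by
  constructor
  · intro hx
    have h1 := Cut.map_mem_smul D.bc1.smul hx
    rwa [𝒞.map_other] at h1
  · intro hx
    have hsm : ∀ (a : 𝒞.R1 B) (m : D.M1), D.r1 (a • m) = 𝒞.ρ1B B a • D.r1 m := D.bc1.smul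
    have key : ∀ y ∈ (I.map (𝒞.ρ0B B).toRingHom • ⊤ : Submodule (𝒞.R01 B) D.M01),
        ∃ (n : ℕ) (z : D.M1), z ∈ (𝒞.other I • ⊤ : Submodule (𝒞.R1 B) D.M1) ∧
          (𝒞.ρ1B B (𝒞.f1B B)) ^ n • y = D.r1 z := by
      intro y hy
      induction hy using Submodule.smul_induction_on' with
      | smul s hs m _ =>
        obtain ⟨n, a, ha⟩ := 𝒞.exists_pow_mul_eq1 s
        obtain ⟨n', w, hw⟩ := D.exists_pow_smul_eq1 m
        refine ⟨n + n', a • w, Submodule.smul_mem_smul ?_ trivial, ?_⟩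
        · rw [mem_other, ← ha]
          exact Ideal.mul_mem_left _ _ hs
        · rw [hsm, ← ha, ← hw, smul_smul, smul_smul]
          congr 1
          ring
      | add y₁ _ y₂ _ h₁ h₂ =>
        obtain ⟨n, z, hz, hz'⟩ := h₁
        obtain ⟨n', z', hw, hw'⟩ := h₂
        refine ⟨n + n', (𝒞.f1B B) ^ n' • z + (𝒞.f1B B) ^ n • z',
          add_mem (Submodule.smul_mem _ _ hz) (Submodule.smul_mem _ _ hw), ?_⟩
        rw [map_add, hsm, hsm, map_pow, map_pow, ← hz', ← hw', smul_add, smul_smul, smul_smul,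
          ← pow_add, ← pow_add, add_comm n' n]
    obtain ⟨n, z, hz, hz'⟩ := key _ hx
    obtain ⟨u, v, huv, hu⟩ := h.exists_u
    refine Cut.mem_of_smul_mem _ huv (n := n) (Submodule.smul_mem_smul hu trivial) ?_
    have h1 : (𝒞.f1B B) ^ n • x = z := by
      apply D.r1_injective
      rw [hsm, map_pow, hz']
    rw [h1]
    exact hz

/-- every section on the intersection is a section on chart 1 plus a section of `I` -/
theorem IsCut.exists_r1_add {I : Ideal (𝒞.R0 B)} (h : 𝒞.IsCut I) (D : LB 𝒞 B) (y : D.M01) :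
    ∃ x : D.M1, y - D.r1 x ∈ (I.map (𝒞.ρ0B B).toRingHom • ⊤ : Submodule (𝒞.R01 B) D.M01) := by
  have hsm : ∀ (a : 𝒞.R1 B) (m : D.M1), D.r1 (a • m) = 𝒞.ρ1B B a • D.r1 m := D.bc1.smul
  obtain ⟨n, z, hz⟩ := D.exists_pow_smul_eq1 y
  obtain ⟨u, v, huv, hu⟩ := h.exists_u
  have hc : IsCoprime u (𝒞.f1B B ^ n) := by
    apply IsCoprime.pow_right
    exact ⟨1, -v, by rw [huv]; ring⟩
  obtain ⟨a, b, hab⟩ := hc
  refine ⟨b • z, ?_⟩
  have h1 : y = 𝒞.ρ1B B (a * u) • y + D.r1 (b • z) := by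
    have h2 : y = 𝒞.ρ1B B (a * u + b * 𝒞.f1B B ^ n) • y := by
      rw [hab, map_one, one_smul]
    conv_lhs => rw [h2]
    rw [map_add, add_smul, hsm, ← hz, smul_smul, ← map_pow, ← map_mul]
  have h3 : y - D.r1 (b • z) = 𝒞.ρ1B B (a * u) • y := by
    rw [sub_eq_iff_eq_add]
    exact h1
  rw [h3, map_mul]
  exact Submodule.smul_mem_smul (Ideal.mul_mem_left _ _ hu) trivial

end TwoChart

namespace LB

variable {k : Type u} [Field k] {𝒞 : TwoChart k} {B B' : Type u} [CommRing B] [Algebra k B]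
  [CommRing B'] [Algebra k B']

/-- factorization through `D'(-E)` -/
def Hom.factorD {D D' : LB 𝒞 B} (f : Hom D D') (E : Div 𝒞 B)
    (h0 : ∀ x, f.l0 x ∈ (E.I0 • ⊤ : Submodule (𝒞.R0 B) D'.M0))
    (h1 : ∀ x, f.l1 x ∈ (E.I1 • ⊤ : Submodule (𝒞.R1 B) D'.M1)) : Hom D (D'.subD E) where
  l0 := f.l0.codRestrict _ h0
  l1 := f.l1.codRestrict _ h1
  l01 := f.l01.codRestrict _ (fun x ↦ by
    have h2 : LinearMap.range f.l01 ≤
        (E.I0.map (𝒞.ρ0B B).toRingHom • ⊤ : Submodule (𝒞.R01 B) D'.M01) := by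
      rw [f.range_l01, Submodule.span_le]
      rintro _ ⟨_, ⟨y, rfl⟩, rfl⟩
      exact Cut.map_mem_smul D'.bc0.smul (h0 y)
    exact h2 ⟨x, rfl⟩)
  h0 x := Subtype.ext (f.h0 x)
  h1 x := Subtype.ext (f.h1 x)

/-- factorization through `D'(-I)` -/
def Hom.factorCut {D D' : LB 𝒞 B} (f : Hom D D') {I : Ideal (𝒞.R0 B)} (hI : 𝒞.IsCut I)
    (h0 : ∀ x, f.l0 x ∈ (I • ⊤ : Submodule (𝒞.R0 B) D'.M0)) :
    Hom D (D'.subD (Div.ofCut I hI)) :=
  f.factorD (Div.ofCut I hI) h0 (fun x ↦ by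
    rw [Div.ofCut_I1, hI.mem_other_smul, f.h1]
    have h2 : LinearMap.range f.l01 ≤
        (I.map (𝒞.ρ0B B).toRingHom • ⊤ : Submodule (𝒞.R01 B) D'.M01) := by
      rw [f.range_l01, Submodule.span_le]
      rintro _ ⟨_, ⟨y, rfl⟩, rfl⟩
      exact Cut.map_mem_smul D'.bc0.smul (h0 y)
    exact h2 ⟨_, rfl⟩)

/-- base change of `D(-E)`, with the base changed divisor up to equality -/
def BC.subD' {φ : B →ₐ[k] B'} {D : LB 𝒞 B} {D' : LB 𝒞 B'} (h : BC φ D D') {E : Div 𝒞 B}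
    {E' : Div 𝒞 B'} (e : E.bc φ = E') : BC φ (D.subD E) (D'.subD E') where
  u0 := Cut.restr h.bc0.smul E.I0 (by rw [← e, Div.bc_I0])
  u1 := Cut.restr h.bc1.smul E.I1 (by rw [← e, Div.bc_I1])
  u01 := Cut.restr h.bc01.smul (E.I0.map (𝒞.ρ0B B).toRingHom) (by
    rw [← e, Ideal.map_map, Div.bc_I0, Ideal.map_map, bc01_comp_ρ0B])
  bc0 := by subst e; exact (h.subD E).bc0
  bc1 := by subst e; exact (h.subD E).bc1
  bc01 := by subst e; exact (h.subD E).bc01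
  h0 x := Subtype.ext (h.h0 x.1)
  h1 x := Subtype.ext (h.h1 x.1)

/-- `chi (D(-I)) = chi D - dim R0/I` -/
theorem chi_subCut {K : Type u} [Field K] [Algebra k K] (D : LB 𝒞 K) {I : Ideal (𝒞.R0 K)}
    (hI : 𝒞.IsCut I) [Module.Finite K (𝒞.R0 K ⧸ I)] :
    D.chi = (D.subD (Div.ofCut I hI)).chi + Module.finrank K (𝒞.R0 K ⧸ I) := by
  obtain ⟨e⟩ := exists_quotient_equiv (K := K) (R := 𝒞.R0 K) (M := D.M0) I
  let π : D.M0 →ₗ[K] 𝒞.R0 K ⧸ I :=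
    (e.toLinearMap ∘ₗ (I • ⊤ : Submodule (𝒞.R0 K) D.M0).mkQ).restrictScalars K
  have hπ : Function.Surjective π := e.surjective.comp (Submodule.mkQ_surjective _)
  have hker : ∀ x, π x = 0 ↔ x ∈ (I • ⊤ : Submodule (𝒞.R0 K) D.M0) := fun x ↦
    (LinearEquiv.map_eq_zero_iff e).trans (Submodule.Quotient.mk_eq_zero _)
  let S := D.subD (Div.ofCut I hI)
  let j := D.subHom (Div.ofCut I hI)
  refine chi_add (D := S) (D' := D) (j.l0.restrictScalars K) (j.l1.restrictScalars K)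
    (j.l01.restrictScalars K) j.h0 j.h1 (D.subHom_inj01 _) ?_ ?_ π hπ ?_
  · intro y
    obtain ⟨x, hx⟩ := hI.exists_r1_add D y
    exact ⟨x, ⟨_, hx⟩, by
      show y = D.r1 x + (y - D.r1 x)
      abel⟩
  · intro x v hxv
    have h1 : x ∈ (𝒞.other I • ⊤ : Submodule (𝒞.R1 K) D.M1) := by
      rw [hI.mem_other_smul, hxv]
      exact v.2
    exact ⟨⟨x, h1⟩, rfl⟩
  · intro x
    rw [hker]
    constructor
    · intro hx
      exact ⟨⟨x, hx⟩, rfl⟩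
    · rintro ⟨y, rfl⟩
      exact y.2

end LB

namespace Div

variable {k : Type u} [Field k] {𝒞 : TwoChart k} {B B' : Type u} [CommRing B] [Algebra k B]
  [CommRing B'] [Algebra k B']

/-- the divisor of an ideal of `R0 B` with finite projective quotient -/
def ofIdeal (I : Ideal (𝒞.R0 B)) [Module.Finite B (𝒞.R0 B ⧸ I)]
    [Module.Projective B (𝒞.R0 B ⧸ I)] : Div 𝒞 B := ofCut I (𝒞.isCut I)

/-- the divisor of an ideal of `R1 B` with finite projective quotient -/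
def ofIdeal1 (J : Ideal (𝒞.R1 B)) [h : Module.Finite B (𝒞.R1 B ⧸ J)]
    [h' : Module.Projective B (𝒞.R1 B ⧸ J)] : Div 𝒞 B :=
  (ofCut (𝒞 := 𝒞.swap) (B := B) J (@TwoChart.isCut k _ 𝒞.swap B _ _ J h h')).unswap

section

variable (I J : Ideal (𝒞.R0 B)) [Module.Finite B (𝒞.R0 B ⧸ I)]
    [Module.Projective B (𝒞.R0 B ⧸ I)] [Module.Finite B (𝒞.R0 B ⧸ J)]
    [Module.Projective B (𝒞.R0 B ⧸ J)]

@[simp] lemma ofIdeal_I0 : (ofIdeal I).I0 = I := rfl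
@[simp] lemma ofIdeal_I1 : (ofIdeal I).I1 = 𝒞.other I := rfl

lemma ofIdeal_bc (φ : B →ₐ[k] B') :
    (ofIdeal I).bc φ = ofIdeal (I.map (𝒞.bc0 φ)) := ofCut_bc I _ φ

lemma ofIdeal_mul [Module.Finite B (𝒞.R0 B ⧸ (I * J))]
    [Module.Projective B (𝒞.R0 B ⧸ (I * J))] :
    (ofIdeal I).add (ofIdeal J) = ofIdeal (I * J) := ofCut_mul _ _

end

section

variable (J : Ideal (𝒞.R1 B)) [Module.Finite B (𝒞.R1 B ⧸ J)]
    [Module.Projective B (𝒞.R1 B ⧸ J)]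

@[simp] lemma ofIdeal1_I1 : (ofIdeal1 J).I1 = J := rfl
lemma ofIdeal1_I0 : (ofIdeal1 J).I0 =
    (J.map (𝒞.ρ1B B).toRingHom).comap (𝒞.ρ0B B).toRingHom := rfl

end

end Div

namespace LB

variable {k : Type u} [Field k] {𝒞 : TwoChart k} {B B' : Type u} [CommRing B] [Algebra k B]
  [CommRing B'] [Algebra k B']

/-- the twist `D(-I)` for `I ⊂ R0 B` with finite projective quotient -/
abbrev sub (D : LB 𝒞 B) (I : Ideal (𝒞.R0 B)) [Module.Finite B (𝒞.R0 B ⧸ I)]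
    [Module.Projective B (𝒞.R0 B ⧸ I)] : LB 𝒞 B := D.subD (Div.ofIdeal I)

/-- the twist `D(-J)` for `J ⊂ R1 B` with finite projective quotient -/
abbrev sub1 (D : LB 𝒞 B) (J : Ideal (𝒞.R1 B)) [Module.Finite B (𝒞.R1 B ⧸ J)]
    [Module.Projective B (𝒞.R1 B ⧸ J)] : LB 𝒞 B := D.subD (Div.ofIdeal1 J)

/-- the inclusion -/
abbrev subι (D : LB 𝒞 B) (I : Ideal (𝒞.R0 B)) [Module.Finite B (𝒞.R0 B ⧸ I)]
    [Module.Projective B (𝒞.R0 B ⧸ I)] : Hom (D.sub I) D := D.subHom (Div.ofIdeal I)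

/-- the inclusion -/
abbrev sub1ι (D : LB 𝒞 B) (J : Ideal (𝒞.R1 B)) [Module.Finite B (𝒞.R1 B ⧸ J)]
    [Module.Projective B (𝒞.R1 B ⧸ J)] : Hom (D.sub1 J) D := D.subHom (Div.ofIdeal1 J)

/-- base change of `D(-I)` -/
def BC.sub {φ : B →ₐ[k] B'} {D : LB 𝒞 B} {D' : LB 𝒞 B'} (h : BC φ D D')
    (I : Ideal (𝒞.R0 B)) [Module.Finite B (𝒞.R0 B ⧸ I)]
    [Module.Projective B (𝒞.R0 B ⧸ I)] : BC φ (D.sub I) (D'.sub (I.map (𝒞.bc0 φ))) :=
  h.subD' (Div.ofIdeal_bc I φ)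

/-- factorization through `D'(-I)` -/
def Hom.factor {D D' : LB 𝒞 B} (f : Hom D D') (I : Ideal (𝒞.R0 B))
    [Module.Finite B (𝒞.R0 B ⧸ I)] [Module.Projective B (𝒞.R0 B ⧸ I)]
    (h0 : ∀ x, f.l0 x ∈ (I • ⊤ : Submodule (𝒞.R0 B) D'.M0)) : Hom D (D'.sub I) :=
  f.factorCut (𝒞.isCut I) h0

@[simp] lemma Hom.factor_l0 {D D' : LB 𝒞 B} (f : Hom D D') (I : Ideal (𝒞.R0 B))
    [Module.Finite B (𝒞.R0 B ⧸ I)] [Module.Projective B (𝒞.R0 B ⧸ I)]
    (h0 : ∀ x, f.l0 x ∈ (I • ⊤ : Submodule (𝒞.R0 B) D'.M0)) (x : D.M0) :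
    (D'.subι I).l0 ((f.factor I h0).l0 x) = f.l0 x := rfl

@[simp] lemma Hom.factor_l1 {D D' : LB 𝒞 B} (f : Hom D D') (I : Ideal (𝒞.R0 B))
    [Module.Finite B (𝒞.R0 B ⧸ I)] [Module.Projective B (𝒞.R0 B ⧸ I)]
    (h0 : ∀ x, f.l0 x ∈ (I • ⊤ : Submodule (𝒞.R0 B) D'.M0)) (x : D.M1) :
    (D'.subι I).l1 ((f.factor I h0).l1 x) = f.l1 x := rfl

/-- `D(-I)` and the exchange of charts -/
def sub1Swap (D : LB 𝒞 B) (J : Ideal (𝒞.R1 B)) [Module.Finite B (𝒞.R1 B ⧸ J)]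
    [Module.Projective B (𝒞.R1 B ⧸ J)] : Iso (D.sub1 J).swap (D.swap.subD (Div.ofIdeal1 J).swap) :=
  D.subSwap _

section Field

variable {K : Type u} [Field K] [Algebra k K]

/-- `chi (D(-I)) = chi D - dim R0/I` -/
theorem chi_sub (D : LB 𝒞 K) (I : Ideal (𝒞.R0 K)) [Module.Finite K (𝒞.R0 K ⧸ I)] :
    (D.sub I).chi = D.chi - Module.finrank K (𝒞.R0 K ⧸ I) := by
  have := D.chi_subCut (𝒞.isCut I)
  rw [this]
  unfold sub Div.ofIdeal
  ring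

/-- `chi (D(-J)) = chi D - dim R1/J` -/
theorem chi_sub1 (D : LB 𝒞 K) (J : Ideal (𝒞.R1 K)) [h : Module.Finite K (𝒞.R1 K ⧸ J)] :
    (D.sub1 J).chi = D.chi - Module.finrank K (𝒞.R1 K ⧸ J) := by
  have h1 := @chi_sub k _ 𝒞.swap K _ _ D.swap J h
  rw [chi_swap] at h1
  have h2 := (D.sub1Swap J).chi
  rw [chi_swap] at h2
  rw [h2]
  exact h1

end Field

end LB

end Fermat.Agent.S25
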