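import Mathlib
import Fermat.Agent.S25.ChartE
import Fermat.Agent.S25.SubOf

/-!
# S25 / ALG4: existence of subbundles
-/

set_option autoImplicit false

universe u

noncomputable section

namespace Fermat.Agent.S25.LB

variable {k : Type u} [Field k] {𝒞 : CurveData k} {B : Type u} [CommRing B] [Algebra k B]

theorem isSub_subι (D : LB 𝒞.toTwoChart B) (J : Ideal (𝒞.R0 B)) [Module.Finite B (𝒞.R0 B ⧸ J)]
    [Module.Projective B (𝒞.R0 B ⧸ J)] : (D.subι J).IsSub J where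
  inj0 := D.subHom_inj0 _
  inj1 := D.subHom_inj1 _
  inj01 := D.subHom_inj01 _
  range0 := D.subHom_range0 _
  range1 := fun y w h ↦ by
    have h1 : y ∈ (𝒞.other J • ⊤ : Submodule (𝒞.R1 B) D.M1) := by
      rw [(𝒞.isCut J).mem_other_smul, h]
      exact w.2
    exact ⟨⟨y, h1⟩, rfl⟩

theorem exists_sub (D : LB 𝒞.toTwoChart B) (J : Ideal (𝒞.R0 B)) [Module.Finite B (𝒞.R0 B ⧸ J)]
    [Module.Projective B (𝒞.R0 B ⧸ J)] :
    ∃ (D' : LB 𝒞.toTwoChart B) (ι : Hom D' D), ι.IsSub J := ⟨_, _, D.isSub_subι J⟩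

end Fermat.Agent.S25.LB
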