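import Mathlib
import Fermat.Agent.S25.TCIdeal

/-!
# S25, package HILB: formal smoothness of the representing ring
-/

set_option autoImplicit false

universe u

open scoped TensorProduct Polynomial Matrix

noncomputable section

namespace Fermat.Agent.S25.HilbSm

open Fermat.Agent.S25.Hilb Fermat.Agent.S25.Nrm Fermat.Agent.S25.Invert Fermat.Agent.S25.IdealBC

section Nilp

variable {B : Type*} [CommRing B] {J : Ideal B} {M N : Type*} [AddCommGroup M] [AddCommGroup N]
  [Module B M] [Module B N]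

theorem smul_eq_zero_of_mem (hJ : J ^ 2 = ⊥) {j : B} (hj : j ∈ J) {w : N}
    (hw : w ∈ (J • ⊤ : Submodule B N)) : j • w = 0 := by
  refine Submodule.smul_induction_on (p := fun w => j • w = 0) hw ?_ ?_
  · intro j' hj' w _
    have : j * j' ∈ J ^ 2 := by rw [pow_two]; exact Ideal.mul_mem_mul hj hj'
    rw [hJ, Ideal.mem_bot] at this
    rw [smul_smul, this, zero_smul]
  · intro x y hx hy
    rw [smul_add, hx, hy, add_zero]

/-- bijectivity modulo a square-zero ideal -/
theorem bijective_of_sq_zero (hJ : J ^ 2 = ⊥) [Module.Projective B N] (Φ : M →ₗ[B] N)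
    (h1 : ∀ n, ∃ m, n - Φ m ∈ (J • ⊤ : Submodule B N))
    (h2 : ∀ m, Φ m ∈ (J • ⊤ : Submodule B N) → m ∈ (J • ⊤ : Submodule B M)) :
    Function.Bijective Φ := by
  have hsurj : Function.Surjective Φ := by
    have h3 : (J • ⊤ : Submodule B N) ≤ LinearMap.range Φ := by
      rw [Submodule.smul_le]
      intro j hj n _
      obtain ⟨m, hm⟩ := h1 n
      refine ⟨j • m, ?_⟩
      have := smul_eq_zero_of_mem hJ hj hm
      rw [smul_sub, sub_eq_zero] at this
      rw [map_smul, this]
    intro n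
    obtain ⟨m, hm⟩ := h1 n
    obtain ⟨m', hm'⟩ := h3 hm
    exact ⟨m' + m, by rw [map_add, hm', sub_add_cancel]⟩
  refine ⟨?_, hsurj⟩
  obtain ⟨σ, hσ⟩ := Module.projective_lifting_property Φ LinearMap.id hsurj
  have hσ' : ∀ n, Φ (σ n) = n := fun n => congr($hσ n)
  rw [injective_iff_map_eq_zero]
  intro z hz
  let θ : M →ₗ[B] M := LinearMap.id - σ ∘ₗ Φ
  have hθ : ∀ m, θ m = m - σ (Φ m) := fun _ => rfl
  have hθ1 : ∀ m, θ m ∈ (J • ⊤ : Submodule B M) := by
    intro m
    apply h2
    rw [hθ, map_sub, hσ', sub_self]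
    exact zero_mem _
  have hz1 : θ z = z := by rw [hθ, hz, map_zero, sub_zero]
  have hz2 : z ∈ (J • ⊤ : Submodule B M) := hz1 ▸ hθ1 z
  have hθ2 : ∀ m ∈ (J • ⊤ : Submodule B M), θ m = 0 := by
    intro m hm
    refine Submodule.smul_induction_on (p := fun m => θ m = 0) hm ?_ ?_
    · intro j hj w _
      rw [map_smul]
      exact smul_eq_zero_of_mem hJ hj (hθ1 w)
    · intro x y hx hy
      rw [map_add, hx, hy, add_zero]
  rw [← hz1]
  exact hθ2 z hz2

end Nilp

section Lift

variable {k : Type u} [Field k] {A : Type u} [CommRing A] [Algebra k A] {g : ℕ} {a : Fin g → A}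
  {B : Type u} [CommRing B] [Algebra k B]

theorem hasBasis_iff {I : Ideal (B ⊗[k] A)} : HasBasis a I ↔
    (∀ y, ∃ b : Fin g → B, y - ∑ i, b i • ((1 : B) ⊗ₜ[k] a i) ∈ I) ∧
    ∀ b : Fin g → B, ∑ i, b i • ((1 : B) ⊗ₜ[k] a i) ∈ I → b = 0 := by
  have hmk : ∀ v : Fin g → B, Ideal.Quotient.mk I (∑ i, v i • ((1 : B) ⊗ₜ[k] a i)) =
      ∑ i, v i • Ideal.Quotient.mk I ((1 : B) ⊗ₜ[k] a i) := by
    intro v
    rw [map_sum]
    rfl
  constructor
  · rintro ⟨b, hb⟩
    refine ⟨fun y => ⟨b.repr (Ideal.Quotient.mk I y), ?_⟩, fun v hv => ?_⟩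
    · rw [← Ideal.Quotient.eq, hmk]
      conv_lhs => rw [← b.sum_repr (Ideal.Quotient.mk I y)]
      simp only [hb]
    · rw [← Ideal.Quotient.eq_zero_iff_mem, hmk] at hv
      simp only [← hb] at hv
      ext i
      exact Fintype.linearIndependent_iff.mp b.linearIndependent v hv i
  · rintro ⟨h1, h2⟩
    let s : (Fin g → B) →ₗ[B] ((B ⊗[k] A) ⧸ I) :=
      Fintype.linearCombination B (fun i => Ideal.Quotient.mk I (1 ⊗ₜ a i))
    have hs : ∀ v, s v = Ideal.Quotient.mk I (∑ i, v i • ((1 : B) ⊗ₜ[k] a i)) := by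
      intro v
      rw [Fintype.linearCombination_apply, hmk]
    have hbij : Function.Bijective s := by
      constructor
      · rw [injective_iff_map_eq_zero]
        intro v hv
        rw [hs, Ideal.Quotient.eq_zero_iff_mem] at hv
        exact h2 v hv
      · intro y
        obtain ⟨y, rfl⟩ := Ideal.Quotient.mk_surjective y
        obtain ⟨b, hb⟩ := h1 y
        refine ⟨b, ?_⟩
        rw [hs]
        exact (Ideal.Quotient.eq.mpr hb).symm
    refine ⟨Module.Basis.ofEquivFun (LinearEquiv.ofBijective s hbij).symm, fun i => ?_⟩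
    rw [Module.Basis.coe_ofEquivFun, LinearEquiv.symm_symm]
    show s (Pi.single i 1) = _
    rw [hs]
    congr 1
    simp [Pi.single_apply, Finset.sum_ite_eq']

/-- **Lifting of ideals with basis `a` along square-zero extensions.** -/
theorem exists_lift (J : Ideal B) (hJ : J ^ 2 = ⊥) (I' : Ideal ((B ⧸ J) ⊗[k] A))
    (hI' : HasBasis a I') (hinv : Module.Invertible ((B ⧸ J) ⊗[k] A) I') :
    ∃ I : Ideal (B ⊗[k] A), HasBasis a I ∧ I.map (bcR (Ideal.Quotient.mkₐ k J)) = I' := by
  classical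
  set ψ : B →ₐ[k] B ⧸ J := Ideal.Quotient.mkₐ k J with hψ
  set f : B ⊗[k] A →+* (B ⧸ J) ⊗[k] A := bcR ψ with hf
  have hfs : ∀ (b : B) (y : B ⊗[k] A), f (b • y) = ψ b • f y := fun b y => bcR_smul ψ b y
  have hfa : ∀ x : A, f (1 ⊗ₜ x) = 1 ⊗ₜ x := fun x => by rw [hf, bcR_tmul, map_one]
  have hsurj : Function.Surjective f := by
    intro y
    induction y using TensorProduct.induction_on with
    | zero => exact ⟨0, map_zero f⟩
    | tmul b x =>
      obtain ⟨b, rfl⟩ := Ideal.Quotient.mk_surjective b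
      exact ⟨b ⊗ₜ x, rfl⟩
    | add y z hy hz =>
      obtain ⟨y, rfl⟩ := hy
      obtain ⟨z, rfl⟩ := hz
      exact ⟨y + z, map_add f y z⟩
  have hkerψ : RingHom.ker ψ = J := Ideal.mk_ker
  have hker : ∀ y, f y = 0 → y ∈ (J • ⊤ : Submodule B (B ⊗[k] A)) := by
    intro y hy
    rw [Ideal.smul_top_eq_map]
    have := mem_map_ker ψ hy
    rwa [hkerψ] at this
  have hker' : ∀ y ∈ (J • ⊤ : Submodule B (B ⊗[k] A)), f y = 0 := by
    intro y hy
    refine Submodule.smul_induction_on (p := fun y => f y = 0) hy ?_ ?_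
    · intro j hj y _
      rw [hfs, hψ, Ideal.Quotient.mkₐ_eq_mk, Ideal.Quotient.eq_zero_iff_mem.mpr hj, zero_smul]
    · intro x y hx hy
      rw [map_add, hx, hy, add_zero]
  obtain ⟨hI1, hI2⟩ := hasBasis_iff.mp hI'
  obtain ⟨n, p, s, -, -, hps⟩ :=
    Module.Finite.exists_comp_eq_id_of_projective ((B ⧸ J) ⊗[k] A) I'
  have hps' : ∀ y, p (s y) = y := fun y => congr($hps y)
  let x₀ : Fin n → I' := fun i => p (Pi.single i 1)
  have hp : ∀ v, p v = ∑ i, v i • x₀ i := by
    intro v
    have : v = ∑ i, v i • (Pi.single i 1 : Fin n → (B ⧸ J) ⊗[k] A) := by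
      ext i
      simp [Finset.sum_apply, Pi.single_apply]
    conv_lhs => rw [this]
    rw [map_sum]
    simp only [map_smul]
    rfl
  have hsum : ∀ y : I', ∑ i, s y i • x₀ i = y := fun y => by rw [← hp, hps']
  have hsum' : ∀ y : I', ∑ i, s y i * (x₀ i : (B ⧸ J) ⊗[k] A) = y := fun y => by
    have := congr(($(hsum y) : (B ⧸ J) ⊗[k] A))
    simpa using this
  -- the idempotent matrix
  let E₀ : Matrix (Fin n) (Fin n) ((B ⧸ J) ⊗[k] A) := fun j i => s (x₀ j) i
  have hE₀ : IsIdempotentElem E₀ := by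
    ext j l
    rw [Matrix.mul_apply]
    show ∑ i, s (x₀ j) i * s (x₀ i) l = s (x₀ j) l
    conv_rhs => rw [← hsum (x₀ j), map_sum]
    simp
  obtain ⟨E, hE, hEf⟩ := exists_isIdempotentElem_eq_of_ker_isNilpotent
    (f.mapMatrix : Matrix (Fin n) (Fin n) (B ⊗[k] A) →+* Matrix (Fin n) (Fin n) _) (by
      intro M hM
      have hM' : ∀ i j, M i j ∈ (J • ⊤ : Submodule B (B ⊗[k] A)) := by
        intro i j
        apply hker
        exact congr(($(RingHom.mem_ker.mp hM) : Matrix _ _ _) i j)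
      refine ⟨2, ?_⟩
      ext i j
      rw [pow_two, Matrix.mul_apply, Matrix.zero_apply]
      refine Finset.sum_eq_zero fun l _ => ?_
      have h3 := hM' i l
      have h4 := hM' l j
      rw [Ideal.smul_top_eq_map] at h3 h4
      have h5 : M i l * M l j ∈ (J.map (algebraMap B (B ⊗[k] A))) ^ 2 := by
        rw [pow_two]; exact Ideal.mul_mem_mul h3 h4
      rw [← Ideal.map_pow, hJ, Ideal.map_bot, Ideal.mem_bot] at h5
      exact h5) E₀ (by
      refine ⟨fun i j => (hsurj (E₀ i j)).choose, ?_⟩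
      ext i j
      exact (hsurj (E₀ i j)).choose_spec) hE₀
  have hEf' : ∀ i j, f (E i j) = s (x₀ i) j := fun i j => congr(($hEf : Matrix _ _ _) i j)
  have hEE : ∀ i j, ∑ l, E i l * E l j = E i j := fun i j => congr(($hE : Matrix _ _ _) i j)
  choose x₁ hx₁ using fun i => hsurj (x₀ i : (B ⧸ J) ⊗[k] A)
  let x : Fin n → B ⊗[k] A := fun i => ∑ j, E i j * x₁ j
  have hx : ∀ i, f (x i) = x₀ i := by
    intro i
    show f (∑ j, E i j * x₁ j) = _
    rw [map_sum]
    simp only [map_mul, hEf', hx₁, hsum']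
  have hEx : ∀ i, ∑ j, E i j * x j = x i := by
    intro i
    show ∑ j, E i j * (∑ l, E j l * x₁ l) = ∑ l, E i l * x₁ l
    simp only [Finset.mul_sum]
    rw [Finset.sum_comm]
    refine Finset.sum_congr rfl fun l _ => ?_
    rw [← hEE i l, Finset.sum_mul]
    refine Finset.sum_congr rfl fun j _ => ?_
    ring
  -- the projective module
  let ε : (Fin n → B ⊗[k] A) →ₗ[B] (Fin n → B ⊗[k] A) :=
    (Matrix.vecMulLinear E).restrictScalars B
  have hε : ∀ v i, ε v i = ∑ j, v j * E j i := fun v i => rfl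
  have hεε : ∀ v, ε (ε v) = ε v := by
    intro v
    show (v ᵥ* E) ᵥ* E = v ᵥ* E
    rw [Matrix.vecMul_vecMul, hE.eq]
  let P : Submodule B (Fin n → B ⊗[k] A) := LinearMap.range ε
  have hP : ∀ v : P, ε v = v := by
    rintro ⟨_, w, rfl⟩
    exact hεε w
  let dot : (Fin n → B ⊗[k] A) →ₗ[B] B ⊗[k] A :=
    ∑ i, (LinearMap.mulRight B (x i)) ∘ₗ LinearMap.proj i
  have hdot : ∀ v, dot v = ∑ i, v i * x i := fun v => by simp [dot]
  have hdotε : ∀ v, dot (ε v) = dot v := by
    intro v
    rw [hdot, hdot]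
    simp only [hε, Finset.sum_mul]
    rw [Finset.sum_comm]
    refine Finset.sum_congr rfl fun j _ => ?_
    rw [← hEx j, Finset.mul_sum]
    refine Finset.sum_congr rfl fun i _ => ?_
    ring
  let bs : (Fin g → B) →ₗ[B] B ⊗[k] A :=
    Fintype.linearCombination B (fun i => (1 : B) ⊗ₜ[k] a i)
  have hbs : ∀ b, bs b = ∑ i, b i • ((1 : B) ⊗ₜ[k] a i) := fun b => rfl
  let Φ : P × (Fin g → B) →ₗ[B] B ⊗[k] A := (dot ∘ₗ P.subtype).coprod bs
  have hΦ : ∀ v b, Φ (v, b) = dot v + bs b := fun v b => rfl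
  have hfbs : ∀ b, f (bs b) = ∑ i, ψ (b i) • ((1 : B ⧸ J) ⊗ₜ[k] a i) := by
    intro b
    rw [hbs, map_sum]
    simp only [hfs, hfa]
  have hfdot : ∀ v, f (dot v) = ∑ i, f (v i) * x₀ i := by
    intro v
    rw [hdot, map_sum]
    simp only [map_mul, hx]
  have hΦb : Function.Bijective Φ := by
    apply bijective_of_sq_zero hJ
    · intro y
      obtain ⟨b', hb'⟩ := hI1 (f y)
      choose b hb using fun i => Ideal.Quotient.mk_surjective (b' i)
      choose r hr using fun i => hsurj (s ⟨_, hb'⟩ i)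
      refine ⟨(⟨ε r, r, rfl⟩, b), hker _ ?_⟩
      rw [map_sub, hΦ, map_add]
      show f y - (f (dot (ε r)) + f (bs b)) = 0
      rw [hdotε, hfdot, hfbs]
      simp only [hr, hsum']
      have : ∀ i, ψ (b i) = b' i := hb
      simp only [this]
      abel
    · rintro ⟨r, b⟩ hrb
      have h3 := hker' _ hrb
      rw [hΦ, map_add, hfdot, hfbs] at h3
      have h4 : ∑ i, f ((r : Fin n → B ⊗[k] A) i) * (x₀ i : (B ⧸ J) ⊗[k] A) ∈ I' :=
        I'.sum_mem fun i _ => I'.mul_mem_left _ (x₀ i).2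
      have h5 : ∑ i, ψ (b i) • ((1 : B ⧸ J) ⊗ₜ[k] a i) ∈ I' := by
        rw [← neg_eq_of_add_eq_zero_right h3]
        exact neg_mem h4
      have h6 := hI2 _ h5
      have h7 : ∀ i, b i ∈ J := fun i => Ideal.Quotient.eq_zero_iff_mem.mp congr($h6 i)
      have h8 : ∑ i, f ((r : Fin n → B ⊗[k] A) i) • x₀ i = 0 := by
        apply Subtype.ext
        rw [Submodule.coe_sum]
        simp only [Submodule.coe_smul, smul_eq_mul, Submodule.coe_zero]
        have h9 : ∑ i, ψ (b i) • ((1 : B ⧸ J) ⊗ₜ[k] a i) = 0 :=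
          Finset.sum_eq_zero fun i _ => by
            have : ψ (b i) = 0 := congr($h6 i)
            rw [this, zero_smul]
        rw [h9, add_zero] at h3
        exact h3
      have h10 : ∀ i, f ((r : Fin n → B ⊗[k] A) i) = 0 := by
        intro i
        rw [← hP r, hε, map_sum]
        simp only [map_mul, hEf']
        have := congrArg (fun z => s z i) h8
        simpa using this
      -- membership in `J • ⊤`
      have h11 : (r : Fin n → B ⊗[k] A) ∈ (J • ⊤ : Submodule B (Fin n → B ⊗[k] A)) := by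
        have : (r : Fin n → B ⊗[k] A) = ∑ i, LinearMap.single B (fun _ => B ⊗[k] A) i
            ((r : Fin n → B ⊗[k] A) i) := by
          ext i
          simp [Finset.sum_apply, Pi.single_apply]
        rw [this]
        refine Submodule.sum_mem _ fun i _ => ?_
        have h12 := Submodule.mem_map_of_mem
          (f := LinearMap.single B (fun _ : Fin n => B ⊗[k] A) i) (hker _ (h10 i))
        rw [Submodule.map_smul''] at h12
        exact Submodule.smul_mono le_rfl le_top h12
      have h12 : r ∈ (J • ⊤ : Submodule B P) := by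
        have h13 := Submodule.mem_map_of_mem (f := ε.rangeRestrict) h11
        rw [Submodule.map_smul''] at h13
        have h14 : ε.rangeRestrict (r : Fin n → B ⊗[k] A) = r := Subtype.ext (hP r)
        rw [h14] at h13
        exact Submodule.smul_mono le_rfl le_top h13
      have h15 : b ∈ (J • ⊤ : Submodule B (Fin g → B)) := by
        have : b = ∑ i, b i • (Pi.single i 1 : Fin g → B) := by
          ext i
          simp [Finset.sum_apply, Pi.single_apply]
        rw [this]
        exact Submodule.sum_mem _ fun i _ => Submodule.smul_mem_smul (h7 i) trivial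
      have h16 : (r, b) = LinearMap.inl B P (Fin g → B) r + LinearMap.inr B P (Fin g → B) b := by
        simp
      rw [h16]
      refine add_mem ?_ ?_
      · have h17 := Submodule.mem_map_of_mem (f := LinearMap.inl B P (Fin g → B)) h12
        rw [Submodule.map_smul''] at h17
        exact Submodule.smul_mono le_rfl le_top h17
      · have h17 := Submodule.mem_map_of_mem (f := LinearMap.inr B P (Fin g → B)) h15
        rw [Submodule.map_smul''] at h17
        exact Submodule.smul_mono le_rfl le_top h17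
  -- the ideal
  let I : Ideal (B ⊗[k] A) := Ideal.span (Set.range x)
  have hmemI : ∀ y, y ∈ I ↔ ∃ r, y = dot r := by
    intro y
    rw [Ideal.mem_span_range_iff_exists_fun]
    simp only [hdot, eq_comm]
  refine ⟨I, hasBasis_iff.mpr ⟨fun y => ?_, fun b hb => ?_⟩, ?_⟩
  · obtain ⟨⟨r, b⟩, hrb⟩ := hΦb.2 y
    refine ⟨b, ?_⟩
    rw [← hrb, hΦ, hbs, add_sub_cancel_right, hmemI]
    exact ⟨_, rfl⟩
  · obtain ⟨r, hr⟩ := (hmemI _).mp hb
    have : Φ (⟨ε r, r, rfl⟩, 0) = Φ (0, b) := by
      rw [hΦ, hΦ]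
      show dot (ε r) + bs 0 = dot 0 + bs b
      rw [hdotε, map_zero, map_zero, add_zero, zero_add, ← hr, hbs]
    exact (congrArg Prod.snd (hΦb.1 this)).symm
  · apply le_antisymm
    · rw [Ideal.map_span, Ideal.span_le]
      rintro _ ⟨_, ⟨i, rfl⟩, rfl⟩
      show f (x i) ∈ I'
      rw [hx]
      exact (x₀ i).2
    · intro y hy
      have := hsum' ⟨y, hy⟩
      simp only at this
      rw [← this]
      refine Ideal.sum_mem _ fun i _ => Ideal.mul_mem_left _ _ ?_
      rw [← hx]
      exact Ideal.mem_map_of_mem _ (Ideal.subset_span ⟨i, rfl⟩)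

/-- quotients with a basis are projective -/
theorem _root_.Fermat.Agent.S25.Hilb.HasBasis.projective {I : Ideal (B ⊗[k] A)}
    (h : HasBasis a I) : Module.Projective B ((B ⊗[k] A) ⧸ I) := by
  obtain ⟨b, _⟩ := h
  exact Module.Projective.of_basis b

theorem _root_.Fermat.Agent.S25.Hilb.HasBasis.finite {I : Ideal (B ⊗[k] A)}
    (h : HasBasis a I) : Module.Finite B ((B ⊗[k] A) ⧸ I) := by
  obtain ⟨b, _⟩ := h
  exact Module.Finite.of_basis b

/-- **Formal smoothness of the representing ring.** -/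
theorem formallySmooth [Algebra.FiniteType k A] {t : A} {n : ℕ} (P : PBasis k t n)
    (hinj : Function.Injective (Polynomial.aeval t : k[X] →ₐ[k] A))
    (hded : ∀ (K : Type u) [Field K] [Algebra k K], IsDedekindDomain (K ⊗[k] A))
    (a : Fin g → A) : Algebra.FormallySmooth k (HilbRing k a) := by
  apply Algebra.FormallySmooth.of_comp_surjective
  intro B _ _ J hJ φ'
  have h1 : HasBasis a ((univIdeal k a).map (bcR φ')) := (hasBasis_univIdeal k a).map φ'
  have := h1.projective
  have := h1.finite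
  obtain ⟨I, hI, hI'⟩ := exists_lift J hJ _ h1 (IdealBC.invertible P hinj hded _)
  obtain ⟨φ, hφ, -⟩ := existsUnique_hom hI
  refine ⟨φ, ?_⟩
  have hu := (existsUnique_hom h1).unique (y₁ := (Ideal.Quotient.mkₐ k J).comp φ)
    (y₂ := φ') ?_ rfl
  · exact hu
  · show (univIdeal k a).map (bcR ((Ideal.Quotient.mkₐ k J).comp φ)) = _
    have h2 : bcR (A := A) ((Ideal.Quotient.mkₐ k J).comp φ) =
        (bcR (Ideal.Quotient.mkₐ k J)).comp (bcR φ) := by
      refine RingHom.ext fun y => ?_
      induction y using TensorProduct.induction_on with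
      | zero => simp only [map_zero]
      | tmul b x => rfl
      | add y z hy hz => rw [map_add, map_add, hy, hz]
    rw [h2, ← Ideal.map_map, hφ, hI']

end Lift

end Fermat.Agent.S25.HilbSm
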