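import Mathlib
import Fermat.Agent.S25.HilbSmooth

/-!
# S25, package HILB: `TwoChart` forms

`𝒞.HasBasis0 a I`, `𝒞.HilbRing0 a`, `𝒞.univIdeal0 a`.
-/

set_option autoImplicit false

universe u

open scoped TensorProduct Polynomial

noncomputable section

namespace Fermat.Agent.S25.TwoChart

open Fermat.Agent.S25.Hilb Fermat.Agent.S25.Nrm Fermat.Agent.S25.Invert Fermat.Agent.S25.IdealBC
  Fermat.Agent.S25.HilbSm

variable {k : Type u} [Field k] (𝒞 : TwoChart k) {g : ℕ} (a : Fin g → 𝒞.A0)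

/-- the images of `1 ⊗ a i` form a `B`-basis of `R0 B ⧸ I` -/
def HasBasis0 {B : Type u} [CommRing B] [Algebra k B] (I : Ideal (𝒞.R0 B)) : Prop :=
  ∃ b : Module.Basis (Fin g) B (𝒞.R0 B ⧸ I), ∀ i, b i = Ideal.Quotient.mk I (1 ⊗ₜ a i)

/-- The ring representing ideals with basis `a`. -/
def HilbRing0 : Type u := HilbRing k a

instance : CommRing (𝒞.HilbRing0 a) := inferInstanceAs (CommRing (HilbRing k a))
instance : Algebra k (𝒞.HilbRing0 a) := inferInstanceAs (Algebra k (HilbRing k a))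

instance finiteType_HilbRing0 : Algebra.FiniteType k (𝒞.HilbRing0 a) :=
  inferInstanceAs (Algebra.FiniteType k (HilbRing k a))

instance formallySmooth_HilbRing0 : Algebra.FormallySmooth k (𝒞.HilbRing0 a) := by
  obtain ⟨n, ⟨P⟩⟩ := 𝒞.exists_pbasis0
  exact HilbSm.formallySmooth P 𝒞.inj0 𝒞.ded0 a

instance smooth_HilbRing0 : Algebra.Smooth k (𝒞.HilbRing0 a) where
  finitePresentation := Algebra.FinitePresentation.of_finiteType.mp inferInstance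

/-- the universal ideal -/
def univIdeal0 : Ideal (𝒞.R0 (𝒞.HilbRing0 a)) := univIdeal k a

theorem hasBasis0_univIdeal0 : 𝒞.HasBasis0 a (𝒞.univIdeal0 a) := hasBasis_univIdeal k a

variable {B B' B'' : Type u} [CommRing B] [Algebra k B] [CommRing B'] [Algebra k B']
  [CommRing B''] [Algebra k B'']

/-- **Universal property** of the representing ring. -/
theorem existsUnique_hom0 {I : Ideal (𝒞.R0 B)} (h : 𝒞.HasBasis0 a I) :
    ∃! φ : 𝒞.HilbRing0 a →ₐ[k] B, (𝒞.univIdeal0 a).map (𝒞.bc0 φ) = I :=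
  existsUnique_hom (a := a) h

theorem hom_ext0 {φ ψ : 𝒞.HilbRing0 a →ₐ[k] B}
    (h : (𝒞.univIdeal0 a).map (𝒞.bc0 φ) = (𝒞.univIdeal0 a).map (𝒞.bc0 ψ)) : φ = ψ :=
  (existsUnique_hom (a := a) ((hasBasis_univIdeal k a).map φ)).unique rfl h.symm

variable {𝒞 a}

theorem HasBasis0.map {I : Ideal (𝒞.R0 B)} (h : 𝒞.HasBasis0 a I) (φ : B →ₐ[k] B') :
    𝒞.HasBasis0 a (I.map (𝒞.bc0 φ)) := Hilb.HasBasis.map (a := a) h φ

theorem HasBasis0.finite {I : Ideal (𝒞.R0 B)} (h : 𝒞.HasBasis0 a I) :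
    Module.Finite B (𝒞.R0 B ⧸ I) := Hilb.HasBasis.finite (a := a) h

theorem HasBasis0.projective {I : Ideal (𝒞.R0 B)} (h : 𝒞.HasBasis0 a I) :
    Module.Projective B (𝒞.R0 B ⧸ I) := Hilb.HasBasis.projective (a := a) h

theorem hasBasis0_iff {I : Ideal (𝒞.R0 B)} : 𝒞.HasBasis0 a I ↔
    (∀ y, ∃ b : Fin g → B, y - ∑ i, b i • ((1 : B) ⊗ₜ[k] a i) ∈ I) ∧
    ∀ b : Fin g → B, ∑ i, b i • ((1 : B) ⊗ₜ[k] a i) ∈ I → b = 0 := hasBasis_iff

variable (𝒞)

theorem bc0_comp_h (φ : B →ₐ[k] B') (ψ : B' →ₐ[k] B'') :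
    𝒞.bc0 (ψ.comp φ) = (𝒞.bc0 ψ).comp (𝒞.bc0 φ) := by
  refine RingHom.ext fun y => ?_
  induction y using TensorProduct.induction_on with
  | zero => simp only [map_zero]
  | tmul b x => rfl
  | add y z hy hz => rw [map_add, map_add, hy, hz]

theorem map_bc0_comp (φ : B →ₐ[k] B') (ψ : B' →ₐ[k] B'') (I : Ideal (𝒞.R0 B)) :
    I.map (𝒞.bc0 (ψ.comp φ)) = (I.map (𝒞.bc0 φ)).map (𝒞.bc0 ψ) := by
  rw [bc0_comp_h, Ideal.map_map]

end Fermat.Agent.S25.TwoChart
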