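import Mathlib
import Fermat.Agent.S25.TCHilb

/-!
# S25: the open locus where given elements form a basis of the quotient
-/

set_option autoImplicit false

universe u

open scoped TensorProduct Polynomial

noncomputable section

namespace Fermat.Agent.S25.HilbOp

open Fermat.Agent.S25.Hilb Fermat.Agent.S25.Nrm Fermat.Agent.S25.Invert Fermat.Agent.S25.IdealBC
  Fermat.Agent.S25.HilbSm

section Gen

variable {B : Type*} [CommRing B] {M N C : Type*} [AddCommGroup M] [AddCommGroup N]
  [AddCommGroup C] [Module B M] [Module B N] [Module B C]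

/-- a finite module with `C = 𝔪 C` for all maximal ideals vanishes -/
theorem eq_bot_of_forall_le {L : Submodule B C} (hL : L.FG)
    (h : ∀ 𝔪 : Ideal B, 𝔪.IsMaximal → L ≤ 𝔪 • L) : L = ⊥ := by
  have h1 : L.annihilator = ⊤ := by
    by_contra hne
    obtain ⟨𝔪, hm, hle⟩ := Ideal.exists_le_maximal _ hne
    obtain ⟨r, hr, hr'⟩ :=
      Submodule.exists_sub_one_mem_and_smul_eq_zero_of_fg_of_le_smul 𝔪 L hL (h 𝔪 hm)
    have h2 : r ∈ 𝔪 := hle (Submodule.mem_annihilator.mpr hr')
    apply hm.ne_top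
    rw [Ideal.eq_top_iff_one]
    have := sub_mem h2 hr
    rwa [sub_sub_cancel] at this
  exact Submodule.annihilator_eq_top_iff.mp h1

/-- bijectivity can be checked modulo all maximal ideals -/
theorem bijective_of_maximal [Module.Finite B M] [Module.Finite B N] [Module.Projective B N]
    (Φ : M →ₗ[B] N)
    (h1 : ∀ 𝔪 : Ideal B, 𝔪.IsMaximal → ∀ n, ∃ m, n - Φ m ∈ (𝔪 • ⊤ : Submodule B N))
    (h2 : ∀ 𝔪 : Ideal B, 𝔪.IsMaximal → ∀ m, Φ m ∈ (𝔪 • ⊤ : Submodule B N) →
      m ∈ (𝔪 • ⊤ : Submodule B M)) : Function.Bijective Φ := by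
  have hsurj : Function.Surjective Φ := by
    have h3 : (⊤ : Submodule B (N ⧸ LinearMap.range Φ)) = ⊥ := by
      apply eq_bot_of_forall_le Module.Finite.fg_top
      intro 𝔪 h𝔪 x _
      obtain ⟨n, rfl⟩ := Submodule.Quotient.mk_surjective _ x
      obtain ⟨m, hm⟩ := h1 𝔪 h𝔪 n
      have h4 : (Submodule.Quotient.mk n : N ⧸ LinearMap.range Φ) =
          Submodule.mkQ (LinearMap.range Φ) (n - Φ m) := by
        rw [Submodule.mkQ_apply]
        refine ((Submodule.Quotient.eq _).mpr ?_).symm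
        exact ⟨-m, by rw [map_neg]; abel⟩
      rw [h4]
      have h5 := Submodule.mem_map_of_mem (f := Submodule.mkQ (LinearMap.range Φ)) hm
      rw [Submodule.map_smul''] at h5
      exact Submodule.smul_mono le_rfl le_top h5
    intro n
    have h4 : (Submodule.Quotient.mk n : N ⧸ LinearMap.range Φ) ∈
        (⊤ : Submodule B (N ⧸ LinearMap.range Φ)) := trivial
    rw [h3, Submodule.mem_bot, Submodule.Quotient.mk_eq_zero] at h4
    exact h4
  refine ⟨?_, hsurj⟩
  obtain ⟨σ, hσ⟩ := Module.projective_lifting_property Φ LinearMap.id hsurj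
  have hσ' : ∀ n, Φ (σ n) = n := fun n => congr($hσ n)
  let θ : M →ₗ[B] M := LinearMap.id - σ ∘ₗ Φ
  have hθ : ∀ m, θ m = m - σ (Φ m) := fun _ => rfl
  have hθθ : ∀ m, θ (θ m) = θ m := by
    intro m
    rw [hθ (θ m), hθ m, map_sub, hσ', sub_self, map_zero, sub_zero]
  have h3 : LinearMap.range θ = ⊥ := by
    apply eq_bot_of_forall_le (Module.Finite.iff_fg.mp inferInstance)
    rintro 𝔪 h𝔪 _ ⟨m, rfl⟩
    have h4 : θ m ∈ (𝔪 • ⊤ : Submodule B M) := by
      apply h2 𝔪 h𝔪
      rw [hθ, map_sub, hσ', sub_self]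
      exact zero_mem _
    have h5 := Submodule.mem_map_of_mem (f := θ) h4
    rw [hθθ, Submodule.map_smul'', Submodule.map_top] at h5
    exact h5
  rw [injective_iff_map_eq_zero]
  intro z hz
  have h4 : θ z ∈ LinearMap.range θ := ⟨z, rfl⟩
  rw [h3, Submodule.mem_bot, hθ, hz, map_zero, sub_zero] at h4
  exact h4

end Gen

/-- a finite module with trivial base change to a field -/
theorem exists_annihilator {B C N K : Type u} [CommRing B] [Field K] [AddCommGroup C]
    [Module B C] [Module.Finite B C] [AddCommGroup N] [Module K N] (φ : B →+* K) {g : C →+ N}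
    (h : IsBC φ g) [Subsingleton N] : ∃ b ∈ Module.annihilator B C, φ b ≠ 0 := by
  let _ := φ.toAlgebra
  let _ := Module.compHom N φ
  let _ : IsScalarTower B K N := .of_algebraMap_smul fun _ _ ↦ rfl
  have h1 : Subsingleton (K ⊗[B] C) := h.isBaseChange'.equiv.toEquiv.subsingleton
  have hp : (RingHom.ker φ).IsPrime := RingHom.ker_isPrime φ
  let p : PrimeSpectrum B := ⟨RingHom.ker φ, hp⟩
  have hp' : p.asIdeal.IsPrime := hp
  let l : p.asIdeal.ResidueField →+* K := Ideal.ResidueField.lift _ φ le_rfl (by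
    intro x hx
    exact isUnit_iff_ne_zero.mpr hx)
  let _ := l.toAlgebra
  have : IsScalarTower B p.asIdeal.ResidueField K := .of_algebraMap_eq fun b =>
    (Ideal.ResidueField.lift_algebraMap p.asIdeal φ le_rfl _ b).symm
  have h2 : Subsingleton (K ⊗[p.asIdeal.ResidueField] (p.asIdeal.ResidueField ⊗[B] C)) :=
    (TensorProduct.AlgebraTensorModule.cancelBaseChange B p.asIdeal.ResidueField K K
      C).toEquiv.subsingleton
  have h3 : Subsingleton (p.asIdeal.ResidueField ⊗[B] C) :=
    Module.FaithfullyFlat.lTensor_reflects_triviality p.asIdeal.ResidueField K _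
  by_contra hcon
  push Not at hcon
  have h4 : p ∈ Module.support B C := Module.mem_support_iff_of_finite.mpr fun b hb => hcon b hb
  rw [Module.mem_support_iff_nontrivial_residueField_tensorProduct] at h4
  exact not_nontrivial _ h4

/-- base change of `B ^ g` -/
theorem isBC_pi {B B' : Type u} [CommRing B] [CommRing B'] (φ : B →+* B') (g : ℕ) :
    IsBC φ (φ.toAddMonoidHom.compLeft (Fin g)) := by
  classical
  refine ⟨fun b v => ?_, fun Q _ _ h hh => ?_⟩
  · ext i
    simp
  · let l : (Fin g → B') →ₗ[B'] Q := Fintype.linearCombination B' fun i => h (Pi.single i 1)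
    have hl : ∀ v, l v = ∑ i, v i • h (Pi.single i 1) := fun v => rfl
    refine ⟨l, fun v => ?_, fun l' hl' => ?_⟩
    · rw [hl]
      have hv : v = ∑ i, v i • (Pi.single i 1 : Fin g → B) := by
        ext i
        simp [Finset.sum_apply, Pi.single_apply]
      conv_rhs => rw [hv, map_sum]
      refine Finset.sum_congr rfl fun i _ => ?_
      rw [hh]
      rfl
    · apply LinearMap.pi_ext'
      intro i
      apply LinearMap.ext_ring
      rw [LinearMap.comp_apply, LinearMap.comp_apply, hl]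
      have := hl' (Pi.single i 1)
      have h1 : (φ.toAddMonoidHom.compLeft (Fin g)) (Pi.single i 1) = Pi.single i 1 := by
        ext j
        rw [AddMonoidHom.compLeft_apply, Function.comp_apply, Pi.single_apply, Pi.single_apply]
        split_ifs <;> simp
      rw [h1] at this
      simp only [LinearMap.single_apply]
      rw [this]
      simp [Pi.single_apply]

section Main

variable {k : Type u} [Field k] {A : Type u} [CommRing A] [Algebra k A] {g : ℕ} {a : Fin g → A}
  {B B' : Type u} [CommRing B] [Algebra k B] [CommRing B'] [Algebra k B']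

variable (a) in
/-- the map `B ^ g → R / I` -/
def span (I : Ideal (B ⊗[k] A)) : (Fin g → B) →ₗ[B] ((B ⊗[k] A) ⧸ I) :=
  Fintype.linearCombination B (fun i => Ideal.Quotient.mk I (1 ⊗ₜ a i))

theorem span_apply (I : Ideal (B ⊗[k] A)) (v : Fin g → B) :
    span a I v = Ideal.Quotient.mk I (∑ i, v i • ((1 : B) ⊗ₜ[k] a i)) := by
  rw [span, Fintype.linearCombination_apply, map_sum]
  rfl

theorem hasBasis_iff_bijective (I : Ideal (B ⊗[k] A)) :
    HasBasis a I ↔ Function.Bijective (span a I) := by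
  rw [hasBasis_iff]
  constructor
  · rintro ⟨h1, h2⟩
    constructor
    · rw [injective_iff_map_eq_zero]
      intro v hv
      rw [span_apply, Ideal.Quotient.eq_zero_iff_mem] at hv
      exact h2 v hv
    · intro y
      obtain ⟨y, rfl⟩ := Ideal.Quotient.mk_surjective y
      obtain ⟨b, hb⟩ := h1 y
      refine ⟨b, ?_⟩
      rw [span_apply]
      exact (Ideal.Quotient.eq.mpr hb).symm
  · rintro ⟨h1, h2⟩
    constructor
    · intro y
      obtain ⟨b, hb⟩ := h2 (Ideal.Quotient.mk I y)
      refine ⟨b, ?_⟩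
      rw [span_apply] at hb
      exact Ideal.Quotient.eq.mp hb.symm
    · intro b hb
      apply h1
      rw [span_apply, map_zero, Ideal.Quotient.eq_zero_iff_mem]
      exact hb

theorem span_bc (φ : B →ₐ[k] B') (I : Ideal (B ⊗[k] A)) (v : Fin g → B) :
    span a (I.map (bcR φ)) (φ.toRingHom.toAddMonoidHom.compLeft (Fin g) v) =
      quotMap (bcR φ) I (span a I v) := by
  rw [span_apply, span_apply, quotMap_mk, map_sum (bcR φ)]
  congr 1
  apply Finset.sum_congr rfl
  intro i _
  rw [bcR_smul, bcR_tmul, map_one]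
  rfl

/-- **the basis property can be checked on fields.** -/
theorem hasBasis_of_fields {I : Ideal (B ⊗[k] A)} [Module.Projective B ((B ⊗[k] A) ⧸ I)]
    [Module.Finite B ((B ⊗[k] A) ⧸ I)]
    (h : ∀ (K : Type u) [Field K] [Algebra k K] (φ : B →ₐ[k] K), HasBasis a (I.map (bcR φ))) :
    HasBasis a I := by
  rw [hasBasis_iff_bijective]
  have key : ∀ 𝔪 : Ideal B, 𝔪.IsMaximal → HasBasis a (I.map (bcR (Ideal.Quotient.mkₐ k 𝔪))) := by
    intro 𝔪 h𝔪
    let _ : Field (B ⧸ 𝔪) := Ideal.Quotient.field 𝔪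
    exact h (B ⧸ 𝔪) (Ideal.Quotient.mkₐ k 𝔪)
  have hmem : ∀ (𝔪 : Ideal B) (y : B ⊗[k] A), bcR (Ideal.Quotient.mkₐ k 𝔪) y ∈
      I.map (bcR (Ideal.Quotient.mkₐ k 𝔪)) →
      Ideal.Quotient.mk I y ∈ (𝔪 • ⊤ : Submodule B ((B ⊗[k] A) ⧸ I)) := by
    intro 𝔪 y hy
    have hsurj : Function.Surjective (bcR (A := A) (Ideal.Quotient.mkₐ k 𝔪)) := by
      intro y
      induction y using TensorProduct.induction_on with
      | zero => exact ⟨0, map_zero _⟩
      | tmul b x =>
        obtain ⟨b, rfl⟩ := Ideal.Quotient.mk_surjective b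
        exact ⟨b ⊗ₜ x, rfl⟩
      | add y z hy hz =>
        obtain ⟨y, rfl⟩ := hy
        obtain ⟨z, rfl⟩ := hz
        exact ⟨y + z, map_add _ y z⟩
    rw [Ideal.mem_map_iff_of_surjective _ hsurj] at hy
    obtain ⟨z, hz, hzy⟩ := hy
    have h1 : bcR (Ideal.Quotient.mkₐ k 𝔪) (y - z) = 0 := by rw [map_sub, hzy, sub_self]
    have h2 := mem_map_ker _ h1
    have h3 : RingHom.ker (Ideal.Quotient.mkₐ k 𝔪) = 𝔪 := Ideal.mk_ker
    rw [h3] at h2
    have h4 : y - z ∈ (𝔪 • ⊤ : Submodule B (B ⊗[k] A)) := by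
      rw [Ideal.smul_top_eq_map]; exact h2
    have h5 := Submodule.mem_map_of_mem (f := (Ideal.Quotient.mkₐ B I).toLinearMap) h4
    rw [Submodule.map_smul''] at h5
    have h6 : (Ideal.Quotient.mkₐ B I).toLinearMap (y - z) = Ideal.Quotient.mk I y := by
      show Ideal.Quotient.mk I (y - z) = _
      rw [map_sub, Ideal.Quotient.eq_zero_iff_mem.mpr hz, sub_zero]
    rw [h6] at h5
    exact Submodule.smul_mono le_rfl le_top h5
  apply bijective_of_maximal
  · intro 𝔪 h𝔪 n
    obtain ⟨y, rfl⟩ := Ideal.Quotient.mk_surjective n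
    obtain ⟨h1, -⟩ := hasBasis_iff.mp (key 𝔪 h𝔪)
    obtain ⟨b', hb'⟩ := h1 (bcR (Ideal.Quotient.mkₐ k 𝔪) y)
    choose b hb using fun i => Ideal.Quotient.mk_surjective (b' i)
    refine ⟨b, ?_⟩
    rw [span_apply, ← map_sub]
    apply hmem
    rw [map_sub, map_sum]
    convert hb' using 3
    rw [bcR_smul, bcR_tmul, map_one, ← hb]
    rfl
  · intro 𝔪 h𝔪 v hv
    obtain ⟨-, h2⟩ := hasBasis_iff.mp (key 𝔪 h𝔪)
    have h3 : ∑ i, (Ideal.Quotient.mkₐ k 𝔪) (v i) • ((1 : B ⧸ 𝔪) ⊗ₜ[k] a i) ∈
        I.map (bcR (Ideal.Quotient.mkₐ k 𝔪)) := by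
      rw [span_apply] at hv
      have hq : ∀ z ∈ (𝔪 • ⊤ : Submodule B ((B ⊗[k] A) ⧸ I)),
          quotMap (bcR (Ideal.Quotient.mkₐ k 𝔪)) I z = 0 := by
        intro z hz
        refine Submodule.smul_induction_on
          (p := fun z => quotMap (bcR (Ideal.Quotient.mkₐ k 𝔪)) I z = 0) hz ?_ ?_
        · intro b hb w _
          have := (isBC_quotB (Ideal.Quotient.mkₐ k 𝔪) I).smul b w
          refine this.trans ?_
          have h4 : (Ideal.Quotient.mkₐ k 𝔪).toRingHom b = 0 :=
            Ideal.Quotient.eq_zero_iff_mem.mpr hb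
          rw [h4, zero_smul]
        · intro x y hx hy
          rw [map_add, hx, hy, add_zero]
      have h4 := hq _ hv
      rw [quotMap_mk, Ideal.Quotient.eq_zero_iff_mem, map_sum] at h4
      convert h4 using 2 with i
      rw [bcR_smul, bcR_tmul, map_one]
    have h4 := h2 _ h3
    have h5 : ∀ i, v i ∈ 𝔪 := fun i => Ideal.Quotient.eq_zero_iff_mem.mp congr($h4 i)
    have : v = ∑ i, v i • (Pi.single i 1 : Fin g → B) := by
      ext i
      simp [Finset.sum_apply, Pi.single_apply]
    rw [this]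
    exact Submodule.sum_mem _ fun i _ => Submodule.smul_mem_smul (h5 i) trivial

variable (a) in
/-- the ideal defining the complement of the locus where `a` spans the quotient -/
def badIdeal (I : Ideal (B ⊗[k] A)) : Ideal B :=
  Module.annihilator B (((B ⊗[k] A) ⧸ I) ⧸ LinearMap.range (span a I))

/-- the field-valued points of the good locus -/
theorem hasBasis_field_iff {I : Ideal (B ⊗[k] A)} [Module.Finite B ((B ⊗[k] A) ⧸ I)]
    {K : Type u} [Field K] [Algebra k K] (φ : B →ₐ[k] K)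
    (hrank : Module.finrank K ((K ⊗[k] A) ⧸ I.map (bcR φ)) = g) :
    HasBasis a (I.map (bcR φ)) ↔ ∃ b ∈ badIdeal a I, φ b ≠ 0 := by
  have := finite_map φ I
  constructor
  · intro h
    let g₀ : ((B ⊗[k] A) ⧸ I) ⧸ LinearMap.range (span a I) →+
        ((K ⊗[k] A) ⧸ I.map (bcR φ)) ⧸ LinearMap.range (span a (I.map (bcR φ))) :=
      QuotientAddGroup.map _ _ (quotMap (bcR φ) I).toAddMonoidHom (by
        rintro _ ⟨v, rfl⟩
        exact ⟨_, span_bc φ I v⟩)
    have hbc := IsBC.coker (isBC_pi φ.toRingHom g) (isBC_quotB φ I) (f := span a I)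
      (span a (I.map (bcR φ))) (span_bc φ I) (g := g₀) (fun m => rfl)
    rw [hasBasis_iff_bijective] at h
    have : Subsingleton (((K ⊗[k] A) ⧸ I.map (bcR φ)) ⧸
        LinearMap.range (span a (I.map (bcR φ)))) := by
      rw [Submodule.Quotient.subsingleton_iff, LinearMap.range_eq_top]
      exact h.2
    exact exists_annihilator φ.toRingHom hbc
  · rintro ⟨b, hb, hφb⟩
    have h1 : ∀ y : (B ⊗[k] A) ⧸ I, ∃ v, span a I v = b • y := by
      intro y
      rw [badIdeal, Module.mem_annihilator] at hb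
      have := hb (Submodule.Quotient.mk y)
      rw [← Submodule.Quotient.mk_smul, Submodule.Quotient.mk_eq_zero] at this
      exact this
    have hspan : ⊤ ≤ Submodule.span K (Set.range fun i =>
        Ideal.Quotient.mk (I.map (bcR φ)) (1 ⊗ₜ a i)) := by
      have h2 : ∀ x : A, Ideal.Quotient.mk (I.map (bcR φ)) ((1 : K) ⊗ₜ x) ∈
          LinearMap.range (span a (I.map (bcR φ))) := by
        intro x
        obtain ⟨v, hv⟩ := h1 (Ideal.Quotient.mk I (1 ⊗ₜ x))
        have h3 := span_bc (a := a) φ I v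
        rw [hv] at h3
        have h4 := (isBC_quotB φ I).smul b (Ideal.Quotient.mk I (1 ⊗ₜ x))
        have h5 : quotMap (bcR φ) I (b • Ideal.Quotient.mk I ((1 : B) ⊗ₜ x)) =
            φ b • Ideal.Quotient.mk (I.map (bcR φ)) ((1 : K) ⊗ₜ x) := by
          refine h4.trans ?_
          show φ b • Ideal.Quotient.mk _ (bcR φ (1 ⊗ₜ x)) = _
          rw [bcR_tmul, map_one]
        rw [h5] at h3
        have h6 : Ideal.Quotient.mk (I.map (bcR φ)) ((1 : K) ⊗ₜ x) = (φ b)⁻¹ •
            φ b • Ideal.Quotient.mk (I.map (bcR φ)) ((1 : K) ⊗ₜ x) := by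
          rw [smul_smul, inv_mul_cancel₀ hφb, one_smul]
        rw [h6, ← h3]
        exact Submodule.smul_mem _ _ ⟨_, rfl⟩
      intro z _
      rw [← Fintype.range_linearCombination]
      change z ∈ LinearMap.range (span a (I.map (bcR φ)))
      obtain ⟨z, rfl⟩ := Ideal.Quotient.mk_surjective z
      induction z using TensorProduct.induction_on with
      | zero => rw [map_zero]; exact zero_mem _
      | tmul c x =>
        have : (Ideal.Quotient.mk (I.map (bcR φ))) (c ⊗ₜ[k] x) =
            c • Ideal.Quotient.mk (I.map (bcR φ)) ((1 : K) ⊗ₜ x) := by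
          have h3 : (c ⊗ₜ[k] x : K ⊗[k] A) = c • ((1 : K) ⊗ₜ[k] x) := by
            rw [TensorProduct.smul_tmul', smul_eq_mul, mul_one]
          rw [h3]
          rfl
        rw [this]
        exact Submodule.smul_mem _ _ (h2 x)
      | add y z hy hz => rw [map_add]; exact add_mem (hy trivial) (hz trivial)
    refine ⟨basisOfTopLeSpanOfCardEqFinrank _ hspan (by rw [hrank, Fintype.card_fin]),
      fun i => ?_⟩
    rw [coe_basisOfTopLeSpanOfCardEqFinrank]

/-- **the good locus is open and its formation commutes with base change.** -/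
theorem hasBasis_map_iff {I : Ideal (B ⊗[k] A)} [Module.Projective B ((B ⊗[k] A) ⧸ I)]
    [Module.Finite B ((B ⊗[k] A) ⧸ I)]
    (hrank : ∀ (K : Type u) [Field K] [Algebra k K] (φ : B →ₐ[k] K),
      Module.finrank K ((K ⊗[k] A) ⧸ I.map (bcR φ)) = g) (φ : B →ₐ[k] B') :
    HasBasis a (I.map (bcR φ)) ↔ (badIdeal a I).map φ = ⊤ := by
  have hcomp : ∀ {K : Type u} [Field K] [Algebra k K] (ψ : B' →ₐ[k] K),
      (I.map (bcR φ)).map (bcR ψ) = I.map (bcR (ψ.comp φ)) := by
    intro K _ _ ψ
    rw [Ideal.map_map]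
    congr 1
    refine RingHom.ext fun y => ?_
    induction y using TensorProduct.induction_on with
    | zero => simp only [map_zero]
    | tmul b x => rfl
    | add y z hy hz => rw [map_add, map_add, hy, hz]
  constructor
  · intro h
    by_contra hne
    obtain ⟨𝔪, hm, hle⟩ := Ideal.exists_le_maximal _ hne
    let _ : Field (B' ⧸ 𝔪) := Ideal.Quotient.field 𝔪
    have h1 := h.map (Ideal.Quotient.mkₐ k 𝔪)
    rw [hcomp, hasBasis_field_iff _ (hrank _ _)] at h1
    obtain ⟨b, hb, hb'⟩ := h1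
    apply hb'
    exact Ideal.Quotient.eq_zero_iff_mem.mpr (hle (Ideal.mem_map_of_mem φ hb))
  · intro h
    have := projective_map φ I
    have := finite_map φ I
    apply hasBasis_of_fields
    intro K _ _ ψ
    rw [hcomp, hasBasis_field_iff _ (hrank _ _)]
    by_contra hcon
    push Not at hcon
    have h1 : (badIdeal a I).map φ ≤ RingHom.ker ψ := by
      rw [Ideal.map_le_iff_le_comap]
      intro b hb
      exact hcon b hb
    rw [h, top_le_iff] at h1
    exact RingHom.ker_ne_top ψ.toRingHom h1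

/-- over a field, every ideal of finite codimension has a basis of the quotient from `A` -/
theorem exists_hasBasis_of_field {K : Type u} [Field K] [Algebra k K] (I : Ideal (K ⊗[k] A))
    [Module.Finite K ((K ⊗[k] A) ⧸ I)] (hrank : Module.finrank K ((K ⊗[k] A) ⧸ I) = g) :
    ∃ a : Fin g → A, HasBasis a I := by
  have hspan : Submodule.span K (Set.range fun x : A =>
      Ideal.Quotient.mk I ((1 : K) ⊗ₜ[k] x)) = ⊤ := by
    rw [eq_top_iff]
    intro z _
    obtain ⟨z, rfl⟩ := Ideal.Quotient.mk_surjective z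
    induction z using TensorProduct.induction_on with
    | zero => rw [map_zero]; exact zero_mem _
    | tmul c x =>
      have : (Ideal.Quotient.mk I) (c ⊗ₜ[k] x) = c • Ideal.Quotient.mk I ((1 : K) ⊗ₜ x) := by
        have h3 : (c ⊗ₜ[k] x : K ⊗[k] A) = c • ((1 : K) ⊗ₜ[k] x) := by
          rw [TensorProduct.smul_tmul', smul_eq_mul, mul_one]
        rw [h3]
        rfl
      rw [this]
      exact Submodule.smul_mem _ _ (Submodule.subset_span ⟨x, rfl⟩)
    | add y z hy hz => rw [map_add]; exact add_mem (hy trivial) (hz trivial)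
  obtain ⟨f, hf, hf', hf''⟩ := Submodule.exists_fun_fin_finrank_span_eq K
    (Set.range fun x : A => Ideal.Quotient.mk I ((1 : K) ⊗ₜ[k] x))
  have hg : Module.finrank K (Submodule.span K (Set.range fun x : A =>
      Ideal.Quotient.mk I ((1 : K) ⊗ₜ[k] x))) = g := by
    rw [hspan, finrank_top, hrank]
  choose a ha using hf
  let e : Fin g ≃ Fin (Module.finrank K (Submodule.span K (Set.range fun x : A =>
      Ideal.Quotient.mk I ((1 : K) ⊗ₜ[k] x)))) := finCongr hg.symm
  refine ⟨a ∘ e, ?_⟩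
  have hspan' : Submodule.span K (Set.range f) = ⊤ := by rw [hf', hspan]
  refine ⟨(Module.Basis.mk hf'' hspan'.ge).reindex e.symm, fun i => ?_⟩
  rw [Module.Basis.reindex_apply, Equiv.symm_symm, Module.Basis.mk_apply, ← ha]
  rfl

end Main

end Fermat.Agent.S25.HilbOp

namespace Fermat.Agent.S25.TwoChart

open Fermat.Agent.S25.HilbOp

variable {k : Type u} [Field k] {𝒞 : TwoChart k} {g : ℕ} {a : Fin g → 𝒞.A0}
  {B B' : Type u} [CommRing B] [Algebra k B] [CommRing B'] [Algebra k B']

variable (a) in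
/-- the ideal of `B` defining the complement of the locus where `a` is a basis of the quotient -/
def badIdeal0 (I : Ideal (𝒞.R0 B)) : Ideal B := badIdeal a I

/-- **the basis property can be checked on fields.** -/
theorem hasBasis0_of_fields {I : Ideal (𝒞.R0 B)} [Module.Projective B (𝒞.R0 B ⧸ I)]
    [Module.Finite B (𝒞.R0 B ⧸ I)]
    (h : ∀ (K : Type u) [Field K] [Algebra k K] (φ : B →ₐ[k] K),
      𝒞.HasBasis0 a (I.map (𝒞.bc0 φ))) : 𝒞.HasBasis0 a I := hasBasis_of_fields h

theorem hasBasis0_field_iff {I : Ideal (𝒞.R0 B)} [Module.Finite B (𝒞.R0 B ⧸ I)]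
    {K : Type u} [Field K] [Algebra k K] (φ : B →ₐ[k] K)
    (hrank : Module.finrank K (𝒞.R0 K ⧸ I.map (𝒞.bc0 φ)) = g) :
    𝒞.HasBasis0 a (I.map (𝒞.bc0 φ)) ↔ ∃ b ∈ badIdeal0 a I, φ b ≠ 0 :=
  hasBasis_field_iff φ hrank

/-- **the good locus is open and its formation commutes with base change.** -/
theorem hasBasis0_map_iff {I : Ideal (𝒞.R0 B)} [Module.Projective B (𝒞.R0 B ⧸ I)]
    [Module.Finite B (𝒞.R0 B ⧸ I)]
    (hrank : ∀ (K : Type u) [Field K] [Algebra k K] (φ : B →ₐ[k] K),
      Module.finrank K (𝒞.R0 K ⧸ I.map (𝒞.bc0 φ)) = g) (φ : B →ₐ[k] B') :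
    𝒞.HasBasis0 a (I.map (𝒞.bc0 φ)) ↔ (badIdeal0 a I).map φ = ⊤ :=
  hasBasis_map_iff hrank φ

/-- over a field, every ideal of codimension `g` has a basis of the quotient from `A0` -/
theorem exists_hasBasis0_of_field {K : Type u} [Field K] [Algebra k K] (I : Ideal (𝒞.R0 K))
    [Module.Finite K (𝒞.R0 K ⧸ I)] (hrank : Module.finrank K (𝒞.R0 K ⧸ I) = g) :
    ∃ a : Fin g → 𝒞.A0, 𝒞.HasBasis0 a I := exists_hasBasis_of_field I hrank

end Fermat.Agent.S25.TwoChart
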