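import Mathlib
import Fermat.Agent.S25.ChartEx
import Fermat.Agent.S25.HilbOpen

/-!
# S25 / ALG4: the chart conditions `InGood`, `InChart` are open and stable under base change
-/

set_option autoImplicit false
set_option linter.style.haveILetI false

universe u

open scoped TensorProduct Pointwise Polynomial

noncomputable section

namespace Fermat.Agent.S25

namespace LB

variable {k : Type u} [Field k]

section field

variable {𝒞 : CurveData k} {K : Type u} [Field K] [Algebra k K]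

/-- additivity of the colength -/
lemma finrank_mul (I J : Ideal (𝒞.R0 K)) [Module.Finite K (𝒞.R0 K ⧸ I)]
    [Module.Finite K (𝒞.R0 K ⧸ J)] [Module.Finite K (𝒞.R0 K ⧸ (I * J))] :
    Module.finrank K (𝒞.R0 K ⧸ (I * J)) =
      Module.finrank K (𝒞.R0 K ⧸ I) + Module.finrank K (𝒞.R0 K ⧸ J) := by
  obtain ⟨D₁, ι₁, h₁⟩ := exists_sub (triv 𝒞.toTwoChart K) J
  obtain ⟨D₂, ι₂, h₂⟩ := exists_sub D₁ I
  have e1 := h₁.chi
  have e2 := h₂.chi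
  have e3 := (h₁.comp h₂).chi
  omega

end field

section inGood

variable {𝒞 : CurveData k} {B B' : Type u} [CommRing B] [Algebra k B] [CommRing B'] [Algebra k B']
  (m : ℕ) (𝔢 : Ideal (𝒞.R0 k))

/-- `D^∨(m)(-𝔢)` is good -/
def InGood (D : LB 𝒞.toTwoChart B) : Prop :=
  ∃ (E : LB 𝒞.toTwoChart B) (ι : Hom E (D.dual.tw m)), ι.IsSub (exB 𝔢 B) ∧ E.Good (𝒞 := 𝒞)

variable {m 𝔢} {D D₁ E E₁ : LB 𝒞.toTwoChart B} {D' : LB 𝒞.toTwoChart B'} {φ : B →ₐ[k] B'}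

lemma Good.iso (h : E.Good (𝒞 := 𝒞)) (hE : E.Rig (𝒞 := 𝒞)) (e : Iso E E₁) :
    E₁.Good (𝒞 := 𝒞) := h.bc hE ((BC.refl E).trans_iso e)

/-- base change of a subbundle, with explicit base change of the source -/
lemma Hom.IsSub.bcE {P P' : LB 𝒞.toTwoChart B} {Q Q' : LB 𝒞.toTwoChart B'} {ι : Hom P' P}
    [Module.Finite k (𝒞.R0 k ⧸ 𝔢)] (h : ι.IsSub (exB 𝔢 B)) (v' : BC φ P' Q') (v : BC φ P Q) :
    (BC.hom ι v' v).IsSub (exB 𝔢 B') := by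
  have := h.bc v' v
  rwa [exB_map] at this

lemma InGood.good [Module.Finite k (𝒞.R0 k ⧸ 𝔢)] (h : D.InGood m 𝔢) (hD : D.Rig (𝒞 := 𝒞))
    {ι : Hom E (D.dual.tw m)} (hι : ι.IsSub (exB 𝔢 B)) : E.Good (𝒞 := 𝒞) := by
  obtain ⟨E', ι', hι', hE'⟩ := h
  exact hE'.iso (hι'.rig hD.dual) (hι'.uniq hι)

theorem exists_open_inGood (m : ℕ) (𝔢 : Ideal (𝒞.R0 k)) [Module.Finite k (𝒞.R0 k ⧸ 𝔢)]
    {D : LB 𝒞.toTwoChart B} (hD : D.Rig (𝒞 := 𝒞)) :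
    ∃ W : TopologicalSpace.Opens (PrimeSpectrum B),
      ∀ (B' : Type u) [CommRing B'] [Algebra k B'] (φ : B →ₐ[k] B') (D' : LB 𝒞.toTwoChart B')
        (_ : BC φ D D'), D'.InGood m 𝔢 ↔
          Set.range (PrimeSpectrum.comap φ.toRingHom) ⊆ (W : Set (PrimeSpectrum B)) := by
  obtain ⟨E, ι, hι⟩ := exists_sub (D.dual.tw m) (exB 𝔢 B)
  obtain ⟨W, hW⟩ := exists_open_good (hι.rig hD.dual)
  refine ⟨W, fun B' _ _ φ D' v ↦ ?_⟩
  rw [← hW B' φ _ (bcBaseChange φ E)]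
  have hι' := hι.bcE (bcBaseChange φ E) (v.dual.tw m)
  exact ⟨fun h ↦ h.good (hD.bc v) hι', fun h ↦ ⟨_, _, hι', h⟩⟩

lemma InGood.bc [Module.Finite k (𝒞.R0 k ⧸ 𝔢)] (h : D.InGood m 𝔢) (hD : D.Rig (𝒞 := 𝒞))
    (v : BC φ D D') : D'.InGood m 𝔢 := by
  obtain ⟨W, hW⟩ := exists_open_inGood m 𝔢 hD
  rw [hW B' φ D' v]
  have h1 := (hW B (AlgHom.id k B) D (BC.refl D)).mp h
  rintro _ ⟨q, rfl⟩
  exact h1 ⟨PrimeSpectrum.comap φ.toRingHom q, rfl⟩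

/-- the numerical condition on `m`, `𝔢` -/
def Num (𝒞 : CurveData k) (m : ℕ) (𝔢 : Ideal (𝒞.R0 k)) : Prop :=
  Module.finrank k (𝒞.R0 k ⧸ 𝔢) + genus 𝒞 = m * 𝒞.degf

lemma fibChi_of_num [Module.Finite k (𝒞.R0 k ⧸ 𝔢)] (hnum : Num 𝒞 m 𝔢) (hD : D.FibDeg0)
    {ι : Hom E (D.dual.tw m)} (hι : ι.IsSub (exB 𝔢 B)) : E.FibChi (𝒞 := 𝒞) 1 := by
  intro K _ _ φ E' v
  have vD := bcBaseChange φ D
  have h1 := (hι.bcE v (vD.dual.tw m)).chi
  rw [chi_tw, chi_dual, hD K φ _ vD, chi_triv, finrank_exB] at h1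
  have h2 : (Module.finrank k (𝒞.R0 k ⧸ 𝔢) : ℤ) + genus 𝒞 = m * 𝒞.degf := by
    exact_mod_cast hnum
  linarith

end inGood

section rank

variable {𝒞 : CurveData k} {B : Type u} [CommRing B] [Algebra k B]
  {m : ℕ} {𝔢 : Ideal (𝒞.R0 k)} {D : LB 𝒞.toTwoChart B} {I : Ideal (𝒞.R0 B)}
  {σ : Hom D ((triv 𝒞.toTwoChart B).tw m)}

lemma Hom.SurjAt.isSub_mul (hσ : σ.SurjAt)
    (hr : LinearMap.range σ.l0 = (I * exB 𝔢 B : Ideal (𝒞.R0 B))) : σ.IsSub (I * exB 𝔢 B) :=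
  hσ.isSub (by rw [smul_top_tw_triv]; exact hr)

lemma Hom.IsSub.range_eq {J : Ideal (𝒞.R0 B)} (h : σ.IsSub J) : LinearMap.range σ.l0 = J := by
  rw [h.range0]; exact smul_top_tw_triv J

lemma map_mul_exB {B' : Type u} [CommRing B'] [Algebra k B'] (φ : B →ₐ[k] B') :
    (I * exB 𝔢 B).map (𝒞.bc0 φ) = I.map (𝒞.bc0 φ) * exB 𝔢 B' := by
  rw [Ideal.map_mul, exB_map]

/-- base change of `σ` -/
lemma Hom.SurjAt.bc_range {B' : Type u} [CommRing B'] [Algebra k B'] {φ : B →ₐ[k] B'}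
    {D' : LB 𝒞.toTwoChart B'} (hσ : σ.SurjAt)
    (hr : LinearMap.range σ.l0 = (I * exB 𝔢 B : Ideal (𝒞.R0 B))) (v : BC φ D D') :
    ∃ σ' : Hom D' ((triv 𝒞.toTwoChart B').tw m), σ'.SurjAt ∧
      LinearMap.range σ'.l0 = (I.map (𝒞.bc0 φ) * exB 𝔢 B' : Ideal (𝒞.R0 B')) := by
  haveI := (hσ.finite_projective_quot hr).1
  refine ⟨BC.hom σ v ((trivBC 𝒞.toTwoChart φ).tw m), hσ.bc _ _, ?_⟩
  have h1 := ((hσ.isSub_mul hr).bc v ((trivBC 𝒞.toTwoChart φ).tw m)).range_eq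
  rw [map_mul_exB] at h1
  exact h1

/-- the rank of `R0 B ⧸ I`. -/
lemma finrank_of_num [Module.Finite k (𝒞.R0 k ⧸ 𝔢)] (hnum : Num 𝒞 m 𝔢) (hD : D.FibDeg0)
    [Module.Finite B (𝒞.R0 B ⧸ I)] (hσ : σ.SurjAt)
    (hr : LinearMap.range σ.l0 = (I * exB 𝔢 B : Ideal (𝒞.R0 B))) (K : Type u) [Field K]
    [Algebra k K] (φ : B →ₐ[k] K) :
    Module.finrank K (𝒞.R0 K ⧸ I.map (𝒞.bc0 φ)) = genus 𝒞 := by
  haveI := 𝒞.finite_map0 φ I
  have vD := bcBaseChange φ D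
  obtain ⟨σ', hσ', hr'⟩ := hσ.bc_range hr vD
  haveI := (hσ'.finite_projective_quot hr').1
  have h1 := (hσ'.isSub_mul hr').chi
  rw [chi_tw, hD K φ _ vD, finrank_mul, finrank_exB] at h1
  have h2 : (Module.finrank k (𝒞.R0 k ⧸ 𝔢) : ℤ) + genus 𝒞 = m * 𝒞.degf := by
    exact_mod_cast hnum
  push_cast at h1
  have h3 : (Module.finrank K (𝒞.R0 K ⧸ I.map (𝒞.bc0 φ)) : ℤ) = genus 𝒞 := by linarith
  exact_mod_cast h3

end rank

section factor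

variable {𝒞 : TwoChart k} {B B₀ B' : Type u} [CommRing B] [Algebra k B] [CommRing B₀]
  [Algebra k B₀] [CommRing B'] [Algebra k B'] {φ : B →ₐ[k] B₀} {ψ : B₀ →ₐ[k] B'}
  {D : LB 𝒞 B} {D₀ : LB 𝒞 B₀} {D' : LB 𝒞 B'}

/-- factoring a base change -/
lemma BC.nonempty_factor (v : BC φ D D₀) {χ : B →ₐ[k] B'} (w : BC χ D D') (h : ψ.comp φ = χ) :
    Nonempty (BC ψ D₀ D') := by
  subst h
  have u := bcBaseChange ψ D₀
  exact ⟨u.trans_iso ((v.comp u).uniq w)⟩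

end factor

section loc

variable {B : Type u} [CommRing B] [Algebra k B]

/-- the localization map -/
def locHom (k : Type u) [Field k] {B : Type u} [CommRing B] [Algebra k B] (b : B) :
    B →ₐ[k] Localization.Away b := IsScalarTower.toAlgHom k B (Localization.Away b)

lemma locHom_apply (b x : B) : locHom k b x = algebraMap B (Localization.Away b) x := rfl

lemma isUnit_locHom (b : B) : IsUnit (locHom k b b) :=
  IsLocalization.Away.algebraMap_isUnit b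

lemma exists_locHom_lift {B' : Type u} [CommRing B'] [Algebra k B'] {b : B} {φ : B →ₐ[k] B'}
    (h : IsUnit (φ b)) : ∃ ψ : Localization.Away b →ₐ[k] B', ψ.comp (locHom k b) = φ := by
  refine ⟨IsLocalization.liftAlgHom (M := Submonoid.powers b) (f := φ) ?_, ?_⟩
  · rintro ⟨_, n, rfl⟩
    rw [map_pow]
    exact h.pow n
  · ext x
    exact IsLocalization.lift_eq _ x

lemma range_locHom (b : B) : Set.range (PrimeSpectrum.comap (locHom k b).toRingHom) =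
    (PrimeSpectrum.basicOpen b : Set (PrimeSpectrum B)) :=
  PrimeSpectrum.localization_away_comap_range (Localization.Away b) b

end loc

section inChart

variable {𝒞 : CurveData k} {B B' : Type u} [CommRing B] [Algebra k B] [CommRing B'] [Algebra k B']
  (m : ℕ) (𝔢 : Ideal (𝒞.R0 k)) (a : Fin (genus 𝒞) → 𝒞.A0)

/-- the condition that `D` lies in the chart `(m, 𝔢, a)`. -/
def InChart (D : LB 𝒞.toTwoChart B) : Prop :=
  D.InGood m 𝔢 ∧ ∃ (I : Ideal (𝒞.R0 B)) (σ : Hom D ((triv 𝒞.toTwoChart B).tw m)), σ.SurjAt ∧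
    LinearMap.range σ.l0 = (I * exB 𝔢 B : Ideal (𝒞.R0 B)) ∧ 𝒞.HasBasis0 a I

variable {m 𝔢 a} {D : LB 𝒞.toTwoChart B} {D' : LB 𝒞.toTwoChart B'} {φ : B →ₐ[k] B'}
  [Module.Finite k (𝒞.R0 k ⧸ 𝔢)]

lemma InChart.bc (h : D.InChart m 𝔢 a) (hD : D.Rig (𝒞 := 𝒞)) (v : BC φ D D') :
    D'.InChart m 𝔢 a := by
  obtain ⟨h1, I, σ, hσ, hr, hb⟩ := h
  obtain ⟨σ', hσ', hr'⟩ := hσ.bc_range hr v
  exact ⟨h1.bc hD v, _, σ', hσ', hr', hb.map φ⟩

/-- uniqueness of the ideal -/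
lemma InGood.unique (hnum : Num 𝒞 m 𝔢) (h : D.InGood m 𝔢) (hD : D.Rig (𝒞 := 𝒞))
    (hD' : D.FibDeg0) {I I' : Ideal (𝒞.R0 B)}
    {σ σ' : Hom D ((triv 𝒞.toTwoChart B).tw m)} (hσ : σ.SurjAt)
    (hI : LinearMap.range σ.l0 = (I * exB 𝔢 B : Ideal (𝒞.R0 B))) (hσ' : σ'.SurjAt)
    (hI' : LinearMap.range σ'.l0 = (I' * exB 𝔢 B : Ideal (𝒞.R0 B))) : I = I' := by
  obtain ⟨E, ι, hι, hE⟩ := h
  exact ideal_unique hD hι hE (fibChi_of_num hnum hD' hι) hσ hI hσ' hI'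

/-- existence of the ideal -/
lemma InGood.exists_ideal (h : D.InGood m 𝔢) (hD : D.Rig (𝒞 := 𝒞)) :
    ∃ (I : Ideal (𝒞.R0 B)) (σ : Hom D ((triv 𝒞.toTwoChart B).tw m)),
      Module.Finite B (𝒞.R0 B ⧸ I) ∧ Module.Projective B (𝒞.R0 B ⧸ I) ∧ σ.SurjAt ∧
      LinearMap.range σ.l0 = (I * exB 𝔢 B : Ideal (𝒞.R0 B)) := by
  obtain ⟨E, ι, hι, hE⟩ := h
  exact LB.exists_ideal hD hι hE

/-- transfer of the basis property to another presentation -/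
lemma InChart.hasBasis (hnum : Num 𝒞 m 𝔢) (h : D.InChart m 𝔢 a) (hD : D.Rig (𝒞 := 𝒞))
    (hD' : D.FibDeg0) {I : Ideal (𝒞.R0 B)} {σ : Hom D ((triv 𝒞.toTwoChart B).tw m)}
    (hσ : σ.SurjAt) (hI : LinearMap.range σ.l0 = (I * exB 𝔢 B : Ideal (𝒞.R0 B))) :
    𝒞.HasBasis0 a I := by
  obtain ⟨h1, I', σ', hσ', hI', hb⟩ := h
  rw [h1.unique hnum hD hD' hσ hI hσ' hI']
  exact hb

/-- near a point of the chart -/
lemma exists_nhd_inChart (hnum : Num 𝒞 m 𝔢) (hD : D.Rig (𝒞 := 𝒞)) (hD0 : D.FibDeg0)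
    {K : Type u} [Field K] [Algebra k K] {χ : B →ₐ[k] K} {DK : LB 𝒞.toTwoChart K}
    (w : BC χ D DK) (hK : DK.InChart m 𝔢 a) :
    ∃ b : B, χ b ≠ 0 ∧ (D.baseChange (locHom k b)).InChart m 𝔢 a := by
  obtain ⟨V, hV⟩ := exists_open_inGood m 𝔢 hD
  have hp : PrimeSpectrum.comap χ.toRingHom ⊥ ∈ (V : Set (PrimeSpectrum B)) :=
    (hV K χ DK w).mp hK.1 ⟨⊥, rfl⟩
  obtain ⟨_, ⟨b₀, rfl⟩, hb₀, hb₀V⟩ :=
    PrimeSpectrum.isTopologicalBasis_basic_opens.exists_subset_of_mem_open hp V.isOpen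
  have hb₀' : χ b₀ ≠ 0 := hb₀
  -- over `B₀`
  have v₀ := bcBaseChange (locHom k b₀) D
  have h₀ : (D.baseChange (locHom k b₀)).InGood m 𝔢 := by
    rw [hV _ _ _ v₀, range_locHom]
    exact hb₀V
  obtain ⟨I₀, σ₀, hf₀, hp₀, hσ₀, hr₀⟩ := h₀.exists_ideal (hD.bc v₀)
  obtain ⟨ψ₀, hψ₀⟩ := exists_locHom_lift (k := k) (b := b₀) (φ := χ) (isUnit_iff_ne_zero.mpr hb₀')
  obtain ⟨w₀⟩ := v₀.nonempty_factor w hψ₀
  obtain ⟨σK, hσK, hrK⟩ := hσ₀.bc_range hr₀ w₀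
  have hbK := hK.hasBasis hnum (hD.bc w) (hD0.bc w) hσK hrK
  have hrank := fun (K : Type u) [Field K] [Algebra k K] (φ : _ →ₐ[k] K) ↦
    finrank_of_num hnum (hD0.bc v₀) hσ₀ hr₀ K φ
  rw [TwoChart.hasBasis0_field_iff ψ₀ (hrank K ψ₀)] at hbK
  obtain ⟨t, ht, ht0⟩ := hbK
  obtain ⟨n, c, hc⟩ := IsLocalization.Away.surj b₀ t
  have hχc : χ c = ψ₀ t * χ b₀ ^ n := by
    have h1 := congrArg ψ₀ hc
    have h2 : ∀ x, ψ₀ (algebraMap B (Localization.Away b₀) x) = χ x := fun x ↦ congr($hψ₀ x)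
    rw [map_mul, map_pow, h2, h2] at h1
    exact h1.symm
  refine ⟨b₀ * c, ?_, ?_⟩
  · rw [map_mul, hχc]
    exact mul_ne_zero hb₀' (mul_ne_zero ht0 (pow_ne_zero _ hb₀'))
  have hunit := isUnit_locHom (k := k) (b₀ * c)
  rw [map_mul] at hunit
  have hu₀ := isUnit_of_mul_isUnit_left hunit
  have huc := isUnit_of_mul_isUnit_right hunit
  obtain ⟨θ, hθ⟩ := exists_locHom_lift (k := k) (b := b₀) (φ := locHom k (b₀ * c)) hu₀
  have hθt : IsUnit (θ t) := by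
    have h1 := congrArg θ hc
    have h2 : ∀ x, θ (algebraMap B (Localization.Away b₀) x) = locHom k (b₀ * c) x :=
      fun x ↦ congr($hθ x)
    rw [map_mul, map_pow, h2, h2] at h1
    exact isUnit_of_mul_isUnit_left (h1 ▸ huc)
  have v₁ := bcBaseChange (locHom k (b₀ * c)) D
  obtain ⟨w₁⟩ := v₀.nonempty_factor v₁ hθ
  obtain ⟨σ₁, hσ₁, hr₁⟩ := hσ₀.bc_range hr₀ w₁
  refine ⟨h₀.bc (hD.bc v₀) w₁, _, σ₁, hσ₁, hr₁, ?_⟩
  rw [TwoChart.hasBasis0_map_iff hrank]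
  exact Ideal.eq_top_of_isUnit_mem _ (Ideal.mem_map_of_mem θ ht) hθt

/-- **the chart condition is open** -/
theorem exists_open_inChart (hnum : Num 𝒞 m 𝔢) (hD : D.Rig (𝒞 := 𝒞)) (hD0 : D.FibDeg0) :
    ∃ W : TopologicalSpace.Opens (PrimeSpectrum B),
      ∀ (B' : Type u) [CommRing B'] [Algebra k B'] (φ : B →ₐ[k] B') (D' : LB 𝒞.toTwoChart B')
        (_ : BC φ D D'), D'.InChart m 𝔢 a ↔
          Set.range (PrimeSpectrum.comap φ.toRingHom) ⊆ (W : Set (PrimeSpectrum B)) := by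
  obtain ⟨V, hV⟩ := exists_open_inGood m 𝔢 hD
  let S : Set B := {b | (D.baseChange (locHom k b)).InChart m 𝔢 a}
  refine ⟨⨆ b ∈ S, PrimeSpectrum.basicOpen b, fun B' _ _ φ D' v ↦ ⟨?_, ?_⟩⟩
  · rintro h _ ⟨q, rfl⟩
    let K := q.asIdeal.ResidueField
    let ψ : B' →ₐ[k] K := IsScalarTower.toAlgHom k B' K
    have vK := bcBaseChange ψ D'
    obtain ⟨b, hb, hb'⟩ := exists_nhd_inChart hnum hD hD0 (v.comp vK) (h.bc (hD.bc v) vK)
    simp only [TopologicalSpace.Opens.coe_iSup, Set.mem_iUnion]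
    refine ⟨b, hb', ?_⟩
    show b ∉ (PrimeSpectrum.comap φ.toRingHom q).asIdeal
    intro hmem
    apply hb
    exact (Ideal.algebraMap_residueField_eq_zero (I := q.asIdeal)).mpr hmem
  · intro h
    have hgood : D'.InGood m 𝔢 := by
      rw [hV B' φ D' v]
      refine h.trans ?_
      intro p hp
      simp only [TopologicalSpace.Opens.coe_iSup, Set.mem_iUnion] at hp
      obtain ⟨b, hb, hpb⟩ := hp
      have hb' : (D.baseChange (locHom k b)).InChart m 𝔢 a := hb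
      have h1 := (hV _ _ _ (bcBaseChange (locHom k b) D)).mp hb'.1
      rw [range_locHom] at h1
      exact h1 hpb
    obtain ⟨I, σ, hf, hp, hσ, hr⟩ := hgood.exists_ideal (hD.bc v)
    refine ⟨hgood, I, σ, hσ, hr, TwoChart.hasBasis0_of_fields fun K _ _ ψ ↦ ?_⟩
    have vK := bcBaseChange ψ D'
    have hmem : PrimeSpectrum.comap (ψ.comp φ).toRingHom ⊥ ∈
        ((⨆ b ∈ S, PrimeSpectrum.basicOpen b : TopologicalSpace.Opens (PrimeSpectrum B)) :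
          Set (PrimeSpectrum B)) := h ⟨PrimeSpectrum.comap ψ.toRingHom ⊥, rfl⟩
    simp only [TopologicalSpace.Opens.coe_iSup, Set.mem_iUnion] at hmem
    obtain ⟨b, hb, hpb⟩ := hmem
    have hb' : (D.baseChange (locHom k b)).InChart m 𝔢 a := hb
    have hb0 : (ψ.comp φ) b ≠ 0 := hpb
    obtain ⟨θ, hθ⟩ := exists_locHom_lift (k := k) (b := b) (φ := ψ.comp φ)
      (isUnit_iff_ne_zero.mpr hb0)
    have vb := bcBaseChange (locHom k b) D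
    obtain ⟨w⟩ := vb.nonempty_factor (v.comp vK) hθ
    have hK := hb'.bc (hD.bc vb) w
    obtain ⟨σK, hσK, hrK⟩ := hσ.bc_range hr vK
    exact hK.hasBasis hnum ((hD.bc v).bc vK) ((hD0.bc v).bc vK) hσK hrK

end inChart

end LB

end Fermat.Agent.S25
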