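import Mathlib
import Fermat.Agent.S25.ChartOpen

/-!
# S25 / ALG4: the charts cover
-/

set_option autoImplicit false
set_option linter.style.haveILetI false

universe u

open scoped TensorProduct Pointwise Polynomial

noncomputable section

namespace Fermat.Agent.S25

namespace LB

variable {k : Type u} [Field k]

section comp

variable {𝒞 : CurveData k} {B : Type u} [CommRing B] [Algebra k B]
  {D D' D'' : LB 𝒞.toTwoChart B}

lemma Hom.SurjAt.comp {τ : Hom D' D''} {σ : Hom D D'} (hτ : τ.SurjAt) (hσ : σ.SurjAt) :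
    (τ.comp σ).SurjAt := by
  unfold Hom.SurjAt
  rw [eq_top_iff]
  rintro y -
  have h1 : y ∈ LinearMap.range τ.l1 ⊔ RingHom.ker (𝒞.εB B) •
      (⊤ : Submodule (𝒞.R1 B) D''.M1) := by
    rw [show _ = _ from hτ]; trivial
  obtain ⟨_, ⟨x, rfl⟩, z, hz, rfl⟩ := Submodule.mem_sup.mp h1
  have h2 : x ∈ LinearMap.range σ.l1 ⊔ RingHom.ker (𝒞.εB B) •
      (⊤ : Submodule (𝒞.R1 B) D'.M1) := by
    rw [show _ = _ from hσ]; trivial
  obtain ⟨_, ⟨w, rfl⟩, z', hz', rfl⟩ := Submodule.mem_sup.mp h2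
  rw [map_add, add_assoc]
  refine Submodule.add_mem_sup ⟨w, rfl⟩ (add_mem ?_ hz)
  have h3 := Submodule.mem_map_of_mem (f := τ.l1) hz'
  rw [Submodule.map_smul''] at h3
  exact Submodule.smul_mono le_rfl le_top h3

variable (I J : Ideal (𝒞.R0 B)) [Module.Finite B (𝒞.R0 B ⧸ I)] [Module.Projective B (𝒞.R0 B ⧸ I)]
  [Module.Finite B (𝒞.R0 B ⧸ J)] [Module.Projective B (𝒞.R0 B ⧸ J)]

/-- products of ideals with finite projective quotients, as zero ideals -/
lemma exists_mul (m : ℕ) : ∃ (D : LB 𝒞.toTwoChart B) (σ : Hom D ((triv 𝒞.toTwoChart B).tw m)),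
    σ.SurjAt ∧ σ.IsSub (I * J) := by
  obtain ⟨D₁, ι₁, h₁⟩ := exists_sub ((triv 𝒞.toTwoChart B).tw m) J
  obtain ⟨D₂, ι₂, h₂⟩ := exists_sub D₁ I
  exact ⟨D₂, ι₁.comp ι₂, h₁.surjAt.comp h₂.surjAt, h₁.comp h₂⟩

lemma finite_projective_mul :
    Module.Finite B (𝒞.R0 B ⧸ (I * J)) ∧ Module.Projective B (𝒞.R0 B ⧸ (I * J)) := by
  obtain ⟨D, σ, hσ, h⟩ := exists_mul I J 0
  exact hσ.finite_projective_quot h.range_eq

end comp

section points

variable {𝒞 : TwoChart k} (q : 𝒞.A0 →ₐ[k] k) (K : Type u) [Field K] [Algebra k K]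

lemma ptK_surjective : Function.Surjective (ptK K q) := fun c ↦
  ⟨algebraMap K _ c, AlgHom.commutes _ _⟩

/-- the ideal of a `k`-point -/
def ptI : Ideal (𝒞.R0 k) := RingHom.ker (ptK k q)

instance finite_ptI : Module.Finite k (𝒞.R0 k ⧸ ptI q) :=
  Module.Finite.equiv (Ideal.quotientKerAlgEquivOfSurjective (ptK_surjective q k)).symm.toLinearEquiv

lemma finrank_ptI : Module.finrank k (𝒞.R0 k ⧸ ptI q) = 1 := by
  have h := (Ideal.quotientKerAlgEquivOfSurjective (ptK_surjective q k)).toLinearEquiv.finrank_eq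
  rw [Module.finrank_self] at h
  exact h

lemma ptK_bc0 (x : 𝒞.R0 k) : ptK K q (𝒞.bc0 (Algebra.ofId k K) x) =
    algebraMap k K (ptK k q x) := by
  induction x using TensorProduct.induction_on with
  | zero => simp
  | add x y hx hy => simp only [map_add, hx, hy]
  | tmul b a =>
    show ptK K q (algebraMap k K b ⊗ₜ a) = _
    rw [ptK_tmul, ptK_tmul, map_mul]
    rfl

lemma ker_ptK : RingHom.ker (ptK K q) = exB (ptI q) K := by
  apply le_antisymm
  · intro x hx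
    have key : ∀ y : 𝒞.R0 K, y - algebraMap K (𝒞.R0 K) (ptK K q y) ∈ exB (ptI q) K := by
      intro y
      induction y using TensorProduct.induction_on with
      | zero => simp
      | add y z hy hz =>
        rw [map_add, map_add, add_sub_add_comm]
        exact add_mem hy hz
      | tmul b a =>
        have h1 : b ⊗ₜ[k] a - algebraMap K (𝒞.R0 K) (ptK K q (b ⊗ₜ a)) =
            (b ⊗ₜ[k] (1 : 𝒞.A0)) * 𝒞.bc0 (Algebra.ofId k K)
              ((1 : k) ⊗ₜ (a - algebraMap k 𝒞.A0 (q a))) := by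
          show _ = _ * ((Algebra.ofId k K 1) ⊗ₜ (a - algebraMap k 𝒞.A0 (q a)))
          rw [ptK_tmul, Algebra.TensorProduct.algebraMap_apply, map_one,
            Algebra.TensorProduct.tmul_mul_tmul, mul_one, one_mul, TensorProduct.tmul_sub]
          congr 1
          rw [Algebra.algebraMap_self_apply, mul_comm, ← Algebra.smul_def,
            Algebra.algebraMap_eq_smul_one, TensorProduct.tmul_smul, TensorProduct.smul_tmul']
        rw [h1]
        refine Ideal.mul_mem_left _ _ (Ideal.mem_map_of_mem _ ?_)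
        rw [ptI, RingHom.mem_ker, ptK_tmul, map_sub, AlgHom.commutes]
        simp
    have h2 := key x
    rw [RingHom.mem_ker.mp hx, map_zero, sub_zero] at h2
    exact h2
  · rw [exB, Ideal.map_le_iff_le_comap]
    intro a ha
    have ha' : ptK k q a = 0 := ha
    rw [Ideal.mem_comap, RingHom.mem_ker, ptK_bc0, ha', map_zero]

end points

section cover

variable {𝒞 : CurveData k} {K : Type u} [Field K] [Algebra k K]

lemma good_of_section {P : LB 𝒞.toTwoChart K} (h : Subsingleton P.H1) {e : P.M1 →+ K}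
    (he : IsBC (𝒞.εB K).toRingHom e) {s : P.H0} (hs : e s.1.2 = 1) : P.Good (𝒞 := 𝒞) := by
  refine ⟨h, fun y ↦ ⟨e y • s, ?_⟩⟩
  refine (rig_ker he).mp ?_
  have h1 : e (e y • s.1.2) = e y * e s.1.2 := rig_smul he _ _
  show e (y - e y • s.1.2) = 0
  rw [map_sub, h1, hs, mul_one, sub_self]

/-- subtracting a point from a good line bundle -/
theorem exists_point_good [IsAlgClosed k] {P : LB 𝒞.toTwoChart K} (hP : P.Good (𝒞 := 𝒞))
    (hchi : 2 ≤ P.chi) : ∃ (q : 𝒞.A0 →ₐ[k] k) (P' : LB 𝒞.toTwoChart K) (ι : Hom P' P),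
      ι.IsSub (exB (ptI q) K) ∧ P'.Good (𝒞 := 𝒞) ∧ P.chi = P'.chi + 1 := by
  obtain ⟨e, he⟩ := rig_field P
  haveI := hP.1
  have hH1 : Module.finrank K P.H1 = 0 := Module.finrank_zero_of_subsingleton
  have hdim : 2 ≤ Module.finrank K P.H0 := by
    rw [LB.chi, hH1] at hchi
    omega
  -- a nonzero section vanishing at `ε`
  let f : P.H0 →ₗ[K] K :=
    { toFun := fun s ↦ e s.1.2
      map_add' := fun s s' ↦ by
        rw [← map_add]; rfl
      map_smul' := fun b s ↦ rig_smul he b s.1.2 }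
  obtain ⟨w, hw, hw0⟩ : ∃ w, f w = 0 ∧ w ≠ 0 := by
    by_contra! hcon
    have hinj : Function.Injective f := by
      rw [injective_iff_map_eq_zero]
      exact hcon
    have h1 := LinearMap.finrank_le_finrank_of_injective hinj
    rw [Module.finrank_self] at h1
    omega
  have hw1 : w.1.1 ≠ 0 := by
    intro h0
    apply hw0
    have h1 : w.1.2 = 0 := by
      apply P.r1_injective
      rw [← P.mem_H0_iff.mp w.2, h0, map_zero, map_zero]
    exact Subtype.ext (Prod.ext h0 h1)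
  obtain ⟨F, hF⟩ : ∃ F : Module.Dual (𝒞.R0 K) P.M0, F w.1.1 ≠ 0 := by
    by_contra! hcon
    exact hw1 (dual_separating (R := 𝒞.R0 K) hcon)
  obtain ⟨q, hq⟩ := exists_ptK_ne_zero K hF
  obtain ⟨P', ι, hι⟩ := exists_sub P (exB (ptI q) K)
  have hι' := hι.surjAt
  have hwn : ι.resZ w ≠ 0 := by
    rw [Hom.resZ_apply, ne_eq, Submodule.Quotient.mk_eq_zero, hι.range0]
    intro hmem
    have h1 := dual_mem_of_mem_smul_top hmem F
    rw [← ker_ptK] at h1
    exact hq h1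
  -- dimensions
  have hchi' := hι.chi
  rw [finrank_exB, finrank_ptI] at hchi'
  obtain ⟨eq⟩ := exists_quotient_equiv (K := K) (R := 𝒞.R0 K) (M := P.M0) (exB (ptI q) K)
  have hfin1 : Module.finrank K (P.M0 ⧸ LinearMap.range ι.l0) = 1 := by
    let eq' : (P.M0 ⧸ LinearMap.range ι.l0) ≃ₗ[𝒞.R0 K] (𝒞.R0 K ⧸ exB (ptI q) K) :=
      (Submodule.quotEquivOfEq _ _ hι.range0).trans eq
    rw [(eq'.restrictScalars K).finrank_eq, finrank_exB, finrank_ptI]
  have hspan : ∀ z : P.M0 ⧸ LinearMap.range ι.l0, ∃ c : K, c • ι.resZ w = z :=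
    fun z ↦ exists_smul_eq_of_finrank_eq_one hfin1 hwn z
  have hsurj : Function.Surjective ι.resZ := fun z ↦ by
    obtain ⟨c, hc⟩ := hspan z
    exact ⟨c • w, by rw [map_smul, hc]⟩
  have hrn := LinearMap.finrank_range_add_finrank_ker ι.resZ
  rw [LinearMap.range_eq_top.mpr hsurj, finrank_top, hfin1, hι'.ker_resZ] at hrn
  have hinj : Function.Injective ι.mapH0 := ι.mapH0_injective hι.inj0
  rw [LinearMap.finrank_range_of_inj hinj] at hrn
  have hH1' : Module.finrank K P'.H1 = 0 := by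
    have h1 : P.chi = (Module.finrank K P.H0 : ℤ) - Module.finrank K P.H1 := rfl
    have h2 : P'.chi = (Module.finrank K P'.H0 : ℤ) - Module.finrank K P'.H1 := rfl
    rw [h1, h2, hH1] at hchi'
    push_cast at hchi'
    omega
  -- a section with value one at `ε`
  obtain ⟨s, hs⟩ := exists_ev hP he 1
  obtain ⟨c, hc⟩ := hspan (ι.resZ s)
  have hmem : s - c • w ∈ LinearMap.ker ι.resZ := by
    rw [LinearMap.mem_ker, map_sub, map_smul, hc, sub_self]
  rw [hι'.ker_resZ] at hmem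
  obtain ⟨s', hs'⟩ := hmem
  refine ⟨q, P', ι, hι, ?_, by exact_mod_cast hchi'⟩
  refine good_of_section (Module.finrank_zero_iff.mp hH1') (hι.isBC_comp he) (s := s') ?_
  show e (ι.l1 s'.1.2) = 1
  have h1 : ι.l1 s'.1.2 = s.1.2 - c • w.1.2 := congrArg (fun z : P.H0 ↦ z.1.2) hs'
  have h2 : e w.1.2 = 0 := hw
  rw [h1, map_sub, rig_smul he, hs, h2, mul_zero, sub_zero]

theorem exists_ideal_good [IsAlgClosed k] (n : ℕ) : ∀ {P : LB 𝒞.toTwoChart K},
    P.Good (𝒞 := 𝒞) → P.chi = n + 1 → ∃ (𝔢 : Ideal (𝒞.R0 k)) (E : LB 𝒞.toTwoChart K)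
      (ι : Hom E P), Module.Finite k (𝒞.R0 k ⧸ 𝔢) ∧ Module.finrank k (𝒞.R0 k ⧸ 𝔢) = n ∧
      ι.IsSub (exB 𝔢 K) ∧ E.Good (𝒞 := 𝒞) := by
  induction n with
  | zero =>
    intro P hP _
    refine ⟨⊤, P, Hom.id P, inferInstance, ?_, ?_, hP⟩
    · exact Module.finrank_zero_of_subsingleton
    · rw [exB_top]
      exact Hom.IsSub.id P
  | succ n ih =>
    intro P hP hchi
    obtain ⟨q, P', ι, hι, hP', hchi'⟩ := exists_point_good hP (by rw [hchi]; push_cast; omega)
    obtain ⟨𝔢, E, ι', hfin, hrank, hι', hE⟩ := ih hP' (by rw [hchi'] at hchi; push_cast at hchi; omega)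
    haveI := (finite_projective_mul 𝔢 (ptI q)).1
    refine ⟨𝔢 * ptI q, E, ι.comp ι', this, ?_, ?_, hE⟩
    · rw [finrank_mul, hrank, finrank_ptI]
    · rw [exB_mul]
      exact hι.comp hι'

/-- **the charts cover** -/
theorem exists_inGood [IsAlgClosed k] (D : LB 𝒞.toTwoChart K)
    (hD : D.chi = (triv 𝒞.toTwoChart K).chi) : ∃ (m : ℕ) (𝔢 : Ideal (𝒞.R0 k)),
      Module.Finite k (𝒞.R0 k ⧸ 𝔢) ∧ Num 𝒞 m 𝔢 ∧ D.InGood m 𝔢 := by
  obtain ⟨e, he⟩ := rig_field D.dual
  obtain ⟨m₁, hm₁⟩ := exists_section he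
  obtain ⟨m₂, hm₂⟩ := D.dual.exists_tw_H1
  set m := max m₁ m₂
  obtain ⟨s, hs⟩ := hm₁ m (le_max_left _ _)
  have hH1 := hm₂ m (le_max_right _ _)
  have hgood : (D.dual.tw m).Good (𝒞 := 𝒞) :=
    good_of_section (P := D.dual.tw m) hH1 (e := e) he (s := s) hs
  have hchi : (D.dual.tw m).chi = 1 - (genus 𝒞 : ℤ) + m * 𝒞.degf := by
    rw [chi_tw, chi_dual, hD, chi_triv]
    ring
  have hpos : 1 ≤ (D.dual.tw m).chi := by
    have h1 : Module.finrank K (D.dual.tw m).H1 = 0 := Module.finrank_zero_of_subsingleton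
    have h2 : (D.dual.tw m).chi = (Module.finrank K (D.dual.tw m).H0 : ℤ) -
      Module.finrank K (D.dual.tw m).H1 := rfl
    haveI : Nontrivial (D.dual.tw m).H0 := by
      refine ⟨s, 0, fun h0 ↦ ?_⟩
      rw [h0] at hs
      have h3 : e ((0 : (D.dual.tw m).H0).1.2) = 0 := map_zero e
      exact zero_ne_one (h3.symm.trans hs)
    have h3 : 0 < Module.finrank K (D.dual.tw m).H0 := Module.finrank_pos
    rw [h2, h1]
    omega
  obtain ⟨n, hn⟩ : ∃ n : ℕ, (D.dual.tw m).chi = n + 1 :=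
    ⟨((D.dual.tw m).chi - 1).toNat, by rw [Int.toNat_of_nonneg (by omega)]; ring⟩
  obtain ⟨𝔢, E, ι, hfin, hrank, hι, hE⟩ := exists_ideal_good n hgood hn
  refine ⟨m, 𝔢, hfin, ?_, E, ι, hι, hE⟩
  rw [Num, hrank]
  zify
  linarith

/-- over a field, every line bundle of degree zero lies in a chart. -/
theorem exists_inChart [IsAlgClosed k] (D : LB 𝒞.toTwoChart K)
    (hD : D.chi = (triv 𝒞.toTwoChart K).chi) : ∃ (m : ℕ) (𝔢 : Ideal (𝒞.R0 k))
      (a : Fin (genus 𝒞) → 𝒞.A0),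
      Module.Finite k (𝒞.R0 k ⧸ 𝔢) ∧ Num 𝒞 m 𝔢 ∧ D.InChart m 𝔢 a := by
  obtain ⟨m, 𝔢, hfin, hnum, hgood⟩ := exists_inGood D hD
  obtain ⟨I, σ, hf, hp, hσ, hr⟩ := hgood.exists_ideal (rig_field D)
  have hrank := finrank_of_num hnum ((fibDeg0_iff_field D).mpr hD) hσ hr K (AlgHom.id k K)
  rw [TwoChart.bc0_id, Ideal.map_id] at hrank
  obtain ⟨a, ha⟩ := TwoChart.exists_hasBasis0_of_field I hrank
  exact ⟨m, 𝔢, a, hfin, hnum, hgood, I, σ, hσ, hr, ha⟩

end cover

end LB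

end Fermat.Agent.S25
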