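import Fermat.Agent.S25.FibDeg
import Fermat.Agent.S25.ChartGood

/-!
# S25: charts of the functor of rigidifiable line bundles of fibrewise degree zero, algebraically
-/

set_option autoImplicit false

universe u

open TopologicalSpace
open scoped TensorProduct

noncomputable section

namespace Fermat.Agent.S25

variable {k : Type u} [Field k]

/-- Charts: line bundles `D i` over smooth algebras `A i`, restricted to opens `W i ⊆ Spec (A i)`,
which are open subfunctors of the functor of rigidifiable line bundles of fibrewise degree zero,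
and cover it. -/
structure ChartData (𝒞 : CurveData k) where
  ι : Type u
  A : ι → Type u
  [cr : ∀ i, CommRing (A i)]
  [alg : ∀ i, Algebra k (A i)]
  smooth : ∀ i, Algebra.Smooth k (A i)
  /-- the universal line bundle -/
  D : ∀ i, LB 𝒞.toTwoChart (A i)
  rig : ∀ i, (D i).Rig (𝒞 := 𝒞)
  deg0 : ∀ i, (D i).FibDeg0
  /-- the open part of the chart -/
  W : ∀ i, Opens (PrimeSpectrum (A i))
  inj : ∀ i (B : Type u) [CommRing B] [Algebra k B] (φ ψ : A i →ₐ[k] B)
    (E : LB 𝒞.toTwoChart B), Set.range (PrimeSpectrum.comap φ.toRingHom) ⊆ W i →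
    Set.range (PrimeSpectrum.comap ψ.toRingHom) ⊆ W i →
    LB.BC φ (D i) E → LB.BC ψ (D i) E → φ = ψ
  exists_open : ∀ i (B : Type u) [CommRing B] [Algebra k B] (E : LB 𝒞.toTwoChart B),
    E.Rig (𝒞 := 𝒞) → E.FibDeg0 → ∃ U : Opens (PrimeSpectrum B), ∀ (B' : Type u) [CommRing B']
      [Algebra k B'] (g : B →ₐ[k] B') (E' : LB 𝒞.toTwoChart B'), LB.BC g E E' →
      ((∃ a : A i →ₐ[k] B', Set.range (PrimeSpectrum.comap a.toRingHom) ⊆ W i ∧
        Nonempty (LB.BC a (D i) E')) ↔ Set.range (PrimeSpectrum.comap g.toRingHom) ⊆ U)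
  cover : ∀ (K : Type u) [Field K] [Algebra k K] (E : LB 𝒞.toTwoChart K), E.FibDeg0 →
    ∃ (K' : Type u) (_ : Field K') (_ : Algebra k K') (g : K →ₐ[k] K')
      (E' : LB 𝒞.toTwoChart K') (_ : LB.BC g E E') (i : ι) (a : A i →ₐ[k] K'),
      Set.range (PrimeSpectrum.comap a.toRingHom) ⊆ W i ∧ Nonempty (LB.BC a (D i) E')

attribute [instance] ChartData.cr ChartData.alg

end Fermat.Agent.S25
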