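import Mathlib
import Fermat.Agent.S25.ChartCover
import Fermat.Agent.S25.ChartData

/-!
# S25 / ALG4: construction of the charts
-/

set_option autoImplicit false
set_option linter.style.haveILetI false

universe u

open TopologicalSpace
open scoped TensorProduct

noncomputable section

namespace Fermat.Agent.S25

open LB

variable {k : Type u} [Field k]

/-- indices of charts -/
structure ChartIdx (𝒞 : CurveData k) : Type u where
  m : ℕ
  𝔢 : Ideal (𝒞.R0 k)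
  a : Fin (genus 𝒞) → 𝒞.A0
  fin : Module.Finite k (𝒞.R0 k ⧸ 𝔢)
  num : Num 𝒞 m 𝔢

attribute [instance] ChartIdx.fin

namespace ChartIdx

variable {𝒞 : CurveData k} (i : ChartIdx 𝒞)

/-- the ring of the chart -/
abbrev A : Type u := 𝒞.HilbRing0 i.a

/-- the universal ideal -/
def I : Ideal (𝒞.R0 i.A) := 𝒞.univIdeal0 i.a

lemma hasBasis : 𝒞.HasBasis0 i.a i.I := 𝒞.hasBasis0_univIdeal0 i.a

instance : Module.Finite i.A (𝒞.R0 i.A ⧸ i.I) := i.hasBasis.finite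
instance : Module.Projective i.A (𝒞.R0 i.A ⧸ i.I) := i.hasBasis.projective

/-- the universal line bundle `O(m)(-I-𝔢)` -/
def D : LB 𝒞.toTwoChart i.A := (exists_mul i.I (exB i.𝔢 i.A) i.m).choose

/-- its inclusion into `O(m)` -/
def σ : Hom i.D ((triv 𝒞.toTwoChart i.A).tw i.m) :=
  (exists_mul i.I (exB i.𝔢 i.A) i.m).choose_spec.choose

lemma σ_surjAt : i.σ.SurjAt := (exists_mul i.I (exB i.𝔢 i.A) i.m).choose_spec.choose_spec.1

lemma σ_isSub : i.σ.IsSub (i.I * exB i.𝔢 i.A) :=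
  (exists_mul i.I (exB i.𝔢 i.A) i.m).choose_spec.choose_spec.2

lemma σ_range : LinearMap.range i.σ.l0 = (i.I * exB i.𝔢 i.A : Ideal (𝒞.R0 i.A)) :=
  i.σ_isSub.range_eq

lemma rig : i.D.Rig (𝒞 := 𝒞) := by
  haveI := (finite_projective_mul i.I (exB i.𝔢 i.A)).1
  exact i.σ_isSub.rig ((rig_triv (𝒞 := 𝒞)).tw i.m)

lemma deg0 : i.D.FibDeg0 := by
  intro K _ _ φ E v
  obtain ⟨σ', hσ', hr'⟩ := i.σ_surjAt.bc_range i.σ_range v
  haveI := 𝒞.finite_map0 φ i.I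
  haveI := (hσ'.finite_projective_quot hr').1
  have h1 := (hσ'.isSub_mul hr').chi
  obtain ⟨b, -⟩ := i.hasBasis.map φ
  have h2 : Module.finrank K (𝒞.R0 K ⧸ i.I.map (𝒞.bc0 φ)) = genus 𝒞 := by
    rw [Module.finrank_eq_card_basis b, Fintype.card_fin]
  rw [chi_tw, finrank_mul, finrank_exB, h2] at h1
  have h3 : (Module.finrank k (𝒞.R0 k ⧸ i.𝔢) : ℤ) + genus 𝒞 = i.m * 𝒞.degf := by
    exact_mod_cast i.num
  push_cast at h1
  linarith

/-- the open part of the chart -/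
def W : Opens (PrimeSpectrum i.A) := (exists_open_inGood i.m i.𝔢 i.rig).choose

lemma inGood_iff {B : Type u} [CommRing B] [Algebra k B] (φ : i.A →ₐ[k] B)
    {E : LB 𝒞.toTwoChart B} (v : BC φ i.D E) :
    E.InGood i.m i.𝔢 ↔ Set.range (PrimeSpectrum.comap φ.toRingHom) ⊆ (i.W : Set _) :=
  (exists_open_inGood i.m i.𝔢 i.rig).choose_spec B φ E v

lemma inj {B : Type u} [CommRing B] [Algebra k B] {φ ψ : i.A →ₐ[k] B}
    {E : LB 𝒞.toTwoChart B} (h : Set.range (PrimeSpectrum.comap φ.toRingHom) ⊆ (i.W : Set _))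
    (v : BC φ i.D E) (w : BC ψ i.D E) : φ = ψ := by
  have hE := (i.inGood_iff φ v).mpr h
  obtain ⟨σ₁, hσ₁, hr₁⟩ := i.σ_surjAt.bc_range i.σ_range v
  obtain ⟨σ₂, hσ₂, hr₂⟩ := i.σ_surjAt.bc_range i.σ_range w
  exact 𝒞.hom_ext0 i.a (hE.unique i.num (i.rig.bc v) (i.deg0.bc v) hσ₁ hr₁ hσ₂ hr₂)

lemma exists_hom_iff {B : Type u} [CommRing B] [Algebra k B] {E : LB 𝒞.toTwoChart B} :
    (∃ φ : i.A →ₐ[k] B, Set.range (PrimeSpectrum.comap φ.toRingHom) ⊆ (i.W : Set _) ∧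
      Nonempty (BC φ i.D E)) ↔ E.InChart i.m i.𝔢 i.a := by
  constructor
  · rintro ⟨φ, h, ⟨v⟩⟩
    obtain ⟨σ₁, hσ₁, hr₁⟩ := i.σ_surjAt.bc_range i.σ_range v
    exact ⟨(i.inGood_iff φ v).mpr h, _, σ₁, hσ₁, hr₁, i.hasBasis.map φ⟩
  · rintro ⟨hgood, I, σ, hσ, hr, hb⟩
    obtain ⟨φ, hφ, -⟩ := 𝒞.existsUnique_hom0 i.a hb
    have v := bcBaseChange φ i.D
    obtain ⟨σ₁, hσ₁, hr₁⟩ := i.σ_surjAt.bc_range i.σ_range v
    have hI : i.I.map (𝒞.bc0 φ) = I := hφ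
    rw [hI] at hr₁
    have e := (hσ₁.isSub_mul hr₁).uniq (hσ.isSub_mul hr)
    have w := v.trans_iso e
    exact ⟨φ, (i.inGood_iff φ w).mp hgood, ⟨w⟩⟩

end ChartIdx

/-- **the chart theorem**: the functor of rigidifiable line bundles of fibrewise degree zero
is covered by open subfunctors which are open subschemes of smooth affine schemes. -/
theorem exists_chartData [IsAlgClosed k] (𝒞 : CurveData k) : Nonempty (ChartData 𝒞) :=
  ⟨{ ι := ChartIdx 𝒞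
     A := fun i ↦ i.A
     smooth := fun i ↦ 𝒞.smooth_HilbRing0 i.a
     D := fun i ↦ i.D
     rig := fun i ↦ i.rig
     deg0 := fun i ↦ i.deg0
     W := fun i ↦ i.W
     inj := fun i B _ _ φ ψ E h _ v w ↦ i.inj h v w
     exists_open := fun i B _ _ E hE hE0 ↦ by
       obtain ⟨U, hU⟩ := exists_open_inChart (m := i.m) (𝔢 := i.𝔢) (a := i.a) i.num hE hE0
       refine ⟨U, fun B' _ _ g E' v ↦ ?_⟩
       rw [← hU B' g E' v]
       exact i.exists_hom_iff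
     cover := fun K _ _ E hE ↦ by
       obtain ⟨m, 𝔢, a, hfin, hnum, h⟩ := exists_inChart E ((fibDeg0_iff_field E).mp hE)
       let i : ChartIdx 𝒞 := ⟨m, 𝔢, a, hfin, hnum⟩
       obtain ⟨φ, hφ, hv⟩ := i.exists_hom_iff.mpr h
       exact ⟨K, inferInstance, inferInstance, AlgHom.id k K, E, BC.refl E, i, φ, hφ, hv⟩ }⟩

end Fermat.Agent.S25
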