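import Fermat.Agent.S25.HomGlue

/-!
# S25: isomorphisms of quasi-coherent sheaves from isomorphisms of sections
-/

set_option autoImplicit false

universe u

open CategoryTheory CategoryTheory.Limits AlgebraicGeometry TopologicalSpace Opposite

noncomputable section

namespace Fermat.Agent.S25

open AlgebraicGeometry.Scheme.Modules

variable {X Y Z : Scheme.{u}}

/-- the linear map on sections of a morphism -/
def appLin {L L' : X.Modules} (f : L ⟶ L') (V : X.Opens) : Γ(L, V) →ₗ[Γ(X, V)] Γ(L', V) where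
  toFun := f.app V
  map_add' := by simp
  map_smul' := fun r x ↦ Hom.app_smul f r x

@[simp] lemma appLin_apply {L L' : X.Modules} (f : L ⟶ L') (V : X.Opens) (x : Γ(L, V)) :
    appLin f V x = f.app V x := rfl

instance isQuasicoherent_unit : (show X.Modules from
    SheafOfModules.unit X.ringCatSheaf).IsQuasicoherent :=
  isQuasicoherent_of_isInvertible _ (Scheme.Modules.isInvertible_unit X)

lemma app_bijective_of_le {L L' : X.Modules} [L.IsQuasicoherent] [L'.IsQuasicoherent]
    (f : L ⟶ L') {V W : X.Opens} (hV : IsAffineOpen V) (hW : IsAffineOpen W) (h : W ≤ V)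
    (hf : Function.Bijective (f.app V)) : Function.Bijective (f.app W) := by
  let e : Γ(L, V) ≃ₗ[Γ(X, V)] Γ(L', V) := LinearEquiv.ofBijective (appLin f V) hf
  let e' : Γ(L', W) →ₗ[Γ(X, W)] Γ(L, W) := extendLin hV hW h e.symm.toLinearMap
  have h1 : e'.comp (appLin f W) = LinearMap.id := by
    refine lin_ext_res hV hW h fun x ↦ ?_
    simp only [LinearMap.comp_apply, appLin_apply, LinearMap.id_apply, e']
    rw [app_res]
    refine (extendLin_res hV hW h e.symm.toLinearMap _).trans ?_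
    congr 1
    exact e.symm_apply_apply x
  have h2 : (appLin f W).comp e' = LinearMap.id := by
    refine lin_ext_res hV hW h fun x ↦ ?_
    simp only [LinearMap.comp_apply, appLin_apply, LinearMap.id_apply, e']
    refine (congrArg (f.app W) (extendLin_res hV hW h e.symm.toLinearMap _)).trans ?_
    rw [app_res]
    congr 1
    exact e.apply_symm_apply x
  refine ⟨fun x y hxy ↦ ?_, fun y ↦ ⟨e' y, congr($h2 y)⟩⟩
  rw [← LinearMap.id_apply (R := Γ(X, W)) x, ← LinearMap.id_apply (R := Γ(X, W)) y, ← h1]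
  exact congrArg e' hxy

theorem isIso_of_two {L L' : X.Modules} [L.IsQuasicoherent] [L'.IsQuasicoherent]
    {V0 V1 : X.Opens} (hV0 : IsAffineOpen V0) (hV1 : IsAffineOpen V1)
    (hcov : V0 ⊔ V1 = ⊤) (f : L ⟶ L') (h0 : Function.Bijective (f.app V0))
    (h1 : Function.Bijective (f.app V1)) : IsIso f := by
  have hP : IsBas fun W ↦ IsAffineOpen W ∧ (W ≤ V0 ∨ W ≤ V1) := by
    intro U x hx
    have : x ∈ V0 ⊔ V1 := by rw [hcov]; trivial
    rcases this with h | h
    · obtain ⟨_, ⟨W, hW, rfl⟩, hxW, hWV⟩ := X.isBasis_affineOpens.exists_subset_of_mem_open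
        (show x ∈ (U ⊓ V0 : X.Opens) from ⟨hx, h⟩) (U ⊓ V0).2
      exact ⟨W, fun y hy ↦ (hWV hy).1, hxW, hW, .inl fun y hy ↦ (hWV hy).2⟩
    · obtain ⟨_, ⟨W, hW, rfl⟩, hxW, hWV⟩ := X.isBasis_affineOpens.exists_subset_of_mem_open
        (show x ∈ (U ⊓ V1 : X.Opens) from ⟨hx, h⟩) (U ⊓ V1).2
      exact ⟨W, fun y hy ↦ (hWV hy).1, hxW, hW, .inr fun y hy ↦ (hWV hy).2⟩
  refine isIso_of_basis hP ?_
  rintro W ⟨hW, h | h⟩
  · exact app_bijective_of_le f hV0 hW h h0
  · exact app_bijective_of_le f hV1 hW h h1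

/-- On an affine scheme, an isomorphism of quasi-coherent sheaves from global sections. -/
theorem nonempty_iso_of_affine {L L' : X.Modules} [L.IsQuasicoherent] [L'.IsQuasicoherent]
    (hX : IsAffineOpen (⊤ : X.Opens)) (e : Γ(L, ⊤) ≃ₗ[Γ(X, ⊤)] Γ(L', ⊤)) :
    Nonempty (L ≅ L') := by
  have hX' : IsAffineOpen (⊤ ⊓ ⊤ : X.Opens) := by simpa using hX
  obtain ⟨f, h0, h1, -⟩ := exists_hom_two (L := L) (L' := L') hX hX hX' (by simp) e.toLinearMap
    e.toLinearMap (by
      refine lin_ext_res hX hX' inf_le_left fun x ↦ ?_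
      rw [extendLin_res])
  have hb : Function.Bijective (f.app ⊤) := by
    have : (f.app ⊤ : Γ(L, ⊤) → Γ(L', ⊤)) = e := funext h0
    rw [this]
    exact e.bijective
  have := isIso_of_two hX hX (by simp) f hb hb
  exact ⟨asIso f⟩

end Fermat.Agent.S25
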