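import Fermat.Agent.S25.Theta
import Fermat.Agent.S25.IsoGlue
import Fermat.Prelude.Def_AlgebraicGeometry_RelativePicardFunctor

/-!
# S25: from invertible sheaves on `C_B` to `LB 𝒟 B`
-/

set_option autoImplicit false

universe u

open CategoryTheory CategoryTheory.Limits AlgebraicGeometry TopologicalSpace Opposite
open NeronModelInfra AlgebraicGeometry.RelPicard
open scoped TensorProduct

noncomputable section

namespace Fermat.Agent.S25

variable {k : Type u} [Field k] {C : Scheme.{u}} {c : C ⟶ Spec (CommRingCat.of k)}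
  {ε : SchemeHomOver (𝟙 (Spec (CommRingCat.of k))) c}

/-- linear equivalences from bijective additive maps -/
def mkEquiv {R M M' : Type*} [CommRing R] [AddCommGroup M] [AddCommGroup M'] [Module R M]
    [Module R M'] (g : M →+ M') (hs : ∀ (r : R) x, g (r • x) = r • g x)
    (hb : Function.Bijective g) : M ≃ₗ[R] M' :=
  LinearEquiv.ofBijective { toFun := g, map_add' := g.map_add, map_smul' := hs } hb

namespace CurveGeom

variable (G : CurveGeom c ε) (B : Type u) [CommRing B] [Algebra k B]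

/-- first chart of `C_B` -/
def V0 : (XB c B).Opens := pC c B ⁻¹ᵁ G.U0

/-- second chart of `C_B` -/
def V1 : (XB c B).Opens := pC c B ⁻¹ᵁ G.U1

instance : IsAffineHom (pC c B) := MorphismProperty.pullback_fst _ _ inferInstance

lemma affV0 : IsAffineOpen (G.V0 B) := G.aff0.preimage (pC c B)

lemma affV1 : IsAffineOpen (G.V1 B) := G.aff1.preimage (pC c B)

lemma affV01 : IsAffineOpen (G.V0 B ⊓ G.V1 B) := G.aff01.preimage (pC c B)

lemma coverV : G.V0 B ⊔ G.V1 B = ⊤ := by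
  rw [eq_top_iff]
  intro x _
  have : pC c B x ∈ G.U0 ⊔ G.U1 := by rw [G.cover]; trivial
  exact this

lemma k01 (x : k) : G.α01 (algebraMap k G.𝒟.A01 x) = scal c (G.U0 ⊓ G.U1) x := by
  have h1 : algebraMap k G.𝒟.A01 x = G.𝒟.ρ0 (algebraMap k G.𝒟.A0 x) := (G.𝒟.ρ0.commutes x).symm
  rw [h1, G.h0, G.k0]
  have h2 : c.appLE ⊤ G.U0 le_top ≫ C.presheaf.map (homOfLE inf_le_left).op =
    c.appLE ⊤ (G.U0 ⊓ G.U1) le_top := Scheme.Hom.appLE_map _ _ _
  exact congr(($h2).hom ((Scheme.ΓSpecIso (CommRingCat.of k)).inv.hom x))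

/-- functions on the first chart -/
def θ0 : G.𝒟.R0 B →+* Γ(XB c B, G.V0 B) :=
  theta c B G.α0.toRingHom G.k0 (le_refl (G.V0 B))

/-- functions on the second chart -/
def θ1 : G.𝒟.R1 B →+* Γ(XB c B, G.V1 B) :=
  theta c B G.α1.toRingHom G.k1 (le_refl (G.V1 B))

/-- functions on the intersection -/
def θ01 : G.𝒟.R01 B →+* Γ(XB c B, G.V0 B ⊓ G.V1 B) :=
  theta c B G.α01.toRingHom G.k01 (le_refl (G.V0 B ⊓ G.V1 B))

lemma θ0_bij : Function.Bijective (G.θ0 B) :=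
  theta_bijective c B G.aff0 _ _ G.α0.bijective _ rfl

lemma θ1_bij : Function.Bijective (G.θ1 B) :=
  theta_bijective c B G.aff1 _ _ G.α1.bijective _ rfl

lemma θ01_bij : Function.Bijective (G.θ01 B) :=
  theta_bijective c B G.aff01 _ _ G.α01.bijective _ rfl

lemma θ01_ρ0 (x : G.𝒟.R0 B) : G.θ01 B (G.𝒟.ρ0B B x) =
    (XB c B).presheaf.map (homOfLE inf_le_left).op (G.θ0 B x) :=
  theta_res c B inf_le_left _ _ _ _ _ G.h0 _ _ inf_le_left x

lemma θ01_ρ1 (x : G.𝒟.R1 B) : G.θ01 B (G.𝒟.ρ1B B x) =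
    (XB c B).presheaf.map (homOfLE inf_le_right).op (G.θ1 B x) :=
  theta_res c B inf_le_right _ _ _ _ _ G.h1 _ _ inf_le_right x

variable {B}

/-- The line bundle on `C_B` in terms of modules. -/
def toLB (L : (XB c B).Modules) (hL : Scheme.Modules.IsInvertible L) :
    LB G.𝒟.toTwoChart B where
  M0 := Γ(L, G.V0 B)
  M1 := Γ(L, G.V1 B)
  M01 := Γ(L, G.V0 B ⊓ G.V1 B)
  mod0 := Module.compHom _ (G.θ0 B)
  mod1 := Module.compHom _ (G.θ1 B)
  mod01 := Module.compHom _ (G.θ01 B)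
  r0 := res L inf_le_left
  r1 := res L inf_le_right
  bc0 := by
    have := isQuasicoherent_of_isInvertible L hL
    let _ := Module.compHom Γ(L, G.V0 B) (G.θ0 B)
    let _ := Module.compHom Γ(L, G.V0 B ⊓ G.V1 B) (G.θ01 B)
    refine IsBC.of_square (G.θ0 B) (G.θ01 B) (AddMonoidHom.id _) (AddMonoidHom.id _)
      (G.θ0_bij B) (G.θ01_bij B) Function.bijective_id Function.bijective_id
      (fun _ _ ↦ rfl) (fun _ _ ↦ rfl) (RingHom.ext fun x ↦ G.θ01_ρ0 B x) rfl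
      (isBC_res L (G.affV0 B) (G.affV01 B) inf_le_left)
  bc1 := by
    have := isQuasicoherent_of_isInvertible L hL
    let _ := Module.compHom Γ(L, G.V1 B) (G.θ1 B)
    let _ := Module.compHom Γ(L, G.V0 B ⊓ G.V1 B) (G.θ01 B)
    refine IsBC.of_square (G.θ1 B) (G.θ01 B) (AddMonoidHom.id _) (AddMonoidHom.id _)
      (G.θ1_bij B) (G.θ01_bij B) Function.bijective_id Function.bijective_id
      (fun _ _ ↦ rfl) (fun _ _ ↦ rfl) (RingHom.ext fun x ↦ G.θ01_ρ1 B x) rfl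
      (isBC_res L (G.affV1 B) (G.affV01 B) inf_le_right)
  inv0 := by
    have := invertible_sections L hL (G.affV0 B)
    let _ := Module.compHom Γ(L, G.V0 B) (G.θ0 B)
    exact invertible_of_bijective (G.θ0 B) (AddMonoidHom.id Γ(L, G.V0 B)) (G.θ0_bij B)
      Function.bijective_id (fun _ _ ↦ rfl)
  inv1 := by
    have := invertible_sections L hL (G.affV1 B)
    let _ := Module.compHom Γ(L, G.V1 B) (G.θ1 B)
    exact invertible_of_bijective (G.θ1 B) (AddMonoidHom.id Γ(L, G.V1 B)) (G.θ1_bij B)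
      Function.bijective_id (fun _ _ ↦ rfl)

/-- isomorphic sheaves give isomorphic `LB`s -/
lemma toLB_iso {L L' : (XB c B).Modules} (hL : Scheme.Modules.IsInvertible L)
    (hL' : Scheme.Modules.IsInvertible L') (f : L ≅ L') :
    Nonempty ((G.toLB L hL).Iso (G.toLB L' hL')) := by
  refine ⟨mkEquiv (M := (G.toLB L hL).M0) (M' := (G.toLB L' hL').M0) (f.hom.app (G.V0 B)).hom
      (fun r x ↦ Scheme.Modules.Hom.app_smul f.hom (G.θ0 B r) x) (app_bijective_of_isIso f.hom _),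
    mkEquiv (M := (G.toLB L hL).M1) (M' := (G.toLB L' hL').M1) (f.hom.app (G.V1 B)).hom
      (fun r x ↦ Scheme.Modules.Hom.app_smul f.hom (G.θ1 B r) x) (app_bijective_of_isIso f.hom _),
    mkEquiv (M := (G.toLB L hL).M01) (M' := (G.toLB L' hL').M01)
      (f.hom.app (G.V0 B ⊓ G.V1 B)).hom
      (fun r x ↦ Scheme.Modules.Hom.app_smul f.hom (G.θ01 B r) x)
      (app_bijective_of_isIso f.hom _), fun x ↦ ?_, fun x ↦ ?_⟩
  · exact (app_res f.hom inf_le_left x).symm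
  · exact (app_res f.hom inf_le_right x).symm

/-- isomorphic `LB`s come from isomorphic sheaves -/
lemma iso_of_toLB_iso {L L' : (XB c B).Modules} (hL : Scheme.Modules.IsInvertible L)
    (hL' : Scheme.Modules.IsInvertible L') (E : (G.toLB L hL).Iso (G.toLB L' hL')) :
    Nonempty (L ≅ L') := by
  have := isQuasicoherent_of_isInvertible L hL
  have := isQuasicoherent_of_isInvertible L' hL'
  let e0 : Γ(L, G.V0 B) →ₗ[Γ(XB c B, G.V0 B)] Γ(L', G.V0 B) :=
    { toFun := E.e0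
      map_add' := fun x y ↦ E.e0.map_add x y
      map_smul' := fun r x ↦ by
        obtain ⟨r, rfl⟩ := (G.θ0_bij B).2 r
        exact E.e0.map_smul r x }
  let e1 : Γ(L, G.V1 B) →ₗ[Γ(XB c B, G.V1 B)] Γ(L', G.V1 B) :=
    { toFun := E.e1
      map_add' := fun x y ↦ E.e1.map_add x y
      map_smul' := fun r x ↦ by
        obtain ⟨r, rfl⟩ := (G.θ1_bij B).2 r
        exact E.e1.map_smul r x }
  let e01 : Γ(L, G.V0 B ⊓ G.V1 B) →ₗ[Γ(XB c B, G.V0 B ⊓ G.V1 B)] Γ(L', G.V0 B ⊓ G.V1 B) :=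
    { toFun := E.e01
      map_add' := fun x y ↦ E.e01.map_add x y
      map_smul' := fun r x ↦ by
        obtain ⟨r, rfl⟩ := (G.θ01_bij B).2 r
        exact E.e01.map_smul r x }
  have h0 : extendLin (G.affV0 B) (G.affV01 B) inf_le_left e0 = e01 := by
    refine lin_ext_res (G.affV0 B) (G.affV01 B) inf_le_left fun x ↦ ?_
    rw [extendLin_res]
    exact E.h0 x
  have h1 : extendLin (G.affV1 B) (G.affV01 B) inf_le_right e1 = e01 := by
    refine lin_ext_res (G.affV1 B) (G.affV01 B) inf_le_right fun x ↦ ?_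
    rw [extendLin_res]
    exact E.h1 x
  obtain ⟨f, hf0, hf1, -⟩ := exists_hom_two (G.affV0 B) (G.affV1 B) (G.affV01 B) (G.coverV B)
    e0 e1 (h0.trans h1.symm)
  have := isIso_of_two (G.affV0 B) (G.affV1 B) (G.coverV B) f
    (by
      have : (f.app (G.V0 B) : Γ(L, G.V0 B) → Γ(L', G.V0 B)) = e0 := funext hf0
      rw [this]
      exact E.e0.bijective)
    (by
      have : (f.app (G.V1 B) : Γ(L, G.V1 B) → Γ(L', G.V1 B)) = e1 := funext hf1
      rw [this]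
      exact E.e1.bijective)
  exact ⟨asIso f⟩

lemma nonempty_iso_iff {L L' : (XB c B).Modules} (hL : Scheme.Modules.IsInvertible L)
    (hL' : Scheme.Modules.IsInvertible L') :
    Nonempty (L ≅ L') ↔ Nonempty ((G.toLB L hL).Iso (G.toLB L' hL')) :=
  ⟨fun ⟨f⟩ ↦ G.toLB_iso hL hL' f, fun ⟨E⟩ ↦ G.iso_of_toLB_iso hL hL' E⟩

section bc

variable {B' : Type u} [CommRing B'] [Algebra k B'] (φ : B →ₐ[k] B')

lemma V0_bc : G.V0 B' ≤ baseChangeSnd c (specHom B φ) ⁻¹ᵁ (G.V0 B) := by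
  have : G.V0 B' = baseChangeSnd c (specHom B φ) ⁻¹ᵁ (G.V0 B) := by
    rw [V0, V0, ← Scheme.Hom.comp_preimage, baseChangeSnd_fst]
  exact this.le

lemma V1_bc : G.V1 B' ≤ baseChangeSnd c (specHom B φ) ⁻¹ᵁ (G.V1 B) := by
  have : G.V1 B' = baseChangeSnd c (specHom B φ) ⁻¹ᵁ (G.V1 B) := by
    rw [V1, V1, ← Scheme.Hom.comp_preimage, baseChangeSnd_fst]
  exact this.le

lemma V01_bc : G.V0 B' ⊓ G.V1 B' ≤ baseChangeSnd c (specHom B φ) ⁻¹ᵁ (G.V0 B ⊓ G.V1 B) :=
  fun _ hx ↦ ⟨G.V0_bc φ hx.1, G.V1_bc φ hx.2⟩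

lemma θ0_bc : (G.θ0 B').comp (G.𝒟.bc0 φ) =
    ((baseChangeSnd c (specHom B φ)).appLE (G.V0 B) (G.V0 B') (G.V0_bc φ)).hom.comp (G.θ0 B) :=
  RingHom.ext fun x ↦ theta_bc c B φ G.α0.toRingHom G.k0 (le_refl (G.V0 B))
    (le_refl (G.V0 B')) (G.V0_bc φ) x

lemma θ1_bc : (G.θ1 B').comp (G.𝒟.bc1 φ) =
    ((baseChangeSnd c (specHom B φ)).appLE (G.V1 B) (G.V1 B') (G.V1_bc φ)).hom.comp (G.θ1 B) :=
  RingHom.ext fun x ↦ theta_bc c B φ G.α1.toRingHom G.k1 (le_refl (G.V1 B))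
    (le_refl (G.V1 B')) (G.V1_bc φ) x

lemma θ01_bc : (G.θ01 B').comp (G.𝒟.bc01 φ) =
    ((baseChangeSnd c (specHom B φ)).appLE (G.V0 B ⊓ G.V1 B) (G.V0 B' ⊓ G.V1 B')
      (G.V01_bc φ)).hom.comp (G.θ01 B) :=
  RingHom.ext fun x ↦ theta_bc c B φ G.α01.toRingHom G.k01 (le_refl (G.V0 B ⊓ G.V1 B))
    (le_refl (G.V0 B' ⊓ G.V1 B')) (G.V01_bc φ) x

/-- `toLB` is compatible with base change. -/
def toLB_BC (L : (XB c B).Modules) (hL : Scheme.Modules.IsInvertible L) :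
    LB.BC φ (G.toLB L hL) (G.toLB ((Scheme.Modules.pullback
      (baseChangeSnd c (specHom B φ))).obj L) (hL.pullback _)) where
  u0 := pbSec (baseChangeSnd c (specHom B φ)) L (G.V0 B) (G.V0 B') (G.V0_bc φ)
  u1 := pbSec (baseChangeSnd c (specHom B φ)) L (G.V1 B) (G.V1 B') (G.V1_bc φ)
  u01 := pbSec (baseChangeSnd c (specHom B φ)) L (G.V0 B ⊓ G.V1 B) (G.V0 B' ⊓ G.V1 B')
    (G.V01_bc φ)
  bc0 := by
    have := isQuasicoherent_of_isInvertible L hL
    exact IsBC.of_square (M' := Γ(L, G.V0 B)) (N' := Γ((Scheme.Modules.pullback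
      (baseChangeSnd c (specHom B φ))).obj L, G.V0 B')) (G.θ0 B) (G.θ0 B')
      (AddMonoidHom.id _) (AddMonoidHom.id _)
      (G.θ0_bij B) (G.θ0_bij B') Function.bijective_id Function.bijective_id
      (fun _ _ ↦ rfl) (fun _ _ ↦ rfl) (G.θ0_bc φ)
      rfl (isBC_pbSec (baseChangeSnd c (specHom B φ)) L (G.V0 B) (G.affV0 B) (G.V0 B')
        (G.affV0 B') (G.V0_bc φ))
  bc1 := by
    have := isQuasicoherent_of_isInvertible L hL
    exact IsBC.of_square (M' := Γ(L, G.V1 B)) (N' := Γ((Scheme.Modules.pullback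
      (baseChangeSnd c (specHom B φ))).obj L, G.V1 B')) (G.θ1 B) (G.θ1 B')
      (AddMonoidHom.id _) (AddMonoidHom.id _)
      (G.θ1_bij B) (G.θ1_bij B') Function.bijective_id Function.bijective_id
      (fun _ _ ↦ rfl) (fun _ _ ↦ rfl) (G.θ1_bc φ)
      rfl (isBC_pbSec (baseChangeSnd c (specHom B φ)) L (G.V1 B) (G.affV1 B) (G.V1 B')
        (G.affV1 B') (G.V1_bc φ))
  bc01 := by
    have := isQuasicoherent_of_isInvertible L hL
    exact IsBC.of_square (M' := Γ(L, G.V0 B ⊓ G.V1 B)) (N' := Γ((Scheme.Modules.pullback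
      (baseChangeSnd c (specHom B φ))).obj L, G.V0 B' ⊓ G.V1 B')) (G.θ01 B) (G.θ01 B')
      (AddMonoidHom.id _) (AddMonoidHom.id _)
      (G.θ01_bij B) (G.θ01_bij B') Function.bijective_id Function.bijective_id
      (fun _ _ ↦ rfl) (fun _ _ ↦ rfl) (G.θ01_bc φ)
      rfl (isBC_pbSec (baseChangeSnd c (specHom B φ)) L (G.V0 B ⊓ G.V1 B) (G.affV01 B)
        (G.V0 B' ⊓ G.V1 B') (G.affV01 B') (G.V01_bc φ))
  h0 x := pbSec_res _ L (G.V0_bc φ) (G.V01_bc φ) inf_le_left inf_le_left x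
  h1 x := pbSec_res _ L (G.V1_bc φ) (G.V01_bc φ) inf_le_right inf_le_right x

end bc

end CurveGeom

end Fermat.Agent.S25
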