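import Mathlib
import Fermat.Agent.S25.ToLB
import Fermat.Agent.S25.FibDeg

/-!
# S25 / DEG: the Euler characteristic is constant in families over an integral base
-/

set_option autoImplicit false

universe u

open CategoryTheory CategoryTheory.Limits AlgebraicGeometry TopologicalSpace Opposite
open NeronModelInfra AlgebraicGeometry.RelPicard
open scoped TensorProduct

noncomputable section

namespace Fermat.Agent.S25.Deg

variable {k : Type u} [Field k] {C : Scheme.{u}} {c : C ⟶ Spec (CommRingCat.of k)}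
  {ε : SchemeHomOver (𝟙 (Spec (CommRingCat.of k))) c} (G : CurveGeom c ε)
  {T : Scheme.{u}} {t : T ⟶ Spec (CommRingCat.of k)} (L : (pullback c t).Modules)
  (hL : Scheme.Modules.IsInvertible L)

/-- the `LB` of `L` at a `B`-valued point of the base -/
def LBat {B : Type u} [CommRing B] [Algebra k B] (g : SchemeHomOver (tB k B) t) :
    LB G.𝒟.toTwoChart B :=
  G.toLB ((Scheme.Modules.pullback (baseChangeSnd c g)).obj L) (hL.pullback _)

lemma nonempty_bc {B B' : Type u} [CommRing B] [Algebra k B] [CommRing B'] [Algebra k B']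
    (g : SchemeHomOver (tB k B) t) (φ : B →ₐ[k] B') (g' : SchemeHomOver (tB k B') t)
    (h : g'.1 = Spec.map (CommRingCat.ofHom φ.toRingHom) ≫ g.1) :
    Nonempty (LB.BC φ (LBat G L hL g) (LBat G L hL g')) := by
  have h1 : baseChangeSnd c (specHom B φ) ≫ baseChangeSnd c g = baseChangeSnd c g' := by
    rw [baseChangeSnd_comp]
    congr 1
    exact Subtype.ext h.symm
  obtain ⟨e⟩ := G.toLB_iso (((hL.pullback (baseChangeSnd c g)).pullback
      (baseChangeSnd c (specHom B φ)))) (hL.pullback (baseChangeSnd c g'))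
    ((Scheme.Modules.pullbackComp _ _).app L ≪≫ (Scheme.Modules.pullbackCongr h1).app L)
  exact ⟨(G.toLB_BC φ _ (hL.pullback (baseChangeSnd c g))).trans_iso e⟩

/-- factoring an affine point through an open immersion from an affine scheme -/
lemma exists_factor {B K : Type u} [CommRing B] [Algebra k B] [CommRing K] [Algebra k K]
    (g : SchemeHomOver (tB k B) t) [IsOpenImmersion g.1] (p : SchemeHomOver (tB k K) t)
    (h : Set.range p.1 ⊆ Set.range g.1) :
    ∃ φ : B →ₐ[k] K, p.1 = Spec.map (CommRingCat.ofHom φ.toRingHom) ≫ g.1 := by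
  let l := IsOpenImmersion.lift g.1 p.1 h
  have hl : l ≫ g.1 = p.1 := IsOpenImmersion.lift_fac _ _ _
  have h1 : Spec.map (Spec.preimage l) = l := Spec.map_preimage l
  have h2 : CommRingCat.ofHom (algebraMap k B) ≫ Spec.preimage l =
      CommRingCat.ofHom (algebraMap k K) := by
    apply Spec.map_injective
    rw [Spec.map_comp, h1]
    have h3 : l ≫ tB k B = tB k K := by
      rw [← g.2, ← p.2, ← hl, Category.assoc]
    exact h3
  refine ⟨⟨(Spec.preimage l).hom, fun r ↦ congr(($h2).hom r)⟩, ?_⟩
  rw [← hl]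
  congr 1
  exact h1.symm

/-- affine neighbourhoods -/
lemma exists_nhd (x : T) : ∃ (B : Type u) (_ : CommRing B) (_ : Algebra k B)
    (g : SchemeHomOver (tB k B) t), IsOpenImmersion g.1 ∧ x ∈ Set.range g.1 := by
  obtain ⟨R, f, hf, hx⟩ := T.exists_affine_mem_range_and_range_subset (U := ⊤) (x := x) trivial
  let _ : Algebra k R := (Spec.preimage (f ≫ t)).hom.toAlgebra
  refine ⟨R, inferInstance, inferInstance, ⟨f, ?_⟩, hf, hx.1⟩
  exact (Spec.map_preimage (f ≫ t)).symm

/-- residue fields -/
lemma exists_field_point (x : T) : ∃ (K : Type u) (_ : Field K) (_ : Algebra k K)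
    (g : SchemeHomOver (tB k K) t), Set.range g.1 = {x} := by
  let _ : Algebra k (T.residueField x) :=
    (Spec.preimage (T.fromSpecResidueField x ≫ t)).hom.toAlgebra
  refine ⟨T.residueField x, inferInstance, inferInstance, ⟨T.fromSpecResidueField x, ?_⟩, ?_⟩
  · exact (Spec.map_preimage (T.fromSpecResidueField x ≫ t)).symm
  · exact T.range_fromSpecResidueField x

lemma chi_eq_of_nhd {B K K' : Type u} [CommRing B] [Algebra k B] [Field K] [Algebra k K] [Field K']
    [Algebra k K'] [PreconnectedSpace (PrimeSpectrum B)]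
    (g : SchemeHomOver (tB k B) t) [IsOpenImmersion g.1] (p : SchemeHomOver (tB k K) t)
    (p' : SchemeHomOver (tB k K') t)
    (h : Set.range p.1 ⊆ Set.range g.1) (h' : Set.range p'.1 ⊆ Set.range g.1) :
    (LBat G L hL p).chi = (LBat G L hL p').chi := by
  obtain ⟨φ, hφ⟩ := exists_factor g p h
  obtain ⟨φ', hφ'⟩ := exists_factor g p' h'
  obtain ⟨b⟩ := nonempty_bc G L hL g φ p hφ
  obtain ⟨b'⟩ := nonempty_bc G L hL g φ' p' hφ'
  exact LB.chi_eq_of_preconnectedSpace b b'

lemma preconnectedSpace_of_isOpenImmersion [IsIntegral T] {B : Type u} [CommRing B]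
    (g : Spec (CommRingCat.of B) ⟶ T) [IsOpenImmersion g] :
    PreconnectedSpace (PrimeSpectrum B) := by
  by_cases hB : Nontrivial B
  · have : Nonempty (Spec (CommRingCat.of B)) := inferInstanceAs (Nonempty (PrimeSpectrum B))
    have : IsIntegral (Spec (CommRingCat.of B)) := isIntegral_of_isOpenImmersion g
    have : IrreducibleSpace (Spec (CommRingCat.of B)) := inferInstance
    exact (inferInstance : PreconnectedSpace (Spec (CommRingCat.of B)))
  · have := not_nontrivial_iff_subsingleton.mp hB
    infer_instance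

/-- **The Euler characteristic is constant in families over an integral base.** -/
theorem chi_eq_chi [IsIntegral T] {K K' : Type u} [Field K] [Algebra k K] [Field K']
    [Algebra k K'] (p : SchemeHomOver (tB k K) t) (p' : SchemeHomOver (tB k K') t) :
    (LBat G L hL p).chi = (LBat G L hL p').chi := by
  have hK : Nonempty (Spec (CommRingCat.of K)) := inferInstanceAs (Nonempty (PrimeSpectrum K))
  have hK' : Nonempty (Spec (CommRingCat.of K')) := inferInstanceAs (Nonempty (PrimeSpectrum K'))
  have hs : Subsingleton (Spec (CommRingCat.of K)) := inferInstanceAs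
    (Subsingleton (PrimeSpectrum K))
  have hs' : Subsingleton (Spec (CommRingCat.of K')) := inferInstanceAs
    (Subsingleton (PrimeSpectrum K'))
  obtain ⟨x⟩ := hK
  obtain ⟨x'⟩ := hK'
  obtain ⟨B, _, _, g, hg, hx⟩ := exists_nhd (t := t) (p.1 x)
  obtain ⟨B', _, _, g', hg', hx'⟩ := exists_nhd (t := t) (p'.1 x')
  have h1 : Set.range p.1 ⊆ Set.range g.1 := by
    rintro _ ⟨y, rfl⟩
    rwa [Subsingleton.elim y x]
  have h1' : Set.range p'.1 ⊆ Set.range g'.1 := by
    rintro _ ⟨y, rfl⟩
    rwa [Subsingleton.elim y x']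
  obtain ⟨z, hz, hz'⟩ : (Set.range g.1 ∩ Set.range g'.1).Nonempty :=
    nonempty_preirreducible_inter (IsOpenImmersion.isOpen_range g.1)
      (IsOpenImmersion.isOpen_range g'.1) ⟨_, hx⟩ ⟨_, hx'⟩
  obtain ⟨F, _, _, q, hq⟩ := exists_field_point (t := t) z
  have := preconnectedSpace_of_isOpenImmersion g.1
  have := preconnectedSpace_of_isOpenImmersion g'.1
  rw [chi_eq_of_nhd G L hL g p q h1 (by rw [hq]; simpa using hz),
    chi_eq_of_nhd G L hL g' p' q h1' (by rw [hq]; simpa using hz')]

end Fermat.Agent.S25.Deg
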