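import Mathlib
import Fermat.Agent.S25.DegChi
import Fermat.Prelude.Def_AlgebraicGeometry_RelPicardAlgEquivZeroCut

/-!
# S25 / DEG: algebraic equivalence to zero implies that the Euler characteristic is that of `O`
-/

set_option autoImplicit false

universe u

open CategoryTheory CategoryTheory.Limits AlgebraicGeometry TopologicalSpace Opposite
open NeronModelInfra AlgebraicGeometry.RelPicard
open scoped TensorProduct

noncomputable section

namespace Fermat.Agent.S25.Deg

variable {k : Type u} [Field k] {C : Scheme.{u}} {c : C ⟶ Spec (CommRingCat.of k)}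
  {ε : SchemeHomOver (𝟙 (Spec (CommRingCat.of k))) c} (G : CurveGeom c ε)

variable (B : Type u) [CommRing B] [Algebra k B]

/-- the structure sheaf corresponds to the trivial `LB` -/
def trivIsoUnit : (LB.triv G.𝒟.toTwoChart B).Iso
    (G.toLB (SheafOfModules.unit (XB c B).ringCatSheaf) (Scheme.Modules.isInvertible_unit _)) where
  e0 := mkEquiv (M := G.𝒟.R0 B) (M' := (G.toLB (SheafOfModules.unit (XB c B).ringCatSheaf)
    (Scheme.Modules.isInvertible_unit _)).M0) (G.θ0 B).toAddMonoidHom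
    (fun r x ↦ (G.θ0 B).map_mul r x) (G.θ0_bij B)
  e1 := mkEquiv (M := G.𝒟.R1 B) (M' := (G.toLB (SheafOfModules.unit (XB c B).ringCatSheaf)
    (Scheme.Modules.isInvertible_unit _)).M1) (G.θ1 B).toAddMonoidHom
    (fun r x ↦ (G.θ1 B).map_mul r x) (G.θ1_bij B)
  e01 := mkEquiv (M := G.𝒟.R01 B) (M' := (G.toLB (SheafOfModules.unit (XB c B).ringCatSheaf)
    (Scheme.Modules.isInvertible_unit _)).M01) (G.θ01 B).toAddMonoidHom
    (fun r x ↦ (G.θ01 B).map_mul r x) (G.θ01_bij B)
  h0 x := (G.θ01_ρ0 B x).symm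
  h1 x := (G.θ01_ρ1 B x).symm

variable {B}

/-- the Euler characteristic of a sheaf isomorphic to the structure sheaf -/
lemma chi_toLB_of_iso_unit {K : Type u} [Field K] [Algebra k K] {L : (XB c K).Modules}
    (hL : Scheme.Modules.IsInvertible L)
    (e : Nonempty (L ≅ SheafOfModules.unit (XB c K).ringCatSheaf)) :
    (G.toLB L hL).chi = (LB.triv G.𝒟.toTwoChart K).chi := by
  obtain ⟨e⟩ := e
  obtain ⟨e'⟩ := G.toLB_iso hL (Scheme.Modules.isInvertible_unit _) e
  rw [e'.chi, (trivIsoUnit G K).chi]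

lemma chi_toLB_of_iso {K : Type u} [Field K] [Algebra k K] {L L' : (XB c K).Modules}
    (hL : Scheme.Modules.IsInvertible L) (hL' : Scheme.Modules.IsInvertible L')
    (e : Nonempty (L ≅ L')) : (G.toLB L hL).chi = (G.toLB L' hL').chi := by
  obtain ⟨e⟩ := e
  obtain ⟨e'⟩ := G.toLB_iso hL hL' e
  exact e'.chi

section

variable {K : Type u} [Field K] [Algebra k K] {T : Scheme.{u}}
  (h : T ⟶ Spec (CommRingCat.of K))

omit [Field K] in
@[reassoc]
lemma bcs_fst {R : Type u} [CommRing R] {C T T' : Scheme.{u}} (c : C ⟶ Spec (CommRingCat.of R))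
    {t : T ⟶ Spec (CommRingCat.of R)} {t' : T' ⟶ Spec (CommRingCat.of R)}
    (g : SchemeHomOver t' t) : baseChangeSnd c g ≫ pullback.fst c t = pullback.fst c t' :=
  (pullback.lift_fst _ _ _).trans (Category.comp_id _)

omit [Field K] in
@[reassoc]
lemma bcs_snd {R : Type u} [CommRing R] {C T T' : Scheme.{u}} (c : C ⟶ Spec (CommRingCat.of R))
    {t : T ⟶ Spec (CommRingCat.of R)} {t' : T' ⟶ Spec (CommRingCat.of R)}
    (g : SchemeHomOver t' t) : baseChangeSnd c g ≫ pullback.snd c t = pullback.snd c t' ≫ g.1 :=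
  pullback.lift_snd _ _ _

/-- `C ×_k T ⟶ C_K ×_K T` -/
def sig : pullback c (h ≫ tB k K) ⟶ pullback (qB c K) h :=
  pullback.lift (pullback.lift (pullback.fst _ _) (pullback.snd _ _ ≫ h)
    (by rw [pullback.condition, Category.assoc])) (pullback.snd _ _) (pullback.lift_snd _ _ _)

@[reassoc]
lemma sig_fst_fst : sig (c := c) h ≫ pullback.fst _ _ ≫ pullback.fst _ _ = pullback.fst _ _ := by
  rw [sig, pullback.lift_fst_assoc, pullback.lift_fst]

@[reassoc]
lemma sig_fst_snd : sig (c := c) h ≫ pullback.fst _ _ ≫ pullback.snd _ _ =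
    pullback.snd _ _ ≫ h := by
  rw [sig, pullback.lift_fst_assoc, pullback.lift_snd]

@[reassoc]
lemma sig_snd : sig (c := c) h ≫ pullback.snd _ _ = pullback.snd _ _ := pullback.lift_snd _ _ _

/-- a section over `K` as a point over `k` -/
def secPt (s : SchemeHomOver (𝟙 (Spec (CommRingCat.of K))) h) :
    SchemeHomOver (tB k K) (h ≫ tB k K) :=
  ⟨s.1, by rw [← Category.assoc, s.2, Category.id_comp]⟩

/-- `C_K ⟶ C_K ×_K K` -/
def iot : XB c K ⟶ pullback (qB c K) (𝟙 (Spec (CommRingCat.of K))) :=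
  pullback.lift (𝟙 _) (qB c K) (by simp)

lemma iot_fst : (iot : XB c K ⟶ _) ≫ pullback.fst (qB c K) (𝟙 (Spec (CommRingCat.of K))) = 𝟙 _ :=
  pullback.lift_fst _ _ _

lemma iot_snd : (iot : XB c K ⟶ _) ≫ pullback.snd (qB c K) (𝟙 (Spec (CommRingCat.of K))) =
    qB c K := pullback.lift_snd _ _ _

lemma iot_baseChangeSnd (s : SchemeHomOver (𝟙 (Spec (CommRingCat.of K))) h) :
    iot ≫ baseChangeSnd (qB c K) s = baseChangeSnd c (secPt (k := k) h s) ≫ sig (c := c) h := by
  have h2 : s.1 ≫ h = 𝟙 _ := s.2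
  apply pullback.hom_ext
  · rw [Category.assoc, bcs_fst, iot_fst, Category.assoc]
    apply pullback.hom_ext
    · rw [Category.id_comp, Category.assoc, Category.assoc, sig_fst_fst, bcs_fst]
    · rw [Category.id_comp, Category.assoc, Category.assoc, sig_fst_snd, bcs_snd_assoc]
      show _ = pullback.snd c (tB k K) ≫ s.1 ≫ h
      rw [h2, Category.comp_id]
  · rw [Category.assoc, bcs_snd, Category.assoc, sig_snd, bcs_snd, ← Category.assoc, iot_snd]
    rfl

/-- **algebraic equivalence preserves the Euler characteristic** -/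
theorem chi_of_isAlgEquivZero {L : (XB c K).Modules} (hL : Scheme.Modules.IsInvertible L)
    (hL0 : IsAlgEquivZero (qB c K) L) :
    (G.toLB L hL).chi = (LB.triv G.𝒟.toTwoChart K).chi := by
  obtain ⟨T, h, -, hgi, M, hM, t₀, t₁, ⟨e₀⟩, ⟨e₁⟩⟩ := hL0
  have : IsIntegral T := GeometricallyIntegral.isIntegral_of_subsingleton h
  have key := chi_eq_chi G ((Scheme.Modules.pullback (sig (c := c) h)).obj M) (hM.pullback _)
    (secPt (k := k) h t₀) (secPt (k := k) h t₁)
  have h0 : (LBat G ((Scheme.Modules.pullback (sig (c := c) h)).obj M) (hM.pullback _)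
      (secPt (k := k) h t₀)).chi = (LB.triv G.𝒟.toTwoChart K).chi := by
    refine chi_toLB_of_iso_unit G _ ⟨(Scheme.Modules.pullbackComp _ _).app M ≪≫
      (Scheme.Modules.pullbackCongr (iot_baseChangeSnd h t₀).symm).app M ≪≫
      ((Scheme.Modules.pullbackComp _ _).app M).symm ≪≫
      (Scheme.Modules.pullback iot).mapIso e₀ ≪≫ Scheme.Modules.pullbackUnitIso _⟩
  have h1 : (LBat G ((Scheme.Modules.pullback (sig (c := c) h)).obj M) (hM.pullback _)
      (secPt (k := k) h t₁)).chi = (G.toLB L hL).chi := by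
    refine chi_toLB_of_iso G _ _ ⟨(Scheme.Modules.pullbackComp _ _).app M ≪≫
      (Scheme.Modules.pullbackCongr (iot_baseChangeSnd h t₁).symm).app M ≪≫
      ((Scheme.Modules.pullbackComp _ _).app M).symm ≪≫
      (Scheme.Modules.pullback iot).mapIso e₁ ≪≫ (Scheme.Modules.pullbackComp _ _).app L ≪≫
      (Scheme.Modules.pullbackCongr iot_fst).app L ≪≫ (Scheme.Modules.pullbackId _).app L⟩
  rw [← h1, ← h0, key]

end

end Fermat.Agent.S25.Deg
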