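import Mathlib
import Fermat.Agent.S25.DegGeom

/-!
# S25 / DEG: comparison of `FibrewiseAlgEquivZero` with `FibDeg0`
-/

set_option autoImplicit false

universe u

open CategoryTheory CategoryTheory.Limits AlgebraicGeometry TopologicalSpace Opposite
open NeronModelInfra AlgebraicGeometry.RelPicard
open scoped TensorProduct

noncomputable section

namespace Fermat.Agent.S25.Deg

variable {k : Type u} [Field k] {C : Scheme.{u}} {c : C ⟶ Spec (CommRingCat.of k)}
  {ε : SchemeHomOver (𝟙 (Spec (CommRingCat.of k))) c} (G : CurveGeom c ε)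
  {T : Scheme.{u}} {t : T ⟶ Spec (CommRingCat.of k)}

section

variable {K : Type u} [Field K] [Algebra k K] (p : SchemeHomOver (tB k K) t)

/-- from `C_K` to the fibre -/
def toFib : XB c K ⟶ pullback (pullback.snd c t) p.1 :=
  pullback.lift (baseChangeSnd c p) (qB c K) (bcs_snd c p)

/-- from the fibre to `C_K` -/
def ofFib : pullback (pullback.snd c t) p.1 ⟶ XB c K :=
  pullback.lift (pullback.fst _ _ ≫ pullback.fst _ _) (pullback.snd _ _) (by
    rw [Category.assoc, pullback.condition, pullback.condition_assoc, p.2])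

lemma toFib_fst : toFib (c := c) p ≫ pullback.fst _ _ = baseChangeSnd c p := pullback.lift_fst _ _ _

lemma toFib_snd : toFib (c := c) p ≫ fibreAt c t p.1 = qB c K := pullback.lift_snd _ _ _

lemma ofFib_fst : ofFib (c := c) p ≫ pC c K = pullback.fst _ _ ≫ pullback.fst _ _ :=
  pullback.lift_fst _ _ _

lemma ofFib_snd : ofFib (c := c) p ≫ qB c K = fibreAt c t p.1 := pullback.lift_snd _ _ _

lemma ofFib_baseChangeSnd : ofFib (c := c) p ≫ baseChangeSnd c p = pullback.fst _ _ := by
  apply pullback.hom_ext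
  · rw [Category.assoc, bcs_fst, ofFib_fst]
  · rw [Category.assoc, bcs_snd, ← Category.assoc, ofFib_snd]
    exact pullback.condition.symm

lemma isAlgEquivZero_fibre_iff (L : (pullback c t).Modules) :
    IsAlgEquivZero (fibreAt c t p.1)
      ((Scheme.Modules.pullback (pullback.fst (pullback.snd c t) p.1)).obj L) ↔
    IsAlgEquivZero (qB c K) ((Scheme.Modules.pullback (baseChangeSnd c p)).obj L) := by
  constructor
  · intro h
    refine IsAlgEquivZero.of_iso ?_ (h.pullback (toFib (c := c) p) (toFib_snd p))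
    exact (Scheme.Modules.pullbackComp _ _).app L ≪≫
      (Scheme.Modules.pullbackCongr (toFib_fst p)).app L
  · intro h
    refine IsAlgEquivZero.of_iso ?_ (h.pullback (ofFib (c := c) p) (ofFib_snd p))
    exact (Scheme.Modules.pullbackComp _ _).app L ≪≫
      (Scheme.Modules.pullbackCongr (ofFib_baseChangeSnd p)).app L

end

/-- a `B'`-point from a `B`-point -/
def compPt {B B' : Type u} [CommRing B] [Algebra k B] [CommRing B'] [Algebra k B']
    (g : SchemeHomOver (tB k B) t) (φ : B →ₐ[k] B') : SchemeHomOver (tB k B') t :=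
  postComp g (specHom B φ)

lemma chi_eq_triv_of_fibDeg0 {L : (pullback c t).Modules} (hL : Scheme.Modules.IsInvertible L)
    {K : Type u} [Field K] [Algebra k K] (p : SchemeHomOver (tB k K) t)
    (h : (LBat G L hL p).FibDeg0) :
    (LBat G L hL p).chi = (LB.triv G.𝒟.toTwoChart K).chi :=
  (LB.fibDeg0_iff_field _).mp h

/-- fibrewise algebraic equivalence to zero implies fibrewise degree zero -/
theorem fibDeg0_of_fibrewiseAlgEquivZero {M : RigidifiedLineBundle c ε t}
    (hM : FibrewiseAlgEquivZero M) {B : Type u} [CommRing B] [Algebra k B]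
    (g : SchemeHomOver (tB k B) t) : (LBat G M.L M.isInvertible g).FibDeg0 := by
  intro K _ _ φ E b
  let K' := AlgebraicClosure K
  let ψ : K →ₐ[k] K' := IsScalarTower.toAlgHom k K K'
  obtain ⟨b'⟩ := nonempty_bc G M.L M.isInvertible g (ψ.comp φ) (compPt g (ψ.comp φ)) rfl
  have h1 : (LBat G M.L M.isInvertible (compPt g (ψ.comp φ))).chi =
      (LB.triv G.𝒟.toTwoChart K').chi :=
    chi_of_isAlgEquivZero G _ ((isAlgEquivZero_fibre_iff _ _).mp (hM K' _))
  have h2 : (E.baseChange ψ).chi = (LBat G M.L M.isInvertible (compPt g (ψ.comp φ))).chi :=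
    ((b.comp (E.bcBaseChange ψ)).uniq b').chi
  rw [← (E.bcBaseChange ψ).chi_eq, h2, h1, (LB.trivBC _ ψ).chi_eq]

/-- **Comparison**: `FibrewiseAlgEquivZero` is fibrewise degree zero, provided that over
algebraically closed fields line bundles of degree zero are algebraically equivalent to zero. -/
theorem fibrewiseAlgEquivZero_iff_of
    (hdeg : ∀ (K : Type u) [Field K] [IsAlgClosed K] [Algebra k K] (L : (XB c K).Modules)
      (hL : Scheme.Modules.IsInvertible L),
      (G.toLB L hL).chi = (LB.triv G.𝒟.toTwoChart K).chi → IsAlgEquivZero (qB c K) L)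
    (M : RigidifiedLineBundle c ε t) :
    FibrewiseAlgEquivZero M ↔ ∀ (B : Type u) [CommRing B] [Algebra k B]
      (g : SchemeHomOver (tB k B) t), (LBat G M.L M.isInvertible g).FibDeg0 := by
  refine ⟨fun h B _ _ g ↦ fibDeg0_of_fibrewiseAlgEquivZero G h g, fun h K _ _ s ↦ ?_⟩
  let _ : Algebra k K := (Spec.preimage (s ≫ t)).hom.toAlgebra
  let p : SchemeHomOver (tB k K) t := ⟨s, (Spec.map_preimage (s ≫ t)).symm⟩
  exact (isAlgEquivZero_fibre_iff p M.L).mpr (hdeg K _ _ (chi_eq_triv_of_fibDeg0 G _ p (h K p)))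

end Fermat.Agent.S25.Deg
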