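import Fermat.Agent.S25.Asc

/-!
# S25: morphisms between associated sheaves
-/

set_option autoImplicit false

universe u

open CategoryTheory CategoryTheory.Limits AlgebraicGeometry TopologicalSpace Opposite

noncomputable section

namespace Fermat.Agent.S25

open AlgebraicGeometry.Scheme.Modules

variable {X Y Z : Scheme.{u}}

section aschom

variable {V W : X.Opens} (hV : IsAffineOpen V) (hW : IsAffineOpen W) (h : W ≤ V)
  (M N : Type u) [AddCommGroup M] [Module Γ(X, V) M] [AddCommGroup N] [Module Γ(X, W) N]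

lemma appIso_top_comp (h' : hW.fromSpec ''ᵁ ⊤ ≤ V) :
    X.presheaf.map (homOfLE h').op ≫ (hW.fromSpec.appIso ⊤).hom =
      X.presheaf.map (homOfLE h).op ≫ (Scheme.ΓSpecIso Γ(X, W)).inv := by
  have h1 : (hW.fromSpec.appIso ⊤).hom = hW.fromSpec.appLE (hW.fromSpec ''ᵁ ⊤) ⊤
      (hW.fromSpec.preimage_image_eq _).ge := Scheme.Hom.appIso_hom' _ _
  have h2 : (Scheme.ΓSpecIso Γ(X, W)).inv = hW.fromSpec.appLE W ⊤ (by
      rw [hW.fromSpec_preimage_self]) := by
    rw [Scheme.Hom.appLE, hW.fromSpec_app_self, Category.assoc, ← Functor.map_comp]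
    exact (Category.comp_id _).symm.trans (congrArg _ ((Spec Γ(X, W)).presheaf.map_id _).symm)
  rw [h1, h2, Scheme.Hom.map_appLE, Scheme.Hom.map_appLE]

theorem exists_asc_hom (g : M →+ N) (hg : IsBC (X.presheaf.map (homOfLE h).op).hom g) :
    ∃ φ : asc hV M ⟶ asc hW N,
      (∀ m, res _ h (φ.app V (ascTop hV M m)) = ascTop hW N (g m)) ∧
      ∀ W' : X.Opens, W' ⊓ V ≤ W → Function.Bijective (φ.app W') := by
  let J := hW.fromSpec
  have hJ : J ''ᵁ ⊤ = W := by simp [J]
  have hJV : J ''ᵁ ⊤ ≤ V := hJ.le.trans h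
  have hJa : IsAffineOpen (J ''ᵁ ⊤) := by rw [hJ]; exact hW
  -- first base change
  have b0 : IsBC (RingHom.id Γ(X, V)) (ascTop hV M) :=
    .of_bijective _ _ Function.bijective_id (ascTop_bijective hV M) (ascTop_smul hV M)
  have b0' : IsBC (B := Γ(Spec Γ(X, W), ⊤)) (N := Γ((asc hV M).restrict J, ⊤))
      (J.appIso ⊤).hom.hom (AddMonoidHom.id Γ(asc hV M, J ''ᵁ ⊤)) := by
    refine .of_bijective _ _ (ConcreteCategory.bijective_of_isIso _) Function.bijective_id ?_
    intro a m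
    change a • m = (J.appIso ⊤).inv ((J.appIso ⊤).hom a) • m
    rw [(J.appIso ⊤).hom_inv_id_apply]
  have b1 : IsBC (B := Γ(Spec Γ(X, W), ⊤)) (N := Γ((asc hV M).restrict J, ⊤))
      ((J.appIso ⊤).hom.hom.comp (X.presheaf.map (homOfLE hJV).op).hom)
      ((res (asc hV M) hJV).comp (ascTop hV M)) := by
    have := (b0.comp (isBC_asc hV hJa hJV M)).comp b0'
    exact this
  have b2' : IsBC (gs Γ(X, W)) (tildeTop (ModuleCat.of Γ(X, W) N)) := by
    refine .of_bijective _ _ (gs_bijective _) (tildeTop_bijective _) ?_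
    intro a m
    rw [← smul_top_eq]
    exact tildeTop_smul _ _ _
  have b2 : IsBC (B := Γ(Spec Γ(X, W), ⊤)) (N := Γ(tilde (ModuleCat.of Γ(X, W) N), ⊤))
      ((J.appIso ⊤).hom.hom.comp (X.presheaf.map (homOfLE hJV).op).hom)
      ((tildeTop (ModuleCat.of Γ(X, W) N)).comp g) := by
    have h1 := hg.comp b2'
    have h2 : (J.appIso ⊤).hom.hom.comp (X.presheaf.map (homOfLE hJV).op).hom =
        (gs Γ(X, W)).comp (X.presheaf.map (homOfLE h).op).hom :=
      congr(($(appIso_top_comp hW h hJV)).hom)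
    rw [h2]
    exact h1
  have hqc := asc_qc hV hW h M
  obtain ⟨f, hf⟩ := exists_iso_of_affine (L := (asc hV M).restrict J)
    (L' := tilde (ModuleCat.of Γ(X, W) N)) (isAffineOpen_top _) (b1.equiv b2)
  let φ : asc hV M ⟶ asc hW N := (restrictAdjunction J).homEquiv _ _ f.hom
  have hφ : ∀ W' (x : Γ(asc hV M, W')), φ.app W' x =
      f.hom.app (J ⁻¹ᵁ W') (res (asc hV M) (J.image_preimage_le W') x) := by
    intro W' x
    have := (restrictAdjunction J).homEquiv_unit (asc hV M) (tilde (ModuleCat.of Γ(X, W) N)) f.hom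
    change ((restrictAdjunction J).homEquiv _ _ f.hom).app W' x = _
    rw [this]
    rfl
  refine ⟨φ, fun m ↦ ?_, fun W' hW' ↦ ?_⟩
  · have h1 : f.hom.app ⊤ ((res (asc hV M) hJV) (ascTop hV M m)) =
      tildeTop (ModuleCat.of Γ(X, W) N) (g m) := by
      rw [hf]
      exact b1.equiv_apply b2 m
    have h2 := app_res f.hom (le_top : J ⁻¹ᵁ W ≤ ⊤) ((res (asc hV M) hJV) (ascTop hV M m))
    have h3 := app_res φ h (ascTop hV M m)
    refine h3.symm.trans ?_
    rw [hφ]
    refine Eq.trans ?_ (h2.trans (congrArg (res _ _) h1))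
    congr 1
  · have h1 : (φ.app W' : Γ(asc hV M, W') → Γ(asc hW N, W')) =
      (f.hom.app (J ⁻¹ᵁ W')).hom ∘ (res (asc hV M) (J.image_preimage_le W')) := funext (hφ W')
    rw [h1]
    refine (app_bijective_of_isIso f.hom _).comp (asc_res_bijective hV M _ ?_)
    rw [J.image_preimage_eq_opensRange_inf, hW.opensRange_fromSpec]
    exact le_inf hW' inf_le_left

end aschom

end Fermat.Agent.S25
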