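import Fermat.Agent.S25.ToLB

/-!
# S25: rigidifications
-/

set_option autoImplicit false

universe u

open CategoryTheory CategoryTheory.Limits AlgebraicGeometry TopologicalSpace Opposite
open NeronModelInfra AlgebraicGeometry.RelPicard
open scoped TensorProduct

noncomputable section

namespace Fermat.Agent.S25

variable {k : Type u} [Field k] {C : Scheme.{u}} {c : C ⟶ Spec (CommRingCat.of k)}
  {ε : SchemeHomOver (𝟙 (Spec (CommRingCat.of k))) c}

namespace CurveGeom

variable (G : CurveGeom c ε) {B : Type u} [CommRing B] [Algebra k B]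

variable (B) in
lemma V1_sec : ⊤ ≤ rigSection c (tB k B) ε ⁻¹ᵁ (G.V1 B) := by
  have : rigSection c (tB k B) ε ⁻¹ᵁ (G.V1 B) = ⊤ := by
    rw [V1, ← Scheme.Hom.comp_preimage, rigSection_fst, Scheme.Hom.comp_preimage, G.hε1]
    rfl
  exact this.ge

variable (B) in
lemma θ1_sec : ((Scheme.ΓSpecIso (CommRingCat.of B)).inv.hom).comp (G.𝒟.εB B).toRingHom =
    ((rigSection c (tB k B) ε).appLE (G.V1 B) ⊤ (G.V1_sec B)).hom.comp (G.θ1 B) :=
  RingHom.ext fun x ↦ (theta_sec c B ε G.hε1 G.𝒟.ε G.α1.toRingHom G.k1 G.hε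
    (le_refl (G.V1 B)) (G.V1_sec B) x).symm

variable (L : (XB c B).Modules) (hL : Scheme.Modules.IsInvertible L)

/-- the fibre along the section -/
abbrev secL : (Spec (CommRingCat.of B)).Modules :=
  (Scheme.Modules.pullback (rigSection c (tB k B) ε)).obj L

/-- `B`-module structure on global sections -/
@[reducible] def modSec (N : (Spec (CommRingCat.of B)).Modules) : Module B Γ(N, ⊤) :=
  Module.compHom _ (Scheme.ΓSpecIso (CommRingCat.of B)).inv.hom

lemma isBC_sec : let _ := modSec (secL (ε := ε) L)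
    IsBC (N := Γ(secL (ε := ε) L, ⊤)) (G.𝒟.εB B).toRingHom
    (show (G.toLB L hL).M1 →+ Γ(secL (ε := ε) L, ⊤) from
      pbSec (rigSection c (tB k B) ε) L (G.V1 B) ⊤ (G.V1_sec B)) := by
  have := isQuasicoherent_of_isInvertible L hL
  let _ := modSec (secL (ε := ε) L)
  exact IsBC.of_square (M' := Γ(L, G.V1 B)) (N' := Γ(secL (ε := ε) L, ⊤)) (G.θ1 B)
      ((Scheme.ΓSpecIso (CommRingCat.of B)).inv.hom)
      (AddMonoidHom.id _) (AddMonoidHom.id _)
      (G.θ1_bij B) (ConcreteCategory.bijective_of_isIso _)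
      Function.bijective_id Function.bijective_id
      (fun _ _ ↦ rfl) (fun _ _ ↦ rfl) (G.θ1_sec B)
      rfl (isBC_pbSec (rigSection c (tB k B) ε) L (G.V1 B) (G.affV1 B) ⊤
        (isAffineOpen_top _) (G.V1_sec B))

lemma rig_iff : (G.toLB L hL).Rig (𝒞 := G.𝒟) ↔ Nonempty (secL (ε := ε) L ≅
    SheafOfModules.unit (Spec (CommRingCat.of B)).ringCatSheaf) := by
  have hLs := hL.pullback (rigSection c (tB k B) ε)
  have := isQuasicoherent_of_isInvertible _ hLs
  let _ := modSec (secL (ε := ε) L)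
  have hbc := G.isBC_sec L hL
  constructor
  · rintro ⟨e, he⟩
    let E : Γ(secL (ε := ε) L, ⊤) ≃ₗ[B] B := hbc.equiv he
    refine nonempty_iso_of_affine (isAffineOpen_top _) ?_
    refine mkEquiv (M' := Γ(SheafOfModules.unit (Spec (CommRingCat.of B)).ringCatSheaf, ⊤))
      (((Scheme.ΓSpecIso (CommRingCat.of B)).inv.hom.toAddMonoidHom).comp
        E.toLinearMap.toAddMonoidHom) ?_ ?_
    · intro r x
      obtain ⟨r, rfl⟩ := (ConcreteCategory.bijective_of_isIso
        (Scheme.ΓSpecIso (CommRingCat.of B)).inv).2 r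
      have h1 := E.map_smul r x
      have h2 : E (r • x) = r * E x := h1
      change (Scheme.ΓSpecIso (CommRingCat.of B)).inv.hom (E (r • x)) =
        (Scheme.ΓSpecIso (CommRingCat.of B)).inv.hom r *
          (Scheme.ΓSpecIso (CommRingCat.of B)).inv.hom (E x)
      rw [h2, map_mul]
    · exact (ConcreteCategory.bijective_of_isIso
        (Scheme.ΓSpecIso (CommRingCat.of B)).inv).comp E.bijective
  · rintro ⟨f⟩
    refine ⟨((Scheme.ΓSpecIso (CommRingCat.of B)).hom.hom.toAddMonoidHom.comp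
      (f.hom.app ⊤).hom).comp
      (show (G.toLB L hL).M1 →+ Γ(secL (ε := ε) L, ⊤) from
      pbSec (rigSection c (tB k B) ε) L (G.V1 B) ⊤ (G.V1_sec B)), ?_⟩
    have h1 : IsBC (RingHom.id B) ((Scheme.ΓSpecIso (CommRingCat.of B)).hom.hom.toAddMonoidHom.comp
      (f.hom.app ⊤).hom) := by
      refine .of_bijective _ _ Function.bijective_id ?_ ?_
      · exact (ConcreteCategory.bijective_of_isIso
          (Scheme.ΓSpecIso (CommRingCat.of B)).hom).comp (app_bijective_of_isIso f.hom _)
      · intro r x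
        have h1 := Scheme.Modules.Hom.app_smul f.hom (U := ⊤)
          ((Scheme.ΓSpecIso (CommRingCat.of B)).inv.hom r) x
        have h2 : (Scheme.ΓSpecIso (CommRingCat.of B)).hom.hom
          ((Scheme.ΓSpecIso (CommRingCat.of B)).inv.hom r) = r :=
          (Scheme.ΓSpecIso (CommRingCat.of B)).inv_hom_id_apply r
        refine (congrArg (Scheme.ΓSpecIso (CommRingCat.of B)).hom.hom h1).trans ?_
        refine (map_mul (Scheme.ΓSpecIso (CommRingCat.of B)).hom.hom
          ((Scheme.ΓSpecIso (CommRingCat.of B)).inv.hom r) (f.hom.app ⊤ x)).trans ?_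
        rw [h2]
        rfl
    exact hbc.comp h1

end CurveGeom

end Fermat.Agent.S25
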