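import Fermat.Agent.S25.TildeInv
import Fermat.Agent.S25.AscHom
import Fermat.Agent.S25.RigLB

/-!
# S25: from `LB 𝒞 B` to invertible sheaves on `C_B`
-/

set_option autoImplicit false

universe u

open CategoryTheory CategoryTheory.Limits AlgebraicGeometry TopologicalSpace Opposite
open NeronModelInfra AlgebraicGeometry.RelPicard
open scoped TensorProduct

noncomputable section

namespace Fermat.Agent.S25

open AlgebraicGeometry.Scheme.Modules

section general

variable {X : Scheme.{u}} {V0 V1 : X.Opens} (hV0 : IsAffineOpen V0) (hV1 : IsAffineOpen V1)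
  (hV01 : IsAffineOpen (V0 ⊓ V1)) (hcov : V0 ⊔ V1 = ⊤)
  (M0 M1 M01 : Type u) [AddCommGroup M0] [AddCommGroup M1] [AddCommGroup M01]
  [Module Γ(X, V0) M0] [Module Γ(X, V1) M1] [Module Γ(X, V0 ⊓ V1) M01]
  [Module.Invertible Γ(X, V0) M0] [Module.Invertible Γ(X, V1) M1]
  (r0 : M0 →+ M01) (r1 : M1 →+ M01)
  (h0 : IsBC (X.presheaf.map (homOfLE (inf_le_left : V0 ⊓ V1 ≤ V0)).op).hom r0)
  (h1 : IsBC (X.presheaf.map (homOfLE (inf_le_right : V0 ⊓ V1 ≤ V1)).op).hom r1)

include hV0 hV1 hV01 hcov h0 h1 in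
/-- Gluing two invertible modules to an invertible sheaf. -/
theorem exists_glue : ∃ (L : X.Modules) (_ : Scheme.Modules.IsInvertible L)
    (e0 : Γ(L, V0) ≃+ M0) (e1 : Γ(L, V1) ≃+ M1) (e01 : Γ(L, V0 ⊓ V1) ≃+ M01),
    (∀ (r : Γ(X, V0)) x, e0 (r • x) = r • e0 x) ∧ (∀ (r : Γ(X, V1)) x, e1 (r • x) = r • e1 x) ∧
    (∀ (r : Γ(X, V0 ⊓ V1)) x, e01 (r • x) = r • e01 x) ∧
    (∀ x, r0 (e0 x) = e01 (res L inf_le_left x)) ∧
    (∀ x, r1 (e1 x) = e01 (res L inf_le_right x)) := by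
  obtain ⟨φ0, hφ0, hφ0'⟩ := exists_asc_hom hV0 hV01 inf_le_left M0 M01 r0 h0
  obtain ⟨φ1, hφ1, hφ1'⟩ := exists_asc_hom hV1 hV01 inf_le_right M1 M01 r1 h1
  let L := gl φ0 φ1
  have hb0 : ∀ W ≤ V0, Function.Bijective ((gl0 φ0 φ1).app W) := fun W hW ↦
    gl0_bijective φ0 φ1 (hφ1' W fun x hx ↦ ⟨hW hx.1, hx.2⟩)
  have hb1 : ∀ W ≤ V1, Function.Bijective ((gl1 φ0 φ1).app W) := fun W hW ↦
    gl1_bijective φ0 φ1 (hφ0' W fun x hx ↦ ⟨hx.2, hW hx.1⟩)
  have hL : Scheme.Modules.IsInvertible L := by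
    refine isInvertible_of_openImmersions _ fun x ↦ ?_
    have hx : x ∈ V0 ⊔ V1 := by rw [hcov]; trivial
    rcases hx with hx | hx
    · refine ⟨_, hV0.fromSpec, inferInstance, by rw [hV0.range_fromSpec]; exact hx, ?_⟩
      have : IsIso ((restrictFunctor hV0.fromSpec).map (gl0 φ0 φ1)) := by
        rw [Hom.isIso_iff_isIso_app]
        intro U
        rw [ConcreteCategory.isIso_iff_bijective]
        exact hb0 _ ((hV0.fromSpec.image_le_opensRange U).trans (by rw [hV0.opensRange_fromSpec]))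
      have : Module.Invertible Γ(X, V0) (ModuleCat.of Γ(X, V0) M0) :=
        inferInstanceAs (Module.Invertible Γ(X, V0) M0)
      exact IsInvertible.of_iso (tilde_isInvertible (ModuleCat.of Γ(X, V0) M0))
        (((restrictFunctorIsoPullback hV0.fromSpec).app L).symm ≪≫
          asIso ((restrictFunctor hV0.fromSpec).map (gl0 φ0 φ1)) ≪≫ ascRestrict hV0 M0).symm
    · refine ⟨_, hV1.fromSpec, inferInstance, by rw [hV1.range_fromSpec]; exact hx, ?_⟩
      have : IsIso ((restrictFunctor hV1.fromSpec).map (gl1 φ0 φ1)) := by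
        rw [Hom.isIso_iff_isIso_app]
        intro U
        rw [ConcreteCategory.isIso_iff_bijective]
        exact hb1 _ ((hV1.fromSpec.image_le_opensRange U).trans (by rw [hV1.opensRange_fromSpec]))
      have : Module.Invertible Γ(X, V1) (ModuleCat.of Γ(X, V1) M1) :=
        inferInstanceAs (Module.Invertible Γ(X, V1) M1)
      exact IsInvertible.of_iso (tilde_isInvertible (ModuleCat.of Γ(X, V1) M1))
        (((restrictFunctorIsoPullback hV1.fromSpec).app L).symm ≪≫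
          asIso ((restrictFunctor hV1.fromSpec).map (gl1 φ0 φ1)) ≪≫ ascRestrict hV1 M1).symm
  let a0 : M0 ≃+ Γ(asc hV0 M0, V0) := AddEquiv.ofBijective _ (ascTop_bijective hV0 M0)
  let a1 : M1 ≃+ Γ(asc hV1 M1, V1) := AddEquiv.ofBijective _ (ascTop_bijective hV1 M1)
  let a01 : M01 ≃+ Γ(asc hV01 M01, V0 ⊓ V1) :=
    AddEquiv.ofBijective _ (ascTop_bijective hV01 M01)
  let g0 : Γ(L, V0) ≃+ Γ(asc hV0 M0, V0) :=
    AddEquiv.ofBijective ((gl0 φ0 φ1).app V0).hom (hb0 V0 le_rfl)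
  let g1 : Γ(L, V1) ≃+ Γ(asc hV1 M1, V1) :=
    AddEquiv.ofBijective ((gl1 φ0 φ1).app V1).hom (hb1 V1 le_rfl)
  let g01 : Γ(L, V0 ⊓ V1) ≃+ Γ(asc hV01 M01, V0 ⊓ V1) :=
    AddEquiv.ofBijective ((gl0 φ0 φ1 ≫ φ0).app (V0 ⊓ V1)).hom
      ((hφ0' _ inf_le_left).comp (hb0 _ inf_le_left))
  refine ⟨L, hL, g0.trans a0.symm, g1.trans a1.symm, g01.trans a01.symm, ?_, ?_, ?_, ?_, ?_⟩
  · intro r x
    simp only [AddEquiv.trans_apply]
    rw [AddEquiv.symm_apply_eq]
    refine (Hom.app_smul (gl0 φ0 φ1) r x).trans ?_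
    refine Eq.trans ?_ (ascTop_smul hV0 M0 r _).symm
    congr 1
    exact (a0.apply_symm_apply _).symm
  · intro r x
    simp only [AddEquiv.trans_apply]
    rw [AddEquiv.symm_apply_eq]
    refine (Hom.app_smul (gl1 φ0 φ1) r x).trans ?_
    refine Eq.trans ?_ (ascTop_smul hV1 M1 r _).symm
    congr 1
    exact (a1.apply_symm_apply _).symm
  · intro r x
    simp only [AddEquiv.trans_apply]
    rw [AddEquiv.symm_apply_eq]
    refine (Hom.app_smul (gl0 φ0 φ1 ≫ φ0) r x).trans ?_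
    refine Eq.trans ?_ (ascTop_smul hV01 M01 r _).symm
    congr 1
    exact (a01.apply_symm_apply _).symm
  · intro x
    simp only [AddEquiv.trans_apply]
    rw [AddEquiv.eq_symm_apply]
    refine (hφ0 _).symm.trans ?_
    have e1 : ascTop hV0 M0 (a0.symm (g0 x)) = (gl0 φ0 φ1).app V0 x := a0.apply_symm_apply _
    rw [e1]
    exact (app_res (gl0 φ0 φ1 ≫ φ0) inf_le_left x).symm
  · intro x
    simp only [AddEquiv.trans_apply]
    rw [AddEquiv.eq_symm_apply]
    refine (hφ1 _).symm.trans ?_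
    have e1 : ascTop hV1 M1 (a1.symm (g1 x)) = (gl1 φ0 φ1).app V1 x := a1.apply_symm_apply _
    rw [e1]
    have e2 : gl0 φ0 φ1 ≫ φ0 = gl1 φ0 φ1 ≫ φ1 := Limits.pullback.condition
    refine (app_res (gl1 φ0 φ1 ≫ φ1) inf_le_right x).symm.trans ?_
    rw [← e2]
    rfl

end general

section transport

variable {A B M N : Type u} [CommRing A] [CommRing B] [AddCommGroup M] [AddCommGroup N]
  [Module A M] [Module B N]

/-- transport of the base change property along ring isomorphisms of the scalars -/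
lemma IsBC.transport {A' B' : Type u} [CommRing A'] [CommRing B'] {φ : A →+* B} {g : M →+ N}
    (h : IsBC φ g) (a : A ≃+* A') (b : B ≃+* B') (φ' : A' →+* B')
    (hφ : ∀ x, φ' (a x) = b (φ x)) :
    letI := Module.compHom M a.symm.toRingHom
    letI := Module.compHom N b.symm.toRingHom
    IsBC φ' g := by
  let _ := Module.compHom M a.symm.toRingHom
  let _ := Module.compHom N b.symm.toRingHom
  refine IsBC.of_square' (M' := M) (N' := N) a.toRingHom b.toRingHom (AddMonoidHom.id M)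
    (AddMonoidHom.id N) a.bijective b.bijective Function.bijective_id Function.bijective_id
    ?_ ?_ (RingHom.ext fun x ↦ (hφ x).symm) rfl h
  · intro r x
    change r • x = a.symm (a r) • x
    rw [a.symm_apply_apply]
  · intro r x
    change r • x = b.symm (b r) • x
    rw [b.symm_apply_apply]

end transport

variable {k : Type u} [Field k] {C : Scheme.{u}} {c : C ⟶ Spec (CommRingCat.of k)}
  {ε : SchemeHomOver (𝟙 (Spec (CommRingCat.of k))) c}

namespace CurveGeom

variable (G : CurveGeom c ε) {B : Type u} [CommRing B] [Algebra k B]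

/-- Every `LB` comes from an invertible sheaf. -/
theorem exists_sheaf (D : LB G.𝒟.toTwoChart B) :
    ∃ (L : (XB c B).Modules) (hL : Scheme.Modules.IsInvertible L),
      Nonempty ((G.toLB L hL).Iso D) := by
  let t0 : G.𝒟.R0 B ≃+* Γ(XB c B, G.V0 B) := RingEquiv.ofBijective _ (G.θ0_bij B)
  let t1 : G.𝒟.R1 B ≃+* Γ(XB c B, G.V1 B) := RingEquiv.ofBijective _ (G.θ1_bij B)
  let t01 : G.𝒟.R01 B ≃+* Γ(XB c B, G.V0 B ⊓ G.V1 B) := RingEquiv.ofBijective _ (G.θ01_bij B)
  let _ : Module Γ(XB c B, G.V0 B) D.M0 := Module.compHom D.M0 t0.symm.toRingHom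
  let _ : Module Γ(XB c B, G.V1 B) D.M1 := Module.compHom D.M1 t1.symm.toRingHom
  let _ : Module Γ(XB c B, G.V0 B ⊓ G.V1 B) D.M01 := Module.compHom D.M01 t01.symm.toRingHom
  have : Module.Invertible Γ(XB c B, G.V0 B) D.M0 :=
    invertible_of_bijective t0.symm.toRingHom (AddMonoidHom.id D.M0) t0.symm.bijective
      Function.bijective_id (fun _ _ ↦ rfl)
  have : Module.Invertible Γ(XB c B, G.V1 B) D.M1 :=
    invertible_of_bijective t1.symm.toRingHom (AddMonoidHom.id D.M1) t1.symm.bijective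
      Function.bijective_id (fun _ _ ↦ rfl)
  have b0 := D.bc0.transport t0 t01 ((XB c B).presheaf.map (homOfLE inf_le_left).op).hom
    (fun x ↦ (G.θ01_ρ0 B x).symm)
  have b1 := D.bc1.transport t1 t01 ((XB c B).presheaf.map (homOfLE inf_le_right).op).hom
    (fun x ↦ (G.θ01_ρ1 B x).symm)
  obtain ⟨L, hL, e0, e1, e01, s0, s1, s01, h0, h1⟩ := exists_glue (G.affV0 B) (G.affV1 B)
    (G.affV01 B) (G.coverV B) D.M0 D.M1 D.M01 D.r0 D.r1 b0 b1
  refine ⟨L, hL, ⟨mkEquiv (M := (G.toLB L hL).M0) (M' := D.M0) e0.toAddMonoidHom ?_ e0.bijective,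
    mkEquiv (M := (G.toLB L hL).M1) (M' := D.M1) e1.toAddMonoidHom ?_ e1.bijective,
    mkEquiv (M := (G.toLB L hL).M01) (M' := D.M01) e01.toAddMonoidHom ?_ e01.bijective,
    h0, h1⟩⟩
  · intro r x
    refine (s0 (t0 r) x).trans ?_
    change t0.symm (t0 r) • e0 x = _
    rw [t0.symm_apply_apply]
    rfl
  · intro r x
    refine (s1 (t1 r) x).trans ?_
    change t1.symm (t1 r) • e1 x = _
    rw [t1.symm_apply_apply]
    rfl
  · intro r x
    refine (s01 (t01 r) x).trans ?_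
    change t01.symm (t01 r) • e01 x = _
    rw [t01.symm_apply_apply]
    rfl

end CurveGeom

end Fermat.Agent.S25
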