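import Mathlib
import Fermat.Agent.S25.DegIff
import Fermat.Agent.S25.OfLB

/-!
# S25 / DEG: algebraic equivalence from an affine family of line bundles
-/

set_option autoImplicit false

universe u

open CategoryTheory CategoryTheory.Limits AlgebraicGeometry TopologicalSpace Opposite
open NeronModelInfra AlgebraicGeometry.RelPicard
open scoped TensorProduct

noncomputable section

namespace Fermat.Agent.S25.Deg

variable {k : Type u} [Field k] {C : Scheme.{u}} {c : C ⟶ Spec (CommRingCat.of k)}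
  {ε : SchemeHomOver (𝟙 (Spec (CommRingCat.of k))) c} (G : CurveGeom c ε)

section

variable {K : Type u} [Field K] [Algebra k K] (B : Type u) [CommRing B] [Algebra K B]
  [Algebra k B] [IsScalarTower k K B]

lemma tB_comp : tB K B ≫ tB k K = tB k B := by
  rw [← Spec.map_comp, ← CommRingCat.ofHom_comp, ← IsScalarTower.algebraMap_eq]

/-- `C_K ×_K B ⟶ C_B` -/
def toXB : pullback (qB c K) (tB K B) ⟶ XB c B :=
  pullback.lift (pullback.fst _ _ ≫ pullback.fst _ _) (pullback.snd _ _) (by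
    rw [Category.assoc, pullback.condition, pullback.condition_assoc, tB_comp])

variable {B}

/-- a `K`-point of `Spec B` -/
def ptOf (φ : B →ₐ[K] K) : SchemeHomOver (𝟙 (Spec (CommRingCat.of K))) (tB K B) :=
  ⟨Spec.map (CommRingCat.ofHom φ.toRingHom), by
    rw [← Spec.map_comp, ← CommRingCat.ofHom_comp]
    have : φ.toRingHom.comp (algebraMap K B) = RingHom.id K := φ.comp_algebraMap
    rw [this]
    exact Spec.map_id _⟩

lemma baseChangeSnd_toXB (φ : B →ₐ[K] K) : baseChangeSnd (qB c K) (ptOf φ) ≫ toXB (c := c) B =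
    pullback.fst (qB c K) (𝟙 _) ≫ baseChangeSnd c (specHom B (φ.restrictScalars k)) := by
  apply pullback.hom_ext
  · rw [Category.assoc, Category.assoc, toXB, pullback.lift_fst, bcs_fst, bcs_fst_assoc]
  · rw [Category.assoc, Category.assoc, toXB, pullback.lift_snd, bcs_snd, bcs_snd]
    have h1 : pullback.fst (qB c K) (𝟙 (Spec (CommRingCat.of K))) ≫ pullback.snd c (tB k K) =
      pullback.snd (qB c K) (𝟙 _) := by
      have := pullback.condition (f := qB c K) (g := 𝟙 (Spec (CommRingCat.of K)))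
      rwa [Category.comp_id] at this
    rw [← Category.assoc, h1]
    rfl

omit [Algebra K B] [IsScalarTower k K B] in
/-- the sheaf at a point of the family -/
lemma nonempty_iso_of_bc {M : (XB c B).Modules} (hM : Scheme.Modules.IsInvertible M)
    {D : LB G.𝒟.toTwoChart B} (e : (G.toLB M hM).Iso D) (φ : B →ₐ[k] K)
    {N : (XB c K).Modules} (hN : Scheme.Modules.IsInvertible N) {E : LB G.𝒟.toTwoChart K}
    (e' : E.Iso (G.toLB N hN)) (b : LB.BC φ D E) :
    Nonempty ((Scheme.Modules.pullback (baseChangeSnd c (specHom B φ))).obj M ≅ N) := by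
  refine G.iso_of_toLB_iso (hM.pullback _) hN ?_
  exact LB.BC.iso e (G.toLB_BC φ M hM) (b.trans_iso e')

/-- the sheaf at a point of the family, over `K` -/
lemma nonempty_iso_of_bc' {M : (XB c B).Modules} (hM : Scheme.Modules.IsInvertible M)
    {D : LB G.𝒟.toTwoChart B} (e : (G.toLB M hM).Iso D) (φ : B →ₐ[K] K)
    {N : (XB c K).Modules} (hN : Scheme.Modules.IsInvertible N) {E : LB G.𝒟.toTwoChart K}
    (e' : E.Iso (G.toLB N hN)) (b : LB.BC (φ.restrictScalars k) D E) :
    Nonempty ((Scheme.Modules.pullback (baseChangeSnd (qB c K) (ptOf φ))).obj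
      ((Scheme.Modules.pullback (toXB (c := c) B)).obj M) ≅
        (Scheme.Modules.pullback (pullback.fst (qB c K) (𝟙 _))).obj N) := by
  obtain ⟨i⟩ := nonempty_iso_of_bc G hM e (φ.restrictScalars k) hN e' b
  exact ⟨(Scheme.Modules.pullbackComp _ _).app M ≪≫
    (Scheme.Modules.pullbackCongr (baseChangeSnd_toXB φ)).app M ≪≫
    ((Scheme.Modules.pullbackComp _ _).app M).symm ≪≫
    (Scheme.Modules.pullback (pullback.fst (qB c K) (𝟙 _))).mapIso i⟩

/-- **Algebraic equivalence to zero from a family of `LB`s**. -/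
theorem isAlgEquivZero_of_family (hft : Algebra.FiniteType K B)
    (hgi : GeometricallyIntegral (tB K B)) (D : LB G.𝒟.toTwoChart B) (φ₀ φ₁ : B →ₐ[K] K)
    {E : LB G.𝒟.toTwoChart K} (b₀ : LB.BC (φ₀.restrictScalars k) D E)
    (e₀ : E.Iso (LB.triv G.𝒟.toTwoChart K))
    {L : (XB c K).Modules} (hL : Scheme.Modules.IsInvertible L)
    {E' : LB G.𝒟.toTwoChart K} (b₁ : LB.BC (φ₁.restrictScalars k) D E')
    (e₁ : E'.Iso (G.toLB L hL)) : IsAlgEquivZero (qB c K) L := by
  obtain ⟨M, hM, ⟨eM⟩⟩ := G.exists_sheaf D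
  obtain ⟨i₀⟩ := nonempty_iso_of_bc' G hM eM φ₀
    (Scheme.Modules.isInvertible_unit (XB c K)) (e₀.trans (trivIsoUnit G K)) b₀
  obtain ⟨i₁⟩ := nonempty_iso_of_bc' G hM eM φ₁ hL e₁ b₁
  refine ⟨Spec (CommRingCat.of B), tB K B, ?_, hgi,
    (Scheme.Modules.pullback (toXB (c := c) B)).obj M, hM.pullback _, ptOf φ₀, ptOf φ₁,
    ⟨i₀ ≪≫ Scheme.Modules.pullbackUnitIso _⟩, ⟨i₁⟩⟩
  rw [HasRingHomProperty.Spec_iff (P := @LocallyOfFiniteType)]
  exact (RingHom.finiteType_algebraMap).mpr hft

end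

end Fermat.Agent.S25.Deg
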