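import Mathlib
import Fermat.Agent.S25.SepField
import Fermat.Agent.S25.TCIdeal
import Fermat.Agent.S25.AlgChi

/-!
# S25 / DEG: ideals of finite colength over an algebraically closed field are products of points
-/

set_option autoImplicit false

universe u

open scoped TensorProduct Polynomial

noncomputable section

namespace Fermat.Agent.S25.Deg

section colength

variable {K R : Type u} [Field K] [CommRing R] [Algebra K R]

/-- colength is additive -/
lemma finrank_quot_mul (I J : Ideal R) [Module.Invertible R J] [Module.Finite K (R ⧸ I)]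
    [Module.Finite K (R ⧸ J)] : Module.Finite K (R ⧸ I * J) ∧
      Module.finrank K (R ⧸ I * J) = Module.finrank K (R ⧸ I) + Module.finrank K (R ⧸ J) := by
  let g : J →ₗ[R] R ⧸ (I * J) := (Submodule.mkQ (I * J)) ∘ₗ J.subtype
  have hker : LinearMap.ker g = (I • ⊤ : Submodule R J) := by
    ext x
    rw [LinearMap.mem_ker, Submodule.mem_smul_top_iff]
    show Submodule.Quotient.mk (x : R) = 0 ↔ _
    rw [Submodule.Quotient.mk_eq_zero]
    rfl
  let π : (R ⧸ I * J) →ₗ[R] (R ⧸ J) := Submodule.factor (Ideal.mul_le_right)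
  have hπ : Function.Surjective π := Submodule.factor_surjective _
  have hrange : LinearMap.range g = LinearMap.ker π := by
    ext x
    obtain ⟨x, rfl⟩ := Submodule.mkQ_surjective _ x
    rw [LinearMap.mem_ker]
    show _ ↔ Submodule.Quotient.mk x = 0
    rw [Submodule.Quotient.mk_eq_zero]
    constructor
    · rintro ⟨y, hy⟩
      have h1 : (y : R) - x ∈ I * J := (Submodule.Quotient.eq _).mp hy
      have h2 : (y : R) - x ∈ J := Ideal.mul_le_right h1
      have h3 : x = y - (y - x) := by ring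
      rw [h3]
      exact J.sub_mem y.2 h2
    · intro hx
      exact ⟨⟨x, hx⟩, rfl⟩
  obtain ⟨e⟩ := exists_quotient_equiv (K := K) (R := R) (M := J) I
  let e' : (R ⧸ I) ≃ₗ[R] LinearMap.ker π := e.symm ≪≫ₗ (Submodule.quotEquivOfEq _ _ hker.symm) ≪≫ₗ
    g.quotKerEquivRange ≪≫ₗ LinearEquiv.ofEq _ _ hrange
  have hf : Module.Finite K (LinearMap.ker (π.restrictScalars K)) :=
    Module.Finite.equiv (e'.restrictScalars K)
  have hfin : Module.Finite K (R ⧸ I * J) := by
    have h1 : Module.Finite K ((R ⧸ I * J) ⧸ LinearMap.ker (π.restrictScalars K)) :=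
      Module.Finite.equiv ((π.restrictScalars K).quotKerEquivOfSurjective hπ).symm
    exact Module.Finite.of_submodule_quotient (LinearMap.ker (π.restrictScalars K))
  refine ⟨hfin, ?_⟩
  have h1 := (π.restrictScalars K).finrank_range_add_finrank_ker
  have h2 : LinearMap.range (π.restrictScalars K) = ⊤ := LinearMap.range_eq_top.mpr hπ
  rw [h2, finrank_top] at h1
  have h3 : Module.finrank K (LinearMap.ker (π.restrictScalars K)) = Module.finrank K (R ⧸ I) :=
    (e'.restrictScalars K).finrank_eq.symm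
  omega

end colength

section points

variable {k : Type u} [Field k] {𝒞 : TwoChart k} {B : Type u} [CommRing B] [Algebra k B]

/-- evaluation at a `B`-point of `U0` -/
def evq (q : 𝒞.A0 →ₐ[k] B) : 𝒞.R0 B →ₐ[B] B :=
  Algebra.TensorProduct.lift (AlgHom.id B B) q (fun _ _ ↦ .all _ _)

@[simp] lemma evq_tmul (q : 𝒞.A0 →ₐ[k] B) (b : B) (a : 𝒞.A0) : evq q (b ⊗ₜ a) = b * q a := rfl

lemma evq_surjective (q : 𝒞.A0 →ₐ[k] B) : Function.Surjective (evq q) := fun b ↦
  ⟨b ⊗ₜ 1, by simp⟩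

lemma evq_comp (φ : 𝒞.R0 B →ₐ[B] B) :
    evq ((φ.restrictScalars k).comp Algebra.TensorProduct.includeRight) = φ := by
  refine Algebra.TensorProduct.ext (by ext) ?_
  ext a
  simp

lemma ker_evq (q : 𝒞.A0 →ₐ[k] B) : RingHom.ker (evq q) =
    Ideal.span (Set.range fun a : 𝒞.A0 ↦ ((1 : B) ⊗ₜ[k] a - q a ⊗ₜ[k] (1 : 𝒞.A0) : 𝒞.R0 B)) := by
  apply le_antisymm
  · intro x hx
    have key : ∀ y : 𝒞.R0 B, y - (evq q y) ⊗ₜ[k] (1 : 𝒞.A0) ∈ Ideal.span
        (Set.range fun a : 𝒞.A0 ↦ ((1 : B) ⊗ₜ[k] a - q a ⊗ₜ[k] (1 : 𝒞.A0) : 𝒞.R0 B)) := by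
      intro y
      induction y using TensorProduct.induction_on with
      | zero => simp
      | add y z hy hz =>
        rw [map_add, TensorProduct.add_tmul, add_sub_add_comm]
        exact add_mem hy hz
      | tmul b a =>
        have h1 : b ⊗ₜ[k] a - (evq q (b ⊗ₜ[k] a)) ⊗ₜ[k] (1 : 𝒞.A0) =
            (b ⊗ₜ[k] (1 : 𝒞.A0) : 𝒞.R0 B) * ((1 : B) ⊗ₜ[k] a - q a ⊗ₜ[k] (1 : 𝒞.A0)) := by
          rw [mul_sub, Algebra.TensorProduct.tmul_mul_tmul, Algebra.TensorProduct.tmul_mul_tmul,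
            one_mul, mul_one, mul_one, evq_tmul]
        rw [h1]
        exact Ideal.mul_mem_left _ _ (Ideal.subset_span ⟨a, rfl⟩)
    have h1 := key x
    rw [RingHom.mem_ker] at hx
    have h2 : (evq q x) = 0 := hx
    rw [h2, TensorProduct.zero_tmul, sub_zero] at h1
    exact h1
  · rw [Ideal.span_le]
    rintro _ ⟨a, rfl⟩
    rw [SetLike.mem_coe, RingHom.mem_ker]
    show evq q _ = 0
    rw [map_sub, evq_tmul, evq_tmul, one_mul, map_one, mul_one, sub_self]

lemma map_ker_evq {B' : Type u} [CommRing B'] [Algebra k B'] (q : 𝒞.A0 →ₐ[k] B)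
    (φ : B →ₐ[k] B') : (RingHom.ker (evq q)).map (𝒞.bc0 φ) = RingHom.ker (evq (φ.comp q)) := by
  rw [ker_evq, ker_evq, Ideal.map_span]
  congr 1
  ext x
  simp only [Set.mem_image, Set.mem_range, exists_exists_eq_and]
  refine exists_congr fun a ↦ ?_
  have h1 : 𝒞.bc0 φ ((1 : B) ⊗ₜ[k] a - q a ⊗ₜ[k] (1 : 𝒞.A0)) =
      (1 : B') ⊗ₜ[k] a - (φ.comp q) a ⊗ₜ[k] (1 : 𝒞.A0) := by
    rw [map_sub]
    simp [TwoChart.bc0]
  rw [h1]

/-- the quotient by the ideal of a `B`-point is `B` -/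
def quotEvq (q : 𝒞.A0 →ₐ[k] B) : (𝒞.R0 B ⧸ RingHom.ker (evq q)) ≃ₐ[B] B :=
  Ideal.quotientKerAlgEquivOfSurjective (evq_surjective q)

end points

section field

variable {k : Type u} [Field k] {𝒞 : TwoChart k} {K : Type u} [Field K] [Algebra k K]

variable (𝒞 K) in
lemma finiteType_R0 : Algebra.FiniteType K (𝒞.R0 K) := by
  have h1 : (Sep.g0 𝒞 K).toRingHom.FiniteType := (Sep.g0_finite 𝒞 K).finiteType
  have h2 : (algebraMap K K[X]).FiniteType := by
    rw [RingHom.finiteType_algebraMap]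
    infer_instance
  have h3 := h1.comp h2
  have h4 : (Sep.g0 𝒞 K).toRingHom.comp (algebraMap K K[X]) = algebraMap K (𝒞.R0 K) :=
    (Sep.g0 𝒞 K).comp_algebraMap
  rwa [h4, RingHom.finiteType_algebraMap] at h3

/-- Nullstellensatz on `U0` -/
lemma exists_point_of_isMaximal [IsAlgClosed K] (m : Ideal (𝒞.R0 K)) [hm : m.IsMaximal] :
    ∃ q : 𝒞.A0 →ₐ[k] K, m = RingHom.ker (evq q) := by
  have := finiteType_R0 𝒞 K
  have : Module.Finite K (𝒞.R0 K ⧸ m) := by
    let _ : Field (𝒞.R0 K ⧸ m) := Ideal.Quotient.field m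
    exact finite_of_finite_type_of_isJacobsonRing K (𝒞.R0 K ⧸ m)
  have hbij : Function.Bijective (algebraMap K (𝒞.R0 K ⧸ m)) := by
    have : IsDomain (𝒞.R0 K ⧸ m) := inferInstance
    exact IsAlgClosed.algebraMap_bijective_of_isIntegral
  let e : K ≃ₐ[K] (𝒞.R0 K ⧸ m) := AlgEquiv.ofBijective (Algebra.ofId _ _) hbij
  let φ : 𝒞.R0 K →ₐ[K] K := e.symm.toAlgHom.comp (Ideal.Quotient.mkₐ K m)
  refine ⟨(φ.restrictScalars k).comp Algebra.TensorProduct.includeRight, ?_⟩
  rw [evq_comp]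
  ext x
  rw [RingHom.mem_ker]
  show x ∈ m ↔ e.symm (Ideal.Quotient.mk m x) = 0
  rw [← Ideal.Quotient.eq_zero_iff_mem]
  exact (EmbeddingLike.map_eq_zero_iff (f := e.symm)).symm

/-- **ideals of finite colength are products of points** -/
theorem exists_points [IsAlgClosed K] (n : ℕ) (J : Ideal (𝒞.R0 K))
    [Module.Finite K (𝒞.R0 K ⧸ J)] (hJ : J ≠ ⊥) (hn : Module.finrank K (𝒞.R0 K ⧸ J) = n) :
    ∃ q : Fin n → (𝒞.A0 →ₐ[k] K), J = ∏ i, RingHom.ker (evq (q i)) := by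
  have hD := 𝒞.ded0 K
  induction n generalizing J with
  | zero =>
    refine ⟨Fin.elim0, ?_⟩
    have h1 : Subsingleton (𝒞.R0 K ⧸ J) := Module.finrank_zero_iff.mp hn
    have h2 : J = ⊤ := Ideal.Quotient.subsingleton_iff.mp h1
    rw [h2, Fin.prod_univ_zero, Ideal.one_eq_top]
  | succ n ih =>
    have hne : J ≠ ⊤ := by
      rintro rfl
      have : Subsingleton (𝒞.R0 K ⧸ (⊤ : Ideal (𝒞.R0 K))) :=
        Ideal.Quotient.subsingleton_iff.mpr rfl
      rw [Module.finrank_zero_of_subsingleton] at hn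
      exact absurd hn (by omega)
    obtain ⟨m, hm, hle⟩ := J.exists_le_maximal hne
    obtain ⟨q₀, hq₀⟩ := exists_point_of_isMaximal (𝒞 := 𝒞) m
    obtain ⟨J', hJ'⟩ := Ideal.dvd_iff_le.mpr hle
    have hJ'0 : J' ≠ ⊥ := by
      rintro rfl
      exact hJ (by rw [hJ', Ideal.mul_bot])
    have hJJ' : J ≤ J' := by rw [hJ']; exact Ideal.mul_le_right
    have hfinJ' : Module.Finite K (𝒞.R0 K ⧸ J') :=
      Module.Finite.of_surjective ((Submodule.factor hJJ' : (𝒞.R0 K ⧸ J) →ₗ[𝒞.R0 K]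
        (𝒞.R0 K ⧸ J')).restrictScalars K) (Submodule.factor_surjective hJJ')
    have hfinm : Module.Finite K (𝒞.R0 K ⧸ m) := by
      rw [hq₀]
      exact Module.Finite.equiv (quotEvq q₀).symm.toLinearEquiv
    have h1m : Module.finrank K (𝒞.R0 K ⧸ m) = 1 := by
      rw [hq₀, (quotEvq q₀).toLinearEquiv.finrank_eq, Module.finrank_self]
    have hinv : Module.Invertible (𝒞.R0 K) J' := (𝒞.fg_and_invertible_ideal0 J').2
    obtain ⟨-, h2⟩ := finrank_quot_mul (K := K) m J'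
    rw [← hJ', hn, h1m] at h2
    obtain ⟨q, hq⟩ := ih J' hJ'0 (by omega)
    refine ⟨Fin.cons q₀ q, ?_⟩
    rw [Fin.prod_univ_succ, Fin.cons_zero, hJ', hq₀]
    congr 1

end field

end Fermat.Agent.S25.Deg
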