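import Mathlib
import Fermat.Agent.S25.AlgStd
import Fermat.Agent.S25.AlgCoh

/-!
# S25 / DEG: geometric integrality of powers of the curve
-/

set_option autoImplicit false

universe u

open CategoryTheory CategoryTheory.Limits AlgebraicGeometry
open scoped TensorProduct

noncomputable section

namespace Fermat.Agent.S25.Deg

section

variable {k : Type u} [Field k] (𝒞 : TwoChart k)

/-- `S ⊗ A0` is a domain for every domain `S` over `k` -/
lemma isDomain_tensor_A0 (S : Type u) [CommRing S] [IsDomain S] [Algebra k S] :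
    IsDomain (S ⊗[k] 𝒞.A0) := by
  let F := FractionRing S
  have h1 : IsDomain (F ⊗[k] 𝒞.A0) := by
    have := 𝒞.dom F
    exact (𝒞.ρ0B_injective F).isDomain (𝒞.ρ0B F).toRingHom
  let j : S ⊗[k] 𝒞.A0 →ₐ[k] F ⊗[k] 𝒞.A0 :=
    Algebra.TensorProduct.map (IsScalarTower.toAlgHom k S F) (AlgHom.id k 𝒞.A0)
  have hj : Function.Injective j := by
    have h := Module.Flat.rTensor_preserves_injective_linearMap (M := 𝒞.A0)
      (IsScalarTower.toAlgHom k S F).toLinearMap (IsFractionRing.injective S F)
    exact h
  exact hj.isDomain j.toRingHom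

end

/-- geometrically integral algebras over a field -/
def GeomDom (K B : Type u) [Field K] [CommRing B] [Algebra K B] : Prop :=
  ∀ (K' : Type u) [Field K'] [Algebra K K'], IsDomain (K' ⊗[K] B)

lemma geomDom_self (K : Type u) [Field K] : GeomDom K K := fun K' _ _ ↦
  (Algebra.TensorProduct.rid K K' K').toMulEquiv.isDomain K'

lemma GeomDom.tensor {k : Type u} [Field k] (𝒞 : TwoChart k) {K B : Type u} [Field K]
    [CommRing B] [Algebra K B] [Algebra k K] [Algebra k B] [IsScalarTower k K B]
    (h : GeomDom K B) : GeomDom K (B ⊗[k] 𝒞.A0) := by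
  intro K' _ _
  let _ : Algebra k K' := ((algebraMap K K').comp (algebraMap k K)).toAlgebra
  have : IsScalarTower k K K' := .of_algebraMap_eq fun _ ↦ rfl
  have := h K'
  have := isDomain_tensor_A0 𝒞 (K' ⊗[K] B)
  exact (Algebra.TensorProduct.assoc k K K' K' B 𝒞.A0).symm.toMulEquiv.isDomain _

lemma geometricallyIntegral_of_geomDom {K B : Type u} [Field K] [CommRing B] [Algebra K B]
    (h : GeomDom K B) :
    GeometricallyIntegral (Spec.map (CommRingCat.ofHom (algebraMap K B))) := by
  constructor
  intro K' _ y Z fst snd hP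
  obtain ⟨f, rfl⟩ : ∃ f : CommRingCat.of K ⟶ CommRingCat.of K', y = Spec.map f :=
    ⟨Spec.preimage y, (Spec.map_preimage y).symm⟩
  let _ : Algebra K K' := f.hom.toAlgebra
  have := h K'
  have h1 : IsIntegral (Spec (CommRingCat.of (K' ⊗[K] B))) := inferInstance
  have e : pullback (Spec.map (CommRingCat.ofHom (algebraMap K K')))
      (Spec.map (CommRingCat.ofHom (algebraMap K B))) ≅ Spec (CommRingCat.of (K' ⊗[K] B)) :=
    pullbackSpecIso K K' B
  have e' : Z ≅ pullback (Spec.map (CommRingCat.ofHom (algebraMap K K')))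
      (Spec.map (CommRingCat.ofHom (algebraMap K B))) := hP.flip.isoPullback
  exact IsIntegral.of_isIso (e' ≪≫ e).inv

end Fermat.Agent.S25.Deg
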