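import Mathlib
import Fermat.Agent.S25.DegDom
import Fermat.Agent.S25.TCIdeal

/-!
# S25 / DEG: the ring `K ⊗ A0 ⊗ ... ⊗ A0` of functions on `K × U0 ^ n`
-/

set_option autoImplicit false

universe u

open scoped TensorProduct

noncomputable section

namespace Fermat.Agent.S25.Deg

variable {k : Type u} [Field k] (𝒞 : TwoChart k) (K : Type u) [Field K] [Algebra k K]

/-- The ring of functions on `K × U0 ^ n`, with the `n` universal points. -/
theorem exists_power_ring (n : ℕ) : ∃ (B : Type u) (_ : CommRing B) (_ : Algebra K B)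
    (_ : Algebra k B) (_ : IsScalarTower k K B), Algebra.FiniteType K B ∧ GeomDom K B ∧
    ∃ qu : Fin n → (𝒞.A0 →ₐ[k] B), ∀ q : Fin n → (𝒞.A0 →ₐ[k] K),
      ∃ φ : B →ₐ[K] K, ∀ i, (φ.restrictScalars k).comp (qu i) = q i := by
  induction n with
  | zero =>
    exact ⟨K, inferInstance, inferInstance, inferInstance, inferInstance, inferInstance,
      geomDom_self K, Fin.elim0, fun _ ↦ ⟨AlgHom.id K K, fun i ↦ i.elim0⟩⟩
  | succ n ih =>
    obtain ⟨B, _, _, _, _, hft, hgd, qu, hqu⟩ := ih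
    have h1 : Algebra.FiniteType B (B ⊗[k] 𝒞.A0) := inferInstance
    have h2 : Algebra.FiniteType K (B ⊗[k] 𝒞.A0) := Algebra.FiniteType.trans hft h1
    refine ⟨B ⊗[k] 𝒞.A0, inferInstance, inferInstance, inferInstance, inferInstance, h2,
      hgd.tensor 𝒞, Fin.cons Algebra.TensorProduct.includeRight
        (fun i ↦ (Algebra.TensorProduct.includeLeft : B →ₐ[k] B ⊗[k] 𝒞.A0).comp (qu i)),
      fun q ↦ ?_⟩
    obtain ⟨φ, hφ⟩ := hqu (fun i ↦ q i.succ)
    refine ⟨Algebra.TensorProduct.lift φ (q 0) (fun _ _ ↦ .all _ _), fun i ↦ ?_⟩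
    refine Fin.cases ?_ (fun i ↦ ?_) i
    · ext a
      simp
    · rw [Fin.cons_succ, ← hφ i]
      ext a
      simp

end Fermat.Agent.S25.Deg
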