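import Mathlib
import Fermat.Agent.S25.DegPts
import Fermat.Agent.S25.DegRing
import Fermat.Agent.S25.SubLB
import Fermat.Agent.S25.SubCut
import Fermat.Agent.S25.ChartSub
import Fermat.Agent.S25.ChartGood

/-!
# S25 / DEG: line bundles of degree zero are members of an algebraic family through `O`
-/

set_option autoImplicit false

universe u

open scoped TensorProduct

noncomputable section

namespace Fermat.Agent.S25.Deg

open TwoChart

section sub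

variable {k : Type u} [Field k] {𝒞 : TwoChart k} {B : Type u} [CommRing B] [Algebra k B]

lemma mem_smul_of_r1 (D : LB 𝒞 B) (J : Ideal (𝒞.R01 B)) (y : D.M1)
    (h : D.r1 y ∈ (J • ⊤ : Submodule (𝒞.R01 B) D.M01)) :
    y ∈ (J.comap (𝒞.ρ1B B).toRingHom • ⊤ : Submodule (𝒞.R1 B) D.M1) := by
  classical
  obtain ⟨n, p, i, -, -, hpi⟩ := Module.Finite.exists_comp_eq_id_of_projective (𝒞.R1 B) D.M1
  let F : Fin n → (D.M01 →ₗ[𝒞.R01 B] 𝒞.R01 B) := fun j ↦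
    D.bc1.map (IsBC.self _) (LinearMap.proj j ∘ₗ i)
  have hF : ∀ j x, F j (D.r1 x) = 𝒞.ρ1B B (i x j) := fun j x ↦
    D.bc1.map_apply (IsBC.self _) (LinearMap.proj j ∘ₗ i) x
  have h1 : ∀ j, 𝒞.ρ1B B (i y j) ∈ J := by
    intro j
    rw [← hF]
    refine Submodule.smul_induction_on h (fun r hr x _ ↦ ?_) (fun x z hx hz ↦ ?_)
    · rw [map_smul, smul_eq_mul]
      exact J.mul_mem_right _ hr
    · rw [map_add]
      exact add_mem hx hz
  have h2 : y = ∑ j, i y j • p (Pi.single j 1) := by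
    have h3 := congr($hpi y)
    simp only [LinearMap.comp_apply, LinearMap.id_apply] at h3
    conv_lhs => rw [← h3]
    have h4 : i y = ∑ j, (i y j) • (Pi.single j (1 : 𝒞.R1 B) : Fin n → 𝒞.R1 B) := by
      ext l
      simp [Finset.sum_apply, Pi.single_apply]
    conv_lhs => rw [h4, map_sum]
    exact Finset.sum_congr rfl fun j _ ↦ map_smul _ _ _
  rw [h2]
  exact sum_mem fun j _ ↦ Submodule.smul_mem_smul (h1 j) Submodule.mem_top

/-- the inclusion of `D(-E)` satisfies `IsSub` -/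
lemma isSub_subHom (D : LB 𝒞 B) (I : Ideal (𝒞.R0 B)) (h : 𝒞.IsCut I) :
    (D.subHom (Div.ofCut I h)).IsSub I where
  inj0 := D.subHom_inj0 _
  inj1 := D.subHom_inj1 _
  inj01 := D.subHom_inj01 _
  range0 := D.subHom_range0 _
  range1 := fun y w hw ↦ ⟨⟨y, mem_smul_of_r1 D _ y (by rw [hw]; exact w.2)⟩, rfl⟩

/-- the ideal of finitely many points -/
def ptsIdeal {n : ℕ} (q : Fin n → (𝒞.A0 →ₐ[k] B)) : Ideal (𝒞.R0 B) :=
  ∏ i, RingHom.ker (evq (q i))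

lemma isCut_ker_evq (q : 𝒞.A0 →ₐ[k] B) : 𝒞.IsCut (RingHom.ker (evq q)) := by
  have h1 : Module.Finite B (𝒞.R0 B ⧸ RingHom.ker (evq q)) :=
    Module.Finite.equiv (quotEvq q).symm.toLinearEquiv
  have h2 : Module.Projective B (𝒞.R0 B ⧸ RingHom.ker (evq q)) :=
    Module.Projective.of_equiv (quotEvq q).symm.toLinearEquiv
  exact 𝒞.isCut _

lemma isCut_ptsIdeal {n : ℕ} (q : Fin n → (𝒞.A0 →ₐ[k] B)) : 𝒞.IsCut (ptsIdeal q) := by
  classical
  unfold ptsIdeal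
  refine Finset.prod_induction _ (fun I ↦ 𝒞.IsCut I) (fun _ _ h h' ↦ h.mul h') ?_
    (fun i _ ↦ isCut_ker_evq (q i))
  rw [Ideal.one_eq_top]
  exact IsCut.top

lemma map_ptsIdeal {B' : Type u} [CommRing B'] [Algebra k B'] {n : ℕ}
    (q : Fin n → (𝒞.A0 →ₐ[k] B)) (φ : B →ₐ[k] B') :
    (ptsIdeal q).map (𝒞.bc0 φ) = ptsIdeal (fun i ↦ φ.comp (q i)) := by
  unfold ptsIdeal
  rw [← Ideal.mapHom_apply, map_prod]
  exact Finset.prod_congr rfl fun i _ ↦ map_ker_evq (q i) φ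

end sub

section field

variable {k : Type u} [Field k] {𝒞 : CurveData k} {K : Type u} [Field K] [Algebra k K]

lemma exists_isSub_points [IsAlgClosed K] {D : LB 𝒞.toTwoChart K}
    (hchi : D.chi = (LB.triv 𝒞.toTwoChart K).chi) {m : ℕ} {e : D.dual.M1 →+ K}
    (he : IsBC (𝒞.εB K).toRingHom e) {s : (D.dual.tw m).H0} (hs : e s.1.2 = 1) :
    ∃ (q : Fin (m * 𝒞.toTwoChart.degf) → (𝒞.A0 →ₐ[k] K))
      (σ : LB.Hom D ((LB.triv 𝒞.toTwoChart K).tw m)), σ.IsSub (ptsIdeal q) := by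
  have hσ : (D.homOfSection m s).SurjAt :=
    LB.homOfSection_surjAt he (LB.rig_field D) (by rw [hs]; exact isUnit_one)
  set σ := D.homOfSection m s with hσdef
  let J : Ideal (𝒞.R0 K) := LinearMap.range σ.l0
  obtain ⟨hf, hp⟩ := hσ.finite_projective_quot (J := J) rfl
  have hsub : σ.IsSub J := hσ.isSub (LB.smul_top_tw_triv J).symm
  have hchi' := hsub.chi
  rw [LB.chi_tw, hchi] at hchi'
  have hn : Module.finrank K (𝒞.R0 K ⧸ J) = m * 𝒞.toTwoChart.degf := by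
    have h1 : ((m * 𝒞.toTwoChart.degf : ℕ) : ℤ) = (Module.finrank K (𝒞.R0 K ⧸ J) : ℤ) := by
      push_cast
      linarith
    exact_mod_cast h1.symm
  have hJ0 : J ≠ ⊥ := by
    intro h0
    have h1 : σ.l0 = 0 := LinearMap.range_eq_bot.mp h0
    have h2 : ∀ x : D.M0, x = 0 := fun x ↦ hsub.inj0 (by rw [h1]; simp)
    have h3 := Sep.isDomain_R0 𝒞.toTwoChart K
    have h4 : (1 : 𝒞.R0 K) = 0 := by
      apply FaithfulSMul.eq_of_smul_eq_smul (M := 𝒞.R0 K) (α := D.M0)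
      intro x
      rw [h2 x, smul_zero, smul_zero]
    exact one_ne_zero h4
  obtain ⟨q, hq⟩ := exists_points (𝒞 := 𝒞.toTwoChart) (m * 𝒞.toTwoChart.degf) J hJ0 hn
  exact ⟨q, σ, by rw [ptsIdeal, ← hq]; exact hsub⟩

/-- **Over an algebraically closed field, a line bundle with the Euler characteristic of `O` is,
together with `O`, a member of a family with geometrically integral base.** -/
theorem exists_family [IsAlgClosed K] {D : LB 𝒞.toTwoChart K}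
    (hchi : D.chi = (LB.triv 𝒞.toTwoChart K).chi) :
    ∃ (B : Type u) (_ : CommRing B) (_ : Algebra K B) (_ : Algebra k B)
      (_ : IsScalarTower k K B) (E : LB 𝒞.toTwoChart B) (φ₀ φ₁ : B →ₐ[K] K)
      (E₀ E₁ : LB 𝒞.toTwoChart K), Algebra.FiniteType K B ∧ GeomDom K B ∧
      Nonempty (LB.BC (φ₀.restrictScalars k) E E₀) ∧
      Nonempty (LB.Iso E₀ (LB.triv 𝒞.toTwoChart K)) ∧
      Nonempty (LB.BC (φ₁.restrictScalars k) E E₁) ∧ Nonempty (LB.Iso E₁ D) := by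
  obtain ⟨e, he⟩ := LB.rig_field D.dual
  obtain ⟨e', he'⟩ := LB.rig_field (LB.triv 𝒞.toTwoChart K).dual
  obtain ⟨m₁, hm₁⟩ := LB.exists_section he
  obtain ⟨m₀, hm₀⟩ := LB.exists_section he'
  obtain ⟨s₁, hs₁⟩ := hm₁ (max m₀ m₁) (le_max_right _ _)
  obtain ⟨s₀, hs₀⟩ := hm₀ (max m₀ m₁) (le_max_left _ _)
  obtain ⟨q₁, σ₁, hσ₁⟩ := exists_isSub_points hchi he hs₁
  obtain ⟨q₀, σ₀, hσ₀⟩ := exists_isSub_points (D := LB.triv 𝒞.toTwoChart K) rfl he' hs₀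
  obtain ⟨B, _, _, _, _, hft, hgd, qu, hqu⟩ := exists_power_ring 𝒞.toTwoChart K
    (max m₀ m₁ * 𝒞.toTwoChart.degf)
  obtain ⟨φ₀, hφ₀⟩ := hqu q₀
  obtain ⟨φ₁, hφ₁⟩ := hqu q₁
  have key : ∀ (φ : B →ₐ[K] K) (q : Fin (max m₀ m₁ * 𝒞.toTwoChart.degf) → (𝒞.A0 →ₐ[k] K))
      (_ : ∀ i, (φ.restrictScalars k).comp (qu i) = q i) (D₁ : LB 𝒞.toTwoChart K)
      (σ : LB.Hom D₁ ((LB.triv 𝒞.toTwoChart K).tw (max m₀ m₁))) (_ : σ.IsSub (ptsIdeal q)),
      Nonempty (LB.Iso (((LB.triv 𝒞.toTwoChart K).tw (max m₀ m₁)).subD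
        ((Div.ofCut (ptsIdeal qu) (isCut_ptsIdeal qu)).bc (φ.restrictScalars k))) D₁) := by
    intro φ q hφ D₁ σ hσ
    have h1 : (Div.ofCut (ptsIdeal qu) (isCut_ptsIdeal qu)).bc (φ.restrictScalars k) =
        Div.ofCut (ptsIdeal q) (isCut_ptsIdeal q) := by
      rw [Div.ofCut_bc]
      refine (Div.ofCut_congr _ ?_)
      rw [map_ptsIdeal]
      congr 1
      exact funext hφ
    rw [h1]
    exact ⟨(isSub_subHom _ _ _).uniq hσ⟩
  exact ⟨B, inferInstance, inferInstance, inferInstance, inferInstance,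
    ((LB.triv 𝒞.toTwoChart B).tw (max m₀ m₁)).subD (Div.ofCut (ptsIdeal qu) (isCut_ptsIdeal qu)),
    φ₀, φ₁, _, _, hft, hgd,
    ⟨((LB.trivBC 𝒞.toTwoChart (φ₀.restrictScalars k)).tw (max m₀ m₁)).subD _⟩,
    key φ₀ q₀ hφ₀ _ σ₀ hσ₀,
    ⟨((LB.trivBC 𝒞.toTwoChart (φ₁.restrictScalars k)).tw (max m₀ m₁)).subD _⟩,
    key φ₁ q₁ hφ₁ _ σ₁ hσ₁⟩

end field

end Fermat.Agent.S25.Deg
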