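import Mathlib
import Fermat.Agent.S25.DegFam
import Fermat.Agent.S25.DegSub

/-!
# S25 / DEG: `FibrewiseAlgEquivZero` is the same as `FibDeg0`
-/

set_option autoImplicit false

universe u

open CategoryTheory CategoryTheory.Limits AlgebraicGeometry TopologicalSpace Opposite
open NeronModelInfra AlgebraicGeometry.RelPicard
open scoped TensorProduct

noncomputable section

namespace Fermat.Agent.S25.Deg

variable {k : Type u} [Field k] {C : Scheme.{u}} {c : C ⟶ Spec (CommRingCat.of k)}
  {ε : SchemeHomOver (𝟙 (Spec (CommRingCat.of k))) c} (G : CurveGeom c ε)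

/-- over an algebraically closed field, line bundles with the Euler characteristic of `O` are
algebraically equivalent to zero -/
theorem isAlgEquivZero_of_chi {K : Type u} [Field K] [IsAlgClosed K] [Algebra k K]
    {L : (XB c K).Modules} (hL : Scheme.Modules.IsInvertible L)
    (h : (G.toLB L hL).chi = (LB.triv G.𝒟.toTwoChart K).chi) : IsAlgEquivZero (qB c K) L := by
  obtain ⟨B, _, _, _, _, E, φ₀, φ₁, E₀, E₁, hft, hgd, ⟨b₀⟩, ⟨e₀⟩, ⟨b₁⟩, ⟨e₁⟩⟩ := exists_family h
  exact isAlgEquivZero_of_family G hft (geometricallyIntegral_of_geomDom hgd) E φ₀ φ₁ b₀ e₀ hL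
    b₁ e₁

/-- `IsAlgEquivZero` on the fibres of the curve over algebraically closed fields -/
theorem isAlgEquivZero_iff {K : Type u} [Field K] [IsAlgClosed K] [Algebra k K]
    {L : (XB c K).Modules} (hL : Scheme.Modules.IsInvertible L) :
    IsAlgEquivZero (qB c K) L ↔ (G.toLB L hL).chi = (LB.triv G.𝒟.toTwoChart K).chi :=
  ⟨chi_of_isAlgEquivZero G hL, isAlgEquivZero_of_chi G hL⟩

variable {T : Scheme.{u}} {t : T ⟶ Spec (CommRingCat.of k)}

/-- **`FibrewiseAlgEquivZero` is fibrewise degree zero.** -/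
theorem fibrewiseAlgEquivZero_iff (M : RigidifiedLineBundle c ε t) :
    FibrewiseAlgEquivZero M ↔ ∀ (B : Type u) [CommRing B] [Algebra k B]
      (g : SchemeHomOver (tB k B) t), (LBat G M.L M.isInvertible g).FibDeg0 :=
  fibrewiseAlgEquivZero_iff_of G (fun _ _ _ _ _ hL h ↦ isAlgEquivZero_of_chi G hL h) M

/-- `FibrewiseAlgEquivZero` in terms of field-valued points -/
theorem fibrewiseAlgEquivZero_iff_field (M : RigidifiedLineBundle c ε t) :
    FibrewiseAlgEquivZero M ↔ ∀ (K : Type u) [Field K] [Algebra k K]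
      (p : SchemeHomOver (tB k K) t),
      (LBat G M.L M.isInvertible p).chi = (LB.triv G.𝒟.toTwoChart K).chi := by
  rw [fibrewiseAlgEquivZero_iff G]
  constructor
  · intro h K _ _ p
    exact (LB.fibDeg0_iff_field _).mp (h K p)
  · intro h B _ _ g K _ _ φ E b
    obtain ⟨b'⟩ := nonempty_bc G M.L M.isInvertible g φ (compPt g φ) rfl
    rw [(b.uniq b').chi]
    exact h K _

/-- `FibrewiseAlgEquivZero` can be checked on an affine cover -/
theorem fibrewiseAlgEquivZero_of_cover (M : RigidifiedLineBundle c ε t)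
    (h : ∀ x : T, ∃ (B : Type u) (_ : CommRing B) (_ : Algebra k B)
      (g : SchemeHomOver (tB k B) t), IsOpenImmersion g.1 ∧ x ∈ Set.range g.1 ∧
        (LBat G M.L M.isInvertible g).FibDeg0) : FibrewiseAlgEquivZero M := by
  rw [fibrewiseAlgEquivZero_iff_field G]
  intro K _ _ p
  have hK : Nonempty (Spec (CommRingCat.of K)) := inferInstanceAs (Nonempty (PrimeSpectrum K))
  have hs : Subsingleton (Spec (CommRingCat.of K)) := inferInstanceAs
    (Subsingleton (PrimeSpectrum K))
  obtain ⟨x⟩ := hK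
  obtain ⟨B, _, _, g, hg, hx, hB⟩ := h (p.1 x)
  have h1 : Set.range p.1 ⊆ Set.range g.1 := by
    rintro _ ⟨y, rfl⟩
    rwa [Subsingleton.elim y x]
  obtain ⟨φ, hφ⟩ := exists_factor g p h1
  obtain ⟨b⟩ := nonempty_bc G M.L M.isInvertible g φ p hφ
  exact hB K φ _ b

end Fermat.Agent.S25.Deg
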