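import Mathlib
import Fermat.Agent.S25.AlgBCLB
import Fermat.Agent.S25.TCIdeal

/-!
# S25, package PROP: evaluation at points of the curve
-/

set_option autoImplicit false

universe u

open scoped TensorProduct Polynomial

noncomputable section

namespace Fermat.Agent.S25.TwoChart

variable {k : Type u} [Field k] {𝒞 : TwoChart k} {B B' : Type u} [CommRing B] [Algebra k B]
  [CommRing B'] [Algebra k B']

/-- evaluation at a `B`-valued point of `U0` -/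
def ev0 (q : 𝒞.A0 →ₐ[k] B) : 𝒞.R0 B →ₐ[B] B :=
  Algebra.TensorProduct.lift (AlgHom.id B B) q (fun _ _ ↦ .all _ _)

@[simp]
theorem ev0_tmul (q : 𝒞.A0 →ₐ[k] B) (b : B) (a : 𝒞.A0) : ev0 q (b ⊗ₜ a) = b * q a := rfl

theorem ev0_surjective (q : 𝒞.A0 →ₐ[k] B) : Function.Surjective (ev0 q) :=
  fun b => ⟨algebraMap B _ b, AlgHom.commutes _ _⟩

/-- the ideal of a `B`-valued point of `U0` -/
def pid0 (q : 𝒞.A0 →ₐ[k] B) : Ideal (𝒞.R0 B) := RingHom.ker (ev0 q)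

theorem mem_pid0 {q : 𝒞.A0 →ₐ[k] B} {x : 𝒞.R0 B} : x ∈ pid0 q ↔ ev0 q x = 0 := Iff.rfl

/-- the quotient by the ideal of a point -/
def quotPid0 (q : 𝒞.A0 →ₐ[k] B) : (𝒞.R0 B ⧸ pid0 q) ≃ₐ[B] B :=
  Ideal.quotientKerAlgEquivOfSurjective (ev0_surjective q)

instance finite_pid0 (q : 𝒞.A0 →ₐ[k] B) : Module.Finite B (𝒞.R0 B ⧸ pid0 q) :=
  Module.Finite.equiv (quotPid0 q).symm.toLinearEquiv

instance projective_pid0 (q : 𝒞.A0 →ₐ[k] B) : Module.Projective B (𝒞.R0 B ⧸ pid0 q) :=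
  Module.Projective.of_equiv (quotPid0 q).symm.toLinearEquiv

theorem finrank_pid0 [StrongRankCondition B] (q : 𝒞.A0 →ₐ[k] B) :
    Module.finrank B (𝒞.R0 B ⧸ pid0 q) = 1 := by
  rw [(quotPid0 q).toLinearEquiv.finrank_eq, Module.finrank_self]

theorem sub_mem_pid0 (q : 𝒞.A0 →ₐ[k] B) (x : 𝒞.R0 B) :
    x - algebraMap B _ (ev0 q x) ∈ pid0 q := by
  rw [mem_pid0, map_sub, AlgHom.commutes, sub_eq_zero]
  rfl

theorem pid0_eq_span (q : 𝒞.A0 →ₐ[k] B) :
    pid0 q = Ideal.span (Set.range fun a : 𝒞.A0 => (1 : B) ⊗ₜ[k] a - algebraMap B _ (q a)) := by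
  apply le_antisymm
  · have key : ∀ x : 𝒞.R0 B, x - algebraMap B _ (ev0 q x) ∈
        Ideal.span (Set.range fun a : 𝒞.A0 => (1 : B) ⊗ₜ[k] a - algebraMap B _ (q a)) := by
      intro x
      induction x using TensorProduct.induction_on with
      | zero => simp
      | tmul b a =>
        have : b ⊗ₜ[k] a - algebraMap B (𝒞.R0 B) (ev0 q (b ⊗ₜ a)) =
            algebraMap B _ b * ((1 : B) ⊗ₜ[k] a - algebraMap B _ (q a)) := by
          rw [ev0_tmul, map_mul, mul_sub]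
          congr 1
          rw [Algebra.TensorProduct.algebraMap_apply, Algebra.TensorProduct.tmul_mul_tmul]
          simp
        rw [this]
        exact Ideal.mul_mem_left _ _ (Ideal.subset_span ⟨a, rfl⟩)
      | add x y hx hy =>
        have : x + y - algebraMap B (𝒞.R0 B) (ev0 q (x + y)) =
            (x - algebraMap B (𝒞.R0 B) (ev0 q x)) + (y - algebraMap B (𝒞.R0 B) (ev0 q y)) := by
          rw [map_add, map_add]
          ring
        rw [this]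
        exact add_mem hx hy
    intro x hx
    have := key x
    rwa [mem_pid0.mp hx, map_zero, sub_zero] at this
  · rw [Ideal.span_le]
    rintro _ ⟨a, rfl⟩
    have := sub_mem_pid0 q ((1 : B) ⊗ₜ[k] a)
    rwa [ev0_tmul, one_mul] at this

theorem pid0_map (q : 𝒞.A0 →ₐ[k] B) (φ : B →ₐ[k] B') :
    (pid0 q).map (𝒞.bc0 φ) = pid0 (φ.comp q) := by
  rw [pid0_eq_span, pid0_eq_span, Ideal.map_span]
  congr 1
  ext x
  simp only [Set.mem_image, Set.mem_range, exists_exists_eq_and]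
  have h : ∀ a : 𝒞.A0, 𝒞.bc0 φ ((1 : B) ⊗ₜ[k] a - algebraMap B (𝒞.R0 B) (q a)) =
      (1 : B') ⊗ₜ[k] a - algebraMap B' (𝒞.R0 B') (φ.comp q a) := by
    intro a
    rw [map_sub]
    congr 1
    show (φ (1 : B)) ⊗ₜ[k] a = _
    rw [map_one]
  simp only [h]

/-- over an algebraically closed field every maximal ideal is the ideal of a point -/
theorem exists_pid0_eq {K : Type u} [Field K] [Algebra k K] [IsAlgClosed K] (𝔪 : Ideal (𝒞.R0 K))
    [h𝔪 : 𝔪.IsMaximal] : ∃ q : 𝒞.A0 →ₐ[k] K, pid0 q = 𝔪 := by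
  let _ : Field (𝒞.R0 K ⧸ 𝔪) := Ideal.Quotient.field 𝔪
  have : Algebra.FiniteType K (𝒞.R0 K) := inferInstance
  have : Algebra.FiniteType K (𝒞.R0 K ⧸ 𝔪) := inferInstance
  have : Module.Finite K (𝒞.R0 K ⧸ 𝔪) := finite_of_finite_type_of_isJacobsonRing K _
  have hb : Function.Bijective (algebraMap K (𝒞.R0 K ⧸ 𝔪)) :=
    IsAlgClosed.algebraMap_bijective_of_isIntegral
  let e : K ≃ₐ[K] (𝒞.R0 K ⧸ 𝔪) := AlgEquiv.ofBijective (Algebra.ofId K (𝒞.R0 K ⧸ 𝔪)) hb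
  let f : 𝒞.R0 K →ₐ[K] K := (e.symm : (𝒞.R0 K ⧸ 𝔪) →ₐ[K] K).comp (Ideal.Quotient.mkₐ K 𝔪)
  let q : 𝒞.A0 →ₐ[k] K := (f.restrictScalars k).comp
    (Algebra.TensorProduct.includeRight : 𝒞.A0 →ₐ[k] 𝒞.R0 K)
  have hf : ev0 q = f := by
    apply Algebra.TensorProduct.ext
    · ext
    · ext a
      simp [q, ev0]
  refine ⟨q, ?_⟩
  ext x
  rw [mem_pid0, hf]
  show e.symm (Ideal.Quotient.mk 𝔪 x) = 0 ↔ _
  rw [map_eq_zero_iff _ e.symm.injective, Ideal.Quotient.eq_zero_iff_mem]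

end Fermat.Agent.S25.TwoChart
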