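import Mathlib
import Fermat.Agent.S25.SubCut
import Fermat.Agent.S25.PropEv
import Fermat.Agent.S25.PropPt
import Fermat.Agent.S25.FibDeg

/-!
# S25, package PROP: divisors of points
-/

set_option autoImplicit false

universe u

open scoped TensorProduct Polynomial

noncomputable section

namespace Fermat.Agent.S25

open TwoChart

variable {k : Type u} [Field k] {𝒞 : TwoChart k} {B B' : Type u} [CommRing B] [Algebra k B]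
  [CommRing B'] [Algebra k B']

/-- the divisor of a point of `U0` -/
def pdiv0 (q : 𝒞.A0 →ₐ[k] B) : Div 𝒞 B := Div.ofCut (pid0 q) (𝒞.isCut _)

/-- the divisor of a point of `U1` -/
def pdiv1 (q : 𝒞.A1 →ₐ[k] B) : Div 𝒞 B := (pdiv0 (𝒞 := 𝒞.swap) q).unswap

theorem pdiv0_bc (q : 𝒞.A0 →ₐ[k] B) (φ : B →ₐ[k] B') :
    (pdiv0 q).bc φ = pdiv0 (φ.comp q) := by
  rw [pdiv0, Div.ofCut_bc]
  exact Div.ofCut_congr _ (pid0_map q φ)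

theorem pdiv1_bc (q : 𝒞.A1 →ₐ[k] B) (φ : B →ₐ[k] B') :
    (pdiv1 q).bc φ = pdiv1 (φ.comp q) := by
  have h := pdiv0_bc (𝒞 := 𝒞.swap) q φ
  exact congrArg Div.unswap h

/-- the divisor of a point -/
def Pt.div : Pt 𝒞 B → Div 𝒞 B
  | ⟨false, q⟩ => pdiv0 q
  | ⟨true, q⟩ => pdiv1 q

theorem Pt.div_bc (x : Pt 𝒞 B) (φ : B →ₐ[k] B') : x.div.bc φ = (x.map φ).div := by
  obtain ⟨b, q⟩ := x
  cases b
  · exact pdiv0_bc q φ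
  · exact pdiv1_bc q φ

namespace TwoChart

/-- evaluation at a point of `U0 ∩ U1` -/
def ev01 (q : 𝒞.A01 →ₐ[k] B) : 𝒞.R01 B →ₐ[B] B :=
  Algebra.TensorProduct.lift (AlgHom.id B B) q (fun _ _ ↦ .all _ _)

theorem ev01_ρ0B (q : 𝒞.A01 →ₐ[k] B) (x : 𝒞.R0 B) :
    ev01 q (𝒞.ρ0B B x) = ev0 (q.comp 𝒞.ρ0) x := by
  have h : (ev01 q).comp (𝒞.ρ0B B) = ev0 (q.comp 𝒞.ρ0) := by
    apply Algebra.TensorProduct.ext
    · ext
    · ext a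
      simp [ev01, ρ0B, ev0]
  exact congr($h x)

theorem ev01_ρ1B (q : 𝒞.A01 →ₐ[k] B) (x : 𝒞.R1 B) :
    ev01 q (𝒞.ρ1B B x) = ev0 (𝒞 := 𝒞.swap) (q.comp 𝒞.ρ1) x :=
  ev01_ρ0B (𝒞 := 𝒞.swap) q x

theorem map_pid0_eq (q : 𝒞.A01 →ₐ[k] B) :
    (pid0 (q.comp 𝒞.ρ0)).map (𝒞.ρ0B B).toRingHom = RingHom.ker (ev01 q) := by
  apply le_antisymm
  · rw [Ideal.map_le_iff_le_comap]
    intro x hx
    show ev01 q (𝒞.ρ0B B x) = 0
    rw [ev01_ρ0B]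
    exact hx
  · intro z hz
    obtain ⟨n, a, ha⟩ := 𝒞.exists_pow_mul_eq0 B z
    have h1 : a ∈ pid0 (q.comp 𝒞.ρ0) := by
      rw [mem_pid0, ← ev01_ρ0B, ← ha, map_mul]
      have h2 : ev01 q z = 0 := hz
      rw [h2, mul_zero]
    have h3 : 𝒞.ρ0B B a ∈ (pid0 (q.comp 𝒞.ρ0)).map (𝒞.ρ0B B).toRingHom :=
      Ideal.mem_map_of_mem _ h1
    rw [← ha] at h3
    have hu : IsUnit ((𝒞.ρ0B B (𝒞.f0B B)) ^ n) := (𝒞.FB B).isUnit.pow n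
    exact (Ideal.unit_mul_mem_iff_mem _ hu).mp h3

theorem other_pid0 (q : 𝒞.A01 →ₐ[k] B) :
    𝒞.other (pid0 (q.comp 𝒞.ρ0)) = pid0 (𝒞 := 𝒞.swap) (q.comp 𝒞.ρ1) := by
  ext x
  rw [mem_other, map_pid0_eq]
  show ev01 q (𝒞.ρ1B B x) = 0 ↔ ev0 (𝒞 := 𝒞.swap) (q.comp 𝒞.ρ1) x = 0
  rw [ev01_ρ1B]

end TwoChart

theorem pdiv0_eq_pdiv1 (q : 𝒞.A01 →ₐ[k] B) : pdiv0 (q.comp 𝒞.ρ0) = pdiv1 (q.comp 𝒞.ρ1) := by
  refine Div.ext ?_ ?_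
  · exact (other_pid0 (𝒞 := 𝒞.swap) q).symm
  · exact other_pid0 q

theorem Pt.Rel.div_eq {x y : Pt 𝒞 B} (h : Pt.Rel x y) : x.div = y.div := by
  obtain ⟨q, b, b'⟩ := h
  cases b <;> cases b'
  · rfl
  · exact pdiv0_eq_pdiv1 q
  · exact (pdiv0_eq_pdiv1 q).symm
  · rfl

/-- the divisor of a list of points -/
def ptsDiv (ps : List (Pt 𝒞 B)) : Div 𝒞 B :=
  ps.foldr (fun x E => x.div.add E) Div.zero

@[simp]
theorem ptsDiv_nil : ptsDiv ([] : List (Pt 𝒞 B)) = Div.zero := rfl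

@[simp]
theorem ptsDiv_cons (x : Pt 𝒞 B) (ps : List (Pt 𝒞 B)) :
    ptsDiv (x :: ps) = x.div.add (ptsDiv ps) := rfl

theorem Div.zero_bc (φ : B →ₐ[k] B') : (Div.zero : Div 𝒞 B).bc φ = Div.zero :=
  Div.ext (Ideal.map_top _) (Ideal.map_top _)

theorem ptsDiv_bc (ps : List (Pt 𝒞 B)) (φ : B →ₐ[k] B') :
    (ptsDiv ps).bc φ = ptsDiv (ps.map (Pt.map φ)) := by
  induction ps with
  | nil => exact Div.zero_bc φ
  | cons x ps ih => rw [ptsDiv_cons, Div.bc_add, List.map_cons, ptsDiv_cons, ih, Pt.div_bc]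

theorem ptsDiv_rel {ps ps' : List (Pt 𝒞 B)}
    (h : List.Forall₂ (fun x y => x = y ∨ Pt.Rel x y) ps ps') : ptsDiv ps = ptsDiv ps' := by
  induction h with
  | nil => rfl
  | cons h _ ih =>
    rw [ptsDiv_cons, ptsDiv_cons, ih]
    rcases h with rfl | h
    · rfl
    · rw [h.div_eq]

/-- the line bundle attached to a list of points -/
def ptsLB (m : ℕ) (ps : List (Pt 𝒞 B)) : LB 𝒞 B := ((LB.triv 𝒞 B).tw m).subD (ptsDiv ps)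

theorem nonempty_ptsLB_bc (m : ℕ) (ps : List (Pt 𝒞 B)) (φ : B →ₐ[k] B') :
    Nonempty (LB.BC φ (ptsLB m ps) (ptsLB m (ps.map (Pt.map φ)))) := by
  have h := (((LB.trivBC 𝒞 φ).tw m).subD (ptsDiv ps))
  rw [ptsDiv_bc] at h
  exact ⟨h⟩

theorem nonempty_ptsLB_rel (m : ℕ) {ps ps' : List (Pt 𝒞 B)}
    (h : List.Forall₂ (fun x y => x = y ∨ Pt.Rel x y) ps ps') :
    Nonempty (LB.Iso (ptsLB m ps) (ptsLB m ps')) := by
  rw [ptsLB, ptsLB, ptsDiv_rel h]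
  exact ⟨LB.Iso.refl _⟩

end Fermat.Agent.S25
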