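import Mathlib
import Fermat.Agent.S25.PropDiv
import Fermat.Agent.S25.SepField
import Fermat.Agent.S25.SubOf
import Fermat.Agent.S25.ChartGood
import Fermat.Agent.S25.PropAff

/-!
# S25, package PROP: every line bundle of degree zero comes from points
-/

set_option autoImplicit false

universe u

open scoped TensorProduct Polynomial

noncomputable section

namespace Fermat.Agent.S25

section algebra

variable {R M : Type u} [CommRing R] [AddCommGroup M] [Module R M]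

/-- proper submodules of invertible modules are contained in `𝔪 M` for a maximal ideal `𝔪`. -/
theorem exists_maximal_le [Module.Invertible R M] (N : Submodule R M) (hN : N ≠ ⊤)
    (H : ∀ 𝔪 : Ideal R, 𝔪.IsMaximal →
      Nonempty ((M ⧸ (𝔪 • ⊤ : Submodule R M)) ≃ₗ[R] (R ⧸ 𝔪))) :
    ∃ 𝔪 : Ideal R, 𝔪.IsMaximal ∧ N ≤ (𝔪 • ⊤ : Submodule R M) := by
  obtain ⟨P, hP, hNP⟩ := (eq_top_or_exists_le_coatom N).resolve_left hN
  have hs : IsSimpleModule R (M ⧸ P) := isSimpleModule_iff_isCoatom.mpr hP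
  obtain ⟨𝔪, h𝔪, ⟨e⟩⟩ := isSimpleModule_iff_quot_maximal.mp hs
  have h1 : (𝔪 • ⊤ : Submodule R M) ≤ P := by
    rw [Submodule.smul_le]
    intro r hr x _
    rw [← Submodule.Quotient.mk_eq_zero, Submodule.Quotient.mk_smul]
    apply e.injective
    rw [map_smul, map_zero]
    obtain ⟨y, hy⟩ := Ideal.Quotient.mk_surjective (e (Submodule.Quotient.mk x))
    rw [← hy]
    show Ideal.Quotient.mk 𝔪 (r * y) = 0
    rw [Ideal.Quotient.eq_zero_iff_mem]
    exact Ideal.mul_mem_right _ _ hr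
  have h2 : IsCoatom (𝔪 • ⊤ : Submodule R M) := by
    obtain ⟨e'⟩ := H 𝔪 h𝔪
    rw [← isSimpleModule_iff_isCoatom]
    exact isSimpleModule_iff_quot_maximal.mpr ⟨𝔪, h𝔪, ⟨e'⟩⟩
  refine ⟨𝔪, h𝔪, ?_⟩
  rcases h2.le_iff.mp h1 with h | h
  · exact (hP.ne_top h).elim
  · rwa [h] at hNP

end algebra

open TwoChart

variable {k : Type u} [Field k] {𝒞 : TwoChart k} {K : Type u} [Field K] [Algebra k K]

namespace LB

theorem Hom.factorD_l01_ne {D E : LB 𝒞 K} (f : Hom D E) (F : Div 𝒞 K)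
    (h0 : ∀ x, f.l0 x ∈ (F.I0 • ⊤ : Submodule (𝒞.R0 K) E.M0))
    (h1 : ∀ x, f.l1 x ∈ (F.I1 • ⊤ : Submodule (𝒞.R1 K) E.M1)) (hf : f.l01 ≠ 0) :
    (f.factorD F h0 h1).l01 ≠ 0 := by
  intro h
  apply hf
  ext x
  have h2 := congrArg Subtype.val (LinearMap.congr_fun h x)
  exact h2

/-- chi of the twist by a point -/
theorem chi_subD_div (E : LB 𝒞 K) (x : Pt 𝒞 K) : (E.subD x.div).chi = E.chi - 1 := by
  obtain ⟨b, q⟩ := x
  cases b
  · have h2 : Module.finrank K (𝒞.R0 K ⧸ pid0 (𝒞 := 𝒞) q) = 1 := finrank_pid0 (𝒞 := 𝒞) q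
    have h := @chi_sub k _ 𝒞 K _ _ E (pid0 (𝒞 := 𝒞) q) (finite_pid0 (𝒞 := 𝒞) q)
    rw [h2] at h
    exact_mod_cast h
  · have h2 : Module.finrank K (𝒞.R1 K ⧸ pid0 (𝒞 := 𝒞.swap) q) = 1 :=
      finrank_pid0 (𝒞 := 𝒞.swap) q
    have h := E.chi_sub1 (h := finite_pid0 (𝒞 := 𝒞.swap) q) (pid0 (𝒞 := 𝒞.swap) q)
    exact (h.trans (congrArg (fun z : ℕ => E.chi - (z : ℤ)) h2)).trans (by norm_num)

theorem chi_subD_ptsDiv (E : LB 𝒞 K) (ps : List (Pt 𝒞 K)) :
    (E.subD (ptsDiv ps)).chi = E.chi - ps.length := by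
  induction ps generalizing E with
  | nil => rw [ptsDiv_nil, E.subZero.chi]; simp
  | cons x ps ih =>
    rw [ptsDiv_cons, ← (E.subSub x.div (ptsDiv ps)).chi, ih, chi_subD_div]
    push_cast [List.length_cons]
    ring

variable [IsAlgClosed K]

/-- non-surjective homomorphisms factor through the twist by a point -/
theorem exists_factor0 {D E : LB 𝒞 K} (f : Hom D E) (hs : ¬ Function.Surjective f.l0) :
    ∃ q : 𝒞.A0 →ₐ[k] K, ∀ x, f.l0 x ∈ (pid0 q • ⊤ : Submodule (𝒞.R0 K) E.M0) := by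
  obtain ⟨𝔪, h𝔪, h⟩ := exists_maximal_le (LinearMap.range f.l0)
    (fun h => hs (LinearMap.range_eq_top.mp h)) (fun 𝔪 h𝔪 => by
      obtain ⟨q, rfl⟩ := exists_pid0_eq 𝔪
      exact exists_quotient_equiv (K := K) _)
  obtain ⟨q, rfl⟩ := exists_pid0_eq 𝔪
  exact ⟨q, fun x => h ⟨x, rfl⟩⟩

theorem exists_step {D E : LB 𝒞 K} (f : Hom D E) (hf : f.l01 ≠ 0) (hchi : D.chi < E.chi) :
    ∃ (x : Pt 𝒞 K) (g : Hom D (E.subD x.div)), g.l01 ≠ 0 := by
  by_cases h0 : Function.Surjective f.l0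
  · by_cases h1 : Function.Surjective f.l1
    · exfalso
      have h := Sep.chi_eq f hf
      have e0 : Module.finrank K (E.M0 ⧸ LinearMap.range (f.l0.restrictScalars K)) = 0 := by
        have h2 : LinearMap.range (f.l0.restrictScalars K) = ⊤ := LinearMap.range_eq_top.mpr h0
        rw [h2]
        exact Module.finrank_zero_of_subsingleton
      have e1 : Module.finrank K (E.M1 ⧸ LinearMap.range (f.l1.restrictScalars K)) = 0 := by
        have h2 : LinearMap.range (f.l1.restrictScalars K) = ⊤ := LinearMap.range_eq_top.mpr h1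
        rw [h2]
        exact Module.finrank_zero_of_subsingleton
      rw [e0, e1] at h
      push_cast at h
      have h3 : (0 : ℤ) ≤ (Module.finrank K (E.M01 ⧸ LinearMap.range (f.l01.restrictScalars K)) : ℤ) :=
        Int.natCast_nonneg _
      linarith
    · obtain ⟨q, hq⟩ := exists_factor0 (𝒞 := 𝒞.swap) (D := D.swap) (E := E.swap) f.swap h1
      let g := Hom.factorCut (𝒞 := 𝒞.swap) (D := D.swap) (D' := E.swap) f.swap
        (𝒞.swap.isCut (pid0 (𝒞 := 𝒞.swap) q)) hq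
      refine ⟨⟨true, q⟩, f.factorD (pdiv1 q) (fun x => (g.l1 x).2) (fun x => (g.l0 x).2), ?_⟩
      exact f.factorD_l01_ne _ _ _ hf
  · obtain ⟨q, hq⟩ := exists_factor0 f h0
    let g := f.factorCut (𝒞.isCut (pid0 q)) hq
    refine ⟨⟨false, q⟩, f.factorD (pdiv0 q) (fun x => (g.l0 x).2) (fun x => (g.l1 x).2), ?_⟩
    exact f.factorD_l01_ne _ _ _ hf

/-- **line bundles and points** -/
theorem exists_pts (n : ℕ) : ∀ {D E : LB 𝒞 K} (f : Hom D E), f.l01 ≠ 0 → E.chi = D.chi + n →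
    ∃ ps : List (Pt 𝒞 K), ps.length = n ∧ Nonempty (Iso D (E.subD (ptsDiv ps))) := by
  induction n with
  | zero =>
    intro D E f hf hchi
    refine ⟨[], rfl, ⟨(Sep.isoOfChiEq f hf (by simp [hchi])).trans E.subZero.symm⟩⟩
  | succ n ih =>
    intro D E f hf hchi
    obtain ⟨x, g, hg⟩ := exists_step f hf (by rw [hchi]; push_cast; linarith)
    obtain ⟨ps, hps, ⟨e⟩⟩ := ih g hg (by rw [chi_subD_div, hchi]; push_cast; ring)
    exact ⟨x :: ps, by rw [List.length_cons, hps], ⟨e.trans (E.subSub x.div (ptsDiv ps))⟩⟩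

end LB

section curve

variable (𝒞 : CurveData k)

theorem degf_pos : 0 < 𝒞.toTwoChart.degf := by
  have : Nontrivial (𝒞.A1 ⧸ Ideal.span {𝒞.f1}) := by
    rw [Ideal.Quotient.nontrivial_iff]
    intro h
    have h1 : (1 : 𝒞.A1) ∈ Ideal.span {𝒞.f1} := by rw [h]; trivial
    obtain ⟨a, ha⟩ := Ideal.mem_span_singleton'.mp h1
    have h2 := congrArg 𝒞.ε ha
    rw [map_mul, LB.ε_f1, mul_zero, map_one] at h2
    exact zero_ne_one h2
  exact Module.finrank_pos

/-- the number of points -/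
def nPts : ℕ := LB.genus 𝒞 * 𝒞.toTwoChart.degf

variable {𝒞}

/-- every line bundle of degree zero comes from points -/
theorem exists_ptsLB [IsAlgClosed K] (D : LB 𝒞.toTwoChart K) (h : D.FibDeg0) :
    ∃ ps : List (Pt 𝒞.toTwoChart K), ps.length = nPts 𝒞 ∧
      Nonempty (LB.Iso D (ptsLB (LB.genus 𝒞) ps)) := by
  have hchi := (LB.fibDeg0_iff_field D).mp h
  have h1 : (D.dual.tw (LB.genus 𝒞)).chi = 1 - LB.genus 𝒞 + LB.genus 𝒞 * 𝒞.toTwoChart.degf := by
    rw [LB.chi_tw, LB.chi_dual, hchi, LB.chi_triv]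
    ring
  have hpos : 0 < (D.dual.tw (LB.genus 𝒞)).chi := by
    rw [h1]
    have h2 : (LB.genus 𝒞 : ℤ) ≤ LB.genus 𝒞 * 𝒞.toTwoChart.degf := by
      have := degf_pos 𝒞
      exact_mod_cast Nat.le_mul_of_pos_right _ this
    linarith
  have h3 : 0 < Module.finrank K (D.dual.tw (LB.genus 𝒞)).H0 := by
    rw [LB.chi] at hpos
    omega
  have h4 : Nontrivial (D.dual.tw (LB.genus 𝒞)).H0 := Module.nontrivial_of_finrank_pos h3
  obtain ⟨s, hs⟩ := exists_ne (0 : (D.dual.tw (LB.genus 𝒞)).H0)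
  let f := D.homOfSection (LB.genus 𝒞) s
  have hf : f.l01 ≠ 0 := by
    intro h0
    apply hs
    have h5 : D.dual.r0 s.1.1 = 0 := by
      apply D.ext_pair01
      intro x
      exact LinearMap.congr_fun h0 x
    have h6 : s.1.1 = 0 := D.dual.r0_injective (h5.trans (map_zero D.dual.r0).symm)
    have h7 : s.1.2 = 0 :=
      (D.dual.tw (LB.genus 𝒞)).r1_injective ((LB.H0_eq s).symm.trans
        (Eq.trans h5 (map_zero (D.dual.tw (LB.genus 𝒞)).r1).symm))
    exact Subtype.ext (Prod.ext h6 h7)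
  refine LB.exists_pts (nPts 𝒞) f hf ?_
  rw [LB.chi_tw, hchi, nPts]
  push_cast
  ring

/-- the family of line bundles attached to points -/
def ptSheaf : PtSheaf 𝒞.toTwoChart (nPts 𝒞) where
  E ps := ptsLB (LB.genus 𝒞) ps
  bc φ ps := nonempty_ptsLB_bc _ ps φ
  rel _ _ h := nonempty_ptsLB_rel _ h
  deg := by
    intro B _ _ ps hps L _ _ φ E' b
    obtain ⟨b'⟩ := nonempty_ptsLB_bc (LB.genus 𝒞) ps φ
    rw [LB.chi_eq_chi_of_bc b b', ptsLB, LB.chi_subD_ptsDiv, LB.chi_tw, List.length_map, hps,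
      nPts]
    push_cast
    ring
  surj K _ _ _ D h := exists_ptsLB D h

end curve

namespace AffRep

open CategoryTheory AlgebraicGeometry

variable {𝒞 : CurveData k} {J : Scheme.{u}} {j : J ⟶ Spec (CommRingCat.of k)}

/-- **properness** -/
theorem isProper [IsAlgClosed k] [LocallyOfFiniteType j] (A : AffRep 𝒞 j) : IsProper j :=
  A.isProper_of_ptSheaf ptSheaf

/-- **geometric connectedness** -/
theorem geometricallyConnected [IsAlgClosed k] (A : AffRep 𝒞 j) : GeometricallyConnected j :=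
  A.geometricallyConnected_of_ptSheaf ptSheaf

end AffRep

end Fermat.Agent.S25
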