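import Fermat.Agent.S25.IsoGlue

/-!
# S25: the sheaf associated with a module over an affine open; gluing two sheaves
-/

set_option autoImplicit false

universe u

open CategoryTheory CategoryTheory.Limits AlgebraicGeometry TopologicalSpace Opposite

noncomputable section

namespace Fermat.Agent.S25

open AlgebraicGeometry.Scheme.Modules

variable {X Y Z : Scheme.{u}}

section asc

variable {V : X.Opens} (hV : IsAffineOpen V) (M : Type u) [AddCommGroup M] [Module Γ(X, V) M]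

/-- the sheaf on `X` associated with a module over an affine open -/
def asc : X.Modules := (pushforward hV.fromSpec).obj (tilde (ModuleCat.of Γ(X, V) M))

/-- restriction of `asc` to the affine open -/
def ascRestrict : (asc hV M).restrict hV.fromSpec ≅ tilde (ModuleCat.of Γ(X, V) M) :=
  (restrictFunctorAdjCounitIso hV.fromSpec).app _

/-- sections of `asc` over the affine open -/
def ascTop : M →+ Γ(asc hV M, V) :=
  (res (tilde (ModuleCat.of Γ(X, V) M)) (le_top : hV.fromSpec ⁻¹ᵁ V ≤ ⊤)).comp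
    (tildeTop (ModuleCat.of Γ(X, V) M))

lemma ascTop_bijective : Function.Bijective (ascTop hV M) :=
  (res_bijective_of_eq (tilde (ModuleCat.of Γ(X, V) M)) (le_top : hV.fromSpec ⁻¹ᵁ V ≤ ⊤)
    hV.fromSpec_preimage_self).comp (tildeTop_bijective (ModuleCat.of Γ(X, V) M))

lemma ascTop_smul (r : Γ(X, V)) (m : M) : ascTop hV M (r • m) = r • ascTop hV M m := by
  have h1 : ascTop hV M (r • m) = res (tilde (ModuleCat.of Γ(X, V) M))
    (le_top : hV.fromSpec ⁻¹ᵁ V ≤ ⊤) (gs _ r • tildeTop (ModuleCat.of Γ(X, V) M) m) := by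
    rw [← smul_top_eq, ← tildeTop_smul]
    rfl
  rw [h1, res_smul]
  have h2 : (Spec Γ(X, V)).presheaf.map (homOfLE (le_top : hV.fromSpec ⁻¹ᵁ V ≤ ⊤)).op (gs _ r) =
    hV.fromSpec.app V r := by
    rw [hV.fromSpec_app_self]
    rfl
  rw [h2]
  rfl

lemma asc_res_bijective {W W' : X.Opens} (h : W' ≤ W) (h' : W ⊓ V ≤ W') :
    Function.Bijective (res (asc hV M) h) := by
  refine res_bijective_of_eq (tilde (ModuleCat.of Γ(X, V) M))
    (show hV.fromSpec ⁻¹ᵁ W' ≤ hV.fromSpec ⁻¹ᵁ W from hV.fromSpec.preimage_mono h) ?_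
  refine le_antisymm (hV.fromSpec.preimage_mono h) fun x hx ↦ ?_
  have hx' : hV.fromSpec x ∈ Set.range hV.fromSpec := ⟨x, rfl⟩
  rw [hV.range_fromSpec] at hx'
  exact h' ⟨hx, hx'⟩

end asc

section aff

theorem exists_iso_of_affine {L L' : X.Modules} [L.IsQuasicoherent] [L'.IsQuasicoherent]
    (hX : IsAffineOpen (⊤ : X.Opens)) (e : Γ(L, ⊤) ≃ₗ[Γ(X, ⊤)] Γ(L', ⊤)) :
    ∃ f : L ≅ L', ∀ x, f.hom.app ⊤ x = e x := by
  have hX' : IsAffineOpen (⊤ ⊓ ⊤ : X.Opens) := by simpa using hX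
  obtain ⟨f, h0, h1, -⟩ := exists_hom_two (L := L) (L' := L') hX hX hX' (by simp) e.toLinearMap
    e.toLinearMap (by
      refine lin_ext_res hX hX' inf_le_left fun x ↦ ?_
      rw [extendLin_res])
  have hb : Function.Bijective (f.app ⊤) := by
    have : (f.app ⊤ : Γ(L, ⊤) → Γ(L', ⊤)) = e := funext h0
    rw [this]
    exact e.bijective
  have := isIso_of_two hX hX (by simp) f hb hb
  exact ⟨asIso f, h0⟩

end aff

section aschom

variable {V W : X.Opens} (hV : IsAffineOpen V) (hW : IsAffineOpen W) (h : W ≤ V)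
  (M N : Type u) [AddCommGroup M] [Module Γ(X, V) M] [AddCommGroup N] [Module Γ(X, W) N]

include h in
lemma asc_qc : ((asc hV M).restrict hW.fromSpec).IsQuasicoherent := by
  have h1 : Spec.map (X.presheaf.map (homOfLE h).op) ≫ hV.fromSpec = hW.fromSpec :=
    hV.map_fromSpec hW (homOfLE h).op
  have : IsOpenImmersion (Spec.map (X.presheaf.map (homOfLE h).op)) := by
    have : IsOpenImmersion (Spec.map (X.presheaf.map (homOfLE h).op) ≫ hV.fromSpec) := by
      rw [h1]; infer_instance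
    exact IsOpenImmersion.of_comp _ hV.fromSpec
  let e : (asc hV M).restrict hW.fromSpec ≅
      (tilde (ModuleCat.of Γ(X, V) M)).restrict (Spec.map (X.presheaf.map (homOfLE h).op)) :=
    (restrictFunctorCongr h1.symm).app _ ≪≫ (restrictFunctorComp _ _).app _ ≪≫
      (restrictFunctor (Spec.map (X.presheaf.map (homOfLE h).op))).mapIso (ascRestrict hV M)
  exact (SheafOfModules.isQuasicoherent (Spec Γ(X, W)).ringCatSheaf).prop_of_iso e.symm
    (isQuasicoherent_restrictFunctor _ _)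

include hW in
lemma isBC_asc : IsBC (X.presheaf.map (homOfLE h).op).hom (res (asc hV M) h) := by
  have hj : hV.fromSpec ⁻¹ᵁ W ≤ hV.fromSpec ⁻¹ᵁ V := hV.fromSpec.preimage_mono h
  have h1 : IsAffineOpen (hV.fromSpec ⁻¹ᵁ V) := by
    rw [hV.fromSpec_preimage_self]; exact isAffineOpen_top _
  have h2 : IsAffineOpen (hV.fromSpec ⁻¹ᵁ W) := hW.preimage_of_isOpenImmersion _ (by
    rw [hV.opensRange_fromSpec]; exact h)
  have h3 := isBC_res (tilde (ModuleCat.of Γ(X, V) M)) h1 h2 hj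
  have h4 : IsIso (hV.fromSpec.app V) := hV.fromSpec.isIso_app V (by
    rw [hV.opensRange_fromSpec])
  have h5 : IsIso (hV.fromSpec.app W) := hV.fromSpec.isIso_app W (by
    rw [hV.opensRange_fromSpec]; exact h)
  refine IsBC.of_square (M' := Γ(tilde (ModuleCat.of Γ(X, V) M), hV.fromSpec ⁻¹ᵁ V))
    (N' := Γ(tilde (ModuleCat.of Γ(X, V) M), hV.fromSpec ⁻¹ᵁ W))
    (hV.fromSpec.app V).hom (hV.fromSpec.app W).hom
    (AddMonoidHom.id _) (AddMonoidHom.id _) (ConcreteCategory.bijective_of_isIso _)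
    (ConcreteCategory.bijective_of_isIso _) Function.bijective_id Function.bijective_id
    (fun _ _ ↦ rfl) (fun _ _ ↦ rfl) ?_ rfl h3
  exact congr(($(hV.fromSpec.naturality (homOfLE h).op)).hom)

end aschom

section glue

variable {P0 P1 P01 : X.Modules} (φ0 : P0 ⟶ P01) (φ1 : P1 ⟶ P01)

/-- the fibre product sheaf -/
def gl : X.Modules := Limits.pullback φ0 φ1

/-- first projection -/
def gl0 : gl φ0 φ1 ⟶ P0 := Limits.pullback.fst φ0 φ1

/-- second projection -/
def gl1 : gl φ0 φ1 ⟶ P1 := Limits.pullback.snd φ0 φ1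

lemma gl_isPullback (V : X.Opens) : IsPullback
    ((forget Ab).map ((gl0 φ0 φ1).app V)) ((forget Ab).map ((gl1 φ0 φ1).app V))
    ((forget Ab).map (φ0.app V)) ((forget Ab).map (φ1.app V)) := by
  have h := IsPullback.of_hasPullback φ0 φ1
  have h2 := h.map (toPresheaf X)
  have h3 := h2.map ((evaluation _ _).obj (op V))
  exact h3.map (forget Ab)

lemma gl_w {V : X.Opens} (x : Γ(gl φ0 φ1, V)) :
    φ0.app V ((gl0 φ0 φ1).app V x) = φ1.app V ((gl1 φ0 φ1).app V x) :=
  congr(($(Limits.pullback.condition (f := φ0) (g := φ1))).app V x)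

lemma gl_ext {V : X.Opens} {x y : Γ(gl φ0 φ1, V)}
    (h0 : (gl0 φ0 φ1).app V x = (gl0 φ0 φ1).app V y)
    (h1 : (gl1 φ0 φ1).app V x = (gl1 φ0 φ1).app V y) : x = y :=
  Types.ext_of_isPullback (gl_isPullback φ0 φ1 V) h0 h1

lemma gl_exists {V : X.Opens} (s0 : Γ(P0, V)) (s1 : Γ(P1, V)) (h : φ0.app V s0 = φ1.app V s1) :
    ∃ x : Γ(gl φ0 φ1, V), (gl0 φ0 φ1).app V x = s0 ∧ (gl1 φ0 φ1).app V x = s1 :=
  Types.exists_of_isPullback (gl_isPullback φ0 φ1 V) s0 s1 h

lemma gl0_bijective {V : X.Opens} (h : Function.Bijective (φ1.app V)) :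
    Function.Bijective ((gl0 φ0 φ1).app V) := by
  refine ⟨fun x y hxy ↦ gl_ext _ _ hxy (h.1 ?_), fun s ↦ ?_⟩
  · rw [← gl_w, ← gl_w, hxy]
  · obtain ⟨t, ht⟩ := h.2 (φ0.app V s)
    obtain ⟨x, hx, -⟩ := gl_exists φ0 φ1 s t ht.symm
    exact ⟨x, hx⟩

lemma gl1_bijective {V : X.Opens} (h : Function.Bijective (φ0.app V)) :
    Function.Bijective ((gl1 φ0 φ1).app V) := by
  refine ⟨fun x y hxy ↦ gl_ext _ _ (h.1 ?_) hxy, fun s ↦ ?_⟩
  · rw [gl_w, gl_w, hxy]
  · obtain ⟨t, ht⟩ := h.2 (φ1.app V s)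
    obtain ⟨x, -, hx⟩ := gl_exists φ0 φ1 t s ht
    exact ⟨x, hx⟩

end glue

end Fermat.Agent.S25
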