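import Fermat.Agent.S25.ToLB

/-!
# S25: `Γ(C_T, O) = Γ(T, O)` for every `T` over `Spec k`
-/

set_option autoImplicit false

universe u

open CategoryTheory CategoryTheory.Limits AlgebraicGeometry TopologicalSpace Opposite
open NeronModelInfra AlgebraicGeometry.RelPicard
open scoped TensorProduct

noncomputable section

namespace Fermat.Agent.S25

namespace H0Base

section alg

variable {k : Type u} [Field k] (𝒟 : CurveData k) (B : Type u) [CommRing B] [Algebra k B]

theorem tmul_one_injective (h : Nontrivial 𝒟.A0) :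
    Function.Injective fun b : B ↦ (b ⊗ₜ[k] (1 : 𝒟.A0) : B ⊗[k] 𝒟.A0) :=
  Algebra.TensorProduct.includeLeft_injective (R := k) (S := k) (A := B) (B := 𝒟.A0)
    (algebraMap k 𝒟.A0).injective

/-- the map `k → A0 × A1` -/
def diagL : k →ₗ[k] 𝒟.A0 × 𝒟.A1 :=
  (Algebra.linearMap k 𝒟.A0).prod (Algebra.linearMap k 𝒟.A1)

/-- the map `A0 × A1 → A01` -/
def diffL : 𝒟.A0 × 𝒟.A1 →ₗ[k] 𝒟.A01 :=
  𝒟.ρ0.toLinearMap ∘ₗ LinearMap.fst k _ _ - 𝒟.ρ1.toLinearMap ∘ₗ LinearMap.snd k _ _

theorem exact_diff : Function.Exact (diagL 𝒟) (diffL 𝒟) := by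
  intro x
  constructor
  · intro hx
    have h1 : 𝒟.ρ0 x.1 - 𝒟.ρ1 x.2 = 0 := hx
    obtain ⟨c, h2, h3⟩ := 𝒟.inter x.1 x.2 (sub_eq_zero.mp h1)
    exact ⟨c, Prod.ext h2.symm h3.symm⟩
  · rintro ⟨c, rfl⟩
    change 𝒟.ρ0 (algebraMap k 𝒟.A0 c) - 𝒟.ρ1 (algebraMap k 𝒟.A1 c) = 0
    rw [𝒟.ρ0.commutes, 𝒟.ρ1.commutes, sub_self]

theorem exists_of_rho_eq (x0 : 𝒟.R0 B) (x1 : 𝒟.R1 B) (h : 𝒟.ρ0B B x0 = 𝒟.ρ1B B x1) :
    ∃ b : B, x0 = b ⊗ₜ 1 ∧ x1 = b ⊗ₜ 1 := by
  have hex := Module.Flat.lTensor_exact B (exact_diff 𝒟)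
  set z : B ⊗[k] (𝒟.A0 × 𝒟.A1) := (LinearMap.inl k 𝒟.A0 𝒟.A1).lTensor B x0 +
    (LinearMap.inr k 𝒟.A0 𝒟.A1).lTensor B x1 with hz
  have h0 : ∀ x : B ⊗[k] 𝒟.A0,
      (diffL 𝒟).lTensor B ((LinearMap.inl k 𝒟.A0 𝒟.A1).lTensor B x) = 𝒟.ρ0B B x := by
    intro x
    refine TensorProduct.induction_on x ?_ (fun b a ↦ ?_) (fun x y hx hy ↦ ?_)
    · simp only [map_zero]
    · simp only [LinearMap.lTensor_tmul]
      change b ⊗ₜ (𝒟.ρ0 a - 𝒟.ρ1 0) = b ⊗ₜ 𝒟.ρ0 a
      rw [map_zero, sub_zero]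
    · simp only [map_add, hx, hy]
  have h1 : ∀ x : B ⊗[k] 𝒟.A1,
      (diffL 𝒟).lTensor B ((LinearMap.inr k 𝒟.A0 𝒟.A1).lTensor B x) = - 𝒟.ρ1B B x := by
    intro x
    refine TensorProduct.induction_on x ?_ (fun b a ↦ ?_) (fun x y hx hy ↦ ?_)
    · simp only [map_zero, neg_zero]
    · simp only [LinearMap.lTensor_tmul]
      change b ⊗ₜ (𝒟.ρ0 0 - 𝒟.ρ1 a) = -(b ⊗ₜ 𝒟.ρ1 a)
      rw [map_zero, zero_sub, TensorProduct.tmul_neg]
    · simp only [map_add, hx, hy, neg_add]
  have hz0 : (diffL 𝒟).lTensor B z = 0 := by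
    rw [hz, map_add, h0, h1, h, add_neg_cancel]
  obtain ⟨w, hw⟩ := (hex z).mp hz0
  obtain ⟨b, rfl⟩ : ∃ b : B, w = b ⊗ₜ (1 : k) :=
    ⟨TensorProduct.rid k B w, by
      rw [← TensorProduct.rid_symm_apply, LinearEquiv.symm_apply_apply]⟩
  refine ⟨b, ?_, ?_⟩
  · have h2 := congrArg ((LinearMap.fst k 𝒟.A0 𝒟.A1).lTensor B) hw
    rw [hz, map_add, ← LinearMap.comp_apply, ← LinearMap.comp_apply, ← LinearMap.comp_apply,
      ← LinearMap.lTensor_comp, ← LinearMap.lTensor_comp, ← LinearMap.lTensor_comp,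
      LinearMap.fst_comp_inl, LinearMap.fst_comp_inr, LinearMap.lTensor_id, LinearMap.lTensor_zero,
      LinearMap.zero_apply, add_zero, LinearMap.lTensor_tmul] at h2
    rw [LinearMap.id_apply] at h2
    rw [← h2]
    change b ⊗ₜ (algebraMap k 𝒟.A0 1) = _
    rw [map_one]
  · have h2 := congrArg ((LinearMap.snd k 𝒟.A0 𝒟.A1).lTensor B) hw
    rw [hz, map_add, ← LinearMap.comp_apply, ← LinearMap.comp_apply, ← LinearMap.comp_apply,
      ← LinearMap.lTensor_comp, ← LinearMap.lTensor_comp, ← LinearMap.lTensor_comp,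
      LinearMap.snd_comp_inl, LinearMap.snd_comp_inr, LinearMap.lTensor_id, LinearMap.lTensor_zero,
      LinearMap.zero_apply, zero_add, LinearMap.lTensor_tmul] at h2
    rw [LinearMap.id_apply] at h2
    rw [← h2]
    change b ⊗ₜ (algebraMap k 𝒟.A1 1) = _
    rw [map_one]

end alg

section geom

variable {k : Type u} [Field k] {C : Scheme.{u}} {c : C ⟶ Spec (CommRingCat.of k)}
  {ε : SchemeHomOver (𝟙 (Spec (CommRingCat.of k))) c} (G : CurveGeom c ε)

section

variable (B : Type u) [CommRing B] [Algebra k B]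

theorem θ0_tmul_one (b : B) : G.θ0 B (b ⊗ₜ 1) = baseHom c B (G.V0 B) b := by
  refine (theta_tmul c B G.α0.toRingHom G.k0 (le_refl (G.V0 B)) b 1).trans ?_
  rw [map_one, map_one, mul_one]

theorem θ1_tmul_one (b : B) : G.θ1 B (b ⊗ₜ 1) = baseHom c B (G.V1 B) b := by
  refine (theta_tmul c B G.α1.toRingHom G.k1 (le_refl (G.V1 B)) b 1).trans ?_
  rw [map_one, map_one, mul_one]

include G in
theorem baseHom_bijective : Function.Bijective (baseHom c B ⊤) := by
  have hnt : Nontrivial G.𝒟.A0 := G.𝒟.inj0.nontrivial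
  constructor
  · intro b b' h
    have h1 := congrArg ((XB c B).presheaf.map (homOfLE (le_top (a := G.V0 B))).op) h
    rw [baseHom_res, baseHom_res, ← θ0_tmul_one, ← θ0_tmul_one] at h1
    exact tmul_one_injective G.𝒟 B hnt ((G.θ0_bij B).1 h1)
  · intro y
    obtain ⟨x0, hx0⟩ := (G.θ0_bij B).2
      ((XB c B).presheaf.map (homOfLE (le_top (a := G.V0 B))).op y)
    obtain ⟨x1, hx1⟩ := (G.θ1_bij B).2
      ((XB c B).presheaf.map (homOfLE (le_top (a := G.V1 B))).op y)
    obtain ⟨b, rfl, rfl⟩ := exists_of_rho_eq G.𝒟 B x0 x1 (by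
      apply (G.θ01_bij B).1
      rw [G.θ01_ρ0, G.θ01_ρ1, hx0, hx1, ← CommRingCat.comp_apply, ← CommRingCat.comp_apply,
        ← Functor.map_comp, ← Functor.map_comp]
      rfl)
    refine ⟨b, ?_⟩
    refine (XB c B).sheaf.eq_of_locally_eq₂ (homOfLE (le_top (a := G.V0 B)))
      (homOfLE (le_top (a := G.V1 B))) (G.coverV B).ge _ _ ?_ ?_
    · refine Eq.trans (baseHom_res c B le_top b) ?_
      rw [← θ0_tmul_one]
      exact hx0
    · refine Eq.trans (baseHom_res c B le_top b) ?_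
      rw [← θ1_tmul_one]
      exact hx1

include G in
theorem qB_app_top : Function.Bijective ((qB c B).app ⊤).hom := by
  have h := baseHom_bijective G B
  have h2 : Function.Bijective (Scheme.ΓSpecIso (CommRingCat.of B)).inv.hom :=
    ConcreteCategory.bijective_of_isIso (Scheme.ΓSpecIso (CommRingCat.of B)).inv
  have h3 : (baseHom c B ⊤ : B → Γ(XB c B, ⊤)) =
      ((qB c B).app ⊤).hom ∘ (Scheme.ΓSpecIso (CommRingCat.of B)).inv.hom := by
    funext b
    rw [baseHom, appLE_top_top]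
    rfl
  rw [h3] at h
  exact (Function.Bijective.of_comp_iff _ h2).mp h

end

theorem isIso_appLE {X Y : Scheme.{u}} (f : X ⟶ Y) [IsOpenImmersion f] {U : Y.Opens}
    (hU : U = f.opensRange) (h : (⊤ : X.Opens) ≤ f ⁻¹ᵁ U) : IsIso (f.appLE U ⊤ h) := by
  subst hU
  have h1 : IsIso (f.app f.opensRange) := Scheme.Hom.isIso_app f _ le_rfl
  have h2 : (⊤ : X.Opens) = f ⁻¹ᵁ f.opensRange := (Scheme.Hom.preimage_opensRange f).symm
  rw [Scheme.Hom.appLE]
  have h3 : IsIso (homOfLE h) := by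
    refine ⟨homOfLE h2.ge, Subsingleton.elim _ _, Subsingleton.elim _ _⟩
  infer_instance

theorem app_opensRange {S T : Scheme.{u}} (t : T ⟶ Spec (CommRingCat.of k)) (j : S ⟶ T)
    [IsOpenImmersion j] (h : Function.Bijective ((pullback.snd c (j ≫ t)).app ⊤).hom) :
    Function.Bijective ((pullback.snd c t).app j.opensRange).hom := by
  let j' : pullback c (j ≫ t) ⟶ pullback c t :=
    pullback.map c (j ≫ t) c t (𝟙 C) j (𝟙 _) (by simp) (by simp)
  have hj1 : j' ≫ pullback.snd c t = pullback.snd c (j ≫ t) ≫ j := pullback.lift_snd _ _ _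
  have hj0 : j' ≫ pullback.fst c t = pullback.fst c (j ≫ t) :=
    (pullback.lift_fst _ _ _).trans (Category.comp_id _)
  have H : IsPullback j' (pullback.snd c (j ≫ t)) (pullback.snd c t) j := by
    refine IsPullback.of_right ?_ hj1 (IsPullback.of_hasPullback c t)
    rw [hj0]
    exact IsPullback.of_hasPullback c (j ≫ t)
  have hopen : IsOpenImmersion j' := MorphismProperty.of_isPullback H.flip inferInstance
  have hrange : pullback.snd c t ⁻¹ᵁ j.opensRange = j'.opensRange := by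
    apply Opens.ext
    have h1 : j' = H.isoPullback.hom ≫ pullback.fst (pullback.snd c t) j := by simp
    have h2 := IsOpenImmersion.range_pullbackFst j (pullback.snd c t)
    have h3 : Set.range j' = Set.range (pullback.fst (pullback.snd c t) j) := by
      rw [h1]
      exact (Scheme.Hom.surjective H.isoPullback.hom).range_comp _
    change (pullback.snd c t) ⁻¹' (Set.range j) = Set.range j'
    rw [h3, h2]
    rfl
  have e1 : (⊤ : (pullback c (j ≫ t)).Opens) ≤ j' ⁻¹ᵁ (pullback.snd c t ⁻¹ᵁ j.opensRange) := by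
    rw [hrange, Scheme.Hom.preimage_opensRange]
  have e2 : (⊤ : S.Opens) ≤ j ⁻¹ᵁ j.opensRange := by
    rw [Scheme.Hom.preimage_opensRange]
  have i1 := isIso_appLE j' hrange e1
  have i2 := isIso_appLE j rfl e2
  have key : (pullback.snd c t).app j.opensRange ≫
      j'.appLE (pullback.snd c t ⁻¹ᵁ j.opensRange) ⊤ e1 =
      j.appLE j.opensRange ⊤ e2 ≫ (pullback.snd c (j ≫ t)).app ⊤ := by
    have h1 : (pullback.snd c t).app j.opensRange =
        (pullback.snd c t).appLE j.opensRange (pullback.snd c t ⁻¹ᵁ j.opensRange) le_rfl := by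
      simp [Scheme.Hom.appLE]
    have h2 : (pullback.snd c (j ≫ t)).app ⊤ = (pullback.snd c (j ≫ t)).appLE ⊤ ⊤ le_top :=
      (appLE_top_top _).symm
    rw [h1, h2]
    refine (Scheme.Hom.appLE_comp_appLE _ _ _ _ _ _ _).trans
      (Eq.trans ?_ (Scheme.Hom.appLE_comp_appLE _ _ _ _ _ _ _).symm)
    simp only [hj1]
  have hb1 : Function.Bijective (j'.appLE (pullback.snd c t ⁻¹ᵁ j.opensRange) ⊤ e1).hom :=
    ConcreteCategory.bijective_of_isIso _
  have hb2 : Function.Bijective (j.appLE j.opensRange ⊤ e2).hom :=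
    ConcreteCategory.bijective_of_isIso _
  have h4 : Function.Bijective
      ((j'.appLE (pullback.snd c t ⁻¹ᵁ j.opensRange) ⊤ e1).hom ∘
        ((pullback.snd c t).app j.opensRange).hom) := by
    have h5 : ((j'.appLE (pullback.snd c t ⁻¹ᵁ j.opensRange) ⊤ e1).hom ∘
        ((pullback.snd c t).app j.opensRange).hom) =
        ((pullback.snd c (j ≫ t)).app ⊤).hom ∘ (j.appLE j.opensRange ⊤ e2).hom := by
      funext x
      exact congr(($key).hom x)
    rw [h5]
    exact h.comp hb2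
  exact (Function.Bijective.of_comp_iff' hb1 _).mp h4

include G in
theorem app_affine {T : Scheme.{u}} (t : T ⟶ Spec (CommRingCat.of k)) {U : T.Opens}
    (hU : IsAffineOpen U) : Function.Bijective ((pullback.snd c t).app U).hom := by
  let φ : CommRingCat.of k ⟶ Γ(T, U) := Spec.preimage (hU.fromSpec ≫ t)
  have hφ : Spec.map φ = hU.fromSpec ≫ t := Spec.map_preimage _
  let _ : Algebra k Γ(T, U) := φ.hom.toAlgebra
  have h1 := qB_app_top G Γ(T, U)
  have h2 : tB k Γ(T, U) = hU.fromSpec ≫ t := hφ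
  have h3 : Function.Bijective ((pullback.snd c (hU.fromSpec ≫ t)).app ⊤).hom := by
    rw [← h2]
    exact h1
  have h4 := app_opensRange t hU.fromSpec h3
  rwa [hU.opensRange_fromSpec] at h4

end geom

end H0Base

variable {k : Type u} [Field k] {C : Scheme.{u}} {c : C ⟶ Spec (CommRingCat.of k)}
  {ε : SchemeHomOver (𝟙 (Spec (CommRingCat.of k))) c}

/-- **`Γ(C_T, O) = Γ(T, O)`** for a pointed curve with affine charts. -/
theorem snd_app_bijective (G : CurveGeom c ε) {T : Scheme.{u}}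
    (t : T ⟶ Spec (CommRingCat.of k)) (T' : T.Opens) :
    Function.Bijective ((pullback.snd c t).app T').hom := by
  let f := pullback.snd c t
  let φ : T.sheaf ⟶ (TopCat.Sheaf.pushforward CommRingCat f.base).obj (pullback c t).sheaf :=
    ⟨{ app := fun U ↦ f.app U.unop
       naturality := fun U V i ↦ f.naturality i }⟩
  have hφ : IsIso φ := by
    refine TopCat.Sheaf.isIso_iff_isIso_basis (B := fun U : T.affineOpens ↦ U.1) ?_ fun U ↦ ?_
    · rw [Subtype.range_coe]
      exact T.isBasis_affineOpens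
    · rw [ConcreteCategory.isIso_iff_bijective]
      exact H0Base.app_affine G t U.2
  have h0 : IsIso φ.hom := (TopCat.Sheaf.forget CommRingCat _).map_isIso φ
  have h1 : IsIso (φ.hom.app (op T')) := inferInstance
  rw [ConcreteCategory.isIso_iff_bijective] at h1
  exact h1

end Fermat.Agent.S25
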