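import Mathlib

/-!
# Representability of a Zariski sheaf with values in `Type (u+1)` (S25, piece REP)

`exists_representing`: a Zariski sheaf `F` on schemes, covered (in the sense tested on affine
schemes) by open subfunctors `X i`, is representable, and the `X i` are open subschemes of the
representing scheme.
-/

set_option autoImplicit false

universe u

open CategoryTheory Limits Opposite AlgebraicGeometry

namespace Fermat.Agent.S25

namespace Rep

variable {F : Scheme.{u}ᵒᵖ ⥤ Type (u + 1)}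

theorem map_map {X Y Z : Scheme.{u}} (f : X ⟶ Y) (g : Y ⟶ Z) (z : F.obj (op Z)) :
    F.map f.op (F.map g.op z) = F.map (f ≫ g).op z := by
  rw [op_comp, F.map_comp]; rfl

theorem sep (hF : Presheaf.IsSheaf Scheme.zariskiTopology F) {X : Scheme.{u}} (𝒰 : X.OpenCover)
    (a b : F.obj (op X)) (h : ∀ i, F.map (𝒰.f i).op a = F.map (𝒰.f i).op b) : a = b := by
  have h1 := (isSheaf_iff_isSheaf_of_type _ _).mp hF _ 𝒰.mem_grothendieckTopology
  refine h1.isSeparatedFor.ext ?_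
  rintro Y f ⟨Z, g, _, ⟨i⟩, rfl⟩
  rw [← map_map, ← map_map, h]

section One

variable {Y : Scheme.{u}} {y : F.obj (op Y)}

theorem uniq (h1 : ∀ (B : CommRingCat.{u}) (a b : Spec B ⟶ Y),
    F.map a.op y = F.map b.op y → a = b) {T : Scheme.{u}} (a b : T ⟶ Y)
    (h : F.map a.op y = F.map b.op y) : a = b := by
  refine T.affineCover.hom_ext _ _ fun i => ?_
  have h3 := congrArg (F.map (T.affineCover.f i).op) h
  rw [map_map, map_map] at h3
  exact h1 _ _ _ h3

/-- opens over which `ξ` comes from `Y`. -/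
def Good (Y : Scheme.{u}) (y : F.obj (op Y)) {T : Scheme.{u}} (ξ : F.obj (op T)) (V : T.Opens) :
    Prop := ∃ a : V.toScheme ⟶ Y, F.map a.op y = F.map V.ι.op ξ

theorem good_opensRange {T Z : Scheme.{u}} {ξ : F.obj (op T)} (j : Z ⟶ T) [IsOpenImmersion j]
    (a : Z ⟶ Y) (h : F.map a.op y = F.map j.op ξ) : Good Y y ξ j.opensRange := by
  refine ⟨j.isoOpensRange.inv ≫ a, ?_⟩
  rw [← map_map, h, map_map, Scheme.Hom.isoOpensRange_inv_comp]

/-- the largest open over which `ξ` comes from `Y`. -/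
def big (Y : Scheme.{u}) (y : F.obj (op Y)) {T : Scheme.{u}} (ξ : F.obj (op T)) : T.Opens :=
  ⨆ V : {V : T.Opens // Good Y y ξ V}, V.1

theorem le_big {T : Scheme.{u}} {ξ : F.obj (op T)} {V : T.Opens} (h : Good Y y ξ V) :
    V ≤ big Y y ξ := le_iSup (fun V : {V : T.Opens // Good Y y ξ V} => V.1) ⟨V, h⟩

theorem glue (hF : Presheaf.IsSheaf Scheme.zariskiTopology F)
    (h1 : ∀ (B : CommRingCat.{u}) (a b : Spec B ⟶ Y), F.map a.op y = F.map b.op y → a = b)
    {T W : Scheme.{u}} (ξ : F.obj (op T)) (𝒰 : W.OpenCover) (j : W ⟶ T) (a : ∀ i, 𝒰.X i ⟶ Y)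
    (ha : ∀ i, F.map (a i).op y = F.map (𝒰.f i ≫ j).op ξ) :
    ∃ a : W ⟶ Y, F.map a.op y = F.map j.op ξ := by
  refine ⟨𝒰.glueMorphisms a ?_, ?_⟩
  · intro V V'
    refine uniq h1 _ _ ?_
    rw [← map_map, ← map_map, ha, ha, map_map, map_map, pullback.condition_assoc]
  · refine sep hF 𝒰 _ _ fun V => ?_
    rw [map_map, map_map, Scheme.Cover.ι_glueMorphisms, ha]

theorem good_big (hF : Presheaf.IsSheaf Scheme.zariskiTopology F)
    (h1 : ∀ (B : CommRingCat.{u}) (a b : Spec B ⟶ Y), F.map a.op y = F.map b.op y → a = b)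
    {T : Scheme.{u}} (ξ : F.obj (op T)) : Good Y y ξ (big Y y ξ) := by
  choose a ha using fun V : {V : T.Opens // Good Y y ξ V} => V.2
  refine glue hF h1 ξ (Scheme.Opens.iSupOpenCover
    (fun V : {V : T.Opens // Good Y y ξ V} => V.1)) (big Y y ξ).ι a fun V => ?_
  refine (ha V).trans ?_
  have := T.homOfLE_ι (le_iSup (fun V : {V : T.Opens // Good Y y ξ V} => V.1) V)
  exact congrArg (fun h => F.map (Quiver.Hom.op h) ξ) this.symm

theorem mem_big
    (h2 : ∀ (B : CommRingCat.{u}) (ξ : F.obj (op (Spec B))), ∃ W : (Spec B).Opens,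
      ∀ (B' : CommRingCat.{u}) (g : Spec B' ⟶ Spec B),
        (∃ a : Spec B' ⟶ Y, F.map a.op y = F.map g.op ξ) ↔ Set.range g ⊆ W)
    {T T' : Scheme.{u}} (ξ : F.obj (op T)) (g : T' ⟶ T) (a : T' ⟶ Y)
    (h : F.map a.op y = F.map g.op ξ) (t : T') : g t ∈ big Y y ξ := by
  -- affine neighbourhoods
  obtain ⟨U, hU, htU, -⟩ := exists_isAffineOpen_mem_and_subset (X := T) (x := g t) (U := ⊤)
    trivial
  obtain ⟨U', hU', htU', hle⟩ := exists_isAffineOpen_mem_and_subset (X := T') (x := t)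
    (U := g ⁻¹ᵁ U) htU
  have hrange : Set.range (hU'.fromSpec ≫ g) ⊆ Set.range hU.fromSpec := by
    rw [hU.range_fromSpec]
    rintro _ ⟨s, rfl⟩
    have : hU'.fromSpec s ∈ U' := by
      have := hU'.range_fromSpec
      rw [← SetLike.mem_coe, ← this]
      exact ⟨s, rfl⟩
    exact hle this
  obtain ⟨W, hW⟩ := h2 _ (F.map hU.fromSpec.op ξ)
  let l := IsOpenImmersion.lift hU.fromSpec (hU'.fromSpec ≫ g) hrange
  have hl : l ≫ hU.fromSpec = hU'.fromSpec ≫ g := IsOpenImmersion.lift_fac _ _ _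
  have hlW : Set.range l ⊆ W := by
    rw [← hW]
    refine ⟨hU'.fromSpec ≫ a, ?_⟩
    rw [map_map, hl, ← map_map, ← map_map, h]
  obtain ⟨s, hs⟩ : ∃ s, hU'.fromSpec s = t := by
    have := hU'.range_fromSpec
    rw [← SetLike.mem_coe, ← this] at htU'
    exact htU'
  have hsW : l s ∈ W := hlW ⟨s, rfl⟩
  obtain ⟨_, ⟨(b : Γ(T, U)), rfl⟩, hb, hbW⟩ :=
    PrimeSpectrum.isTopologicalBasis_basic_opens.exists_subset_of_mem_open hsW W.isOpen
  let m : Spec (CommRingCat.of (Localization.Away b)) ⟶ Spec Γ(T, U) :=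
    Spec.map (CommRingCat.ofHom (algebraMap Γ(T, U) (Localization.Away b)))
  have hm : Set.range m = (PrimeSpectrum.basicOpen b : Set (PrimeSpectrum Γ(T, U))) :=
    PrimeSpectrum.localization_away_comap_range (Localization.Away b) b
  obtain ⟨a', ha'⟩ := (hW _ m).mpr (by rw [hm]; exact hbW)
  have hmo : IsOpenImmersion m := IsOpenImmersion.of_isLocalization b
  rw [map_map] at ha'
  refine le_big (good_opensRange (m ≫ hU.fromSpec) a' ha') ?_
  have h3 : l s ∈ Set.range m := by rw [hm]; exact hb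
  obtain ⟨r, hr⟩ := h3
  refine ⟨r, ?_⟩
  have h4 : (m ≫ hU.fromSpec) r = hU.fromSpec (m r) := rfl
  have h5 : (l ≫ hU.fromSpec) s = hU.fromSpec (l s) := rfl
  rw [h4, hr, ← h5, hl, ← hs]
  rfl

theorem exists_lift_iff (hF : Presheaf.IsSheaf Scheme.zariskiTopology F)
    (h1 : ∀ (B : CommRingCat.{u}) (a b : Spec B ⟶ Y), F.map a.op y = F.map b.op y → a = b)
    (h2 : ∀ (B : CommRingCat.{u}) (ξ : F.obj (op (Spec B))), ∃ W : (Spec B).Opens,
      ∀ (B' : CommRingCat.{u}) (g : Spec B' ⟶ Spec B),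
        (∃ a : Spec B' ⟶ Y, F.map a.op y = F.map g.op ξ) ↔ Set.range g ⊆ W)
    {T T' : Scheme.{u}} (ξ : F.obj (op T)) (g : T' ⟶ T) :
    (∃ a : T' ⟶ Y, F.map a.op y = F.map g.op ξ) ↔ Set.range g ⊆ big Y y ξ := by
  constructor
  · rintro ⟨a, ha⟩ _ ⟨t, rfl⟩
    exact mem_big h2 ξ g a ha t
  · intro h
    obtain ⟨a, ha⟩ := good_big hF h1 ξ
    have h' : Set.range g ⊆ Set.range (big Y y ξ).ι := by simpa using h
    refine ⟨IsOpenImmersion.lift (big Y y ξ).ι g h' ≫ a, ?_⟩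
    rw [← map_map, ha, map_map, IsOpenImmersion.lift_fac]

end One

section Fam

variable {ι : Type u} {X : ι → Scheme.{u}} {x : ∀ i, F.obj (op (X i))}

theorem exists_mem_big
    (h2 : ∀ i (B : CommRingCat.{u}) (ξ : F.obj (op (Spec B))), ∃ W : (Spec B).Opens,
      ∀ (B' : CommRingCat.{u}) (g : Spec B' ⟶ Spec B),
        (∃ a : Spec B' ⟶ X i, F.map a.op (x i) = F.map g.op ξ) ↔ Set.range g ⊆ W)
    (h3 : ∀ (B : CommRingCat.{u}) (ξ : F.obj (op (Spec B))) (p : Spec B),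
      ∃ i, ∃ (K : CommRingCat.{u}) (g : Spec K ⟶ Spec B), p ∈ Set.range g ∧
        ∃ a : Spec K ⟶ X i, F.map a.op (x i) = F.map g.op ξ)
    {T : Scheme.{u}} (ξ : F.obj (op T)) (t : T) : ∃ i, t ∈ big (X i) (x i) ξ := by
  obtain ⟨U, hU, htU, -⟩ := exists_isAffineOpen_mem_and_subset (X := T) (x := t) (U := ⊤)
    trivial
  obtain ⟨p, hp⟩ : ∃ p, hU.fromSpec p = t := by
    have := hU.range_fromSpec
    rw [← SetLike.mem_coe, ← this] at htU
    exact htU
  obtain ⟨i, K, g, ⟨k, hk⟩, a, ha⟩ := h3 _ (F.map hU.fromSpec.op ξ) p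
  rw [map_map] at ha
  refine ⟨i, ?_⟩
  have := mem_big (h2 i) ξ (g ≫ hU.fromSpec) a ha k
  have h4 : (g ≫ hU.fromSpec) k = hU.fromSpec (g k) := rfl
  rwa [h4, hk, hp] at this

theorem small_obj (hF : Presheaf.IsSheaf Scheme.zariskiTopology F)
    (h1 : ∀ i (B : CommRingCat.{u}) (a b : Spec B ⟶ X i),
      F.map a.op (x i) = F.map b.op (x i) → a = b)
    (h2 : ∀ i (B : CommRingCat.{u}) (ξ : F.obj (op (Spec B))), ∃ W : (Spec B).Opens,
      ∀ (B' : CommRingCat.{u}) (g : Spec B' ⟶ Spec B),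
        (∃ a : Spec B' ⟶ X i, F.map a.op (x i) = F.map g.op ξ) ↔ Set.range g ⊆ W)
    (h3 : ∀ (B : CommRingCat.{u}) (ξ : F.obj (op (Spec B))) (p : Spec B),
      ∃ i, ∃ (K : CommRingCat.{u}) (g : Spec K ⟶ Spec B), p ∈ Set.range g ∧
        ∃ a : Spec K ⟶ X i, F.map a.op (x i) = F.map g.op ξ)
    (T : Scheme.{u}) : Small.{u} (F.obj (op T)) := by
  choose a ha using fun (ξ : F.obj (op T)) (i : ι) => good_big hF (h1 i) ξ
  let code : F.obj (op T) → ∀ i, Σ W : T.Opens, (W.toScheme ⟶ X i) :=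
    fun ξ i => ⟨big (X i) (x i) ξ, a ξ i⟩
  refine small_of_injective (f := code) ?_
  intro ξ ξ' h
  have key : ∀ i, F.map (big (X i) (x i) ξ).ι.op ξ = F.map (big (X i) (x i) ξ).ι.op ξ' := by
    intro i
    have e := congrFun h i
    have e1 : F.map (code ξ i).1.ι.op ξ = F.map (code ξ i).2.op (x i) := (ha ξ i).symm
    have e2 : F.map (code ξ' i).1.ι.op ξ' = F.map (code ξ' i).2.op (x i) := (ha ξ' i).symm
    have e3 : F.map (code ξ i).1.ι.op ξ' = F.map (code ξ i).2.op (x i) := by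
      rw [e]; exact e2
    exact e1.trans e3.symm
  have hcov : TopologicalSpace.IsOpenCover (fun i => big (X i) (x i) ξ) := by
    rw [TopologicalSpace.IsOpenCover, eq_top_iff]
    intro t _
    obtain ⟨i, hi⟩ := exists_mem_big h2 h3 ξ t
    exact TopologicalSpace.Opens.mem_iSup.mpr ⟨i, hi⟩
  exact sep hF (T.openCoverOfIsOpenCover _ hcov) _ _ key

section Local

variable {G : Scheme.{u}ᵒᵖ ⥤ Type u} (e : ∀ T : Scheme.{u}, F.obj (op T) ≃ G.obj (op T))
  (he : ∀ {T T' : Scheme.{u}} (g : T' ⟶ T) (ξ : F.obj (op T)),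
    G.map g.op (e T ξ) = e T' (F.map g.op ξ))

/-- the map `X i → G`. -/
noncomputable def fam (e : ∀ T : Scheme.{u}, F.obj (op T) ≃ G.obj (op T))
    (x : ∀ i, F.obj (op (X i))) (i : ι) : yoneda.obj (X i) ⟶ G :=
  yonedaEquiv.symm (e _ (x i))

include he in
theorem fam_app (i : ι) (T : Scheme.{u}) (a : T ⟶ X i) :
    (fam e x i).app (op T) a = e T (F.map a.op (x i)) := by
  rw [fam, ← he]
  exact yonedaEquiv_symm_app_apply _ _ _

include he in
theorem fam_presheaf (hF : Presheaf.IsSheaf Scheme.zariskiTopology F)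
    (h1 : ∀ i (B : CommRingCat.{u}) (a b : Spec B ⟶ X i),
      F.map a.op (x i) = F.map b.op (x i) → a = b)
    (h2 : ∀ i (B : CommRingCat.{u}) (ξ : F.obj (op (Spec B))), ∃ W : (Spec B).Opens,
      ∀ (B' : CommRingCat.{u}) (g : Spec B' ⟶ Spec B),
        (∃ a : Spec B' ⟶ X i, F.map a.op (x i) = F.map g.op ξ) ↔ Set.range g ⊆ W) (i : ι) :
    IsOpenImmersion.presheaf (fam e x i) := by
  refine MorphismProperty.relative.of_exists fun T g => ?_
  obtain ⟨ξ, hξ⟩ := (e T).surjective (yonedaEquiv g)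
  have hg : ∀ {T' : Scheme.{u}} (b : T' ⟶ T), g.app (op T') b = e T' (F.map b.op ξ) := by
    intro T' b
    rw [← he, hξ]
    exact (yonedaEquiv_naturality' _ _).symm
  obtain ⟨a, ha⟩ := good_big hF (h1 i) ξ
  refine ⟨(big (X i) (x i) ξ).toScheme, yoneda.map a, (big (X i) (x i) ξ).ι, ?_, inferInstance⟩
  refine IsPullback.of_forall_isPullback_app fun T' => ?_
  rw [Types.isPullback_iff]
  refine ⟨?_, ?_, ?_⟩
  · ext b
    change (fam e x i).app T' (b ≫ a) = g.app T' (b ≫ (big (X i) (x i) ξ).ι)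
    have h4 := fam_app e he (x := x) i T'.unop (b ≫ a)
    have h5 := hg (T' := T'.unop) (b ≫ (big (X i) (x i) ξ).ι)
    refine h4.trans (Eq.trans ?_ h5.symm)
    rw [← map_map, ← map_map, ha]
  · rintro b b' ⟨-, h⟩
    exact (cancel_mono (big (X i) (x i) ξ).ι).mp h
  · intro (b : T'.unop ⟶ X i) (c : T'.unop ⟶ T) hbc
    have h4 := fam_app e he (x := x) i T'.unop b
    have h5 := hg (T' := T'.unop) c
    have h6 : F.map (Quiver.Hom.op b) (x i) = F.map (Quiver.Hom.op c) ξ :=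
      (e T'.unop).injective (h4.symm.trans (hbc.trans h5))
    have h7 := (exists_lift_iff hF (h1 i) (h2 i) ξ c).mp ⟨b, h6⟩
    have h' : Set.range c ⊆ Set.range (big (X i) (x i) ξ).ι := by simpa using h7
    have h8 := IsOpenImmersion.lift_fac (big (X i) (x i) ξ).ι c h'
    refine ⟨IsOpenImmersion.lift (big (X i) (x i) ξ).ι c h', ?_, h8⟩
    refine uniq (h1 i) _ _ ?_
    change F.map (IsOpenImmersion.lift (big (X i) (x i) ξ).ι c h' ≫ a).op (x i) = _
    rw [← map_map, ha, map_map, h8, h6]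

include he in
theorem fam_surj
    (hF : Presheaf.IsSheaf Scheme.zariskiTopology F)
    (h1 : ∀ i (B : CommRingCat.{u}) (a b : Spec B ⟶ X i),
      F.map a.op (x i) = F.map b.op (x i) → a = b)
    (h2 : ∀ i (B : CommRingCat.{u}) (ξ : F.obj (op (Spec B))), ∃ W : (Spec B).Opens,
      ∀ (B' : CommRingCat.{u}) (g : Spec B' ⟶ Spec B),
        (∃ a : Spec B' ⟶ X i, F.map a.op (x i) = F.map g.op ξ) ↔ Set.range g ⊆ W)
    (h3 : ∀ (B : CommRingCat.{u}) (ξ : F.obj (op (Spec B))) (p : Spec B),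
      ∃ i, ∃ (K : CommRingCat.{u}) (g : Spec K ⟶ Spec B), p ∈ Set.range g ∧
        ∃ a : Spec K ⟶ X i, F.map a.op (x i) = F.map g.op ξ) :
    Presheaf.IsLocallySurjective Scheme.zariskiTopology (Sigma.desc (fam e x)) := by
  refine ⟨fun {T} s => ?_⟩
  obtain ⟨ξ, rfl⟩ := (e T).surjective s
  have hcov : TopologicalSpace.IsOpenCover (fun i => big (X i) (x i) ξ) := by
    rw [TopologicalSpace.IsOpenCover, eq_top_iff]
    intro t _
    obtain ⟨i, hi⟩ := exists_mem_big h2 h3 ξ t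
    exact TopologicalSpace.Opens.mem_iSup.mpr ⟨i, hi⟩
  refine GrothendieckTopology.superset_covering _ ?_
    (T.openCoverOfIsOpenCover _ hcov).mem_grothendieckTopology
  rw [Sieve.generate_le_iff]
  rintro _ _ ⟨i⟩
  obtain ⟨a, ha⟩ := good_big hF (h1 i) ξ
  refine ⟨(Sigma.ι (fun i => yoneda.obj (X i)) i).app _ a, ?_⟩
  have h4 := fam_app e he (x := x) i _ a
  have h5 : (Sigma.desc (fam e x)).app (op (big (X i) (x i) ξ).toScheme)
      ((Sigma.ι (fun i => yoneda.obj (X i)) i).app _ a) =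
      (fam e x i).app (op (big (X i) (x i) ξ).toScheme) a := by
    rw [← Sigma.ι_desc (fam e x) i]; rfl
  refine h5.trans (h4.trans ?_)
  rw [ha]
  exact (he _ _).symm

end Local

end Fam

end Rep

/-- **Representability of a Zariski sheaf**, tested on affine schemes. -/
theorem exists_representing (F : Scheme.{u}ᵒᵖ ⥤ Type (u + 1))
    (hF : Presheaf.IsSheaf Scheme.zariskiTopology F) {ι : Type u} (X : ι → Scheme.{u})
    (x : ∀ i, F.obj (op (X i)))
    (h1 : ∀ i (B : CommRingCat.{u}) (a b : Spec B ⟶ X i),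
      F.map a.op (x i) = F.map b.op (x i) → a = b)
    (h2 : ∀ i (B : CommRingCat.{u}) (ξ : F.obj (op (Spec B))), ∃ W : (Spec B).Opens,
      ∀ (B' : CommRingCat.{u}) (g : Spec B' ⟶ Spec B),
        (∃ a : Spec B' ⟶ X i, F.map a.op (x i) = F.map g.op ξ) ↔ Set.range g ⊆ W)
    (h3 : ∀ (B : CommRingCat.{u}) (ξ : F.obj (op (Spec B))) (p : Spec B),
      ∃ i, ∃ (K : CommRingCat.{u}) (g : Spec K ⟶ Spec B), p ∈ Set.range g ∧
        ∃ a : Spec K ⟶ X i, F.map a.op (x i) = F.map g.op ξ) :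
    ∃ (J : Scheme.{u}) (ξ : F.obj (op J)),
      (∀ T, Function.Bijective fun g : T ⟶ J => F.map g.op ξ) ∧
      ∃ j : ∀ i, X i ⟶ J, (∀ i, IsOpenImmersion (j i)) ∧ (∀ i, F.map (j i).op ξ = x i) ∧
        ∀ y : J, ∃ i, y ∈ Set.range (j i) := by
  have hsmall : ∀ T : Schemeᵒᵖ, Small.{u} (F.obj T) := fun T => Rep.small_obj hF h1 h2 h3 T.unop
  let G : Scheme.{u}ᵒᵖ ⥤ Type u := FunctorToTypes.shrink.{u} F
  let e : ∀ T : Scheme.{u}, F.obj (op T) ≃ G.obj (op T) := fun T => equivShrink _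
  have he : ∀ {T T' : Scheme.{u}} (g : T' ⟶ T) (ξ : F.obj (op T)),
      G.map g.op (e T ξ) = e T' (F.map g.op ξ) := by
    intro T T' g ξ
    change equivShrink _ (F.map g.op ((equivShrink _).symm (equivShrink _ ξ))) = _
    rw [Equiv.symm_apply_apply]
  have hG : Presheaf.IsSheaf Scheme.zariskiTopology G := by
    rw [isSheaf_iff_isSheaf_of_type] at hF ⊢
    exact (Presieve.isSheaf_iff_of_nat_equiv e (fun _ _ f ξ => (he f ξ).symm)).mp hF
  let G' : Sheaf Scheme.zariskiTopology.{u} (Type u) := ⟨G, hG⟩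
  let f : ∀ i, yoneda.obj (X i) ⟶ G'.1 := fun i => Rep.fam e x i
  have hf : ∀ i, IsOpenImmersion.presheaf (f i) := fun i => Rep.fam_presheaf e he hF h1 h2 i
  have hsurj : Presheaf.IsLocallySurjective Scheme.zariskiTopology (Sigma.desc f) :=
    Rep.fam_surj e he hF h1 h2 h3
  let J := (Scheme.LocalRepresentability.glueData hf).glued
  let R : G'.1.RepresentableBy J := Scheme.LocalRepresentability.representableBy hf
  have hR : ∀ {T : Scheme.{u}} (g : T ⟶ J), R.homEquiv g =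
      (Scheme.LocalRepresentability.yonedaGluedToSheaf hf).hom.app (op T) g := fun _ => rfl
  refine ⟨J, (e J).symm (R.homEquiv (𝟙 J)), fun T => ?_,
    Scheme.LocalRepresentability.toGlued hf, fun i => inferInstance, fun i => ?_, fun y => ?_⟩
  · have h4 : ∀ g : T ⟶ J, F.map g.op ((e J).symm (R.homEquiv (𝟙 J))) =
        (e T).symm (R.homEquiv g) := by
      intro g
      rw [Equiv.eq_symm_apply, ← he, Equiv.apply_symm_apply]
      exact (R.homEquiv_eq g).symm
    have h5 : (fun g : T ⟶ J => F.map g.op ((e J).symm (R.homEquiv (𝟙 J)))) =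
        (e T).symm ∘ R.homEquiv := funext h4
    rw [h5]
    exact (e T).symm.bijective.comp R.homEquiv.bijective
  · apply (e (X i)).injective
    rw [← he, Equiv.apply_symm_apply]
    refine (R.homEquiv_eq _).symm.trans ?_
    rw [hR]
    refine (Scheme.LocalRepresentability.yonedaGluedToSheaf_app_toGlued hf).trans ?_
    exact Equiv.apply_symm_apply _ _
  · obtain ⟨i, z, hz⟩ := (Scheme.LocalRepresentability.glueData hf).ι_jointly_surjective y
    exact ⟨i, z, hz⟩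

end Fermat.Agent.S25
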