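import Fermat.Agent.S25.Cl
import Fermat.Agent.S25.Rep
import Fermat.Agent.S25.H0Base

/-!
# S25: representability
-/

set_option autoImplicit false
set_option linter.unusedVariables false

universe u

open CategoryTheory CategoryTheory.Limits AlgebraicGeometry TopologicalSpace Opposite
open AlgebraicGeometry.RelPicard NeronModelInfra

noncomputable section

namespace Fermat.Agent.S25

variable {k : Type u} [Field k] {C : Scheme.{u}} {c : C ⟶ Spec (CommRingCat.of k)}
  {ε : SchemeHomOver (𝟙 (Spec (CommRingCat.of k))) c} {G : CurveGeom c ε}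

section aux

variable {A : Type u} [CommRing A]

/-- the open subscheme of `Spec A` -/
abbrev zOf (W : Opens (PrimeSpectrum A)) : (Spec (CommRingCat.of A)).Opens := W

lemma PicObj.map_map {P : SubPicCondition c ε} {T T' T'' : Scheme.{u}} (f : T'' ⟶ T')
    (g : T' ⟶ T) (x : PicObj P T) : PicObj.map f (PicObj.map g x) = PicObj.map (f ≫ g) x := by
  have := (picFunctor P).map_comp g.op f.op
  exact (congr($this x)).symm

end aux

namespace CurveGeom

/-- The algebra structure attached to a structure morphism -/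
lemma exists_algebra {B : CommRingCat.{u}} (t : Spec B ⟶ Spec (CommRingCat.of k)) :
    ∃ _ : Algebra k B, t = tB k B := by
  let a : Algebra k B := (Spec.preimage t).hom.toAlgebra
  exact ⟨a, (Spec.map_preimage t).symm⟩

lemma exists_algHom' {A B : Type u} [CommRing A] [Algebra k A] [CommRing B] [Algebra k B]
    (g : Spec (CommRingCat.of B) ⟶ Spec (CommRingCat.of A)) (h : g ≫ tB k A = tB k B) :
    ∃ φ : A →ₐ[k] B, g = Spec.map (CommRingCat.ofHom φ.toRingHom) := by
  obtain ⟨φ, hφ⟩ := exists_algHom (k := k) ⟨g, h⟩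
  exact ⟨φ, congrArg Subtype.val hφ⟩

variable (X : ChartData G.𝒟)

/-- the charts -/
def Z (i : X.ι) : Scheme.{u} := (zOf (X.W i)).toScheme

/-- the inclusion of the charts -/
def zι (i : X.ι) : Z X i ⟶ Spec (CommRingCat.of (X.A i)) := (zOf (X.W i)).ι

instance (i : X.ι) : IsOpenImmersion (zι X i) :=
  inferInstanceAs (IsOpenImmersion (zOf (X.W i)).ι)

lemma range_zι (i : X.ι) : Set.range (zι X i) = (X.W i : Set (PrimeSpectrum (X.A i))) :=
  Scheme.Opens.range_ι (zOf (X.W i))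

variable (hdeg : G.DegHyp)

/-- the universal classes over `Spec A` -/
def clA (i : X.ι) : PicObj (algEquivZeroCut c ε) (Spec (CommRingCat.of (X.A i))) :=
  (IsCl.exists_of_LB hdeg (X.rig i) (X.deg0 i)).choose

lemma isCl_clA (i : X.ι) : G.IsCl (clA X hdeg i) (X.D i) :=
  (IsCl.exists_of_LB hdeg (X.rig i) (X.deg0 i)).choose_spec

/-- the universal classes over the charts -/
def clZ (i : X.ι) : PicObj (algEquivZeroCut c ε) (Z X i) :=
  PicObj.map (zι X i) (clA X hdeg i)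

/-- morphisms to the charts -/
lemma exists_lift {B : Type u} [CommRing B] [Algebra k B] (i : X.ι)
    {x : PicObj (algEquivZeroCut c ε) (Spec (CommRingCat.of B))} {E : LB G.𝒟.toTwoChart B}
    (hx : G.IsCl x E) : (∃ a : Spec (CommRingCat.of B) ⟶ Z X i,
      PicObj.map a (clZ X hdeg i) = x) ↔
      ∃ a : X.A i →ₐ[k] B, Set.range (PrimeSpectrum.comap a.toRingHom) ⊆ X.W i ∧
        Nonempty (LB.BC a (X.D i) E) := by
  constructor
  · rintro ⟨a, ha⟩
    rw [clZ, PicObj.map_map] at ha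
    have h1 : (a ≫ zι X i) ≫ tB k (X.A i) = tB k B := by
      have h2 := congrArg Sigma.fst ha
      rw [PicObj.map_fst, (isCl_clA X hdeg i).fst, hx.fst] at h2
      exact h2
    obtain ⟨φ, hφ⟩ := exists_algHom' _ h1
    refine ⟨φ, ?_, ?_⟩
    · rintro _ ⟨p, rfl⟩
      have h3 : (a ≫ zι X i) p ∈ Set.range (zι X i) := ⟨a p, rfl⟩
      rw [hφ, range_zι] at h3
      exact h3
    · have b := (X.D i).bcBaseChange φ
      rw [hφ] at ha
      have h4 := (isCl_clA X hdeg i).map b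
      rw [ha] at h4
      obtain ⟨e⟩ := h4.unique hx
      exact ⟨b.trans_iso e⟩
  · rintro ⟨φ, hφ, ⟨b⟩⟩
    have hrange : Set.range (Spec.map (CommRingCat.ofHom φ.toRingHom)) ⊆
        Set.range (zι X i) := by
      rw [range_zι]
      exact hφ
    refine ⟨IsOpenImmersion.lift (zι X i) (Spec.map (CommRingCat.ofHom φ.toRingHom))
      hrange, ?_⟩
    rw [clZ, PicObj.map_map, IsOpenImmersion.lift_fac]
    exact ((isCl_clA X hdeg i).map b).eq hx

theorem rep_h1 (i : X.ι) (B : CommRingCat.{u}) (a b : Spec B ⟶ Z X i)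
    (h : PicObj.map a (clZ X hdeg i) = PicObj.map b (clZ X hdeg i)) : a = b := by
  rw [← cancel_mono (zι X i)]
  rw [clZ, PicObj.map_map, PicObj.map_map] at h
  obtain ⟨_, ht⟩ := exists_algebra ((a ≫ zι X i) ≫ tB k (X.A i))
  have ht' : (b ≫ zι X i) ≫ tB k (X.A i) = tB k B := by
    have h2 := congrArg Sigma.fst h
    rw [PicObj.map_fst, PicObj.map_fst, (isCl_clA X hdeg i).fst] at h2
    rw [← ht, h2]
  obtain ⟨φ, hφ⟩ := exists_algHom' _ ht
  obtain ⟨ψ, hψ⟩ := exists_algHom' _ ht'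
  have hr : ∀ (a : Spec B ⟶ Z X i) (φ : X.A i →ₐ[k] B),
      a ≫ zι X i = Spec.map (CommRingCat.ofHom φ.toRingHom) →
      Set.range (PrimeSpectrum.comap φ.toRingHom) ⊆ X.W i := by
    rintro a φ hφ _ ⟨p, rfl⟩
    have h3 : (a ≫ zι X i) p ∈ Set.range (zι X i) := ⟨a p, rfl⟩
    rw [hφ, range_zι] at h3
    exact h3
  have hφψ : φ = ψ := by
    have b1 := (X.D i).bcBaseChange φ
    have b2 := (X.D i).bcBaseChange ψ
    have c1 := (isCl_clA X hdeg i).map b1
    have c2 := (isCl_clA X hdeg i).map b2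
    have h' := h
    rw [hφ, hψ] at h'
    rw [← h'] at c2
    obtain ⟨e⟩ := c2.unique c1
    exact X.inj i B φ ψ _ (hr a φ hφ) (hr b ψ hψ) b1 (b2.trans_iso e)
  rw [hφ, hψ, hφψ]

theorem rep_h2 (i : X.ι) (B : CommRingCat.{u})
    (x : PicObj (algEquivZeroCut c ε) (Spec B)) : ∃ W : (Spec B).Opens,
      ∀ (B' : CommRingCat.{u}) (g : Spec B' ⟶ Spec B),
        (∃ a : Spec B' ⟶ Z X i, PicObj.map a (clZ X hdeg i) = PicObj.map g x) ↔
          Set.range g ⊆ W := by
  obtain ⟨_, ht⟩ := exists_algebra x.1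
  obtain ⟨E, hE⟩ := IsCl.exists_LB (G := G) ht
  obtain ⟨U, hU⟩ := X.exists_open i B E hE.rig (hE.fibDeg0 hdeg)
  refine ⟨U, fun B' g ↦ ?_⟩
  obtain ⟨_, ht'⟩ := exists_algebra (g ≫ tB k B)
  obtain ⟨φ, hφ⟩ := exists_algHom' _ ht'
  have b := E.bcBaseChange φ
  have h1 := hE.map b
  rw [hφ]
  exact (exists_lift X hdeg i h1).trans (hU B' φ _ b)

theorem rep_h3 (B : CommRingCat.{u}) (x : PicObj (algEquivZeroCut c ε) (Spec B)) (p : Spec B) :
    ∃ i, ∃ (K : CommRingCat.{u}) (g : Spec K ⟶ Spec B), p ∈ Set.range g ∧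
      ∃ a : Spec K ⟶ Z X i, PicObj.map a (clZ X hdeg i) = PicObj.map g x := by
  obtain ⟨_, ht⟩ := exists_algebra x.1
  obtain ⟨E, hE⟩ := IsCl.exists_LB (G := G) ht
  let q : PrimeSpectrum B := p
  let κ := q.asIdeal.ResidueField
  let φ : B →ₐ[k] κ := IsScalarTower.toAlgHom k B κ
  have b := E.bcBaseChange φ
  obtain ⟨K', _, _, g, E', b', i, a, ha⟩ := X.cover κ _ ((hE.fibDeg0 hdeg).bc b)
  have b2 := b.comp b'
  have h1 := hE.map b2
  refine ⟨i, CommRingCat.of K', Spec.map (CommRingCat.ofHom (g.comp φ).toRingHom), ?_,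
    (exists_lift X hdeg i h1).mpr ⟨a, ha⟩⟩
  refine ⟨(⊥ : PrimeSpectrum K'), ?_⟩
  change PrimeSpectrum.comap (g.comp φ).toRingHom ⊥ = q
  ext y
  change g (φ y) ∈ (⊥ : Ideal K') ↔ y ∈ q.asIdeal
  rw [Ideal.mem_bot, map_eq_zero_iff g g.toRingHom.injective]
  exact Ideal.algebraMap_residueField_eq_zero

include hdeg in
/-- **Representability**. -/
theorem exists_rep : ∃ (J : Scheme.{u}) (ξ : PicObj (algEquivZeroCut c ε) J),
      (∀ T, Function.Bijective fun g : T ⟶ J => PicObj.map g ξ) ∧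
      ∃ j : ∀ i, Z X i ⟶ J, (∀ i, IsOpenImmersion (j i)) ∧
        (∀ i, PicObj.map (j i) ξ = clZ X hdeg i) ∧ ∀ y : J, ∃ i, y ∈ Set.range (j i) := by
  exact exists_representing (picFunctor (algEquivZeroCut c ε))
    (picFunctor_isSheaf (fun t T' ↦ snd_app_bijective G t T') _ isZarLocal_algEquivZeroCut)
    (Z X) (clZ X hdeg) (rep_h1 X hdeg) (rep_h2 X hdeg) (rep_h3 X hdeg)

end CurveGeom

end Fermat.Agent.S25
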