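import Fermat.Agent.S25.PicSheaf
import Fermat.Agent.S25.DegIff
import Fermat.Agent.S25.RigLB
import Fermat.Agent.S25.OfLB
import Fermat.Agent.S25.ChartData

/-!
# S25: the functor on affine schemes in terms of `LB`
-/

set_option autoImplicit false
set_option linter.unusedVariables false

universe u

open CategoryTheory CategoryTheory.Limits AlgebraicGeometry TopologicalSpace Opposite
open AlgebraicGeometry.RelPicard NeronModelInfra

noncomputable section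

namespace Fermat.Agent.S25

variable {k : Type u} [Field k] {C : Scheme.{u}} {c : C ⟶ Spec (CommRingCat.of k)}
  {ε : SchemeHomOver (𝟙 (Spec (CommRingCat.of k))) c} (G : CurveGeom c ε)

namespace CurveGeom

/-- line bundles of degree zero over algebraically closed fields are algebraically equivalent
to zero -/
def DegHyp : Prop :=
  ∀ (K : Type u) [Field K] [IsAlgClosed K] [Algebra k K] (L : (XB c K).Modules)
    (hL : Scheme.Modules.IsInvertible L),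
    (G.toLB L hL).chi = (LB.triv G.𝒟.toTwoChart K).chi → IsAlgEquivZero (qB c K) L

variable {B B' : Type u} [CommRing B] [Algebra k B] [CommRing B'] [Algebra k B']

/-- the class `x` corresponds to `D`. -/
def IsCl (x : PicObj (algEquivZeroCut c ε) (Spec (CommRingCat.of B)))
    (D : LB G.𝒟.toTwoChart B) : Prop :=
  ∃ (M : RigidifiedLineBundle c ε (tB k B)) (hM : (algEquivZeroCut c ε).P _ M),
    PicObj.mk _ M hM = x ∧ Nonempty ((G.toLB M.L M.isInvertible).Iso D)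

variable {G}

lemma toLB_LBat (M : RigidifiedLineBundle c ε (tB k B)) (g : SchemeHomOver (tB k B) (tB k B))
    (hg : g.1 = 𝟙 _) : Nonempty ((Deg.LBat G M.L M.isInvertible g).Iso
      (G.toLB M.L M.isInvertible)) :=
  G.toLB_iso _ _ (PicObj.pullbackAlongId M g hg)

lemma exists_algHom (g : SchemeHomOver (tB k B') (tB k B)) : ∃ φ : B →ₐ[k] B',
    g = specHom B φ := by
  have h1 : Spec.map (Spec.preimage g.1) = g.1 := Spec.map_preimage _
  have h2 : CommRingCat.ofHom (algebraMap k B) ≫ Spec.preimage g.1 =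
      CommRingCat.ofHom (algebraMap k B') := by
    apply Spec.map_injective
    rw [Spec.map_comp, h1]
    exact g.2
  refine ⟨⟨(Spec.preimage g.1).hom, fun x ↦ congr($(congrArg CommRingCat.Hom.hom h2) x)⟩, ?_⟩
  apply Subtype.ext
  exact h1.symm

lemma mem_iff (hdeg : G.DegHyp) (M : RigidifiedLineBundle c ε (tB k B)) :
    (algEquivZeroCut c ε).P _ M ↔ (G.toLB M.L M.isInvertible).FibDeg0 := by
  change FibrewiseAlgEquivZero M ↔ _
  rw [Deg.fibrewiseAlgEquivZero_iff_of G hdeg]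
  constructor
  · intro h
    obtain ⟨e⟩ := toLB_LBat (G := G) M ⟨𝟙 _, Category.id_comp _⟩ rfl
    exact (h B ⟨𝟙 _, Category.id_comp _⟩).iso e
  · intro h B' _ _ g
    obtain ⟨φ, rfl⟩ := exists_algHom g
    exact h.bc (G.toLB_BC φ M.L M.isInvertible)

lemma exists_rlb (D : LB G.𝒟.toTwoChart B) (hR : D.Rig (𝒞 := G.𝒟)) :
    ∃ (M : RigidifiedLineBundle c ε (tB k B)),
      Nonempty ((G.toLB M.L M.isInvertible).Iso D) := by
  obtain ⟨L, hL, ⟨e⟩⟩ := G.exists_sheaf D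
  exact ⟨⟨L, hL, (G.rig_iff L hL).mp (hR.iso e.symm)⟩, ⟨e⟩⟩

lemma rig_toLB (M : RigidifiedLineBundle c ε (tB k B)) :
    (G.toLB M.L M.isInvertible).Rig (𝒞 := G.𝒟) :=
  (G.rig_iff M.L M.isInvertible).mpr M.rigidified

namespace IsCl

variable {x y : PicObj (algEquivZeroCut c ε) (Spec (CommRingCat.of B))}
  {D D' : LB G.𝒟.toTwoChart B}

lemma exists_of_LB (hdeg : G.DegHyp) (hR : D.Rig (𝒞 := G.𝒟)) (h0 : D.FibDeg0) :
    ∃ x, G.IsCl x D := by
  obtain ⟨M, ⟨e⟩⟩ := exists_rlb D hR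
  exact ⟨_, M, (mem_iff hdeg M).mpr (h0.iso e.symm), rfl, ⟨e⟩⟩

lemma exists_LB (hx : x.1 = tB k B) : ∃ D, G.IsCl x D := by
  obtain ⟨t, M, hM, rfl⟩ := x.exists_mk
  obtain rfl : t = tB k B := hx
  exact ⟨_, M, hM, rfl, ⟨.refl _⟩⟩

lemma rig (h : G.IsCl x D) : D.Rig (𝒞 := G.𝒟) := by
  obtain ⟨M, hM, rfl, ⟨e⟩⟩ := h
  exact (rig_toLB M).iso e

lemma fibDeg0 (hdeg : G.DegHyp) (h : G.IsCl x D) : D.FibDeg0 := by
  obtain ⟨M, hM, rfl, ⟨e⟩⟩ := h
  exact ((mem_iff hdeg M).mp hM).iso e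

lemma fst (h : G.IsCl x D) : x.1 = tB k B := by
  obtain ⟨M, hM, rfl, -⟩ := h
  rfl

lemma iso (h : G.IsCl x D) (e : D.Iso D') : G.IsCl x D' := by
  obtain ⟨M, hM, rfl, ⟨e'⟩⟩ := h
  exact ⟨M, hM, rfl, ⟨e'.trans e⟩⟩

lemma unique (h : G.IsCl x D) (h' : G.IsCl x D') : Nonempty (D.Iso D') := by
  obtain ⟨M, hM, rfl, ⟨e⟩⟩ := h
  obtain ⟨M', hM', h1, ⟨e'⟩⟩ := h'
  rw [PicObj.mk_eq_mk_iff] at h1
  obtain ⟨i⟩ := h1
  obtain ⟨f⟩ := G.toLB_iso M'.isInvertible M.isInvertible i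
  exact ⟨e.symm.trans (f.symm.trans e')⟩

lemma eq (h : G.IsCl x D) (h' : G.IsCl y D) : x = y := by
  obtain ⟨M, hM, rfl, ⟨e⟩⟩ := h
  obtain ⟨M', hM', rfl, ⟨e'⟩⟩ := h'
  rw [PicObj.mk_eq_mk_iff]
  exact G.iso_of_toLB_iso _ _ (e.trans e'.symm)

lemma map (h : G.IsCl x D) {φ : B →ₐ[k] B'} {E : LB G.𝒟.toTwoChart B'} (b : LB.BC φ D E) :
    G.IsCl (PicObj.map (Spec.map (CommRingCat.ofHom φ.toRingHom)) x) E := by
  obtain ⟨M, hM, rfl, ⟨e⟩⟩ := h
  refine ⟨M.pullbackAlong (specHom B φ), (algEquivZeroCut c ε).pullback_mem _ _ _ _ hM, ?_, ?_⟩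
  · exact (PicObj.map_mk' _ _ _ _ (specHom B φ).2).symm
  · exact ⟨LB.BC.iso e (G.toLB_BC φ M.L M.isInvertible) b⟩

lemma eq_of_iso (h : G.IsCl x D) (h' : G.IsCl y D') (e : Nonempty (D.Iso D')) : x = y := by
  obtain ⟨e⟩ := e
  exact (h.iso e).eq h'

end IsCl

end CurveGeom

end Fermat.Agent.S25
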