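import Mathlib
import Fermat.Agent.S25.DegMain
import Fermat.Agent.S25.Cl

/-!
# S25 / DEG: the hypothesis `G.DegHyp`
-/

set_option autoImplicit false

universe u

open CategoryTheory CategoryTheory.Limits AlgebraicGeometry
open NeronModelInfra AlgebraicGeometry.RelPicard

namespace Fermat.Agent.S25

/-- line bundles of degree zero over algebraically closed fields are algebraically equivalent
to zero -/
theorem CurveGeom.degHyp {k : Type u} [Field k] {C : Scheme.{u}}
    {c : C ⟶ Spec (CommRingCat.of k)} {ε : SchemeHomOver (𝟙 (Spec (CommRingCat.of k))) c}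
    (G : CurveGeom c ε) : G.DegHyp :=
  fun _ _ _ _ _ hL h ↦ Deg.isAlgEquivZero_of_chi G hL h

end Fermat.Agent.S25
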