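import Fermat.Agent.S25.GlueMod
import Fermat.Agent.S25.Asc

/-!
# S25: local generators of invertible sheaves, local morphisms
-/

set_option autoImplicit false
set_option linter.unusedVariables false

universe u

open CategoryTheory CategoryTheory.Limits AlgebraicGeometry TopologicalSpace Opposite

noncomputable section

namespace Fermat.Agent.S25

open AlgebraicGeometry.Scheme.Modules GlueMod

variable {X Y Z : Scheme.{u}}

/-- `e` generates `P` freely over `W`. -/
def IsGen (P : X.Modules) {W : X.Opens} (e : Γ(P, W)) : Prop :=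
  ∀ W' (h : W' ≤ W), Function.Bijective fun a : Γ(X, W') ↦ a • res P h e

lemma IsGen.res {P : X.Modules} {W : X.Opens} {e : Γ(P, W)} (he : IsGen P e) {W' : X.Opens}
    (h : W' ≤ W) : IsGen P (res P h e) := by
  intro W'' h'
  simp only [res_res]
  exact he W'' _

lemma IsGen.exists_smul {P : X.Modules} {W : X.Opens} {e : Γ(P, W)} (he : IsGen P e)
    (x : Γ(P, W)) : ∃ a : Γ(X, W), a • e = x := by
  obtain ⟨a, ha⟩ := (he W le_rfl).2 x
  exact ⟨a, by simpa [res_self] using ha⟩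

lemma IsGen.smul_inj {P : X.Modules} {W : X.Opens} {e : Γ(P, W)} (he : IsGen P e)
    {a b : Γ(X, W)} (h : a • e = b • e) : a = b := by
  apply (he W le_rfl).1
  simpa [res_self] using h

lemma rX_self {W : X.Opens} (h : W ≤ W) (a : Γ(X, W)) : rX h a = a := by
  have : X.presheaf.map (homOfLE h).op = 𝟙 _ := X.presheaf.map_id _
  exact congr(($this).hom a)

lemma res_smul' (M : X.Modules) {U V : X.Opens} (h : U ≤ V) (r : Γ(X, V)) (x : Γ(M, V)) :
    res M h (r • x) = rX h r • res M h x := res_smul M h r x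

/-- sections of the structure sheaf form a sheaf -/
lemma secX_ext {V : X.Opens} {s t : Γ(X, V)}
    (h : ∀ x ∈ V, ∃ (W : X.Opens) (hW : W ≤ V), x ∈ W ∧ rX hW s = rX hW t) : s = t :=
  sec_ext (SheafOfModules.unit X.ringCatSheaf : X.Modules) (s := s) (t := t) h

lemma secX_glue {P : X.Opens → Prop} (hP : IsBas P) {V : X.Opens}
    (s : ∀ W, W ≤ V → P W → Γ(X, W))
    (hs : ∀ (U W : X.Opens) (hUV : U ≤ V) (hU : P U) (hWV : W ≤ V) (hW : P W) (h : U ≤ W),
      rX h (s W hWV hW) = s U hUV hU) :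
    ∃ t : Γ(X, V), ∀ (W : X.Opens) (h : W ≤ V) (hW : P W), rX h t = s W h hW :=
  sec_glue (SheafOfModules.unit X.ringCatSheaf : X.Modules) hP s hs

lemma IsGen.of_isUnit_smul {P : X.Modules} {W : X.Opens} {e : Γ(P, W)} (he : IsGen P e)
    {a : Γ(X, W)} (ha : IsUnit a) : IsGen P (a • e) := by
  intro W' h
  have h1 : (fun b : Γ(X, W') ↦ b • Fermat.Agent.S25.res P h (a • e)) =
      (fun b : Γ(X, W') ↦ b • Fermat.Agent.S25.res P h e) ∘ fun b ↦ b * rX h a := by
    ext b
    simp only [Function.comp_apply, res_smul', smul_smul]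
  rw [h1]
  obtain ⟨u, hu⟩ := ha.map (rX h)
  refine (he W' h).comp ⟨fun x y hxy ↦ ?_, fun y ↦ ⟨y * ↑u⁻¹, ?_⟩⟩
  · simp only [← hu] at hxy
    exact u.mul_left_inj.mp hxy
  · simp [← hu, mul_assoc]

namespace LocHom

variable {P Q R : X.Modules} {V : X.Opens}

@[ext]
lemma ext' {φ ψ : LocHom V P Q} (h : ∀ W hW x, φ.app W hW x = ψ.app W hW x) : φ = ψ := by
  cases φ; cases ψ
  congr
  ext W hW x
  exact h W hW x

/-- bijective local morphisms -/
def Bij (φ : LocHom V P Q) : Prop := ∀ W h, Function.Bijective (φ.app W h)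

/-- restriction of a local morphism -/
def restr (φ : LocHom V P Q) {V' : X.Opens} (h : V' ≤ V) : LocHom V' P Q where
  app W hW := φ.app W (hW.trans h)
  smul W hW := φ.smul W (hW.trans h)
  res U W h₁ h₂ := φ.res U W h₁ (h₂.trans h)

@[simp] lemma restr_app (φ : LocHom V P Q) {V' : X.Opens} (h : V' ≤ V) (W : X.Opens) (hW : W ≤ V')
    (x : Γ(P, W)) : (φ.restr h).app W hW x = φ.app W (hW.trans h) x := rfl

lemma Bij.restr {φ : LocHom V P Q} (hφ : φ.Bij) {V' : X.Opens} (h : V' ≤ V) : (φ.restr h).Bij :=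
  fun W hW ↦ hφ W (hW.trans h)

/-- composition -/
def comp (ψ : LocHom V Q R) (φ : LocHom V P Q) : LocHom V P R where
  app W hW := (ψ.app W hW).comp (φ.app W hW)
  smul W hW r x := by simp [φ.smul, ψ.smul]
  res U W h₁ h₂ x := by simp [φ.res U W h₁ h₂, ψ.res U W h₁ h₂]

@[simp] lemma comp_app (ψ : LocHom V Q R) (φ : LocHom V P Q) (W : X.Opens) (hW : W ≤ V)
    (x : Γ(P, W)) : (ψ.comp φ).app W hW x = ψ.app W hW (φ.app W hW x) := rfl

lemma Bij.comp {ψ : LocHom V Q R} {φ : LocHom V P Q} (hψ : ψ.Bij) (hφ : φ.Bij) :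
    (ψ.comp φ).Bij := fun W h ↦ (hψ W h).comp (hφ W h)

variable (V P) in
/-- identity -/
def id : LocHom V P P where
  app W hW := AddMonoidHom.id _
  smul W hW r x := rfl
  res U W h₁ h₂ x := rfl

@[simp] lemma id_app (W : X.Opens) (hW : W ≤ V) (x : Γ(P, W)) :
    (LocHom.id P V).app W hW x = x := rfl

/-- inverse of a bijective local morphism -/
def symm (φ : LocHom V P Q) (hφ : φ.Bij) : LocHom V Q P where
  app W hW := (AddEquiv.ofBijective (φ.app W hW) (hφ W hW)).symm.toAddMonoidHom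
  smul W hW r x := by
    apply (hφ W hW).1
    rw [φ.smul]
    have h1 : ∀ y, φ.app W hW ((AddEquiv.ofBijective (φ.app W hW) (hφ W hW)).symm y) = y :=
      fun y ↦ (AddEquiv.ofBijective (φ.app W hW) (hφ W hW)).apply_symm_apply y
    exact (h1 _).trans (congrArg (r • ·) (h1 _)).symm
  res U W h₁ h₂ x := by
    apply (hφ U (h₁.trans h₂)).1
    rw [φ.res U W h₁ h₂]
    have h1 : ∀ U hU y, φ.app U hU ((AddEquiv.ofBijective (φ.app U hU) (hφ U hU)).symm y) = y :=
      fun U hU y ↦ (AddEquiv.ofBijective (φ.app U hU) (hφ U hU)).apply_symm_apply y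
    exact (h1 U (h₁.trans h₂) _).trans (congrArg (Fermat.Agent.S25.res Q h₁) (h1 W h₂ x)).symm

@[simp] lemma app_symm (φ : LocHom V P Q) (hφ : φ.Bij) (W : X.Opens) (hW : W ≤ V)
    (x : Γ(Q, W)) : φ.app W hW ((φ.symm hφ).app W hW x) = x :=
  (AddEquiv.ofBijective (φ.app W hW) (hφ W hW)).apply_symm_apply x

@[simp] lemma symm_app_app (φ : LocHom V P Q) (hφ : φ.Bij) (W : X.Opens) (hW : W ≤ V)
    (x : Γ(P, W)) : (φ.symm hφ).app W hW (φ.app W hW x) = x :=
  (AddEquiv.ofBijective (φ.app W hW) (hφ W hW)).symm_apply_apply x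

lemma bij_symm (φ : LocHom V P Q) (hφ : φ.Bij) : (φ.symm hφ).Bij :=
  fun W hW ↦ (AddEquiv.ofBijective (φ.app W hW) (hφ W hW)).symm.bijective

variable (V) in
/-- restriction of a global morphism -/
def ofHom (f : P ⟶ Q) : LocHom V P Q where
  app W hW := (f.app W).hom
  smul W hW r x := Hom.app_smul f r x
  res U W h₁ h₂ x := app_res f h₁ x

/-- multiplication by a function -/
def smulBy (w : Γ(X, V)) (φ : LocHom V P Q) : LocHom V P Q where
  app W hW := (DistribSMul.toAddMonoidHom Γ(Q, W) (rX hW w)).comp (φ.app W hW)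
  smul W hW r x := by
    simp only [AddMonoidHom.coe_comp, Function.comp_apply, DistribSMul.toAddMonoidHom_apply,
      φ.smul, smul_smul, mul_comm]
  res U W h₁ h₂ x := by
    simp only [AddMonoidHom.coe_comp, Function.comp_apply, DistribSMul.toAddMonoidHom_apply,
      φ.res U W h₁ h₂, res_smul', rX_rX]

@[simp] lemma smulBy_app (w : Γ(X, V)) (φ : LocHom V P Q) (W : X.Opens) (hW : W ≤ V)
    (x : Γ(P, W)) : (smulBy w φ).app W hW x = rX hW w • φ.app W hW x := rfl

lemma Bij.smulBy {w : Γ(X, V)} (hw : IsUnit w) {φ : LocHom V P Q} (hφ : φ.Bij) :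
    (smulBy w φ).Bij := fun W hW ↦ (hw.map (rX hW)).smul_bijective.comp (hφ W hW)

lemma isGen {φ : LocHom V P Q} (hφ : φ.Bij) {W : X.Opens} (hW : W ≤ V) {e : Γ(P, W)}
    (he : IsGen P e) : IsGen Q (φ.app W hW e) := by
  intro W' h
  have h1 : (fun a : Γ(X, W') ↦ a • Fermat.Agent.S25.res Q h (φ.app W hW e)) =
      (φ.app W' (h.trans hW)) ∘ fun a ↦ a • Fermat.Agent.S25.res P h e := by
    ext a
    simp only [Function.comp_apply, φ.smul, φ.res W' W h hW]
  rw [h1]
  exact (hφ _ _).comp (he W' h)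

end LocHom

end Fermat.Agent.S25
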