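import Fermat.Agent.S25.PbAff

set_option autoImplicit false

universe u

open CategoryTheory CategoryTheory.Limits AlgebraicGeometry TopologicalSpace

noncomputable section

namespace Fermat.Agent.S25

open AlgebraicGeometry.Scheme.Modules

variable {X Y Z : Scheme.{u}}

lemma pbUnit_openImmersion (j : X ⟶ Y) [IsOpenImmersion j] (L : Y.Modules) (V : Y.Opens)
    (x : Γ(L, V)) :
    pbUnit j L V x = ((restrictFunctorIsoPullback j).hom.app L).app (j ⁻¹ᵁ V)
      (res L (j.image_preimage_le V) x) := by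
  have h := Adjunction.unit_leftAdjointUniq_hom_app (restrictAdjunction j)
    (pullbackPushforwardAdjunction j) L
  exact congr(($h).app V x).symm

lemma res_bijective_of_eq (M : X.Modules) {U V : X.Opens} (h : U ≤ V) (h' : U = V) :
    Function.Bijective (res M h) := by
  subst h'
  have : res M h = AddMonoidHom.id _ := by ext x; exact res_self M h x
  rw [this]
  exact Function.bijective_id

lemma pbUnit_bijective (j : X ⟶ Y) [IsOpenImmersion j] (L : Y.Modules) (V : Y.Opens)
    (hV : V ≤ j.opensRange) : Function.Bijective (pbUnit j L V) := by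
  have h1 : (pbUnit j L V : _ → _) = (((restrictFunctorIsoPullback j).hom.app L).app (j ⁻¹ᵁ V)).hom ∘
      (res L (j.image_preimage_le V)) := by
    ext x
    exact pbUnit_openImmersion j L V x
  rw [h1]
  refine (app_bijective_of_isIso _ _).comp (res_bijective_of_eq _ _ ?_)
  rw [j.image_preimage_eq_opensRange_inf, inf_eq_right.mpr hV]

lemma pbSec_bijective (j : X ⟶ Y) [IsOpenImmersion j] (L : Y.Modules) (V : Y.Opens)
    (V' : X.Opens) (h : V' ≤ j ⁻¹ᵁ V) (hV : V ≤ j.opensRange) (h' : V' = j ⁻¹ᵁ V) :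
    Function.Bijective (pbSec j L V V' h) := by
  subst h'
  rw [pbSec_self]
  exact pbUnit_bijective j L V hV

lemma appLE_bijective (j : X ⟶ Y) [IsOpenImmersion j] (V : Y.Opens)
    (V' : X.Opens) (h : V' ≤ j ⁻¹ᵁ V) (hV : V ≤ j.opensRange) (h' : V' = j ⁻¹ᵁ V) :
    Function.Bijective (j.appLE V V' h).hom := by
  subst h'
  rw [appLE_self]
  have : IsIso (j.app V) := j.isIso_app V hV
  exact ConcreteCategory.bijective_of_isIso (j.app V)

set_option backward.isDefEq.respectTransparency.types false in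
instance isQuasicoherent_pullback_openImmersion (j : X ⟶ Y) [IsOpenImmersion j] (L : Y.Modules)
    [L.IsQuasicoherent] : ((Scheme.Modules.pullback j).obj L).IsQuasicoherent :=
  (SheafOfModules.isQuasicoherent X.ringCatSheaf).prop_of_iso
    ((restrictFunctorIsoPullback j).app L) (isQuasicoherent_restrictFunctor j L)

lemma pbSec_congr {f g : X ⟶ Y} (hfg : f = g) (L : Y.Modules) (V : Y.Opens) (V' : X.Opens)
    (h : V' ≤ f ⁻¹ᵁ V) (h' : V' ≤ g ⁻¹ᵁ V) (x : Γ(L, V)) :
    ((pullbackCongr hfg).hom.app L).app V' (pbSec f L V V' h x) = pbSec g L V V' h' x := by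
  subst hfg
  rfl

theorem isBC_pbSec (f : X ⟶ Y) (L : Y.Modules) [L.IsQuasicoherent] (V : Y.Opens)
    (hV : IsAffineOpen V) (V' : X.Opens) (hV' : IsAffineOpen V') (h : V' ≤ f ⁻¹ᵁ V) :
    IsBC (f.appLE V V' h).hom (pbSec f L V V' h) := by
  let j := hV.fromSpec
  let j' := hV'.fromSpec
  let F := Spec.map (f.appLE V V' h)
  have hj : ⊤ ≤ j ⁻¹ᵁ V := by simp [j]
  have hj' : ⊤ ≤ j' ⁻¹ᵁ V' := by simp [j']
  have hFj : j' ≫ f = F ≫ j := (hV.SpecMap_appLE_fromSpec f hV' h).symm
  let e : (Scheme.Modules.pullback j').obj ((Scheme.Modules.pullback f).obj L) ≅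
      (Scheme.Modules.pullback F).obj ((Scheme.Modules.pullback j).obj L) :=
    (pullbackComp j' f).app L ≪≫ (pullbackCongr hFj).app L ≪≫ ((pullbackComp F j).app L).symm
  refine IsBC.of_square (j.appLE V ⊤ hj).hom (j'.appLE V' ⊤ hj').hom (pbSec j L V ⊤ hj)
    ((e.hom.app ⊤).hom.comp (pbSec j' _ V' ⊤ hj')) ?_ ?_ ?_ ?_ (pbSec_smul _ _ _ _ _) ?_ ?_ ?_
    (isBC_spec (f.appLE V V' h) ((Scheme.Modules.pullback j).obj L))
  · exact appLE_bijective j V ⊤ hj (by simp [j]) (by simp [j])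
  · exact appLE_bijective j' V' ⊤ hj' (by simp [j']) (by simp [j'])
  · exact pbSec_bijective j L V ⊤ hj (by simp [j]) (by simp [j])
  · exact (app_bijective_of_isIso e.hom ⊤).comp
      (pbSec_bijective j' _ V' ⊤ hj' (by simp [j']) (by simp [j']))
  · intro r x
    have h1 := pbSec_smul j' ((Scheme.Modules.pullback f).obj L) V' ⊤ hj' r x
    have h2 := Hom.app_smul e.hom (U := ⊤) (j'.appLE V' ⊤ hj' r) (pbSec j' _ V' ⊤ hj' x)
    exact (congrArg (e.hom.app ⊤) h1).trans h2
  · rw [← CommRingCat.hom_comp, ← CommRingCat.hom_comp]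
    congr 1
    rw [Scheme.Hom.appLE_comp_appLE, Scheme.Hom.appLE_comp_appLE]
    simp only [hFj]
    rfl
  · ext x
    have h1 := pbSec_comp j' f L V V' ⊤ h hj' x
    have h2 := pbSec_comp F j L V ⊤ ⊤ hj le_rfl x
    have h3 := pbSec_congr hFj L V ⊤ (hj'.trans (j'.preimage_mono h))
      (by exact (le_rfl : (⊤ : (Spec _).Opens) ≤ ⊤).trans (F.preimage_mono hj)) x
    show e.hom.app ⊤ (pbSec j' _ V' ⊤ hj' (pbSec f L V V' h x)) =
      pbSec F ((Scheme.Modules.pullback j).obj L) ⊤ ⊤ le_rfl (pbSec j L V ⊤ hj x)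
    refine Eq.trans ?_ h2
    refine Eq.trans ?_ (congrArg (((pullbackComp F j).inv.app L).app ⊤) h3)
    refine (congrArg (e.hom.app ⊤) h1.symm).trans ?_
    have h4 : ((pullbackComp j' f).inv.app L) ≫ e.hom =
      (pullbackCongr hFj).hom.app L ≫ (pullbackComp F j).inv.app L := by
      simp only [e, Iso.trans_hom, Iso.app_hom, Iso.symm_hom, Iso.app_inv]
      exact Iso.inv_hom_id_app_assoc (pullbackComp j' f) L _
    exact congr(($h4).app ⊤ (pbSec (j' ≫ f) L V ⊤ (hj'.trans (j'.preimage_mono h)) x))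

end Fermat.Agent.S25
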