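import Fermat.Agent.S25.HomBasis
import Fermat.Agent.S25.PbOpen

/-!
# S25: gluing sheaves of modules

`LocHom V P Q`: morphisms `P|V → Q|V`, given on sections over opens `W ≤ V`.
`exists_glue_objects`: gluing of sheaves of modules along an open cover.
-/

set_option autoImplicit false

universe u

open CategoryTheory CategoryTheory.Limits AlgebraicGeometry TopologicalSpace Opposite

noncomputable section

namespace Fermat.Agent.S25

open AlgebraicGeometry.Scheme.Modules

variable {X : Scheme.{u}}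

/-- morphisms between the restrictions to an open `V` -/
structure LocHom (V : X.Opens) (P Q : X.Modules) where
  app : ∀ W, W ≤ V → (Γ(P, W) →+ Γ(Q, W))
  smul : ∀ W h (r : Γ(X, W)) (x : Γ(P, W)), app W h (r • x) = r • app W h x
  res : ∀ U W (h : U ≤ W) (h' : W ≤ V) (x : Γ(P, W)),
    app U (h.trans h') (res P h x) = res Q h (app W h' x)

namespace GlueMod

variable {ι : Type u} (V : ι → X.Opens) (P : ι → X.Modules)
  (φ : ∀ i j, LocHom (V i ⊓ V j) (P i) (P j))

/-- local sections -/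
def Sec (W : X.Opens) (i : ι) : Type u := Γ(P i, W ⊓ V i)

instance (W : X.Opens) (i : ι) : AddCommGroup (Sec V P W i) :=
  inferInstanceAs (AddCommGroup Γ(P i, W ⊓ V i))

instance (W : X.Opens) (i : ι) : Module Γ(X, W ⊓ V i) (Sec V P W i) :=
  inferInstanceAs (Module Γ(X, W ⊓ V i) Γ(P i, W ⊓ V i))

/-- restriction of functions -/
abbrev rX {U W : X.Opens} (h : U ≤ W) : Γ(X, W) →+* Γ(X, U) := (X.presheaf.map (homOfLE h).op).hom

lemma rX_rX {U W W' : X.Opens} (h : U ≤ W) (h' : W ≤ W') (r : Γ(X, W')) :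
    rX h (rX h' r) = rX (h.trans h') r := by
  have : X.presheaf.map (homOfLE h').op ≫ X.presheaf.map (homOfLE h).op =
    X.presheaf.map (homOfLE (h.trans h')).op := by
    rw [← Functor.map_comp]; rfl
  exact congr(($this).hom r)

instance (W : X.Opens) (i : ι) : Module Γ(X, W) (Sec V P W i) :=
  Module.compHom _ (rX (inf_le_left : W ⊓ V i ≤ W))

lemma smul_def (W : X.Opens) (i : ι) (r : Γ(X, W)) (x : Sec V P W i) :
    r • x = (rX (inf_le_left : W ⊓ V i ≤ W) r • (show Γ(P i, W ⊓ V i) from x) :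
      Γ(P i, W ⊓ V i)) := rfl

/-- compatible families -/
def GS (W : X.Opens) : Submodule Γ(X, W) (Π i, Sec V P W i) where
  carrier := {s | ∀ i j, (φ i j).app (W ⊓ (V i ⊓ V j)) inf_le_right
    (res (P i) (inf_le_inf_left W inf_le_left) (s i)) =
    res (P j) (inf_le_inf_left W inf_le_right) (s j)}
  add_mem' := by
    intro s t hs ht i j
    have h1 := hs i j
    have h2 := ht i j
    simp only [Pi.add_apply]
    erw [map_add (res (P i) (inf_le_inf_left W (inf_le_left : V i ⊓ V j ≤ V i))),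
      map_add (res (P j) (inf_le_inf_left W (inf_le_right : V i ⊓ V j ≤ V j))), map_add]
    rw [h1, h2]
  zero_mem' := by
    intro i j
    simp only [Pi.zero_apply]
    erw [map_zero (res (P i) (inf_le_inf_left W (inf_le_left : V i ⊓ V j ≤ V i))),
      map_zero (res (P j) (inf_le_inf_left W (inf_le_right : V i ⊓ V j ≤ V j))), map_zero]
  smul_mem' := by
    intro r s hs i j
    have h1 := hs i j
    change (φ i j).app _ _ (res (P i) _ (rX (inf_le_left : W ⊓ V i ≤ W) r •
        (show Γ(P i, W ⊓ V i) from s i) : Γ(P i, W ⊓ V i))) =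
      res (P j) _ (rX (inf_le_left : W ⊓ V j ≤ W) r •
        (show Γ(P j, W ⊓ V j) from s j) : Γ(P j, W ⊓ V j))
    rw [res_smul, res_smul, (φ i j).smul, h1]
    have e1 := rX_rX (inf_le_inf_left W (inf_le_left : V i ⊓ V j ≤ V i)) inf_le_left r
    have e2 := rX_rX (inf_le_inf_left W (inf_le_right : V i ⊓ V j ≤ V j)) inf_le_left r
    exact congrArg (· • _) (e1.trans e2.symm)

variable {W W' W'' : X.Opens}

lemma GS_ext {W : X.Opens} {s t : GS V P φ W} (h : ∀ i, s.1 i = t.1 i) : s = t :=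
  Subtype.ext (funext h)

/-- restriction of compatible families -/
def GSres (h : W' ≤ W) : GS V P φ W →+ GS V P φ W' where
  toFun s := ⟨fun i ↦ res (P i) (inf_le_inf_right (V i) h) (s.1 i), by
    intro i j
    have h1 := s.2 i j
    have h2 : W' ⊓ (V i ⊓ V j) ≤ W ⊓ (V i ⊓ V j) := inf_le_inf_right _ h
    have h3 := congrArg (res (P j) h2) h1
    rw [← (φ i j).res, res_res] at h3
    erw [res_res]
    erw [res_res] 
    erw [res_res] at h3
    exact h3⟩
  map_zero' := GS_ext _ _ _ fun i ↦ map_zero (res (P i) (inf_le_inf_right (V i) h))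
  map_add' s t := GS_ext _ _ _ fun i ↦ map_add (res (P i) (inf_le_inf_right (V i) h)) _ _

@[simp] lemma GSres_apply (h : W' ≤ W) (s : GS V P φ W) (i : ι) :
    (GSres V P φ h s).1 i = res (P i) (inf_le_inf_right (V i) h) (s.1 i) := rfl

lemma GSres_self (h : W ≤ W) (s : GS V P φ W) : GSres V P φ h s = s :=
  GS_ext V P φ fun i ↦ res_self (P i) _ (s.1 i)

lemma GSres_GSres (h : W'' ≤ W') (h' : W' ≤ W) (s : GS V P φ W) :
    GSres V P φ h (GSres V P φ h' s) = GSres V P φ (h.trans h') s :=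
  GS_ext V P φ fun i ↦ res_res (P i) _ _ (s.1 i)

lemma GSres_smul (h : W' ≤ W) (r : Γ(X, W)) (s : GS V P φ W) :
    GSres V P φ h (r • s) = rX h r • GSres V P φ h s := by
  refine GS_ext V P φ fun i ↦ ?_
  change res (P i) _ (rX (inf_le_left : W ⊓ V i ≤ W) r • (show Γ(P i, W ⊓ V i) from s.1 i) :
      Γ(P i, W ⊓ V i)) = (rX (inf_le_left : W' ⊓ V i ≤ W') (rX h r) •
        (res (P i) (inf_le_inf_right (V i) h) (s.1 i)) : Γ(P i, W' ⊓ V i))
  rw [res_smul, rX_rX]
  exact congrArg (· • _) (rX_rX (inf_le_left : W' ⊓ V i ≤ W') h r).symm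

/-- the presheaf of abelian groups -/
def pre : TopCat.Presheaf Ab.{u} X where
  obj W := AddCommGrpCat.of (GS V P φ W.unop)
  map h := AddCommGrpCat.ofHom (GSres V P φ h.unop.le)
  map_id W := AddCommGrpCat.hom_ext (AddMonoidHom.ext fun s ↦ GSres_self V P φ le_rfl s)
  map_comp f g := AddCommGrpCat.hom_ext (AddMonoidHom.ext fun s ↦
    (GSres_GSres V P φ g.unop.le f.unop.le s).symm)

instance (W : (Opens X)ᵒᵖ) : Module (X.ringCatSheaf.obj.obj W) ((pre V P φ).obj W) :=
  inferInstanceAs (Module Γ(X, W.unop) (GS V P φ W.unop))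

/-- the presheaf of modules -/
def preMod : X.PresheafOfModules :=
  PresheafOfModules.ofPresheaf (R := X.ringCatSheaf.obj) (pre V P φ) (by
    intro W W' f r s
    exact GSres_smul V P φ f.unop.le r s)

lemma pre_isSheaf : (pre V P φ).IsSheaf := by
  rw [TopCat.Presheaf.isSheaf_iff_isSheafUniqueGluing]
  intro κ U sf hsf
  change ∀ k, GS V P φ (U k) at sf
  have hsf' : ∀ k l, GSres V P φ (inf_le_left : U k ⊓ U l ≤ U k) (sf k) =
    GSres V P φ (inf_le_right : U k ⊓ U l ≤ U l) (sf l) := hsf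
  -- glue every component
  have key : ∀ i, ∃! t : Γ(P i, iSup U ⊓ V i), ∀ k,
      res (P i) (inf_le_inf_right (V i) (le_iSup U k)) t = (sf k).1 i := by
    intro i
    refine (shf (P i)).existsUnique_gluing' (fun k ↦ U k ⊓ V i) (iSup U ⊓ V i)
      (fun k ↦ homOfLE (inf_le_inf_right (V i) (le_iSup U k))) ?_ (fun k ↦ (sf k).1 i) ?_
    · intro x hx
      obtain ⟨k, hk⟩ := Opens.mem_iSup.mp hx.1
      exact Opens.mem_iSup.mpr ⟨k, hk, hx.2⟩
    · intro k l
      have h1 : (U k ⊓ V i) ⊓ (U l ⊓ V i) ≤ (U k ⊓ U l) ⊓ V i :=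
        le_inf (le_inf (inf_le_left.trans inf_le_left) (inf_le_right.trans inf_le_left))
          (inf_le_left.trans inf_le_right)
      have h2 := congrArg (fun s : GS V P φ (U k ⊓ U l) ↦ res (P i) h1 (s.1 i)) (hsf' k l)
      simp only [GSres_apply] at h2
      erw [res_res, res_res] at h2
      exact h2
  choose t ht ht' using key
  refine ⟨⟨t, fun i j ↦ ?_⟩, fun k ↦ ?_, fun s hs ↦ ?_⟩
  · refine sec_ext _ fun x hx ↦ ?_
    obtain ⟨k, hk⟩ := Opens.mem_iSup.mp hx.1
    refine ⟨U k ⊓ (V i ⊓ V j), inf_le_inf_right _ (le_iSup U k), ⟨hk, hx.2⟩, ?_⟩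
    rw [← (φ i j).res]
    have h1 := (sf k).2 i j
    rw [← ht i k, ← ht j k] at h1
    erw [res_res, res_res] at h1
    erw [res_res, res_res]
    exact h1
  · exact GS_ext V P φ fun i ↦ ht i k
  · refine GS_ext V P φ fun i ↦ ht' i _ fun k ↦ ?_
    have := hs k
    exact congrArg (fun s : GS V P φ (U k) ↦ s.1 i) this

/-- the glued sheaf -/
def glued : X.Modules := ⟨preMod V P φ, pre_isSheaf V P φ⟩

/-- the projection of the glued sheaf to its pieces -/
def gluedHom (i : ι) : LocHom (V i) (glued V P φ) (P i) where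
  app W h :=
    { toFun := fun s ↦ res (P i) (le_inf le_rfl h) ((show GS V P φ W from s).1 i)
      map_zero' := map_zero (res (P i) (le_inf le_rfl h))
      map_add' := fun s t ↦ map_add (res (P i) (le_inf le_rfl h)) _ _ }
  smul W h r s := by
    change res (P i) (le_inf le_rfl h) (rX (inf_le_left : W ⊓ V i ≤ W) r •
      (show Γ(P i, W ⊓ V i) from (show GS V P φ W from s).1 i) : Γ(P i, W ⊓ V i)) = _
    rw [res_smul]
    refine congrArg (· • _) ((rX_rX (le_inf le_rfl h) (inf_le_left : W ⊓ V i ≤ W) r).trans ?_)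
    have : X.presheaf.map (homOfLE (le_refl W)).op = 𝟙 _ := X.presheaf.map_id _
    exact congr(($this).hom r)
  res U W h h' s := by
    change res (P i) _ (res (P i) _ ((show GS V P φ W from s).1 i)) =
      res (P i) _ (res (P i) _ ((show GS V P φ W from s).1 i))
    rw [res_res, res_res]

end GlueMod

open GlueMod in
/-- Gluing of sheaves of modules. -/
theorem exists_glue_objects {ι : Type u} (V : ι → X.Opens) (P : ι → X.Modules)
    (φ : ∀ i j, LocHom (V i ⊓ V j) (P i) (P j))
    (hid : ∀ i W h (x : Γ(P i, W)), (φ i i).app W h x = x)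
    (hcomp : ∀ i j l W (h : W ≤ V i ⊓ V j) (h' : W ≤ V j ⊓ V l) (h'' : W ≤ V i ⊓ V l)
      (x : Γ(P i, W)), (φ j l).app W h' ((φ i j).app W h x) = (φ i l).app W h'' x) :
    ∃ (L : X.Modules) (ψ : ∀ i, LocHom (V i) L (P i)),
      (∀ i W h, Function.Bijective ((ψ i).app W h)) ∧
      ∀ i j W (h : W ≤ V i ⊓ V j) (x : Γ(L, W)),
        (φ i j).app W h ((ψ i).app W (h.trans inf_le_left) x) =
          (ψ j).app W (h.trans inf_le_right) x := by
  refine ⟨glued V P φ, gluedHom V P φ, fun i W h ↦ ⟨?_, fun t ↦ ?_⟩, fun i j W h s ↦ ?_⟩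
  · rw [injective_iff_map_eq_zero]
    intro s hs
    have h0 : W ⊓ V i = W := inf_eq_left.mpr h
    have h1 : (show GS V P φ W from s).1 i = 0 := by
      apply (res_bijective_of_eq (P i) (le_inf le_rfl h) h0.symm).1
      exact hs.trans (map_zero _).symm
    refine GS_ext V P φ fun j ↦ ?_
    have h2 := (show GS V P φ W from s).2 i j
    rw [h1] at h2
    have h3 : W ⊓ (V i ⊓ V j) = W ⊓ V j := by rw [← inf_assoc, h0]
    apply (res_bijective_of_eq (P j) (inf_le_inf_left W inf_le_right) h3).1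
    refine h2.symm.trans ?_
    erw [map_zero (res (P i) _), map_zero, map_zero]
  · refine ⟨(⟨fun j ↦ (φ i j).app (W ⊓ V j) (le_inf (inf_le_left.trans h) inf_le_right)
      (res (P i) inf_le_left t), fun j l ↦ ?_⟩ : GS V P φ W), ?_⟩
    · have hW : W ⊓ (V j ⊓ V l) ≤ V i := inf_le_left.trans h
      rw [← (φ i j).res _ _ (inf_le_inf_left W (inf_le_left : V j ⊓ V l ≤ V j)),
        ← (φ i l).res _ _ (inf_le_inf_left W (inf_le_right : V j ⊓ V l ≤ V l)),
        hcomp i j l _ _ _ (le_inf hW (inf_le_right.trans inf_le_right)), res_res, res_res]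
    · change res (P i) (le_inf le_rfl h) ((φ i i).app (W ⊓ V i) _ (res (P i) inf_le_left t)) = t
      rw [hid, res_res, res_self]
  · have h2 := (show GS V P φ W from s).2 i j
    have h3 : W ≤ W ⊓ (V i ⊓ V j) := le_inf le_rfl h
    have h4 := congrArg (res (P j) h3) h2
    rw [← (φ i j).res] at h4
    erw [res_res, res_res] at h4
    exact h4

end Fermat.Agent.S25
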