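import Mathlib

set_option autoImplicit false

universe u

open CategoryTheory CategoryTheory.Limits AlgebraicGeometry TopologicalSpace

noncomputable section

namespace Fermat.Agent.S25

open AlgebraicGeometry.Scheme.Modules

variable {X Y Z : Scheme.{u}}

/-- restriction of sections -/
def res (M : X.Modules) {U V : X.Opens} (h : U ≤ V) : Γ(M, V) →+ Γ(M, U) :=
  (M.presheaf.map (homOfLE h).op).hom

lemma res_smul (M : X.Modules) {U V : X.Opens} (h : U ≤ V) (r : Γ(X, V)) (x : Γ(M, V)) :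
    res M h (r • x) = (X.presheaf.map (homOfLE h).op r) • res M h x :=
  Scheme.Modules.map_smul M (homOfLE h) r x

lemma res_res (M : X.Modules) {U V W : X.Opens} (h : U ≤ V) (h' : V ≤ W) (x : Γ(M, W)) :
    res M h (res M h' x) = res M (h.trans h') x := by
  have : M.presheaf.map (homOfLE h').op ≫ M.presheaf.map (homOfLE h).op =
    M.presheaf.map (homOfLE (h.trans h')).op := by
    rw [← Functor.map_comp]; rfl
  exact congr($(this) x)

lemma res_self (M : X.Modules) {U : X.Opens} (h : U ≤ U) (x : Γ(M, U)) :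
    res M h x = x := by
  have : M.presheaf.map (homOfLE h).op = 𝟙 _ := M.presheaf.map_id _
  exact congr($(this) x)

lemma app_res {M N : X.Modules} (φ : M ⟶ N) {U V : X.Opens} (h : U ≤ V) (x : Γ(M, V)) :
    φ.app U (res M h x) = res N h (φ.app V x) := by
  have := φ.mapPresheaf.naturality (homOfLE h).op
  exact congr($(this) x)

/-- The unit `Γ(L, V) → Γ(f^* L, f⁻¹ V)`. -/
def pbUnit (f : X ⟶ Y) (L : Y.Modules) (V : Y.Opens) :
    Γ(L, V) →+ Γ((Scheme.Modules.pullback f).obj L, f ⁻¹ᵁ V) :=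
  (((pullbackPushforwardAdjunction f).unit.app L).app V).hom

/-- The pullback-of-sections map `Γ(L, V) → Γ(f^* L, V')` for `V' ≤ f⁻¹ V`. -/
def pbSec (f : X ⟶ Y) (L : Y.Modules) (V : Y.Opens) (V' : X.Opens) (h : V' ≤ f ⁻¹ᵁ V) :
    Γ(L, V) →+ Γ((Scheme.Modules.pullback f).obj L, V') :=
  (res _ h).comp (pbUnit f L V)

lemma pbUnit_smul (f : X ⟶ Y) (L : Y.Modules) (V : Y.Opens)
    (r : Γ(Y, V)) (x : Γ(L, V)) :
    (pbUnit f L V) (r • x) = (f.app V r) • (pbUnit f L V) x :=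
  Hom.app_smul ((pullbackPushforwardAdjunction f).unit.app L) r x

lemma pbSec_smul (f : X ⟶ Y) (L : Y.Modules) (V : Y.Opens) (V' : X.Opens) (h : V' ≤ f ⁻¹ᵁ V)
    (r : Γ(Y, V)) (x : Γ(L, V)) :
    (pbSec f L V V' h) (r • x) = (f.appLE V V' h r) • (pbSec f L V V' h) x := by
  simp only [pbSec, AddMonoidHom.coe_comp, Function.comp_apply]
  rw [pbUnit_smul, res_smul]
  rfl

lemma pbUnit_res (f : X ⟶ Y) (L : Y.Modules) {V₁ V₂ : Y.Opens} (hV : V₂ ≤ V₁) (x : Γ(L, V₁)) :
    pbUnit f L V₂ (res L hV x) = res _ (by exact f.preimage_mono hV) (pbUnit f L V₁ x) :=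
  app_res ((pullbackPushforwardAdjunction f).unit.app L) hV x

lemma pbSec_res (f : X ⟶ Y) (L : Y.Modules) {V₁ V₂ : Y.Opens} {V₁' V₂' : X.Opens}
    (h₁ : V₁' ≤ f ⁻¹ᵁ V₁) (h₂ : V₂' ≤ f ⁻¹ᵁ V₂) (hV : V₂ ≤ V₁) (hV' : V₂' ≤ V₁') (x : Γ(L, V₁)) :
    res _ hV' (pbSec f L V₁ V₁' h₁ x) = pbSec f L V₂ V₂' h₂ (res L hV x) := by
  simp only [pbSec, AddMonoidHom.coe_comp, Function.comp_apply, pbUnit_res, res_res]

lemma pbUnit_naturality (f : X ⟶ Y) {L M : Y.Modules} (φ : L ⟶ M)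
    (V : Y.Opens) (x : Γ(L, V)) :
    ((Scheme.Modules.pullback f).map φ).app _ (pbUnit f L V x) =
      pbUnit f M V (φ.app V x) := by
  have := (pullbackPushforwardAdjunction f).unit.naturality φ
  have := congr(($this).app V x)
  exact this.symm

lemma pbSec_naturality (f : X ⟶ Y) {L M : Y.Modules} (φ : L ⟶ M)
    (V : Y.Opens) (V' : X.Opens) (h : V' ≤ f ⁻¹ᵁ V) (x : Γ(L, V)) :
    ((Scheme.Modules.pullback f).map φ).app V' (pbSec f L V V' h x) =
      pbSec f M V V' h (φ.app V x) := by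
  simp only [pbSec, AddMonoidHom.coe_comp, Function.comp_apply, ← pbUnit_naturality, app_res]

set_option backward.isDefEq.respectTransparency.types false in
lemma pbUnit_comp (f : X ⟶ Y) (g : Y ⟶ Z) (L : Z.Modules) (V : Z.Opens) (x : Γ(L, V)) :
    ((pullbackComp f g).inv.app L).app _ (pbUnit (f ≫ g) L V x) =
      pbUnit f _ _ (pbUnit g L V x) := by
  have h := unit_conjugateEquiv ((pullbackPushforwardAdjunction g).comp
    (pullbackPushforwardAdjunction f)) (pullbackPushforwardAdjunction (f ≫ g))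
    (pullbackComp f g).inv L
  rw [conjugateEquiv_pullbackComp_inv] at h
  have h' := congr(($h).app V x)
  exact h'.symm

lemma pbSec_comp (f : X ⟶ Y) (g : Y ⟶ Z) (L : Z.Modules) (V : Z.Opens) (V' : Y.Opens)
    (V'' : X.Opens) (h : V' ≤ g ⁻¹ᵁ V) (h' : V'' ≤ f ⁻¹ᵁ V') (x : Γ(L, V)) :
    ((pullbackComp f g).inv.app L).app _ (pbSec (f ≫ g) L V V''
      (h'.trans (f.preimage_mono h)) x) = pbSec f _ V' V'' h' (pbSec g L V V' h x) := by
  simp only [pbSec, AddMonoidHom.coe_comp, Function.comp_apply, pbUnit_res, ← pbUnit_comp,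
    app_res]
  exact (res_res _ _ _ _).symm

end Fermat.Agent.S25
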