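import Mathlib
import Fermat.Agent.S25.PbSec

/-!
# S25: sheaves of modules and bases of opens

* `sec_ext`, `sec_glue`: sections of a sheaf of modules from a basis of opens;
* `mkHom`, `homOfBasis`: morphisms from values on (a basis of) opens;
* `isIso_of_basis`: isomorphisms are detected on a basis.
-/

set_option autoImplicit false

universe u

open CategoryTheory CategoryTheory.Limits AlgebraicGeometry TopologicalSpace Opposite

noncomputable section

namespace Fermat.Agent.S25

open AlgebraicGeometry.Scheme.Modules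

variable {X Y Z : Scheme.{u}}

/-- the underlying sheaf of abelian groups -/
def shf (M : X.Modules) : TopCat.Sheaf Ab.{u} X := ⟨M.presheaf, M.isSheaf⟩

lemma sec_ext (M : X.Modules) {V : X.Opens} {s t : Γ(M, V)}
    (h : ∀ x ∈ V, ∃ (W : X.Opens) (hW : W ≤ V), x ∈ W ∧ res M hW s = res M hW t) : s = t := by
  choose! W hW hx h' using h
  refine (shf M).eq_of_locally_eq' (fun x : V ↦ W x) V (fun x ↦ homOfLE (hW x x.2)) ?_ s t ?_
  · intro x hxV
    simp only [Opens.mem_iSup]
    exact ⟨⟨x, hxV⟩, hx x hxV⟩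
  · intro x
    exact h' x x.2

/-- a family of opens which is a basis -/
def IsBas (P : X.Opens → Prop) : Prop :=
  ∀ (V : X.Opens) (x : X), x ∈ V → ∃ (W : X.Opens), W ≤ V ∧ x ∈ W ∧ P W

/-- Opens contained in some member of an open cover. -/
lemma isBas_of_cover {ι : Sort*} (U : ι → X.Opens) (hU : ∀ x, ∃ i, x ∈ U i) :
    IsBas fun V ↦ ∃ i, V ≤ U i := by
  intro V x hx
  obtain ⟨i, hi⟩ := hU x
  exact ⟨V ⊓ U i, inf_le_left, ⟨hx, hi⟩, i, inf_le_right⟩

/-- Affine opens contained in some member of an open cover. -/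
lemma isBas_affine {ι : Sort*} (U : ι → X.Opens) (hU : ∀ x, ∃ i, x ∈ U i) :
    IsBas fun V ↦ IsAffineOpen V ∧ ∃ i, V ≤ U i := by
  intro V x hx
  obtain ⟨i, hi⟩ := hU x
  obtain ⟨W, hW, hxW, hWV⟩ := X.isBasis_affineOpens.exists_subset_of_mem_open
    (show x ∈ (V ⊓ U i : X.Opens) from ⟨hx, hi⟩) (V ⊓ U i).2
  obtain ⟨W', hW', rfl⟩ := hW
  exact ⟨W', fun y hy ↦ (hWV hy).1, hxW, hW', i, fun y hy ↦ (hWV hy).2⟩

lemma sec_glue (M : X.Modules) {P : X.Opens → Prop} (hP : IsBas P) {V : X.Opens}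
    (s : ∀ W, W ≤ V → P W → Γ(M, W))
    (hs : ∀ (U W : X.Opens) (hUV : U ≤ V) (hU : P U) (hWV : W ≤ V) (hW : P W) (h : U ≤ W),
      res M h (s W hWV hW) = s U hUV hU) :
    ∃ t : Γ(M, V), ∀ (W : X.Opens) (h : W ≤ V) (hW : P W), res M h t = s W h hW := by
  have := (shf M).existsUnique_gluing' (fun W : {W : X.Opens // W ≤ V ∧ P W} ↦ W.1) V
    (fun W ↦ homOfLE W.2.1) ?_ (fun W ↦ s W.1 W.2.1 W.2.2) ?_
  · obtain ⟨t, ht, -⟩ := this
    exact ⟨t, fun W h hW ↦ ht ⟨W, h, hW⟩⟩
  · intro x hx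
    obtain ⟨W, hWV, hxW, hW⟩ := hP V x hx
    simp only [Opens.mem_iSup]
    exact ⟨⟨W, hWV, hW⟩, hxW⟩
  · rintro ⟨W, hWV, hW⟩ ⟨W', hWV', hW'⟩
    refine sec_ext M (V := W ⊓ W') (s := res M inf_le_left (s W hWV hW))
      (t := res M inf_le_right (s W' hWV' hW')) ?_
    intro x hx
    obtain ⟨U, hUV, hxU, hU⟩ := hP (W ⊓ W') x hx
    refine ⟨U, hUV, hxU, ?_⟩
    rw [res_res, res_res, hs U W (hUV.trans inf_le_left |>.trans hWV) hU,
      hs U W' (hUV.trans inf_le_left |>.trans hWV) hU]

/-- constructing morphisms of sheaves of modules from their values on sections -/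
def mkHom {L L' : X.Modules} (φ : ∀ V : X.Opens, Γ(L, V) →+ Γ(L', V))
    (hs : ∀ V (r : Γ(X, V)) (x : Γ(L, V)), φ V (r • x) = r • φ V x)
    (hr : ∀ {U V : X.Opens} (h : U ≤ V) (x : Γ(L, V)), φ U (res L h x) = res L' h (φ V x)) :
    L ⟶ L' :=
  ⟨PresheafOfModules.homMk (M₁ := L.val) (M₂ := L'.val)
    { app := fun V ↦ AddCommGrpCat.ofHom (φ V.unop)
      naturality := fun V U i ↦ by
        ext x
        exact hr i.unop.le x } (fun V r x ↦ hs V.unop r x)⟩

@[simp]
lemma mkHom_app {L L' : X.Modules} (φ : ∀ V : X.Opens, Γ(L, V) →+ Γ(L', V)) (hs hr)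
    (V : X.Opens) (x : Γ(L, V)) :
    (mkHom (L := L) (L' := L') φ hs hr).app V x = φ V x := rfl

section basis

variable {L L' : X.Modules} {P : X.Opens → Prop} (hP : IsBas P)
  (φ : ∀ V, P V → (Γ(L, V) →+ Γ(L', V)))
  (hs : ∀ V (hV : P V) (r : Γ(X, V)) (x : Γ(L, V)), φ V hV (r • x) = r • φ V hV x)
  (hr : ∀ (U V : X.Opens) (hU : P U) (hV : P V) (h : U ≤ V) (x : Γ(L, V)),
    φ U hU (res L h x) = res L' h (φ V hV x))

include hP hr in
lemma exists_homOfBasis_app (V : X.Opens) (x : Γ(L, V)) :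
    ∃ t : Γ(L', V), ∀ (W : X.Opens) (h : W ≤ V) (hW : P W),
      res L' h t = φ W hW (res L h x) := by
  refine sec_glue L' hP (fun W h hW ↦ φ W hW (res L h x)) ?_
  intro U W hUV hU hWV hW h
  rw [← hr U W hU hW h, res_res]

include hP in
lemma eq_of_basis {M : X.Modules} {V : X.Opens} {s t : Γ(M, V)}
    (h : ∀ (W : X.Opens) (h : W ≤ V), P W → res M h s = res M h t) : s = t := by
  refine sec_ext M fun x hx ↦ ?_
  obtain ⟨W, hWV, hxW, hW⟩ := hP V x hx
  exact ⟨W, hWV, hxW, h W hWV hW⟩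

/-- Morphisms of sheaves of modules from values on a basis. -/
def homOfBasis : L ⟶ L' :=
  mkHom
    (fun V ↦
      { toFun := fun x ↦ (exists_homOfBasis_app hP φ hr V x).choose
        map_zero' := by
          refine eq_of_basis hP fun W h hW ↦ ?_
          rw [(exists_homOfBasis_app hP φ hr V _).choose_spec W h hW]
          simp only [map_zero]
        map_add' := fun x y ↦ by
          refine eq_of_basis hP fun W h hW ↦ ?_
          rw [map_add, (exists_homOfBasis_app hP φ hr V _).choose_spec W h hW,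
            (exists_homOfBasis_app hP φ hr V _).choose_spec W h hW,
            (exists_homOfBasis_app hP φ hr V _).choose_spec W h hW]
          simp only [map_add] })
    (fun V r x ↦ by
      refine eq_of_basis hP fun W h hW ↦ ?_
      change res L' h (exists_homOfBasis_app hP φ hr V (r • x)).choose =
        res L' h (r • (exists_homOfBasis_app hP φ hr V x).choose)
      rw [res_smul, (exists_homOfBasis_app hP φ hr V _).choose_spec W h hW,
            (exists_homOfBasis_app hP φ hr V _).choose_spec W h hW, res_smul, hs])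
    (fun {U V} hUV x ↦ by
      refine eq_of_basis hP fun W h hW ↦ ?_
      change res L' h (exists_homOfBasis_app hP φ hr U (res L hUV x)).choose =
        res L' h (res L' hUV (exists_homOfBasis_app hP φ hr V x).choose)
      rw [(exists_homOfBasis_app hP φ hr U _).choose_spec W h hW, res_res, res_res,
        (exists_homOfBasis_app hP φ hr V _).choose_spec W (h.trans hUV) hW])

lemma homOfBasis_app (V : X.Opens) (hV : P V) (x : Γ(L, V)) :
    (homOfBasis hP φ hs hr).app V x = φ V hV x := by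
  have := (exists_homOfBasis_app hP φ hr V x).choose_spec V le_rfl hV
  rw [res_self, res_self] at this
  exact this

include hP in
lemma hom_ext_of_basis {f g : L ⟶ L'} (h : ∀ V, P V → ∀ x, f.app V x = g.app V x) : f = g := by
  refine Scheme.Modules.hom_ext f g fun V ↦ ?_
  ext x
  refine eq_of_basis hP fun W hW hWP ↦ ?_
  rw [← app_res, ← app_res, h W hWP]

include hP in
lemma isIso_of_basis {f : L ⟶ L'} (h : ∀ V, P V → Function.Bijective (f.app V)) : IsIso f := by
  rw [Hom.isIso_iff_isIso_app]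
  intro V
  rw [ConcreteCategory.isIso_iff_bijective]
  constructor
  · intro x y hxy
    refine eq_of_basis hP fun W hW hWP ↦ (h W hWP).1 ?_
    rw [app_res, app_res, hxy]
  · intro y
    choose g hg using fun W (hW : P W) (z : Γ(L', W)) ↦ (h W hW).2 z
    obtain ⟨t, ht⟩ := sec_glue L hP (V := V) (fun W h hW ↦ g W hW (res L' h y)) (by
      intro U W hUV hU hWV hW hle
      apply (h U hU).1
      rw [app_res, hg, hg, res_res])
    refine ⟨t, eq_of_basis hP fun W hW hWP ↦ ?_⟩
    rw [← app_res, ht W hW hWP, hg]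

end basis

end Fermat.Agent.S25
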