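import Fermat.Agent.S25.PbRes

/-!
# S25: gluing morphisms of sheaves of modules
-/

set_option autoImplicit false

universe u

open CategoryTheory CategoryTheory.Limits AlgebraicGeometry TopologicalSpace Opposite

noncomputable section

namespace Fermat.Agent.S25

open AlgebraicGeometry.Scheme.Modules

variable {X Y Z : Scheme.{u}}

/-- Gluing of morphisms: a family `φ i W` (for small `W ≤ V i`) which is independent of `i`. -/
theorem exists_hom_of_family {L L' : X.Modules} {ι : Type*} (V : ι → X.Opens)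
    (hV : ∀ x, ∃ i, x ∈ V i) (Q : X.Opens → Prop) (hQ : IsBas Q)
    (φ : ∀ i W, Q W → W ≤ V i → (Γ(L, W) →+ Γ(L', W)))
    (hs : ∀ i W hW hW' (r : Γ(X, W)) (x : Γ(L, W)), φ i W hW hW' (r • x) = r • φ i W hW hW' x)
    (hr : ∀ i U W (hU : Q U) (hW : Q W) (h : U ≤ W) (h' : W ≤ V i) (x : Γ(L, W)),
      φ i U hU (h.trans h') (res L h x) = res L' h (φ i W hW h' x))
    (hij : ∀ i j W hW (h : W ≤ V i) (h' : W ≤ V j) (x : Γ(L, W)),
      φ i W hW h x = φ j W hW h' x) :
    ∃ f : L ⟶ L', ∀ i W hW (h : W ≤ V i) (x : Γ(L, W)), f.app W x = φ i W hW h x := by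
  have hP : IsBas fun W ↦ Q W ∧ ∃ i, W ≤ V i := by
    intro U x hx
    obtain ⟨i, hi⟩ := hV x
    obtain ⟨W, hW, hxW, hQW⟩ := hQ (U ⊓ V i) x ⟨hx, hi⟩
    exact ⟨W, hW.trans inf_le_left, hxW, hQW, i, hW.trans inf_le_right⟩
  refine ⟨homOfBasis hP (fun W hW ↦ φ hW.2.choose W hW.1 hW.2.choose_spec)
    (fun W hW r x ↦ hs _ _ _ _ _ _) (fun U W hU hW h x ↦ ?_), fun i W hW h x ↦ ?_⟩
  · rw [hij _ hW.2.choose U hU.1 _ (h.trans hW.2.choose_spec)]
    exact hr _ _ _ _ _ _ _ _
  · rw [homOfBasis_app _ _ _ _ W ⟨hW, i, h⟩]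
    exact hij _ _ _ _ _ _ _

section two

variable {L L' : X.Modules} [L.IsQuasicoherent]

/-- extending a semilinear map to smaller affine opens -/
lemma exists_extend {V W : X.Opens} (hV : IsAffineOpen V) (hW : IsAffineOpen W) (h : W ≤ V)
    (e : Γ(L, V) →ₗ[Γ(X, V)] Γ(L', V)) :
    ∃ e' : Γ(L, W) →ₗ[Γ(X, W)] Γ(L', W), ∀ x, e' (res L h x) = res L' h (e x) := by
  obtain ⟨e', he', -⟩ := (isBC_res L hV hW h).exu Γ(L', W) ((res L' h).comp e.toAddMonoidHom)
    (fun a m ↦ (congrArg (res L' h) (e.map_smul a m)).trans (res_smul L' h a (e m)))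
  exact ⟨e', he'⟩

/-- the extension to smaller affine opens -/
def extendLin {V W : X.Opens} (hV : IsAffineOpen V) (hW : IsAffineOpen W) (h : W ≤ V)
    (e : Γ(L, V) →ₗ[Γ(X, V)] Γ(L', V)) : Γ(L, W) →ₗ[Γ(X, W)] Γ(L', W) :=
  (exists_extend hV hW h e).choose

lemma extendLin_res {V W : X.Opens} (hV : IsAffineOpen V) (hW : IsAffineOpen W) (h : W ≤ V)
    (e : Γ(L, V) →ₗ[Γ(X, V)] Γ(L', V)) (x : Γ(L, V)) :
    extendLin hV hW h e (res L h x) = res L' h (e x) :=
  (exists_extend hV hW h e).choose_spec x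

lemma lin_ext_res {V W : X.Opens} (hV : IsAffineOpen V) (hW : IsAffineOpen W) (h : W ≤ V)
    {e e' : Γ(L, W) →ₗ[Γ(X, W)] Γ(L', W)} (he : ∀ x, e (res L h x) = e' (res L h x)) : e = e' :=
  (isBC_res L hV hW h).hom_ext he

/-- restriction of scalars along restriction -/
lemma extendLin_trans {V W U : X.Opens} (hV : IsAffineOpen V) (hW : IsAffineOpen W)
    (hU : IsAffineOpen U) (h : W ≤ V) (h' : U ≤ W)
    (e : Γ(L, V) →ₗ[Γ(X, V)] Γ(L', V)) :
    extendLin hV hU (h'.trans h) e = extendLin hW hU h' (extendLin hV hW h e) := by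
  refine lin_ext_res hV hU (h'.trans h) fun x ↦ ?_
  rw [extendLin_res, ← res_res L h' h, extendLin_res, extendLin_res, res_res]

/-- Morphisms of quasi-coherent sheaves on a scheme covered by two affine opens with affine
intersection. -/
theorem exists_hom_two {V0 V1 : X.Opens} (hV0 : IsAffineOpen V0) (hV1 : IsAffineOpen V1)
    (hV01 : IsAffineOpen (V0 ⊓ V1)) (hcov : V0 ⊔ V1 = ⊤)
    (e0 : Γ(L, V0) →ₗ[Γ(X, V0)] Γ(L', V0)) (e1 : Γ(L, V1) →ₗ[Γ(X, V1)] Γ(L', V1))
    (h : extendLin hV0 hV01 inf_le_left e0 = extendLin hV1 hV01 inf_le_right e1) :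
    ∃ f : L ⟶ L', (∀ x, f.app V0 x = e0 x) ∧ (∀ x, f.app V1 x = e1 x) ∧
      (∀ x, f.app (V0 ⊓ V1) x = extendLin hV0 hV01 inf_le_left e0 x) := by
  let V : Bool → X.Opens := fun b ↦ if b then V1 else V0
  have key := exists_hom_of_family (L := L) (L' := L') V (fun x ↦ ?_) (fun W ↦ IsAffineOpen W) ?_
    (fun b ↦ match b with
      | true => fun W hW hWV ↦ (extendLin hV1 hW hWV e1).toAddMonoidHom
      | false => fun W hW hWV ↦ (extendLin hV0 hW hWV e0).toAddMonoidHom) ?_ ?_ ?_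
  · obtain ⟨f, hf⟩ := key
    refine ⟨f, fun x ↦ ?_, fun x ↦ ?_, fun x ↦ ?_⟩
    · refine (hf false V0 hV0 le_rfl x).trans ?_
      have := extendLin_res hV0 hV0 le_rfl e0 x
      rw [res_self, res_self] at this
      exact this
    · refine (hf true V1 hV1 le_rfl x).trans ?_
      have := extendLin_res hV1 hV1 le_rfl e1 x
      rw [res_self, res_self] at this
      exact this
    · exact hf false (V0 ⊓ V1) hV01 inf_le_left x
  · have : x ∈ V0 ⊔ V1 := by rw [hcov]; trivial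
    rcases this with h | h
    · exact ⟨false, h⟩
    · exact ⟨true, h⟩
  · intro U x hx
    obtain ⟨_, ⟨W, hW, rfl⟩, hxW, hWV⟩ := X.isBasis_affineOpens.exists_subset_of_mem_open hx U.2
    exact ⟨W, hWV, hxW, hW⟩
  · rintro (_ | _) W hW hW' r x
    · exact map_smul (extendLin hV0 hW hW' e0) r x
    · exact map_smul (extendLin hV1 hW hW' e1) r x
  · rintro (_ | _) U W hU hW h h' x
    · change extendLin hV0 hU (h.trans h') e0 (res L h x) = res L' h (extendLin hV0 hW h' e0 x)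
      rw [extendLin_trans hV0 hW hU h' h, extendLin_res]
    · change extendLin hV1 hU (h.trans h') e1 (res L h x) = res L' h (extendLin hV1 hW h' e1 x)
      rw [extendLin_trans hV1 hW hU h' h, extendLin_res]
  · have key2 : ∀ W (hW : IsAffineOpen W) (h0 : W ≤ V0) (h1 : W ≤ V1),
        extendLin hV0 hW h0 e0 = extendLin hV1 hW h1 e1 := by
      intro W hW h0 h1
      rw [extendLin_trans hV0 hV01 hW inf_le_left (le_inf h0 h1),
        extendLin_trans hV1 hV01 hW inf_le_right (le_inf h0 h1), h]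
    rintro (_ | _) (_ | _) W hW h0 h1 x
    · rfl
    · exact congr($(key2 W hW h0 h1) x)
    · exact congr($(key2 W hW h1 h0) x).symm
    · rfl

end two

end Fermat.Agent.S25
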