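import Fermat.Agent.S25.PbOpen
import Fermat.Prelude.Def_AlgebraicGeometry_RelativePicardFunctor

set_option autoImplicit false

universe u

open CategoryTheory CategoryTheory.Limits AlgebraicGeometry TopologicalSpace

noncomputable section

namespace Fermat.Agent.S25

open AlgebraicGeometry.Scheme.Modules

variable {X Y Z : Scheme.{u}}

/-- transport of triviality to the `over` category. -/
def overUnitIso (L : X.Modules) (U : X.Opens)
    (e : L.restrict U.ι ≅ SheafOfModules.unit U.toScheme.ringCatSheaf) :
    SheafOfModules.unit (X.ringCatSheaf.over U) ≅ SheafOfModules.over L U :=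
  (TopologicalSpace.Opens.sheafOfModulesEquivOverInverseUnit U X.ringCatSheaf).symm ≪≫
    (overEquiv U).inverse.mapIso (e.symm ≪≫ ((overFunctorEquiv U).app L).symm) ≪≫
    ((overEquiv U).unitIso.app (SheafOfModules.over L U)).symm

/-- a locally trivial module over `U` is free of rank one on `Over U`. -/
def locIso (L : X.Modules) (U : X.Opens)
    (e : L.restrict U.ι ≅ SheafOfModules.unit U.toScheme.ringCatSheaf) :
    SheafOfModules.free (R := X.ringCatSheaf.over U) PUnit.{u+1} ≅ SheafOfModules.over L U :=
  (Limits.coproductUniqueIso (fun (_ : PUnit.{u+1}) ↦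
      SheafOfModules.unit (X.ringCatSheaf.over U))) ≪≫ overUnitIso L U e

/-- Local generators for a locally trivial module. -/
def locGen (L : X.Modules) {ι : Type u} (U : ι → X.Opens) (hU : ⨆ i, U i = ⊤)
    (e : ∀ i, L.restrict (U i).ι ≅ SheafOfModules.unit (U i).toScheme.ringCatSheaf) :
    SheafOfModules.LocalGeneratorsData.{u} L where
  I := ι
  X := U
  coversTop := (Opens.coversTop_iff _ _).mpr hU
  generators i := (SheafOfModules.free.generatingSections PUnit).ofEpi (locIso L (U i) (e i)).hom

instance (L : X.Modules) {ι : Type u} (U : ι → X.Opens) (hU : ⨆ i, U i = ⊤)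
    (e : ∀ i, L.restrict (U i).ι ≅ SheafOfModules.unit (U i).toScheme.ringCatSheaf) :
    (locGen L U hU e).IsLocallyFreeData where
  isIso := fun (i : ι) ↦ by
    have h := SheafOfModules.GeneratingSections.ofEpi_π
      (SheafOfModules.free.generatingSections PUnit) (locIso L (U i) (e i)).hom
    have : IsIso ((SheafOfModules.free.generatingSections PUnit).ofEpi
        (locIso L (U i) (e i)).hom).π := by
      rw [h, SheafOfModules.free.generatingSections_π]; exact inferInstanceAs (IsIso (𝟙 _ ≫ (locIso L (U i) (e i)).hom))
    exact this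

lemma isQuasicoherent_of_isInvertible (L : X.Modules) (hL : Scheme.Modules.IsInvertible L) :
    L.IsQuasicoherent := by
  choose U hxU e using hL.exists_trivialization
  have hU : ⨆ x, U x = ⊤ := by
    rw [eq_top_iff]
    intro x _
    exact Opens.mem_iSup.mpr ⟨x, hxU x⟩
  have := (locGen L U hU (fun i ↦ (restrictFunctorIsoPullback (U i).ι).app L ≪≫
    (e i).some)).isLocallyFree
  infer_instance

end Fermat.Agent.S25
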