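import Mathlib
import Fermat.Agent.S25.AlgBC

/-!
# S25: local criterion for invertibility of a module
-/

set_option autoImplicit false

universe u v w

open scoped TensorProduct

namespace Fermat.Agent.S25

section crit

variable {R : Type u} [CommRing R] {M : Type v} [AddCommGroup M] [Module R M]

/-- contraction symmetric: `φ x • y = φ y • x` in an invertible module -/
lemma inv_contract [Module.Invertible R M] (φ : Module.Dual R M) (x y : M) :
    φ x • y = φ y • x := by
  have h := Module.Invertible.tmul_comm (R := R) (m₁ := x) (m₂ := y)
  have := congr(TensorProduct.lid R M (LinearMap.rTensor M φ $h))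
  simpa using this

lemma inv_ideal [Module.Invertible R M] :
    Ideal.span {r : R | ∃ (φ : Module.Dual R M) (m : M), φ m = r} = ⊤ := by
  obtain ⟨t, ht⟩ := (Module.Invertible.bijective (R := R) (M := M)).2 1
  rw [Ideal.eq_top_iff_one, ← ht]
  clear ht
  induction t with
  | zero => simp
  | tmul φ m => exact Ideal.subset_span ⟨φ, m, by simp⟩
  | add x y hx hy => rw [map_add]; exact Ideal.add_mem _ hx hy

lemma invertible_of_contract (h1 : ∀ (φ : Module.Dual R M) (x y : M), φ x • y = φ y • x)
    (h2 : Ideal.span {r : R | ∃ (φ : Module.Dual R M) (m : M), φ m = r} = ⊤) :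
    Module.Invertible R M := by
  have h3 : ∀ (φ ψ : Module.Dual R M) (x : M), φ x • ψ = ψ x • φ := by
    intro φ ψ x
    ext y
    simp only [LinearMap.smul_apply, smul_eq_mul]
    rw [← smul_eq_mul, ← map_smul, h1 φ x y, map_smul, smul_eq_mul, mul_comm]
  have h4 : ∀ (φ ψ : Module.Dual R M) (x y : M),
      φ x • (ψ ⊗ₜ[R] y) = ψ y • (φ ⊗ₜ[R] x) := by
    intro φ ψ x y
    rw [← TensorProduct.tmul_smul, h1, TensorProduct.tmul_smul, TensorProduct.smul_tmul', h3,
      TensorProduct.smul_tmul']
  have h5 : ∀ (t s : Module.Dual R M ⊗[R] M),
      contractLeft R M t • s = contractLeft R M s • t := by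
    intro t s
    induction t with
    | zero => simp
    | add x y hx hy => rw [map_add, add_smul, smul_add, hx, hy]
    | tmul φ x =>
      induction s with
      | zero => simp
      | add x y hx hy => rw [map_add, add_smul, smul_add, hx, hy]
      | tmul ψ y => simpa using h4 φ ψ x y
  have hsurj : ∃ t, contractLeft R M t = 1 := by
    have : Ideal.span {r : R | ∃ (φ : Module.Dual R M) (m : M), φ m = r} ≤
        LinearMap.range (contractLeft R M) := by
      rw [Ideal.span_le]
      rintro _ ⟨φ, m, rfl⟩
      exact ⟨φ ⊗ₜ m, by simp⟩
    rw [h2] at this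
    exact this trivial
  obtain ⟨t, ht⟩ := hsurj
  refine ⟨⟨?_, ?_⟩⟩
  · rw [injective_iff_map_eq_zero]
    intro s hs
    have := h5 t s
    rwa [ht, one_smul, hs, zero_smul] at this
  · intro r
    exact ⟨r • t, by rw [map_smul, ht, smul_eq_mul, mul_one]⟩

end crit

section loc

variable {R : Type u} [CommRing R] {M : Type u} [AddCommGroup M] [Module R M]

/-- A module which is invertible locally is invertible. -/
theorem invertible_of_localizationSpan (s : Set R) (hs : Ideal.span s = ⊤)
    (h : ∀ r ∈ s, Module.Invertible (Localization.Away r) (LocalizedModule.Away r M)) :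
    Module.Invertible R M := by
  have hfp : Module.FinitePresentation R M := by
    refine Module.FinitePresentation.of_localizationSpan s hs fun g ↦ ?_
    have := h g g.2
    exact Module.finitePresentation_of_projective _ _
  refine invertible_of_contract ?_ ?_
  · intro φ x y
    refine Module.eq_of_isLocalized_span (R := R) s hs (fun r ↦ LocalizedModule.Away r.1 M)
      (fun r ↦ LocalizedModule.mkLinearMap (.powers r.1) M) _ _ fun r ↦ ?_
    have := h r r.2
    let φ' : LocalizedModule.Away r.1 M →ₗ[Localization.Away r.1] Localization.Away r.1 :=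
      IsLocalizedModule.mapExtendScalars (.powers r.1) (LocalizedModule.mkLinearMap (.powers r.1) M)
        (Algebra.linearMap R (Localization.Away r.1)) (Localization.Away r.1) φ
    have key := inv_contract φ' (LocalizedModule.mkLinearMap (.powers r.1) M x)
      (LocalizedModule.mkLinearMap (.powers r.1) M y)
    have h1 : ∀ z, φ' (LocalizedModule.mkLinearMap (.powers r.1) M z) =
        algebraMap R (Localization.Away r.1) (φ z) := by
      intro z
      simp only [φ', IsLocalizedModule.mapExtendScalars_apply_apply]
      rw [IsLocalizedModule.map_apply]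
      rfl
    rw [h1, h1, algebraMap_smul, algebraMap_smul] at key
    rw [map_smul, map_smul]
    exact key
  · by_contra hne
    obtain ⟨r, hrs, disj⟩ := Ideal.exists_disjoint_powers_of_span_eq_top s hs _ hne
    have := h r hrs
    set τ := Ideal.span {r : R | ∃ (φ : Module.Dual R M) (m : M), φ m = r} with hτ
    have hJ : τ.map (algebraMap R (Localization.Away r)) ≠ ⊤ :=
      (IsLocalization.map_algebraMap_ne_top_iff_disjoint (.powers r) _ τ).mpr disj.symm
    apply hJ
    rw [eq_top_iff, ← inv_ideal (R := Localization.Away r) (M := LocalizedModule.Away r M),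
      Ideal.span_le]
    rintro _ ⟨φ', m', rfl⟩
    obtain ⟨⟨m, t⟩, rfl⟩ := IsLocalizedModule.mk'_surjective (.powers r)
      (LocalizedModule.mkLinearMap (.powers r) M) m'
    obtain ⟨ψ, t', hψ⟩ := Module.FinitePresentation.exists_lift_of_isLocalizedModule
      (.powers r) (Algebra.linearMap R (Localization.Away r))
      ((φ'.restrictScalars R).comp (LocalizedModule.mkLinearMap (.powers r) M))
    have h1 : algebraMap R (Localization.Away r) (ψ m) =
        algebraMap R _ t'.1 * φ' (LocalizedModule.mkLinearMap (.powers r) M m) := by
      have := congr($hψ m)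
      simp only [LinearMap.comp_apply, LinearMap.smul_apply] at this
      rw [← Algebra.smul_def]
      exact this
    have h2 : LocalizedModule.mkLinearMap (.powers r) M m = t.1 •
      IsLocalizedModule.mk' (LocalizedModule.mkLinearMap (.powers r) M) m t :=
      (IsLocalizedModule.mk'_cancel' (LocalizedModule.mkLinearMap (.powers r) M) m t).symm
    have h3 : algebraMap R (Localization.Away r) (ψ m) ∈
        τ.map (algebraMap R (Localization.Away r)) :=
      Ideal.mem_map_of_mem _ (Ideal.subset_span ⟨ψ, m, rfl⟩)
    rw [h1, h2, ← algebraMap_smul (Localization.Away r) t.1, map_smul, smul_eq_mul, 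
      Ideal.unit_mul_mem_iff_mem _ (IsLocalization.map_units _ t'),
      Ideal.unit_mul_mem_iff_mem _ (IsLocalization.map_units _ t)] at h3
    exact h3

/-- A module which is invertible locally is invertible (`IsBC` form). -/
theorem invertible_of_isBC_span (s : Set R) (hs : Ideal.span s = ⊤)
    (h : ∀ r ∈ s, ∃ (R' : Type u) (_ : CommRing R') (φ : R →+* R') (N : Type u)
      (_ : AddCommGroup N) (_ : Module R' N) (g : M →+ N),
      @IsLocalization.Away R _ r R' _ φ.toAlgebra ∧ IsBC φ g ∧ Module.Invertible R' N) :
    Module.Invertible R M := by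
  refine invertible_of_localizationSpan s hs fun r hr ↦ ?_
  obtain ⟨R', _, φ, N, _, _, g, hloc, hbc, hinv⟩ := h r hr
  let _ : Algebra R R' := φ.toAlgebra
  let e : R' ≃ₐ[R] Localization.Away r :=
    IsLocalization.algEquiv (.powers r) R' (Localization.Away r)
  let _ : Module (Localization.Away r) N := Module.compHom N e.symm.toRingEquiv.toRingHom
  have h1 : IsBC e.toRingEquiv.toRingHom (AddMonoidHom.id N) := by
    refine .of_bijective _ _ e.bijective Function.bijective_id fun a m ↦ ?_
    change a • m = e.symm (e a) • m
    rw [e.symm_apply_apply]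
  have h2 : Module.Invertible (Localization.Away r) N := h1.invertible
  have h3 := hbc.comp h1
  let _ : Module R N := Module.compHom N (algebraMap R (Localization.Away r))
  have : IsScalarTower R (Localization.Away r) N :=
    IsScalarTower.of_algebraMap_smul (fun _ _ ↦ rfl)
  have h4 : e.toRingEquiv.toRingHom.comp φ = algebraMap R (Localization.Away r) := by
    ext x
    exact e.commutes x
  rw [h4] at h3
  let g' : M →ₗ[R] N := { g with map_smul' := fun a m ↦ h3.smul a m }
  have h5 : IsBaseChange (Localization.Away r) g' := IsBC.isBaseChange g' h3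
  have h6 : IsLocalizedModule (.powers r) g' :=
    (isLocalizedModule_iff_isBaseChange (.powers r) (Localization.Away r) g').mpr h5
  let e1 : LocalizedModule.Away r M ≃ₗ[R] N := IsLocalizedModule.iso (.powers r) g'
  exact Module.Invertible.congr (e1.extendScalarsOfIsLocalization (.powers r)
    (Localization.Away r)).symm

end loc

end Fermat.Agent.S25
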