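import Fermat.Agent.S25.PbSec
import Fermat.Agent.S25.IsBC

set_option autoImplicit false

universe u

open CategoryTheory CategoryTheory.Limits AlgebraicGeometry TopologicalSpace

noncomputable section

namespace Fermat.Agent.S25

open AlgebraicGeometry.Scheme.Modules

variable {R S : CommRingCat.{u}} (φ : R ⟶ S)

lemma spec_smul (N : (Spec S).Modules) (r : R) (x : Γ((pushforward (Spec.map φ)).obj N, ⊤)) :
    r • x = (φ.hom r • (show Γ(N, ⊤) from x) : Γ(N, ⊤)) := by
  rw [smul_Spec_def, smul_Spec_def]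
  have h1 : (Spec.map φ).app ⊤ ((Spec R).presheaf.map (⊤ : (Spec R).Opens).leTop.op
      ((Scheme.ΓSpecIso R).inv r)) = (Spec S).presheaf.map (⊤ : (Spec S).Opens).leTop.op
      ((Scheme.ΓSpecIso S).inv (φ r)) := by
    have h2 := Scheme.ΓSpecIso_inv_naturality φ
    have h3 : (Spec R).presheaf.map (⊤ : (Spec R).Opens).leTop.op = 𝟙 _ :=
      (Spec R).presheaf.map_id _
    have h4 : (Spec S).presheaf.map (⊤ : (Spec S).Opens).leTop.op = 𝟙 _ :=
      (Spec S).presheaf.map_id _
    rw [h3, h4]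
    exact congr($(h2).hom r).symm
  exact congrArg (fun (a : Γ(Spec S, ⊤)) ↦ a • (show Γ(N, ⊤) from x)) h1

/-- `Γ_R ∘ f_* ≅ restrictScalars ∘ Γ_S`. -/
def gammaPushEquiv (N : (Spec S).Modules) :
    (moduleSpecΓFunctor (R := R)).obj ((pushforward (Spec.map φ)).obj N) ≃ₗ[R]
    (ModuleCat.restrictScalars φ.hom).obj ((moduleSpecΓFunctor (R := S)).obj N) where
  toFun := fun x ↦ x
  invFun := fun x ↦ x
  left_inv := fun _ ↦ rfl
  right_inv := fun _ ↦ rfl
  map_add' := fun _ _ ↦ rfl
  map_smul' := fun r x ↦ spec_smul φ N r x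

/-- `Γ_R ∘ f_* ≅ restrictScalars ∘ Γ_S`. -/
def gammaPushIso : pushforward (Spec.map φ) ⋙ moduleSpecΓFunctor (R := R) ≅
    moduleSpecΓFunctor (R := S) ⋙ ModuleCat.restrictScalars φ.hom :=
  NatIso.ofComponents (fun N ↦ (gammaPushEquiv φ N).toModuleIso) (by
      intro M N f
      rfl)

/-- the comparison `f^*(M^~) ≅ (S ⊗ M)^~` -/
def pullbackTildeIso : tilde.functor R ⋙ pullback (Spec.map φ) ≅
    ModuleCat.extendScalars φ.hom ⋙ tilde.functor S :=
  ((tilde.adjunction (R := R)).comp (pullbackPushforwardAdjunction (Spec.map φ)) |>.ofNatIsoRight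
    (gammaPushIso φ)).leftAdjointUniq
      ((ModuleCat.extendRestrictScalarsAdj φ.hom).comp (tilde.adjunction (R := S)))

lemma pullbackTildeIso_unit (M : ModuleCat.{u} R) :
    ((tilde.adjunction (R := R)).comp (pullbackPushforwardAdjunction (Spec.map φ)) |>.ofNatIsoRight
    (gammaPushIso φ)).unit.app M ≫
      (moduleSpecΓFunctor (R := S) ⋙ ModuleCat.restrictScalars φ.hom).map
        ((pullbackTildeIso φ).hom.app M) =
    ((ModuleCat.extendRestrictScalarsAdj φ.hom).comp (tilde.adjunction (R := S))).unit.app M :=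
  Adjunction.unit_leftAdjointUniq_hom_app _ _ _

lemma pullbackTildeIso_unit_apply (M : ModuleCat.{u} R) (m : M) :
    ((pullbackTildeIso φ).hom.app M).app ⊤ (pbUnit (Spec.map φ) (tilde M) ⊤
        (tilde.toOpen M ⊤ m)) =
      tilde.toOpen ((ModuleCat.extendScalars φ.hom).obj M) ⊤
        (((ModuleCat.extendRestrictScalarsAdj φ.hom).unit.app M) m) :=
  congr(($(pullbackTildeIso_unit φ M)).hom m)

/-- the unit `M → S ⊗ M`. -/
def extUnit (M : ModuleCat.{u} R) : M →+ (ModuleCat.extendScalars φ.hom).obj M :=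
  ((ModuleCat.extendRestrictScalarsAdj φ.hom).unit.app M).hom.toAddMonoidHom

lemma isBC_extUnit (M : ModuleCat.{u} R) : IsBC φ.hom (extUnit φ M) := by
  refine ⟨fun a m ↦ ?_, fun Q _ _ h hh ↦ ?_⟩
  · exact (((ModuleCat.extendRestrictScalarsAdj φ.hom).unit.app M).hom.map_smul a m)
  · let adj := ModuleCat.extendRestrictScalarsAdj φ.hom
    let h' : M ⟶ (ModuleCat.restrictScalars φ.hom).obj (ModuleCat.of S Q) :=
      ModuleCat.ofHom (Y := (ModuleCat.restrictScalars φ.hom).obj (ModuleCat.of S Q))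
        { toFun := h
          map_add' := h.map_add
          map_smul' := fun a m ↦ hh a m }
    refine ⟨((adj.homEquiv _ _).symm h').hom, fun m ↦ ?_, fun k hk ↦ ?_⟩
    · have : adj.unit.app M ≫ (ModuleCat.restrictScalars φ.hom).map
        ((adj.homEquiv _ _).symm h') = h' := by
        exact (adj.homEquiv_unit _ _ _).symm.trans (Equiv.apply_symm_apply _ _)
      exact congr(($this).hom m)
    · have : ModuleCat.ofHom k = (adj.homEquiv _ _).symm h' := by
        rw [Equiv.eq_symm_apply]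
        refine (adj.homEquiv_unit _ _ _).trans ?_
        ext m
        exact hk m
      rw [← this]
      rfl

/-- The global section on `Spec` map for tilde. -/
def tildeTop (M : ModuleCat.{u} R) : M →+ Γ(tilde M, ⊤) := (tilde.toOpen M ⊤).hom.toAddMonoidHom

lemma tildeTop_bijective (M : ModuleCat.{u} R) : Function.Bijective (tildeTop M) :=
  ConcreteCategory.bijective_of_isIso (tilde.toOpen M ⊤)

lemma tildeTop_smul (M : ModuleCat.{u} R) (r : R) (m : M) :
    tildeTop M (r • m) = r • tildeTop M m :=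
  (tilde.toOpen M ⊤).hom.map_smul r m

/-- `R → Γ(Spec R, ⊤)` -/
def gs (R : CommRingCat.{u}) : R →+* Γ(Spec R, ⊤) := (Scheme.ΓSpecIso R).inv.hom

lemma gs_bijective (R : CommRingCat.{u}) : Function.Bijective (gs R) :=
  ConcreteCategory.bijective_of_isIso (Scheme.ΓSpecIso R).inv

lemma smul_top_eq (M : (Spec R).Modules) (r : R) (x : Γ(M, ⊤)) : r • x = gs R r • x := by
  rw [smul_Spec_def]
  have h3 : (Spec R).presheaf.map (⊤ : (Spec R).Opens).leTop.op = 𝟙 _ :=
      (Spec R).presheaf.map_id _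
  rw [h3]
  rfl

lemma gs_naturality (r : R) : (Spec.map φ).appTop (gs R r) = gs S (φ r) :=
  congr($(Scheme.ΓSpecIso_inv_naturality φ).hom r).symm


/-- naming the isomorphism of `pullbackTildeIso` on global sections -/
def pbTildeTop (M : ModuleCat.{u} R) : (ModuleCat.extendScalars φ.hom).obj M →+
    Γ((Scheme.Modules.pullback (Spec.map φ)).obj (tilde M), ⊤) :=
  (((pullbackTildeIso φ).inv.app M).app ⊤).hom.comp
    (tildeTop ((ModuleCat.extendScalars φ.hom).obj M))

lemma pbTildeTop_bijective (M : ModuleCat.{u} R) : Function.Bijective (pbTildeTop φ M) := by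
  refine (ConcreteCategory.bijective_of_isIso
    (((pullbackTildeIso φ).inv.app M).app ⊤)).comp (tildeTop_bijective _)

lemma pbTildeTop_smul (M : ModuleCat.{u} R) (s : S) (x) :
    pbTildeTop φ M (s • x) = gs S s • pbTildeTop φ M x := by
  have h := Hom.app_smul ((pullbackTildeIso φ).inv.app M) (U := ⊤) (gs S s)
    (tildeTop ((ModuleCat.extendScalars φ.hom).obj M) x)
  have h2 := (tildeTop_smul ((ModuleCat.extendScalars φ.hom).obj M) s x).trans
    (smul_top_eq _ _ _)
  refine Eq.trans ?_ h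
  exact congr((((pullbackTildeIso φ).inv.app M).app ⊤).hom $h2)

lemma pbTildeTop_unit (M : ModuleCat.{u} R) (m : M) :
    pbTildeTop φ M (extUnit φ M m) = pbUnit (Spec.map φ) (tilde M) ⊤ (tildeTop M m) := by
  have h := pullbackTildeIso_unit_apply φ M m
  have h2 : ((pullbackTildeIso φ).inv.app M).app ⊤ (((pullbackTildeIso φ).hom.app M).app ⊤
    (pbUnit (Spec.map φ) (tilde M) ⊤ (tilde.toOpen M ⊤ m))) =
      (pbUnit (Spec.map φ) (tilde M) ⊤ (tilde.toOpen M ⊤ m)) := by
    have h3 : ((pullbackTildeIso φ).hom.app M) ≫ ((pullbackTildeIso φ).inv.app M) = 𝟙 _ :=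
      (pullbackTildeIso φ).hom_inv_id_app M
    exact congr(($h3).app ⊤ (pbUnit (Spec.map φ) (tilde M) ⊤ (tilde.toOpen M ⊤ m)))
  rw [h] at h2
  exact h2

lemma isBC_tilde (M : ModuleCat.{u} R) :
    IsBC ((Spec.map φ).app ⊤).hom (pbUnit (Spec.map φ) (tilde M) ⊤) := by
  refine IsBC.of_square' (gs R) (gs S) (tildeTop M) (pbTildeTop φ M) (gs_bijective R)
    (gs_bijective S) (tildeTop_bijective M) (pbTildeTop_bijective φ M)
    (fun r x ↦ (tildeTop_smul M r x).trans (smul_top_eq _ _ _)) (pbTildeTop_smul φ M)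
    ?_ ?_ (isBC_extUnit φ M)
  · ext r
    exact (gs_naturality φ r).symm
  · ext m
    exact pbTildeTop_unit φ M m

variable {X Y : Scheme.{u}}

lemma app_bijective_of_isIso {M N : X.Modules} (e : M ⟶ N) [IsIso e] (U : X.Opens) :
    Function.Bijective (e.app U).hom :=
  ConcreteCategory.bijective_of_isIso (e.app U)

/-- invariance of the base change property under isomorphism of sheaves. -/
lemma isBC_pbSec_of_iso (f : X ⟶ Y) {L L' : Y.Modules} (e : L ≅ L') (V : Y.Opens) (V' : X.Opens)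
    (h : V' ≤ f ⁻¹ᵁ V) (H : IsBC (f.appLE V V' h).hom (pbSec f L V V' h)) :
    IsBC (f.appLE V V' h).hom (pbSec f L' V V' h) := by
  refine IsBC.of_square' (RingHom.id _) (RingHom.id _) (e.hom.app V).hom
    (((Scheme.Modules.pullback f).mapIso e).hom.app V').hom Function.bijective_id
    Function.bijective_id (app_bijective_of_isIso _ _) (app_bijective_of_isIso _ _)
    (fun r x ↦ Hom.app_smul _ r x) (fun r x ↦ Hom.app_smul _ r x) rfl ?_ H
  ext x
  exact pbSec_naturality f e.hom V V' h x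

lemma pbSec_self (f : X ⟶ Y) (L : Y.Modules) (V : Y.Opens) :
    pbSec f L V (f ⁻¹ᵁ V) le_rfl = pbUnit f L V := by
  ext x
  exact res_self _ _ _

lemma appLE_self (f : X ⟶ Y) (V : Y.Opens) : f.appLE V (f ⁻¹ᵁ V) le_rfl = f.app V := by
  exact f.app_eq_appLE.symm

lemma isBC_spec (L : (Spec R).Modules) [L.IsQuasicoherent] :
    IsBC ((Spec.map φ).appLE ⊤ ⊤ le_rfl).hom (pbSec (Spec.map φ) L ⊤ ⊤ le_rfl) := by
  have : IsIso L.fromTildeΓ := inferInstance
  refine isBC_pbSec_of_iso (Spec.map φ) (asIso L.fromTildeΓ) ⊤ ⊤ le_rfl ?_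
  have h := isBC_tilde φ ((modulesSpecToSheaf.obj L).presheaf.obj (.op ⊤))
  rw [← pbSec_self, ← appLE_self] at h
  exact h

end Fermat.Agent.S25
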