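import Fermat.Agent.S25.PbOpen
import Fermat.Agent.S25.HomBasis
import Fermat.Agent.S25.Inv
import Fermat.Agent.S25.InvLocal

/-!
# S25: restriction of sections between affine opens, invertible modules of sections
-/

set_option autoImplicit false

universe u

open CategoryTheory CategoryTheory.Limits AlgebraicGeometry TopologicalSpace Opposite

noncomputable section

namespace Fermat.Agent.S25

open AlgebraicGeometry.Scheme.Modules

variable {X Y Z : Scheme.{u}}

lemma pbUnit_id (L : X.Modules) (V : X.Opens) (x : Γ(L, V)) :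
    ((pullbackId X).hom.app L).app V (pbUnit (𝟙 X) L V x) = x := by
  have h := unit_conjugateEquiv (Adjunction.id (C := X.Modules))
    (pullbackPushforwardAdjunction (𝟙 X)) (pullbackId X).hom L
  rw [conjugateEquiv_pullbackId_hom] at h
  have h' := congr(($h).app V x)
  exact h'.symm

lemma pbSec_id (L : X.Modules) {V V' : X.Opens} (h : V' ≤ V) (x : Γ(L, V)) :
    ((pullbackId X).hom.app L).app V' (pbSec (𝟙 X) L V V' h x) = res L h x := by
  have h1 := app_res ((pullbackId X).hom.app L) h (pbUnit (𝟙 X) L V x)
  refine Eq.trans h1 ?_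
  rw [pbUnit_id]
  rfl

theorem isBC_res (L : X.Modules) [L.IsQuasicoherent] {V V' : X.Opens}
    (hV : IsAffineOpen V) (hV' : IsAffineOpen V') (h : V' ≤ V) :
    IsBC (X.presheaf.map (homOfLE h).op).hom (res L h) := by
  have h1 := isBC_pbSec (𝟙 X) L V hV V' hV' h
  have h2 : IsBC (RingHom.id Γ(X, V')) (((pullbackId X).hom.app L).app V').hom := by
    refine .of_bijective _ _ Function.bijective_id (app_bijective_of_isIso _ _) ?_
    intro a m
    exact Hom.app_smul ((pullbackId X).hom.app L) a m
  have h3 := h1.comp h2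
  have h4 : (X.presheaf.map (homOfLE h).op).hom = (RingHom.id Γ(X, V')).comp
      (Scheme.Hom.appLE (𝟙 X) V V' h).hom := by
    rfl
  have h5 : res L h = (((pullbackId X).hom.app L).app V').hom.comp (pbSec (𝟙 X) L V V' h) := by
    ext x
    exact (pbSec_id L h x).symm
  rw [h4, h5]
  exact h3

lemma invertible_of_bijective {A B M N : Type u} [CommRing A] [CommRing B] [AddCommGroup M]
    [AddCommGroup N] [Module A M] [Module B N] (φ : A →+* B) (g : M →+ N)
    (hφ : Function.Bijective φ) (hg : Function.Bijective g)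
    (h : ∀ a m, g (a • m) = φ a • g m) [Module.Invertible B N] : Module.Invertible A M := by
  let e := RingEquiv.ofBijective φ hφ
  let e' := AddEquiv.ofBijective g hg
  have h1 : IsBC e.symm.toRingHom e'.symm.toAddMonoidHom := by
    refine .of_bijective _ _ e.symm.bijective e'.symm.bijective ?_
    intro a m
    obtain ⟨a, rfl⟩ := e.surjective a
    obtain ⟨m, rfl⟩ := e'.surjective m
    change e'.symm (e a • e' m) = e.symm (e a) • e'.symm (e' m)
    rw [e.symm_apply_apply, e'.symm_apply_apply, AddEquiv.symm_apply_eq]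
    exact (h a m).symm
  exact h1.invertible

instance (U : Scheme.{u}) (V : U.Opens) : Module.Invertible Γ(U, V)
    Γ(SheafOfModules.unit U.ringCatSheaf, V) :=
  inferInstanceAs (Module.Invertible Γ(U, V) Γ(U, V))

/-- sections of an invertible sheaf on an affine open form an invertible module -/
theorem invertible_sections (L : X.Modules) (hL : Scheme.Modules.IsInvertible L) {V : X.Opens}
    (hV : IsAffineOpen V) : Module.Invertible Γ(X, V) Γ(L, V) := by
  have := isQuasicoherent_of_isInvertible L hL
  choose U hxU e using hL.exists_trivialization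
  refine invertible_of_isBC_span {r : Γ(X, V) | ∃ x, X.basicOpen r ≤ U x} ?_ ?_
  · rw [← hV.self_le_iSup_basicOpen_iff]
    intro x hx
    obtain ⟨f, hf, hxf⟩ := hV.exists_basicOpen_le (V := U x) ⟨x, hxU x⟩ hx
    rw [Opens.mem_iSup]
    exact ⟨⟨f, x, hf⟩, hxf⟩
  · rintro r ⟨x, hr⟩
    refine ⟨Γ(X, X.basicOpen r), inferInstance,
      (X.presheaf.map (homOfLE (X.basicOpen_le r)).op).hom,
      Γ(L, X.basicOpen r), inferInstance, inferInstance, res L (X.basicOpen_le r),
      hV.isLocalization_basicOpen r, isBC_res L hV (hV.basicOpen r) (X.basicOpen_le r), ?_⟩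
    obtain ⟨e⟩ := e x
    let j := (U x).ι
    have hj : X.basicOpen r ≤ j.opensRange := by simpa [j] using hr
    refine invertible_of_bijective (j.appLE (X.basicOpen r) (j ⁻¹ᵁ (X.basicOpen r)) le_rfl).hom
      ((e.hom.app _).hom.comp (pbSec j L (X.basicOpen r) (j ⁻¹ᵁ (X.basicOpen r)) le_rfl))
      (appLE_bijective j _ _ le_rfl hj rfl)
      ((app_bijective_of_isIso e.hom _).comp (pbSec_bijective j L _ _ le_rfl hj rfl)) ?_
    intro a m
    have h1 := pbSec_smul j L (X.basicOpen r) (j ⁻¹ᵁ (X.basicOpen r)) le_rfl a m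
    refine (congrArg (e.hom.app _) h1).trans ?_
    exact Hom.app_smul e.hom _ _

end Fermat.Agent.S25
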