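import Mathlib
import Fermat.Prelude.Def_AlgebraicGeometry_RepresentsRelSubPic
import Fermat.Prelude.Def_AlgebraicGeometry_RelPicardAlgEquivZeroCut

/-!
# S25: the functor of rigidified line bundles satisfying a condition, on all schemes
-/

set_option autoImplicit false

universe u

open CategoryTheory CategoryTheory.Limits AlgebraicGeometry TopologicalSpace Opposite
open AlgebraicGeometry.RelPicard NeronModelInfra

noncomputable section

namespace Fermat.Agent.S25

variable {R : Type u} [CommRing R] {C : Scheme.{u}} {c : C ⟶ Spec (CommRingCat.of R)}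
  {ε : SchemeHomOver (𝟙 (Spec (CommRingCat.of R))) c}

/-- values of the functor: a structure morphism and a class satisfying the condition -/
def PicObj (P : SubPicCondition c ε) (T : Scheme.{u}) : Type (u + 1) :=
  Σ t : T ⟶ Spec (CommRingCat.of R),
    {x : RigidifiedLineBundle.Classes c ε t // ∃ M, P.P t M ∧ Quotient.mk _ M = x}

namespace PicObj

variable {P : SubPicCondition c ε} {T T' T'' : Scheme.{u}}

/-- the class of a rigidified line bundle -/
def mk (t : T ⟶ Spec (CommRingCat.of R)) (M : RigidifiedLineBundle c ε t) (hM : P.P t M) :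
    PicObj P T := ⟨t, Quotient.mk _ M, M, hM, rfl⟩

lemma exists_mk (x : PicObj P T) : ∃ t M hM, mk (P := P) t M hM = x := by
  obtain ⟨t, _, M, hM, rfl⟩ := x
  exact ⟨t, M, hM, rfl⟩

@[simp] lemma mk_fst (t : T ⟶ Spec (CommRingCat.of R)) (M : RigidifiedLineBundle c ε t)
    (hM : P.P t M) : (mk t M hM).1 = t := rfl

lemma mk_eq_mk_iff {t : T ⟶ Spec (CommRingCat.of R)} {M M' : RigidifiedLineBundle c ε t}
    {hM : P.P t M} {hM' : P.P t M'} : mk t M hM = mk t M' hM' ↔ Nonempty (M.L ≅ M'.L) := by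
  constructor
  · intro h
    have h1 : (⟨Quotient.mk _ M, M, hM, rfl⟩ :
      {x : RigidifiedLineBundle.Classes c ε t // ∃ M, P.P t M ∧ Quotient.mk _ M = x}) =
        ⟨Quotient.mk _ M', M', hM', rfl⟩ := eq_of_heq (Sigma.mk.inj h).2
    exact Quotient.exact (congrArg Subtype.val h1)
  · intro h
    have h1 : (Quotient.mk _ M : RigidifiedLineBundle.Classes c ε t) = Quotient.mk _ M' :=
      Quotient.sound h
    unfold mk
    congr 1
    exact Subtype.ext h1

lemma mk_eq_mk {t t' : T ⟶ Spec (CommRingCat.of R)} {M : RigidifiedLineBundle c ε t}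
    {M' : RigidifiedLineBundle c ε t'}
    {hM : P.P t M} {hM' : P.P t' M'} (h : t = t')
    (e : Nonempty ((Scheme.Modules.pullback (baseChangeSnd c ⟨𝟙 T, by simp [h]⟩ :
      pullback c t' ⟶ pullback c t)).obj M.L ≅ M'.L)) : mk t M hM = mk t' M' hM' := by
  subst h
  rw [mk_eq_mk_iff]
  obtain ⟨e⟩ := e
  exact ⟨((Scheme.Modules.pullbackId _).app M.L).symm ≪≫
    ((Scheme.Modules.pullbackCongr (baseChangeSnd_id c t)).app M.L).symm ≪≫ e⟩

lemma mk_pullbackAlong_congr {t : T ⟶ Spec (CommRingCat.of R)} {M : RigidifiedLineBundle c ε t}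
    {t' t'' : T' ⟶ Spec (CommRingCat.of R)} (ψ : SchemeHomOver t' t) (ψ' : SchemeHomOver t'' t)
    (h : ψ.1 = ψ'.1) (hM : P.P t' (M.pullbackAlong ψ)) (hM' : P.P t'' (M.pullbackAlong ψ')) :
    mk t' (M.pullbackAlong ψ) hM = mk t'' (M.pullbackAlong ψ') hM' := by
  obtain ⟨ψ, rfl⟩ := ψ
  obtain ⟨ψ', rfl⟩ := ψ'
  obtain rfl : ψ = ψ' := h
  rfl

/-- the action of morphisms -/
def map (g : T' ⟶ T) (x : PicObj P T) : PicObj P T' :=
  ⟨g ≫ x.1, RigidifiedLineBundle.classesMap ⟨g, rfl⟩ x.2.1, by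
    obtain ⟨t, _, M, hM, rfl⟩ := x
    exact ⟨M.pullbackAlong ⟨g, rfl⟩, P.pullback_mem _ _ _ _ hM, rfl⟩⟩

@[simp] lemma map_fst (g : T' ⟶ T) (x : PicObj P T) : (map g x).1 = g ≫ x.1 := rfl

lemma map_mk (g : T' ⟶ T) (t : T ⟶ Spec (CommRingCat.of R)) (M : RigidifiedLineBundle c ε t)
    (hM : P.P t M) : map g (mk t M hM) =
      mk (g ≫ t) (M.pullbackAlong ⟨g, rfl⟩) (P.pullback_mem _ _ _ _ hM) := rfl

lemma map_mk' (g : T' ⟶ T) (t : T ⟶ Spec (CommRingCat.of R)) (M : RigidifiedLineBundle c ε t)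
    (hM : P.P t M) {t' : T' ⟶ Spec (CommRingCat.of R)} (h : g ≫ t = t') : map g (mk t M hM) =
      mk t' (M.pullbackAlong ⟨g, h⟩) (P.pullback_mem _ _ _ _ hM) := by
  subst h; rfl

/-- pulling back twice -/
def pullbackAlongComp {t : T ⟶ Spec (CommRingCat.of R)}
    {t' : T' ⟶ Spec (CommRingCat.of R)} {t'' : T'' ⟶ Spec (CommRingCat.of R)}
    (M : RigidifiedLineBundle c ε t) (ψ : SchemeHomOver t' t) (χ : SchemeHomOver t'' t')
    (ω : SchemeHomOver t'' t) (h : χ.1 ≫ ψ.1 = ω.1) :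
    ((M.pullbackAlong ψ).pullbackAlong χ).L ≅ (M.pullbackAlong ω).L :=
  (Scheme.Modules.pullbackComp _ _).app M.L ≪≫
    (Scheme.Modules.pullbackCongr (by
      rw [baseChangeSnd_comp]
      congr 1
      exact Subtype.ext h)).app M.L

/-- pulling back along the identity -/
def pullbackAlongId {t : T ⟶ Spec (CommRingCat.of R)}
    (M : RigidifiedLineBundle c ε t) (ψ : SchemeHomOver t t) (h : ψ.1 = 𝟙 T) :
    (M.pullbackAlong ψ).L ≅ M.L :=
  (Scheme.Modules.pullbackCongr (by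
      rw [← baseChangeSnd_id]
      congr 1
      exact Subtype.ext h)).app M.L ≪≫ (Scheme.Modules.pullbackId _).app M.L

end PicObj

/-- the functor -/
def picFunctor (P : SubPicCondition c ε) : Scheme.{u}ᵒᵖ ⥤ Type (u + 1) where
  obj T := PicObj P T.unop
  map g := TypeCat.ofHom (PicObj.map g.unop)
  map_id T := TypeCat.homEquiv.injective (funext fun x ↦ by
    obtain ⟨t, M, hM, rfl⟩ := x.exists_mk
    refine (PicObj.map_mk' _ _ _ _ (Category.id_comp t)).trans ?_
    change _ = PicObj.mk t M hM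
    rw [PicObj.mk_eq_mk_iff]
    exact ⟨PicObj.pullbackAlongId M _ rfl⟩)
  map_comp f g := TypeCat.homEquiv.injective (funext fun x ↦ by
    obtain ⟨t, M, hM, rfl⟩ := x.exists_mk
    refine (PicObj.map_mk' _ _ _ _ (Category.assoc _ _ _)).trans ?_
    change _ = PicObj.map g.unop (PicObj.map f.unop (PicObj.mk t M hM))
    rw [PicObj.map_mk, PicObj.map_mk, PicObj.mk_eq_mk_iff]
    exact ⟨(PicObj.pullbackAlongComp M _ _ _ rfl).symm⟩)

@[simp] lemma picFunctor_map {P : SubPicCondition c ε} {T T' : Scheme.{u}} (g : T' ⟶ T)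
    (x : PicObj P T) : (picFunctor P).map g.op x = PicObj.map g x := rfl

end Fermat.Agent.S25
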