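import Fermat.Agent.S25.Rig
import Fermat.Agent.S25.HomGlue

/-!
# S25: gluing rigidified invertible sheaves
-/

set_option autoImplicit false
set_option linter.unusedVariables false

universe u

open CategoryTheory CategoryTheory.Limits AlgebraicGeometry TopologicalSpace Opposite

noncomputable section

namespace Fermat.Agent.S25

open AlgebraicGeometry.Scheme.Modules GlueMod

variable {X T : Scheme.{u}} {f : X ⟶ T} {σ : T ⟶ X}

namespace RigData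

variable {ι : Type u} (Ti : ι → T.Opens) (hcov : ∀ t : T, ∃ i, t ∈ Ti i)

include hcov in
/-- Locally isomorphic rigidified invertible sheaves are isomorphic. -/
theorem iso_of_local (hσ : σ ≫ f = 𝟙 T) (H : ∀ T' : T.Opens, Function.Bijective (f.app T'))
    {L L' : X.Modules} (A : RigData f σ ⊤ L) (A' : RigData f σ ⊤ L')
    (φ : ∀ i, LocHom (f ⁻¹ᵁ (Ti i)) L L') (hφ : ∀ i, (φ i).Bij) : Nonempty (L ≅ L') := by
  have h1 := fun i ↦ exists_compat hσ (A.restr hσ (le_top : Ti i ≤ ⊤))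
    (A'.restr hσ (le_top : Ti i ≤ ⊤)) (φ i) (hφ i)
  choose ψ hψ hc using h1
  have hij : ∀ i j, (ψ i).restr (inf_le_left : f ⁻¹ᵁ (Ti i) ⊓ f ⁻¹ᵁ (Ti j) ≤ _) =
      (ψ j).restr (inf_le_right : f ⁻¹ᵁ (Ti i) ⊓ f ⁻¹ᵁ (Ti j) ≤ _) := by
    intro i j
    refine compat_unique (T' := Ti i ⊓ Ti j) hσ H (A.restr hσ (le_top : Ti i ⊓ Ti j ≤ ⊤))
      (A'.restr hσ (le_top : Ti i ⊓ Ti j ≤ ⊤)) ((hψ i).restr _) ?_ ?_
    · intro W hW x
      exact hc i W (hW.trans (f.preimage_mono inf_le_left)) x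
    · intro W hW x
      exact hc j W (hW.trans (f.preimage_mono inf_le_right)) x
  have hcovX : ∀ x : X, ∃ i, x ∈ f ⁻¹ᵁ (Ti i) := fun x ↦ hcov (f x)
  obtain ⟨F, hF⟩ := exists_hom_of_family (L := L) (L' := L') (fun i ↦ f ⁻¹ᵁ (Ti i)) hcovX
    (fun _ ↦ True) (fun V x hx ↦ ⟨V, le_rfl, hx, trivial⟩) (fun i W _ hW ↦ (ψ i).app W hW)
    (fun i W _ hW r x ↦ (ψ i).smul W hW r x) (fun i U W _ _ h h' x ↦ (ψ i).res U W h h' x)
    (fun i j W _ h h' x ↦ by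
      have := congrArg (fun a : LocHom (f ⁻¹ᵁ (Ti i) ⊓ f ⁻¹ᵁ (Ti j)) L L' ↦
        a.app W (le_inf h h') x) (hij i j)
      exact this)
  have : IsIso F := by
    refine isIso_of_basis (isBas_of_cover (fun i ↦ f ⁻¹ᵁ (Ti i)) hcovX) fun W ⟨i, hW⟩ ↦ ?_
    have h2 : (F.app W : Γ(L, W) → Γ(L', W)) = (ψ i).app W hW :=
      funext fun x ↦ hF i W trivial hW x
    rw [h2]
    exact hψ i W hW
  exact ⟨asIso F⟩

include hcov in
/-- Gluing of rigidified invertible sheaves. -/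
theorem exists_glue_rig (hσ : σ ≫ f = 𝟙 T) (H : ∀ T' : T.Opens, Function.Bijective (f.app T'))
    (P : ι → X.Modules) (A : ∀ i, RigData f σ (Ti i) (P i))
    (φ : ∀ i j, LocHom (f ⁻¹ᵁ (Ti i ⊓ Ti j)) (P i) (P j)) (hφ : ∀ i j, (φ i j).Bij) :
    ∃ (L : X.Modules) (_ : RigData f σ ⊤ L) (ψ : ∀ i, LocHom (f ⁻¹ᵁ (Ti i)) L (P i)),
      ∀ i, (ψ i).Bij := by
  have h1 := fun i j ↦ exists_compat hσ ((A i).restr hσ (inf_le_left : Ti i ⊓ Ti j ≤ Ti i))
    ((A j).restr hσ (inf_le_right : Ti i ⊓ Ti j ≤ Ti j)) (φ i j) (hφ i j)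
  choose φ' hφ' hc using h1
  obtain ⟨L, ψ, hψ, hψφ⟩ := exists_glue_objects (fun i ↦ f ⁻¹ᵁ (Ti i)) P φ'
    (fun i W h x ↦ by
      have key : φ' i i = LocHom.id (P i) _ :=
        compat_unique (T' := Ti i ⊓ Ti i) hσ H ((A i).restr hσ inf_le_left)
          ((A i).restr hσ inf_le_left) (hφ' i i) (hc i i) (Compat.id _)
      have := congrArg (fun a : LocHom (f ⁻¹ᵁ (Ti i ⊓ Ti i)) (P i) (P i) ↦ a.app W h x) key
      exact this)
    (fun i j l W h h' h'' x ↦ by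
      have hT1 : Ti i ⊓ Ti j ⊓ Ti l ≤ Ti i ⊓ Ti j := inf_le_left
      have hT2 : Ti i ⊓ Ti j ⊓ Ti l ≤ Ti j ⊓ Ti l := inf_le_inf_right _ inf_le_right
      have hT3 : Ti i ⊓ Ti j ⊓ Ti l ≤ Ti i ⊓ Ti l := inf_le_inf_right _ inf_le_left
      have key : ((φ' j l).restr (f.preimage_mono hT2)).comp ((φ' i j).restr (f.preimage_mono hT1))
          = (φ' i l).restr (f.preimage_mono hT3) := by
        refine compat_unique (T' := Ti i ⊓ Ti j ⊓ Ti l) hσ H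
          ((A i).restr hσ (hT1.trans inf_le_left)) ((A l).restr hσ inf_le_right)
          (((hφ' j l).restr _).comp ((hφ' i j).restr _)) ?_ ?_
        · intro W hW x
          exact (hc j l W (hW.trans (f.preimage_mono hT2)) _).trans
            (hc i j W (hW.trans (f.preimage_mono hT1)) x)
        · intro W hW x
          exact hc i l W (hW.trans (f.preimage_mono hT3)) x
      have := congrArg (fun a : LocHom (f ⁻¹ᵁ (Ti i ⊓ Ti j ⊓ Ti l)) (P i) (P l) ↦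
        a.app W (fun y hy ↦ ⟨h hy, (h'' hy).2⟩) x) key
      exact this)
  let V : ι → X.Opens := fun i ↦ f ⁻¹ᵁ (Ti i)
  -- the local values of the rigidification
  have hlocal : ∀ (W : X.Opens) (x : Γ(L, W)), ∃ y : Γ(T, σ ⁻¹ᵁ W), ∀ i,
      rX (σ.preimage_mono (inf_le_left : W ⊓ V i ≤ W)) y =
        (A i).ρ (W ⊓ V i) inf_le_right ((ψ i).app (W ⊓ V i) inf_le_right
          (Fermat.Agent.S25.res L inf_le_left x)) := by
    intro W x
    refine exists_glueX (fun i ↦ σ ⁻¹ᵁ (W ⊓ V i)) (σ ⁻¹ᵁ W)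
      (fun i ↦ σ.preimage_mono (inf_le_left : W ⊓ V i ≤ W)) (fun t ht ↦ ?_) _ (fun i j ↦ ?_)
    · obtain ⟨i, hi⟩ := hcov t
      refine ⟨i, ht, ?_⟩
      show f (σ t) ∈ Ti i
      rwa [← Scheme.Hom.comp_apply, hσ]
    · have h2 := (A i).res ((W ⊓ V i) ⊓ (W ⊓ V j)) (W ⊓ V i) inf_le_left inf_le_right
        ((ψ i).app (W ⊓ V i) inf_le_right (Fermat.Agent.S25.res L inf_le_left x))
      have h3 := (A j).res ((W ⊓ V i) ⊓ (W ⊓ V j)) (W ⊓ V j) inf_le_right inf_le_right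
        ((ψ j).app (W ⊓ V j) inf_le_right (Fermat.Agent.S25.res L inf_le_left x))
      refine h2.symm.trans (Eq.trans ?_ h3)
      rw [← (ψ i).res, ← (ψ j).res, res_res, res_res]
      have hWij : (W ⊓ V i) ⊓ (W ⊓ V j) ≤ V i ⊓ V j :=
        le_inf (inf_le_left.trans inf_le_right) (inf_le_right.trans inf_le_right)
      rw [← hψφ i j _ hWij]
      exact (hc i j _ hWij _).symm
  choose ρ hρ using hlocal
  have hext : ∀ (W : X.Opens) (y z : Γ(T, σ ⁻¹ᵁ W)),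
      (∀ i, rX (σ.preimage_mono (inf_le_left : W ⊓ V i ≤ W)) y =
        rX (σ.preimage_mono (inf_le_left : W ⊓ V i ≤ W)) z) → y = z := by
    intro W y z h
    refine secX_ext fun t ht ↦ ?_
    obtain ⟨i, hi⟩ := hcov t
    refine ⟨σ ⁻¹ᵁ (W ⊓ V i), σ.preimage_mono inf_le_left, ⟨ht, ?_⟩, h i⟩
    show f (σ t) ∈ Ti i
    rwa [← Scheme.Hom.comp_apply, hσ]
  refine ⟨L, ⟨fun W hW ↦ AddMonoidHom.mk' (ρ W) fun x y ↦ hext W _ _ fun i ↦ ?_,
    fun W hW r x ↦ hext W _ _ fun i ↦ ?_, fun U W h h' x ↦ hext U _ _ fun i ↦ ?_,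
    fun x hx ↦ ?_, fun t ht ↦ ?_⟩, ψ, hψ⟩
  · rw [map_add (rX _), hρ, hρ, hρ, map_add (Fermat.Agent.S25.res L _), map_add, map_add]
  · simp only [AddMonoidHom.mk'_apply]
    rw [map_mul (rX _), hρ, hρ, res_smul', (ψ i).smul, (A i).smul]
    congr 1
    exact congr(($(σ.naturality (homOfLE (inf_le_left : W ⊓ V i ≤ W)).op)).hom r)
  · simp only [AddMonoidHom.mk'_apply]
    rw [hρ, rX_rX, res_res]
    have h3 : U ⊓ V i ≤ W ⊓ V i := inf_le_inf_right (V i) h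
    have h2 := congrArg (rX (σ.preimage_mono h3)) (hρ W x i)
    rw [rX_rX] at h2
    rw [h2, ← (A i).res _ _ h3 inf_le_right, ← (ψ i).res _ _ h3 inf_le_right, res_res]
  · obtain ⟨i, hi⟩ := hcov (f x)
    obtain ⟨W, hW, hxW, e, he⟩ := (A i).loc x hi
    exact ⟨W, le_top, hxW, ((ψ i).symm (hψ i)).app W hW e,
      LocHom.isGen ((ψ i).bij_symm (hψ i)) hW he⟩
  · obtain ⟨i, hi⟩ := hcov t
    obtain ⟨W, hW, htW, x, hx⟩ := (A i).surj t hi
    refine ⟨W, le_top, htW, ((ψ i).symm (hψ i)).app W hW x, ?_⟩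
    refine isUnit_of_local fun t' ht' ↦ ⟨σ ⁻¹ᵁ (W ⊓ V i), σ.preimage_mono inf_le_left,
      ⟨ht', hW ht'⟩, ?_⟩
    simp only [AddMonoidHom.mk'_apply]
    rw [hρ, ← ((ψ i).symm (hψ i)).res _ _ inf_le_left hW, LocHom.app_symm,
      (A i).res _ _ inf_le_left hW]
    exact hx.map _

end RigData

end Fermat.Agent.S25
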