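import Fermat.Agent.S25.RigBridge2

/-!
# S25: pushing rigidification data along open immersions
-/

set_option autoImplicit false
set_option linter.unusedVariables false

universe u

open CategoryTheory CategoryTheory.Limits AlgebraicGeometry TopologicalSpace Opposite

noncomputable section

namespace Fermat.Agent.S25

open AlgebraicGeometry.Scheme.Modules GlueMod

variable {X Y T S : Scheme.{u}} {f : X ⟶ T} {σ : T ⟶ X} {fY : Y ⟶ S} {σY : S ⟶ Y}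
  (g : Y ⟶ X) [IsOpenImmersion g] (j : S ⟶ T) [IsOpenImmersion j]

lemma isGen_push {N : Y.Modules} {W : X.Opens} (hW : W ≤ g.opensRange)
    {e : Γ(N, g ⁻¹ᵁ W)} (he : IsGen N e) : IsGen ((pushforward g).obj N) (W := W) e := by
  intro W' h
  have h1 : (fun a : Γ(X, W') ↦ a • res ((pushforward g).obj N) h
      (show Γ((pushforward g).obj N, W) from e)) =
      (fun a : Γ(Y, g ⁻¹ᵁ W') ↦ a • res N (g.preimage_mono h) e) ∘ (g.app W') := rfl
  rw [h1]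
  have : IsIso (g.app W') := g.isIso_app W' (h.trans hW)
  exact (he _ _).comp (ConcreteCategory.bijective_of_isIso (g.app W'))

/-- pushing rigidification data along an open immersion -/
def RigData.push (hσ' : σY ≫ g = j ≫ σ) (hsq : g ≫ f = fY ≫ j)
    (hr : f ⁻¹ᵁ j.opensRange ≤ g.opensRange) (hσ : σ ≫ f = 𝟙 T) {N : Y.Modules}
    (A : RigData fY σY ⊤ N) : RigData f σ j.opensRange ((pushforward g).obj N) := by
  have hle : ∀ W : X.Opens, σY ⁻¹ᵁ (g ⁻¹ᵁ W) = j ⁻¹ᵁ (σ ⁻¹ᵁ W) := fun W ↦ by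
    rw [← Scheme.Hom.comp_preimage, ← Scheme.Hom.comp_preimage, hσ']
  have hb : ∀ W : X.Opens, W ≤ f ⁻¹ᵁ j.opensRange → Function.Bijective
      (j.appLE (σ ⁻¹ᵁ W) (σY ⁻¹ᵁ (g ⁻¹ᵁ W)) (hle W).le).hom := fun W hW ↦
    appLE_bijective j _ _ _ (RigData.preim_le hσ hW) (hle W)
  refine ⟨fun W hW ↦ ((RingEquiv.ofBijective _ (hb W hW)).symm.toAddEquiv.toAddMonoidHom).comp
    (A.ρ (g ⁻¹ᵁ W) le_top), ?_, ?_, ?_, ?_⟩
  · intro W hW r x
    apply (hb W hW).1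
    have h1 : ∀ y, (j.appLE (σ ⁻¹ᵁ W) (σY ⁻¹ᵁ (g ⁻¹ᵁ W)) (hle W).le).hom
      ((RingEquiv.ofBijective _ (hb W hW)).symm y) = y :=
        (RingEquiv.ofBijective _ (hb W hW)).apply_symm_apply
    refine (h1 _).trans ?_
    rw [map_mul]
    refine Eq.trans ?_ (congrArg (_ * ·) (h1 _).symm)
    refine (A.smul (g ⁻¹ᵁ W) le_top (g.app W r) x).trans ?_
    congr 1
    have h2 : g.app W ≫ σY.app (g ⁻¹ᵁ W) = σ.app W ≫
        j.appLE (σ ⁻¹ᵁ W) (σY ⁻¹ᵁ (g ⁻¹ᵁ W)) (hle W).le := by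
      rw [← appLE_self g, ← appLE_self σY, ← appLE_self σ, Scheme.Hom.appLE_comp_appLE,
        Scheme.Hom.appLE_comp_appLE]
      simp only [hσ']
    exact congr(($h2).hom r)
  · intro U W h h' x
    apply (hb U (h.trans h')).1
    have h1 : ∀ U hU y, (j.appLE (σ ⁻¹ᵁ U) (σY ⁻¹ᵁ (g ⁻¹ᵁ U)) (hle U).le).hom
      ((RingEquiv.ofBijective _ (hb U hU)).symm y) = y := fun U hU ↦
        (RingEquiv.ofBijective _ (hb U hU)).apply_symm_apply
    refine (h1 U (h.trans h') _).trans ?_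
    refine (A.res (g ⁻¹ᵁ U) (g ⁻¹ᵁ W) (g.preimage_mono h) le_top x).trans ?_
    have h2 : j.appLE (σ ⁻¹ᵁ W) (σY ⁻¹ᵁ (g ⁻¹ᵁ W)) (hle W).le ≫
        S.presheaf.map (homOfLE (σY.preimage_mono (g.preimage_mono h))).op =
        T.presheaf.map (homOfLE (σ.preimage_mono h)).op ≫
        j.appLE (σ ⁻¹ᵁ U) (σY ⁻¹ᵁ (g ⁻¹ᵁ U)) (hle U).le := by
      rw [Scheme.Hom.appLE_map, Scheme.Hom.map_appLE]
    have h3 := congr(($h2).hom ((RingEquiv.ofBijective _ (hb W h')).symm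
      (A.ρ (g ⁻¹ᵁ W) le_top x)))
    refine Eq.trans ?_ h3
    exact congrArg (rX _) (h1 W h' _).symm
  · intro x hx
    obtain ⟨y, rfl⟩ := hr hx
    obtain ⟨W, hW, hyW, e, he⟩ := A.loc y trivial
    refine ⟨g ''ᵁ W, ?_, ⟨y, hyW, rfl⟩, Fermat.Agent.S25.res N (g.preimage_image_eq W).le e,
      isGen_push g (g.image_le_opensRange W) (he.res _)⟩
    rintro _ ⟨z, hz, rfl⟩
    show f (g z) ∈ j.opensRange
    rw [← Scheme.Hom.comp_apply, hsq]
    exact ⟨fY z, rfl⟩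
  · rintro _ ⟨s, rfl⟩
    obtain ⟨W, hW, hsW, x, hx⟩ := A.surj s trivial
    have hW' : g ''ᵁ W ≤ f ⁻¹ᵁ j.opensRange := by
      rintro _ ⟨z, hz, rfl⟩
      show f (g z) ∈ j.opensRange
      rw [← Scheme.Hom.comp_apply, hsq]
      exact ⟨fY z, rfl⟩
    refine ⟨g ''ᵁ W, hW', ⟨σY s, hsW, ?_⟩, Fermat.Agent.S25.res N (g.preimage_image_eq W).le x, ?_⟩
    · show g (σY s) = σ (j s)
      rw [← Scheme.Hom.comp_apply, ← Scheme.Hom.comp_apply, hσ']
    · change IsUnit ((RingEquiv.ofBijective _ (hb (g ''ᵁ W) hW')).symm (A.ρ (g ⁻¹ᵁ (g ''ᵁ W)) le_top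
        (Fermat.Agent.S25.res N (g.preimage_image_eq W).le x)))
      rw [A.res _ _ _ le_top]
      exact (hx.map _).map (RingEquiv.ofBijective _ (hb (g ''ᵁ W) hW')).symm

end Fermat.Agent.S25
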