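import Mathlib

/-!
# S25: criterion for Zariski sheaves on schemes
-/

set_option autoImplicit false

universe u w

open CategoryTheory CategoryTheory.Limits AlgebraicGeometry TopologicalSpace Opposite

noncomputable section

namespace Fermat.Agent.S25

/-- A presheaf on schemes is a Zariski sheaf if it satisfies descent for small families of open
immersions. -/
theorem isSheaf_of_small (F : Scheme.{u}ᵒᵖ ⥤ Type w)
    (sep : ∀ (T : Scheme.{u}) (ι : Type u) (U : ι → Scheme.{u}) (j : ∀ i, U i ⟶ T)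
      [∀ i, IsOpenImmersion (j i)], (∀ t : T, ∃ i, t ∈ Set.range (j i)) →
      ∀ x y : F.obj (op T), (∀ i, F.map (j i).op x = F.map (j i).op y) → x = y)
    (glue : ∀ (T : Scheme.{u}) (ι : Type u) (U : ι → Scheme.{u}) (j : ∀ i, U i ⟶ T)
      [∀ i, IsOpenImmersion (j i)], (∀ t : T, ∃ i, t ∈ Set.range (j i)) →
      ∀ x : ∀ i, F.obj (op (U i)),
      (∀ i i', F.map (pullback.fst (j i) (j i')).op (x i) =
        F.map (pullback.snd (j i) (j i')).op (x i')) →
      ∃ ξ : F.obj (op T), ∀ i, F.map (j i).op ξ = x i) :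
    Presheaf.IsSheaf Scheme.zariskiTopology F := by
  rw [isSheaf_iff_isSheaf_of_type]
  rw [Precoverage.isSheaf_toGrothendieck_iff_of_isStableUnderBaseChange]
  rintro T S hS x hx
  obtain ⟨(𝓤 : Scheme.OpenCover T), rfl⟩ := Scheme.exists_cover_of_mem_pretopology hS
  let s : ∀ i, F.obj (op (𝓤.X i)) := fun i ↦ x (𝓤.f i) (.mk i)
  have hs : ∀ i i', F.map (pullback.fst (𝓤.f i) (𝓤.f i')).op (s i) =
      F.map (pullback.snd (𝓤.f i) (𝓤.f i')).op (s i') := fun i i' ↦
    hx _ _ _ _ pullback.condition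
  -- a small subfamily
  let U : T → Scheme.{u} := fun t ↦ 𝓤.X (𝓤.idx t)
  let j : ∀ t : T, U t ⟶ T := fun t ↦ 𝓤.f (𝓤.idx t)
  have hj : ∀ t : T, ∃ i, t ∈ Set.range (j i) := fun t ↦ ⟨t, 𝓤.covers t⟩
  obtain ⟨ξ, hξ⟩ := glue T T U j hj (fun t ↦ s (𝓤.idx t)) (fun t t' ↦ hs _ _)
  refine ⟨ξ, ?_, ?_⟩
  · rintro Z _ ⟨i⟩
    refine sep (𝓤.X i) T (fun t ↦ pullback (𝓤.f i) (j t)) (fun t ↦ pullback.fst _ _) ?_ _ _ ?_
    · intro y
      obtain ⟨t, z, hz⟩ := hj (𝓤.f i y)
      obtain ⟨w, hw, -⟩ := Scheme.Pullback.exists_preimage_pullback y z hz.symm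
      exact ⟨t, w, hw⟩
    · intro t
      have h1 := hs i (𝓤.idx t)
      refine Eq.trans ?_ h1.symm
      have h2 := hξ t
      rw [← h2]
      rw [← FunctorToTypes.map_comp_apply, ← FunctorToTypes.map_comp_apply, ← op_comp, ← op_comp,
        pullback.condition]
  · intro y hy
    refine sep T T U j hj _ _ fun t ↦ ?_
    rw [hξ t]
    exact hy _ (.mk _)

end Fermat.Agent.S25
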