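import Fermat.Agent.S25.PicFun
import Fermat.Agent.S25.ZarSheaf
import Fermat.Agent.S25.RigGlue
import Fermat.Agent.S25.RigPush

/-!
# S25: the functor of rigidified line bundles is a Zariski sheaf
-/

set_option autoImplicit false
set_option linter.unusedVariables false

universe u

open CategoryTheory CategoryTheory.Limits AlgebraicGeometry TopologicalSpace Opposite
open AlgebraicGeometry.RelPicard NeronModelInfra

noncomputable section

namespace Fermat.Agent.S25

open AlgebraicGeometry.Scheme.Modules GlueMod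

section basics

variable {R : Type u} [CommRing R] {C : Scheme.{u}} (c : C ⟶ Spec (CommRingCat.of R))
  (ε : SchemeHomOver (𝟙 (Spec (CommRingCat.of R))) c)
  {T T' : Scheme.{u}} {t : T ⟶ Spec (CommRingCat.of R)} {t' : T' ⟶ Spec (CommRingCat.of R)}

lemma isPullback_baseChangeSnd (ψ : SchemeHomOver t' t) :
    IsPullback (baseChangeSnd c ψ) (pullback.snd c t') (pullback.snd c t) ψ.1 := by
  refine IsPullback.of_right (h₁₂ := pullback.fst c t) (v₁₃ := c) (h₂₂ := t) ?_ ?_
    (IsPullback.of_hasPullback c t)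
  · have h1 : baseChangeSnd c ψ ≫ pullback.fst c t = pullback.fst c t' :=
      (pullback.lift_fst _ _ _).trans (Category.comp_id _)
    have h2 : ψ.1 ≫ t = t' := ψ.2
    rw [h1, h2]
    exact IsPullback.of_hasPullback c t'
  · exact pullback.lift_snd _ _ _

instance isOpenImmersion_baseChangeSnd (ψ : SchemeHomOver t' t) [IsOpenImmersion ψ.1] :
    IsOpenImmersion (baseChangeSnd c ψ) :=
  MorphismProperty.of_isPullback (P := @IsOpenImmersion) (isPullback_baseChangeSnd c ψ).flip
    inferInstance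

lemma range_baseChangeSnd (ψ : SchemeHomOver t' t) (x : (pullback c t : Scheme.{u})) :
    x ∈ Set.range (baseChangeSnd c ψ) ↔ pullback.snd c t x ∈ Set.range ψ.1 := by
  have h := isPullback_baseChangeSnd c ψ
  constructor
  · rintro ⟨y, rfl⟩
    refine ⟨pullback.snd c t' y, ?_⟩
    rw [← Scheme.Hom.comp_apply, ← Scheme.Hom.comp_apply, h.w]
  · rintro ⟨u, hu⟩
    obtain ⟨z, hz, -⟩ := Scheme.Pullback.exists_preimage_pullback x u hu.symm
    refine ⟨h.isoPullback.inv z, ?_⟩
    rw [← Scheme.Hom.comp_apply, h.isoPullback_inv_fst, hz]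

lemma opensRange_baseChangeSnd (ψ : SchemeHomOver t' t) [IsOpenImmersion ψ.1] :
    (baseChangeSnd c ψ).opensRange = (pullback.snd c t) ⁻¹ᵁ ψ.1.opensRange := by
  ext x
  exact range_baseChangeSnd c ψ x

lemma rigSection_snd' (t : T ⟶ Spec (CommRingCat.of R)) :
    rigSection c t ε ≫ pullback.snd c t = 𝟙 T := pullback.lift_snd _ _ _

end basics

variable {R : Type u} [CommRing R] {C : Scheme.{u}} {c : C ⟶ Spec (CommRingCat.of R)}
  {ε : SchemeHomOver (𝟙 (Spec (CommRingCat.of R))) c}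

/-- Zariski-local conditions -/
def IsZarLocal (P : SubPicCondition c ε) : Prop :=
  ∀ {T : Scheme.{u}} (t : T ⟶ Spec (CommRingCat.of R)) (M : RigidifiedLineBundle c ε t)
    (ι : Type u) (U : ι → Scheme.{u}) (j : ∀ i, U i ⟶ T) [∀ i, IsOpenImmersion (j i)],
    (∀ t : T, ∃ i, t ∈ Set.range (j i)) →
    (∀ i, P.P (j i ≫ t) (M.pullbackAlong ⟨j i, rfl⟩)) → P.P t M

/-- open covers from families of open immersions -/
def mkCover {T : Scheme.{u}} {ι : Type u} (U : ι → Scheme.{u}) (j : ∀ i, U i ⟶ T)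
    [∀ i, IsOpenImmersion (j i)] (h : ∀ t : T, ∃ i, t ∈ Set.range (j i)) : T.OpenCover :=
  Scheme.Cover.mkOfCovers ι U j (fun x ↦ by
    obtain ⟨i, y, hy⟩ := h x
    exact ⟨i, y, hy⟩) (fun i ↦ inferInstance)

lemma mkCover_hom_ext {T Y : Scheme.{u}} {ι : Type u} (U : ι → Scheme.{u}) (j : ∀ i, U i ⟶ T)
    [∀ i, IsOpenImmersion (j i)] (h : ∀ t : T, ∃ i, t ∈ Set.range (j i)) (a b : T ⟶ Y)
    (hab : ∀ i, j i ≫ a = j i ≫ b) : a = b :=
  (mkCover U j h).hom_ext _ _ hab

section sheaf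

variable (H : ∀ {T : Scheme.{u}} (t : T ⟶ Spec (CommRingCat.of R)) (T' : T.Opens),
  Function.Bijective ((pullback.snd c t).app T'))

include H in
lemma picFunctor_sep (P : SubPicCondition c ε) (T : Scheme.{u}) (ι : Type u)
    (U : ι → Scheme.{u}) (j : ∀ i, U i ⟶ T)
    [∀ i, IsOpenImmersion (j i)] (hcov : ∀ t : T, ∃ i, t ∈ Set.range (j i))
    (x y : PicObj P T) (hxy : ∀ i, PicObj.map (j i) x = PicObj.map (j i) y) : x = y := by
  obtain ⟨t, M, hM, rfl⟩ := x.exists_mk
  obtain ⟨t', M', hM', rfl⟩ := y.exists_mk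
  obtain rfl : t = t' := mkCover_hom_ext U j hcov _ _ fun i ↦ congrArg Sigma.fst (hxy i)
  rw [PicObj.mk_eq_mk_iff]
  have e : ∀ i, Nonempty ((M.pullbackAlong (⟨j i, rfl⟩ : SchemeHomOver (j i ≫ t) t)).L ≅
    (M'.pullbackAlong (⟨j i, rfl⟩ : SchemeHomOver (j i ≫ t) t)).L) := fun i ↦
      (PicObj.mk_eq_mk_iff (hM := P.pullback_mem _ _ _ _ hM)
        (hM' := P.pullback_mem _ _ _ _ hM')).mp (hxy i)
  have hσ := rigSection_snd' c ε t
  refine RigData.iso_of_local (f := pullback.snd c t) (σ := rigSection c t ε)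
    (fun i ↦ (j i).opensRange) hcov hσ (fun T' ↦ H t T')
    (RigData.ofIso hσ M.L M.isInvertible M.rigidified.some)
    (RigData.ofIso hσ M'.L M'.isInvertible M'.rigidified.some)
    (fun i ↦ (LocHom.ofPullback (baseChangeSnd c (⟨j i, rfl⟩ : SchemeHomOver (j i ≫ t) t))
      (e i).some.hom).restr (opensRange_baseChangeSnd c
        (⟨j i, rfl⟩ : SchemeHomOver (j i ≫ t) t)).ge)
    (fun i ↦ (LocHom.ofPullback_bij _ _).restr _)

include H in
lemma picFunctor_glue (P : SubPicCondition c ε) (hP : IsZarLocal P) (T : Scheme.{u}) (ι : Type u)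
    (U : ι → Scheme.{u}) (j : ∀ i, U i ⟶ T)
    [∀ i, IsOpenImmersion (j i)] (hcov : ∀ t : T, ∃ i, t ∈ Set.range (j i))
    (x : ∀ i, PicObj P (U i))
    (hx : ∀ i i', PicObj.map (pullback.fst (j i) (j i')) (x i) =
        PicObj.map (pullback.snd (j i) (j i')) (x i')) :
    ∃ ξ : PicObj P T, ∀ i, PicObj.map (j i) ξ = x i := by
  obtain ⟨t, ht⟩ : ∃ t : T ⟶ Spec (CommRingCat.of R), ∀ i, (x i).1 = j i ≫ t := by
    have h1 : ∀ i i', pullback.fst (j i) (j i') ≫ (x i).1 = pullback.snd (j i) (j i') ≫ (x i').1 :=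
      fun i i' ↦ congrArg Sigma.fst (hx i i')
    exact ⟨(mkCover U j hcov).glueMorphisms (fun i ↦ (x i).1) h1,
      fun i ↦ ((mkCover U j hcov).ι_glueMorphisms (fun i ↦ (x i).1) h1 i).symm⟩
  have hM : ∀ i, ∃ (M : RigidifiedLineBundle c ε (j i ≫ t)) (hM : P.P (j i ≫ t) M),
      x i = PicObj.mk _ M hM := by
    intro i
    obtain ⟨t', M, hM, h⟩ := (x i).exists_mk
    obtain rfl : t' = j i ≫ t := (congrArg Sigma.fst h).trans (ht i)
    exact ⟨M, hM, h.symm⟩
  choose M hM hxM using hM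
  obtain rfl : x = fun i ↦ PicObj.mk _ (M i) (hM i) := funext hxM
  clear hxM ht
  have hσ := rigSection_snd' c ε t
  -- the isomorphisms on the intersections
  have hφ : ∀ i i', ∃ φ : LocHom ((pullback.snd c t) ⁻¹ᵁ ((j i).opensRange ⊓ (j i').opensRange))
      ((pushforward (baseChangeSnd c (⟨j i, rfl⟩ : SchemeHomOver (j i ≫ t) t))).obj (M i).L)
      ((pushforward (baseChangeSnd c (⟨j i', rfl⟩ : SchemeHomOver (j i' ≫ t) t))).obj (M i').L),
      φ.Bij := by
    intro i i'
    have h1 := hx i i'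
    have h0 : pullback.snd (j i) (j i') ≫ j i' ≫ t = pullback.fst (j i) (j i') ≫ j i ≫ t :=
      (pullback.condition_assoc t).symm
    rw [PicObj.map_mk, PicObj.map_mk' _ _ _ _ h0, PicObj.mk_eq_mk_iff] at h1
    obtain ⟨e⟩ := h1
    obtain ⟨φ, hφ⟩ := LocHom.exists_of_inter
      (baseChangeSnd c (⟨j i, rfl⟩ : SchemeHomOver (j i ≫ t) t))
      (baseChangeSnd c (⟨j i', rfl⟩ : SchemeHomOver (j i' ≫ t) t))
      (baseChangeSnd c (⟨pullback.fst (j i) (j i'), rfl⟩ :
        SchemeHomOver (pullback.fst (j i) (j i') ≫ j i ≫ t) (j i ≫ t)))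
      (baseChangeSnd c (⟨pullback.snd (j i) (j i'), h0⟩ :
        SchemeHomOver (pullback.fst (j i) (j i') ≫ j i ≫ t) (j i' ≫ t)))
      (by
        rw [baseChangeSnd_comp, baseChangeSnd_comp]
        congr 1
        exact Subtype.ext pullback.condition)
      (M i).L (M i').L e
    refine ⟨φ.restr ?_, hφ.restr _⟩
    rintro z ⟨hz1, hz2⟩
    change z ∈ Set.range (baseChangeSnd c _ ≫ baseChangeSnd c _)
    rw [baseChangeSnd_comp]
    refine (range_baseChangeSnd c _ z).mpr ?_
    have h2 : pullback.snd c t z ∈ (pullback.fst (j i) (j i') ≫ j i).opensRange := by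
      obtain ⟨u, hu⟩ := hz1
      obtain ⟨v, hv⟩ := hz2
      obtain ⟨w, hw, -⟩ := Scheme.Pullback.exists_preimage_pullback u v (hu.trans hv.symm)
      refine ⟨w, ?_⟩
      rw [Scheme.Hom.comp_apply, hw, hu]
    exact h2
  choose φ hφ using hφ
  obtain ⟨L, A, ψ, hψ⟩ := RigData.exists_glue_rig (f := pullback.snd c t) (σ := rigSection c t ε)
    (fun i ↦ (j i).opensRange) hcov hσ (fun T' ↦ H t T')
    (fun i ↦ (pushforward (baseChangeSnd c (⟨j i, rfl⟩ : SchemeHomOver (j i ≫ t) t))).obj (M i).L)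
    (fun i ↦ RigData.push (baseChangeSnd c (⟨j i, rfl⟩ : SchemeHomOver (j i ≫ t) t)) (j i)
      (rigSection_baseChangeSnd c ε _) (isPullback_baseChangeSnd c _).w
      (opensRange_baseChangeSnd c (⟨j i, rfl⟩ : SchemeHomOver (j i ≫ t) t)).ge hσ
      (RigData.ofIso (rigSection_snd' c ε (j i ≫ t)) (M i).L (M i).isInvertible
        (M i).rigidified.some)) φ hφ
  let N : RigidifiedLineBundle c ε t := ⟨L, A.isInvertible, A.nonempty_iso hσ⟩
  have hN : ∀ i, Nonempty ((N.pullbackAlong (⟨j i, rfl⟩ : SchemeHomOver (j i ≫ t) t)).L ≅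
      (M i).L) := fun i ↦ 
    ⟨(LocHom.toPullbackIso (baseChangeSnd c (⟨j i, rfl⟩ : SchemeHomOver (j i ≫ t) t))
      ((ψ i).restr (opensRange_baseChangeSnd c
        (⟨j i, rfl⟩ : SchemeHomOver (j i ≫ t) t)).le) ((hψ i).restr _)) ≪≫
      LocHom.pullbackPushIso _ _⟩
  have hPN : P.P t N := hP t N ι U j hcov fun i ↦
    P.congr _ _ _ ⟨(hN i).some.symm⟩ (hM i)
  refine ⟨PicObj.mk t N hPN, fun i ↦ ?_⟩
  exact (PicObj.mk_eq_mk_iff (hM := P.pullback_mem _ _ _ _ hPN)).mpr (hN i)

include H in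
/-- The functor of rigidified line bundles is a Zariski sheaf. -/
theorem picFunctor_isSheaf (P : SubPicCondition c ε) (hP : IsZarLocal P) :
    Presheaf.IsSheaf Scheme.zariskiTopology (picFunctor P) :=
  isSheaf_of_small (picFunctor P) (fun T ι U j _ hcov x y h ↦ picFunctor_sep H P T ι U j hcov x y h)
    (fun T ι U j _ hcov x hx ↦ picFunctor_glue H P hP T ι U j hcov x hx)

end sheaf

/-- The condition of being fibrewise algebraically equivalent to zero is Zariski-local. -/
theorem isZarLocal_algEquivZeroCut : IsZarLocal (algEquivZeroCut c ε) := by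
  intro T t M ι U j _ hcov h K _ _ s
  obtain ⟨i, hi⟩ := hcov (s (IsLocalRing.closedPoint K))
  have hrange : Set.range s ⊆ Set.range (j i) := by
    rintro _ ⟨p, rfl⟩
    have : p = IsLocalRing.closedPoint K := Subsingleton.elim (α := PrimeSpectrum K) _ _
    rw [this]
    exact hi
  let s' := IsOpenImmersion.lift (j i) s hrange
  have hs' : s' ≫ j i = s := IsOpenImmersion.lift_fac _ _ _
  have h1 := h i K s'
  let e : pullback (pullback.snd c t) s ⟶ pullback (pullback.snd c (j i ≫ t)) s' :=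
    pullback.lift (pullback.lift (pullback.fst _ _ ≫ pullback.fst _ _) (pullback.snd _ _ ≫ s') (by
      rw [Category.assoc, Category.assoc, pullback.condition, pullback.condition_assoc,
        reassoc_of% hs'])) (pullback.snd _ _) (pullback.lift_snd _ _ _)
  have he : e ≫ fibreAt c (j i ≫ t) s' = fibreAt c t s := pullback.lift_snd _ _ _
  have he2 : e ≫ pullback.fst (pullback.snd c (j i ≫ t)) s' ≫
      baseChangeSnd c (⟨j i, rfl⟩ : SchemeHomOver (j i ≫ t) t) =
        pullback.fst (pullback.snd c t) s := by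
    rw [pullback.lift_fst_assoc]
    apply pullback.hom_ext
    · rw [Category.assoc, baseChangeSnd, pullback.lift_fst, Category.comp_id, pullback.lift_fst]
    · rw [Category.assoc, baseChangeSnd, pullback.lift_snd, pullback.lift_snd_assoc,
        Category.assoc]
      simp only [hs', pullback.condition]
  refine IsAlgEquivZero.of_iso ?_ (h1.pullback e he)
  exact (Scheme.Modules.pullback e).mapIso ((Scheme.Modules.pullbackComp _ _).app M.L) ≪≫
    (Scheme.Modules.pullbackComp _ _).app M.L ≪≫ (Scheme.Modules.pullbackCongr he2).app M.L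

end Fermat.Agent.S25
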