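import Fermat.Agent.S25.Gen

/-!
# S25: rigidified invertible sheaves over opens, elementwise

`f : X ⟶ T` with a section `σ` such that `Γ(T', O) = Γ(f⁻¹ T', O)` for all opens `T'`.
`RigData f σ T' P`: over `f⁻¹ T'`, the sheaf `P` is invertible and is rigidified along `σ`.
-/

set_option autoImplicit false
set_option linter.unusedVariables false

universe u

open CategoryTheory CategoryTheory.Limits AlgebraicGeometry TopologicalSpace Opposite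

noncomputable section

namespace Fermat.Agent.S25

open AlgebraicGeometry.Scheme.Modules GlueMod

section prelim

variable {X : Scheme.{u}}

lemma isUnit_of_local {V : X.Opens} {s : Γ(X, V)}
    (h : ∀ x ∈ V, ∃ (W : X.Opens) (hW : W ≤ V), x ∈ W ∧ IsUnit (rX hW s)) : IsUnit s := by
  apply X.toRingedSpace.isUnit_of_isUnit_germ
  intro x hx
  obtain ⟨W, hW, hxW, hu⟩ := h x hx
  have := hu.map (X.presheaf.germ W x hxW).hom
  have h2 := X.presheaf.germ_res_apply (homOfLE hW) x hxW s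
  rw [← h2]
  exact this

lemma exists_glueX {ι : Type*} (U : ι → X.Opens) (V : X.Opens) (hle : ∀ i, U i ≤ V)
    (hcov : ∀ x ∈ V, ∃ i, x ∈ U i) (s : ∀ i, Γ(X, U i))
    (hs : ∀ i j, rX (inf_le_left : U i ⊓ U j ≤ U i) (s i) =
      rX (inf_le_right : U i ⊓ U j ≤ U j) (s j)) :
    ∃ t : Γ(X, V), ∀ i, rX (hle i) t = s i := by
  obtain ⟨t, ht, -⟩ := X.sheaf.existsUnique_gluing' U V (fun i ↦ homOfLE (hle i))
    (fun x hx ↦ by obtain ⟨i, hi⟩ := hcov x hx; exact Opens.mem_iSup.mpr ⟨i, hi⟩) s hs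
  exact ⟨t, ht⟩

end prelim

variable {X T : Scheme.{u}} (f : X ⟶ T) (σ : T ⟶ X)

/-- Rigidified invertible sheaves over `f⁻¹ T'`. -/
structure RigData (T' : T.Opens) (P : X.Modules) where
  ρ : ∀ W : X.Opens, W ≤ f ⁻¹ᵁ T' → (Γ(P, W) →+ Γ(T, σ ⁻¹ᵁ W))
  smul : ∀ W h (r : Γ(X, W)) (x : Γ(P, W)), ρ W h (r • x) = σ.app W r * ρ W h x
  res : ∀ U W (h : U ≤ W) (h' : W ≤ f ⁻¹ᵁ T') (x : Γ(P, W)),
    ρ U (h.trans h') (res P h x) = rX (σ.preimage_mono h) (ρ W h' x)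
  loc : ∀ x ∈ f ⁻¹ᵁ T', ∃ (W : X.Opens) (h : W ≤ f ⁻¹ᵁ T'), x ∈ W ∧ ∃ e : Γ(P, W), IsGen P e
  surj : ∀ t ∈ T', ∃ (W : X.Opens) (h : W ≤ f ⁻¹ᵁ T'), σ t ∈ W ∧
    ∃ x : Γ(P, W), IsUnit (ρ W h x)

namespace RigData

variable {f σ} {T' T'' : T.Opens} {P Q R : X.Modules}

/-- restriction to smaller opens of the base -/
def restr (hσ : σ ≫ f = 𝟙 T) (A : RigData f σ T' P) (h : T'' ≤ T') : RigData f σ T'' P where
  ρ W hW := A.ρ W (hW.trans (f.preimage_mono h))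
  smul W hW := A.smul W (hW.trans (f.preimage_mono h))
  res U W h₁ h₂ := A.res U W h₁ (h₂.trans (f.preimage_mono h))
  loc x hx := by
    obtain ⟨W, hW, hxW, e, he⟩ := A.loc x (h hx)
    exact ⟨W ⊓ f ⁻¹ᵁ T'', inf_le_right, ⟨hxW, hx⟩, _, he.res inf_le_left⟩
  surj t ht := by
    obtain ⟨W, hW, htW, x, hx⟩ := A.surj t (h ht)
    refine ⟨W ⊓ f ⁻¹ᵁ T'', inf_le_right, ⟨htW, ?_⟩, Fermat.Agent.S25.res P inf_le_left x, ?_⟩
    · show f (σ t) ∈ T''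
      rwa [← Scheme.Hom.comp_apply, hσ]
    · rw [A.res _ _ inf_le_left hW]
      exact hx.map _

lemma isUnit_gen (hσ : σ ≫ f = 𝟙 T) (A : RigData f σ T' P) {W : X.Opens} (hW : W ≤ f ⁻¹ᵁ T')
    {e : Γ(P, W)} (he : IsGen P e) : IsUnit (A.ρ W hW e) := by
  refine isUnit_of_local fun t ht ↦ ?_
  have htT : t ∈ T' := by
    have h1 : f (σ t) ∈ T' := hW ht
    rwa [← Scheme.Hom.comp_apply, hσ] at h1
  obtain ⟨W', hW', htW', x, hx⟩ := A.surj t htT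
  refine ⟨σ ⁻¹ᵁ (W ⊓ W'), σ.preimage_mono inf_le_left, ⟨ht, htW'⟩, ?_⟩
  rw [← A.res (W ⊓ W') W inf_le_left hW]
  have h2 := hx.map (rX (σ.preimage_mono (inf_le_right : W ⊓ W' ≤ W')))
  rw [← A.res (W ⊓ W') W' inf_le_right hW'] at h2
  obtain ⟨a, ha⟩ := (he.res (inf_le_left : W ⊓ W' ≤ W)).exists_smul
    (Fermat.Agent.S25.res P inf_le_right x)
  rw [← ha, A.smul] at h2
  exact isUnit_of_mul_isUnit_right h2

lemma app_rX_app (hσ : σ ≫ f = 𝟙 T) {W : X.Opens} (hW : W ≤ f ⁻¹ᵁ T') (hW' : σ ⁻¹ᵁ W ≤ T')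
    (v : Γ(T, T')) : σ.app W (rX hW (f.app T' v)) = rX hW' v := by
  have h1 : f.appLE T' W hW ≫ σ.appLE W (σ ⁻¹ᵁ W) le_rfl =
      (𝟙 T : T ⟶ T).appLE T' (σ ⁻¹ᵁ W) (by exact hW') := by
    rw [Scheme.Hom.appLE_comp_appLE]
    simp only [hσ]
  rw [appLE_self] at h1
  exact congr(($h1).hom v)

lemma preim_le (hσ : σ ≫ f = 𝟙 T) {W : X.Opens} (hW : W ≤ f ⁻¹ᵁ T') : σ ⁻¹ᵁ W ≤ T' := by
  intro t ht
  have h1 : f (σ t) ∈ T' := hW ht
  rwa [← Scheme.Hom.comp_apply, hσ] at h1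

/-- compatibility of a local morphism with rigidifications -/
def Compat (A : RigData f σ T' P) (A' : RigData f σ T' Q) (φ : LocHom (f ⁻¹ᵁ T') P Q) : Prop :=
  ∀ W h x, A'.ρ W h (φ.app W h x) = A.ρ W h x

/-- index set: opens over which there is a generator -/
def GenIdx (T' : T.Opens) (P : X.Modules) (f : X ⟶ T) : Type u :=
  {W : X.Opens // W ≤ f ⁻¹ᵁ T' ∧ ∃ e : Γ(P, W), IsGen P e}

/-- Rigidified isomorphisms are unique. -/
theorem compat_unique (hσ : σ ≫ f = 𝟙 T)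
    (H : ∀ T' : T.Opens, Function.Bijective (f.app T')) (A : RigData f σ T' P)
    (A' : RigData f σ T' Q) {φ φ' : LocHom (f ⁻¹ᵁ T') P Q} (hφ : φ.Bij) (h : A.Compat A' φ)
    (h' : A.Compat A' φ') : φ = φ' := by
  -- the ratio on the opens with a generator
  have hex : ∀ (W : X.Opens) (hW : W ≤ f ⁻¹ᵁ T') (e : Γ(P, W)), IsGen P e →
      ∃ w : Γ(X, W), w • φ.app W hW e = φ'.app W hW e := fun W hW e he ↦
    (LocHom.isGen hφ hW he).exists_smul _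
  choose w hw using hex
  have hwu : ∀ (U W : X.Opens) (hW : W ≤ f ⁻¹ᵁ T') (hUW : U ≤ W) (e : Γ(P, W)) (he : IsGen P e)
      (e' : Γ(P, U)) (he' : IsGen P e'), rX hUW (w W hW e he) = w U (hUW.trans hW) e' he' := by
    intro U W hW hUW e he e' he'
    obtain ⟨a, ha⟩ := (he.res hUW).exists_smul e'
    apply (LocHom.isGen hφ (hUW.trans hW) he').smul_inj
    rw [hw, ← ha, φ.smul, φ'.smul, φ.res U W hUW hW, φ'.res U W hUW hW, ← hw W hW e he,
      res_smul', smul_smul, smul_smul, mul_comm]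
  let gens : GenIdx T' P f → X.Opens := fun i ↦ i.1
  obtain ⟨ww, hww⟩ := exists_glueX gens (f ⁻¹ᵁ T') (fun i ↦ i.2.1)
    (fun x hx ↦ by
      obtain ⟨W, hW, hxW, e, he⟩ := A.loc x hx
      exact ⟨⟨W, hW, e, he⟩, hxW⟩)
    (fun i ↦ w i.1 i.2.1 i.2.2.choose i.2.2.choose_spec)
    (fun i j ↦ by
      rw [hwu _ _ i.2.1 inf_le_left _ i.2.2.choose_spec _ (i.2.2.choose_spec.res inf_le_left),
        hwu _ _ j.2.1 inf_le_right _ j.2.2.choose_spec _ (i.2.2.choose_spec.res inf_le_left)])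
  obtain ⟨v, hv⟩ := (H T').2 ww
  have hv1 : v = 1 := by
    refine secX_ext fun t ht ↦ ?_
    have hx : σ t ∈ f ⁻¹ᵁ T' := by
      show f (σ t) ∈ T'
      rwa [← Scheme.Hom.comp_apply, hσ]
    obtain ⟨W, hW, hxW, e, he⟩ := A.loc (σ t) hx
    refine ⟨σ ⁻¹ᵁ W, preim_le hσ hW, hxW, ?_⟩
    rw [← app_rX_app hσ hW (preim_le hσ hW), hv, map_one]
    let i : GenIdx T' P f := ⟨W, hW, e, he⟩
    have h1 : rX hW ww = w i.1 i.2.1 i.2.2.choose i.2.2.choose_spec := hww i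
    rw [h1]
    have h2 := h' W hW i.2.2.choose
    rw [← hw W hW _ i.2.2.choose_spec, A'.smul, h] at h2
    exact (A.isUnit_gen hσ hW i.2.2.choose_spec).mul_eq_right.mp h2
  have hw1 : ww = 1 := by rw [← hv, hv1, map_one]
  have hgen : ∀ (W : X.Opens) (hW : W ≤ f ⁻¹ᵁ T') (e : Γ(P, W)), IsGen P e →
      φ.app W hW e = φ'.app W hW e := by
    intro W hW e he
    let i : GenIdx T' P f := ⟨W, hW, e, he⟩
    have h1 : rX hW ww = w i.1 i.2.1 i.2.2.choose i.2.2.choose_spec := hww i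
    have h2 := hwu W W hW le_rfl _ i.2.2.choose_spec e he
    rw [rX_self] at h2
    rw [← hw W hW e he, ← h2]
    erw [← h1]
    rw [hw1, map_one, one_smul]
  ext W hW x
  refine sec_ext Q fun y hy ↦ ?_
  obtain ⟨W', hW', hyW', e, he⟩ := A.loc y (hW hy)
  refine ⟨W ⊓ W', inf_le_left, ⟨hy, hyW'⟩, ?_⟩
  rw [← φ.res _ _ inf_le_left hW, ← φ'.res _ _ inf_le_left hW]
  obtain ⟨a, ha⟩ := (he.res (inf_le_right : W ⊓ W' ≤ W')).exists_smul
    (Fermat.Agent.S25.res P inf_le_left x)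
  rw [← ha, φ.smul, φ'.smul, hgen _ _ _ (he.res inf_le_right)]

/-- Every isomorphism can be normalised to a rigidified one. -/
theorem exists_compat (hσ : σ ≫ f = 𝟙 T) (A : RigData f σ T' P)
    (A' : RigData f σ T' Q) (φ : LocHom (f ⁻¹ᵁ T') P Q) (hφ : φ.Bij) :
    ∃ φ' : LocHom (f ⁻¹ᵁ T') P Q, φ'.Bij ∧ A.Compat A' φ' := by
  -- the ratio on the opens with a generator
  have hex : ∀ (W : X.Opens) (hW : W ≤ f ⁻¹ᵁ T') (e : Γ(P, W)), IsGen P e →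
      ∃ w : Γ(T, σ ⁻¹ᵁ W), IsUnit w ∧ A'.ρ W hW (φ.app W hW e) = w * A.ρ W hW e := by
    intro W hW e he
    obtain ⟨u, hu⟩ := A.isUnit_gen hσ hW he
    have h2 := A'.isUnit_gen hσ hW (LocHom.isGen hφ hW he)
    exact ⟨A'.ρ W hW (φ.app W hW e) * ↑u⁻¹, h2.mul (Units.isUnit _), by rw [← hu]; simp⟩
  choose w hwunit hw using hex
  have hwu : ∀ (U W : X.Opens) (hW : W ≤ f ⁻¹ᵁ T') (hUW : U ≤ W) (e : Γ(P, W)) (he : IsGen P e)
      (e' : Γ(P, U)) (he' : IsGen P e'),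
      rX (σ.preimage_mono hUW) (w W hW e he) = w U (hUW.trans hW) e' he' := by
    intro U W hW hUW e he e' he'
    obtain ⟨a, ha⟩ := (he.res hUW).exists_smul e'
    apply (A.isUnit_gen hσ (hUW.trans hW) he').mul_left_injective
    simp only
    rw [← hw U (hUW.trans hW) e' he', ← ha, φ.smul, A'.smul, φ.res U W hUW hW,
      A'.res U W hUW hW, hw W hW e he, A.smul, A.res U W hUW hW, map_mul]
    ring
  let gens : GenIdx T' P f → T.Opens := fun i ↦ σ ⁻¹ᵁ i.1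
  obtain ⟨v, hv⟩ := exists_glueX gens T' (fun i ↦ preim_le hσ i.2.1)
    (fun t ht ↦ by
      have hx : σ t ∈ f ⁻¹ᵁ T' := by
        show f (σ t) ∈ T'
        rwa [← Scheme.Hom.comp_apply, hσ]
      obtain ⟨W, hW, hxW, e, he⟩ := A.loc (σ t) hx
      exact ⟨⟨W, hW, e, he⟩, hxW⟩)
    (fun i ↦ w i.1 i.2.1 i.2.2.choose i.2.2.choose_spec)
    (fun i j ↦ by
      have h1 := hwu (i.1 ⊓ j.1) i.1 i.2.1 inf_le_left _ i.2.2.choose_spec _
        (i.2.2.choose_spec.res inf_le_left)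
      have h2 := hwu (i.1 ⊓ j.1) j.1 j.2.1 inf_le_right _ j.2.2.choose_spec _
        (i.2.2.choose_spec.res inf_le_left)
      exact h1.trans h2.symm)
  have hvW : ∀ (W : X.Opens) (hW : W ≤ f ⁻¹ᵁ T') (e : Γ(P, W)) (he : IsGen P e),
      rX (preim_le hσ hW) v = w W hW e he := by
    intro W hW e he
    let i : GenIdx T' P f := ⟨W, hW, e, he⟩
    have h1 : rX (preim_le hσ hW) v = w i.1 i.2.1 i.2.2.choose i.2.2.choose_spec := hv i
    rw [h1]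
    have h2 := hwu W W hW le_rfl _ i.2.2.choose_spec e he
    rwa [rX_self] at h2
  have hvu : IsUnit v := by
    refine isUnit_of_local fun t ht ↦ ?_
    have hx : σ t ∈ f ⁻¹ᵁ T' := by
      show f (σ t) ∈ T'
      rwa [← Scheme.Hom.comp_apply, hσ]
    obtain ⟨W, hW, hxW, e, he⟩ := A.loc (σ t) hx
    refine ⟨σ ⁻¹ᵁ W, preim_le hσ hW, hxW, ?_⟩
    rw [hvW W hW e he]
    exact hwunit W hW e he
  have hρ : ∀ (W : X.Opens) (hW : W ≤ f ⁻¹ᵁ T') (x : Γ(P, W)),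
      A'.ρ W hW (φ.app W hW x) = rX (preim_le hσ hW) v * A.ρ W hW x := by
    intro W hW x
    refine secX_ext fun t ht ↦ ?_
    obtain ⟨W', hW', hyW', e, he⟩ := A.loc (σ t) (hW ht)
    refine ⟨σ ⁻¹ᵁ (W ⊓ W'), σ.preimage_mono inf_le_left, ⟨ht, hyW'⟩, ?_⟩
    rw [← A'.res _ _ inf_le_left hW, ← φ.res _ _ inf_le_left hW, map_mul, rX_rX,
      ← A.res _ _ inf_le_left hW]
    obtain ⟨a, ha⟩ := (he.res (inf_le_right : W ⊓ W' ≤ W')).exists_smul
      (Fermat.Agent.S25.res P inf_le_left x)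
    rw [← ha, φ.smul, A'.smul, A.smul, hw _ _ _ (he.res inf_le_right),
      ← hvW _ _ _ (he.res inf_le_right)]
    ring
  obtain ⟨vu, rfl⟩ := hvu
  refine ⟨LocHom.smulBy (f.app T' (↑vu⁻¹ : Γ(T, T'))) φ, hφ.smulBy ?_, ?_⟩
  · exact (Units.isUnit vu⁻¹).map (f.app T').hom
  · intro W hW x
    rw [LocHom.smulBy_app, A'.smul, app_rX_app hσ hW (preim_le hσ hW), hρ, ← mul_assoc,
      ← map_mul, Units.inv_mul, map_one, one_mul]

lemma Compat.comp {A : RigData f σ T' P} {A' : RigData f σ T' Q} {A'' : RigData f σ T' R}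
    {φ : LocHom (f ⁻¹ᵁ T') P Q} {ψ : LocHom (f ⁻¹ᵁ T') Q R} (h : A.Compat A' φ)
    (h' : A'.Compat A'' ψ) : A.Compat A'' (ψ.comp φ) := fun W hW x ↦ by
  rw [LocHom.comp_app, h', h]

lemma Compat.id (A : RigData f σ T' P) : A.Compat A (LocHom.id P _) := fun W hW x ↦ rfl

lemma Compat.restr (hσ : σ ≫ f = 𝟙 T) {A : RigData f σ T' P} {A' : RigData f σ T' Q}
    {φ : LocHom (f ⁻¹ᵁ T') P Q} (h : A.Compat A' φ) (hT : T'' ≤ T') :
    (A.restr hσ hT).Compat (A'.restr hσ hT) (φ.restr (f.preimage_mono hT)) :=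
  fun W hW x ↦ h W _ x

end RigData

end Fermat.Agent.S25
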