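import Fermat.Agent.S25.Asc

/-!
# S25: invertible modules give invertible sheaves
-/

set_option autoImplicit false

universe u

open CategoryTheory CategoryTheory.Limits AlgebraicGeometry TopologicalSpace Opposite

noncomputable section

namespace Fermat.Agent.S25

open AlgebraicGeometry.Scheme.Modules

variable {X Y Z : Scheme.{u}}

lemma IsInvertible.of_iso {L L' : X.Modules} (hL : Scheme.Modules.IsInvertible L) (e : L ≅ L') :
    Scheme.Modules.IsInvertible L' := by
  refine ⟨fun x ↦ ?_⟩
  obtain ⟨U, hU, ⟨f⟩⟩ := hL.exists_trivialization x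
  exact ⟨U, hU, ⟨(Scheme.Modules.pullback U.ι).mapIso e.symm ≪≫ f⟩⟩

/-- Invertibility is local for covers by open immersions. -/
lemma isInvertible_of_openImmersions (L : X.Modules)
    (h : ∀ x : X, ∃ (Y : Scheme.{u}) (j : Y ⟶ X) (_ : IsOpenImmersion j),
      x ∈ Set.range j ∧ Scheme.Modules.IsInvertible ((Scheme.Modules.pullback j).obj L)) :
    Scheme.Modules.IsInvertible L := by
  refine ⟨fun x ↦ ?_⟩
  obtain ⟨Y, j, _, ⟨y, rfl⟩, hj⟩ := h x
  obtain ⟨U, hyU, ⟨f⟩⟩ := hj.exists_trivialization y
  let j' : U.toScheme ⟶ X := U.ι ≫ j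
  refine ⟨j'.opensRange, ⟨⟨y, hyU⟩, by simp [j']⟩, ⟨?_⟩⟩
  have h1 : j'.isoOpensRange.inv ≫ U.ι ≫ j = j'.opensRange.ι := j'.isoOpensRange_inv_comp
  exact (Scheme.Modules.pullbackCongr h1.symm).app L ≪≫
    ((Scheme.Modules.pullbackComp _ _).app L).symm ≪≫
    (Scheme.Modules.pullback _).mapIso (((Scheme.Modules.pullbackComp _ _).app L).symm ≪≫ f) ≪≫
    Scheme.Modules.pullbackUnitIso _

/-- The sheaf associated with an invertible module is invertible. -/
lemma tilde_isInvertible {R : CommRingCat.{u}} (M : ModuleCat.{u} R) [Module.Invertible R M] :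
    Scheme.Modules.IsInvertible (tilde M) := by
  obtain ⟨s, hs, hfree⟩ := Module.Invertible.exists_finset_free_localization R M
  refine isInvertible_of_openImmersions _ fun y ↦ ?_
  obtain ⟨r, hrs, hr⟩ : ∃ r ∈ s, r ∉ y.asIdeal := by
    by_contra! hcon
    apply y.isPrime.ne_top
    rw [eq_top_iff, ← hs, Ideal.span_le]
    exact hcon
  have hfr := hfree r hrs
  let S : CommRingCat.{u} := CommRingCat.of (Localization.Away r)
  let φ : R ⟶ S := CommRingCat.ofHom (algebraMap R (Localization.Away r))
  refine ⟨Spec S, Spec.map φ, inferInstanceAs (IsOpenImmersion (Spec.map (CommRingCat.ofHom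
    (algebraMap R (Localization.Away r))))), ?_, ?_⟩
  · have h1 := PrimeSpectrum.localization_away_comap_range (Localization.Away r) r
    have h2 : y ∈ Set.range (PrimeSpectrum.comap (algebraMap R (Localization.Away r))) := by
      rw [h1]; exact hr
    exact h2
  have hqc : ((Scheme.Modules.pullback (Spec.map φ)).obj (tilde M)).IsQuasicoherent := by
    have : IsOpenImmersion (Spec.map φ) := inferInstanceAs (IsOpenImmersion (Spec.map
      (CommRingCat.ofHom (algebraMap R (Localization.Away r)))))
    infer_instance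
  obtain ⟨e⟩ := (Module.Invertible.free_iff_linearEquiv (R := Localization.Away r)
    (M := LocalizedModule.Away r M)).mp hfr
  have b1 : IsBC (gs R) (tildeTop M) := .of_bijective _ _ (gs_bijective R) (tildeTop_bijective M)
    fun a m ↦ by rw [← smul_top_eq]; exact tildeTop_smul _ _ _
  have b2 := b1.comp (isBC_spec φ (tilde M))
  have b3 : IsBC (algebraMap R (Localization.Away r))
      (LocalizedModule.mkLinearMap (.powers r) M).toAddMonoidHom :=
    IsBaseChange.isBC _ ((isLocalizedModule_iff_isBaseChange (.powers r)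
      (Localization.Away r) _).mp inferInstance)
  have b4 : IsBC (RingHom.id (Localization.Away r)) e.toLinearMap.toAddMonoidHom :=
    .of_bijective _ _ Function.bijective_id e.bijective fun a m ↦ by simp
  have b5 : IsBC (N := Γ(SheafOfModules.unit (Spec S).ringCatSheaf, ⊤)) (gs S)
      (gs S).toAddMonoidHom := .of_bijective _ _ (gs_bijective S) (gs_bijective S)
        fun a m ↦ (gs S).map_mul a m
  have b6 := (b3.comp b4).comp b5
  have h1 : (gs S).comp ((RingHom.id (Localization.Away r)).comp
      (algebraMap R (Localization.Away r))) =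
      ((Spec.map φ).appLE ⊤ ⊤ le_rfl).hom.comp (gs R) := by
    ext x
    exact (gs_naturality φ x).symm
  rw [h1] at b6
  obtain ⟨f, -⟩ := exists_iso_of_affine
    (L := (Scheme.Modules.pullback (Spec.map φ)).obj (tilde M))
    (L' := SheafOfModules.unit (Spec S).ringCatSheaf) (isAffineOpen_top _) (b2.equiv b6)
  exact IsInvertible.of_iso (Scheme.Modules.isInvertible_unit _) f.symm

end Fermat.Agent.S25
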