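import Fermat.Agent.S25.Rig
import Fermat.Agent.S25.IsoGlue
import Fermat.Agent.S25.TildeInv

/-!
# S25: bridges between morphisms of pullbacks, local morphisms and rigidifications
-/

set_option autoImplicit false
set_option linter.unusedVariables false

universe u

open CategoryTheory CategoryTheory.Limits AlgebraicGeometry TopologicalSpace Opposite

noncomputable section

namespace Fermat.Agent.S25

open AlgebraicGeometry.Scheme.Modules GlueMod

variable {X Y Y' Z T : Scheme.{u}}

namespace LocHom

/-- local morphisms from morphisms of pullbacks along an open immersion -/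
def ofPullback (h : Z ⟶ X) [IsOpenImmersion h] {P P' : X.Modules}
    (e : (Scheme.Modules.pullback h).obj P ⟶ (Scheme.Modules.pullback h).obj P') :
    LocHom h.opensRange P P' where
  app W hW := ((AddEquiv.ofBijective (pbUnit h P' W)
    (pbUnit_bijective h P' W hW)).symm.toAddMonoidHom.comp (e.app (h ⁻¹ᵁ W)).hom).comp
      (pbUnit h P W)
  smul W hW r x := by
    apply (pbUnit_bijective h P' W hW).1
    have h1 : ∀ y, pbUnit h P' W ((AddEquiv.ofBijective (pbUnit h P' W)
      (pbUnit_bijective h P' W hW)).symm y) = y :=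
      fun y ↦ (AddEquiv.ofBijective (pbUnit h P' W) (pbUnit_bijective h P' W hW)).apply_symm_apply y
    refine (h1 _).trans ?_
    rw [pbUnit_smul, pbUnit_smul]
    refine (Hom.app_smul e (h.app W r) (pbUnit h P W x)).trans ?_
    exact congrArg (_ • ·) (h1 _).symm
  res U W h₁ h₂ x := by
    apply (pbUnit_bijective h P' U (h₁.trans h₂)).1
    have h1 : ∀ U hU y, pbUnit h P' U ((AddEquiv.ofBijective (pbUnit h P' U)
      (pbUnit_bijective h P' U hU)).symm y) = y := fun U hU y ↦
      (AddEquiv.ofBijective (pbUnit h P' U) (pbUnit_bijective h P' U hU)).apply_symm_apply y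
    refine (h1 U (h₁.trans h₂) _).trans ?_
    rw [pbUnit_res, pbUnit_res]
    refine (app_res e (h.preimage_mono h₁) (pbUnit h P W x)).trans ?_
    exact congrArg (Fermat.Agent.S25.res _ _) (h1 W h₂ _).symm

lemma ofPullback_bij (h : Z ⟶ X) [IsOpenImmersion h] {P P' : X.Modules}
    (e : (Scheme.Modules.pullback h).obj P ⟶ (Scheme.Modules.pullback h).obj P') [IsIso e] :
    (ofPullback h e).Bij := fun W hW ↦
  ((AddEquiv.ofBijective (pbUnit h P' W) (pbUnit_bijective h P' W hW)).symm.bijective.comp
    (app_bijective_of_isIso e _)).comp (pbUnit_bijective h P W hW)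

/-- morphisms of restrictions from local morphisms -/
def toRestrict (h : Z ⟶ X) [IsOpenImmersion h] {P P' : X.Modules}
    (φ : LocHom h.opensRange P P') : P.restrict h ⟶ P'.restrict h :=
  mkHom (L := P.restrict h) (L' := P'.restrict h)
    (fun U ↦ φ.app (h ''ᵁ U) (h.image_le_opensRange U))
    (fun U r x ↦ φ.smul (h ''ᵁ U) (h.image_le_opensRange U) ((h.appIso U).inv r) x)
    (fun {U V} hUV x ↦ φ.res (h ''ᵁ U) (h ''ᵁ V) (h.image_mono hUV) (h.image_le_opensRange V) x)

lemma toRestrict_isIso (h : Z ⟶ X) [IsOpenImmersion h] {P P' : X.Modules}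
    {φ : LocHom h.opensRange P P'} (hφ : φ.Bij) : IsIso (toRestrict h φ) := by
  rw [Hom.isIso_iff_isIso_app]
  intro U
  rw [ConcreteCategory.isIso_iff_bijective]
  exact hφ (h ''ᵁ U) (h.image_le_opensRange U)

/-- isomorphisms of pullbacks from bijective local morphisms -/
def toPullbackIso (h : Z ⟶ X) [IsOpenImmersion h] {P P' : X.Modules}
    (φ : LocHom h.opensRange P P') (hφ : φ.Bij) :
    (Scheme.Modules.pullback h).obj P ≅ (Scheme.Modules.pullback h).obj P' :=
  haveI := toRestrict_isIso h hφ
  ((restrictFunctorIsoPullback h).app P).symm ≪≫ asIso (toRestrict h φ) ≪≫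
    (restrictFunctorIsoPullback h).app P'

/-- pullback of a pushforward along an open immersion -/
def pullbackPushIso (g : Y ⟶ X) [IsOpenImmersion g] (N : Y.Modules) :
    (Scheme.Modules.pullback g).obj ((pushforward g).obj N) ≅ N :=
  ((restrictFunctorIsoPullback g).app _).symm ≪≫ (restrictFunctorAdjCounitIso g).app N

/-- local isomorphisms between pushforwards, from isomorphisms on the intersection. -/
theorem exists_of_inter (g : Y ⟶ X) [IsOpenImmersion g] (g' : Y' ⟶ X) [IsOpenImmersion g']
    (p : Z ⟶ Y) (p' : Z ⟶ Y') [IsOpenImmersion p] (h : p ≫ g = p' ≫ g')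
    (N : Y.Modules) (N' : Y'.Modules)
    (e : (Scheme.Modules.pullback p).obj N ≅ (Scheme.Modules.pullback p').obj N') :
    ∃ φ : LocHom (p ≫ g).opensRange ((pushforward g).obj N) ((pushforward g').obj N'), φ.Bij := by
  let e1 : (Scheme.Modules.pullback (p ≫ g)).obj ((pushforward g).obj N) ≅
      (Scheme.Modules.pullback (p ≫ g)).obj ((pushforward g').obj N') :=
    ((Scheme.Modules.pullbackComp p g).app _).symm ≪≫
      (Scheme.Modules.pullback p).mapIso (pullbackPushIso g N) ≪≫ e ≪≫
      ((Scheme.Modules.pullback p').mapIso (pullbackPushIso g' N')).symm ≪≫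
      (Scheme.Modules.pullbackComp p' g').app _ ≪≫ (Scheme.Modules.pullbackCongr h.symm).app _
  exact ⟨ofPullback (p ≫ g) e1.hom, ofPullback_bij _ _⟩

/-- multiplication by a local section -/
def ofGen {P : X.Modules} {W : X.Opens} (e : Γ(P, W)) :
    LocHom W (SheafOfModules.unit X.ringCatSheaf : X.Modules) P where
  app U hU :=
    { toFun := fun (a : Γ(X, U)) ↦ a • Fermat.Agent.S25.res P hU e
      map_zero' := zero_smul _ _
      map_add' := fun (a b : Γ(X, U)) ↦ add_smul a b _ }
  smul U hU r x := mul_smul (r : Γ(X, U)) (x : Γ(X, U)) (Fermat.Agent.S25.res P hU e)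
  res U U' h h' x := by
    change (rX h (show Γ(X, U') from x) : Γ(X, U)) • Fermat.Agent.S25.res P (h.trans h') e =
      Fermat.Agent.S25.res P h ((show Γ(X, U') from x) • Fermat.Agent.S25.res P h' e)
    rw [res_smul', res_res]

lemma ofGen_bij {P : X.Modules} {W : X.Opens} {e : Γ(P, W)} (he : IsGen P e) : (ofGen e).Bij :=
  fun U hU ↦ he U hU

end LocHom

end Fermat.Agent.S25
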