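import Fermat.Agent.S25.RigBridge

/-!
# S25: `RigData` versus rigidified invertible sheaves
-/

set_option autoImplicit false
set_option linter.unusedVariables false

universe u

open CategoryTheory CategoryTheory.Limits AlgebraicGeometry TopologicalSpace Opposite

noncomputable section

namespace Fermat.Agent.S25

open AlgebraicGeometry.Scheme.Modules GlueMod

variable {X Y Y' Z T S : Scheme.{u}}

lemma pbSec_gen_bijective (σ : T ⟶ X) (L : X.Modules) [L.IsQuasicoherent] {W : X.Opens}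
    (hW : IsAffineOpen W) {e : Γ(L, W)} (he : IsGen L e) {O : T.Opens} (hO : IsAffineOpen O)
    (h : O ≤ σ ⁻¹ᵁ W) :
    Function.Bijective fun b : Γ(T, O) ↦ b • pbSec σ L W O h e := by
  have b1 : IsBC (RingHom.id Γ(X, W)) (AddMonoidHom.mk' (fun a : Γ(X, W) ↦ a • e)
      (fun a b ↦ add_smul a b e)) := by
    refine .of_bijective _ _ Function.bijective_id ?_ fun a m ↦ ?_
    · have := he W le_rfl
      simp only [res_self] at this
      exact this
    · simp [mul_smul]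
  have b2 := b1.comp (isBC_pbSec σ L W hW O hO h)
  have b3 := IsBC.self (σ.appLE W O h).hom
  rw [RingHom.comp_id] at b2
  have h1 : (fun b : Γ(T, O) ↦ b • pbSec σ L W O h e) = b3.equiv b2 := by
    ext b
    have h2 : (b3.equiv b2) 1 = pbSec σ L W O h e :=
      (congrArg (b3.equiv b2) (map_one (σ.appLE W O h).hom)).symm.trans
        ((b3.equiv_apply b2 1).trans (congrArg (pbSec σ L W O h) (one_smul _ e)))
    have h3 := (b3.equiv b2).map_smul b 1
    rw [smul_eq_mul, mul_one, h2] at h3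
    exact h3.symm
  rw [h1]
  exact (b3.equiv b2).bijective

lemma isGen_one : IsGen (SheafOfModules.unit X.ringCatSheaf : X.Modules) (W := ⊤)
    (1 : Γ(X, ⊤)) := by
  intro W' h
  have : (fun a : Γ(X, W') ↦ a • res (SheafOfModules.unit X.ringCatSheaf : X.Modules) h
      (show Γ((SheafOfModules.unit X.ringCatSheaf : X.Modules), ⊤) from (1 : Γ(X, ⊤)))) =
      fun a ↦ (show Γ((SheafOfModules.unit X.ringCatSheaf : X.Modules), W') from a) := by
    ext a
    have h1 : rX h (1 : Γ(X, ⊤)) = 1 := map_one _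
    change a * rX h (1 : Γ(X, ⊤)) = a
    rw [h1, mul_one]
  rw [this]
  exact Function.bijective_id

/-- invertible sheaves have local generators -/
lemma exists_gen (L : X.Modules) (hL : Scheme.Modules.IsInvertible L) (x : X) :
    ∃ (W : X.Opens) (_ : x ∈ W) (e : Γ(L, W)), IsGen L e := by
  obtain ⟨U, hU, ⟨f⟩⟩ := hL.exists_trivialization x
  let g : (Scheme.Modules.pullback U.ι).obj (SheafOfModules.unit X.ringCatSheaf) ≅
    (Scheme.Modules.pullback U.ι).obj L := Scheme.Modules.pullbackUnitIso U.ι ≪≫ f.symm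
  let φ := LocHom.ofPullback U.ι g.hom
  have hφ : φ.Bij := LocHom.ofPullback_bij U.ι g.hom
  have hUr : x ∈ U.ι.opensRange := by simpa using hU
  exact ⟨U.ι.opensRange, hUr, _, LocHom.isGen hφ le_rfl (isGen_one.res le_top)⟩

/-- invertible sheaves are those with local generators -/
lemma isInvertible_of_gen (L : X.Modules)
    (h : ∀ x : X, ∃ (W : X.Opens) (_ : x ∈ W) (e : Γ(L, W)), IsGen L e) :
    Scheme.Modules.IsInvertible L := by
  refine ⟨fun x ↦ ?_⟩
  obtain ⟨W, hx, e, he⟩ := h x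
  refine ⟨W, hx, ⟨?_⟩⟩
  have hW : W.ι.opensRange ≤ W := by simp
  exact (LocHom.toPullbackIso W.ι ((LocHom.ofGen e).restr hW)
    ((LocHom.ofGen_bij he).restr hW)).symm ≪≫ Scheme.Modules.pullbackUnitIso W.ι

section b1

variable {f : X ⟶ T} {σ : T ⟶ X}

/-- The rigidification data of a rigidified invertible sheaf. -/
def RigData.ofIso (hσ : σ ≫ f = 𝟙 T) (L : X.Modules) (hL : Scheme.Modules.IsInvertible L)
    (r : (Scheme.Modules.pullback σ).obj L ≅ SheafOfModules.unit T.ringCatSheaf) :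
    RigData f σ ⊤ L where
  ρ W hW := (show Γ((Scheme.Modules.pullback σ).obj L, σ ⁻¹ᵁ W) →+ Γ(T, σ ⁻¹ᵁ W) from
    (r.hom.app (σ ⁻¹ᵁ W)).hom).comp (pbUnit σ L W)
  smul W hW a x := by
    have h1 := pbUnit_smul σ L W a x
    refine (congrArg (r.hom.app (σ ⁻¹ᵁ W)) h1).trans ?_
    exact Hom.app_smul r.hom (σ.app W a) (pbUnit σ L W x)
  res U W h h' x := by
    have h1 := pbUnit_res σ L h x
    refine (congrArg (r.hom.app (σ ⁻¹ᵁ U)) h1).trans ?_
    exact app_res r.hom (σ.preimage_mono h) (pbUnit σ L W x)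
  loc x hx := by
    obtain ⟨W, hx, e, he⟩ := exists_gen L hL x
    exact ⟨W, le_top, hx, e, he⟩
  surj t ht := by
    have := isQuasicoherent_of_isInvertible L hL
    obtain ⟨W₀, hx, e₀, he₀⟩ := exists_gen L hL (σ t)
    obtain ⟨_, ⟨W, hW, rfl⟩, htW, hWW⟩ :=
      X.isBasis_affineOpens.exists_subset_of_mem_open hx W₀.2
    have htW' : t ∈ (σ ⁻¹ᵁ W : T.Opens) := htW
    obtain ⟨_, ⟨O, hO, rfl⟩, htO, hOW⟩ :=
      T.isBasis_affineOpens.exists_subset_of_mem_open htW' (σ ⁻¹ᵁ W).2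
    have hOW' : O ≤ σ ⁻¹ᵁ W := hOW
    obtain ⟨e, he⟩ : ∃ e : Γ(L, W), IsGen L e := ⟨_, he₀.res (show W ≤ W₀ from hWW)⟩
    have hb := pbSec_gen_bijective σ L hW he hO hOW'
    have hr := app_bijective_of_isIso r.hom O
    obtain ⟨y, hy⟩ := hr.2 (show Γ((SheafOfModules.unit T.ringCatSheaf : T.Modules), O) from
      (1 : Γ(T, O)))
    obtain ⟨b, hb⟩ := hb.2 y
    have h2 : b * (show Γ(T, O) from r.hom.app O (pbSec σ L W O hOW' e)) = 1 := by
      refine Eq.trans ?_ hy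
      rw [← hb]
      exact (Hom.app_smul r.hom b (pbSec σ L W O hOW' e)).symm
    have hWO : σ ⁻¹ᵁ (W ⊓ f ⁻¹ᵁ O) ≤ O := by
      rintro s ⟨hs1, hs2⟩
      have : f (σ s) ∈ O := hs2
      rwa [← Scheme.Hom.comp_apply, hσ] at this
    refine ⟨W ⊓ f ⁻¹ᵁ O, le_top, ⟨htW, ?_⟩, Fermat.Agent.S25.res L inf_le_left e, ?_⟩
    · show f (σ t) ∈ O
      rwa [← Scheme.Hom.comp_apply, hσ]
    · have h3 : IsUnit (show Γ(T, O) from r.hom.app O (pbSec σ L W O hOW' e)) :=
        IsUnit.of_mul_eq_one b (by rw [mul_comm]; exact h2)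
      have h4 := h3.map (rX hWO)
      convert h4 using 1
      have h5 := app_res r.hom hWO (pbSec σ L W O hOW' e)
      refine Eq.trans ?_ h5
      refine congrArg (r.hom.app _) ?_
      simp only [pbSec, AddMonoidHom.coe_comp, Function.comp_apply]
      rw [res_res, pbUnit_res]

lemma RigData.isInvertible {L : X.Modules} (A : RigData f σ ⊤ L) :
    Scheme.Modules.IsInvertible L :=
  isInvertible_of_gen L fun x ↦ by
    obtain ⟨W, _, hx, e, he⟩ := A.loc x trivial
    exact ⟨W, hx, e, he⟩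

/-- the rigidification as a morphism to the pushforward -/
def RigData.mor {L : X.Modules} (A : RigData f σ ⊤ L) :
    L ⟶ (pushforward σ).obj (SheafOfModules.unit T.ringCatSheaf : T.Modules) :=
  mkHom (L := L) (L' := (pushforward σ).obj (SheafOfModules.unit T.ringCatSheaf : T.Modules))
    (fun W ↦ A.ρ W le_top) (fun W r x ↦ A.smul W le_top r x)
    (fun {U W} h x ↦ A.res U W h le_top x)

/-- the rigidification -/
def RigData.adj {L : X.Modules} (A : RigData f σ ⊤ L) :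
    (Scheme.Modules.pullback σ).obj L ⟶ (SheafOfModules.unit T.ringCatSheaf : T.Modules) :=
  ((pullbackPushforwardAdjunction σ).homEquiv _ _).symm A.mor

lemma RigData.adj_pbUnit {L : X.Modules} (A : RigData f σ ⊤ L) (W : X.Opens) (x : Γ(L, W)) :
    A.adj.app (σ ⁻¹ᵁ W) (pbUnit σ L W x) = A.ρ W le_top x := by
  have h1 : (pullbackPushforwardAdjunction σ).homEquiv _ _ A.adj = A.mor :=
    Equiv.apply_symm_apply _ _
  rw [Adjunction.homEquiv_unit] at h1
  exact congr(($h1).app W x)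

lemma RigData.isIso_adj {L : X.Modules} (hσ : σ ≫ f = 𝟙 T) (A : RigData f σ ⊤ L) :
    IsIso A.adj := by
  have hinv := A.isInvertible
  have hqc := isQuasicoherent_of_isInvertible L hinv
  have hP : IsBas fun O : T.Opens ↦ IsAffineOpen O ∧ ∃ (W : X.Opens) (_ : IsAffineOpen W)
      (_ : O ≤ σ ⁻¹ᵁ W) (e : Γ(L, W)), IsGen L e := by
    intro U t ht
    obtain ⟨W₀, hx, e₀, he₀⟩ := exists_gen L hinv (σ t)
    obtain ⟨_, ⟨W, hW, rfl⟩, htW, hWW⟩ :=
      X.isBasis_affineOpens.exists_subset_of_mem_open hx W₀.2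
    have htW' : t ∈ (σ ⁻¹ᵁ W ⊓ U : T.Opens) := ⟨htW, ht⟩
    obtain ⟨_, ⟨O, hO, rfl⟩, htO, hOW⟩ :=
      T.isBasis_affineOpens.exists_subset_of_mem_open htW' (σ ⁻¹ᵁ W ⊓ U).2
    exact ⟨O, fun y hy ↦ (hOW hy).2, htO, hO, W, hW, fun y hy ↦ (hOW hy).1, _,
      he₀.res (show W ≤ W₀ from hWW)⟩
  refine isIso_of_basis hP ?_
  rintro O ⟨hO, W, hW, hOW, e, he⟩
  have hb := pbSec_gen_bijective σ L hW he hO hOW
  have hu := (A.isUnit_gen hσ (show W ≤ f ⁻¹ᵁ ⊤ from le_top) he).map (rX hOW)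
  have h1 : (A.adj.app O) ∘ (fun b : Γ(T, O) ↦ b • pbSec σ L W O hOW e) =
      fun b : Γ(T, O) ↦ b * rX hOW (A.ρ W le_top e) := by
    ext b
    refine (Hom.app_smul A.adj b (pbSec σ L W O hOW e)).trans ?_
    refine congrArg (b • ·) ?_
    refine (app_res A.adj hOW (pbUnit σ L W e)).trans ?_
    rw [A.adj_pbUnit]
    rfl
  have h2 : Function.Bijective (fun b : Γ(T, O) ↦ b * rX hOW (A.ρ W le_top e)) := by
    obtain ⟨u, hu⟩ := hu
    rw [← hu]
    exact ⟨fun x y hxy ↦ u.mul_left_inj.mp hxy, fun y ↦ ⟨y * ↑u⁻¹, by simp [mul_assoc]⟩⟩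
  rw [← h1] at h2
  exact (Function.Bijective.of_comp_iff _ hb).mp h2

lemma RigData.nonempty_iso {L : X.Modules} (hσ : σ ≫ f = 𝟙 T) (A : RigData f σ ⊤ L) :
    Nonempty ((Scheme.Modules.pullback σ).obj L ≅ SheafOfModules.unit T.ringCatSheaf) :=
  haveI := A.isIso_adj hσ
  ⟨asIso A.adj⟩

end b1

end Fermat.Agent.S25
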