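import Mathlib
import Fermat.Agent.S25.SubOf

/-!
# S25, package ALG3 (3): products of ideals, kernels of points
-/

set_option autoImplicit false

universe u

open scoped TensorProduct Polynomial

noncomputable section

namespace Fermat.Agent.S25

open TwoChart

namespace Cut

section

variable {B R N : Type u} [CommRing B] [CommRing R] [Algebra B R] [AddCommGroup N] [Module R N]
  [Module B N] [IsScalarTower B R N]

lemma projective_pi (n : ℕ) [Module.Projective B R] : Module.Projective B (Fin n → R) :=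
  Module.Projective.of_equiv (DFinsupp.linearEquivFunOnFintype (R := B) (M := fun _ : Fin n ↦ R))

/-- transitivity -/
lemma projective_trans [Module.Projective B R] [Module.Finite R N] [Module.Projective R N] :
    Module.Projective B N := by
  obtain ⟨n, f, g, -, -, hfg⟩ := Module.Finite.exists_comp_eq_id_of_projective R N
  haveI := projective_pi (B := B) (R := R) n
  refine Module.Projective.of_split (g.restrictScalars B) (f.restrictScalars B) ?_
  ext x
  exact congr($hfg x)

end

lemma projective_of_exact {B N E Q : Type u} [CommRing B] [AddCommGroup N] [AddCommGroup E]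
    [AddCommGroup Q] [Module B N] [Module B E] [Module B Q] (f : N →ₗ[B] E) (g : E →ₗ[B] Q)
    (hf : Function.Injective f) (hg : Function.Surjective g) (h : Function.Exact f g)
    [Module.Projective B N] [Module.Projective B Q] : Module.Projective B E := by
  obtain ⟨s, hs⟩ := Module.projective_lifting_property g LinearMap.id hg
  let e := (h.splitSurjectiveEquiv hf ⟨s, hs⟩).1
  exact Module.Projective.of_equiv e.symm

section

variable {B R : Type u} [CommRing B] [CommRing R] [Algebra B R] (I J : Ideal R)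

/-- `I / IJ → R / IJ` -/
def mulIncl : (I ⧸ (J • ⊤ : Submodule R I)) →ₗ[R] R ⧸ (I * J) :=
  Submodule.mapQ (J • ⊤ : Submodule R I) (I * J) I.subtype (by
    rw [← Submodule.map_le_iff_le_comap, Submodule.map_smul'', Submodule.map_top,
      Submodule.range_subtype, mul_comm]
    exact le_rfl)

lemma mulIncl_injective : Function.Injective (mulIncl I J) := by
  rw [injective_iff_map_eq_zero]
  intro x hx
  obtain ⟨x, rfl⟩ := Submodule.Quotient.mk_surjective _ x
  rw [Submodule.Quotient.mk_eq_zero]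
  have h1 : (x : R) ∈ I * J := (Submodule.Quotient.mk_eq_zero _).mp hx
  have h2 : (x : R) ∈ (J • ⊤ : Submodule R I).map I.subtype := by
    rw [Submodule.map_smul'', Submodule.map_top, Submodule.range_subtype]
    rw [mul_comm] at h1
    exact h1
  obtain ⟨y, hy, hxy⟩ := h2
  have : y = x := Subtype.ext hxy
  rwa [← this]

/-- `R / IJ → R / I` -/
def mulProj : (R ⧸ (I * J)) →ₗ[R] R ⧸ I :=
  Submodule.mapQ (I * J) I LinearMap.id Ideal.mul_le_left

lemma mulProj_surjective : Function.Surjective (mulProj I J) := by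
  intro x
  obtain ⟨x, rfl⟩ := Submodule.Quotient.mk_surjective _ x
  exact ⟨Submodule.Quotient.mk x, rfl⟩

lemma mul_exact : Function.Exact (mulIncl I J) (mulProj I J) := by
  intro x
  obtain ⟨x, rfl⟩ := Submodule.Quotient.mk_surjective _ x
  constructor
  · intro hx
    have h1 : x ∈ I := (Submodule.Quotient.mk_eq_zero _).mp hx
    exact ⟨Submodule.Quotient.mk ⟨x, h1⟩, rfl⟩
  · rintro ⟨y, hy⟩
    obtain ⟨y, rfl⟩ := Submodule.Quotient.mk_surjective _ y
    rw [← hy]
    show Submodule.Quotient.mk (y : R) = 0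
    rw [Submodule.Quotient.mk_eq_zero]
    exact y.2

variable [Module.Invertible R I] [Module.Finite B (R ⧸ I)] [Module.Projective B (R ⧸ I)]
  [Module.Finite B (R ⧸ J)] [Module.Projective B (R ⧸ J)]

omit [Module.Finite B (R ⧸ I)] [Module.Projective B (R ⧸ I)] [Module.Projective B (R ⧸ J)] in
lemma finite_aux : Module.Finite B (I ⧸ (J • ⊤ : Submodule R I)) := by
  haveI : Module.Invertible (R ⧸ J) ((R ⧸ J) ⊗[R] I) := inferInstance
  haveI : Module.Finite B ((R ⧸ J) ⊗[R] I) := Module.Finite.trans (R ⧸ J) _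
  exact Module.Finite.equiv ((TensorProduct.quotTensorEquivQuotSMul I J).restrictScalars B)

omit [Module.Finite B (R ⧸ I)] [Module.Projective B (R ⧸ I)] [Module.Finite B (R ⧸ J)] in
lemma projective_aux : Module.Projective B (I ⧸ (J • ⊤ : Submodule R I)) := by
  haveI : Module.Invertible (R ⧸ J) ((R ⧸ J) ⊗[R] I) := inferInstance
  haveI : Module.Projective B ((R ⧸ J) ⊗[R] I) := projective_trans (R := R ⧸ J)
  exact Module.Projective.of_equiv
    ((TensorProduct.quotTensorEquivQuotSMul I J).restrictScalars B)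

omit [Module.Projective B (R ⧸ I)] [Module.Projective B (R ⧸ J)] in
theorem finite_mul : Module.Finite B (R ⧸ (I * J)) := by
  haveI := finite_aux (B := B) I J
  exact Module.Finite.of_exact (f := (mulIncl I J).restrictScalars B)
    (g := (mulProj I J).restrictScalars B) (mul_exact I J) (mulProj_surjective I J)

omit [Module.Finite B (R ⧸ I)] [Module.Finite B (R ⧸ J)] in
theorem projective_mul : Module.Projective B (R ⧸ (I * J)) := by
  haveI := projective_aux (B := B) I J
  exact projective_of_exact ((mulIncl I J).restrictScalars B)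
    ((mulProj I J).restrictScalars B) (mulIncl_injective I J) (mulProj_surjective I J)
    (mul_exact I J)

end

section Ker

variable {B R : Type u} [CommRing B] [CommRing R] [Algebra B R] (q : R →ₐ[B] B)

lemma surjective_of_section : Function.Surjective q := fun b ↦
  ⟨algebraMap B R b, by simp⟩

/-- `R / ker q ≃ B` -/
def kerEquiv : (R ⧸ RingHom.ker q) ≃ₐ[B] B :=
  Ideal.quotientKerAlgEquivOfSurjective (surjective_of_section q)

instance finite_ker : Module.Finite B (R ⧸ RingHom.ker q) :=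
  Module.Finite.equiv (kerEquiv q).symm.toLinearEquiv

instance projective_ker : Module.Projective B (R ⧸ RingHom.ker q) :=
  Module.Projective.of_equiv (kerEquiv q).symm.toLinearEquiv

lemma finrank_ker {K S : Type u} [Field K] [CommRing S] [Algebra K S] (q : S →ₐ[K] K) :
    Module.finrank K (S ⧸ RingHom.ker q) = 1 := by
  rw [(kerEquiv q).toLinearEquiv.finrank_eq, Module.finrank_self]

end Ker

end Cut

namespace TwoChart

variable {k : Type u} [Field k] (𝒞 : TwoChart k) {B : Type u} [CommRing B] [Algebra k B]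

instance finite_mul0 (I J : Ideal (𝒞.R0 B)) [Module.Finite B (𝒞.R0 B ⧸ I)]
    [Module.Projective B (𝒞.R0 B ⧸ I)] [Module.Finite B (𝒞.R0 B ⧸ J)] :
    Module.Finite B (𝒞.R0 B ⧸ (I * J)) := by
  haveI := 𝒞.invertible_ideal0 I
  exact Cut.finite_mul I J

instance projective_mul0 (I J : Ideal (𝒞.R0 B)) [Module.Finite B (𝒞.R0 B ⧸ I)]
    [Module.Projective B (𝒞.R0 B ⧸ I)] [Module.Projective B (𝒞.R0 B ⧸ J)] :
    Module.Projective B (𝒞.R0 B ⧸ (I * J)) := by
  haveI := 𝒞.invertible_ideal0 I
  exact Cut.projective_mul I J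

instance finite_top0 : Module.Finite B (𝒞.R0 B ⧸ (⊤ : Ideal (𝒞.R0 B))) := by
  haveI : Subsingleton (𝒞.R0 B ⧸ (⊤ : Ideal (𝒞.R0 B))) :=
    Ideal.Quotient.subsingleton_iff.mpr rfl
  infer_instance

instance projective_top0 : Module.Projective B (𝒞.R0 B ⧸ (⊤ : Ideal (𝒞.R0 B))) := by
  haveI : Subsingleton (𝒞.R0 B ⧸ (⊤ : Ideal (𝒞.R0 B))) :=
    Ideal.Quotient.subsingleton_iff.mpr rfl
  infer_instance

/-- colengths add up -/
theorem finrank_mul {K : Type u} [Field K] [Algebra k K] (I J : Ideal (𝒞.R0 K))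
    [Module.Finite K (𝒞.R0 K ⧸ I)] [Module.Finite K (𝒞.R0 K ⧸ J)] :
    Module.finrank K (𝒞.R0 K ⧸ (I * J)) =
      Module.finrank K (𝒞.R0 K ⧸ I) + Module.finrank K (𝒞.R0 K ⧸ J) := by
  have h1 := LB.chi_sub (LB.triv 𝒞 K) (I * J)
  have h2 := LB.chi_sub (LB.triv 𝒞 K) I
  have h3 := LB.chi_sub ((LB.triv 𝒞 K).sub I) J
  have h4 := (LB.subSub (LB.triv 𝒞 K) (Div.ofIdeal I) (Div.ofIdeal J)).chi
  rw [Div.ofIdeal_mul] at h4
  have h5 : ((LB.triv 𝒞 K).sub (I * J)).chi = (((LB.triv 𝒞 K).sub I).sub J).chi := h4.symm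
  rw [h3, h2, h1] at h5
  omega

variable {𝒞}

/-- points on the intersection -/
theorem ofIdeal_ker (q : 𝒞.R01 B →ₐ[B] B) :
    Div.ofIdeal (𝒞 := 𝒞) (RingHom.ker (q.comp (𝒞.ρ0B B))) =
      Div.ofIdeal1 (RingHom.ker (q.comp (𝒞.ρ1B B))) := by
  have h0 : RingHom.ker (q.comp (𝒞.ρ0B B)) = (RingHom.ker q).comap (𝒞.ρ0B B).toRingHom := rfl
  have h1 : RingHom.ker (q.comp (𝒞.ρ1B B)) = (RingHom.ker q).comap (𝒞.ρ1B B).toRingHom := rfl
  refine Div.ext ?_ ?_
  · rw [Div.ofIdeal_I0, Div.ofIdeal1_I0, h1]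
    have h2 := 𝒞.swap.map_comap0 B (RingHom.ker q)
    have h3 : ((RingHom.ker q).comap (𝒞.ρ1B B).toRingHom).map (𝒞.ρ1B B).toRingHom =
      RingHom.ker q := h2
    rw [h3, h0]
  · rw [Div.ofIdeal_I1, Div.ofIdeal1_I1, other, h0, 𝒞.map_comap0 B (RingHom.ker q), h1]

end TwoChart

end Fermat.Agent.S25
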