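import Fermat.Agent.S25.Geom

/-!
# S25: functions on `C_B` over an affine open of `C` are `B ⊗ A`.
-/

set_option autoImplicit false

universe u

open CategoryTheory CategoryTheory.Limits AlgebraicGeometry TopologicalSpace Opposite
open NeronModelInfra AlgebraicGeometry.RelPicard
open scoped TensorProduct

noncomputable section

namespace Fermat.Agent.S25

section lift

variable {k A B R : Type u} [CommRing k] [CommRing A] [CommRing B] [CommRing R] [Algebra k A]
  [Algebra k B]

/-- ring homomorphisms out of `B ⊗[k] A`. -/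
def liftHom (f : B →+* R) (g : A →+* R)
    (h : f.comp (algebraMap k B) = g.comp (algebraMap k A)) : B ⊗[k] A →+* R :=
  letI : Algebra k R := (f.comp (algebraMap k B)).toAlgebra
  (Algebra.TensorProduct.lift (A := B) (B := A) (C := R) (S := k)
    (⟨f, fun _ ↦ rfl⟩ : B →ₐ[k] R)
    (⟨g, fun x ↦ congr($h.symm x)⟩ : A →ₐ[k] R) (fun _ _ ↦ .all _ _)).toRingHom

@[simp]
lemma liftHom_tmul (f : B →+* R) (g : A →+* R)
    (h : f.comp (algebraMap k B) = g.comp (algebraMap k A)) (b : B) (a : A) :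
    liftHom f g h (b ⊗ₜ a) = f b * g a := by
  let _ : Algebra k R := (f.comp (algebraMap k B)).toAlgebra
  exact Algebra.TensorProduct.lift_tmul (A := B) (B := A) (C := R) (S := k)
    (⟨f, fun _ ↦ rfl⟩ : B →ₐ[k] R)
    (⟨g, fun x ↦ congr($h.symm x)⟩ : A →ₐ[k] R) (fun _ _ ↦ .all _ _) b a

lemma hom_ext_tensor {f g : B ⊗[k] A →+* R} (h1 : ∀ b : B, f (b ⊗ₜ 1) = g (b ⊗ₜ 1))
    (h2 : ∀ a : A, f (1 ⊗ₜ a) = g (1 ⊗ₜ a)) : f = g :=
  Algebra.TensorProduct.ringHom_ext (RingHom.ext h1) (RingHom.ext h2)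

/-- The universal property of the tensor product: bijectivity of `liftHom` from a pushout. -/
lemma liftHom_bijective (f : B →+* R) (g : A →+* R)
    (h : f.comp (algebraMap k B) = g.comp (algebraMap k A))
    (hp : IsPushout (CommRingCat.ofHom (algebraMap k B)) (CommRingCat.ofHom (algebraMap k A))
      (CommRingCat.ofHom f) (CommRingCat.ofHom g)) : Function.Bijective (liftHom f g h) := by
  let e := (CommRingCat.isPushout_tensorProduct k B A).isoIsPushout _ _ hp
  have h1 : liftHom f g h = e.hom.hom := by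
    refine hom_ext_tensor (fun b ↦ ?_) (fun a ↦ ?_)
    · have := IsPushout.inl_isoIsPushout_hom _ _ (CommRingCat.isPushout_tensorProduct k B A) hp
      have := congr(($this).hom b)
      rw [liftHom_tmul, map_one, mul_one]
      exact this.symm
    · have := IsPushout.inr_isoIsPushout_hom _ _ (CommRingCat.isPushout_tensorProduct k B A) hp
      have := congr(($this).hom a)
      rw [liftHom_tmul, map_one, one_mul]
      exact this.symm
  rw [h1]
  exact ConcreteCategory.bijective_of_isIso e.hom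

end lift

section

variable {k : Type u} [CommRing k] {C : Scheme.{u}} (c : C ⟶ Spec (CommRingCat.of k))
  (B : Type u) [CommRing B] [Algebra k B]

variable (k) in
/-- `Spec B ⟶ Spec k` -/
abbrev tB : Spec (CommRingCat.of B) ⟶ Spec (CommRingCat.of k) :=
  Spec.map (CommRingCat.ofHom (algebraMap k B))

/-- the base change `C_B`. -/
abbrev XB : Scheme.{u} := pullback c (tB k B)

/-- first projection -/
abbrev pC : XB c B ⟶ C := pullback.fst c (tB k B)

/-- second projection -/
abbrev qB : XB c B ⟶ Spec (CommRingCat.of B) := pullback.snd c (tB k B)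

/-- the scalars `B → Γ(C_B, V)` -/
def baseHom (V : (XB c B).Opens) : B →+* Γ(XB c B, V) :=
  ((qB c B).appLE ⊤ V le_top).hom.comp (Scheme.ΓSpecIso (CommRingCat.of B)).inv.hom

lemma appLE_top_top {X Y : Scheme.{u}} (f : X ⟶ Y) : f.appLE ⊤ ⊤ le_top = f.appTop := by
  simp [Scheme.Hom.appTop, Scheme.Hom.appLE]

lemma baseHom_comp {k : Type u} [Field k] {C : Scheme.{u}} (c : C ⟶ Spec (CommRingCat.of k))
    (B : Type u) [CommRing B] [Algebra k B] (U : C.Opens) (V : (XB c B).Opens)
    (h : V ≤ pC c B ⁻¹ᵁ U) :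
    (baseHom c B V).comp (algebraMap k B) = ((pC c B).appLE U V h).hom.comp (scal c U) := by
  have h1 := Scheme.ΓSpecIso_inv_naturality (CommRingCat.ofHom (algebraMap k B))
  have h2 : (tB k B).appTop ≫ (qB c B).appLE ⊤ V le_top =
      c.appLE ⊤ U le_top ≫ (pC c B).appLE U V h := by
    rw [← appLE_top_top, Scheme.Hom.appLE_comp_appLE, Scheme.Hom.appLE_comp_appLE]
    simp only [pullback.condition]
  have h3 : CommRingCat.ofHom (algebraMap k B) ≫ (Scheme.ΓSpecIso (CommRingCat.of B)).inv ≫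
      (qB c B).appLE ⊤ V le_top = (Scheme.ΓSpecIso (CommRingCat.of k)).inv ≫
      c.appLE ⊤ U le_top ≫ (pC c B).appLE U V h := by
    rw [← h2, reassoc_of% h1]
  exact congr(($h3).hom)

end

section

variable {k : Type u} [Field k] {C : Scheme.{u}} (c : C ⟶ Spec (CommRingCat.of k))
  (B : Type u) [CommRing B] [Algebra k B]
  {A : Type u} [CommRing A] [Algebra k A] {U : C.Opens}

/-- The map `B ⊗ A → Γ(C_B, V)`, for `A = Γ(C, U)` and `V ≤ U_B`. -/
def theta (α : A →+* Γ(C, U)) (hα : ∀ x, α (algebraMap k A x) = scal c U x)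
    {V : (XB c B).Opens} (h : V ≤ pC c B ⁻¹ᵁ U) : B ⊗[k] A →+* Γ(XB c B, V) :=
  liftHom (baseHom c B V) (((pC c B).appLE U V h).hom.comp α) (by
    rw [baseHom_comp c B U V h]
    ext x
    simp [hα])

lemma theta_tmul (α : A →+* Γ(C, U)) (hα : ∀ x, α (algebraMap k A x) = scal c U x)
    {V : (XB c B).Opens} (h : V ≤ pC c B ⁻¹ᵁ U) (b : B) (a : A) :
    theta c B α hα h (b ⊗ₜ a) = baseHom c B V b * (pC c B).appLE U V h (α a) :=
  liftHom_tmul _ _ _ _ _

lemma theta_bijective (hU : IsAffineOpen U) (α : A →+* Γ(C, U))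
    (hα : ∀ x, α (algebraMap k A x) = scal c U x) (hα' : Function.Bijective α)
    {V : (XB c B).Opens} (h : V ≤ pC c B ⁻¹ᵁ U) (h' : V = pC c B ⁻¹ᵁ U) :
    Function.Bijective (theta c B α hα h) := by
  have hV : V = pC c B ⁻¹ᵁ U ⊓ qB c B ⁻¹ᵁ ⊤ := by
    rw [h']
    simp
  have H := IsPullback.of_hasPullback c (tB k B)
  have h1 := isIso_pushoutSection_of_isAffineOpen H (US := ⊤) (UT := ⊤) (UX := U) (UY := V)
    le_top le_top hV (isAffineOpen_top _) (isAffineOpen_top _) hU
  rw [isIso_pushoutSection_iff] at h1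
  refine liftHom_bijective _ _ _ ?_
  refine h1.flip.of_iso (Scheme.ΓSpecIso (CommRingCat.of k)) (Scheme.ΓSpecIso (CommRingCat.of B))
    (RingEquiv.ofBijective α hα').symm.toCommRingCatIso (Iso.refl _) ?_ ?_ ?_ ?_
  · rw [appLE_top_top]
    exact Scheme.ΓSpecIso_naturality (CommRingCat.ofHom (algebraMap k B))
  · rw [← Iso.inv_comp_eq]
    ext x
    simp only [RingEquiv.toCommRingCatIso_hom, CommRingCat.hom_comp, CommRingCat.hom_ofHom,
      RingHom.coe_comp, RingHom.coe_coe, Function.comp_apply]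
    rw [RingEquiv.symm_apply_eq]
    exact (hα x).symm
  · rw [← Iso.inv_comp_eq]
    rfl
  · rw [← Iso.inv_comp_eq]
    rfl

lemma baseHom_res {V V' : (XB c B).Opens} (h : V' ≤ V) (b : B) :
    (XB c B).presheaf.map (homOfLE h).op (baseHom c B V b) = baseHom c B V' b := by
  have h1 : (qB c B).appLE ⊤ V le_top ≫ (XB c B).presheaf.map (homOfLE h).op =
    (qB c B).appLE ⊤ V' le_top := Scheme.Hom.appLE_map _ _ _
  exact congr(($h1).hom ((Scheme.ΓSpecIso (CommRingCat.of B)).inv.hom b))

/-- compatibility of `theta` with restriction -/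
lemma theta_res {A' : Type u} [CommRing A'] [Algebra k A'] {U' : C.Opens} (hU' : U' ≤ U)
    (α : A →+* Γ(C, U)) (hα : ∀ x, α (algebraMap k A x) = scal c U x)
    (α' : A' →+* Γ(C, U')) (hα' : ∀ x, α' (algebraMap k A' x) = scal c U' x)
    (ρ : A →ₐ[k] A') (hρ : ∀ a, α' (ρ a) = C.presheaf.map (homOfLE hU').op (α a))
    {V V' : (XB c B).Opens} (h : V ≤ pC c B ⁻¹ᵁ U) (h' : V' ≤ pC c B ⁻¹ᵁ U') (hV : V' ≤ V)
    (x : B ⊗[k] A) :
    theta c B α' hα' h' (Algebra.TensorProduct.map (AlgHom.id B B) ρ x) =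
      (XB c B).presheaf.map (homOfLE hV).op (theta c B α hα h x) := by
  have : (theta c B α' hα' h').comp (Algebra.TensorProduct.map (AlgHom.id B B) ρ).toRingHom =
    ((XB c B).presheaf.map (homOfLE hV).op).hom.comp (theta c B α hα h) := by
    refine hom_ext_tensor (fun b ↦ ?_) (fun a ↦ ?_)
    · simp [theta_tmul, baseHom_res]
    · simp only [RingHom.coe_comp, Function.comp_apply, AlgHom.toRingHom_eq_coe, RingHom.coe_coe,
        Algebra.TensorProduct.map_tmul, map_one, theta_tmul, one_mul, hρ]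
      have h1 : C.presheaf.map (homOfLE hU').op ≫ (pC c B).appLE U' V' h' =
        (pC c B).appLE U V h ≫ (XB c B).presheaf.map (homOfLE hV).op := by
        simp
      exact congr(($h1).hom (α a))
  exact congr($this x)

variable {B' : Type u} [CommRing B'] [Algebra k B'] (φ : B →ₐ[k] B')

/-- the morphism `Spec B' ⟶ Spec B` over `Spec k`. -/
def specHom : SchemeHomOver (tB k B') (tB k B) :=
  ⟨Spec.map (CommRingCat.ofHom φ.toRingHom), by
    rw [← Spec.map_comp, ← CommRingCat.ofHom_comp]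
    congr 2
    exact φ.comp_algebraMap⟩

lemma baseChangeSnd_snd : baseChangeSnd c (specHom B φ) ≫ qB c B =
    qB c B' ≫ Spec.map (CommRingCat.ofHom φ.toRingHom) :=
  pullback.lift_snd _ _ _

lemma baseChangeSnd_fst : baseChangeSnd c (specHom B φ) ≫ pC c B = pC c B' :=
  (pullback.lift_fst _ _ _).trans (Category.comp_id _)

lemma rigSection_fst (ε : SchemeHomOver (𝟙 (Spec (CommRingCat.of k))) c) :
    rigSection c (tB k B) ε ≫ pC c B = tB k B ≫ ε.1 := pullback.lift_fst _ _ _

lemma rigSection_snd (ε : SchemeHomOver (𝟙 (Spec (CommRingCat.of k))) c) :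
    rigSection c (tB k B) ε ≫ qB c B = 𝟙 _ := pullback.lift_snd _ _ _

lemma baseHom_bc {V : (XB c B).Opens} {V' : (XB c B').Opens}
    (hV : V' ≤ baseChangeSnd c (specHom B φ) ⁻¹ᵁ V) (b : B) :
    (baseChangeSnd c (specHom B φ)).appLE V V' hV (baseHom c B V b) =
      baseHom c B' V' (φ b) := by
  have h1 := Scheme.ΓSpecIso_inv_naturality (CommRingCat.ofHom φ.toRingHom)
  have h2 : (qB c B).appLE ⊤ V le_top ≫ (baseChangeSnd c (specHom B φ)).appLE V V' hV =
      (Spec.map (CommRingCat.ofHom φ.toRingHom)).appTop ≫ (qB c B').appLE ⊤ V' le_top := by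
    rw [← appLE_top_top, Scheme.Hom.appLE_comp_appLE, Scheme.Hom.appLE_comp_appLE]
    simp only [baseChangeSnd_snd]
  have h3 : (Scheme.ΓSpecIso (CommRingCat.of B)).inv ≫ (qB c B).appLE ⊤ V le_top ≫
      (baseChangeSnd c (specHom B φ)).appLE V V' hV = CommRingCat.ofHom φ.toRingHom ≫
      (Scheme.ΓSpecIso (CommRingCat.of B')).inv ≫ (qB c B').appLE ⊤ V' le_top := by
    rw [h2, reassoc_of% h1]
  exact congr(($h3).hom b)

/-- compatibility of `theta` with base change -/
lemma theta_bc (α : A →+* Γ(C, U)) (hα : ∀ x, α (algebraMap k A x) = scal c U x)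
    {V : (XB c B).Opens} {V' : (XB c B').Opens} (h : V ≤ pC c B ⁻¹ᵁ U) (h' : V' ≤ pC c B' ⁻¹ᵁ U)
    (hV : V' ≤ baseChangeSnd c (specHom B φ) ⁻¹ᵁ V) (x : B ⊗[k] A) :
    theta c B' α hα h' (Algebra.TensorProduct.map φ (AlgHom.id k A) x) =
      (baseChangeSnd c (specHom B φ)).appLE V V' hV (theta c B α hα h x) := by
  have : (theta c B' α hα h').comp (Algebra.TensorProduct.map φ (AlgHom.id k A)).toRingHom =
    ((baseChangeSnd c (specHom B φ)).appLE V V' hV).hom.comp (theta c B α hα h) := by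
    refine hom_ext_tensor (fun b ↦ ?_) (fun a ↦ ?_)
    · simp [theta_tmul, baseHom_bc]
    · simp only [RingHom.coe_comp, Function.comp_apply, AlgHom.toRingHom_eq_coe, RingHom.coe_coe,
        Algebra.TensorProduct.map_tmul, map_one, theta_tmul, one_mul]
      have h1 : (pC c B).appLE U V h ≫ (baseChangeSnd c (specHom B φ)).appLE V V' hV =
        (pC c B').appLE U V' h' := by
        rw [Scheme.Hom.appLE_comp_appLE]
        simp only [baseChangeSnd_fst]
      exact congr(($h1).hom (α a)).symm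
  exact congr($this x)

/-- compatibility of `theta` with the section -/
lemma theta_sec (ε : SchemeHomOver (𝟙 (Spec (CommRingCat.of k))) c)
    (hε1 : ε.1 ⁻¹ᵁ U = ⊤) (εA : A →ₐ[k] k)
    (α : A →+* Γ(C, U)) (hα : ∀ x, α (algebraMap k A x) = scal c U x)
    (hε : ∀ a, (Scheme.ΓSpecIso (CommRingCat.of k)).hom.hom
      ((ε.1.appLE U ⊤ (le_of_eq hε1.symm)).hom (α a)) = εA a)
    {V : (XB c B).Opens} (h : V ≤ pC c B ⁻¹ᵁ U) (hV : ⊤ ≤ rigSection c (tB k B) ε ⁻¹ᵁ V)
    (x : B ⊗[k] A) :
    (rigSection c (tB k B) ε).appLE V ⊤ hV (theta c B α hα h x) =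
      (Scheme.ΓSpecIso (CommRingCat.of B)).inv.hom
        (Algebra.TensorProduct.lift (AlgHom.id B B) ((Algebra.ofId k B).comp εA)
          (fun _ _ ↦ .all _ _) x) := by
  have : ((rigSection c (tB k B) ε).appLE V ⊤ hV).hom.comp (theta c B α hα h) =
    (Scheme.ΓSpecIso (CommRingCat.of B)).inv.hom.comp
        (Algebra.TensorProduct.lift (AlgHom.id B B) ((Algebra.ofId k B).comp εA)
          (fun _ _ ↦ .all _ _)).toRingHom := by
    refine hom_ext_tensor (fun b ↦ ?_) (fun a ↦ ?_)
    · simp only [RingHom.coe_comp, Function.comp_apply, theta_tmul, map_one, mul_one,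
        AlgHom.toRingHom_eq_coe, RingHom.coe_coe, Algebra.TensorProduct.lift_tmul]
      have h1 : (qB c B).appLE ⊤ V le_top ≫ (rigSection c (tB k B) ε).appLE V ⊤ hV = 𝟙 _ := by
        rw [Scheme.Hom.appLE_comp_appLE]
        simp only [rigSection_snd]
        rw [appLE_top_top]
        rfl
      exact congr(($h1).hom ((Scheme.ΓSpecIso (CommRingCat.of B)).inv.hom b))
    · simp only [RingHom.coe_comp, Function.comp_apply, theta_tmul, map_one, one_mul,
        AlgHom.toRingHom_eq_coe, RingHom.coe_coe, Algebra.TensorProduct.lift_tmul]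
      have h1 : (pC c B).appLE U V h ≫ (rigSection c (tB k B) ε).appLE V ⊤ hV =
        ε.1.appLE U ⊤ (le_of_eq hε1.symm) ≫ (tB k B).appTop := by
        rw [← appLE_top_top, Scheme.Hom.appLE_comp_appLE, Scheme.Hom.appLE_comp_appLE]
        simp only [rigSection_fst]
      have h2 := Scheme.ΓSpecIso_inv_naturality (CommRingCat.ofHom (algebraMap k B))
      have h3 : CommRingCat.ofHom (algebraMap k B) ≫ (Scheme.ΓSpecIso (CommRingCat.of B)).inv =
        (Scheme.ΓSpecIso (CommRingCat.of k)).inv ≫ (tB k B).appTop := h2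
      have h4 : (ε.1.appLE U ⊤ (le_of_eq hε1.symm)) (α a) =
          (Scheme.ΓSpecIso (CommRingCat.of k)).inv (εA a) := by
        rw [← hε a]
        exact ((Scheme.ΓSpecIso (CommRingCat.of k)).hom_inv_id_apply _).symm
      refine (congr(($h1).hom (α a))).trans ?_
      refine Eq.trans (congrArg (tB k B).appTop h4) ?_
      exact congr(($h3).hom (εA a)).symm
  exact congr($this x)

end

end Fermat.Agent.S25
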